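import Fermat.Agent.GalCoh.LocalDuality
import Fermat.Prelude.Def_GaloisRep_CompletionBridge

/-!
The map from the Galois group of an algebraic closure of `ℚ_q` to that of `ℚ`: it is injective,
its image is the decomposition group, and it is compatible with the levels in both directions.
-/

set_option autoImplicit false
set_option linter.unusedSectionVars false

noncomputable section

namespace FA.GalCoh

open Polynomial IntermediateField
open scoped Pointwise

instance isAlgebraicRatClosure : Algebra.IsAlgebraic ℚ (AlgebraicClosure ℚ) :=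
  AlgebraicClosure.isAlgebraic ℚ

instance isAlgClosureRatClosure : IsAlgClosure ℚ (AlgebraicClosure ℚ) :=
  ⟨inferInstance, inferInstance⟩

instance normalRatClosure : Normal ℚ (AlgebraicClosure ℚ) :=
  IsAlgClosure.normal ℚ (AlgebraicClosure ℚ)

instance isGaloisRatClosure : IsGalois ℚ (AlgebraicClosure ℚ) := ⟨⟩

/-- The absolute Galois group of `ℚ`. -/
abbrev GQ : Type := AlgebraicClosure ℚ ≃ₐ[ℚ] AlgebraicClosure ℚ

/-- All the levels of the absolute Galois group of `ℚ`. -/
abbrev LQ : Levels GQ := fieldLevels ℚ (AlgebraicClosure ℚ)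

variable {q : ℕ} [hq : Fact q.Prime]

/-- The map of Galois groups. -/
abbrev loc (q : ℕ) [Fact q.Prime] : LG q →* GQ := localGaloisToGlobal q

theorem iota_loc (τ : LG q) (x : AlgebraicClosure ℚ) :
    padicEmbedding q (loc q τ x) = τ (padicEmbedding q x) :=
  padicEmbedding_localGaloisToGlobal q τ x

theorem compat_loc : Compat LQ (LL q) (loc q) := by
  rintro N ⟨F, hF, hFN⟩
  let E : IntermediateField ℚ_[q] (PadicAlgCl q) :=
    adjoin ℚ_[q] (padicEmbedding q '' (F : Set (AlgebraicClosure ℚ)))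
  have hfin : FiniteDimensional ℚ_[q] E := by
    let b := Module.finBasis ℚ F
    have hle : E ≤ adjoin ℚ_[q] (Set.range fun i => padicEmbedding q (b i : AlgebraicClosure ℚ)) := by
      refine adjoin_le_iff.2 ?_
      rintro _ ⟨x, hx, rfl⟩
      rw [show x = ((∑ i, b.repr ⟨x, hx⟩ i • b i : F) : AlgebraicClosure ℚ) by rw [b.sum_repr],
        IntermediateField.coe_sum, map_sum]
      refine sum_mem fun i _ => ?_
      rw [IntermediateField.coe_smul, Algebra.smul_def, map_mul, AlgHom.commutes]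
      refine mul_mem ?_ (subset_adjoin _ _ ⟨i, rfl⟩)
      rw [IsScalarTower.algebraMap_apply ℚ ℚ_[q] (PadicAlgCl q)]
      exact IntermediateField.algebraMap_mem _ _
    have : FiniteDimensional ℚ_[q]
        (adjoin ℚ_[q] (Set.range fun i => padicEmbedding q (b i : AlgebraicClosure ℚ))) :=
      IntermediateField.finiteDimensional_adjoin fun x _ =>
        (Algebra.IsAlgebraic.isAlgebraic (R := ℚ_[q]) x).isIntegral
    exact FiniteDimensional.of_injective (IntermediateField.inclusion hle).toLinearMap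
      (IntermediateField.inclusion_injective hle)
  refine ⟨E.fixingSubgroup, fixingSubgroup_mem_fieldLevels E, fun τ hτ => hFN ?_⟩
  refine (IntermediateField.mem_fixingSubgroup_iff _ _).2 fun x hx => (padicEmbedding q).injective ?_
  show padicEmbedding q (loc q τ x) = padicEmbedding q x
  rw [iota_loc]
  exact (IntermediateField.mem_fixingSubgroup_iff _ τ).1 hτ _ (subset_adjoin _ _ ⟨x, hx, rfl⟩)

/-- Every finite extension of `ℚ_q` is generated by an algebraic number. -/
theorem exists_adjoin_iota (α : PadicAlgCl q) :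
    ∃ β : AlgebraicClosure ℚ, α ∈ ℚ_[q]⟮padicEmbedding q β⟯ := by
  classical
  set g := minpoly ℚ_[q] α with hg
  have hαi : IsIntegral ℚ_[q] α := (Algebra.IsAlgebraic.isAlgebraic α).isIntegral
  obtain ⟨δ, hδ, hδle⟩ : ∃ δ > 0, ∀ a' ∈ (g.aroots (PadicAlgCl q)), α ≠ a' → δ ≤ ‖α - a'‖ := by
    let S : Finset (PadicAlgCl q) := (g.aroots (PadicAlgCl q)).toFinset.filter (α ≠ ·)
    by_cases hS : S.Nonempty
    · refine ⟨(S.image fun x => ‖α - x‖).min' (hS.image _), ?_, fun a' ha' hne => ?_⟩
      · simp only [gt_iff_lt, Finset.lt_min'_iff, Finset.mem_image, forall_exists_index, and_imp,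
          forall_apply_eq_imp_iff₂]
        intro a ha
        rw [norm_pos_iff, sub_ne_zero]
        exact (Finset.mem_filter.1 ha).2
      · exact Finset.min'_le _ _ (Finset.mem_image_of_mem _
          (Finset.mem_filter.2 ⟨Multiset.mem_toFinset.2 ha', hne⟩))
    · refine ⟨1, one_pos, fun a' ha' hne => absurd ⟨a', ?_⟩ hS⟩
      exact Finset.mem_filter.2 ⟨Multiset.mem_toFinset.2 ha', hne⟩
  have hn0 : g.natDegree ≠ 0 := (minpoly.natDegree_pos hαi).ne'
  set ε : ℝ := (δ / max ‖α‖ 1) ^ g.natDegree / (g.natDegree + 1) with hεdef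
  have hε : 0 < ε := by positivity
  have hd : DenseRange (algebraMap ℚ ℚ_[q]) := by
    rw [show ⇑(algebraMap ℚ ℚ_[q]) = ((↑) : ℚ → ℚ_[q]) from funext fun r => eq_ratCast _ r]
    exact Padic.denseRange_ratCast (p := q)
  obtain ⟨f, fmon, fdeg, fcoeff⟩ :=
    exists_monic_and_natDegree_eq_and_norm_map_algebraMap_coeff_sub_lt hd (minpoly.monic hαi) hε
  obtain ⟨b, hb, hab⟩ := exists_aroots_norm_sub_lt_of_norm_coeff_sub_lt hε (minpoly.aeval _ α)
    (minpoly.monic hαi) (fmon.map (algebraMap ℚ ℚ_[q]))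
    (by rw [natDegree_map, fdeg]) fcoeff (IsAlgClosed.splits _)
  have hab' : ‖α - b‖ < δ := by
    refine lt_of_lt_of_le hab (le_of_eq ?_)
    rw [hεdef, mul_div_cancel₀ _ (by positivity), ← Real.rpow_natCast,
      ← Real.rpow_mul (by positivity), mul_inv_cancel₀ (Nat.cast_ne_zero.2 hn0), Real.rpow_one,
      div_mul_cancel₀ _ (by positivity)]
  -- the root is algebraic over `ℚ`
  have hbQ : b ∈ f.aroots (PadicAlgCl q) := by
    rwa [aroots_def, Polynomial.map_map, ← IsScalarTower.algebraMap_eq] at hb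
  obtain ⟨β, -, rfl⟩ : ∃ β ∈ f.aroots (AlgebraicClosure ℚ), padicEmbedding q β = b := by
    rw [aroots_def, ← (padicEmbedding q).comp_algebraMap, ← Polynomial.map_map,
      (IsAlgClosed.splits _).roots_map, Multiset.mem_map] at hbQ
    exact hbQ
  refine ⟨β, IsKrasner.krasner (minpoly.irreducible hαi).separable (IsAlgClosed.splits _)
    (Algebra.IsAlgebraic.isAlgebraic _).isIntegral fun a' ha' hne => ?_⟩
  refine lt_of_lt_of_le hab' (hδle a' ?_ hne)
  have := (isConjRoot_iff_mem_minpoly_rootSet hαi).1 ha'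
  rwa [rootSet_def, Finset.mem_coe, Multiset.mem_toFinset] at this

/-- The levels of `ℚ` are cofinal. -/
theorem exists_comap_loc_le {N : Subgroup (LG q)} (hN : N ∈ (LL q).carrier) :
    ∃ M ∈ LQ.carrier, M.comap (loc q) ≤ N := by
  obtain ⟨E, hE, hEN⟩ := hN
  obtain ⟨α, hα⟩ := Field.exists_primitive_element ℚ_[q] E
  obtain ⟨β, hβ⟩ := exists_adjoin_iota (α : PadicAlgCl q)
  have := adjoin.finiteDimensional
    ((Algebra.IsAlgebraic.isAlgebraic (R := ℚ) β).isIntegral)
  refine ⟨(adjoin ℚ {β}).fixingSubgroup, fixingSubgroup_mem_fieldLevels _, fun τ hτ => hEN ?_⟩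
  have hfix : τ (padicEmbedding q β) = padicEmbedding q β := by
    rw [← iota_loc, (IntermediateField.mem_fixingSubgroup_iff _ _).1 hτ β (mem_adjoin_simple_self ℚ β)]
  have hle : E ≤ ℚ_[q]⟮padicEmbedding q β⟯ := by
    have h := congrArg IntermediateField.lift hα
    rw [lift_adjoin_simple, lift_top] at h
    rw [← h, adjoin_simple_le_iff]
    exact hβ
  refine (IntermediateField.fixingSubgroup_antitone hle) ?_
  rw [IntermediateField.mem_fixingSubgroup_iff]
  intro x hx
  induction hx using adjoin_induction with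
  | mem y hy => rw [Set.mem_singleton_iff.1 hy]; exact hfix
  | algebraMap r => exact τ.commutes r
  | add x y _ _ hx hy => rw [map_add, hx, hy]
  | inv x _ hx => rw [map_inv₀, hx]
  | mul x y _ _ hx hy => rw [map_mul, hx, hy]

theorem loc_injective : Function.Injective (loc q) := by
  refine (injective_iff_map_eq_one _).2 fun τ hτ => AlgEquiv.ext fun x => ?_
  obtain ⟨N, hN, hs⟩ := (galAct_fieldLevels (F := ℚ_[q]) (Ω := PadicAlgCl q)).smooth x
  obtain ⟨M, -, hMN⟩ := exists_comap_loc_le hN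
  exact hs τ (hMN (Subgroup.mem_comap.2 (by rw [hτ]; exact M.one_mem)))

/-- An element preserving the place preserves the norm. -/
theorem norm_iota_of_mem {σ : GQ} (hσ : σ ∈ (padicPlace q).decompositionSubgroup ℚ)
    (x : AlgebraicClosure ℚ) : ‖padicEmbedding q (σ x)‖ = ‖padicEmbedding q x‖ := by
  rcases eq_or_ne x 0 with rfl | hx
  · simp
  have hiff : ∀ y, σ y ∈ padicPlace q ↔ y ∈ padicPlace q := fun y => by
    conv_lhs => rw [← MulAction.mem_stabilizer_iff.1 hσ, ← AlgEquiv.smul_def]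
    exact ValuationSubring.smul_mem_pointwise_smul_iff
  have hle : ∀ y, ‖padicEmbedding q (σ y)‖ ≤ 1 ↔ ‖padicEmbedding q y‖ ≤ 1 := fun y => by
    simpa [mem_padicPlace_iff, ← NNReal.coe_le_coe] using hiff y
  have hy0 : padicEmbedding q x ≠ 0 := (_root_.map_ne_zero _).2 hx
  have := adjoin.finiteDimensional
    ((Algebra.IsAlgebraic.isAlgebraic (R := ℚ_[q]) (padicEmbedding q x)).isIntegral)
  obtain ⟨m, hm⟩ := norm_pow_finrank (ℚ_[q]⟮padicEmbedding q x⟯) _
    (mem_adjoin_simple_self ℚ_[q] _) hy0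
  set n := Module.finrank ℚ_[q] ℚ_[q]⟮padicEmbedding q x⟯
  have hn : 0 < n := Module.finrank_pos
  rw [← inv_inv (q : ℝ), ← norm_q, inv_zpow, ← zpow_neg] at hm
  have hone : ∀ y : AlgebraicClosure ℚ, y ≠ 0 → ‖padicEmbedding q y‖ = 1 →
      ‖padicEmbedding q (σ y)‖ = 1 := fun y hy0 hy => by
    refine le_antisymm ((hle y).2 hy.le) ?_
    have := (hle y⁻¹).2 (by rw [map_inv₀, norm_inv, hy, inv_one])
    rwa [map_inv₀, map_inv₀, norm_inv, inv_le_one₀] at this
    exact norm_pos_iff.2 ((_root_.map_ne_zero _).2 ((_root_.map_ne_zero _).2 hy0))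
  have h := hone (x ^ n / (q : AlgebraicClosure ℚ) ^ (-m))
    (div_ne_zero (pow_ne_zero _ hx) (zpow_ne_zero _ (Nat.cast_ne_zero.2 hq.out.ne_zero)))
    (by rw [map_div₀, map_pow, map_zpow₀, map_natCast, norm_div, norm_pow, norm_zpow, hm,
      div_self (zpow_ne_zero _ (norm_ne_zero_iff.2 q_ne_zero))])
  rw [map_div₀, map_pow, map_zpow₀, map_natCast, map_div₀, map_pow, map_zpow₀, map_natCast,
    norm_div, norm_pow, norm_zpow, div_eq_one_iff_eq
      (zpow_ne_zero _ (norm_ne_zero_iff.2 q_ne_zero)), ← hm] at h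
  exact (pow_left_inj₀ (norm_nonneg _) (norm_nonneg _) hn.ne').1 h

theorem exists_loc_sub_mem {σ : GQ} (hσ : σ ∈ (padicPlace q).decompositionSubgroup ℚ)
    {M : Subgroup GQ} (hM : M ∈ LQ.carrier) : ∃ τ : LG q, (loc q τ)⁻¹ * σ ∈ M := by
  obtain ⟨F, hF, hFM⟩ := hM
  obtain ⟨α, hα⟩ := Field.exists_primitive_element ℚ F
  set y := padicEmbedding q (α : AlgebraicClosure ℚ)
  set y' := padicEmbedding q (σ (α : AlgebraicClosure ℚ))
  set g := minpoly ℚ_[q] y
  have hy : IsIntegral ℚ_[q] y := (Algebra.IsAlgebraic.isAlgebraic _).isIntegral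
  -- the conjugate is a root of the same polynomial
  have hroot : g.aeval y' = 0 := by
    rw [← norm_le_zero_iff]
    refine le_of_forall_pos_le_add fun η hη => ?_
    rw [zero_add]
    set B := max 1 (max ‖y‖ ‖y'‖) ^ g.natDegree
    have hB : 0 < B := pow_pos (lt_of_lt_of_le one_pos (le_max_left _ _)) _
    have hd : DenseRange (algebraMap ℚ ℚ_[q]) := by
      rw [show ⇑(algebraMap ℚ ℚ_[q]) = ((↑) : ℚ → ℚ_[q]) from funext fun r => eq_ratCast _ r]
      exact Padic.denseRange_ratCast (p := q)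
    obtain ⟨f, -, fdeg, fcoeff⟩ :=
      exists_monic_and_natDegree_eq_and_norm_map_algebraMap_coeff_sub_lt hd (minpoly.monic hy)
        (div_pos hη hB)
    set P := f.map (algebraMap ℚ ℚ_[q]) - g
    have hP : ∀ z : PadicAlgCl q, ‖z‖ ≤ max ‖y‖ ‖y'‖ → ‖P.aeval z‖ ≤ η := fun z hz => by
      rw [Polynomial.aeval_eq_sum_range]
      refine IsUltrametricDist.norm_sum_le_of_forall_le_of_nonneg hη.le fun i hi => ?_
      rw [norm_smul, norm_pow]
      calc ‖P.coeff i‖ * ‖z‖ ^ i ≤ η / B * B := by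
            refine mul_le_mul ?_ ?_ (by positivity) (by positivity)
            · rw [coeff_sub]; exact (fcoeff i).le
            · refine (pow_le_pow_left₀ (norm_nonneg z) (hz.trans (le_max_right 1 _)) i).trans ?_
              refine pow_le_pow_right₀ (le_max_left _ _) ?_
              have hle : P.natDegree ≤ g.natDegree := (natDegree_sub_le _ _).trans (by
                rw [natDegree_map, ← fdeg, max_self])
              have := Finset.mem_range.1 hi
              omega
        _ = η := div_mul_cancel₀ η hB.ne'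
    have hf : ∀ z : AlgebraicClosure ℚ, (f.map (algebraMap ℚ ℚ_[q])).aeval (padicEmbedding q z)
        = padicEmbedding q (f.aeval z) := fun z => by
      rw [aeval_map_algebraMap, ← aeval_algHom_apply]
    have h1 : g.aeval y' = (f.map (algebraMap ℚ ℚ_[q])).aeval y' - P.aeval y' := by
      rw [map_sub]; abel
    have h2 : ‖(f.map (algebraMap ℚ ℚ_[q])).aeval y'‖ ≤ η := by
      rw [hf, Polynomial.aeval_algHom_apply σ, norm_iota_of_mem hσ, ← hf]
      have := hP y (le_max_left _ _)
      rwa [map_sub, minpoly.aeval, sub_zero] at this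
    rw [h1]
    rw [sub_eq_add_neg]
    exact norm_add_le_of_le h2 (by rw [norm_neg]; exact hP y' (le_max_right _ _))
  obtain ⟨τ, hτ⟩ := minpoly.exists_algEquiv_of_root' (Algebra.IsAlgebraic.isAlgebraic y) hroot
  refine ⟨τ, hFM ((IntermediateField.mem_fixingSubgroup_iff _ _).2 fun x hx => ?_)⟩
  have hα' : loc q τ (α : AlgebraicClosure ℚ) = σ (α : AlgebraicClosure ℚ) :=
    (padicEmbedding q).injective (show padicEmbedding q _ = padicEmbedding q _ by
      rw [iota_loc]; exact hτ)
  rw [AlgEquiv.mul_apply, AlgEquiv.aut_inv, AlgEquiv.symm_apply_eq]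
  have key : ∀ z : F, z ∈ ℚ⟮α⟯ → σ (z : AlgebraicClosure ℚ) = loc q τ (z : AlgebraicClosure ℚ) := by
    intro z hz
    induction hz using adjoin_induction with
    | mem y hy => rw [Set.mem_singleton_iff.1 hy]; exact hα'.symm
    | algebraMap r =>
      show σ (algebraMap ℚ (AlgebraicClosure ℚ) r) = loc q τ (algebraMap ℚ (AlgebraicClosure ℚ) r)
      rw [AlgEquiv.commutes, AlgEquiv.commutes]
    | add x y _ _ hx hy => push_cast; rw [map_add, map_add, hx, hy]
    | inv x _ hx => push_cast; rw [map_inv₀, map_inv₀, hx]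
    | mul x y _ _ hx hy => push_cast; rw [map_mul, map_mul, hx, hy]
  exact key ⟨x, hx⟩ (by rw [hα]; trivial)

theorem continuous_loc : Continuous (loc q) := by
  refine continuous_of_continuousAt_one _ ?_
  rw [ContinuousAt, map_one]
  intro U hU
  rw [krullTopology_mem_nhds_one_iff] at hU
  obtain ⟨F, hF, hFU⟩ := hU
  obtain ⟨N, ⟨E, hE, hEN⟩, hle⟩ := compat_loc (q := q) _ (fixingSubgroup_mem_fieldLevels (F := ℚ) F)
  rw [Filter.mem_map, krullTopology_mem_nhds_one_iff]
  exact ⟨E, hE, fun τ hτ => hFU (hle (hEN hτ))⟩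

/-- The image is the decomposition group. -/
theorem range_loc : (loc q).range = (padicPlace q).decompositionSubgroup ℚ := by
  refine le_antisymm ?_ fun σ hσ => ?_
  · rintro _ ⟨τ, rfl⟩
    exact localGaloisToGlobal_mem_decompositionSubgroup q τ
  · have hc : IsClosed (Set.range (loc q)) := (isCompact_range continuous_loc).isClosed
    have hmem : σ ∈ closure (Set.range (loc q)) := by
      rw [mem_closure_iff_nhds]
      intro U hU
      obtain ⟨V, hV, hVU⟩ : ∃ V ∈ nhds (1 : GQ), ∀ v ∈ V, σ * v ∈ U := by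
        refine ⟨(σ * ·) ⁻¹' U, (continuous_const_mul σ).continuousAt ?_, fun v hv => hv⟩
        rw [mul_one]; exact hU
      obtain ⟨F, hF, hFV⟩ := (krullTopology_mem_nhds_one_iff _ _ V).1 hV
      obtain ⟨τ, hτ⟩ := exists_loc_sub_mem hσ (fixingSubgroup_mem_fieldLevels (F := ℚ) F)
      refine ⟨loc q τ, ?_, τ, rfl⟩
      have := hVU _ (hFV (inv_mem hτ))
      rwa [mul_inv_rev, inv_inv, mul_inv_cancel_left] at this
    rw [hc.closure_eq] at hmem
    exact hmem

theorem mem_LQ_iff_isOpen {N : Subgroup GQ} : N ∈ LQ.carrier ↔ IsOpen (N : Set GQ) := by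
  refine ⟨?_, fun h => ?_⟩
  · rintro ⟨F, hF, hle⟩
    exact Subgroup.isOpen_mono hle (IntermediateField.fixingSubgroup_isOpen F)
  · obtain ⟨F, hF, hle⟩ := (krullTopology_mem_nhds_one_iff _ _ _).1 (h.mem_nhds N.one_mem)
    exact ⟨F, hF, hle⟩

end FA.GalCoh
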