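import Fermat.Agent.GalCoh.UnrCoh

/-!
At a prime different from `p` the unramified classes of an unramified module are their own
orthogonal complement.
-/

set_option autoImplicit false
set_option linter.unusedSectionVars false

noncomputable section

namespace FA.GalCoh

open IntermediateField Representation
open scoped Pointwise

variable {p : ℕ} [hp : Fact p.Prime] {q : ℕ} [hq : Fact q.Prime]
variable {V : Type} [AddCommGroup V] [Module (ZMod p) V]
variable {W : Type} [AddCommGroup W] [Module (ZMod p) W]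

/-- A global element fixed by inertia has as absolute value a power of that of `q`. -/
theorem exists_zpow_norm_of_kur {x : AlgebraicClosure ℚ}
    (hx : ∀ τ ∈ inertL q, loc q τ x = x) (hx0 : x ≠ 0) :
    ∃ k : ℤ, ‖padicEmbedding q x‖ = ‖(q : PadicAlgCl q)‖ ^ k := by
  have hkur : x ∈ LocalDef.kur (padicPlace q) := LocalDef.mem_kur.2 fun σ hσ => by
    obtain ⟨τ, rfl⟩ : σ ∈ (loc q).range := by
      rw [range_loc]; exact inertiaSubgroupIn_le_decomposition _ hσ
    exact hx τ hσ
  obtain ⟨k, hk⟩ :=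
    LocalDef.exists_zpow_of_mem_kur hq.out (liesOverPrime_padicPlace q) hkur hx0
  refine ⟨k, ?_⟩
  set y := x * ((q : AlgebraicClosure ℚ) ^ k)⁻¹ with hy
  have hy1 : (padicPlace q).valuation y = 1 := by
    rw [hy, map_mul, map_inv₀, map_zpow₀, hk, mul_inv_cancel₀]
    exact zpow_ne_zero _ ((Valuation.ne_zero_iff _).2 (Nat.cast_ne_zero.2 hq.out.ne_zero))
  have hy2 : (padicPlace q).valuation y⁻¹ = 1 := by rw [map_inv₀, hy1, inv_one]
  have h1 := (mem_padicPlace_iff q).1 (((padicPlace q).valuation_le_one_iff y).1 hy1.le)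
  have h2 := (mem_padicPlace_iff q).1 (((padicPlace q).valuation_le_one_iff _).1 hy2.le)
  rw [← NNReal.coe_le_coe] at h1 h2
  rw [map_inv₀] at h2
  have hy0 : 0 < ‖padicEmbedding q y‖ := norm_pos_iff.2 ((_root_.map_ne_zero _).2
    (mul_ne_zero hx0 (inv_ne_zero (zpow_ne_zero _ (Nat.cast_ne_zero.2 hq.out.ne_zero)))))
  have hone : ‖padicEmbedding q y‖ = 1 := by
    refine le_antisymm (by simpa using h1) ?_
    have h2' : ‖padicEmbedding q y‖⁻¹ ≤ 1 := by simpa using h2
    exact (inv_le_one₀ hy0).1 h2'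
  rw [hy, map_mul, map_inv₀, map_zpow₀, map_natCast, norm_mul, norm_inv, norm_zpow,
    mul_inv_eq_one₀ (zpow_ne_zero _ (norm_ne_zero_iff.2 q_ne_zero))] at hone
  exact hone

theorem sub_lt_of_mem_inertL' {ι : LG q} (hι : ι ∈ inertL q) {y : PadicAlgCl q} (hy : ‖y‖ ≤ 1) :
    ‖ι y - y‖ < 1 := by
  obtain ⟨x, hx⟩ := exists_iota_close y one_pos
  have hx1 : ‖padicEmbedding q x‖ ≤ 1 := by
    rw [show padicEmbedding q x = (padicEmbedding q x - y) + y by ring]
    exact norm_add_le_of_le hx.le hy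
  have h2 : ‖ι y - ι (padicEmbedding q x)‖ < 1 := by
    rwa [← map_sub, norm_algEquiv, norm_sub_rev]
  rw [show ι y - y = (ι y - ι (padicEmbedding q x))
    + ((ι (padicEmbedding q x) - padicEmbedding q x) + (padicEmbedding q x - y)) by ring]
  exact lt_of_le_of_lt (IsUltrametricDist.norm_add_le_max _ _)
    (max_lt h2 (lt_of_le_of_lt (IsUltrametricDist.norm_add_le_max _ _)
      (max_lt (sub_lt_of_mem_inertL hι hx1) hx)))

theorem cycloChar_inertL (hqp : q ≠ p) {τ : LG q} (hτ : τ ∈ inertL q) :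
    ExtCitation.cycloChar p (loc q τ) = 1 := by
  have h : loc q τ (zetaQ p) = zetaQ p := by
    refine (padicEmbedding q).injective (?_ : padicEmbedding q _ = padicEmbedding q _)
    rw [iota_loc]
    exact inertL_apply_root hτ (m := p)
      (fun h => hqp ((Nat.prime_dvd_prime_iff_eq hq.out hp.out).1 h))
      (by rw [← map_pow, zetaQ_spec.pow_eq_one, map_one])
  rw [apply_zetaQ] at h
  refine Units.ext ?_
  rw [Units.val_one, ← ZMod.natCast_zmod_val ((ExtCitation.cycloChar p (loc q τ) : ZMod p)),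
    zetaQ_spec.pow_inj (ZMod.val_lt _) hp.out.one_lt (by rwa [pow_one]), Nat.cast_one]

section Ram

variable (ρ : Representation (ZMod p) GQ V)

/-- The subgroup acting trivially on a module and on the roots of unity. -/
def kerLevel : Subgroup GQ := ρ.ker ⊓ (ExtCitation.cycloChar p).ker

variable {ρ}

theorem kerLevel_mem (hs : Smooth LQ ρ) : kerLevel ρ ∈ LQ.carrier := by
  obtain ⟨N, hN, h⟩ := hs
  obtain ⟨N', hN', h'⟩ := (smooth_chr_iff _).1 (cycQ p).smooth_chr
  obtain ⟨E, hE, hle⟩ := LQ.inf_mem hN hN'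
  exact ⟨E, hE, fun g hg => ⟨MonoidHom.mem_ker.2 (h g (hle hg).1),
    MonoidHom.mem_ker.2 (h' g (hle hg).2)⟩⟩

theorem mem_hloc_kerLevel (hqp : q ≠ p) (hunr : UnrRep (ρ.comp (loc q))) {τ : LG q}
    (hτ : τ ∈ inertL q) : τ ∈ hloc (kerLevel ρ) q 1 :=
  (mem_hloc _).2 (by
    rw [inv_one, one_mul, mul_one]
    exact ⟨MonoidHom.mem_ker.2 (hunr τ hτ), MonoidHom.mem_ker.2 (cycloChar_inertL hqp hτ)⟩)

theorem finrank_H1_le [FiniteDimensional (ZMod p) V] (hqp : q ≠ p) (hs : Smooth LQ ρ)
    (hunr : UnrRep (ρ.comp (loc q))) :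
    Module.Finite (ZMod p) (H1 (LL q) (ρ.comp (loc q))) →
    Module.finrank (ZMod p) (H1 (LL q) (ρ.comp (loc q))) ≤
      Module.finrank (ZMod p) ↥(unrH1 (ρ.comp (loc q))) +
        Module.finrank (ZMod p) ↥(LinearMap.ker (ρ (loc q (frobL q))
          - ((cycL p q).χ (frobL q) : ZMod p) • 1)) := by
  intro hfin
  set D := cycL p q
  set σ := ρ.comp (loc q)
  have hsσ : Smooth (LL q) σ := hs.comp compat_loc
  set N := hloc (kerLevel ρ) q 1 with hN
  have hNl : N ∈ (LL q).carrier := hloc_mem (kerLevel_mem hs) 1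
  have hN1 : ∀ g ∈ N, σ g = 1 ∧ D.χ g = 1 := fun g hg => by
    have h := (mem_hloc _).1 hg
    rw [inv_one, one_mul, mul_one] at h
    exact ⟨MonoidHom.mem_ker.1 h.1, MonoidHom.mem_ker.1 h.2⟩
  have hI : ∀ ι ∈ inertL q, ι ∈ N := fun ι hι => mem_hloc_kerLevel hqp hunr hι
  set K := D.kumData N fun g hg => (hN1 g hg).2
  let qN : fixUM N (PadicAlgCl q) := ⟨qUnit.1, fun g => qUnit.2 g.1⟩
  set τf : LG q → ZMod p := D.kc qUnit
  have hτN : ∀ ι (h : ι ∈ N), K.kc qN ⟨ι, h⟩ = τf ι := fun ι h => K.eps_injective (by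
    rw [K.eps_kc qN (A := D.kroot qN.1) (D.nsmul_kroot _)]
    exact (D.eps_kc qUnit ι).symm)
  -- units have trivial class on inertia
  have hunit : ∀ u : fixUM N (PadicAlgCl q), ‖u.1.val‖ = 1 → ∀ ι (h : ι ∈ N), ι ∈ inertL q →
      K.kc u ⟨ι, h⟩ = 0 := by
    intro u hu ι h hι
    refine K.eps_injective ?_
    rw [map_zero, K.eps_kc u (K.nsmul_kroot u.1)]
    refine sub_eq_zero.2 (UM.ext ?_)
    set y := (K.kroot u.1).val
    have hyp : y ^ p = u.1.val := by
      have := congrArg UM.val (K.nsmul_kroot u.1)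
      rwa [UM.val_nsmul] at this
    have hy1 : ‖y‖ = 1 := (pow_eq_one_iff_of_nonneg (norm_nonneg y) hp.out.ne_zero).1
      (by rw [← norm_pow, hyp, hu])
    have hy0 : y ≠ 0 := UM.val_ne_zero _
    show ι y = y
    refine (div_eq_one_iff_eq hy0).1 (root_eq_of_close (m := p)
      (fun hd => hqp ((Nat.prime_dvd_prime_iff_eq hq.out hp.out).1 hd)) ?_ (one_pow p) ?_)
    · rw [div_pow, ← map_pow, hyp, show ι u.1.val = u.1.val from congrArg UM.val (u.2 ⟨ι, h⟩),
        div_self (UM.val_ne_zero _)]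
    · rw [div_sub_one hy0, norm_div, hy1, div_one]
      exact sub_lt_of_mem_inertL' hι hy1.le
  -- an inertia element moving the root of `q`
  obtain ⟨ι₁, hι₁, hτ₁⟩ : ∃ ι ∈ inertL q, τf ι = 1 := by
    obtain ⟨ι, hι, hne⟩ : ∃ ι ∈ inertL q, τf ι ≠ 0 := by
      by_contra! hall
      obtain ⟨Q, hQ⟩ := IsAlgClosed.exists_pow_nat_eq (q : AlgebraicClosure ℚ) hp.out.pos
      have hQ0 : Q ≠ 0 := fun h => by
        rw [h, zero_pow hp.out.ne_zero] at hQ
        exact hq.out.ne_zero (Nat.cast_eq_zero.1 hQ.symm)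
      obtain ⟨k, hk⟩ := exists_zpow_norm_of_kur (x := Q) (fun τ hτ => by
        refine (padicEmbedding q).injective (?_ : padicEmbedding q _ = padicEmbedding q _)
        rw [iota_loc]
        have he := D.eps_kc qUnit τ
        rw [show D.kc qUnit τ = 0 from hall τ hτ, map_zero, eq_comm, sub_eq_zero] at he
        -- the two roots differ by a root of unity, which inertia fixes
        set R := (D.kroot qUnit.1).val
        have hR : R ^ p = (q : PadicAlgCl q) := by
          have := congrArg UM.val (D.nsmul_kroot qUnit.1)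
          rwa [UM.val_nsmul] at this
        have hR0 : R ≠ 0 := UM.val_ne_zero _
        have hu : τ (padicEmbedding q Q / R) = padicEmbedding q Q / R :=
          inertL_apply_root hτ (m := p)
            (fun hd => hqp ((Nat.prime_dvd_prime_iff_eq hq.out hp.out).1 hd))
            (by rw [div_pow, hR, ← map_pow, hQ, map_natCast, div_self q_ne_zero])
        rw [map_div₀, show τ R = R from congrArg UM.val he,
          div_left_inj' hR0] at hu
        exact hu) hQ0
      have h2 := congrArg (fun z => ‖padicEmbedding q z‖) hQ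
      simp only [map_pow, norm_pow, map_natCast, hk] at h2
      rw [← zpow_natCast, ← zpow_mul] at h2
      conv_rhs at h2 => rw [← zpow_one ‖(q : PadicAlgCl q)‖]
      have h3 := zpow_right_injective₀ (norm_pos_iff.2 q_ne_zero) norm_q_lt_one.ne h2
      have h4 : (p : ℤ) ∣ 1 := ⟨k, by rw [← h3, mul_comm]⟩
      exact hp.out.not_dvd_one (Int.natCast_dvd_natCast.1 (by exact_mod_cast h4))
    refine ⟨ι ^ ((τf ι)⁻¹).val, pow_mem hι _, ?_⟩
    have hpow : ∀ n : ℕ, τf (ι ^ n) = n * τf ι := fun n => by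
      induction n with
      | zero => simpa using Z1.map_one (ρ := chr D.χ) ⟨_, D.kc_mem qUnit⟩
      | succ n ih =>
        have hh : τf (ι ^ n * ι) = _ := (D.kc_mem qUnit).2 (ι ^ n) ι
        rw [pow_succ, hh, chr_apply, (hN1 _ (hI _ (pow_mem hι n))).2, Units.val_one, one_mul,
          show D.kc qUnit ι = τf ι from rfl, show D.kc qUnit (ι ^ n) = τf (ι ^ n) from rfl, ih,
          Nat.cast_succ]
        ring
    rw [hpow, ZMod.natCast_zmod_val, inv_mul_cancel₀ hne]
  -- the value on inertia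
  have hval : ∀ c : ↥(Z1 (LL q) σ), ∀ ι ∈ inertL q, c.1 ι = τf ι • c.1 ι₁ := by
    intro c ι hι
    rw [← sub_eq_zero]
    by_contra hne
    obtain ⟨l, hl⟩ := (Module.Projective.exists_dual_ne_zero (ZMod p) hne)
    let f : ↥(Z1 ((LL q).sub N) (triv N p)) := ⟨fun g => l (c.1 g.1),
      (c.2.1.precomp ((LL q).sub_compat N)).comp l, fun g h => by
        show l (c.1 (g.1 * h.1)) = l (c.1 h.1) + l (c.1 g.1)
        rw [c.2.2, (hN1 g.1 g.2).1, Module.End.one_apply, map_add]⟩
    obtain ⟨a, ha⟩ := K.kum_surjective (mk1 ((LL q).sub N) (triv N p) f)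
    have ha' : ∀ g, K.kc a g = l (c.1 g.1) := fun g =>
      congrFun (congrArg Subtype.val (mk1_triv_injective ha)) g
    obtain ⟨b, hb, hb0, hbn⟩ := exists_norm_eq_emb (kerLevel_mem hs) 1 a
    obtain ⟨k, hk⟩ := exists_zpow_norm_of_kur (q := q) (x := b) (fun τ hτ =>
      (mem_fixedField_iff _ _).1 hb _ (by
        have := (mem_hloc _).1 (mem_hloc_kerLevel hqp hunr hτ)
        rwa [inv_one, one_mul, mul_one] at this)) hb0
    have hu : ‖(a - k • qN).1.val‖ = 1 := by
      rw [AddSubgroupClass.coe_sub, AddSubgroupClass.coe_zsmul, UM.val_sub, norm_div,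
        UM.norm_zsmul, ← hbn, emb_apply, AlgEquiv.one_apply, hk,
        show qN.1.val = (q : PadicAlgCl q) from rfl,
        div_self (zpow_ne_zero _ (norm_ne_zero_iff.2 q_ne_zero))]
    have hh : ∀ (η : LG q) (h : η ∈ inertL q), l (c.1 η) = k * τf η := by
      intro η h
      have hkc : K.kc a = K.kc (a - k • qN) + (k : ZMod p) • K.kc qN := by
        have e : K.kum a = K.kum (a - k • qN) + (k : ZMod p) • K.kum qN := by
          rw [map_sub, map_zsmul, Int.cast_smul_eq_zsmul, sub_add_cancel]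
        exact congrArg Subtype.val (mk1_triv_injective (e.trans (by
          rw [KumData.kum_apply, KumData.kum_apply, ← map_smul, ← map_add])))
      rw [← ha' ⟨η, hI η h⟩, hkc, Pi.add_apply, Pi.smul_apply, hunit _ hu η (hI η h) h,
        zero_add, hτN, smul_eq_mul]
    refine hl ?_
    rw [map_sub, map_smul, hh ι hι, hh ι₁ hι₁, hτ₁, smul_eq_mul]
    ring
  -- equivariance
  have hequi : ∀ c : ↥(Z1 (LL q) σ), c.1 ι₁ ∈
      LinearMap.ker (ρ (loc q (frobL q)) - (D.χ (frobL q) : ZMod p) • 1) := by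
    intro c
    set φ := frobL q
    have hconj : φ * ι₁ * φ⁻¹ ∈ inertL q := by
      show loc q (φ * ι₁ * φ⁻¹) ∈ (padicPlace q).inertiaSubgroupIn ℚ
      rw [map_mul, map_mul, map_inv]
      have := TW.conj_mem_inertia hq.out (liesOverPrime_padicPlace q) hι₁ (loc q φ)
      rwa [MulAction.mem_stabilizer_iff.1 (frobL_spec q).mem_decompositionSubgroup] at this
    have hτ : τf (φ * ι₁ * φ⁻¹) = (D.χ φ : ZMod p) := by
      have h1 : τf (φ * ι₁) = _ := (D.kc_mem qUnit).2 φ ι₁
      have h2 : τf (φ * ι₁ * φ⁻¹ * φ) = _ := (D.kc_mem qUnit).2 (φ * ι₁ * φ⁻¹) φ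
      rw [inv_mul_cancel_right, h1, chr_apply, chr_apply, (hN1 _ (hI _ hconj)).2, Units.val_one,
        one_mul, show D.kc qUnit ι₁ = 1 from hτ₁, mul_one] at h2
      exact (add_right_cancel (h2.trans (add_comm _ _))).symm
    have h1 := c.2.2 φ ι₁
    have h2 := c.2.2 (φ * ι₁ * φ⁻¹) φ
    rw [inv_mul_cancel_right, h1, (hN1 _ (hI _ hconj)).1, Module.End.one_apply,
      hval c _ hconj, hτ, add_comm (c.1 φ)] at h2
    rw [LinearMap.mem_ker, LinearMap.sub_apply, LinearMap.smul_apply, Module.End.one_apply,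
      sub_eq_zero]
    exact add_right_cancel h2
  let θ : H1 (LL q) σ →ₗ[ZMod p] ↥(LinearMap.ker (ρ (loc q (frobL q))
      - (D.χ (frobL q) : ZMod p) • 1)) :=
    Submodule.liftQ _
      { toFun := fun c => ⟨c.1 ι₁, hequi c⟩
        map_add' := fun c c' => rfl
        map_smul' := fun a c => rfl }
      (fun c hc => by
        obtain ⟨v, hv⟩ := hc
        refine LinearMap.mem_ker.2 (Subtype.ext ?_)
        show c.1 ι₁ = 0
        have := congrFun hv ι₁
        rw [d0_apply, hunr ι₁ hι₁, Module.End.one_apply, sub_self] at this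
        exact this.symm)
  have hker : LinearMap.ker θ ≤ unrH1 σ := fun x hx => by
    obtain ⟨c, rfl⟩ := mk1_surjective x
    refine ⟨c, fun ι hι => ?_, rfl⟩
    rw [hval c ι hι, show c.1 ι₁ = 0 from congrArg Subtype.val (LinearMap.mem_ker.1 hx), smul_zero]
  have h1 := LinearMap.finrank_range_add_finrank_ker θ
  have h2 := Submodule.finrank_mono hker
  have h3 := Submodule.finrank_le (LinearMap.range θ)
  omega

end Ram

section Dual

variable {ρ : Representation (ZMod p) GQ V} {σ : Representation (ZMod p) GQ W}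
  (P : DPair (LL q) (cycL p q).χ (ρ.comp (loc q)) (σ.comp (loc q)))

include P in
theorem finrank_ker_sub_chi (hs : UnrRep (ρ.comp (loc q))) :
    Module.finrank (ZMod p) ↥(LinearMap.ker (σ (loc q (frobL q))
      - ((cycL p q).χ (frobL q) : ZMod p) • 1))
      = Module.finrank (ZMod p) ↥(Representation.invariants (ρ.comp (loc q))) := by
  have := P.fin_left
  have := P.fin_right
  set φ := frobL q
  set A := ρ.comp (loc q)
  have hinv : Representation.invariants A = LinearMap.ker (A φ - 1) := by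
    ext v
    rw [mem_invariants_iff_frobL hs P.smooth_left, LinearMap.mem_ker, LinearMap.sub_apply,
      Module.End.one_apply, sub_eq_zero]
  have hmem : ∀ w, σ (loc q φ) w - ((cycL p q).χ φ : ZMod p) • w = 0 ↔
      P.toDual w ∈ (LinearMap.range (A φ - 1)).dualAnnihilator := by
    intro w
    rw [Submodule.mem_dualAnnihilator, sub_eq_zero]
    constructor
    · intro h x hx
      obtain ⟨v, rfl⟩ := hx
      have h1 := P.bil φ v w
      rw [show (σ.comp (loc q)) φ w = σ (loc q φ) w from rfl, h, map_smul, chr_apply,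
        smul_eq_mul, mul_right_inj' (Units.ne_zero _)] at h1
      rw [P.toDual_apply, LinearMap.sub_apply, Module.End.one_apply, map_sub,
        LinearMap.sub_apply, h1, sub_self]
    · intro h
      refine P.ext_right fun v => ?_
      obtain ⟨u, rfl⟩ : ∃ u, A φ u = v := ⟨A φ⁻¹ v, by rw [Representation.self_inv_apply]⟩
      have h1 := P.bil φ u w
      have h2 := h _ ⟨u, rfl⟩
      rw [P.toDual_apply, LinearMap.sub_apply, Module.End.one_apply, map_sub,
        LinearMap.sub_apply, sub_eq_zero] at h2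
      rw [map_smul, smul_eq_mul, h2]
      exact h1
  let e : ↥(LinearMap.ker (σ (loc q φ) - ((cycL p q).χ φ : ZMod p) • 1)) ≃ₗ[ZMod p]
      ↥(LinearMap.range (A φ - 1)).dualAnnihilator :=
    P.toDual.ofSubmodules _ _ (by
      ext f
      rw [Submodule.mem_map_equiv, LinearMap.mem_ker, LinearMap.sub_apply, LinearMap.smul_apply,
        Module.End.one_apply, hmem, LinearEquiv.apply_symm_apply])
  rw [e.finrank_eq, hinv]
  have h1 := Subspace.finrank_add_finrank_dualAnnihilator_eq (LinearMap.range (A φ - 1))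
  have h2 := LinearMap.finrank_range_add_finrank_ker (A φ - 1)
  omega

include P in
/-- Duality of unramified classes. -/
theorem unr_dual (hqp : q ≠ p) (hs' : Smooth LQ σ)
    (hρ : UnrRep (ρ.comp (loc q))) (hσ : UnrRep (σ.comp (loc q))) :
    Module.finrank (ZMod p) (H1 (LL q) (ρ.comp (loc q)))
      = Module.finrank (ZMod p) ↥(Representation.invariants (ρ.comp (loc q)))
        + Module.finrank (ZMod p) ↥(Representation.invariants (σ.comp (loc q))) ∧
    ∀ y, y ∈ unrH1 (σ.comp (loc q)) ↔ ∀ x ∈ unrH1 (ρ.comp (loc q)),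
      pair11 (localInv (cycL p q)) P x y = 0 := by
  have hP := local_perfect (cycL p q) P
  have := P.fin_left
  have := P.fin_right
  have := hP.fin1
  have := hP.fin1'
  obtain ⟨-, hu⟩ := finrank_unrH1 hρ P.smooth_left
  obtain ⟨-, hu'⟩ := finrank_unrH1 hσ P.smooth_right
  have hle := finrank_H1_le hqp hs' hσ (by infer_instance)
  rw [finrank_ker_sub_chi P hρ, hu'] at hle
  set Φ := LinearEquiv.ofBijective _ hP.bij11
  have hdim : Module.finrank (ZMod p) (H1 (LL q) (ρ.comp (loc q)))
      = Module.finrank (ZMod p) (H1 (LL q) (σ.comp (loc q))) := by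
    rw [Φ.finrank_eq, Subspace.dual_finrank_eq]
  set A := (unrH1 (ρ.comp (loc q))).map Φ.toLinearMap
  have hχ : UnrRep (chr (cycL p q).χ) := fun ι hι => by
    refine LinearMap.ext fun x => ?_
    show ((cycL p q).χ ι : ZMod p) * x = x
    rw [cycL_chi, MonoidHom.comp_apply, cycloChar_inertL hqp hι, Units.val_one, one_mul]
  have hsub : unrH1 (σ.comp (loc q)) ≤ A.dualCoannihilator := fun y hy => by
    rw [Submodule.mem_dualCoannihilator]
    rintro _ ⟨x, hx, rfl⟩
    show pair11 (localInv (cycL p q)) P x y = 0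
    rw [pair11_apply, cupc_eq_zero_of_unr P.bil hσ hχ P.smooth_left P.smooth_right
      (cycL p q).smooth_chr hx hy, map_zero]
  have hA : Module.finrank (ZMod p) ↥A
      = Module.finrank (ZMod p) ↥(unrH1 (ρ.comp (loc q))) :=
    (Φ.submoduleMap _).finrank_eq.symm
  have hann := Subspace.finrank_add_finrank_dualCoannihilator_eq A
  have hmono := Submodule.finrank_mono hsub
  have hmem : ∀ y, y ∈ A.dualCoannihilator ↔ ∀ x ∈ unrH1 (ρ.comp (loc q)),
      pair11 (localInv (cycL p q)) P x y = 0 := fun y => by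
    rw [Submodule.mem_dualCoannihilator]
    exact ⟨fun h x hx => h _ ⟨x, hx, rfl⟩, fun h f hf => by
      obtain ⟨x, hx, rfl⟩ := hf
      exact h x hx⟩
  refine ⟨by omega, fun y => ?_⟩
  rw [Submodule.eq_of_le_of_finrank_le hsub (by omega)]
  exact hmem y

end Dual

end FA.GalCoh
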