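import Fermat.Agent.GalCoh.Cup

/-!
Coinduced representations from the stabiliser of a point of a transitive finite set, Shapiro's
lemma in degrees one and two, and corestriction.
-/

set_option autoImplicit false
set_option linter.unusedSectionVars false

noncomputable section

namespace FA.GalCoh

open Representation

variable {G : Type} [Group G]

/-- A finite index inherited system of levels on a subgroup. -/
def Levels.sub (L : Levels G) (H : Subgroup G) : Levels H where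
  carrier := {M | ∃ N ∈ L.carrier, N.subgroupOf H = M}
  top_mem := ⟨⊤, L.top_mem, Subgroup.top_subgroupOf H⟩
  inf_mem := by
    rintro _ _ ⟨N, hN, rfl⟩ ⟨N', hN', rfl⟩
    exact ⟨N ⊓ N', L.inf_mem hN hN', Subgroup.comap_inf _ _ _⟩
  exists_normal := by
    rintro _ ⟨N, hN, rfl⟩
    obtain ⟨N', hN', hle, hn⟩ := L.exists_normal hN
    exact ⟨N'.subgroupOf H, ⟨N', hN', rfl⟩, Subgroup.comap_mono hle, hn.comap _⟩
  finiteIndex := by
    rintro _ ⟨N, hN, rfl⟩
    have := L.finiteIndex hN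
    infer_instance

theorem Levels.sub_compat (L : Levels G) (H : Subgroup G) : Compat L (L.sub H) H.subtype :=
  fun N hN => ⟨N.subgroupOf H, ⟨N, hN, rfl⟩, le_rfl⟩

/-- A transitive finite `G`-set with a base point, a transversal and trivial action of a level. -/
structure Trans (L : Levels G) (X : Type) [Fintype X] [MulAction G X] where
  /-- The base point. -/
  x0 : X
  /-- The transversal. -/
  t : X → G
  t_smul : ∀ x, t x • x0 = x
  t_x0 : t x0 = 1
  trivial : ∃ N ∈ L.carrier, ∀ s ∈ N, ∀ x : X, s • x = x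

namespace Trans

variable {L : Levels G} {X : Type} [Fintype X] [MulAction G X] (T : Trans L X)

/-- The stabiliser of the base point. -/
abbrev H : Subgroup G := MulAction.stabilizer G T.x0

/-- The factor of `g` in the stabiliser at the point `x`. -/
def h (g : G) (x : X) : T.H :=
  ⟨(T.t x)⁻¹ * g * T.t (g⁻¹ • x), by
    rw [MulAction.mem_stabilizer_iff, mul_smul, mul_smul, T.t_smul, smul_inv_smul,
      inv_smul_eq_iff, T.t_smul]⟩

theorem h_coe (g : G) (x : X) : (T.h g x : G) = (T.t x)⁻¹ * g * T.t (g⁻¹ • x) := rfl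

theorem t_mul_h (g : G) (x : X) : T.t x * T.h g x = g * T.t (g⁻¹ • x) := by
  rw [h_coe]; group

theorem h_mul (g g' : G) (x : X) : T.h (g * g') x = T.h g x * T.h g' (g⁻¹ • x) := by
  ext
  simp only [Subgroup.coe_mul, h_coe, mul_inv_rev, mul_smul]
  group

theorem h_one (x : X) : T.h 1 x = 1 := by
  ext; simp [h_coe]

theorem h_x0 (s : T.H) : T.h s T.x0 = s := by
  ext
  have hs : (s : G)⁻¹ • T.x0 = T.x0 := (inv_mem s.2 : (s : G)⁻¹ ∈ T.H)
  simp [h_coe, hs, T.t_x0]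

theorem inv_t_smul (x : X) : (T.t x)⁻¹ • x = T.x0 := by
  rw [inv_smul_eq_iff, T.t_smul]

theorem h_t (x : X) : T.h (T.t x) x = 1 := by
  ext; simp [h_coe, T.inv_t_smul, T.t_x0]

theorem h_mul_of_mem {N : Subgroup G} [hn : N.Normal] {g s : G} (hs : s ∈ N)
    (htriv : ∀ s ∈ N, ∀ x : X, s • x = x) (x : X) :
    ∃ u : T.H, (u : G) ∈ N ∧ T.h (g * s) x = T.h g x * u := by
  refine ⟨T.h s (g⁻¹ • x), ?_, T.h_mul g s x⟩
  rw [h_coe, htriv _ (inv_mem hs)]
  exact hn.conj_mem' s hs _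

variable {k : Type} [Field k]
variable {W : Type} [AddCommGroup W] [Module k W]
variable {W' : Type} [AddCommGroup W'] [Module k W']
variable {U : Type} [AddCommGroup U] [Module k U]
variable (σ : Representation k T.H W)

/-- The coinduced representation. -/
def coind : Representation k G (X → W) where
  toFun g :=
    { toFun := fun f x => σ (T.h g x) (f (g⁻¹ • x))
      map_add' := fun f f' => by ext x; simp
      map_smul' := fun c f => by ext x; simp }
  map_one' := by ext f x; simp [T.h_one]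
  map_mul' g g' := by
    ext f x
    simp [T.h_mul, mul_smul]

@[simp] theorem coind_apply (g : G) (f : X → W) (x : X) :
    T.coind σ g f x = σ (T.h g x) (f (g⁻¹ • x)) := rfl

include T in
/-- A normal level acting trivially on the set and contained in a given level. -/
theorem exists_level {N : Subgroup G} (hN : N ∈ L.carrier) :
    ∃ N' ∈ L.carrier, N' ≤ N ∧ N'.Normal ∧ ∀ s ∈ N', ∀ x : X, s • x = x := by
  obtain ⟨M, hM, htriv⟩ := T.trivial
  obtain ⟨N', hN', hle, hn⟩ := L.exists_normal (L.inf_mem hN hM)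
  exact ⟨N', hN', fun s hs => (hle hs).1, hn, fun s hs => htriv s (hle hs).2⟩

theorem smooth_coind (hσ : Smooth (L.sub T.H) σ) : Smooth L (T.coind σ) := by
  obtain ⟨_, ⟨N, hN, rfl⟩, hσ⟩ := hσ
  obtain ⟨N', hN', hle, hn, htriv⟩ := T.exists_level hN
  refine ⟨N', hN', fun s hs => LinearMap.ext fun f => funext fun x => ?_⟩
  obtain ⟨u, hu, hh⟩ := T.h_mul_of_mem (g := 1) hs htriv x
  rw [one_mul, T.h_one, one_mul] at hh
  rw [coind_apply, htriv _ (inv_mem hs), hh, hσ u (hle hu)]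
  rfl

/-- Evaluation at the base point. -/
def ev : (X → W) →ₗ[k] W := LinearMap.proj T.x0

theorem equi_ev : Equi T.H.subtype (T.coind σ) σ (T.ev (k := k)) := fun s f => by
  have hs : (s : G)⁻¹ • T.x0 = T.x0 := (inv_mem s.2 : (s : G)⁻¹ ∈ T.H)
  simp [ev, T.h_x0, hs]

/-- Shapiro's map in degree one. -/
abbrev sh1 : H1 L (T.coind σ) →ₗ[k] H1 (L.sub T.H) σ :=
  map1 (L.sub_compat T.H) (T.equi_ev σ)

/-- Shapiro's map in degree two. -/
abbrev sh2 : H2 L (T.coind σ) →ₗ[k] H2 (L.sub T.H) σ :=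
  map2 (L.sub_compat T.H) (T.equi_ev σ)

/-- Coinduction of one-cochains. -/
def ci1 (c : T.H → W) : G → (X → W) := fun g x => c (T.h g x)

/-- Coinduction of two-cochains. -/
def ci2 (c : T.H × T.H → W) : G × G → (X → W) :=
  fun p x => c (T.h p.1 x, T.h p.2 (p.1⁻¹ • x))

theorem ci1_lc {c : T.H → W} (hc : LC₁ (L.sub T.H) c) : LC₁ L (T.ci1 c) := by
  obtain ⟨_, ⟨N, hN, rfl⟩, h⟩ := hc
  obtain ⟨N', hN', hle, hn, htriv⟩ := T.exists_level hN
  refine ⟨N', hN', fun g s hs => funext fun x => ?_⟩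
  obtain ⟨u, hu, hh⟩ := T.h_mul_of_mem (g := g) hs htriv x
  simp only [ci1, hh]
  exact h _ u (hle hu)

theorem ci2_lc {c : T.H × T.H → W} (hc : LC₂ (L.sub T.H) c) : LC₂ L (T.ci2 c) := by
  obtain ⟨_, ⟨N, hN, rfl⟩, h⟩ := hc
  obtain ⟨N', hN', hle, hn, htriv⟩ := T.exists_level hN
  refine ⟨N', hN', fun g g' s s' hs hs' => funext fun x => ?_⟩
  have hx : (g * s)⁻¹ • x = g⁻¹ • x := by rw [mul_inv_rev, mul_smul, htriv _ (inv_mem hs)]
  obtain ⟨u, hu, hh⟩ := T.h_mul_of_mem (g := g) hs htriv x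
  obtain ⟨u', hu', hh'⟩ := T.h_mul_of_mem (g := g') hs' htriv (g⁻¹ • x)
  simp only [ci2, hx, hh, hh']
  exact h _ _ u u' (hle hu) (hle hu')

variable {σ}

theorem ci1_mem {c : T.H → W} (hc : c ∈ Z1 (L.sub T.H) σ) : T.ci1 c ∈ Z1 L (T.coind σ) :=
  ⟨T.ci1_lc hc.1, fun g g' => funext fun x => by simp [ci1, T.h_mul, hc.2]⟩

theorem ci2_mem {c : T.H × T.H → W} (hc : c ∈ Z2 (L.sub T.H) σ) :
    T.ci2 c ∈ Z2 L (T.coind σ) :=
  ⟨T.ci2_lc hc.1, fun g g' j => funext fun x => by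
    simpa [ci2, T.h_mul, mul_smul] using
      hc.2 (T.h g x) (T.h g' (g⁻¹ • x)) (T.h j (g'⁻¹ • g⁻¹ • x))⟩

theorem ev_ci1 (c : T.H → W) (s : T.H) : T.ev (k := k) (T.ci1 c s) = c s := by
  simp [ev, ci1, T.h_x0]

theorem ev_ci2 (c : T.H × T.H → W) (s s' : T.H) :
    T.ev (k := k) (T.ci2 c ((s : G), (s' : G))) = c (s, s') := by
  have hs : (s : G)⁻¹ • T.x0 = T.x0 := (inv_mem s.2 : (s : G)⁻¹ ∈ T.H)
  simp [ev, ci2, T.h_x0, hs]

theorem sh1_surjective : Function.Surjective (T.sh1 σ) := by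
  intro c
  obtain ⟨c, rfl⟩ := mk1_surjective c
  exact ⟨mk1 L (T.coind σ) ⟨_, T.ci1_mem c.2⟩,
    congrArg (mk1 (L.sub T.H) σ) (Subtype.ext (funext fun s => T.ev_ci1 (k := k) c.1 s))⟩

theorem sh2_surjective : Function.Surjective (T.sh2 σ) := by
  intro c
  obtain ⟨c, rfl⟩ := mk2_surjective c
  exact ⟨mk2 L (T.coind σ) ⟨_, T.ci2_mem c.2⟩,
    congrArg (mk2 (L.sub T.H) σ) (Subtype.ext (funext fun x => T.ev_ci2 (k := k) c.1 x.1 x.2))⟩

theorem sh1_injective : Function.Injective (T.sh1 σ) := by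
  refine (injective_iff_map_eq_zero _).2 fun c h => ?_
  obtain ⟨C, rfl⟩ := mk1_surjective c
  obtain ⟨v, hv⟩ := (mk1_eq_zero _ _ _).1 h
  refine (mk1_eq_zero L _ _).2 ⟨fun x => v - C.1 (T.t x) x, funext fun g => funext fun x => ?_⟩
  have h1 := congrFun (C.2.2 g (T.t (g⁻¹ • x))) x
  have h2 := congrFun (C.2.2 (T.t x) (T.h g x : G)) x
  rw [T.t_mul_h, Pi.add_apply, coind_apply, T.h_t, T.inv_t_smul] at h2
  rw [Pi.add_apply, coind_apply] at h1
  have h3 : σ (T.h g x) v - v = C.1 (T.h g x : G) T.x0 := congrFun hv (T.h g x)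
  simp only [d0_apply, Pi.sub_apply, coind_apply, map_sub, map_one, Module.End.one_apply] at h1 h2 ⊢
  rw [h1] at h2
  rw [← h3] at h2
  linear_combination (norm := abel) -h2

/-- The homotopy used in Shapiro's lemma in degree two. -/
def hk (Z : G × G → (X → W)) : G → (X → W) :=
  fun g x => Z (T.t x, (T.h g x : G)) x - Z (g, T.t (g⁻¹ • x)) x

theorem hk_lc {Z : G × G → (X → W)} (hZ : LC₂ L Z) : LC₁ L (T.hk Z) := by
  obtain ⟨N, hN, h⟩ := hZ
  obtain ⟨N', hN', hle, hn, htriv⟩ := T.exists_level hN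
  refine ⟨N', hN', fun g s hs => funext fun x => ?_⟩
  obtain ⟨u, hu, hh⟩ := T.h_mul_of_mem (g := g) hs htriv x
  have hx : (g * s)⁻¹ • x = g⁻¹ • x := by rw [mul_inv_rev, mul_smul, htriv _ (inv_mem hs)]
  have e1 := h (T.t x) (T.h g x : G) 1 (u : G) (one_mem _) (hle hu)
  have e2 := h g (T.t (g⁻¹ • x)) s 1 (hle hs) (one_mem _)
  simp only [mul_one] at e1 e2
  simp only [hk, hh, hx, Subgroup.coe_mul, e1, e2]

theorem d1_hk (Z : ↥(Z2 L (T.coind σ))) (g g' : G) (x : X) :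
    d1 (T.coind σ) (T.hk Z.1) (g, g') x
      = Z.1 ((T.h g x : G), (T.h g' (g⁻¹ • x) : G)) T.x0 - Z.1 (g, g') x := by
  set y := g⁻¹ • x with hy
  have hy' : (g * g')⁻¹ • x = g'⁻¹ • y := by rw [mul_inv_rev, mul_smul]
  have e1 := congrFun (Z.2.2 g g' (T.t (g'⁻¹ • y))) x
  have e2 := congrFun (Z.2.2 g (T.t y) (T.h g' y : G)) x
  have e3 := congrFun (Z.2.2 (T.t x) (T.h g x : G) (T.h g' y : G)) x
  rw [T.t_mul_h] at e3
  rw [T.t_mul_h g' y] at e2
  simp only [Pi.add_apply, coind_apply, T.h_t, T.inv_t_smul, map_one, Module.End.one_apply,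
    ← hy] at e1 e2 e3
  simp only [d1_apply, Pi.add_apply, Pi.sub_apply, coind_apply, hk, ← hy, hy', T.h_mul,
    Subgroup.coe_mul, map_sub]
  linear_combination (norm := abel) e3 - e2 + e1

theorem sh2_injective : Function.Injective (T.sh2 σ) := by
  refine (injective_iff_map_eq_zero _).2 fun c h => ?_
  obtain ⟨Z, rfl⟩ := mk2_surjective c
  obtain ⟨b, hb, hdb⟩ := (mk2_eq_zero _ _ _).1 h
  refine (mk2_eq_zero L _ _).2 ⟨T.ci1 b - T.hk Z.1, (T.ci1_lc hb).map₂ (T.hk_lc Z.2.1) (· - ·), ?_⟩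
  ext ⟨g, g'⟩ x
  have h1 : d1 σ b (T.h g x, T.h g' (g⁻¹ • x))
      = Z.1 ((T.h g x : G), (T.h g' (g⁻¹ • x) : G)) T.x0 := congrFun hdb _
  rw [map_sub, Pi.sub_apply, Pi.sub_apply, T.d1_hk Z g g' x, ← h1]
  simp only [d1_apply, Pi.add_apply, Pi.sub_apply, coind_apply, ci1, T.h_mul]
  abel

variable (σ)

/-- Shapiro's isomorphism in degree one. -/
def shEquiv1 : H1 L (T.coind σ) ≃ₗ[k] H1 (L.sub T.H) σ :=
  LinearEquiv.ofBijective (T.sh1 σ) ⟨T.sh1_injective, T.sh1_surjective⟩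

/-- Shapiro's isomorphism in degree two. -/
def shEquiv2 : H2 L (T.coind σ) ≃ₗ[k] H2 (L.sub T.H) σ :=
  LinearEquiv.ofBijective (T.sh2 σ) ⟨T.sh2_injective, T.sh2_surjective⟩

/-- The invariants of a coinduced representation. -/
def invEquiv : ↥(T.coind σ).invariants ≃ₗ[k] ↥σ.invariants where
  toFun f := ⟨f.1 T.x0, fun s => by
    have hs : (s : G)⁻¹ • T.x0 = T.x0 := (inv_mem s.2 : (s : G)⁻¹ ∈ T.H)
    simpa [T.h_x0, hs] using congrFun (f.2 (s : G)) T.x0⟩
  map_add' _ _ := rfl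
  map_smul' _ _ := rfl
  invFun v := ⟨fun _ => v.1, fun g => funext fun x => v.2 (T.h g x)⟩
  left_inv f := Subtype.ext (funext fun x => by
    have := congrFun (f.2 (T.t x)) x
    simpa [T.h_t, T.inv_t_smul] using this)
  right_inv _ := rfl

variable (ρ : Representation k G U)

/-- The summation map. -/
def aug : (X → U) →ₗ[k] U := ∑ x : X, (ρ (T.t x)) ∘ₗ LinearMap.proj x

theorem aug_apply (f : X → U) : T.aug ρ f = ∑ x : X, ρ (T.t x) (f x) := by
  simp [aug, LinearMap.sum_apply]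

/-- The diagonal map. -/
def dia : U →ₗ[k] (X → U) := LinearMap.pi fun x => ρ (T.t x)⁻¹

theorem equi_aug : Equi (MonoidHom.id G) (T.coind (ρ.comp T.H.subtype)) ρ (T.aug ρ) :=
  fun g f => by
  simp only [MonoidHom.id_apply, aug_apply, coind_apply, map_sum, MonoidHom.comp_apply,
    Subgroup.coe_subtype]
  refine Fintype.sum_equiv (MulAction.toPerm g⁻¹) _ _ fun x => ?_
  show _ = ρ g (ρ (T.t (g⁻¹ • x)) (f (g⁻¹ • x)))
  rw [← Module.End.mul_apply, ← map_mul, T.t_mul_h, map_mul]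
  rfl

theorem equi_dia : Equi (MonoidHom.id G) ρ (T.coind (ρ.comp T.H.subtype)) (T.dia ρ) :=
  fun g v => funext fun x => by
  simp only [MonoidHom.id_apply, dia, LinearMap.pi_apply, coind_apply, MonoidHom.comp_apply,
    Subgroup.coe_subtype, ← Module.End.mul_apply, ← map_mul, h_coe]
  congr 2
  group

theorem aug_dia (v : U) : T.aug ρ (T.dia ρ v) = Fintype.card X • v := by
  simp [aug_apply, dia, ← Module.End.mul_apply, ← map_mul]

/-- Corestriction in degree one. -/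
def cor1 : H1 (L.sub T.H) (ρ.comp T.H.subtype) →ₗ[k] H1 L ρ :=
  map1 Compat.id (T.equi_aug ρ) ∘ₗ (T.shEquiv1 _).symm.toLinearMap

/-- Corestriction in degree two. -/
def cor2 : H2 (L.sub T.H) (ρ.comp T.H.subtype) →ₗ[k] H2 L ρ :=
  map2 Compat.id (T.equi_aug ρ) ∘ₗ (T.shEquiv2 _).symm.toLinearMap

theorem cor2_sh2 (z : H2 L (T.coind (ρ.comp T.H.subtype))) :
    T.cor2 ρ (T.sh2 (ρ.comp T.H.subtype) z) = map2 Compat.id (T.equi_aug ρ) z := by
  show map2 Compat.id (T.equi_aug ρ) ((T.shEquiv2 (ρ.comp T.H.subtype)).symm (T.shEquiv2 (ρ.comp T.H.subtype) z)) = _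
  rw [LinearEquiv.symm_apply_apply]

theorem cor1_sh1 (z : H1 L (T.coind (ρ.comp T.H.subtype))) :
    T.cor1 ρ (T.sh1 (ρ.comp T.H.subtype) z) = map1 Compat.id (T.equi_aug ρ) z := by
  show map1 Compat.id (T.equi_aug ρ) ((T.shEquiv1 (ρ.comp T.H.subtype)).symm (T.shEquiv1 (ρ.comp T.H.subtype) z)) = _
  rw [LinearEquiv.symm_apply_apply]

/-- Corestriction of a restriction is multiplication by the index. -/
theorem cor2_res (z : H2 L ρ) :
    T.cor2 ρ (map2 (L.sub_compat T.H) (Equi.res T.H.subtype ρ) z) = Fintype.card X • z := by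
  obtain ⟨Z, rfl⟩ := mk2_surjective z
  have hres : map2 (L.sub_compat T.H) (Equi.res T.H.subtype ρ) (mk2 L ρ Z)
      = T.sh2 (ρ.comp T.H.subtype) (map2 Compat.id (T.equi_dia ρ) (mk2 L ρ Z)) := by
    refine congrArg (mk2 (L.sub T.H) (ρ.comp T.H.subtype)) (Subtype.ext (funext fun x => ?_))
    show Z.1 ((x.1 : G), (x.2 : G)) = ρ (T.t T.x0)⁻¹ (Z.1 ((x.1 : G), (x.2 : G)))
    simp [T.t_x0]
  rw [hres, cor2_sh2, map2_comp_apply, ← map_nsmul, map2_mk2]
  refine congrArg (mk2 L ρ) (Subtype.ext (funext fun x => ?_))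
  exact T.aug_dia ρ (Z.1 x)

/-- Corestriction of a restriction is multiplication by the index. -/
theorem cor1_res (z : H1 L ρ) :
    T.cor1 ρ (map1 (L.sub_compat T.H) (Equi.res T.H.subtype ρ) z) = Fintype.card X • z := by
  obtain ⟨Z, rfl⟩ := mk1_surjective z
  have hres : map1 (L.sub_compat T.H) (Equi.res T.H.subtype ρ) (mk1 L ρ Z)
      = T.sh1 (ρ.comp T.H.subtype) (map1 Compat.id (T.equi_dia ρ) (mk1 L ρ Z)) := by
    refine congrArg (mk1 (L.sub T.H) (ρ.comp T.H.subtype)) (Subtype.ext (funext fun x => ?_))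
    show Z.1 (x : G) = ρ (T.t T.x0)⁻¹ (Z.1 (x : G))
    simp [T.t_x0]
  rw [hres, cor1_sh1, map1_comp_apply, ← map_nsmul, map1_mk1]
  refine congrArg (mk1 L ρ) (Subtype.ext (funext fun x => ?_))
  exact T.aug_dia ρ (Z.1 x)

variable {σ}
variable {σ' : Representation k T.H W'} {τ : Representation k T.H U}
  {β : W →ₗ[k] W' →ₗ[k] U}

/-- The pointwise product. -/
def pmul (β : W →ₗ[k] W' →ₗ[k] U) : (X → W) →ₗ[k] (X → W') →ₗ[k] (X → U) :=
  LinearMap.mk₂ k (fun f f' x => β (f x) (f' x)) (fun f f' f'' => by ext; simp)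
    (fun c f f' => by ext; simp) (fun f f' f'' => by ext; simp) (fun c f f' => by ext; simp)

theorem bil_pmul (hβ : Bil σ σ' τ β) :
    Bil (T.coind σ) (T.coind σ') (T.coind τ) (pmul (X := X) β) :=
  fun g f f' => funext fun x => hβ (T.h g x) (f (g⁻¹ • x)) (f' (g⁻¹ • x))

/-- Shapiro's map is multiplicative. -/
theorem sh2_cup (hβ : Bil σ σ' τ β) (hσ' : Smooth (L.sub T.H) σ')
    (a : H1 L (T.coind σ)) (b : H1 L (T.coind σ')) :
    T.sh2 τ ((T.bil_pmul hβ).cup (T.smooth_coind σ' hσ') a b)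
      = hβ.cup hσ' (T.sh1 σ a) (T.sh1 σ' b) :=
  Bil.map2_cup _ _ hβ hσ' (L.sub_compat T.H) (T.equi_ev σ) (T.equi_ev σ') (T.equi_ev τ)
    (fun _ _ => rfl) a b

end Trans

end FA.GalCoh
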