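import Fermat.Agent.GalCoh.Coind
import Fermat.Prelude.Def_GroupCohomology_Selmer

/-!
Dual pairs of representations, duality pairings, and dévissage for perfectness.
-/

set_option autoImplicit false
set_option linter.unusedSectionVars false

noncomputable section

namespace FA.GalCoh

open Representation

variable {G : Type} [Group G] {L : Levels G}
variable {k : Type} [Field k]
variable {V : Type} [AddCommGroup V] [Module k V]
variable {W : Type} [AddCommGroup W] [Module k W]
variable {V₁ : Type} [AddCommGroup V₁] [Module k V₁]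
variable {W₁ : Type} [AddCommGroup W₁] [Module k W₁]
variable {V₂ : Type} [AddCommGroup V₂] [Module k V₂]
variable {W₂ : Type} [AddCommGroup W₂] [Module k W₂]
variable {χ : G →* kˣ}

/-- A functional vanishing on the kernel of a linear map factors through it. -/
theorem exists_dual_factor {A B : Type} [AddCommGroup A] [Module k A] [AddCommGroup B] [Module k B]
    (φ : A →ₗ[k] B) (f : Module.Dual k A) (h : ∀ a, φ a = 0 → f a = 0) :
    ∃ g : Module.Dual k B, ∀ a, g (φ a) = f a := by
  have hker : LinearMap.ker φ ≤ LinearMap.ker f := fun a ha => h a ha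
  obtain ⟨g, hg⟩ := LinearMap.exists_extend
    (((LinearMap.ker φ).liftQ f hker) ∘ₗ φ.quotKerEquivRange.symm.toLinearMap)
  refine ⟨g, fun a => ?_⟩
  have := LinearMap.congr_fun hg ⟨φ a, LinearMap.mem_range_self φ a⟩
  simp only [LinearMap.comp_apply, Submodule.subtype_apply, LinearEquiv.coe_coe,
    LinearMap.quotKerEquivRange_symm_apply_image] at this
  rw [this]
  exact Submodule.liftQ_apply _ _ _

/-- A smooth dual pair of finite dimensional representations, with values in a character. -/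
structure DPair (L : Levels G) (χ : G →* kˣ) (ρ : Representation k G V) (σ : Representation k G W)
    where
  /-- The pairing. -/
  β : V →ₗ[k] W →ₗ[k] k
  bil : Bil ρ σ (chr χ) β
  inj_left : Function.Injective β
  inj_right : Function.Injective β.flip
  fin_left : FiniteDimensional k V
  fin_right : FiniteDimensional k W
  smooth_left : Smooth L ρ
  smooth_right : Smooth L σ

namespace DPair

variable {ρ : Representation k G V} {σ : Representation k G W}

/-- The flipped pair. -/
def flip (P : DPair L χ ρ σ) : DPair L χ σ ρ where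
  β := P.β.flip
  bil := P.bil.flip
  inj_left := P.inj_right
  inj_right := P.inj_left
  fin_left := P.fin_right
  fin_right := P.fin_left
  smooth_left := P.smooth_right
  smooth_right := P.smooth_left

/-- The identification of the right member with the dual of the left member. -/
def toDual (P : DPair L χ ρ σ) : W ≃ₗ[k] Module.Dual k V :=
  have := P.fin_left
  have := P.fin_right
  LinearEquiv.ofBijective P.β.flip ⟨P.inj_right,
    (LinearMap.injective_iff_surjective_of_finrank_eq_finrank (by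
      refine le_antisymm (LinearMap.finrank_le_finrank_of_injective P.inj_right) ?_
      rw [Subspace.dual_finrank_eq, ← Subspace.dual_finrank_eq (V := W)]
      exact LinearMap.finrank_le_finrank_of_injective P.inj_left)).1 P.inj_right⟩

theorem toDual_apply (P : DPair L χ ρ σ) (w : W) (v : V) : P.toDual w v = P.β v w := rfl

theorem ext_right (P : DPair L χ ρ σ) {w w' : W} (h : ∀ v, P.β v w = P.β v w') : w = w' :=
  P.inj_right (LinearMap.ext h)

variable {ρ₁ : Representation k G V₁} {σ₁ : Representation k G W₁}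
variable {ρ₂ : Representation k G V₂} {σ₂ : Representation k G W₂}

/-- The adjoint of a linear map. -/
def adj (P₁ : DPair L χ ρ₁ σ₁) (P₂ : DPair L χ ρ₂ σ₂) (φ : V₁ →ₗ[k] V₂) : W₂ →ₗ[k] W₁ :=
  P₁.toDual.symm.toLinearMap ∘ₗ φ.dualMap ∘ₗ P₂.toDual.toLinearMap

@[simp] theorem β_adj (P₁ : DPair L χ ρ₁ σ₁) (P₂ : DPair L χ ρ₂ σ₂) (φ : V₁ →ₗ[k] V₂)
    (v : V₁) (w : W₂) : P₁.β v (P₁.adj P₂ φ w) = P₂.β (φ v) w := by
  rw [← toDual_apply, adj]
  simp [toDual_apply]

theorem equi_adj (P₁ : DPair L χ ρ₁ σ₁) (P₂ : DPair L χ ρ₂ σ₂) {φ : V₁ →ₗ[k] V₂}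
    (hφ : Equi (MonoidHom.id G) ρ₁ ρ₂ φ) :
    Equi (MonoidHom.id G) σ₂ σ₁ (P₁.adj P₂ φ) := fun g w => P₁.ext_right fun v => by
  obtain ⟨v, rfl⟩ : ∃ v', ρ₁ g v' = v := ⟨ρ₁ g⁻¹ v, by rw [Representation.self_inv_apply]⟩
  simp only [MonoidHom.id_apply, β_adj]
  rw [show φ (ρ₁ g v) = ρ₂ g (φ v) from hφ g v, P₂.bil g, P₁.bil g, β_adj]

theorem adj_surjective (P₁ : DPair L χ ρ₁ σ₁) (P₂ : DPair L χ ρ₂ σ₂) {φ : V₁ →ₗ[k] V₂}
    (hφ : Function.Injective φ) : Function.Surjective (P₁.adj P₂ φ) :=
  P₁.toDual.symm.surjective.comp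
    ((LinearMap.dualMap_surjective_of_injective hφ).comp P₂.toDual.surjective)

theorem adj_injective (P₁ : DPair L χ ρ₁ σ₁) (P₂ : DPair L χ ρ₂ σ₂) {φ : V₁ →ₗ[k] V₂}
    (hφ : Function.Surjective φ) : Function.Injective (P₁.adj P₂ φ) :=
  P₁.toDual.symm.injective.comp
    ((LinearMap.dualMap_injective_of_surjective hφ).comp P₂.toDual.injective)

variable (ρ) in
/-- The canonical dual pair: the twisted dual. -/
def canonical (hρ : Smooth L ρ) (hχ : Smooth L (chr χ)) [FiniteDimensional k V] :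
    DPair L χ ρ (ρ.dual.twist χ) where
  β := Module.Dual.eval k V
  bil g v f := by
    simp [Representation.twist_apply_apply, Representation.dual_apply, Module.Dual.transpose_apply,
      Representation.inv_self_apply]
  inj_left := fun v w h => (Module.eval_apply_injective k) h
  inj_right := fun f f' h => LinearMap.ext fun v => LinearMap.congr_fun h v
  fin_left := inferInstance
  fin_right := inferInstance
  smooth_left := hρ
  smooth_right := by
    obtain ⟨N, hN, h⟩ := hρ
    obtain ⟨N', hN', h'⟩ := (smooth_chr_iff χ).1 hχ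
    refine ⟨N ⊓ N', L.inf_mem hN hN', fun s hs => LinearMap.ext fun f => LinearMap.ext fun v => ?_⟩
    simp [Representation.twist_apply_apply, Representation.dual_apply, h' s hs.2,
      h _ (inv_mem hs.1), Module.Dual.transpose_apply]

end DPair

section Dual

variable {A B C A' B' C' : Type} [AddCommGroup A] [Module k A] [AddCommGroup B] [Module k B]
  [AddCommGroup C] [Module k C] [AddCommGroup A'] [Module k A'] [AddCommGroup B'] [Module k B']
  [AddCommGroup C'] [Module k C']
variable {ρA : Representation k G A} {ρB : Representation k G B} {ρC : Representation k G C}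
  {σA : Representation k G A'} {σB : Representation k G B'} {σC : Representation k G C'}

/-- The dual short exact sequence. -/
def SES.dual (E : SES ρA ρB ρC) (PA : DPair L χ ρA σA) (PB : DPair L χ ρB σB)
    (PC : DPair L χ ρC σC) : SES σC σB σA where
  i := PB.adj PC E.q
  q := PA.adj PB E.i
  inj := PB.adj_injective PC E.surj
  surj := PA.adj_surjective PB E.inj
  exact := by
    refine le_antisymm ?_ fun w hw => ?_
    · rintro _ ⟨w, rfl⟩
      exact LinearMap.mem_ker.2 (PA.ext_right fun a => by simp)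
    · have hw' : ∀ a, PB.β (E.i a) w = 0 := fun a => by
        rw [← PA.β_adj PB E.i a w, LinearMap.mem_ker.1 hw, map_zero]
      obtain ⟨g, hg⟩ := exists_dual_factor E.q (PB.toDual w) fun b hb => by
        obtain ⟨a, rfl⟩ := E.exists_of_q_eq_zero hb
        exact hw' a
      refine ⟨PC.toDual.symm g, PB.ext_right fun b => ?_⟩
      rw [DPair.β_adj, ← PC.toDual_apply, LinearEquiv.apply_symm_apply, hg]
      rfl
  i_equi := PB.equi_adj PC E.equi_q
  q_equi := PA.equi_adj PB E.equi_i

theorem SES.dual_adjoint (E : SES ρA ρB ρC) (PA : DPair L χ ρA σA) (PB : DPair L χ ρB σB)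
    (PC : DPair L χ ρC σC) : E.Adjoint (E.dual PA PB PC) PA.β PB.β PC.β :=
  ⟨fun a b' => (PA.β_adj PB E.i a b').symm, fun b c' => PB.β_adj PC E.q b c'⟩

end Dual

section Pairings

variable (inv : H2 L (chr χ) →ₗ[k] k)
variable {ρ : Representation k G V} {σ : Representation k G W}

/-- The pairing of first cohomology groups. -/
def pair11 (P : DPair L χ ρ σ) : H1 L ρ →ₗ[k] Module.Dual k (H1 L σ) :=
  (P.bil.cup P.smooth_right).compr₂ inv

theorem pair11_apply (P : DPair L χ ρ σ) (x : H1 L ρ) (y : H1 L σ) :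
    pair11 inv P x y = inv (P.bil.cup P.smooth_right x y) := rfl

theorem pair11_flip (P : DPair L χ ρ σ) (x : H1 L ρ) (y : H1 L σ) :
    pair11 inv P.flip y x = -pair11 inv P x y := by
  rw [pair11_apply, pair11_apply, ← map_neg]
  exact congrArg inv (P.bil.cup_comm P.smooth_right P.smooth_left x y)

/-- The pairing of second cohomology with invariants. -/
def pair20 (P : DPair L χ ρ σ) : H2 L ρ →ₗ[k] Module.Dual k ↥σ.invariants :=
  LinearMap.mk₂ k (fun z n => inv (map2 Compat.id (P.bil.equi_right n.2) z))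
    (fun z z' n => by simp)
    (fun c z n => by simp)
    (fun z n n' => by
      obtain ⟨Z, rfl⟩ := mk2_surjective z
      simp only [map2_mk2, ← map_add]
      congr 2
      ext x
      simp [mapZ2])
    (fun c z n => by
      obtain ⟨Z, rfl⟩ := mk2_surjective z
      simp only [map2_mk2, ← map_smul]
      congr 2
      ext x
      simp [mapZ2])

theorem pair20_apply (P : DPair L χ ρ σ) (z : H2 L ρ) (n : ↥σ.invariants) :
    pair20 inv P z n = inv (map2 Compat.id (P.bil.equi_right n.2) z) := rfl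

/-- All three duality pairings are perfect. -/
structure Perfect (P : DPair L χ ρ σ) : Prop where
  bij11 : Function.Bijective (pair11 inv P)
  bij20 : Function.Bijective (pair20 inv P)
  bij02 : Function.Bijective (pair20 inv P.flip)
  fin1 : Module.Finite k (H1 L ρ)
  fin1' : Module.Finite k (H1 L σ)

theorem pair20_flip_bijective {P : DPair L χ ρ σ} (h : Function.Bijective (pair20 inv P)) :
    Function.Bijective (pair20 inv P).flip := by
  have := P.fin_right
  set e := LinearEquiv.ofBijective _ h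
  have he : (pair20 inv P).flip = e.toLinearMap.dualMap ∘ₗ Module.Dual.eval k ↥σ.invariants := by
    ext n z; rfl
  rw [he]
  exact (e.dualMap.bijective).comp (Module.evalEquiv k ↥σ.invariants).bijective

theorem Perfect.bij11_flip {P : DPair L χ ρ σ} (h : Perfect inv P) :
    Function.Bijective (pair11 inv P.flip) := by
  have := h.fin1'
  set e := LinearEquiv.ofBijective _ h.bij11
  have he : pair11 inv P.flip = -(e.toLinearMap.dualMap ∘ₗ Module.Dual.eval k (H1 L σ)) := by
    exact LinearMap.ext fun y => LinearMap.ext fun x => pair11_flip inv P x y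
  rw [he]
  exact (Equiv.neg _).bijective.comp
    ((e.dualMap.bijective).comp (Module.evalEquiv k (H1 L σ)).bijective)

variable {ρ₁ : Representation k G V₁} {σ₁ : Representation k G W₁}
variable {ρ₂ : Representation k G V₂} {σ₂ : Representation k G W₂}

theorem pair20_adjoint (P₁ : DPair L χ ρ₁ σ₁) (P₂ : DPair L χ ρ₂ σ₂) {φ : V₁ →ₗ[k] V₂}
    {ψ : W₂ →ₗ[k] W₁} (hφ : Equi (MonoidHom.id G) ρ₁ ρ₂ φ) (hψ : Equi (MonoidHom.id G) σ₂ σ₁ ψ)
    (hc : ∀ v w, P₂.β (φ v) w = P₁.β v (ψ w)) (z : H2 L ρ₁) (n : ↥σ₂.invariants) :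
    pair20 inv P₂ (map2 Compat.id hφ z) n
      = pair20 inv P₁ z ⟨ψ n.1, fun g => by
          show σ₁ g (ψ n.1) = ψ n.1
          rw [← hψ g n.1]; exact congrArg ψ (n.2 g)⟩ := by
  obtain ⟨Z, rfl⟩ := mk2_surjective z
  refine congrArg inv (congrArg (mk2 L (chr χ)) (Subtype.ext (funext fun x => ?_)))
  exact hc (Z.1 x) n.1

theorem pair11_adjoint (P₁ : DPair L χ ρ₁ σ₁) (P₂ : DPair L χ ρ₂ σ₂) {φ : V₁ →ₗ[k] V₂}
    {ψ : W₂ →ₗ[k] W₁} (hφ : Equi (MonoidHom.id G) ρ₁ ρ₂ φ) (hψ : Equi (MonoidHom.id G) σ₂ σ₁ ψ)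
    (hc : ∀ v w, P₂.β (φ v) w = P₁.β v (ψ w)) (x : H1 L ρ₁) (y : H1 L σ₂) :
    pair11 inv P₂ (map1 Compat.id hφ x) y = pair11 inv P₁ x (map1 Compat.id hψ y) :=
  congrArg inv (Bil.cup_adjoint P₁.bil P₁.smooth_right P₂.bil P₂.smooth_right hφ hψ hc x y)

/-- Surjectivity of the pairing with invariants descends along surjections. -/
theorem pair20_surjective_of_surjective (P₁ : DPair L χ ρ₁ σ₁) (P₂ : DPair L χ ρ₂ σ₂)
    {φ : V₁ →ₗ[k] V₂} (hφ : Equi (MonoidHom.id G) ρ₁ ρ₂ φ) (hsurj : Function.Surjective φ)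
    (h : Function.Surjective (pair20 inv P₁)) : Function.Surjective (pair20 inv P₂) := by
  intro f
  let ψ := P₁.adj P₂ φ
  have hψ := P₁.equi_adj P₂ hφ
  let ψ₀ : ↥σ₂.invariants →ₗ[k] ↥σ₁.invariants :=
    (ψ.domRestrict σ₂.invariants).codRestrict σ₁.invariants fun n g => by
      show σ₁ g (ψ n.1) = ψ n.1
      rw [← hψ g n.1]; exact congrArg ψ (n.2 g)
  obtain ⟨g, hg⟩ := exists_dual_factor ψ₀ f fun n hn => by
    have h0 : ψ n.1 = 0 := congrArg Subtype.val hn
    rw [show n = 0 from Subtype.ext (P₁.adj_injective P₂ hsurj (h0.trans (map_zero ψ).symm)),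
      map_zero]
  obtain ⟨z, hz⟩ := h g
  refine ⟨map2 Compat.id hφ z, LinearMap.ext fun n => ?_⟩
  rw [pair20_adjoint inv P₁ P₂ hφ hψ (fun v w => (P₁.β_adj P₂ φ v w).symm) z n, hz, ← hg n]
  rfl

/-- Perfectness passes to direct summands. -/
theorem Perfect.summand (P₁ : DPair L χ ρ₁ σ₁) (P₂ : DPair L χ ρ₂ σ₂) {φ : V₁ →ₗ[k] V₂}
    {π : V₂ →ₗ[k] V₁} (hφ : Equi (MonoidHom.id G) ρ₁ ρ₂ φ) (hπ : Equi (MonoidHom.id G) ρ₂ ρ₁ π)
    (hid : ∀ v, π (φ v) = v) (h : Perfect inv P₂) : Perfect inv P₁ := by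
  set ψ := P₁.adj P₂ φ
  set θ := P₂.adj P₁ π
  have hψ := P₁.equi_adj P₂ hφ
  have hθ := P₂.equi_adj P₁ hπ
  have hψθ : ∀ w, ψ (θ w) = w := fun w => P₁.ext_right fun v => by simp [ψ, θ, hid]
  have hβ : ∀ v w, P₂.β (φ v) w = P₁.β v (ψ w) := fun v w => (P₁.β_adj P₂ φ v w).symm
  have hβ' : ∀ v w, P₁.β (π v) w = P₂.β v (θ w) := fun v w => (P₂.β_adj P₁ π v w).symm
  have m1 : ∀ x : H1 L ρ₁, map1 Compat.id hπ (map1 Compat.id hφ x) = x := fun x => by
    obtain ⟨c, rfl⟩ := mk1_surjective x
    exact congrArg (mk1 L ρ₁) (Subtype.ext (funext fun g => hid _))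
  have m1' : ∀ x : H1 L σ₁, map1 Compat.id hψ (map1 Compat.id hθ x) = x := fun x => by
    obtain ⟨c, rfl⟩ := mk1_surjective x
    exact congrArg (mk1 L σ₁) (Subtype.ext (funext fun g => hψθ _))
  refine ⟨⟨(injective_iff_map_eq_zero _).2 fun x hx => ?_, fun f => ?_⟩, ?_, ?_,
    have := h.fin1
    Module.Finite.of_surjective (map1 Compat.id hπ) fun x => ⟨_, m1 x⟩,
    have := h.fin1'
    Module.Finite.of_surjective (map1 Compat.id hψ) fun x => ⟨_, m1' x⟩⟩
  · have : map1 Compat.id hφ x = 0 := h.bij11.1 (LinearMap.ext fun y => by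
      rw [pair11_adjoint inv P₁ P₂ hφ hψ hβ, hx]; simp)
    rw [← m1 x, this, map_zero]
  · obtain ⟨z, hz⟩ := h.bij11.2 (f ∘ₗ map1 Compat.id hψ)
    refine ⟨map1 Compat.id hπ z, LinearMap.ext fun y => ?_⟩
    rw [pair11_adjoint inv P₂ P₁ hπ hθ hβ', hz, LinearMap.comp_apply, m1']
  · have m2 : ∀ x : H2 L ρ₁, map2 Compat.id hπ (map2 Compat.id hφ x) = x := fun x => by
      obtain ⟨c, rfl⟩ := mk2_surjective x
      exact congrArg (mk2 L ρ₁) (Subtype.ext (funext fun g => hid _))
    refine ⟨(injective_iff_map_eq_zero _).2 fun x hx => ?_,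
      pair20_surjective_of_surjective inv P₂ P₁ hπ (fun v => ⟨φ v, hid v⟩) h.bij20.2⟩
    have : map2 Compat.id hφ x = 0 := h.bij20.1 (LinearMap.ext fun y => by
      rw [pair20_adjoint inv P₁ P₂ hφ hψ hβ, hx]; simp)
    rw [← m2 x, this, map_zero]
  · have hidψ : ∀ w, ψ (θ w) = w := hψθ
    have m2 : ∀ x : H2 L σ₁, map2 Compat.id hψ (map2 Compat.id hθ x) = x := fun x => by
      obtain ⟨c, rfl⟩ := mk2_surjective x
      exact congrArg (mk2 L σ₁) (Subtype.ext (funext fun g => hidψ _))
    refine ⟨(injective_iff_map_eq_zero _).2 fun x hx => ?_,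
      pair20_surjective_of_surjective inv P₂.flip P₁.flip hψ (fun w => ⟨θ w, hψθ w⟩) h.bij02.2⟩
    have : map2 Compat.id hθ x = 0 := h.bij02.1 (LinearMap.ext fun y => by
      rw [pair20_adjoint inv P₁.flip P₂.flip hθ hπ (fun w v => P₂.β_adj P₁ π v w), hx]; simp)
    rw [← m2 x, this, map_zero]

variable {A B C A' B' C' : Type} [AddCommGroup A] [Module k A] [AddCommGroup B] [Module k B]
  [AddCommGroup C] [Module k C] [AddCommGroup A'] [Module k A'] [AddCommGroup B'] [Module k B']
  [AddCommGroup C'] [Module k C']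
variable {ρA : Representation k G A} {ρB : Representation k G B} {ρC : Representation k G C}
  {σA : Representation k G A'} {σB : Representation k G B'} {σC : Representation k G C'}
  {E : SES ρA ρB ρC} {E' : SES σC σB σA}
  {PA : DPair L χ ρA σA} {PB : DPair L χ ρB σB} {PC : DPair L χ ρC σC}

theorem pair20_injective_of_ses (hadj : E.Adjoint E' PA.β PB.β PC.β)
    (hA : Function.Injective (pair20 inv PA)) (hC : Function.Injective (pair20 inv PC))
    (hC1 : Function.Surjective (pair11 inv PC)) : Function.Injective (pair20 inv PB) := by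
  refine (injective_iff_map_eq_zero _).2 fun z hz => ?_
  have hq : E.q2 z = 0 := hC (LinearMap.ext fun n => by
    rw [pair20_adjoint inv PB PC E.equi_q E'.equi_i (fun v w => (hadj.right v w).symm), hz]
    simp)
  obtain ⟨a, rfl⟩ := E.exists_of_q2_eq_zero PB.smooth_left hq
  obtain ⟨g, hg⟩ := exists_dual_factor (E'.δ0 PB.smooth_right) (pair20 inv PA a) fun n hn => by
    obtain ⟨b', hb'⟩ := E'.exists_of_δ0_eq_zero PB.smooth_right hn
    have h := LinearMap.congr_fun hz b'
    rw [pair20_adjoint inv PA PB E.equi_i E'.equi_q (fun v w => hadj.left v w)] at h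
    rw [← show (⟨E'.q b'.1, fun g => by rw [hb']; exact n.2 g⟩ : ↥σA.invariants) = n from
      Subtype.ext hb']
    exact h
  obtain ⟨c, hc⟩ := hC1 g
  have : E.δ1 PB.smooth_left c = a := hA (LinearMap.ext fun n => by
    rw [← hg n, ← hc, pair11_apply, pair20_apply]
    exact congrArg inv (SES.δ1_pair PA.bil PB.bil PC.bil hadj PB.smooth_left PB.smooth_right
      PC.smooth_right c n))
  rw [← this, E.i2_δ1 PB.smooth_left]

theorem pair11_bijective_of_ses (hadj : E.Adjoint E' PA.β PB.β PC.β)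
    (hA : Perfect inv PA) (hC : Perfect inv PC) : Function.Bijective (pair11 inv PB) := by
  have hiE : ∀ v w, PB.β (E.i v) w = PA.β v (E'.q w) := hadj.left
  have hqE : ∀ v w, PC.β (E.q v) w = PB.β v (E'.i w) := fun v w => (hadj.right v w).symm
  refine ⟨(injective_iff_map_eq_zero _).2 fun b hb => ?_, fun f => ?_⟩
  · have hq : E.q1 b = 0 := hC.bij11.1 (LinearMap.ext fun y => by
      rw [pair11_adjoint inv PB PC E.equi_q E'.equi_i hqE, hb]; simp)
    obtain ⟨a, rfl⟩ := E.exists_of_q1_eq_zero PB.smooth_left hq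
    obtain ⟨g, hg⟩ := exists_dual_factor (E'.δ1 PB.smooth_right) (pair11 inv PA a) fun y hy => by
      obtain ⟨b', rfl⟩ := E'.exists_of_δ1_eq_zero PB.smooth_right hy
      have h := LinearMap.congr_fun hb b'
      rwa [pair11_adjoint inv PA PB E.equi_i E'.equi_q hiE] at h
    obtain ⟨v, hv⟩ := (pair20_flip_bijective inv (P := PC.flip) hC.bij02).2 g
    have : E.δ0 PB.smooth_left (-v) = a := hA.bij11.1 (LinearMap.ext fun y => by
      rw [← hg y, ← hv, map_neg, map_neg, LinearMap.neg_apply, pair11_apply, ← map_neg]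
      refine congrArg inv ?_
      exact (SES.pair_δ1 PA.bil PB.bil PC.bil hadj PB.smooth_left PB.smooth_right
        PA.smooth_right v y).symm)
    rw [← this, E.i1_δ0 PB.smooth_left]
  · obtain ⟨c, hc⟩ := hC.bij11.2 (f ∘ₗ E'.i1)
    have hδ : E.δ1 PB.smooth_left c = 0 := hA.bij20.1 (LinearMap.ext fun n => by
      rw [map_zero, LinearMap.zero_apply, pair20_apply, SES.δ1_pair PA.bil PB.bil PC.bil hadj
        PB.smooth_left PB.smooth_right PC.smooth_right c n, ← pair11_apply, hc,
        LinearMap.comp_apply, E'.i1_δ0 PB.smooth_right, map_zero])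
    obtain ⟨b, rfl⟩ := E.exists_of_δ1_eq_zero PB.smooth_left hδ
    obtain ⟨g, hg⟩ := exists_dual_factor (E'.q1) (f - pair11 inv PB b) fun y hy => by
      obtain ⟨c', rfl⟩ := E'.exists_of_q1_eq_zero PB.smooth_right hy
      have h := LinearMap.congr_fun hc c'
      rw [pair11_adjoint inv PB PC E.equi_q E'.equi_i hqE] at h
      rw [LinearMap.sub_apply, h, LinearMap.comp_apply, sub_self]
    obtain ⟨a, ha⟩ := hA.bij11.2 g
    refine ⟨b + E.i1 a, LinearMap.ext fun y => ?_⟩
    rw [map_add, LinearMap.add_apply, pair11_adjoint inv PA PB E.equi_i E'.equi_q hiE, ha, hg,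
      LinearMap.sub_apply, add_sub_cancel]

theorem finite_H1_of_ses (hB : Smooth L ρB) (hA : Module.Finite k (H1 L ρA))
    (hC : Module.Finite k (H1 L ρC)) (E : SES ρA ρB ρC) : Module.Finite k (H1 L ρB) := by
  refine ⟨Submodule.fg_of_fg_map_of_fg_inf_ker E.q1 (IsNoetherian.noetherian _) ?_⟩
  have hle : (⊤ : Submodule k (H1 L ρB)) ⊓ LinearMap.ker E.q1 = LinearMap.range E.i1 := by
    rw [top_inf_eq]
    refine le_antisymm (fun b hb => E.exists_of_q1_eq_zero hB hb) ?_
    rintro _ ⟨a, rfl⟩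
    exact E.q1_i1 a
  rw [hle, LinearMap.range_eq_map]
  exact hA.fg_top.map _

/-- Perfectness in a short exact sequence. -/
theorem Perfect.of_ses (hadj : E.Adjoint E' PA.β PB.β PC.β) (hA : Perfect inv PA)
    (hC : Perfect inv PC) (hB : Function.Surjective (pair20 inv PB))
    (hB' : Function.Surjective (pair20 inv PB.flip)) : Perfect inv PB :=
  ⟨pair11_bijective_of_ses inv hadj hA hC,
    ⟨pair20_injective_of_ses inv hadj hA.bij20.1 hC.bij20.1 hC.bij11.2, hB⟩,
    ⟨pair20_injective_of_ses inv (E := E') (E' := E) (PA := PC.flip) (PB := PB.flip)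
      (PC := PA.flip) hadj.symm hC.bij02.1 hA.bij02.1 (hA.bij11_flip inv).2, hB'⟩,
    finite_H1_of_ses PB.smooth_left hA.fin1 hC.fin1 E,
    finite_H1_of_ses PB.smooth_right hC.fin1' hA.fin1' E'⟩

end Pairings

end FA.GalCoh
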