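import Fermat.Agent.GalCoh.Euler

/-!
The Greenberg-Wiles inequality for classes unramified outside a finite set of primes.
-/

set_option autoImplicit false
set_option linter.unusedSectionVars false

noncomputable section

namespace FA.GalCoh

open Representation

variable {p : ℕ} [hp : Fact p.Prime]
variable {V : Type} [AddCommGroup V] [Module (ZMod p) V]
variable {W : Type} [AddCommGroup W] [Module (ZMod p) W]
variable {ρ : Representation (ZMod p) GQ V} {σ : Representation (ZMod p) GQ W}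

/-- A family of local conditions at the primes of `S`. -/
abbrev LocCond (S : Finset Nat.Primes) (ρ : Representation (ZMod p) GQ V) : Type :=
  ∀ q : {q : Nat.Primes // q ∈ S},
    Submodule (ZMod p) (H1 (LL (q.1 : ℕ)) (ρ.comp (loc (q.1 : ℕ))))

/-- The classes unramified outside `S` with given local conditions at `S`. -/
def selS (S : Finset Nat.Primes) (ρ : Representation (ZMod p) GQ V) (L : LocCond S ρ) :
    Submodule (ZMod p) (H1 LQ ρ) :=
  unrOutside S ρ ⊓ ⨅ q : {q : Nat.Primes // q ∈ S}, (L q).comap (resq1 (q.1 : ℕ) ρ)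

theorem mem_selS {S : Finset Nat.Primes} {L : LocCond S ρ} {x : H1 LQ ρ} :
    x ∈ selS S ρ L ↔ x ∈ unrOutside S ρ ∧
      ∀ q : {q : Nat.Primes // q ∈ S}, resq1 (q.1 : ℕ) ρ x ∈ L q := by
  simp only [selS, Submodule.mem_inf, Submodule.mem_iInf, Submodule.mem_comap]

theorem selS_le (S : Finset Nat.Primes) (L : LocCond S ρ) : selS S ρ L ≤ unrOutside S ρ :=
  inf_le_left

/-- The orthogonal complement of a local condition. -/
def orthQ (q : ℕ) [Fact q.Prime] (P : DPair LQ (cycQ p).χ ρ σ)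
    (L : Submodule (ZMod p) (H1 (LL q) (ρ.comp (loc q)))) :
    Submodule (ZMod p) (H1 (LL q) (σ.comp (loc q))) :=
  (L.map (pair11Q q P)).dualCoannihilator

theorem mem_orthQ {q : ℕ} [Fact q.Prime] {P : DPair LQ (cycQ p).χ ρ σ}
    {L : Submodule (ZMod p) (H1 (LL q) (ρ.comp (loc q)))}
    {y : H1 (LL q) (σ.comp (loc q))} :
    y ∈ orthQ q P L ↔ ∀ x ∈ L, pair11Q q P x y = 0 := by
  rw [orthQ, Submodule.mem_dualCoannihilator]
  exact ⟨fun h x hx => h _ ⟨x, hx, rfl⟩, fun h f hf => by
    obtain ⟨x, hx, rfl⟩ := hf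
    exact h x hx⟩

/-- A local class pairing to zero with all classes vanishes. -/
theorem eq_zero_of_pair11Q (q : ℕ) [Fact q.Prime] (P : DPair LQ (cycQ p).χ ρ σ)
    {y : H1 (LL q) (σ.comp (loc q))} (h : ∀ x, pair11Q q P x y = 0) : y = 0 :=
  ((perfectQ q P).bij11_flip (localInv (cycL p q))).1 (LinearMap.ext fun x => by
    rw [map_zero, LinearMap.zero_apply, pair11_flip]
    exact (congrArg Neg.neg (h x)).trans neg_zero)

theorem orthQ_top (q : ℕ) [Fact q.Prime] (P : DPair LQ (cycQ p).χ ρ σ) : orthQ q P ⊤ = ⊥ :=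
  (Submodule.eq_bot_iff _).2 fun _ hy =>
    eq_zero_of_pair11Q q P fun x => mem_orthQ.1 hy x Submodule.mem_top

/-- The partner of a module unramified at a prime is unramified there. -/
theorem unrRep_right (P : DPair LQ (cycQ p).χ ρ σ) {q : ℕ} [Fact q.Prime] (hqp : q ≠ p)
    (hρ : UnrRep (ρ.comp (loc q))) : UnrRep (σ.comp (loc q)) := fun ι hι =>
  LinearMap.ext fun w => P.inj_right (LinearMap.ext fun v => by
    have h := P.bil (loc q ι) v w
    have hv : ρ (loc q ι) v = v := by
      rw [show ρ (loc q ι) = 1 from hρ ι hι]; rfl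
    rw [hv, chr_apply] at h
    show P.β v (σ (loc q ι) w) = P.β v w
    rw [h, show (cycQ p).χ (loc q ι) = 1 from cycloChar_inertL hqp hι, Units.val_one, one_mul])

/-- A subspace of a subspace contained in a third one. -/
theorem finrank_le_of_subtype {k A : Type} [Field k] [AddCommGroup A] [Module k A]
    (U : Submodule k A) (W : Submodule k U) (S : Submodule k A) [Module.Finite k S]
    (h : ∀ x ∈ W, (x : A) ∈ S) : Module.finrank k W ≤ Module.finrank k S := by
  rw [← Submodule.finrank_map_subtype_eq U W]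
  exact Submodule.finrank_mono fun _ ⟨x, hx, he⟩ => he ▸ h x hx

/-- Two spaces orthogonal under a sum of pairings, the first one landing in given conditions. -/
theorem finrank_add_le_of_orthogonal {k A B ι : Type} [Field k] [AddCommGroup A] [Module k A]
    [AddCommGroup B] [Module k B] [Fintype ι] {M N : ι → Type} [∀ i, AddCommGroup (M i)]
    [∀ i, Module k (M i)] [∀ i, AddCommGroup (N i)] [∀ i, Module k (N i)]
    [FiniteDimensional k A] [FiniteDimensional k B] [∀ i, FiniteDimensional k (M i)]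
    (L : ∀ i, Submodule k (M i)) (β : ∀ i, M i →ₗ[k] N i →ₗ[k] k) (ra : ∀ i, A →ₗ[k] M i)
    (rb : ∀ i, B →ₗ[k] N i) (ha : ∀ a i, ra i a ∈ L i)
    (h : ∀ a b, ∑ i, β i (ra i a) (rb i b) = 0) (C : Submodule k B)
    (hC : ∀ b, (∀ i, ∀ x ∈ L i, β i x (rb i b) = 0) → b ∈ C) :
    Module.finrank k A + Module.finrank k B
      ≤ Module.finrank k ↥(⨅ i, LinearMap.ker (ra i)) + Module.finrank k C
        + ∑ i, Module.finrank k (L i) := by
  classical
  let r : A →ₗ[k] ∀ i, L i := LinearMap.pi fun i => (ra i).codRestrict (L i) fun a => ha a i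
  let Ψ : B →ₗ[k] Module.Dual k (∀ i, L i) :=
    ∑ i, (LinearMap.proj (R := k) (φ := fun i => L i) i).dualMap ∘ₗ
      (L i).subtype.dualMap ∘ₗ (β i).flip ∘ₗ rb i
  have hΨ : ∀ b v, Ψ b v = ∑ i, β i (v i).1 (rb i b) := fun b v => by
    simp only [Ψ, LinearMap.sum_apply]
    rfl
  have hker : LinearMap.ker r = ⨅ i, LinearMap.ker (ra i) := by
    ext a
    rw [LinearMap.mem_ker, Submodule.mem_iInf]
    exact ⟨fun h i => congrArg Subtype.val (congrFun h i),
      fun h => funext fun i => Subtype.ext (h i)⟩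
  have hkΨ : LinearMap.ker Ψ ≤ C := fun b hb => hC b fun i x hx => by
    have h' := LinearMap.congr_fun (LinearMap.mem_ker.1 hb) (Pi.single i ⟨x, hx⟩)
    rwa [hΨ, LinearMap.zero_apply, Finset.sum_eq_single i (fun j _ hne => by
        rw [Pi.single_eq_of_ne hne]
        exact LinearMap.map_zero₂ _ _)
      (fun hne => absurd (Finset.mem_univ i) hne), Pi.single_eq_same] at h'
  have hrange : LinearMap.range Ψ ≤ (LinearMap.range r).dualAnnihilator := by
    rintro _ ⟨b, rfl⟩
    rw [Submodule.mem_dualAnnihilator]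
    rintro _ ⟨a, rfl⟩
    rw [hΨ]
    exact h a b
  have h1 := Subspace.finrank_add_finrank_dualAnnihilator_eq (LinearMap.range r)
  have h2 := Submodule.finrank_mono hrange
  have h3 := LinearMap.finrank_range_add_finrank_ker Ψ
  have h4 := LinearMap.finrank_range_add_finrank_ker r
  have h5 : Module.finrank k (∀ i, L i) = ∑ i, Module.finrank k (L i) :=
    Module.finrank_pi_fintype k
  have h6 := Submodule.finrank_mono hkΨ
  rw [hker] at h4
  omega

namespace Trans

variable {X : Type} [Fintype X] [MulAction GQ X] (T : Trans LQ X) [hn : T.H.Normal]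

set_option maxHeartbeats 800000 in
-- the instances on local groups are slow to find
/-- The Greenberg-Wiles inequality at a large set of primes. -/
theorem finrank_selS_le (hμ : ∀ s ∈ T.H, ExtCitation.cycloChar p s = 1)
    (P : DPair LQ (cycQ p).χ ρ σ) (hp2 : p ≠ 2) (hρ : ∀ s ∈ T.H, ρ s = 1)
    {S : Finset Nat.Primes} (hS : T.BigS p S) (L : LocCond S ρ) :
    Module.finrank (ZMod p) (selS S ρ L) + Module.finrank (ZMod p) ↥σ.invariants
        + Module.finrank (ZMod p) (LinearMap.ker (ρ complexConjugation - 1))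
        + ∑ q : {q // q ∈ S},
            Module.finrank (ZMod p) ↥(Representation.invariants (ρ.comp (loc (q.1 : ℕ))))
      ≤ Module.finrank (ZMod p) (selS S σ fun q => orthQ (q.1 : ℕ) P (L q))
        + Module.finrank (ZMod p) ↥ρ.invariants + ∑ q, Module.finrank (ZMod p) (L q) := by
  classical
  have hσ : ∀ s ∈ T.H, σ s = 1 := fun s hs => T.eq_one_right P hμ hρ hs
  have := P.fin_left
  have := P.fin_right
  have := T.finite_unrOutside_big hμ hp2 hρ hS
  have := T.finite_unrOutside_big hμ hp2 hσ hS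
  have : FiniteDimensional (ZMod p) (unrOutside S ρ) := Module.Finite.of_finite
  have : FiniteDimensional (ZMod p) (unrOutside S σ) := Module.Finite.of_finite
  obtain ⟨hfin, -, -⟩ := T.finrank_shaTwo P.flip hp2 hμ hσ
  have := fun q : {q : Nat.Primes // q ∈ S} => (perfectQ (q.1 : ℕ) P).fin1
  have := fun q : {q : Nat.Primes // q ∈ S} => (perfectQ (q.1 : ℕ) P).fin1'
  set U := selS S ρ L
  set U' := selS S σ fun q => orthQ (q.1 : ℕ) P (L q)
  have : FiniteDimensional (ZMod p) U := Submodule.finiteDimensional_of_le (selS_le S L)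
  have : FiniteDimensional (ZMod p) U' := Submodule.finiteDimensional_of_le (selS_le S _)
  have hsub : ∀ x ∈ ⨅ q : {q // q ∈ S}, LinearMap.ker ((resq1 (q.1 : ℕ) ρ).domRestrict U),
      (x : H1 LQ ρ) ∈ shaOne ρ := fun x hx =>
    T.mem_shaOne_of_big hμ hp2 P.smooth_left hρ hS (selS_le S L x.2) (funext fun q =>
      LinearMap.mem_ker.1 ((Submodule.mem_iInf _).1 hx q))
  have hker : Module.finrank (ZMod p)
      ↥(⨅ q : {q // q ∈ S}, LinearMap.ker ((resq1 (q.1 : ℕ) ρ).domRestrict U))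
        ≤ Module.finrank (ZMod p) (shaOne ρ) :=
    finrank_le_of_subtype U _ (shaOne ρ) hsub
  have hA : ∀ (x : U) (q : {q // q ∈ S}), (resq1 (q.1 : ℕ) ρ).domRestrict U x ∈ L q := fun x q => by
    rw [LinearMap.domRestrict_apply]
    exact (mem_selS.1 x.2).2 q
  have hiso : ∀ (x : U) (y : unrOutside S σ), ∑ q : {q // q ∈ S},
      pair11Q (q.1 : ℕ) P ((resq1 (q.1 : ℕ) ρ).domRestrict U x)
        ((resq1 (q.1 : ℕ) σ).domRestrict (unrOutside S σ) y) = 0 := fun x y => by
    simp only [LinearMap.domRestrict_apply]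
    exact sum_pair11Q_eq_zero P hS.ad.pmem (fun q hq => T.unrRep_big hσ hS hq)
      (fun h => absurd h hp2) (selS_le S L x.2) y.2
  have hC : ∀ y : unrOutside S σ, (∀ q : {q // q ∈ S}, ∀ x ∈ L q,
      pair11Q (q.1 : ℕ) P x ((resq1 (q.1 : ℕ) σ).domRestrict (unrOutside S σ) y) = 0) →
      y ∈ U'.comap (unrOutside S σ).subtype := fun y hy => by
    rw [Submodule.mem_comap, Submodule.subtype_apply, mem_selS]
    refine ⟨y.2, fun q => mem_orthQ.2 fun x hx => ?_⟩
    have := hy q x hx
    rwa [LinearMap.domRestrict_apply] at this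
  have h1 := finrank_add_le_of_orthogonal (k := ZMod p) (A := U) (B := unrOutside S σ)
    (M := fun q : {q // q ∈ S} => H1 (LL (q.1 : ℕ)) (ρ.comp (loc (q.1 : ℕ))))
    (N := fun q : {q // q ∈ S} => H1 (LL (q.1 : ℕ)) (σ.comp (loc (q.1 : ℕ))))
    L (fun q => pair11Q (q.1 : ℕ) P)
    (fun q => (resq1 (q.1 : ℕ) ρ).domRestrict U)
    (fun q => (resq1 (q.1 : ℕ) σ).domRestrict (unrOutside S σ))
    hA hiso (U'.comap (unrOutside S σ).subtype) hC
  have hk : Module.finrank (ZMod p) (U'.comap (unrOutside S σ).subtype)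
      = Module.finrank (ZMod p) U' :=
    (Submodule.comapSubtypeEquivOfLe (selS_le S fun q => orthQ (q.1 : ℕ) P (L q))).finrank_eq
  rw [hk] at h1
  have he := T.finrank_unrOutside_eq hμ P.flip hp2 hσ hS
  omega

end Trans

/-! ### Arbitrary finite sets of primes -/

open scoped Classical in
/-- Local conditions extended by the unramified ones. -/
def extCond {S₀ : Finset Nat.Primes} (S : Finset Nat.Primes) (L : LocCond S₀ ρ) : LocCond S ρ :=
  fun q => if h : q.1 ∈ S₀ then L ⟨q.1, h⟩ else unrH1 (ρ.comp (loc (q.1 : ℕ)))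

theorem extCond_pos {S₀ S : Finset Nat.Primes} (L : LocCond S₀ ρ) {q : {q // q ∈ S}}
    (h : q.1 ∈ S₀) : extCond S L q = L ⟨q.1, h⟩ := dif_pos h

theorem extCond_neg {S₀ S : Finset Nat.Primes} (L : LocCond S₀ ρ) {q : {q // q ∈ S}}
    (h : q.1 ∉ S₀) : extCond S L q = unrH1 (ρ.comp (loc (q.1 : ℕ))) := dif_neg h

theorem selS_extCond {S₀ S : Finset Nat.Primes} (hS : S₀ ⊆ S) (L : LocCond S₀ ρ) :
    selS S ρ (extCond S L) = selS S₀ ρ L := by
  ext x
  rw [mem_selS, mem_selS, mem_unrOutside, mem_unrOutside]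
  refine ⟨fun ⟨h, h'⟩ => ⟨fun q hq => ?_, fun q => ?_⟩,
    fun ⟨h, h'⟩ => ⟨fun q hq => h q fun hq' => hq (hS hq'), fun q => ?_⟩⟩
  · by_cases hqS : q ∈ S
    · have := h' ⟨q, hqS⟩
      rwa [extCond_neg L hq] at this
    · exact h q hqS
  · have := h' ⟨q.1, hS q.2⟩
    rwa [extCond_pos (S := S) L (q := ⟨q.1, hS q.2⟩) q.2] at this
  · by_cases hq : q.1 ∈ S₀
    · rw [extCond_pos L hq]; exact h' ⟨q.1, hq⟩
    · rw [extCond_neg L hq]; exact h q.1 hq

theorem sum_subset_subtype {S₀ S : Finset Nat.Primes} (hS : S₀ ⊆ S) (f : Nat.Primes → ℕ) :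
    ∑ q : {q // q ∈ S}, f q.1
      = ∑ q : {q // q ∈ S₀}, f q.1 + ∑ q ∈ S \ S₀, f q := by
  rw [Finset.sum_coe_sort S f, Finset.sum_coe_sort S₀ f, add_comm, Finset.sum_sdiff hS]

theorem exists_trans (P : DPair LQ (cycQ p).χ ρ σ) :
    ∃ (X : Type) (_ : Fintype X) (_ : MulAction GQ X) (T : Trans LQ X) (_ : T.H.Normal),
      (∀ s ∈ T.H, ExtCitation.cycloChar p s = 1) ∧ ∀ s ∈ T.H, ρ s = 1 := by
  classical
  have hN := kerLevel_mem P.smooth_left
  have hnorm : (kerLevel (p := p) ρ).Normal := by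
    rw [kerLevel]; infer_instance
  have := LQ.finiteIndex hN
  let _ : Fintype (GQ ⧸ kerLevel ρ) := Fintype.ofFinite _
  refine ⟨GQ ⧸ kerLevel ρ, inferInstance, inferInstance,
    cosetTrans LQ (kerLevel ρ) hN hnorm le_rfl, ?_, fun s hs => ?_, fun s hs => ?_⟩
  · rw [show (cosetTrans LQ (kerLevel ρ) hN hnorm le_rfl).H = kerLevel ρ from
      Subgroup.ext fun g => mem_cosetTrans_H hN hnorm le_rfl]
    exact hnorm
  · exact MonoidHom.mem_ker.1 ((mem_cosetTrans_H hN hnorm le_rfl).1 hs).2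
  · exact MonoidHom.mem_ker.1 ((mem_cosetTrans_H hN hnorm le_rfl).1 hs).1

theorem finite_unrOutside_of (P : DPair LQ (cycQ p).χ ρ σ) (hp2 : p ≠ 2)
    (S₀ : Finset Nat.Primes) : Finite (unrOutside S₀ ρ) := by
  classical
  obtain ⟨X, _, _, T, _, hμ, hρ⟩ := exists_trans P
  obtain ⟨S₁, hS₁⟩ := T.exists_bigS (p := p)
  have := P.fin_left
  have := T.finite_unrOutside_big hμ hp2 hρ (hS₁.mono T (Finset.subset_union_right (s₁ := S₀)))
  exact Finite.of_injective
    (Submodule.inclusion (unrOutside_mono (Finset.subset_union_left (s₂ := S₁))))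
    (Submodule.inclusion_injective _)

/-- The Greenberg-Wiles inequality at a finite set of primes containing `p`. -/
theorem finrank_selS_le (P : DPair LQ (cycQ p).χ ρ σ) (hp2 : p ≠ 2) {S₀ : Finset Nat.Primes}
    (hpS : (⟨p, hp.out⟩ : Nat.Primes) ∈ S₀)
    (hunr : ∀ q : Nat.Primes, q ∉ S₀ → UnrRep (ρ.comp (loc (q : ℕ)))) (L : LocCond S₀ ρ) :
    Module.finrank (ZMod p) (selS S₀ ρ L) + Module.finrank (ZMod p) ↥σ.invariants
        + Module.finrank (ZMod p) (LinearMap.ker (ρ complexConjugation - 1))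
        + ∑ q : {q // q ∈ S₀},
            Module.finrank (ZMod p) ↥(Representation.invariants (ρ.comp (loc (q.1 : ℕ))))
      ≤ Module.finrank (ZMod p) (selS S₀ σ fun q => orthQ (q.1 : ℕ) P (L q))
        + Module.finrank (ZMod p) ↥ρ.invariants + ∑ q, Module.finrank (ZMod p) (L q) := by
  classical
  obtain ⟨X, _, _, T, _, hμ, hρ⟩ := exists_trans P
  obtain ⟨S₁, hS₁⟩ := T.exists_bigS (p := p)
  set S := S₀ ∪ S₁
  have hsub : S₀ ⊆ S := Finset.subset_union_left
  have := P.fin_left
  have hne : ∀ q : Nat.Primes, q ∉ S₀ → (q : ℕ) ≠ p := fun q hq h =>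
    hq ((show q = ⟨p, hp.out⟩ from Subtype.ext h) ▸ hpS)
  have horth : (fun q : {q // q ∈ S} => orthQ (q.1 : ℕ) P (extCond S L q))
      = extCond S fun q : {q // q ∈ S₀} => orthQ (q.1 : ℕ) P (L q) := funext fun q => by
    by_cases hq : q.1 ∈ S₀
    · rw [extCond_pos _ hq, extCond_pos _ hq]
    · rw [extCond_neg _ hq, extCond_neg _ hq]
      ext y
      rw [mem_orthQ]
      exact ((unr_dual (locPair (q.1 : ℕ) P) (hne _ hq) P.smooth_right (hunr _ hq)
        (unrRep_right P (hne _ hq) (hunr _ hq))).2 y).symm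
  have hmain := T.finrank_selS_le hμ P hp2 hρ
    (hS₁.mono T Finset.subset_union_right : T.BigS p S) (extCond S L)
  rw [horth, selS_extCond hsub, selS_extCond hsub] at hmain
  have hsum : ∑ q : {q // q ∈ S}, Module.finrank (ZMod p) (extCond S L q)
      = ∑ q : {q // q ∈ S₀}, Module.finrank (ZMod p) (L q)
        + ∑ q ∈ S \ S₀,
            Module.finrank (ZMod p) ↥(Representation.invariants (ρ.comp (loc (q : ℕ)))) := by
    let f : Nat.Primes → ℕ := fun q => if h : q ∈ S₀ then Module.finrank (ZMod p) (L ⟨q, h⟩)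
      else Module.finrank (ZMod p) ↥(Representation.invariants (ρ.comp (loc (q : ℕ))))
    have e : ∀ q : {q // q ∈ S}, Module.finrank (ZMod p) (extCond S L q) = f q.1 := fun q => by
      by_cases hq : q.1 ∈ S₀
      · simp only [f, dif_pos hq]
        rw [extCond_pos L hq]
      · simp only [f, dif_neg hq]
        rw [extCond_neg L hq]
        exact (finrank_unrH1 (hunr _ hq) (P.smooth_left.comp compat_loc)).2
    rw [Finset.sum_congr rfl fun q _ => e q, sum_subset_subtype hsub f]
    exact congrArg₂ (· + ·) (Finset.sum_congr rfl fun q _ => dif_pos q.2)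
      (Finset.sum_congr rfl fun q hq => dif_neg (Finset.mem_sdiff.1 hq).2)
  rw [hsum, sum_subset_subtype hsub fun q : Nat.Primes =>
    Module.finrank (ZMod p) ↥(Representation.invariants (ρ.comp (loc (q : ℕ))))] at hmain
  omega

end FA.GalCoh
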