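import Fermat.Agent.GalCoh.Basic

/-!
Maps of first cohomology induced by additive maps of modules over possibly different fields, and
restriction of scalars of representations.
-/

set_option autoImplicit false
set_option linter.unusedSectionVars false

noncomputable section

namespace FA.GalCoh

open Representation

variable {G G' : Type} [Group G] [Group G'] {L : Levels G} {L' : Levels G'}
variable {k k' : Type} [Field k] [Field k']
variable {V : Type} [AddCommGroup V] [Module k V]
variable {W : Type} [AddCommGroup W] [Module k' W]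
variable {ρ : Representation k G V} {σ : Representation k' G' W} {f : G' →* G} {φ : V →+ W}

/-- Equivariance of an additive map along a homomorphism. -/
def AddEqui (f : G' →* G) (ρ : Representation k G V) (σ : Representation k' G' W) (φ : V →+ W) :
    Prop :=
  ∀ g v, φ (ρ (f g) v) = σ g (φ v)

/-- The map of cocycles induced by an additive map. -/
def addMapZ1 (hf : Compat L L' f) (hφ : AddEqui f ρ σ φ) : ↥(Z1 L ρ) →+ ↥(Z1 L' σ) where
  toFun c := ⟨fun g => φ (c.1 (f g)), (c.2.1.precomp hf).comp φ, fun g h => by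
    show φ (c.1 (f (g * h))) = σ g (φ (c.1 (f h))) + φ (c.1 (f g))
    rw [map_mul, c.2.2, map_add, hφ]⟩
  map_zero' := Subtype.ext (funext fun _ => map_zero φ)
  map_add' _ _ := Subtype.ext (funext fun _ => map_add φ _ _)

/-- The map of classes induced by an additive map. -/
def addMap1 (hf : Compat L L' f) (hφ : AddEqui f ρ σ φ) : H1 L ρ →+ H1 L' σ :=
  QuotientAddGroup.lift ((B1 ρ).comap (Z1 L ρ).subtype).toAddSubgroup
    ((mk1 L' σ).toAddMonoidHom.comp (addMapZ1 hf hφ)) fun c hc => by
      obtain ⟨v, hv⟩ := hc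
      refine (mk1_eq_zero L' σ _).2 ⟨φ v, funext fun g => ?_⟩
      show σ g (φ v) - φ v = φ (c.1 (f g))
      rw [show c.1 (f g) = ρ (f g) v - v from (congrFun hv (f g)).symm, map_sub, hφ]

theorem addMap1_mk1 (hf : Compat L L' f) (hφ : AddEqui f ρ σ φ) (c : ↥(Z1 L ρ)) :
    addMap1 hf hφ (mk1 L ρ c) = mk1 L' σ (addMapZ1 hf hφ c) := rfl

theorem addMap1_injective (hf : Compat L L' f) (hφ : AddEqui f ρ σ φ)
    (hfs : Function.Surjective f) (hφb : Function.Bijective φ) :
    Function.Injective (addMap1 hf hφ) := by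
  refine (injective_iff_map_eq_zero _).2 fun x hx => ?_
  obtain ⟨c, rfl⟩ := mk1_surjective x
  rw [addMap1_mk1, mk1_eq_zero] at hx
  obtain ⟨w, hw⟩ := hx
  obtain ⟨v, rfl⟩ := hφb.2 w
  refine (mk1_eq_zero L ρ c).2 ⟨v, funext fun g => ?_⟩
  obtain ⟨t, rfl⟩ := hfs g
  apply hφb.1
  show φ (ρ (f t) v - v) = φ (c.1 (f t))
  rw [map_sub, hφ]
  exact congrFun hw t

theorem addMap1_surjective (hf : Compat L L' f) (hφ : AddEqui f ρ σ φ)
    (hfb : Function.Bijective f) (hφb : Function.Bijective φ)
    (hinv : ∀ N' ∈ L'.carrier, ∃ N ∈ L.carrier, N.comap f ≤ N') :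
    Function.Surjective (addMap1 hf hφ) := by
  intro y
  obtain ⟨c, rfl⟩ := mk1_surjective y
  obtain ⟨N', hN', hc⟩ := c.2.1
  obtain ⟨N, hN, hle⟩ := hinv N' hN'
  set e := MulEquiv.ofBijective f hfb
  set ψ := Equiv.ofBijective φ hφb
  have hψ : ∀ w, φ (ψ.symm w) = w := fun w => ψ.apply_symm_apply w
  have he : ∀ g, f (e.symm g) = g := fun g => e.apply_symm_apply g
  refine ⟨mk1 L ρ ⟨fun g => ψ.symm (c.1 (e.symm g)), ⟨N, hN, fun g s hs => ?_⟩, fun g h => ?_⟩, ?_⟩
  · show ψ.symm (c.1 (e.symm (g * s))) = ψ.symm (c.1 (e.symm g))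
    rw [map_mul]
    exact congrArg ψ.symm (hc _ _ (hle (by rw [Subgroup.mem_comap, he]; exact hs)))
  · apply hφb.1
    show φ (ψ.symm (c.1 (e.symm (g * h)))) = φ (ρ g (ψ.symm _) + ψ.symm _)
    have := hφ (e.symm g) (ψ.symm (c.1 (e.symm h)))
    rw [he] at this
    rw [map_add, this, hψ, hψ, hψ, map_mul, c.2.2]
  · rw [addMap1_mk1]
    refine congrArg (mk1 L' σ) (Subtype.ext (funext fun t => ?_))
    show φ (ψ.symm (c.1 (e.symm (f t)))) = c.1 t
    rw [hψ, show e.symm (f t) = t from e.symm_apply_apply t]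

/-! ### Restriction of scalars -/

section Res

variable (k' : Type) [Field k'] [Algebra k' k] [Module k' V] [IsScalarTower k' k V]

/-- A representation over a subfield. -/
def resRep (ρ : Representation k G V) : Representation k' G V where
  toFun g := (ρ g).restrictScalars k'
  map_one' := LinearMap.ext fun v => by
    show ρ 1 v = v
    rw [map_one]; rfl
  map_mul' g h := LinearMap.ext fun v => by
    show ρ (g * h) v = ρ g (ρ h v)
    rw [map_mul]; rfl

theorem resRep_apply (ρ : Representation k G V) (g : G) (v : V) : resRep k' ρ g v = ρ g v := rfl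

theorem resRep_eq_one {ρ : Representation k G V} {g : G} (h : ρ g = 1) : resRep k' ρ g = 1 :=
  LinearMap.ext fun v => by rw [resRep_apply, h]; rfl

theorem smooth_resRep {ρ : Representation k G V} (h : Smooth L ρ) : Smooth L (resRep k' ρ) := by
  obtain ⟨N, hN, hs⟩ := h
  exact ⟨N, hN, fun s hs' => resRep_eq_one k' (hs s hs')⟩

/-- Scalars commute with the restricted representation. -/
theorem equi_scalar (ρ : Representation k G V) (a : k) :
    Equi (MonoidHom.id G) (resRep k' ρ) (resRep k' ρ)
      ((a • (LinearMap.id : V →ₗ[k] V)).restrictScalars k') := fun g v => by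
  show a • ρ g v = ρ g (a • v)
  rw [map_smul]

end Res

end FA.GalCoh
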