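import Fermat.Agent.GalCoh.GlobalDuality
import Fermat.Agent.GalCoh.ScalarRes
import Fermat.Agent.TW.Global

/-!
The Greenberg-Wiles inequality for representations over a finite field, in terms of the levels
unramified outside a finite set and of chosen places.
-/

set_option autoImplicit false
set_option linter.unusedSectionVars false

noncomputable section

namespace FA.GalCoh

open Representation
open scoped Pointwise

variable {p : ℕ} [hp : Fact p.Prime]
variable {k : Type} [Field k] [Algebra (ZMod p) k]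
variable {V : Type} [AddCommGroup V] [Module k V] [Module (ZMod p) V] [IsScalarTower (ZMod p) k V]
variable {W : Type} [AddCommGroup W] [Module k W] [Module (ZMod p) W] [IsScalarTower (ZMod p) k W]
variable (ρ : Representation k GQ V)

/-! ### Global classes -/

/-- The prime numbers in a finite set. -/
def primesOf (S : Finset ℕ) : Finset Nat.Primes := S.subtype Nat.Prime

theorem mem_primesOf {S : Finset ℕ} {q : Nat.Primes} : q ∈ primesOf S ↔ (q : ℕ) ∈ S :=
  Finset.mem_subtype

theorem sum_primesOf {S : Finset ℕ} (hS : ∀ q ∈ S, q.Prime) (f : ℕ → ℕ) :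
    ∑ q : {q : Nat.Primes // q ∈ primesOf S}, f (q.1 : ℕ) = ∑ q ∈ S, f q := by
  rw [Finset.sum_coe_sort (primesOf S) fun q : Nat.Primes => f q]
  exact Finset.sum_bij (fun q _ => (q : ℕ)) (fun q hq => mem_primesOf.1 hq)
    (fun q _ q' _ h => Subtype.ext h) (fun q hq => ⟨⟨q, hS q hq⟩, mem_primesOf.2 hq, rfl⟩)
    fun q _ => rfl

theorem compat_levelsOutside (S : Finset ℕ) :
    Compat (FA.TW.levelsOutside S) LQ (MonoidHom.id GQ) :=
  fun N hN => ⟨N, mem_LQ_iff_isOpen.2 hN.1, le_rfl⟩

variable (p) in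
/-- Classes unramified outside a finite set as classes. -/
def globMap (S : Finset ℕ) : H1 (FA.TW.levelsOutside S) ρ →+ H1 LQ (resRep (ZMod p) ρ) :=
  addMap1 (compat_levelsOutside S) (φ := AddMonoidHom.id V) fun _ _ => rfl

theorem globMap_injective (S : Finset ℕ) : Function.Injective (globMap p ρ S) :=
  addMap1_injective _ _ Function.surjective_id Function.bijective_id

/-- An inertia element at a place above `q` is conjugate to a local one. -/
theorem exists_conj_inertL {q : ℕ} [hq : Fact q.Prime]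
    {A : ValuationSubring (AlgebraicClosure ℚ)} (hA : A.LiesOverPrime q) {s : GQ}
    (hs : s ∈ A.inertiaSubgroupIn ℚ) :
    ∃ (τ : GQ) (t : LG q), t ∈ inertL q ∧ s = τ * loc q t * τ⁻¹ := by
  obtain ⟨τ, hτ⟩ := FA.TW.exists_smul_eq_of_liesOver hq.out (A := padicPlace q) (B := A)
    (liesOverPrime_padicPlace q) hA
  have h := FA.TW.conj_mem_inertia hq.out hA hs τ⁻¹
  rw [show τ⁻¹ • A = padicPlace q by rw [← hτ, inv_smul_smul], inv_inv] at h
  obtain ⟨t, ht⟩ : τ⁻¹ * s * τ ∈ (loc q).range := by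
    rw [range_loc]
    exact inertiaSubgroupIn_le_decomposition _ h
  refine ⟨τ, t, ?_, ?_⟩
  · show loc q t ∈ (padicPlace q).inertiaSubgroupIn ℚ
    rw [ht]; exact h
  · rw [ht]; group

/-- A representation is unramified outside a finite set. -/
def UnrOff (S : Finset ℕ) : Prop :=
  ∀ q : ℕ, q.Prime → q ∉ S → ∀ A : ValuationSubring (AlgebraicClosure ℚ), A.LiesOverPrime q →
    ∀ s ∈ A.inertiaSubgroupIn ℚ, ρ s = 1

variable {ρ}

theorem UnrOff.mono {S S' : Finset ℕ} (h : UnrOff ρ S) (hS : S ⊆ S') : UnrOff ρ S' :=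
  fun q hq hq' => h q hq fun h' => hq' (hS h')

theorem UnrOff.unrRep {S : Finset ℕ} (h : UnrOff ρ S) {q : Nat.Primes} (hq : q ∉ primesOf S) :
    UnrRep ((resRep (ZMod p) ρ).comp (loc (q : ℕ))) := fun t ht =>
  resRep_eq_one (ZMod p) (h q q.2 (fun h' => hq (mem_primesOf.2 h')) _
    (liesOverPrime_padicPlace (q : ℕ)) _ ht)

theorem mem_unrOutside_globMap {S : Finset ℕ} (hs : Smooth LQ ρ) (hunr : UnrOff ρ S)
    (y : H1 LQ (resRep (ZMod p) ρ)) :
    y ∈ unrOutside (primesOf S) (resRep (ZMod p) ρ) ↔ ∃ x, globMap p ρ S x = y := by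
  constructor
  · intro hy
    obtain ⟨f, rfl⟩ := mk1_surjective y
    obtain ⟨N, hN, hfN⟩ := f.2.1
    obtain ⟨N₂, hN₂, hρN⟩ := hs
    have hmul : ∀ g h : GQ, f.1 (g * h) = ρ g (f.1 h) + f.1 g := f.2.2
    let N' : Subgroup GQ :=
      { carrier := {s | ρ s = 1 ∧ f.1 s = 0}
        one_mem' := ⟨map_one ρ, Z1.map_one f⟩
        mul_mem' := fun {a b} ha hb => ⟨by rw [map_mul, ha.1, hb.1, one_mul],
          by rw [hmul, hb.2, ha.2, map_zero, add_zero]⟩
        inv_mem' := fun {a} ha => by
          have h1 : ρ a⁻¹ = 1 := by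
            have h := map_mul ρ a a⁻¹
            rwa [mul_inv_cancel, map_one, ha.1, one_mul, eq_comm] at h
          refine ⟨h1, ?_⟩
          have h2 := hmul a a⁻¹
          rw [mul_inv_cancel, Z1.map_one, ha.2, add_zero, ha.1] at h2
          exact h2.symm }
    have hopen : IsOpen (N' : Set GQ) :=
      Subgroup.isOpen_mono (show N ⊓ N₂ ≤ N' from fun s hs => ⟨hρN s hs.2, by
        have := hfN 1 s hs.1
        rwa [one_mul, Z1.map_one] at this⟩) (isOpen_of_mem_LQ (LQ.inf_mem hN hN₂))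
    have hmem : N' ∈ (FA.TW.levelsOutside S).carrier := by
      refine ⟨hopen, fun q hq hqS A hA s hs => ?_⟩
      refine ⟨hunr q hq hqS A hA s hs, ?_⟩
      have : Fact q.Prime := ⟨hq⟩
      obtain ⟨τ, t, ht, rfl⟩ := exists_conj_inertL hA hs
      have hq' : (⟨q, hq⟩ : Nat.Primes) ∉ primesOf S := fun h => hqS (mem_primesOf.1 h)
      have hu : UnrRep ((resRep (ZMod p) ρ).comp (loc q)) := hunr.unrRep (q := ⟨q, hq⟩) hq'
      have hft : f.1 (loc q t) = 0 :=
        apply_inertL_eq_zero_of_mem hu (c := mapZ1 compat_loc (Equi.res (loc q) _) f)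
          (mem_unrOutside.1 hy ⟨q, hq⟩ hq') ht
      have hρt : ρ (loc q t) = 1 := hunr q hq hqS _ (liesOverPrime_padicPlace q) _ ht
      have h2 := hmul τ τ⁻¹
      rw [mul_inv_cancel, Z1.map_one] at h2
      rw [hmul (τ * loc q t) τ⁻¹, hmul τ (loc q t), hft, map_zero, zero_add, map_mul, hρt,
        mul_one, ← h2]
    exact ⟨mk1 _ ρ ⟨f.1, ⟨N', hmem, fun g s hs => by rw [hmul, hs.2, map_zero, zero_add]⟩, hmul⟩,
      rfl⟩
  · rintro ⟨x, rfl⟩
    obtain ⟨c, rfl⟩ := mk1_surjective x
    refine mem_unrOutside.2 fun q hq => ?_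
    obtain ⟨N, hN, hc⟩ := c.2.1
    refine ⟨mapZ1 compat_loc (Equi.res (loc (q : ℕ)) _)
      (addMapZ1 (compat_levelsOutside S) (φ := AddMonoidHom.id V) (σ := resRep (ZMod p) ρ)
        (fun _ _ => rfl) c), fun t ht => ?_, rfl⟩
    show c.1 (loc (q : ℕ) t) = 0
    have := hc 1 _ (hN.2 q q.2 (fun h => hq (mem_primesOf.2 h)) _
      (liesOverPrime_padicPlace (q : ℕ)) ht)
    rwa [one_mul, Z1.map_one] at this

/-! ### Local classes -/

section Local

variable (P : FA.TW.Places) (q : ℕ) [hq : Fact q.Prime]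

/-- An element moving the standard place to the chosen one. -/
def placeEl : GQ :=
  (FA.TW.exists_smul_eq_of_liesOver hq.out (A := padicPlace q) (liesOverPrime_padicPlace q)
    (P.liesOver q hq.out)).choose

theorem placeEl_spec : placeEl P q • padicPlace q = P.place q :=
  (FA.TW.exists_smul_eq_of_liesOver hq.out (A := padicPlace q) (liesOverPrime_padicPlace q)
    (P.liesOver q hq.out)).choose_spec

theorem conj_loc_mem (t : LG q) : placeEl P q * loc q t * (placeEl P q)⁻¹ ∈ P.dec q := by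
  have h : loc q t • padicPlace q = padicPlace q :=
    MulAction.mem_stabilizer_iff.1 (localGaloisToGlobal_mem_decompositionSubgroup q t)
  rw [MulAction.mem_stabilizer_iff, ← placeEl_spec P q, mul_smul, mul_smul, inv_smul_smul, h]

/-- The decomposition group of the chosen place as an image of the local Galois group. -/
def decHom : LG q →* P.dec q :=
  ((MulAut.conj (placeEl P q)).toMonoidHom.comp (loc q)).codRestrict (P.dec q) (conj_loc_mem P q)

theorem coe_decHom (t : LG q) :
    (decHom P q t : GQ) = placeEl P q * loc q t * (placeEl P q)⁻¹ := rfl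

theorem decHom_bijective : Function.Bijective (decHom P q) := by
  refine ⟨fun s t h => loc_injective ?_, fun d => ?_⟩
  · have := congrArg Subtype.val h
    rwa [coe_decHom, coe_decHom, mul_left_inj, mul_right_inj] at this
  · have hd : (placeEl P q)⁻¹ * d * placeEl P q ∈ (padicPlace q).decompositionSubgroup ℚ := by
      have h1 : (d : GQ) • P.place q = P.place q := MulAction.mem_stabilizer_iff.1 d.2
      rw [MulAction.mem_stabilizer_iff, mul_smul, mul_smul, placeEl_spec, h1, ← placeEl_spec P q,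
        inv_smul_smul]
    rw [← range_loc] at hd
    obtain ⟨t, ht⟩ := hd
    exact ⟨t, Subtype.ext (by rw [coe_decHom, ht]; group)⟩

theorem isOpen_comap_conj {N : Subgroup GQ} (hN : IsOpen (N : Set GQ)) (τ : GQ) :
    IsOpen ((N.comap (MulAut.conj τ).toMonoidHom : Subgroup GQ) : Set GQ) :=
  hN.preimage ((continuous_const_mul τ).mul_const τ⁻¹)

theorem compat_decHom : Compat (FA.TW.levelsOn (P.dec q)) (LL q) (decHom P q) := by
  rintro _ ⟨N, hN, rfl⟩
  obtain ⟨N', hN', hle⟩ := compat_loc (q := q) _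
    (mem_LQ_iff_isOpen.2 (isOpen_comap_conj hN (placeEl P q)))
  exact ⟨N', hN', fun t ht => hle ht⟩

theorem exists_comap_decHom_le {N' : Subgroup (LG q)} (hN' : N' ∈ (LL q).carrier) :
    ∃ N ∈ (FA.TW.levelsOn (P.dec q)).carrier, N.comap (decHom P q) ≤ N' := by
  obtain ⟨M, hM, hle⟩ := exists_comap_loc_le hN'
  refine ⟨_, ⟨_, isOpen_comap_conj (isOpen_of_mem_LQ hM) (placeEl P q)⁻¹, rfl⟩, fun t ht => hle ?_⟩
  have h : (placeEl P q)⁻¹ * (decHom P q t : GQ) * (placeEl P q)⁻¹⁻¹ ∈ M := ht
  rwa [coe_decHom, inv_inv, ← mul_assoc, ← mul_assoc, inv_mul_cancel, one_mul, mul_assoc,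
    inv_mul_cancel, mul_one] at h

variable (ρ)

theorem addEqui_decHom : AddEqui (decHom P q) (ρ.comp (P.dec q).subtype)
    ((resRep (ZMod p) ρ).comp (loc q)) (ρ (placeEl P q)⁻¹).toAddMonoidHom := fun t v => by
  show ρ (placeEl P q)⁻¹ (ρ (decHom P q t : GQ) v) = ρ (loc q t) (ρ (placeEl P q)⁻¹ v)
  rw [← Module.End.mul_apply, ← map_mul, ← Module.End.mul_apply, ← map_mul, coe_decHom]
  congr 2
  group

theorem bijective_rho (g : GQ) : Function.Bijective (ρ g) :=
  Function.bijective_iff_has_inverse.2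
    ⟨ρ g⁻¹, fun v => ρ.inv_self_apply g v, fun v => ρ.self_inv_apply g v⟩

variable (p) in
/-- Classes at the chosen place as local classes. -/
def locE : P.H1At ρ q →+ H1 (LL q) ((resRep (ZMod p) ρ).comp (loc q)) :=
  addMap1 (compat_decHom P q) (addEqui_decHom (p := p) ρ P q)

theorem locE_bijective : Function.Bijective (locE p ρ P q) :=
  ⟨addMap1_injective _ _ (decHom_bijective P q).2 (bijective_rho ρ _),
    addMap1_surjective _ _ (decHom_bijective P q) (bijective_rho ρ _)
      fun _ hN => exists_comap_decHom_le P q hN⟩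

theorem locE_locMap (S : Finset ℕ) (x : H1 (FA.TW.levelsOutside S) ρ) :
    locE p ρ P q (FA.TW.locMap S ρ (P.dec q) x) = resq1 q (resRep (ZMod p) ρ) (globMap p ρ S x) := by
  obtain ⟨c, rfl⟩ := mk1_surjective x
  set τ := placeEl P q
  refine (mk1_eq_mk1 (LL q) _ _ _).2 ⟨c.1 τ⁻¹, funext fun t => ?_⟩
  show ρ (loc q t) (c.1 τ⁻¹) - c.1 τ⁻¹
    = ρ τ⁻¹ (c.1 (decHom P q t : GQ)) - c.1 (loc q t)
  have e : ρ τ⁻¹ (c.1 τ) = -c.1 τ⁻¹ := by
    have := Z1.map_inv (ρ := ρ) c τ⁻¹
    rwa [inv_inv] at this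
  rw [coe_decHom, c.2.2 (τ * loc q t) τ⁻¹, c.2.2 τ (loc q t), map_add, map_add, map_mul,
    Module.End.mul_apply, ρ.inv_self_apply, ρ.inv_self_apply, e]
  abel

theorem equi_scalar_loc (a : k) :
    Equi (MonoidHom.id (LG q)) ((resRep (ZMod p) ρ).comp (loc q))
      ((resRep (ZMod p) ρ).comp (loc q))
      ((a • (LinearMap.id : V →ₗ[k] V)).restrictScalars (ZMod p)) :=
  fun t v => equi_scalar (ZMod p) ρ a (loc q t) v

theorem locE_smul (a : k) (x : P.H1At ρ q) :
    locE p ρ P q (a • x)
      = map1 Compat.id (equi_scalar_loc (p := p) ρ q a) (locE p ρ P q x) := by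
  obtain ⟨c, rfl⟩ := mk1_surjective x
  rw [← map_smul]
  refine congrArg (mk1 (LL q) ((resRep (ZMod p) ρ).comp (loc q))) (Subtype.ext (funext fun t => ?_))
  show ρ (placeEl P q)⁻¹ (a • c.1 (decHom P q t)) = a • ρ (placeEl P q)⁻¹ (c.1 (decHom P q t))
  rw [map_smul]

/-- The invariants of the decomposition group. -/
def decInvEquiv : ↥(Representation.invariants ((resRep (ZMod p) ρ).comp (loc q)))
    ≃+ ↥(Representation.invariants (ρ.comp (P.dec q).subtype)) where
  toFun v := ⟨ρ (placeEl P q) v.1, fun d => by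
    obtain ⟨t, rfl⟩ := (decHom_bijective P q).2 d
    show ρ (decHom P q t : GQ) (ρ (placeEl P q) v.1) = ρ (placeEl P q) v.1
    rw [coe_decHom, map_mul, map_mul, Module.End.mul_apply, Module.End.mul_apply,
      ρ.inv_self_apply]
    exact congrArg _ (v.2 t)⟩
  invFun v := ⟨ρ (placeEl P q)⁻¹ v.1, fun t => by
    show ρ (loc q t) (ρ (placeEl P q)⁻¹ v.1) = ρ (placeEl P q)⁻¹ v.1
    have h := addEqui_decHom (p := p) ρ P q t v.1
    rw [show (ρ.comp (P.dec q).subtype) (decHom P q t) v.1 = v.1 from v.2 _] at h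
    exact h.symm⟩
  left_inv v := Subtype.ext (ρ.inv_self_apply _ _)
  right_inv v := Subtype.ext (ρ.self_inv_apply _ _)
  map_add' v w := Subtype.ext (map_add _ _ _)

end Local

/-! ### Counting -/

theorem finrank_eq_mul [Finite k] {A B : Type} [AddCommGroup A] [Module (ZMod p) A]
    [AddCommGroup B] [Module k B] [Module.Finite k B] (e : A ≃+ B) :
    Module.finrank (ZMod p) A = Module.finrank (ZMod p) k * Module.finrank k B := by
  have : Finite B := Module.finite_of_finite k
  have : Finite A := Finite.of_equiv _ e.toEquiv.symm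
  have : Module.Finite (ZMod p) A := Module.Finite.of_finite
  have : Module.Finite (ZMod p) k := Module.Finite.of_finite
  have h := Nat.card_congr e.toEquiv
  rw [Module.natCard_eq_pow_finrank (K := ZMod p), Module.natCard_eq_pow_finrank (K := k) (V := B),
    Module.natCard_eq_pow_finrank (K := ZMod p) (V := k), ← pow_mul, Nat.card_zmod] at h
  exact Nat.pow_right_injective hp.out.two_le h

/-! ### The dual pair -/

variable [Finite k] {σ : Representation k GQ W} {χ : GQ →* kˣ}

/-- A dual pair over a finite field as a dual pair over the prime field. -/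
def tracePair (D : DPair LQ χ ρ σ)
    (hχ : ∀ g, (χ g : k) = algebraMap (ZMod p) k ((cycQ p).χ g : ZMod p)) :
    DPair LQ (cycQ p).χ (resRep (ZMod p) ρ) (resRep (ZMod p) σ) where
  β := LinearMap.mk₂ (ZMod p) (fun v w => Algebra.trace (ZMod p) k (D.β v w))
    (fun v v' w => by rw [map_add, LinearMap.add_apply, map_add])
    (fun a v w => by
      rw [← algebraMap_smul k a v, map_smul, LinearMap.smul_apply, algebraMap_smul, map_smul])
    (fun v w w' => by rw [map_add, map_add])
    (fun a v w => by rw [← algebraMap_smul k a w, map_smul, algebraMap_smul, map_smul])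
  bil g v w := by
    simp only [LinearMap.mk₂_apply, resRep_apply, chr_apply]
    rw [D.bil g v w, chr_apply, hχ, ← Algebra.smul_def, map_smul, smul_eq_mul]
  inj_left := (injective_iff_map_eq_zero _).2 fun v hv =>
    (injective_iff_map_eq_zero _).1 D.inj_left v (LinearMap.ext fun w => by
      rw [LinearMap.zero_apply]
      refine (traceForm_nondegenerate (ZMod p) k).1 _ fun a => ?_
      have h := LinearMap.congr_fun hv (a • w)
      rw [LinearMap.mk₂_apply, map_smul, LinearMap.zero_apply, smul_eq_mul] at h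
      rw [Algebra.traceForm_apply, mul_comm]
      exact h)
  inj_right := (injective_iff_map_eq_zero _).2 fun w hw =>
    (injective_iff_map_eq_zero _).1 D.inj_right w (LinearMap.ext fun v => by
      rw [LinearMap.zero_apply, LinearMap.flip_apply]
      refine (traceForm_nondegenerate (ZMod p) k).1 _ fun a => ?_
      have h := LinearMap.congr_fun hw (a • v)
      rw [LinearMap.flip_apply, LinearMap.mk₂_apply, map_smul, LinearMap.smul_apply,
        LinearMap.zero_apply, smul_eq_mul] at h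
      rw [Algebra.traceForm_apply, mul_comm]
      exact h)
  fin_left :=
    have := D.fin_left
    Module.Finite.trans k V
  fin_right :=
    have := D.fin_right
    Module.Finite.trans k W
  smooth_left := smooth_resRep (ZMod p) D.smooth_left
  smooth_right := smooth_resRep (ZMod p) D.smooth_right

variable (P : FA.TW.Places) (D : DPair LQ χ ρ σ)
variable (hχ : ∀ g, (χ g : k) = algebraMap (ZMod p) k ((cycQ p).χ g : ZMod p))

/-- The orthogonal complement at a prime. -/
def orthAt (q : ℕ) [Fact q.Prime] (L : Submodule k (P.H1At ρ q)) : Submodule k (P.H1At σ q) where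
  carrier := {y | ∀ x ∈ L,
    pair11Q q (tracePair D hχ) (locE p ρ P q x) (locE p σ P q y) = 0}
  zero_mem' x _ := by rw [map_zero, map_zero]
  add_mem' {y y'} hy hy' x hx := by rw [map_add, map_add, hy x hx, hy' x hx, add_zero]
  smul_mem' a y hy x hx := by
    rw [locE_smul, ← pair11_adjoint (localInv (cycL p q)) (locPair q (tracePair D hχ))
      (locPair q (tracePair D hχ)) (equi_scalar_loc ρ q a) _ _,
      ← locE_smul]
    · exact hy _ (L.smul_mem a hx)
    · intro v w
      show Algebra.trace (ZMod p) k (D.β (a • v) w) = Algebra.trace (ZMod p) k (D.β v (a • w))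
      rw [(D.β).map_smul, LinearMap.smul_apply, (D.β v).map_smul]

theorem mem_orthAt {q : ℕ} [Fact q.Prime] {L : Submodule k (P.H1At ρ q)} {y : P.H1At σ q} :
    y ∈ orthAt P D hχ q L ↔
      ∀ x ∈ L, pair11Q q (tracePair D hχ) (locE p ρ P q x) (locE p σ P q y) = 0 := Iff.rfl

theorem orthAt_top (q : ℕ) [Fact q.Prime] : orthAt P D hχ q ⊤ = ⊥ :=
  (Submodule.eq_bot_iff _).2 fun y hy => (locE_bijective σ P q).1 (by
    rw [map_zero]
    refine eq_zero_of_pair11Q q (tracePair D hχ) fun z => ?_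
    obtain ⟨x, rfl⟩ := (locE_bijective ρ P q).2 z
    exact (mem_orthAt P D hχ).1 hy x Submodule.mem_top)

/-- The orthogonal complement of a local condition. -/
def orth (q : ℕ) (L : Submodule k (P.H1At ρ q)) : Submodule k (P.H1At σ q) :=
  if h : q.Prime then haveI : Fact q.Prime := ⟨h⟩; orthAt P D hχ q L else ⊥

/-- Local conditions at chosen places as local conditions. -/
def condP (ρ : Representation k GQ V) (S : Finset ℕ) (L : ∀ q : ℕ, Submodule k (P.H1At ρ q)) :
    LocCond (primesOf S) (resRep (ZMod p) ρ) :=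
  fun q => AddSubgroup.toZModSubmodule p
    ((L (q.1 : ℕ)).toAddSubgroup.map (locE p ρ P (q.1 : ℕ)))

theorem mem_condP {S : Finset ℕ} {L : ∀ q : ℕ, Submodule k (P.H1At ρ q)}
    {q : {q : Nat.Primes // q ∈ primesOf S}}
    {y : H1 (LL (q.1 : ℕ)) ((resRep (ZMod p) ρ).comp (loc (q.1 : ℕ)))} :
    y ∈ condP P ρ S L q ↔ ∃ x ∈ L (q.1 : ℕ), locE p ρ P (q.1 : ℕ) x = y := Iff.rfl

theorem mem_selS_globMap {S : Finset ℕ} (hS : ∀ q ∈ S, q.Prime) (hs : Smooth LQ ρ)
    (hunr : UnrOff ρ S) (L : ∀ q : ℕ, Submodule k (P.H1At ρ q))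
    (y : H1 LQ (resRep (ZMod p) ρ)) :
    y ∈ selS (primesOf S) (resRep (ZMod p) ρ) (condP P ρ S L) ↔
      ∃ x ∈ FA.TW.selmerGroup P S ρ L, globMap p ρ S x = y := by
  rw [mem_selS]
  constructor
  · rintro ⟨h, hL⟩
    obtain ⟨x, rfl⟩ := (mem_unrOutside_globMap hs hunr y).1 h
    refine ⟨x, (FA.TW.mem_selmerGroup P S ρ L x).2 fun q hq => ?_, rfl⟩
    have : Fact q.Prime := ⟨hS q hq⟩
    obtain ⟨z, hz, hzy⟩ := (mem_condP P).1 (hL ⟨⟨q, hS q hq⟩, mem_primesOf.2 hq⟩)
    rw [← locE_locMap (p := p) ρ P q S x] at hzy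
    exact (locE_bijective ρ P q).1 hzy ▸ hz
  · rintro ⟨x, hx, rfl⟩
    exact ⟨(mem_unrOutside_globMap hs hunr _).2 ⟨x, rfl⟩, fun q => (mem_condP P).2
      ⟨_, (FA.TW.mem_selmerGroup P S ρ L x).1 hx _ (mem_primesOf.1 q.2),
        locE_locMap (p := p) ρ P _ S x⟩⟩

theorem orthQ_condP (S : Finset ℕ) (L : ∀ q : ℕ, Submodule k (P.H1At ρ q)) :
    (fun q : {q : Nat.Primes // q ∈ primesOf S} =>
        orthQ (q.1 : ℕ) (tracePair D hχ) (condP P ρ S L q))
      = condP P σ S fun q => orth P D hχ q (L q) := funext fun q => by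
  ext y
  rw [mem_orthQ, mem_condP, orth, dif_pos q.1.2]
  constructor
  · intro h
    obtain ⟨z, rfl⟩ := (locE_bijective σ P (q.1 : ℕ)).2 y
    exact ⟨z, fun x hx => h _ ((mem_condP P).2 ⟨x, hx, rfl⟩), rfl⟩
  · rintro ⟨z, hz, rfl⟩ y hy
    obtain ⟨x, hx, rfl⟩ := (mem_condP P).1 hy
    exact hz x hx

theorem finite_selmer (hp2 : p ≠ 2) {S : Finset ℕ} (hunr : UnrOff ρ S)
    (L : ∀ q : ℕ, Submodule k (P.H1At ρ q)) (hD : DPair LQ (cycQ p).χ (resRep (ZMod p) ρ)
      (resRep (ZMod p) σ)) (hs : Smooth LQ ρ) :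
    FiniteDimensional k ↥(FA.TW.selmerGroup P S ρ L) := by
  have := finite_unrOutside_of hD hp2 (primesOf S)
  have : Finite ↥(FA.TW.selmerGroup P S ρ L) :=
    Finite.of_injective (β := unrOutside (primesOf S) (resRep (ZMod p) ρ))
      (fun x => ⟨globMap p ρ S x.1, (mem_unrOutside_globMap hs hunr _).2 ⟨_, rfl⟩⟩)
      fun x y h => Subtype.ext (globMap_injective ρ S (congrArg Subtype.val h))
  exact Module.Finite.of_finite

theorem finrank_selS_eq {S : Finset ℕ} (hS : ∀ q ∈ S, q.Prime) (hs : Smooth LQ ρ)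
    (hunr : UnrOff ρ S) (L : ∀ q : ℕ, Submodule k (P.H1At ρ q))
    [FiniteDimensional k ↥(FA.TW.selmerGroup P S ρ L)] :
    Module.finrank (ZMod p) (selS (primesOf S) (resRep (ZMod p) ρ) (condP P ρ S L))
      = Module.finrank (ZMod p) k * Module.finrank k ↥(FA.TW.selmerGroup P S ρ L) := by
  refine finrank_eq_mul (AddEquiv.ofBijective (AddMonoidHom.mk'
    (fun x : FA.TW.selmerGroup P S ρ L =>
      (⟨globMap p ρ S x.1, (mem_selS_globMap P hS hs hunr L _).2 ⟨x.1, x.2, rfl⟩⟩ :
        selS (primesOf S) (resRep (ZMod p) ρ) (condP P ρ S L)))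
    fun x y => Subtype.ext (map_add _ _ _)) ⟨fun x y h => ?_, fun y => ?_⟩).symm
  · exact Subtype.ext (globMap_injective ρ S (congrArg Subtype.val h))
  · obtain ⟨x, hx, he⟩ := (mem_selS_globMap P hS hs hunr L y.1).1 y.2
    exact ⟨⟨x, hx⟩, Subtype.ext he⟩

theorem finrank_condP {S : Finset ℕ} (L : ∀ q : ℕ, Submodule k (P.H1At ρ q))
    (q : {q : Nat.Primes // q ∈ primesOf S}) [FiniteDimensional k (L (q.1 : ℕ))] :
    Module.finrank (ZMod p) (condP (p := p) P ρ S L q)
      = Module.finrank (ZMod p) k * Module.finrank k (L (q.1 : ℕ)) :=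
  finrank_eq_mul
    ((L (q.1 : ℕ)).toAddSubgroup.equivMapOfInjective _ (locE_bijective (p := p) ρ P (q.1 : ℕ)).1).symm

include D hχ in
set_option maxHeartbeats 800000 in
-- the instances on local groups are slow to find
/-- The Greenberg-Wiles inequality over a finite field. -/
theorem nonempty_greenbergWiles_of_pair (hp2 : p ≠ 2) (S₀ : Finset ℕ) (hpS : p ∈ S₀)
    (hρ : UnrOff ρ S₀) (hσ : UnrOff σ S₀) :
    Nonempty (FA.TW.GreenbergWiles P S₀ ρ σ complexConjugation) := by
  refine ⟨{ orth := orth P D hχ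
            orth_top := fun q hq => ?_
            finite := fun S hS₀ _ L => ⟨?_, ?_⟩
            bound := fun S hS₀ hS L hL => ?_ }⟩
  · rw [orth, dif_pos hq]
    haveI : Fact q.Prime := ⟨hq⟩
    exact orthAt_top P D hχ q
  · exact finite_selmer P hp2 (hσ.mono hS₀) _ (tracePair D hχ).flip D.smooth_right
  · exact finite_selmer P hp2 (hρ.mono hS₀) _ (tracePair D hχ) D.smooth_left
  · have := D.fin_left
    have := D.fin_right
    have := finite_selmer P hp2 (hρ.mono hS₀) L (tracePair D hχ) D.smooth_left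
    have := finite_selmer P hp2 (hσ.mono hS₀) (fun q => orth P D hχ q (L q))
      (tracePair D hχ).flip D.smooth_right
    have : Module.Finite (ZMod p) k := Module.Finite.of_finite
    have hmain := finrank_selS_le (tracePair D hχ) hp2 (S₀ := primesOf S)
      (mem_primesOf.2 (hS₀ hpS)) (fun q hq => (hρ.mono hS₀).unrRep hq) (condP P ρ S L)
    rw [orthQ_condP, finrank_selS_eq P hS D.smooth_left (hρ.mono hS₀),
      finrank_selS_eq P hS D.smooth_right (hσ.mono hS₀)] at hmain
    have hcond : ∑ q, Module.finrank (ZMod p) (condP (p := p) P ρ S L q)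
        = Module.finrank (ZMod p) k * ∑ q ∈ S, Module.finrank k (L q) := by
      rw [← sum_primesOf hS fun q => Module.finrank k (L q), Finset.mul_sum]
      refine Finset.sum_congr rfl fun q _ => ?_
      have := hL _ (mem_primesOf.1 q.2)
      exact finrank_condP P L q
    have hdec : ∑ q : {q // q ∈ primesOf S}, Module.finrank (ZMod p)
          ↥(Representation.invariants ((resRep (ZMod p) ρ).comp (loc (q.1 : ℕ))))
        = Module.finrank (ZMod p) k * ∑ q ∈ S,
            Module.finrank k ↥(Representation.invariants (ρ.comp (P.dec q).subtype)) := by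
      rw [← sum_primesOf hS fun q =>
        Module.finrank k ↥(Representation.invariants (ρ.comp (P.dec q).subtype)), Finset.mul_sum]
      exact Finset.sum_congr rfl fun q _ => finrank_eq_mul (decInvEquiv (p := p) ρ P (q.1 : ℕ))
    have hinv : ∀ {U : Type} [AddCommGroup U] [Module k U] [Module (ZMod p) U]
        [IsScalarTower (ZMod p) k U] [Module.Finite k U] (τ : Representation k GQ U),
        Module.finrank (ZMod p) ↥(resRep (ZMod p) τ).invariants
          = Module.finrank (ZMod p) k * Module.finrank k ↥τ.invariants := fun τ =>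
      finrank_eq_mul
        { toFun := fun v => ⟨v.1, v.2⟩
          invFun := fun v => ⟨v.1, v.2⟩
          left_inv := fun _ => rfl
          right_inv := fun _ => rfl
          map_add' := fun _ _ => rfl }
    have hc : Module.finrank (ZMod p)
          (LinearMap.ker (resRep (ZMod p) ρ complexConjugation - 1))
        = Module.finrank (ZMod p) k * Module.finrank k
            ↥(Representation.invariants
              (ρ.comp (Subgroup.zpowers (complexConjugation : GQ)).subtype)) := by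
      rw [FixSwap.invariants_zpowers]
      exact finrank_eq_mul
        { toFun := fun v => ⟨v.1, LinearMap.mem_ker.2 (LinearMap.mem_ker.1 v.2)⟩
          invFun := fun v => ⟨v.1, LinearMap.mem_ker.2 (LinearMap.mem_ker.1 v.2)⟩
          left_inv := fun _ => rfl
          right_inv := fun _ => rfl
          map_add' := fun _ _ => rfl }
    rw [hcond, hdec, hinv ρ, hinv σ, hc, ← mul_add, ← mul_add, ← mul_add, ← mul_add,
      ← mul_add] at hmain
    exact Nat.le_of_mul_le_mul_left hmain Module.finrank_pos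

theorem adRep_eq_one {G k : Type} [Group G] [Field k] (r : G →* Matrix (Fin 2) (Fin 2) k) {s : G}
    (hs : r s = 1) : FA.TW.adRep r s = 1 := by
  have h' : r s⁻¹ = 1 := by
    have h := map_mul r s s⁻¹
    rwa [mul_inv_cancel, map_one, hs, one_mul, eq_comm] at h
  refine LinearMap.ext fun M => Subtype.ext ?_
  rw [FA.TW.coe_adRep, hs, h', Matrix.one_mul, Matrix.mul_one]
  rfl

theorem twRep_eq_one {G k : Type} [Group G] [Field k] (r : G →* Matrix (Fin 2) (Fin 2) k) {s : G}
    (hs : r s = 1) : FA.TW.twRep r s = 1 := by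
  refine LinearMap.ext fun M => Subtype.ext ?_
  show (r s).det • (FA.TW.adRep r s M).1 = M.1
  rw [adRep_eq_one r hs, hs, Matrix.det_one, one_smul]
  rfl

end FA.GalCoh

/-- The Greenberg-Wiles inequality for the adjoint representation of a two dimensional
representation with cyclotomic determinant. -/
theorem FA.GalCoh.nonempty_greenbergWiles {k : Type} [Field k] [Finite k] {p : ℕ} [Fact p.Prime]
    [CharP k p] (hp2 : p ≠ 2) (r : FA.GalCoh.GQ →* Matrix (Fin 2) (Fin 2) k)
    (hr : IsOpen (r.ker : Set FA.GalCoh.GQ))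
    (hdet : ∀ (σ : FA.GalCoh.GQ) (a : ℕ),
      (∀ μ : AlgebraicClosure ℚ, μ ^ p = 1 → σ μ = μ ^ a) → (r σ).det = (a : k))
    (P : FA.TW.Places) (S₀ : Finset ℕ) (hpS : p ∈ S₀)
    (hunr : ∀ q : ℕ, q.Prime → q ∉ S₀ → ∀ A : ValuationSubring (AlgebraicClosure ℚ),
      A.LiesOverPrime q → ∀ σ ∈ A.inertiaSubgroupIn ℚ, r σ = 1) :
    Nonempty (FA.TW.GreenbergWiles P S₀ (FA.TW.adRep r) (FA.TW.twRep r) complexConjugation) := by
  letI : Algebra (ZMod p) k := ZMod.algebra k p
  have : NeZero p := ⟨(Fact.out : p.Prime).ne_zero⟩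
  have h2 : (2 : k) ≠ 0 := by
    intro h
    have : p ∣ 2 := (CharP.cast_eq_zero_iff k p 2).1 (by exact_mod_cast h)
    exact hp2 ((Nat.prime_dvd_prime_iff_eq Fact.out Nat.prime_two).1 this)
  have hker : ∃ N ∈ (FA.GalCoh.LQ).carrier, ∀ s ∈ N, r s = 1 :=
    ⟨r.ker, FA.GalCoh.mem_LQ_iff_isOpen.2 hr, fun s hs => MonoidHom.mem_ker.1 hs⟩
  have hχ : ∀ g, (FA.TW.detU r g : k)
      = algebraMap (ZMod p) k ((FA.GalCoh.cycQ p).χ g : ZMod p) := fun g => by
    rw [FA.TW.coe_detU, hdet g _ fun μ hμ => ?_, ← map_natCast (algebraMap (ZMod p) k),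
      ZMod.natCast_zmod_val, FA.GalCoh.cycQ_chi]
    obtain ⟨i, -, rfl⟩ := (FA.GalCoh.zetaQ_spec (p := p)).eq_pow_of_pow_eq_one hμ
    rw [map_pow, FA.GalCoh.apply_zetaQ, ← pow_mul, ← pow_mul, mul_comm]
  exact FA.GalCoh.nonempty_greenbergWiles_of_pair P (FA.TW.adPair r FA.GalCoh.LQ hker h2) hχ hp2
    S₀ hpS
    (fun q hq hqS A hA s hs => FA.GalCoh.adRep_eq_one r (hunr q hq hqS A hA s hs))
    (fun q hq hqS A hA s hs => FA.GalCoh.twRep_eq_one r (hunr q hq hqS A hA s hs))
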