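import Fermat.Agent.GalCoh.KummerUnits

/-!
The cyclotomic data of `ℚ` and of its completions, and approximation of local elements by global
ones.
-/

set_option autoImplicit false
set_option linter.unusedSectionVars false

noncomputable section

namespace FA.GalCoh

open Polynomial IntermediateField

variable {p : ℕ} [hp : Fact p.Prime]

variable (p) in
theorem exists_zetaQ : ∃ ζ : AlgebraicClosure ℚ, IsPrimitiveRoot ζ p :=
  have : NeZero (p : AlgebraicClosure ℚ) := ⟨Nat.cast_ne_zero.2 hp.out.ne_zero⟩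
  HasEnoughRootsOfUnity.exists_primitiveRoot (AlgebraicClosure ℚ) p

variable (p) in
/-- A fixed primitive `p`-th root of unity. -/
def zetaQ : AlgebraicClosure ℚ := (exists_zetaQ p).choose

theorem zetaQ_spec : IsPrimitiveRoot (zetaQ p) p := (exists_zetaQ p).choose_spec

theorem apply_zetaQ (g : GQ) :
    g (zetaQ p) = zetaQ p ^ ((ExtCitation.cycloChar p g : ZMod p)).val := by
  have : NeZero p := ⟨hp.out.ne_zero⟩
  have ht : ((zetaQ_spec (p := p)).isUnit hp.out.ne_zero).unit ∈
      rootsOfUnity p (AlgebraicClosure ℚ) := by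
    rw [mem_rootsOfUnity]
    exact Units.ext (by simpa using zetaQ_spec.pow_eq_one)
  exact modularCyclotomicCharacter.spec (AlgebraicClosure ℚ) (ExtCitation.card_rootsOfUnity_eq_self p)
    (g : AlgebraicClosure ℚ ≃+* AlgebraicClosure ℚ) ht

variable (p) in
/-- The cyclotomic data of `ℚ`. -/
def cycQ : CycloData LQ (AlgebraicClosure ℚ) p where
  gal := galAct_fieldLevels
  ζ := zetaQ p
  prim := zetaQ_spec
  root x := IsAlgClosed.exists_pow_nat_eq x hp.out.pos
  χ := ExtCitation.cycloChar p
  act g := apply_zetaQ g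

variable (p) in
/-- The cyclotomic data of `ℚ_q`. -/
def cycL (q : ℕ) [Fact q.Prime] : CycloData (LL q) (PadicAlgCl q) p where
  gal := galAct_fieldLevels
  ζ := padicEmbedding q (zetaQ p)
  prim := zetaQ_spec.map_of_injective (padicEmbedding q).injective
  root x := IsAlgClosed.exists_pow_nat_eq x hp.out.pos
  χ := (ExtCitation.cycloChar p).comp (loc q)
  act τ := by
    show τ (padicEmbedding q (zetaQ p)) = _
    rw [← iota_loc, apply_zetaQ, map_pow]
    rfl

theorem cycQ_chi : (cycQ p).χ = ExtCitation.cycloChar p := rfl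

theorem cycL_chi (q : ℕ) [Fact q.Prime] :
    (cycL p q).χ = (ExtCitation.cycloChar p).comp (loc q) := rfl

variable {q : ℕ} [hq : Fact q.Prime]

/-- Algebraic numbers are dense in an algebraic closure of `ℚ_q`. -/
theorem exists_iota_close (z : PadicAlgCl q) {ε : ℝ} (hε : 0 < ε) :
    ∃ x : AlgebraicClosure ℚ, ‖padicEmbedding q x - z‖ < ε := by
  obtain ⟨β, hβ⟩ := exists_adjoin_iota z
  set y := padicEmbedding q β
  rw [← IntermediateField.mem_toSubalgebra,
    adjoin_simple_toSubalgebra_of_isAlgebraic (Algebra.IsAlgebraic.isAlgebraic y),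
    Algebra.adjoin_singleton_eq_range_aeval, AlgHom.mem_range] at hβ
  obtain ⟨e, rfl⟩ := hβ
  have hd : DenseRange (algebraMap ℚ ℚ_[q]) := by
    rw [show ⇑(algebraMap ℚ ℚ_[q]) = ((↑) : ℚ → ℚ_[q]) from funext fun r => eq_ratCast _ r]
    exact Padic.denseRange_ratCast (p := q)
  set B : ℝ := (1 + ‖y‖) ^ e.natDegree
  have hB : 0 < B := pow_pos (by positivity) _
  choose r hr using fun i => Metric.denseRange_iff.1 hd (e.coeff i) (ε / (2 * B)) (by positivity)
  refine ⟨∑ i ∈ Finset.range (e.natDegree + 1), algebraMap ℚ _ (r i) * β ^ i, ?_⟩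
  rw [map_sum, aeval_eq_sum_range, ← Finset.sum_sub_distrib]
  refine lt_of_le_of_lt (IsUltrametricDist.norm_sum_le_of_forall_le_of_nonneg
    (C := ε / 2) (by positivity) fun i hi => ?_) (by linarith)
  rw [map_mul, AlgHom.commutes, map_pow, Algebra.smul_def,
    IsScalarTower.algebraMap_apply ℚ ℚ_[q] (PadicAlgCl q), ← sub_mul, ← map_sub, norm_mul,
    norm_algebraMap', norm_pow]
  calc ‖algebraMap ℚ ℚ_[q] (r i) - e.coeff i‖ * ‖y‖ ^ i
      ≤ (ε / (2 * B)) * B := by
        refine mul_le_mul ?_ ?_ (by positivity) (by positivity)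
        · rw [norm_sub_rev, ← dist_eq_norm]; exact (hr i).le
        · exact (pow_le_pow_left₀ (norm_nonneg y) (le_add_of_nonneg_left zero_le_one) i).trans
            (pow_le_pow_right₀ (le_add_of_nonneg_right (norm_nonneg y))
              (Nat.lt_succ_iff.1 (Finset.mem_range.1 hi)))
    _ = ε / 2 := by field_simp

end FA.GalCoh
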