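import Fermat.Agent.GalCoh.UnrLocal
import Fermat.Agent.GalCoh.CycloGlobal

/-!
Unramified classes at a prime different from `p`: they are of the dimension of the invariants and
are their own orthogonal complement.
-/

set_option autoImplicit false
set_option linter.unusedSectionVars false

noncomputable section

namespace FA.GalCoh

open IntermediateField Representation

variable {p : ℕ} [hp : Fact p.Prime] {q : ℕ} [hq : Fact q.Prime]
variable {V : Type} [AddCommGroup V] [Module (ZMod p) V]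
variable {W : Type} [AddCommGroup W] [Module (ZMod p) W]

theorem nsmul_eq_zero_of_char (x : V) : p • x = 0 := by
  rw [← Nat.cast_smul_eq_nsmul (ZMod p), ZMod.natCast_self, zero_smul]

theorem frobExp_cast {N N' : ℕ} [NeZero N] [NeZero N'] (h : N ∣ N') (g : LG q) :
    frobExp N g = ((frobExp N' g).val : ZMod N) := by
  obtain ⟨M, hM, hM1⟩ := frobExp_lc (q := q) N
  obtain ⟨M', hM', hM'1⟩ := frobExp_lc (q := q) N'
  obtain ⟨i, ι, hι, m, hm, rfl⟩ := exists_frobL_decomp ((LL q).inf_mem hM hM') g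
  rw [hM1 _ m hm.1, hM'1 _ m hm.2, frobExp_mul, frobExp_mul, frobExp_inertL hι,
    frobExp_inertL hι, add_zero, add_zero, frobExp_frobL_pow, frobExp_frobL_pow, ZMod.val_natCast,
    ZMod.natCast_eq_natCast_iff']
  exact (Nat.mod_mod_of_dvd i h).symm

/-- An unramified smooth representation has a period. -/
theorem UnrRep.exists_period {ρ : Representation (ZMod p) (LG q) V} (hs : Smooth (LL q) ρ) :
    ∃ n : ℕ, 0 < n ∧ ρ (frobL q) ^ n = 1 := by
  obtain ⟨M, hM, hM1⟩ := hs
  obtain ⟨n, hn, hmem⟩ := exists_frobL_pow_mem hM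
  exact ⟨n, hn, by rw [← map_pow]; exact hM1 _ hmem⟩

theorem pow_apply_periodic {A : V →ₗ[ZMod p] V} {n : ℕ} (h : A ^ n = 1) (i j : ℕ) (v : V) :
    (A ^ (i + n * j)) v = (A ^ i) v := by
  rw [pow_add, pow_mul, h, one_pow, mul_one]

theorem sum_periodic {f : ℕ → V} {n : ℕ} (hf : ∀ i, f (i + n) = f i) :
    ∑ j ∈ Finset.range (n * p), f j = 0 := by
  have h : ∀ c : ℕ, ∑ j ∈ Finset.range (n * c), f j = c • ∑ j ∈ Finset.range n, f j := fun c => by
    induction c with
    | zero => simp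
    | succ c ih =>
      rw [Nat.mul_succ, Finset.sum_range_add, ih, succ_nsmul]
      refine congrArg₂ (· + ·) rfl (Finset.sum_congr rfl fun j _ => ?_)
      clear ih
      induction c with
      | zero => simp
      | succ c ih => rw [Nat.mul_succ, show n * c + n + j = n * c + j + n by ring, hf, ih]
  rw [h, nsmul_eq_zero_of_char]

theorem sum_periodic_add {f : ℕ → V} {n : ℕ} (hf : ∀ i, f (i + n) = f i) (i : ℕ) :
    ∑ j ∈ Finset.range (i % (n * p)), f j = ∑ j ∈ Finset.range i, f j := by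
  have hshift : ∀ c j, f (n * p * c + j) = f j := fun c j => by
    have h : ∀ d j, f (j + n * d) = f j := fun d => by
      induction d with
      | zero => simp
      | succ d ih => intro j; rw [Nat.mul_succ, ← add_assoc, hf, ih]
    rw [add_comm, mul_assoc]
    exact h _ j
  conv_rhs => rw [← Nat.div_add_mod i (n * p), Finset.sum_range_add]
  have h0 : ∀ c, ∑ j ∈ Finset.range (n * p * c), f j = 0 := fun c => by
    induction c with
    | zero => simp
    | succ c ih =>
      rw [Nat.mul_succ, Finset.sum_range_add, ih, zero_add,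
        Finset.sum_congr rfl fun j _ => hshift c j, sum_periodic hf]
  rw [h0, zero_add, Finset.sum_congr rfl fun j _ => hshift _ j]

/-- An unramified class in degree two vanishes. -/
theorem mk2_eq_zero_of_unr {ρ : Representation (ZMod p) (LG q) V} (hρ : UnrRep ρ)
    (hs : Smooth (LL q) ρ) (Z : ↥(Z2 (LL q) ρ)) {N : ℕ} [NeZero N]
    (hZ : ∀ g h g' h', frobExp N g = frobExp N g' → frobExp N h = frobExp N h' →
      Z.1 (g, h) = Z.1 (g', h')) : mk2 (LL q) ρ Z = 0 := by
  obtain ⟨n₀, hn₀, hA₀⟩ := UnrRep.exists_period hs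
  set A := ρ (frobL q)
  have : NeZero (N * n₀ * p) :=
    ⟨mul_ne_zero (mul_ne_zero (NeZero.ne N) hn₀.ne') hp.out.ne_zero⟩
  set n := N * n₀ with hn
  have hA : A ^ n = 1 := by rw [hn, mul_comm, pow_mul, hA₀, one_pow]
  let z : ℕ → ℕ → V := fun i j => Z.1 (frobL q ^ i, frobL q ^ j)
  have hz : ∀ g h, Z.1 (g, h) = z (frobExp (n * p) g).val (frobExp (n * p) h).val := fun g h =>
    hZ _ _ _ _ (by rw [frobExp_frobL_pow]; exact frobExp_cast (dvd_mul_of_dvd_left ⟨n₀, rfl⟩ p) g)
      (by rw [frobExp_frobL_pow]; exact frobExp_cast (dvd_mul_of_dvd_left ⟨n₀, rfl⟩ p) h)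
  have hper : ∀ i j, z (i + n) j = z i j := fun i j => hZ _ _ _ _ (by
    rw [frobExp_frobL_pow, frobExp_frobL_pow, Nat.cast_add, hn, Nat.cast_mul, ZMod.natCast_self,
      zero_mul, add_zero]) rfl
  have hcoc : ∀ i j l, z (i + j) l + z i j = (A ^ i) (z j l) + z i (j + l) := fun i j l => by
    have := Z.2.2 (frobL q ^ i) (frobL q ^ j) (frobL q ^ l)
    rwa [← pow_add, ← pow_add, map_pow] at this
  let S : ℕ → V := fun i => ∑ j ∈ Finset.range i, z j 1
  have hid : ∀ i j, z i j = S (i + j) - S i - (A ^ i) (S j) + (A ^ i) (z 0 0) := by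
    intro i j
    induction j with
    | zero =>
      have := hcoc i 0 0
      rw [add_zero] at this
      simp only [S, add_zero, Finset.range_zero, Finset.sum_empty, map_zero, sub_self,
        zero_add]
      exact add_right_cancel this
    | succ j ih =>
      have := hcoc i j 1
      simp only [S] at ih ⊢
      rw [← add_assoc i j 1, Finset.sum_range_succ _ (i + j), Finset.sum_range_succ _ j, map_add]
      rw [ih] at this
      linear_combination (norm := abel) -this
  refine (mk2_eq_zero (LL q) ρ Z).2 ⟨fun g => z 0 0 - S (frobExp (n * p) g).val,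
    (frobExp_lc (n * p)).comp fun e => z 0 0 - S e.val, ?_⟩
  ext ⟨g, h⟩
  conv_rhs => rw [hz, hid]
  rw [d1_apply, frobExp_mul, ZMod.val_add,
    hρ.apply_eq (N := n * p) (by rw [pow_mul, hA, one_pow]) hs g]
  simp only [S, sum_periodic_add (f := fun j => z j 1) (fun i => hper i 1), map_sub]
  abel

variable {ρ : Representation (ZMod p) (LG q) V}

/-- Cocycles vanishing on inertia. -/
def unrZ (ρ : Representation (ZMod p) (LG q) V) : Submodule (ZMod p) ↥(Z1 (LL q) ρ) where
  carrier := {c | ∀ ι ∈ inertL q, c.1 ι = 0}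
  zero_mem' _ _ := rfl
  add_mem' {c c'} h h' ι hι := by
    show c.1 ι + c'.1 ι = 0
    rw [h ι hι, h' ι hι, add_zero]
  smul_mem' a c h ι hι := by
    show a • c.1 ι = 0
    rw [h ι hι, smul_zero]

/-- The unramified classes. -/
def unrH1 (ρ : Representation (ZMod p) (LG q) V) : Submodule (ZMod p) (H1 (LL q) ρ) :=
  (unrZ ρ).map (mk1 (LL q) ρ)

theorem apply_inertL_eq_zero_of_mem (hρ : UnrRep ρ) {c : ↥(Z1 (LL q) ρ)}
    (h : mk1 (LL q) ρ c ∈ unrH1 ρ) {ι : LG q} (hι : ι ∈ inertL q) : c.1 ι = 0 := by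
  obtain ⟨c', hc', e⟩ := h
  obtain ⟨v, hv⟩ := (mk1_eq_mk1 (LL q) ρ c' c).1 e
  have := congrFun hv ι
  rw [d0_apply, hρ ι hι, Pi.sub_apply, hc' ι hι, Module.End.one_apply, sub_self, eq_comm,
    zero_sub, neg_eq_zero] at this
  exact this

/-- The sum of the first powers. -/
def powSum (A : V →ₗ[ZMod p] V) (m : V) (i : ℕ) : V := ∑ j ∈ Finset.range i, (A ^ j) m

theorem powSum_add (A : V →ₗ[ZMod p] V) (m : V) (i j : ℕ) :
    powSum A m (i + j) = (A ^ i) (powSum A m j) + powSum A m i := by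
  rw [powSum, Finset.sum_range_add, powSum, powSum, map_sum, add_comm]
  refine congrArg₂ (· + ·) (Finset.sum_congr rfl fun l _ => ?_) rfl
  rw [← Module.End.mul_apply, ← pow_add]

theorem apply_eq_powSum {c : ↥(Z1 (LL q) ρ)}
    (hc : c ∈ unrZ ρ) {n : ℕ} (hA : ρ (frobL q) ^ n = 1) [NeZero (n * p)] (g : LG q) :
    c.1 g = powSum (ρ (frobL q)) (c.1 (frobL q)) (frobExp (n * p) g).val := by
  obtain ⟨M, hM, hM1⟩ := frobExp_lc (q := q) (n * p)
  obtain ⟨M', hM', hM'1⟩ := c.2.1
  obtain ⟨i, ι, hι, m, hm, rfl⟩ := exists_frobL_decomp ((LL q).inf_mem hM hM') g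
  rw [hM1 _ m hm.1, hM'1 _ m hm.2, frobExp_mul, frobExp_inertL hι, add_zero, frobExp_frobL_pow,
    c.2.2, hc ι hι, map_zero, zero_add, ZMod.val_natCast, powSum]
  rw [sum_periodic_add (fun j => by rw [pow_add, hA, mul_one])]
  clear hm
  induction i with
  | zero => simpa using Z1.map_one c
  | succ i ih => rw [pow_succ, c.2.2, ih, Finset.sum_range_succ, map_pow, add_comm]

/-- The unramified cocycle with a given value at Frobenius. -/
def powSumZ (hρ : UnrRep ρ) (hs : Smooth (LL q) ρ) {n : ℕ} (hA : ρ (frobL q) ^ n = 1)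
    [NeZero (n * p)] : V →ₗ[ZMod p] ↥(unrZ ρ) where
  toFun m := ⟨⟨fun g => powSum (ρ (frobL q)) m (frobExp (n * p) g).val,
      (frobExp_lc (n * p)).comp fun e => powSum (ρ (frobL q)) m e.val, fun g h => by
      beta_reduce
      rw [frobExp_mul, hρ.apply_eq (N := n * p) (by rw [pow_mul, hA, one_pow]) hs g,
        ← powSum_add, ZMod.val_add, powSum]
      exact sum_periodic_add (fun j => by rw [pow_add, hA, mul_one]) _⟩,
    fun ι hι => by
      show powSum (ρ (frobL q)) m _ = _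
      rw [frobExp_inertL hι, ZMod.val_zero]
      rfl⟩
  map_add' m m' := Subtype.ext (Subtype.ext (funext fun g => by
    show powSum (ρ (frobL q)) (m + m') _ = powSum (ρ (frobL q)) m _ + powSum (ρ (frobL q)) m' _
    simp [powSum, Finset.sum_add_distrib]))
  map_smul' a m := Subtype.ext (Subtype.ext (funext fun g => by
    show powSum (ρ (frobL q)) (a • m) _ = a • powSum (ρ (frobL q)) m _
    simp [powSum, Finset.smul_sum]))

theorem powSumZ_apply_frobL (hρ : UnrRep ρ) (hs : Smooth (LL q) ρ) {n : ℕ} (hn : 0 < n)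
    (hA : ρ (frobL q) ^ n = 1) [NeZero (n * p)] (m : V) :
    (powSumZ hρ hs hA m).1.1 (frobL q) = m := by
  show powSum _ _ _ = m
  have : Fact (1 < n * p) := ⟨by have := hp.out.two_le; nlinarith⟩
  rw [frobExp_frobL, ZMod.val_one]
  simp [powSum]

/-- The unramified classes have the dimension of the invariants. -/
theorem finrank_unrH1 [FiniteDimensional (ZMod p) V] (hρ : UnrRep ρ) (hs : Smooth (LL q) ρ) :
    FiniteDimensional (ZMod p) ↥(unrH1 ρ) ∧
      Module.finrank (ZMod p) ↥(unrH1 ρ) = Module.finrank (ZMod p) ↥ρ.invariants := by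
  obtain ⟨n, hn, hA⟩ := UnrRep.exists_period hs
  have : NeZero (n * p) := ⟨mul_ne_zero hn.ne' hp.out.ne_zero⟩
  let Θ : V →ₗ[ZMod p] H1 (LL q) ρ :=
    (mk1 (LL q) ρ).comp ((unrZ ρ).subtype.comp (powSumZ hρ hs hA))
  have hrange : LinearMap.range Θ = unrH1 ρ := by
    refine le_antisymm ?_ ?_
    · rintro _ ⟨m, rfl⟩
      exact ⟨(powSumZ hρ hs hA m).1, (powSumZ hρ hs hA m).2, rfl⟩
    · rintro _ ⟨c, hc, rfl⟩
      refine ⟨c.1 (frobL q), congrArg (mk1 (LL q) ρ) (Subtype.ext (funext fun g => ?_))⟩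
      exact (apply_eq_powSum hc hA g).symm
  have hker : LinearMap.ker Θ = LinearMap.range (ρ (frobL q) - 1) := by
    ext m
    rw [LinearMap.mem_ker]
    constructor
    · intro h
      obtain ⟨v, hv⟩ := (mk1_eq_zero (LL q) ρ _).1 h
      exact ⟨v, (congrFun hv (frobL q)).trans (powSumZ_apply_frobL hρ hs hn hA m)⟩
    · rintro ⟨v, rfl⟩
      have hc : (⟨d0 ρ v, d0_mem_Z1 hs v⟩ : ↥(Z1 (LL q) ρ)) ∈ unrZ ρ := fun ι hι => by
        show d0 ρ v ι = 0
        rw [d0_apply, hρ ι hι, Module.End.one_apply, sub_self]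
      refine (mk1_eq_zero (LL q) ρ _).2 ⟨v, funext fun g => ?_⟩
      exact apply_eq_powSum hc hA g
  have hinv : ρ.invariants = LinearMap.ker (ρ (frobL q) - 1) := by
    ext v
    rw [mem_invariants_iff_frobL hρ hs, LinearMap.mem_ker, LinearMap.sub_apply,
      Module.End.one_apply, sub_eq_zero]
  have h1 := LinearMap.finrank_range_add_finrank_ker Θ
  have h2 := LinearMap.finrank_range_add_finrank_ker (ρ (frobL q) - 1)
  rw [hker, hrange] at h1
  refine ⟨hrange ▸ inferInstance, ?_⟩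
  rw [hinv]
  omega

theorem cupc_eq_zero_of_unr {σ : Representation (ZMod p) (LG q) W} {U : Type} [AddCommGroup U]
    [Module (ZMod p) U] {τ : Representation (ZMod p) (LG q) U}
    {β : V →ₗ[ZMod p] W →ₗ[ZMod p] U} (hβ : Bil ρ σ τ β)
    (hσ : UnrRep σ) (hτ : UnrRep τ) (hsρ : Smooth (LL q) ρ)
    (hsσ : Smooth (LL q) σ) (hsτ : Smooth (LL q) τ) {x : H1 (LL q) ρ} {y : H1 (LL q) σ}
    (hx : x ∈ unrH1 ρ) (hy : y ∈ unrH1 σ) : hβ.cup hsσ x y = 0 := by
  obtain ⟨a, ha, rfl⟩ := hx
  obtain ⟨b, hb, rfl⟩ := hy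
  obtain ⟨n, hn, hA⟩ := UnrRep.exists_period hsρ
  obtain ⟨n', hn', hA'⟩ := UnrRep.exists_period hsσ
  set m := n * n'
  have hm : 0 < m := Nat.mul_pos hn hn'
  have hAm : ρ (frobL q) ^ m = 1 := by rw [pow_mul, hA, one_pow]
  have hA'm : σ (frobL q) ^ m = 1 := by show σ (frobL q) ^ (n * n') = 1; rw [mul_comm, pow_mul, hA', one_pow]
  have : NeZero (m * p) := ⟨mul_ne_zero hm.ne' hp.out.ne_zero⟩
  rw [Bil.cup_mk1]
  refine mk2_eq_zero_of_unr hτ hsτ _ (N := m * p) fun g h g' h' hg hh => ?_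
  show β (a.1 g) (σ g (b.1 h)) = β (a.1 g') (σ g' (b.1 h'))
  rw [apply_eq_powSum ha hAm g, apply_eq_powSum ha hAm g',
    apply_eq_powSum hb hA'm h, apply_eq_powSum hb hA'm h',
    hσ.apply_eq (N := m * p) (by rw [pow_mul, hA'm, one_pow]) hsσ g,
    hσ.apply_eq (N := m * p) (by rw [pow_mul, hA'm, one_pow]) hsσ g', hg, hh]

end FA.GalCoh
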