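import Fermat.Agent.GalCoh.NumberFieldUnits

/-!
The Herbrand quotient of a finitely generated module over a cyclic group of prime order, in terms
of ranks.
-/

set_option autoImplicit false
set_option linter.unusedSectionVars false

noncomputable section

namespace FA.GalCoh

open Polynomial

section Cross

variable {M : Type} [AddCommGroup M]

/-- Multiplicativity of the Herbrand quotient along a subgroup of finite index. -/
theorem herbrand_cross (f g : M →+ M) {A B : AddSubgroup M} (h : B ≤ A) (hfin : B.relIndex A ≠ 0)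
    (hfA : A.map f ≤ A ⊓ g.ker) (hgA : A.map g ≤ A ⊓ f.ker)
    (hfB : B.map f ≤ B ⊓ g.ker) (hgB : B.map g ≤ B ⊓ f.ker) :
    (A.map f).relIndex (A ⊓ g.ker) * (B.map g).relIndex (B ⊓ f.ker) =
      (B.map f).relIndex (B ⊓ g.ker) * (A.map g).relIndex (A ⊓ f.ker) := by
  have ef := relIndex_map_ker f h
  have eg := relIndex_map_ker g h
  have h1 := AddSubgroup.relIndex_mul_relIndex _ _ _ (AddSubgroup.map_mono (f := f) h) hfA
  have h2 := AddSubgroup.relIndex_mul_relIndex _ _ _ hfB (inf_le_inf_right g.ker h)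
  have h3 := AddSubgroup.relIndex_mul_relIndex _ _ _ (AddSubgroup.map_mono (f := g) h) hgA
  have h4 := AddSubgroup.relIndex_mul_relIndex _ _ _ hgB (inf_le_inf_right f.ker h)
  refine Nat.eq_of_mul_eq_mul_left (Nat.pos_of_ne_zero hfin) ?_
  calc B.relIndex A * ((A.map f).relIndex (A ⊓ g.ker) * (B.map g).relIndex (B ⊓ f.ker))
      = ((B.map f).relIndex (A.map f) * (A.map f).relIndex (A ⊓ g.ker)) *
          ((B.map g).relIndex (B ⊓ f.ker) * (B ⊓ f.ker).relIndex (A ⊓ f.ker)) := by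
        rw [← ef]; ring
    _ = ((B.map f).relIndex (B ⊓ g.ker) * (B ⊓ g.ker).relIndex (A ⊓ g.ker)) *
          ((B.map g).relIndex (A.map g) * (A.map g).relIndex (A ⊓ f.ker)) := by
        rw [h1, h2, h3, h4]
    _ = B.relIndex A * ((B.map f).relIndex (B ⊓ g.ker) * (A.map g).relIndex (A ⊓ f.ker)) := by
        rw [← eg]; ring

theorem finrank_map_smul [Module.Finite ℤ M] (S : Submodule ℤ M) {m : ℤ} (hm : m ≠ 0) :
    Module.finrank ℤ (S.map (DistribSMul.toLinearMap ℤ M m)) = Module.finrank ℤ S := by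
  let f : S →ₗ[ℤ] M := (DistribSMul.toLinearMap ℤ M m).comp S.subtype
  have hr : LinearMap.range f = S.map (DistribSMul.toLinearMap ℤ M m) := by
    rw [LinearMap.range_comp, Submodule.range_subtype]
  have h1 := Submodule.finrank_quotient_add_finrank (LinearMap.ker f)
  rw [f.quotKerEquivRange.finrank_eq, hr] at h1
  have h2 : Module.finrank ℤ (LinearMap.ker f) = 0 :=
    Module.finrank_eq_zero_iff.2 fun x => ⟨m, hm, Subtype.ext (Subtype.ext (LinearMap.mem_ker.1 x.2))⟩
  omega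

end Cross

variable {p : ℕ} [hp : Fact p.Prime]

theorem exists_cyclotomic_relations (p : ℕ) [hp : Fact p.Prime] :
    (∃ v : ℤ[X], (X - 1) ^ (p - 1) = cyclotomic p ℤ + (p : ℤ[X]) * v) ∧
      ∃ u w : ℤ[X], (p : ℤ[X]) = u * (X - 1) ^ (p - 1) + w * cyclotomic p ℤ := by
  obtain ⟨v, hv⟩ : ∃ v : ℤ[X], (X - 1) ^ (p - 1) = cyclotomic p ℤ + (p : ℤ[X]) * v := by
    have h0 : ((X - 1) ^ (p - 1) - cyclotomic p ℤ).map (Int.castRingHom (ZMod p)) = 0 := by
      rw [Polynomial.map_sub, Polynomial.map_pow, Polynomial.map_sub, Polynomial.map_X,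
        Polynomial.map_one, map_cyclotomic, sub_eq_zero]
      refine mul_right_cancel₀ (X_sub_C_ne_zero (1 : ZMod p)) ?_
      rw [C_1, cyclotomic_prime_mul_X_sub_one, ← pow_succ, Nat.sub_add_cancel hp.out.one_le,
        sub_pow_char, one_pow]
    have hdvd : C ((p : ℤ)) ∣ (X - 1) ^ (p - 1) - cyclotomic p ℤ := by
      rw [C_dvd_iff_dvd_coeff]
      intro i
      have h := congrArg (fun P : (ZMod p)[X] => P.coeff i) h0
      simp only [coeff_map, coeff_zero, eq_intCast] at h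
      exact (ZMod.intCast_zmod_eq_zero_iff_dvd _ p).1 h
    obtain ⟨v, hv⟩ := hdvd
    exact ⟨v, by rw [eq_add_of_sub_eq' hv]; simp⟩
  refine ⟨⟨v, hv⟩, ?_⟩
  obtain ⟨v', hv'⟩ : ∃ v', v + 1 = (X - 1) * v' := by
    have h1 := congrArg (Polynomial.eval (1 : ℤ)) hv
    simp only [eval_pow, eval_sub, eval_X, eval_one, sub_self, eval_add, eval_mul, eval_natCast,
      eval_one_cyclotomic_prime] at h1
    rw [zero_pow (by have := hp.out.one_lt; omega)] at h1
    have hv1 : v.eval 1 = -1 := by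
      have hp0 : (p : ℤ) ≠ 0 := Nat.cast_ne_zero.2 hp.out.ne_zero
      apply mul_left_cancel₀ hp0
      linear_combination -h1
    obtain ⟨v', hv'⟩ := (dvd_iff_isRoot (p := v + 1) (a := (1 : ℤ))).2 (by simp [IsRoot, hv1])
    exact ⟨v', by rw [hv', C_1]⟩
  set x := (X - 1) * v'
  refine ⟨v' ^ (p - 1) * (p : ℤ[X]) - ∑ i ∈ Finset.range (p - 1), x ^ i,
    ∑ i ∈ Finset.range (p - 1), x ^ i, ?_⟩
  have e : (p : ℤ[X]) * (1 - x) = cyclotomic p ℤ - (X - 1) ^ (p - 1) := by
    rw [hv]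
    linear_combination (p : ℤ[X]) * hv'
  have e2 := geom_sum_mul_neg x (p - 1)
  have e3 : x ^ (p - 1) = (X - 1) ^ (p - 1) * v' ^ (p - 1) := mul_pow _ _ _
  linear_combination (∑ i ∈ Finset.range (p - 1), x ^ i) * e - (p : ℤ[X]) * e2
    + (p : ℤ[X]) * e3

section Main

variable {M : Type} [AddCommGroup M] (σ : M →ₗ[ℤ] M)

/-- The norm of an automorphism of order dividing `p`. -/
def nEnd (p : ℕ) : M →ₗ[ℤ] M := ∑ i ∈ Finset.range p, σ ^ i

theorem aeval_cyclotomic : aeval σ (cyclotomic p ℤ) = nEnd σ p := by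
  rw [cyclotomic_prime, map_sum, nEnd]
  simp

theorem sub_comp_nEnd (hσ : σ ^ p = 1) : (σ - 1) * nEnd σ p = 0 ∧ nEnd σ p * (σ - 1) = 0 :=
  ⟨by rw [nEnd, mul_geom_sum, hσ, sub_self], by rw [nEnd, geom_sum_mul, hσ, sub_self]⟩

theorem nEnd_eq_of_fixed {x : M} (hx : σ x = x) : nEnd σ p x = (p : ℤ) • x := by
  have h : ∀ i : ℕ, (σ ^ i) x = x := fun i => by
    induction i with
    | zero => rfl
    | succ i ih => rw [pow_succ, Module.End.mul_apply, hx, ih]
  rw [nEnd, LinearMap.sum_apply, Finset.sum_congr rfl fun i _ => h i, Finset.sum_const,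
    Finset.card_range, natCast_zsmul]

/-- The Herbrand quotient in terms of ranks. -/
theorem index_range_nEnd [Module.Finite ℤ M] (hσ : σ ^ p = 1)
    (h1 : LinearMap.ker (nEnd σ p) ≤ LinearMap.range (σ - 1)) :
    ∃ k : ℕ, k * (p - 1) + Module.finrank ℤ (LinearMap.ker (σ - 1)) = Module.finrank ℤ M ∧
      (LinearMap.range (nEnd σ p)).toAddSubgroup.relIndex (LinearMap.ker (σ - 1)).toAddSubgroup
        * p ^ k = p ^ Module.finrank ℤ (LinearMap.ker (σ - 1)) := by
  classical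
  obtain ⟨hDN, hND⟩ := sub_comp_nEnd σ hσ
  set D := σ - 1 with hD
  set N := nEnd σ p with hN
  obtain ⟨n, hn, hkill⟩ : ∃ n : ℕ, n ≠ 0 ∧ ∀ x ∈ Submodule.torsion ℤ M, n • x = 0 := by
    have : Finite (Submodule.torsion ℤ M) :=
      Module.finite_of_fg_torsion _ Submodule.torsion_isTorsion
    refine ⟨Nat.card (Submodule.torsion ℤ M), Nat.card_pos.ne', fun x hx => ?_⟩
    exact congrArg Subtype.val (card_nsmul_eq_zero' (x := (⟨x, hx⟩ : Submodule.torsion ℤ M)))
  set Φ := DistribSMul.toLinearMap ℤ M (n : ℤ) with hΦ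
  have hn' : (n : ℤ) ≠ 0 := Nat.cast_ne_zero.2 hn
  have hp' : (p : ℤ) ≠ 0 := Nat.cast_ne_zero.2 hp.out.ne_zero
  -- torsion free images
  have htors : ∀ y : M, ∀ m : ℤ, m ≠ 0 → m • ((n : ℤ) • y) = 0 → (n : ℤ) • y = 0 :=
    fun y m hm h => by
      rw [natCast_zsmul]
      refine hkill y ((Submodule.mem_torsion_iff _).2
        ⟨⟨m * n, mem_nonZeroDivisors_of_ne_zero (mul_ne_zero hm hn')⟩, ?_⟩)
      show (m * n) • y = 0
      rw [mul_smul]; exact h
  set A0 := (LinearMap.ker D).map Φ with hA0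
  set B0 := (LinearMap.ker N).map Φ with hB0
  have hA0D : ∀ y ∈ A0, D y = 0 := by
    rintro _ ⟨z, hz, rfl⟩
    show D ((n : ℤ) • z) = 0
    rw [map_smul, LinearMap.mem_ker.1 hz, smul_zero]
  have hB0N : ∀ y ∈ B0, N y = 0 := by
    rintro _ ⟨z, hz, rfl⟩
    show N ((n : ℤ) • z) = 0
    rw [map_smul, LinearMap.mem_ker.1 hz, smul_zero]
  have hfix : ∀ y, D y = 0 → N y = (p : ℤ) • y := fun y hy =>
    nEnd_eq_of_fixed σ (sub_eq_zero.1 (by simpa [hD] using hy))
  have hint : ∀ y, (y ∈ A0 ∨ y ∈ B0) → D y = 0 → N y = 0 → y = 0 := by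
    intro y hy h0 h0'
    rw [hfix y h0] at h0'
    rcases hy with ⟨z, -, rfl⟩ | ⟨z, -, rfl⟩ <;> exact htors z p hp' h0'
  set B := A0 ⊔ B0 with hB
  have hkerDB : B.toAddSubgroup ⊓ D.toAddMonoidHom.ker = A0.toAddSubgroup := by
    ext y
    constructor
    · rintro ⟨hy, hy0⟩
      obtain ⟨a, ha, b, hb, rfl⟩ := Submodule.mem_sup.1 hy
      have hb0 : D b = 0 := by
        have : D (a + b) = 0 := hy0
        rwa [map_add, hA0D a ha, zero_add] at this
      rw [hint b (Or.inr hb) hb0 (hB0N b hb), add_zero]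
      exact ha
    · exact fun hy => ⟨(le_sup_left : A0 ≤ B) hy, hA0D y hy⟩
  have hkerNB : B.toAddSubgroup ⊓ N.toAddMonoidHom.ker = B0.toAddSubgroup := by
    ext y
    constructor
    · rintro ⟨hy, hy0⟩
      obtain ⟨a, ha, b, hb, rfl⟩ := Submodule.mem_sup.1 hy
      have ha0 : N a = 0 := by
        have : N (a + b) = 0 := hy0
        rwa [map_add, hB0N b hb, add_zero] at this
      rw [hint a (Or.inl ha) (hA0D a ha) ha0, zero_add]
      exact hb
    · exact fun hy => ⟨(le_sup_right : B0 ≤ B) hy, hB0N y hy⟩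
  have hNB : B.toAddSubgroup.map N.toAddMonoidHom
      = A0.toAddSubgroup.map (nsmulAddMonoidHom p) := by
    ext y
    constructor
    · rintro ⟨z, hz, rfl⟩
      obtain ⟨a, ha, b, hb, rfl⟩ := Submodule.mem_sup.1 hz
      refine ⟨a, ha, ?_⟩
      show p • a = N (a + b)
      rw [map_add, hfix a (hA0D a ha), hB0N b hb, add_zero, natCast_zsmul]
    · rintro ⟨a, ha, rfl⟩
      refine ⟨a, (le_sup_left : A0 ≤ B) ha, ?_⟩
      show N a = p • a
      rw [hfix a (hA0D a ha), natCast_zsmul]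
  have hDB : B.toAddSubgroup.map D.toAddMonoidHom = B0.toAddSubgroup.map D.toAddMonoidHom := by
    refine le_antisymm ?_ (AddSubgroup.map_mono fun y hy => (le_sup_right : B0 ≤ B) hy)
    rintro _ ⟨z, hz, rfl⟩
    obtain ⟨a, ha, b, hb, rfl⟩ := Submodule.mem_sup.1 hz
    refine ⟨b, hb, ?_⟩
    show D b = D (a + b)
    rw [map_add, hA0D a ha, zero_add]
  -- the operators on the kernel of the norm
  obtain ⟨⟨v, hv⟩, u, w, huw⟩ := exists_cyclotomic_relations p
  have hDa : aeval σ ((X : ℤ[X]) - 1) = D := by simp [hD]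
  have hDpow : ∀ y, N y = 0 → (D ^ (p - 1)) y = (p : ℤ) • aeval σ v y := by
    intro y hy
    have h := congrArg (fun P : ℤ[X] => aeval σ P y) hv
    simpa [hDa, aeval_cyclotomic, hy, ← hN, natCast_zsmul, map_natCast] using h
  have hpexp : ∀ y, N y = 0 → (p : ℤ) • y = (D ^ (p - 1)) (aeval σ u y) := by
    intro y hy
    have h := congrArg (fun P : ℤ[X] => aeval σ P y) huw
    rw [mul_comm u] at h
    simpa [hDa, aeval_cyclotomic, hy, ← hN, natCast_zsmul, map_natCast] using h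
  have hcomm : ∀ (P : ℤ[X]) y, N (aeval σ P y) = aeval σ P (N y) := fun P y => by
    have e : N * aeval σ P = aeval σ P * N := by
      rw [hN, ← aeval_cyclotomic, ← map_mul, ← map_mul, mul_comm]
    exact LinearMap.congr_fun e y
  have hB0st : ∀ (P : ℤ[X]) y, y ∈ B0 → aeval σ P y ∈ B0 := by
    rintro P _ ⟨z, hz, rfl⟩
    refine ⟨aeval σ P z, LinearMap.mem_ker.2 (by rw [hcomm, LinearMap.mem_ker.1 hz, map_zero]), ?_⟩
    show (n : ℤ) • aeval σ P z = aeval σ P ((n : ℤ) • z)
    rw [map_smul]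
  have hDB0 : B0.toAddSubgroup.map D.toAddMonoidHom ≤ B0.toAddSubgroup := by
    rintro _ ⟨y, hy, rfl⟩
    show D y ∈ B0
    rw [← hDa]
    exact hB0st _ y hy
  have hDinj : ∀ y ∈ B0, D y = 0 → y = 0 := fun y hy h =>
    hint y (Or.inr hy) h (hB0N y hy)
  -- ranks
  have rA : Module.finrank ℤ A0 = Module.finrank ℤ (LinearMap.ker D) := finrank_map_smul _ hn'
  have rB : Module.finrank ℤ B0 = Module.finrank ℤ (LinearMap.ker N) := finrank_map_smul _ hn'
  have hranks : Module.finrank ℤ B0 + Module.finrank ℤ A0 = Module.finrank ℤ M := by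
    have h := Submodule.finrank_quotient_add_finrank (LinearMap.ker D)
    rw [D.quotKerEquivRange.finrank_eq] at h
    have h2 : Module.finrank ℤ (LinearMap.range D) = Module.finrank ℤ (LinearMap.ker N) := by
      refine le_antisymm (Submodule.finrank_mono ?_) ?_
      · rintro _ ⟨z, rfl⟩
        exact LinearMap.mem_ker.2 (LinearMap.congr_fun hND z)
      · rw [← finrank_map_smul (LinearMap.ker N) hp']
        refine Submodule.finrank_mono ?_
        rintro _ ⟨y, hy, rfl⟩
        show (p : ℤ) • y ∈ LinearMap.range D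
        rw [hpexp y (LinearMap.mem_ker.1 hy)]
        obtain ⟨j, hj⟩ : ∃ j, p - 1 = j + 1 := ⟨p - 2, by have := hp.out.two_le; omega⟩
        rw [hj, pow_succ', Module.End.mul_apply]
        exact LinearMap.mem_range_self _ _
    rw [rA, rB, ← h2]
    exact h
  -- freeness
  have hfree : ∀ S : Submodule ℤ M, S ≤ LinearMap.range Φ → Module.Free ℤ S := by
    intro S hS
    have : Module.IsTorsionFree ℤ S := by
      rw [Submodule.isTorsionFree_iff_torsion_eq_bot, Submodule.eq_bot_iff]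
      rintro ⟨y, hy⟩ hy'
      obtain ⟨c, hc⟩ := (Submodule.mem_torsion_iff _).1 hy'
      obtain ⟨z, rfl⟩ := hS hy
      exact Subtype.ext (htors z c (nonZeroDivisors.ne_zero c.2) (congrArg Subtype.val hc))
    exact Module.free_of_finite_type_torsion_free'
  have : Module.Free ℤ A0.toAddSubgroup.toIntSubmodule :=
    hfree A0 (LinearMap.map_le_range)
  have : Module.Free ℤ B0.toAddSubgroup.toIntSubmodule :=
    hfree B0 (LinearMap.map_le_range)
  have iA := AddSubgroup.relIndex_map_nsmul p A0.toAddSubgroup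
  have iB := AddSubgroup.relIndex_map_nsmul p B0.toAddSubgroup
  -- the iterates of the difference map
  have hpowB : ∀ i : ℕ, B0.toAddSubgroup.map (D ^ i).toAddMonoidHom ≤ B0.toAddSubgroup ∧
      (B0.toAddSubgroup.map (D ^ i).toAddMonoidHom).relIndex B0.toAddSubgroup
        = (B0.toAddSubgroup.map D.toAddMonoidHom).relIndex B0.toAddSubgroup ^ i := by
    intro i
    induction i with
    | zero =>
      have e : (D ^ 0).toAddMonoidHom = AddMonoidHom.id M := rfl
      rw [e, AddSubgroup.map_id, pow_zero]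
      exact ⟨le_rfl, AddSubgroup.relIndex_self _⟩
    | succ i ih =>
      have e : B0.toAddSubgroup.map (D ^ (i + 1)).toAddMonoidHom
          = (B0.toAddSubgroup.map (D ^ i).toAddMonoidHom).map D.toAddMonoidHom := by
        rw [AddSubgroup.map_map]
        congr 1
        ext y
        simp [pow_succ', Module.End.mul_apply]
      have hle := AddSubgroup.map_mono (f := D.toAddMonoidHom) ih.1
      refine ⟨e ▸ hle.trans hDB0, ?_⟩
      rw [e, ← AddSubgroup.relIndex_mul_relIndex _ _ _ hle hDB0, pow_succ, ← ih.2]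
      congr 1
      have hker : (B0.toAddSubgroup.map (D ^ i).toAddMonoidHom ⊔ B0.toAddSubgroup) ⊓
          D.toAddMonoidHom.ker = ⊥ := by
        rw [sup_eq_right.2 ih.1, AddSubgroup.eq_bot_iff_forall]
        exact fun y hy => hDinj y hy.1 hy.2
      have := relIndex_map_ker D.toAddMonoidHom ih.1
      rw [sup_eq_right.2 ih.1] at hker
      rw [hker, show B0.toAddSubgroup.map (D ^ i).toAddMonoidHom ⊓ D.toAddMonoidHom.ker = ⊥ from
        le_bot_iff.1 (hker ▸ inf_le_inf_right _ ih.1), AddSubgroup.relIndex_self, mul_one] at this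
      exact this
  have hpB : B0.toAddSubgroup.map (D ^ (p - 1)).toAddMonoidHom
      = B0.toAddSubgroup.map (nsmulAddMonoidHom p) := by
    refine le_antisymm ?_ ?_
    · rintro _ ⟨y, hy, rfl⟩
      refine ⟨aeval σ v y, hB0st v y hy, ?_⟩
      show p • aeval σ v y = (D ^ (p - 1)) y
      rw [hDpow y (hB0N y hy), natCast_zsmul]
    · rintro _ ⟨y, hy, rfl⟩
      refine ⟨aeval σ u y, hB0st u y hy, ?_⟩
      show (D ^ (p - 1)) (aeval σ u y) = p • y
      rw [← hpexp y (hB0N y hy), natCast_zsmul]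
  have hi := (hpowB (p - 1)).2
  rw [hpB, iB] at hi
  set h1B := (B0.toAddSubgroup.map D.toAddMonoidHom).relIndex B0.toAddSubgroup
  obtain ⟨j, -, hj⟩ : ∃ j ≤ Module.finrank ℤ B0.toAddSubgroup, h1B = p ^ j :=
    (Nat.dvd_prime_pow hp.out).1 (hi ▸ dvd_pow_self h1B (by have := hp.out.two_le; omega))
  rw [hj, ← pow_mul] at hi
  have hjk : j * (p - 1) = Module.finrank ℤ B0 :=
    (Nat.pow_right_injective hp.out.two_le hi).symm
  refine ⟨j, by rw [hjk, ← rA]; exact hranks, ?_⟩
  -- finite index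
  have hBfin : B.toAddSubgroup.relIndex (⊤ : AddSubgroup M) ≠ 0 := by
    rw [AddSubgroup.relIndex_top_right]
    have : Finite (M ⧸ B) := by
      refine Module.finite_of_fg_torsion _ fun {y} => ?_
      obtain ⟨y, rfl⟩ := Submodule.Quotient.mk_surjective _ y
      refine ⟨⟨(n : ℤ) * p, mem_nonZeroDivisors_of_ne_zero (mul_ne_zero hn' hp')⟩, ?_⟩
      rw [Submonoid.smul_def, ← Submodule.Quotient.mk_smul]
      refine (Submodule.Quotient.mk_eq_zero _).2 (Submodule.mem_sup.2
        ⟨Φ (N y), ⟨N y, LinearMap.mem_ker.2 (LinearMap.congr_fun hDN y), rfl⟩,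
          Φ ((p : ℤ) • y - N y), ⟨(p : ℤ) • y - N y, LinearMap.mem_ker.2 ?_, rfl⟩, ?_⟩)
      · rw [map_sub, map_smul, hfix (N y) (LinearMap.congr_fun hDN y), sub_self]
      · show (n : ℤ) • N y + (n : ℤ) • ((p : ℤ) • y - N y) = ((n : ℤ) * p) • y
        rw [← smul_add, add_sub_cancel, mul_smul]
    have : Finite (M ⧸ B.toAddSubgroup) := ‹Finite (M ⧸ B)›
    exact AddSubgroup.index_ne_zero_of_finite
  have hcross := herbrand_cross D.toAddMonoidHom N.toAddMonoidHom (le_top : B.toAddSubgroup ≤ ⊤)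
    hBfin
    (fun y hy => ⟨trivial, by obtain ⟨z, -, rfl⟩ := hy; exact LinearMap.congr_fun hND z⟩)
    (fun y hy => ⟨trivial, by obtain ⟨z, -, rfl⟩ := hy; exact LinearMap.congr_fun hDN z⟩)
    (by rw [hDB, hkerNB]; exact hDB0)
    (by
      rw [hNB, hkerDB]
      rintro _ ⟨y, hy, rfl⟩
      exact nsmul_mem hy p)
  rw [top_inf_eq, top_inf_eq, hkerDB, hkerNB, hNB, hDB, iA] at hcross
  have hA1 : ((⊤ : AddSubgroup M).map D.toAddMonoidHom).relIndex N.toAddMonoidHom.ker = 1 := by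
    rw [AddSubgroup.relIndex_eq_one]
    intro y hy
    obtain ⟨z, rfl⟩ := h1 hy
    exact ⟨z, trivial, rfl⟩
  have hA0' : (LinearMap.range N).toAddSubgroup = (⊤ : AddSubgroup M).map N.toAddMonoidHom := by
    ext y
    simp
  rw [hA1, one_mul] at hcross
  change p ^ Module.finrank ℤ A0 = h1B * _ at hcross
  rw [hj, rA] at hcross
  rw [hA0', mul_comm]
  exact hcross.symm

end Main

end FA.GalCoh
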