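import Fermat.Agent.GalCoh.UnitIndex
import Fermat.Agent.Density.Places
import Fermat.Agent.TW.Frobenius

/-!
Kummer classes of units at the places of a number field: local value groups, counting, and
auxiliary split places detecting the units.
-/

set_option autoImplicit false
set_option linter.unusedSectionVars false

noncomputable section

namespace FA.GalCoh

open IntermediateField Polynomial
open scoped Pointwise

theorem liesOverPrime_padicPlace (q : ℕ) [hq : Fact q.Prime] :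
    (padicPlace q).LiesOverPrime q := by
  rw [ValuationSubring.LiesOverPrime, ValuationSubring.mem_nonunits_iff_or, or_iff_not_imp_left]
  intro _ h
  rw [mem_padicPlace_iff, map_inv₀, map_natCast, nnnorm_inv, ← NNReal.coe_le_coe, NNReal.coe_inv,
    NNReal.coe_one, coe_nnnorm] at h
  exact h.not_gt ((one_lt_inv₀ norm_q_pos).2 norm_q_lt_one)

/-! ### Approximation of local elements -/

section Approx

variable {H : Subgroup GQ} {q : ℕ} [hq : Fact q.Prime]

/-- Every nonzero element of a completion has the absolute value of a global element. -/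
theorem exists_norm_eq_emb (hH : H ∈ LQ.carrier) (g : GQ)
    (b : fixUM (hloc H q g) (PadicAlgCl q)) :
    ∃ c ∈ fixedField H, c ≠ 0 ∧ ‖emb q g c‖ = ‖b.1.val‖ := by
  classical
  have := finiteDimensional_fixedField hH
  obtain ⟨α, hα⟩ := Field.exists_primitive_element ℚ (fixedField H)
  set A : AlgebraicClosure ℚ := (α : AlgebraicClosure ℚ)
  set y := emb q g A
  have hy : IsIntegral ℚ_[q] y := (Algebra.IsAlgebraic.isAlgebraic _).isIntegral
  have hle : ℚ_[q]⟮y⟯.fixingSubgroup ≤ hloc H q g := fun τ hτ => by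
    have hfix : (τ : LG q) y = y :=
      (IntermediateField.mem_fixingSubgroup_iff _ _).1 hτ y (mem_adjoin_simple_self _ y)
    rw [mem_hloc, ← fixingSubgroup_fixedField_LQ hH, IntermediateField.mem_fixingSubgroup_iff]
    intro x hx
    have hA' : (g⁻¹ * loc q τ * g) A = A := by
      rw [AlgEquiv.mul_apply, AlgEquiv.mul_apply, AlgEquiv.aut_inv, AlgEquiv.symm_apply_eq]
      refine (padicEmbedding q).injective ?_
      show padicEmbedding q (loc q τ (g A)) = padicEmbedding q (g A)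
      rw [iota_loc]
      exact hfix
    have key : ∀ z : fixedField H, z ∈ ℚ⟮α⟯ →
        (g⁻¹ * loc q τ * g) (z : AlgebraicClosure ℚ) = (z : AlgebraicClosure ℚ) := by
      intro z hz
      induction hz using adjoin_induction with
      | mem y hy => rw [Set.mem_singleton_iff.1 hy]; exact hA'
      | algebraMap r => exact AlgEquiv.commutes _ r
      | add x y _ _ hx hy => push_cast; rw [map_add, hx, hy]
      | inv x _ hx => push_cast; rw [map_inv₀, hx]
      | mul x y _ _ hx hy => push_cast; rw [map_mul, hx, hy]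
    exact key ⟨x, hx⟩ (by rw [hα]; trivial)
  have hb : b.1.val ∈ ℚ_[q]⟮y⟯ := by
    rw [← InfiniteGalois.fixedField_fixingSubgroup ℚ_[q]⟮y⟯, mem_fixedField_iff]
    exact fun τ hτ => congrArg UM.val (b.2 ⟨τ, hle hτ⟩)
  rw [← IntermediateField.mem_toSubalgebra,
    adjoin_simple_toSubalgebra_of_isAlgebraic (Algebra.IsAlgebraic.isAlgebraic y),
    Algebra.adjoin_singleton_eq_range_aeval, AlgHom.mem_range] at hb
  obtain ⟨e, he⟩ := hb
  have hd : DenseRange (algebraMap ℚ ℚ_[q]) := by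
    rw [show ⇑(algebraMap ℚ ℚ_[q]) = ((↑) : ℚ → ℚ_[q]) from funext fun r => eq_ratCast _ r]
    exact Padic.denseRange_ratCast (p := q)
  have hb0 : 0 < ‖b.1.val‖ := norm_pos_iff.2 b.1.val_ne_zero
  set B : ℝ := (1 + ‖y‖) ^ e.natDegree
  have hB : 0 < B := pow_pos (by positivity) _
  choose r hr using fun i => Metric.denseRange_iff.1 hd (e.coeff i) (‖b.1.val‖ / (2 * B))
    (by positivity)
  set e' : ℚ[X] := ∑ i ∈ Finset.range (e.natDegree + 1), Polynomial.C (r i) * Polynomial.X ^ i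
  have hclose : ‖emb q g (Polynomial.aeval A e') - b.1.val‖ < ‖b.1.val‖ := by
    have he2 : Polynomial.aeval y e = b.1.val := he
    conv_lhs => rw [← he2]
    rw [← Polynomial.aeval_algHom_apply, map_sum, aeval_eq_sum_range, ← Finset.sum_sub_distrib]
    refine lt_of_le_of_lt (IsUltrametricDist.norm_sum_le_of_forall_le_of_nonneg
      (C := ‖b.1.val‖ / 2) (by positivity) fun i hi => ?_) (by linarith)
    rw [map_mul, Polynomial.aeval_C, map_pow, Polynomial.aeval_X, Algebra.smul_def,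
      IsScalarTower.algebraMap_apply ℚ ℚ_[q] (PadicAlgCl q), ← sub_mul, ← map_sub, norm_mul,
      norm_algebraMap', norm_pow]
    calc ‖algebraMap ℚ ℚ_[q] (r i) - e.coeff i‖ * ‖y‖ ^ i
        ≤ (‖b.1.val‖ / (2 * B)) * B := by
          refine mul_le_mul ?_ ?_ (by positivity) (by positivity)
          · rw [norm_sub_rev, ← dist_eq_norm]; exact (hr i).le
          · refine (pow_le_pow_left₀ (norm_nonneg y) (le_add_of_nonneg_left zero_le_one) i).trans
              (pow_le_pow_right₀ ?_ ?_)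
            · exact le_add_of_nonneg_right (norm_nonneg y)
            · exact Nat.lt_succ_iff.1 (Finset.mem_range.1 hi)
      _ = ‖b.1.val‖ / 2 := by field_simp
  have hnorm : ‖emb q g (Polynomial.aeval A e')‖ = ‖b.1.val‖ := by
    rw [show emb q g (Polynomial.aeval A e')
      = b.1.val + (emb q g (Polynomial.aeval A e') - b.1.val) by ring,
      IsUltrametricDist.norm_add_eq_max_of_norm_ne_norm hclose.ne', max_eq_left hclose.le]
  refine ⟨Polynomial.aeval A e', ?_, fun h => ?_, hnorm⟩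
  · rw [show Polynomial.aeval A e' = ((Polynomial.aeval α e' : fixedField H) : AlgebraicClosure ℚ)
      from Polynomial.aeval_algHom_apply (fixedField H).val α e']
    exact SetLike.coe_mem _
  · rw [h, map_zero, norm_zero] at hnorm
    exact hb0.ne hnorm

/-- The value group of a completion at an unramified prime. -/
theorem exists_zpow_norm (hH : H ∈ LQ.carrier) {S : Finset Nat.Primes} (hgood : Good H S)
    {v : Place H} (hv : v.1 ∉ S) {π : fixUM v.sub (PadicAlgCl v.1)}
    (hπ : ‖π.1.val‖ = ‖((v.1 : ℕ) : PadicAlgCl v.1)‖) (a : fixUM v.sub (PadicAlgCl v.1)) :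
    ∃ n : ℤ, ‖a.1.val‖ = ‖π.1.val‖ ^ n := by
  obtain ⟨c, hc, hc0, he⟩ := exists_norm_eq_emb hH v.rep a
  obtain ⟨m, hm⟩ := hgood v.1 hv v.rep c hc hc0
  exact ⟨m, by rw [← he, hπ, hm]⟩

end Approx

/-! ### Counting -/

section Count

variable {H : Subgroup GQ} {p : ℕ} [hp : Fact p.Prime]

include hp in
theorem natCard_pi_H1 (hH : H ∈ LQ.carrier) (K : KumData (LQ.sub H) (AlgebraicClosure ℚ) p)
    {S : Finset Nat.Primes} (hpS : (⟨p, hp.out⟩ : Nat.Primes) ∈ S) :
    Nat.card (∀ v : {v // v ∈ placesOver hH S},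
        H1 ((LL (v.1.1 : ℕ)).sub v.1.sub) (triv v.1.sub p))
      = p ^ (2 * (placesOver hH S).card + H.index) := by
  classical
  rw [Nat.card_pi]
  have hterm : ∀ v : {v // v ∈ placesOver hH S},
      Nat.card (H1 ((LL (v.1.1 : ℕ)).sub v.1.sub) (triv v.1.sub p))
        = p ^ (2 + if (v.1.1 : ℕ) = p then v.1.sub.index else 0) := by
    intro v
    rw [natCard_H1 (hloc_mem hH v.1.rep) (locKum K (v.1.1 : ℕ) v.1.rep), finrank_hloc hH]
  rw [Finset.prod_congr rfl fun v _ => hterm v, Finset.prod_pow_eq_pow_sum]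
  congr 1
  rw [Finset.sum_coe_sort (placesOver hH S)
    (fun v => 2 + if (v.1 : ℕ) = p then v.sub.index else 0), Finset.sum_add_distrib,
    Finset.sum_const, smul_eq_mul, mul_comm]
  congr 1
  have hfin := finite_placeOver hH p
  let _ : Fintype (PlaceOver H p) := Fintype.ofFinite _
  rw [← Finset.sum_filter, ← sum_index_sub hH (q := p)]
  let emb' : PlaceOver H p ↪ Place H :=
    ⟨fun c => ⟨(⟨p, hp.out⟩ : Nat.Primes), c⟩, fun c c' h => eq_of_heq (Sigma.mk.inj h).2⟩
  have hfilter : ((placesOver hH S).filter fun v => (v.1 : ℕ) = p)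
      = Finset.univ.map emb' := by
    ext ⟨q, c⟩
    simp only [Finset.mem_filter, mem_placesOver, Finset.mem_map, Finset.mem_univ, true_and]
    constructor
    · rintro ⟨-, h⟩
      obtain rfl : q = ⟨p, hp.out⟩ := Subtype.ext h
      exact ⟨c, rfl⟩
    · rintro ⟨c', h⟩
      obtain rfl : q = ⟨p, hp.out⟩ := (congrArg Sigma.fst h).symm
      exact ⟨hpS, rfl⟩
  rw [hfilter, Finset.sum_map]
  rfl

/-- The roots of unity are units everywhere. -/
theorem absv_zeta (K : KumData (LQ.sub H) (AlgebraicClosure ℚ) p) (v : Place H) :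
    v.absv K.ζ = 1 := by
  have h := congrArg v.absv K.prim.pow_eq_one
  rw [absv_pow, show v.absv 1 = 1 by simp [Place.absv]] at h
  exact (pow_eq_one_iff_of_nonneg (norm_nonneg _) hp.out.ne_zero).1 h

/-- The Kummer classes of the units outside `T`. -/
def kumUnits (K : KumData (LQ.sub H) (AlgebraicClosure ℚ) p) (T : Finset (Place H)) :
    ↥(tUnits H T) →+ H1 (LQ.sub H) (triv H p) :=
  K.kum.comp (tUnits H T).subtype

theorem kumUnits_apply (K : KumData (LQ.sub H) (AlgebraicClosure ℚ) p) (T : Finset (Place H))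
    (a : tUnits H T) : kumUnits K T a = K.kum a.1 := rfl

theorem ker_kumUnits (K : KumData (LQ.sub H) (AlgebraicClosure ℚ) p) (T : Finset (Place H)) :
    (kumUnits K T).ker = (nsmulAddMonoidHom (α := ↥(tUnits H T)) p).range := by
  ext a
  rw [AddMonoidHom.mem_ker, kumUnits_apply, K.kum_eq_zero_iff]
  constructor
  · rintro ⟨b, hb⟩
    refine ⟨⟨b, fun v hv => ?_⟩, Subtype.ext hb⟩
    have h := a.2 v hv
    rw [← hb, absv_val_nsmul] at h
    exact (pow_eq_one_iff_of_nonneg (norm_nonneg _) hp.out.ne_zero).1 h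
  · rintro ⟨b, rfl⟩
    exact ⟨b.1, rfl⟩

theorem natCard_range_kumUnits (hH : H ∈ LQ.carrier) (hT : TC H)
    (K : KumData (LQ.sub H) (AlgebraicClosure ℚ) p) (T : Finset (Place H)) {r : ℕ}
    (hr : H.index = 2 * r) :
    Nat.card (kumUnits K T).range = p ^ (r + T.card) := by
  have := finiteDimensional_fixedField hH
  have : NumberField (fixedField H) := { }
  have := isTotallyComplex_of_tc hH hT
  have := finite_tUnits hH T
  have hker : Nat.card (nsmulAddMonoidHom (α := ↥(tUnits H T)) p).ker = p := by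
    have hmem : ∀ i : ZMod p, K.eps i ∈ fixUM H (AlgebraicClosure ℚ) := fun i g => K.smul_eps g i
    have hmemT : ∀ i : ZMod p,
        (⟨K.eps i, hmem i⟩ : fixUM H (AlgebraicClosure ℚ)) ∈ tUnits H T := fun i v _ => by
      show v.absv (K.eps i).val = 1
      rw [K.eps_val, absv_pow, absv_zeta, one_pow]
    refine (Nat.card_congr (Equiv.ofBijective
      (fun i => (⟨⟨⟨K.eps i, hmem i⟩, hmemT i⟩, Subtype.ext (Subtype.ext (K.nsmul_eps i))⟩ :
        (nsmulAddMonoidHom (α := ↥(tUnits H T)) p).ker)) ⟨fun i j h => K.eps_injective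
          (congrArg (fun z : (nsmulAddMonoidHom (α := ↥(tUnits H T)) p).ker => z.1.1.1) h),
        fun a => ?_⟩)).symm.trans (Nat.card_zmod p)
    obtain ⟨i, hi⟩ := K.exists_eps (m := a.1.1.1)
      (congrArg (fun z : ↥(tUnits H T) => z.1.1) a.2)
    exact ⟨i, Subtype.ext (Subtype.ext (Subtype.ext hi))⟩
  rw [← AddSubgroup.index_ker, ker_kumUnits, index_nsmul_range_fg hp.out.ne_zero, hker,
    ← pow_succ, finrank_tUnits hH T hr]

end Count

/-! ### Auxiliary places -/

section Aux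

variable {H : Subgroup GQ} {p : ℕ} [hp : Fact p.Prime] {χ : H → ZMod p}
variable (K : KumData (LQ.sub H) (AlgebraicClosure ℚ) p) (C : CycData (LQ.sub H) χ)

/-- A unit class outside the line of the extension is detected at some split place. -/
theorem exists_split_place (hH : H ∈ LQ.carrier) {S : Finset Nat.Primes}
    (hpS : (⟨p, hp.out⟩ : Nat.Primes) ∈ S) {α x : fixUM H (AlgebraicClosure ℚ)}
    (hα : K.kum α = C.cls) (hαS : α ∈ tUnits H (placesOver hH S))
    (hxS : x ∈ tUnits H (placesOver hH S))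
    (hx : K.kum x ∉ Submodule.span (ZMod p) {C.cls}) :
    ∃ v : Place H, v.1 ∉ S ∧ Split C v ∧ locH1 H v.1 v.rep (K.kum x) ≠ 0 := by
  classical
  have hhom : ∀ g h, K.kc x (g * h) = K.kc x g + K.kc x h := fun g h => by
    rw [(K.kc_mem x).2 g h, add_comm]; rfl
  have hkc1 : K.kc x 1 = 0 := Z1.map_one (ρ := triv H p) ⟨_, K.kc_mem x⟩
  obtain ⟨g, hg0, hgx⟩ : ∃ g : H, χ g = 0 ∧ K.kc x g ≠ 0 := by
    by_contra! hall
    refine hx (Submodule.mem_span_singleton.2 ⟨K.kc x C.σ, ?_⟩)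
    rw [K.kum_apply, CycData.cls, ← map_smul]
    refine congrArg (mk1 _ (triv H p)) (Subtype.ext (funext fun g => ?_))
    show K.kc x C.σ * χ g = K.kc x g
    have hn := C.rep_inv_mul g
    have hpow : ∀ n : ℕ, K.kc x (C.σ ^ n) = n * K.kc x C.σ := fun n => by
      induction n with
      | zero => simpa using Z1.map_one (ρ := triv H p) ⟨_, K.kc_mem x⟩
      | succ n ih => rw [pow_succ, hhom, ih, Nat.cast_succ]; ring
    conv_rhs => rw [← mul_inv_cancel_left (C.rep g) g, hhom, hall _ hn, add_zero, CycData.rep,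
      hpow, ZMod.natCast_zmod_val]
    ring
  obtain ⟨_, ⟨N₁, hN₁, rfl⟩, hχ⟩ := C.lc
  obtain ⟨_, ⟨N₂, hN₂, rfl⟩, hkc⟩ := (K.kc_mem x).1
  obtain ⟨N, hN, hle, hn⟩ := LQ.exists_normal (LQ.inf_mem (LQ.inf_mem hN₁ hN₂) hH)
  have hNH : N ≤ H := fun s hs => (hle hs).2
  have hzero : ∀ n : H, (n : GQ) ∈ N → χ n = 0 ∧ K.kc x n = 0 := fun n hn' => by
    have h1 := hχ 1 n (hle hn').1.1
    have h2 := hkc 1 n (hle hn').1.2
    rw [one_mul, C.map_one] at h1
    rw [one_mul] at h2
    exact ⟨h1, h2.trans (Z1.map_one (ρ := triv H p) ⟨_, K.kc_mem x⟩)⟩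
  obtain ⟨q, A, σ, k, hq, hqS, hA, hσ, hk, j, hj⟩ := FA.Density.exists_frobenius_generating N
    (isOpen_of_mem_LQ hN) (g : GQ) (Finset.image (fun q : Nat.Primes => (q : ℕ)) S)
  have : Fact q.Prime := ⟨hq⟩
  have hσH : σ ∈ H := by
    have := mul_mem (pow_mem g.2 j) (hNH hj)
    rwa [mul_inv_cancel_left] at this
  set s : H := ⟨σ, hσH⟩
  have hχs : χ s = 0 := by
    have e := (hzero ((g ^ j)⁻¹ * s) hj).1
    rw [C.hom, C.map_inv, neg_add_eq_zero] at e
    rw [← e]
    clear e hj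
    induction j with
    | zero => rw [pow_zero, C.map_one]
    | succ j ih => rw [pow_succ, C.hom, ih, hg0, add_zero]
  have hxs : K.kc x s ≠ 0 := fun h => hgx (by
    have e := (hzero ((s ^ k)⁻¹ * g) hk).2
    have hpow : ∀ n : ℕ, K.kc x (s ^ n) = 0 := fun n => by
      induction n with
      | zero => exact Z1.map_one (ρ := triv H p) ⟨_, K.kc_mem x⟩
      | succ n ih => rw [pow_succ, hhom, ih, h, add_zero]
    have h' := hhom (s ^ k) ((s ^ k)⁻¹ * g)
    rwa [mul_inv_cancel_left, e, hpow, add_zero] at h')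
  -- the place
  obtain ⟨τ, hτ⟩ := FA.TW.exists_smul_eq_of_liesOver hq (A := padicPlace q) (B := A)
    (liesOverPrime_padicPlace q) hA
  have hd : τ⁻¹ * σ * τ ∈ (padicPlace q).decompositionSubgroup ℚ := by
    have h1 : σ • A = A := MulAction.mem_stabilizer_iff.1 hσ.mem_decompositionSubgroup
    rw [MulAction.mem_stabilizer_iff, mul_smul, mul_smul, hτ, h1, ← hτ, inv_smul_smul]
  rw [← range_loc] at hd
  obtain ⟨t, ht⟩ := hd
  obtain ⟨t', h, hh, e⟩ := placeQ_eq_iff.1 (placeQ_repQ (placeQ (H := H) (q := q) τ⁻¹))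
  set g₀ : GQ := repQ (placeQ (H := H) (q := q) τ⁻¹) with hg₀
  have hrep : g₀⁻¹ * loc q (t' * t * t'⁻¹) * g₀ = h⁻¹ * σ * h := by
    rw [e, map_mul, map_mul, map_inv, ht]
    group
  have hmem : t' * t * t'⁻¹ ∈ hloc H q g₀ :=
    (mem_hloc H).2 (by rw [hrep]; exact mul_mem (mul_mem (inv_mem hh) hσH) hh)
  have hloc' : locTo H q g₀ ⟨_, hmem⟩ = (⟨h, hh⟩ : H)⁻¹ * s * ⟨h, hh⟩ := Subtype.ext hrep
  let v : Place H := ⟨(⟨q, hq⟩ : Nat.Primes), placeQ (H := H) (q := q) τ⁻¹⟩
  have hvS : v.1 ∉ S := fun h =>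
    hqS (Finset.mem_image.2 ⟨(⟨q, hq⟩ : Nat.Primes), h, rfl⟩)
  have hxv : locH1 H q g₀ (K.kum x) ≠ 0 := fun h0 => hxs (by
    have h' := congrFun (congrArg Subtype.val
      (mk1_triv_injective (h0.trans (map_zero _).symm))) ⟨_, hmem⟩
    change K.kc x (locTo H q g₀ ⟨_, hmem⟩) = 0 at h'
    rw [hloc', hhom, hhom, add_comm _ (K.kc x s), add_assoc, ← hhom, inv_mul_cancel,
      hkc1, add_zero] at h'
    exact h')
  refine ⟨v, hvS, ?_, hxv⟩
  have hqp : q ≠ p := fun hqp => hqS (Finset.mem_image.2 ⟨_, hpS, hqp.symm⟩)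
  have hunit : ∀ {a : fixUM H (AlgebraicClosure ℚ)}, a ∈ tUnits H (placesOver hH S) →
      ‖(locEl H q g₀ a).1.val‖ = 1 := fun {a} ha =>
    ha v fun h => hvS ((mem_placesOver hH).1 h)
  obtain ⟨i, hi⟩ := exists_kum_eq_smul (hloc_mem hH g₀) (locKum K q g₀) hqp (hunit hxS)
    (by rw [← locH1_kum]; exact hxv) (hunit hαS)
  rw [← locH1_kum, ← locH1_kum, hα] at hi
  have hi0 : i = 0 := by
    have h' := congrFun (congrArg Subtype.val (mk1_triv_injective
      (hi.trans (map_smul (mk1 _ (triv (hloc H q g₀) p)) i _).symm))) ⟨_, hmem⟩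
    change χ (locTo H q g₀ ⟨_, hmem⟩) = i * K.kc x (locTo H q g₀ ⟨_, hmem⟩) at h'
    rw [hloc', C.hom, C.hom, C.map_inv, hχs, add_zero, neg_add_cancel, hhom, hhom,
      add_comm _ (K.kc x s), add_assoc, ← hhom, inv_mul_cancel,
      hkc1, add_zero] at h'
    exact (mul_eq_zero.1 h'.symm).resolve_right hxs
  show locH1 (p := p) H q g₀ C.cls = 0
  rw [hi, hi0, zero_smul]

open Classical in
/-- A minimal set of split places detecting the unit classes outside the line. -/
theorem exists_aux (hH : H ∈ LQ.carrier) (hT : TC H) {S : Finset Nat.Primes}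
    (hpS : (⟨p, hp.out⟩ : Nat.Primes) ∈ S) {α : fixUM H (AlgebraicClosure ℚ)}
    (hα : K.kum α = C.cls) (hαS : α ∈ tUnits H (placesOver hH S)) :
    ∃ T' : Finset (Place H), (∀ v ∈ T', v.1 ∉ S ∧ Split C v) ∧
      (∀ v ∈ T', ∃ u : fixUM H (AlgebraicClosure ℚ), u ∈ tUnits H (placesOver hH S) ∧
        locH1 H v.1 v.rep (K.kum u) ≠ 0 ∧
        ∀ w ∈ T', w ≠ v → locH1 H w.1 w.rep (K.kum u) = 0) ∧
      ∀ {r : ℕ}, H.index = 2 * r → r + (placesOver hH S).card ≤ T'.card + 1 := by
  obtain ⟨r₀, hr₀⟩ := two_dvd_index_of_tc hH hT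
  set T := placesOver hH S with hTdef
  set W := (kumUnits K T).range
  have : Finite W := Nat.finite_of_card_ne_zero (by
    rw [natCard_range_kumUnits hH hT K T hr₀]; exact pow_ne_zero _ hp.out.ne_zero)
  let _ : Fintype W := Fintype.ofFinite _
  have hpick : ∀ w : {w : W // w.1 ∉ Submodule.span (ZMod p) {C.cls}},
      ∃ v : Place H, v.1 ∉ S ∧ Split C v ∧ locH1 H v.1 v.rep w.1.1 ≠ 0 := by
    rintro ⟨⟨_, x, rfl⟩, hx⟩
    exact exists_split_place K C hH hpS hα hαS x.2 hx
  choose pick hpickS hpickSplit hpickne using hpick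
  -- the property of detecting
  let P : Finset (Place H) → Prop := fun T' => (∀ v ∈ T', v.1 ∉ S ∧ Split C v) ∧
    ∀ w : W, (∀ v ∈ T', locH1 H v.1 v.rep w.1 = 0) → w.1 ∈ Submodule.span (ZMod p) {C.cls}
  have hP : ∃ n : ℕ, ∃ T' : Finset (Place H), T'.card = n ∧ P T' := by
    refine ⟨_, Finset.univ.image pick, rfl, fun v hv => ?_, fun w hw => ?_⟩
    · obtain ⟨w, -, rfl⟩ := Finset.mem_image.1 hv
      exact ⟨hpickS w, hpickSplit w⟩
    · by_contra hne
      exact hpickne ⟨w, hne⟩ (hw _ (Finset.mem_image_of_mem _ (Finset.mem_univ _)))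
  obtain ⟨T', hcardT', hgoodT', hdet⟩ := Nat.find_spec hP
  have hdelta : ∀ v ∈ T', ∃ u : fixUM H (AlgebraicClosure ℚ), u ∈ tUnits H T ∧
      locH1 H v.1 v.rep (K.kum u) ≠ 0 ∧
      ∀ w ∈ T', w ≠ v → locH1 H w.1 w.rep (K.kum u) = 0 := by
    intro v hv
    have hmin : ¬ P (T'.erase v) := fun h =>
      Nat.find_min hP (m := (T'.erase v).card)
        (by rw [← hcardT']; exact Finset.card_erase_lt_of_mem hv) ⟨_, rfl, h⟩
    simp only [P, not_and] at hmin
    have h' := hmin fun w hw => hgoodT' w (Finset.mem_of_mem_erase hw)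
    push Not at h'
    obtain ⟨⟨_, u, rfl⟩, hu, hne⟩ := h'
    exact ⟨u.1, u.2, fun h0 => hne (hdet ⟨_, u, rfl⟩ fun w hw => by
      by_cases hwv : w = v
      · subst hwv; exact h0
      · exact hu w (Finset.mem_erase.2 ⟨hwv, hw⟩)),
      fun w hw hwv => hu w (Finset.mem_erase.2 ⟨hwv, hw⟩)⟩
  refine ⟨T', hgoodT', hdelta, fun {r} hr => ?_⟩
  choose! u hu hune huoth using hdelta
  let f : (T' → ZMod p) × ZMod p → H1 (LQ.sub H) (triv H p) := fun c =>
    ∑ v : T', c.1 v • K.kum (u v.1) + c.2 • C.cls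
  have hsub : (W : Set (H1 (LQ.sub H) (triv H p))) ⊆ Set.range f := by
    rintro _ ⟨x, rfl⟩
    have hcoef : ∀ v : T', ∃ c : ZMod p,
        locH1 H v.1.1 v.1.rep (K.kum x.1) = c • locH1 H v.1.1 v.1.rep (K.kum (u v.1)) := by
      intro v
      have hvS := (hgoodT' v.1 v.2).1
      have hqp : ((v.1.1 : ℕ)) ≠ p := fun h => hvS (by
        rwa [show v.1.1 = (⟨p, hp.out⟩ : Nat.Primes) from Subtype.ext h])
      have hunit : ∀ {a : fixUM H (AlgebraicClosure ℚ)}, a ∈ tUnits H T →
          ‖(locEl H (v.1.1 : ℕ) v.1.rep a).1.val‖ = 1 := fun {a} ha =>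
        ha v.1 fun h => hvS ((mem_placesOver hH).1 h)
      simp only [locH1_kum]
      exact exists_kum_eq_smul (hloc_mem hH v.1.rep) (locKum K _ v.1.rep) hqp
        (hunit (hu v.1 v.2)) (by rw [← locH1_kum]; exact hune v.1 v.2) (hunit x.2)
    choose c hc using hcoef
    have hzero : ∀ v (hv : v ∈ T'),
        locH1 H v.1 v.rep (K.kum x.1 - ∑ w : T', c w • K.kum (u w.1)) = 0 := by
      intro v hv
      rw [map_sub, map_sum, Finset.sum_eq_single (⟨v, hv⟩ : T')
        (fun w _ hw => by rw [map_smul, huoth w.1 w.2 v hv fun h => hw (Subtype.ext h.symm),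
          smul_zero]) (fun h => absurd (Finset.mem_univ _) h), map_smul, ← hc, sub_self]
    have hmemW : K.kum x.1 - ∑ w : T', c w • K.kum (u w.1) ∈ W := by
      refine sub_mem ⟨x, rfl⟩ (sum_mem fun w _ => ?_)
      rw [← ZMod.natCast_zmod_val (c w), Nat.cast_smul_eq_nsmul]
      exact nsmul_mem (show K.kum (u w.1) ∈ W from ⟨⟨u w.1, hu w.1 w.2⟩, rfl⟩) _
    obtain ⟨c₀, hc₀⟩ := Submodule.mem_span_singleton.1 (hdet ⟨_, hmemW⟩ hzero)
    refine ⟨(c, c₀), ?_⟩
    show ∑ v : T', c v • K.kum (u v.1) + c₀ • C.cls = K.kum x.1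
    rw [hc₀, add_sub_cancel]
  have hle := Nat.card_mono (Set.finite_range f) hsub
  have h2 : Nat.card (Set.range f) ≤ p ^ (T'.card + 1) := by
    refine (Finite.card_range_le f).trans (le_of_eq ?_)
    rw [Nat.card_prod, Nat.card_fun, Nat.card_zmod, pow_succ, Nat.card_eq_fintype_card,
      Fintype.card_coe]
  have h3 : Nat.card W ≤ p ^ (T'.card + 1) := hle.trans h2
  rw [natCard_range_kumUnits hH hT K T hr] at h3
  exact (Nat.pow_le_pow_iff_right hp.out.one_lt).1 h3

end Aux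

end FA.GalCoh
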