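import Mathlib

/-!
Index identities for abelian groups: the Herbrand quotient trick.
-/

set_option autoImplicit false
set_option linter.unusedSectionVars false

namespace FA.GalCoh

variable {M M' : Type} [AddCommGroup M] [AddCommGroup M']

/-- The index is the product of the index of the images and of the kernels. -/
theorem relIndex_map_ker (f : M →+ M') {A B : AddSubgroup M} (h : B ≤ A) :
    (B.map f).relIndex (A.map f) * (B ⊓ f.ker).relIndex (A ⊓ f.ker) = B.relIndex A := by
  have hmem : ∀ x ∈ B ⊔ f.ker, x ∈ A → x ∈ B ⊔ (A ⊓ f.ker) := fun x hx hxA => by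
    obtain ⟨b, hb, k, hk, rfl⟩ := AddSubgroup.mem_sup.1 hx
    have : k ∈ A := by simpa using sub_mem hxA (h hb)
    exact AddSubgroup.mem_sup.2 ⟨b, hb, k, ⟨this, hk⟩, rfl⟩
  have h1 : (B.map f).relIndex (A.map f) = (B ⊔ (A ⊓ f.ker)).relIndex A := by
    rw [AddSubgroup.relIndex_map_map]
    have hA : A ⊔ f.ker = A ⊔ (B ⊔ f.ker) := by rw [← sup_assoc, sup_eq_left.2 h]
    rw [hA, AddSubgroup.relIndex_sup_right, ← AddSubgroup.inf_relIndex_right]
    congr 1
    refine le_antisymm (fun x hx => hmem x hx.1 hx.2) ?_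
    exact le_inf (sup_le le_sup_left (inf_le_right.trans le_sup_right))
      (sup_le h inf_le_left)
  have h2 : (B ⊓ f.ker).relIndex (A ⊓ f.ker) = B.relIndex (B ⊔ (A ⊓ f.ker)) := by
    rw [sup_comm, AddSubgroup.relIndex_sup_right, ← AddSubgroup.inf_relIndex_right B (A ⊓ f.ker)]
    congr 1
    rw [← inf_assoc, inf_eq_left.2 h]
  rw [h1, h2, mul_comm]
  exact AddSubgroup.relIndex_mul_relIndex _ _ _ le_sup_left (sup_le h inf_le_left)

/-- If the two cohomology groups of a subgroup of finite index vanish then those of the group have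
equal order. -/
theorem herbrand_eq (f g : M →+ M) {A B : AddSubgroup M} (h : B ≤ A) (hfin : B.relIndex A ≠ 0)
    (hfA : A.map f ≤ A ⊓ g.ker) (hgA : A.map g ≤ A ⊓ f.ker)
    (hfB : B.map f = B ⊓ g.ker) (hgB : B.map g = B ⊓ f.ker) :
    (A.map g).relIndex (A ⊓ f.ker) = (A.map f).relIndex (A ⊓ g.ker) ∧
      (A.map g).relIndex (A ⊓ f.ker) ≠ 0 := by
  have ef := relIndex_map_ker f h
  have eg := relIndex_map_ker g h
  rw [← hgB, ← AddSubgroup.relIndex_mul_relIndex _ _ _ (AddSubgroup.map_mono h) hgA] at ef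
  rw [← hfB, ← AddSubgroup.relIndex_mul_relIndex _ _ _ (AddSubgroup.map_mono h) hfA] at eg
  rw [← ef] at eg hfin
  simp only [mul_ne_zero_iff] at hfin
  refine ⟨Nat.eq_of_mul_eq_mul_left (Nat.pos_of_ne_zero
    (mul_ne_zero hfin.1 hfin.2.1)) ?_, hfin.2.2⟩
  linear_combination -eg

/-- An injective endomorphism has the same cokernel order on a subgroup of finite index. -/
theorem relIndex_map_eq_of_injective (f : M →+ M) (hf : Function.Injective f) {A B : AddSubgroup M}
    (h : B ≤ A) (hA : A.map f ≤ A) (hB : B.map f ≤ B) (hfin : B.relIndex A ≠ 0) :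
    (A.map f).relIndex A = (B.map f).relIndex B := by
  have e : (B.map f).relIndex (A.map f) = B.relIndex A :=
    AddSubgroup.relIndex_map_map_of_injective _ _ hf
  have h1 := AddSubgroup.relIndex_mul_relIndex _ _ _ (AddSubgroup.map_mono h) hA
  have h2 := AddSubgroup.relIndex_mul_relIndex _ _ _ hB h
  rw [e, ← h2, mul_comm] at h1
  exact Nat.eq_of_mul_eq_mul_right (Nat.pos_of_ne_zero hfin) h1

end FA.GalCoh
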