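import Fermat.Agent.GalCoh.FieldLevels
import Fermat.Agent.GalCoh.Index

/-!
Finite extensions of `ℚ_q` inside the algebraic closure: uniformisers, lattices, groups of
principal units and the method of successive approximation.
-/

set_option autoImplicit false
set_option linter.unusedSectionVars false

noncomputable section

namespace FA.GalCoh

open Filter Topology

variable {q : ℕ} [hq : Fact q.Prime]

theorem norm_q : ‖(q : PadicAlgCl q)‖ = (q : ℝ)⁻¹ := by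
  rw [← map_natCast (algebraMap ℚ_[q] (PadicAlgCl q)), norm_algebraMap', Padic.norm_p]

theorem norm_q_pos : 0 < ‖(q : PadicAlgCl q)‖ := by
  rw [norm_q]; exact inv_pos.2 (Nat.cast_pos.2 hq.out.pos)

theorem norm_q_lt_one : ‖(q : PadicAlgCl q)‖ < 1 := by
  rw [norm_q]; exact inv_lt_one_of_one_lt₀ (Nat.one_lt_cast.2 hq.out.one_lt)

theorem q_ne_zero : (q : PadicAlgCl q) ≠ 0 := norm_pos_iff.1 norm_q_pos

theorem norm_qpow (k : ℕ) : ‖(q : PadicAlgCl q) ^ k‖ = ‖(q : PadicAlgCl q)‖ ^ k := norm_pow _ _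

theorem tendsto_norm_qpow : Tendsto (fun k : ℕ => ‖(q : PadicAlgCl q)‖ ^ k) atTop (𝓝 0) :=
  tendsto_pow_atTop_nhds_zero_of_lt_one (norm_nonneg _) norm_q_lt_one

theorem norm_algEquiv (σ : PadicAlgCl q ≃ₐ[ℚ_[q]] PadicAlgCl q) (x : PadicAlgCl q) :
    ‖σ x‖ = ‖x‖ :=
  (spectralNorm_eq_of_equiv σ x).symm

theorem norm_smul_eq (σ : PadicAlgCl q ≃ₐ[ℚ_[q]] PadicAlgCl q) (x : PadicAlgCl q) :
    ‖σ • x‖ = ‖x‖ := norm_algEquiv σ x

theorem continuous_algEquiv (σ : PadicAlgCl q ≃ₐ[ℚ_[q]] PadicAlgCl q) :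
    Continuous fun x : PadicAlgCl q => σ • x :=
  AddMonoidHomClass.continuous_of_bound σ 1 fun x => by rw [norm_algEquiv, one_mul]

theorem norm_add_le_of_le {x y : PadicAlgCl q} {c : ℝ} (hx : ‖x‖ ≤ c) (hy : ‖y‖ ≤ c) :
    ‖x + y‖ ≤ c :=
  (IsUltrametricDist.norm_add_le_max x y).trans (max_le hx hy)

theorem norm_one_add {x : PadicAlgCl q} (h : ‖x‖ < 1) : ‖1 + x‖ = 1 := by
  rw [IsUltrametricDist.norm_add_eq_max_of_norm_ne_norm (by rw [norm_one]; exact h.ne'),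
    norm_one, max_eq_left h.le]

/-- The first order expansion of a power. -/
theorem norm_pow_expansion {y : PadicAlgCl q} (hy : ‖y‖ ≤ 1) (n : ℕ) :
    ‖(1 + y) ^ n - 1 - n * y‖ ≤ ‖y‖ ^ 2 := by
  induction n with
  | zero => simp
  | succ n ih =>
    have h1 : ‖(1 : PadicAlgCl q) + y‖ ≤ 1 := norm_add_le_of_le norm_one.le hy
    have e : (1 + y) ^ (n + 1) - 1 - ((n + 1 : ℕ) : PadicAlgCl q) * y
        = ((1 + y) ^ n - 1 - n * y) * (1 + y) + (n : PadicAlgCl q) * y ^ 2 := by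
      push_cast; ring
    rw [e]
    refine norm_add_le_of_le ?_ ?_
    · rw [norm_mul]
      exact (mul_le_of_le_one_right (norm_nonneg _) h1).trans ih
    · rw [norm_mul, norm_pow]
      exact mul_le_of_le_one_left (sq_nonneg _) (IsUltrametricDist.norm_natCast_le_one _ n)

variable (E : IntermediateField ℚ_[q] (PadicAlgCl q)) [FiniteDimensional ℚ_[q] E]

theorem natCast_qpow_mem (k : ℕ) : (q : PadicAlgCl q) ^ k ∈ E := pow_mem (natCast_mem E q) k

theorem norm_pow_finrank (x : PadicAlgCl q) (hx : x ∈ E) (hx0 : x ≠ 0) :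
    ∃ m : ℤ, ‖x‖ ^ (Module.finrank ℚ_[q] E) = (q : ℝ) ^ m := by
  have hint : IsIntegral ℚ_[q] x := (Algebra.IsAlgebraic.isAlgebraic x).isIntegral
  set d := (minpoly ℚ_[q] x).natDegree with hd
  have hdpos : 0 < d := minpoly.natDegree_pos hint
  have hn : ‖x‖ ^ d = ‖(minpoly ℚ_[q] x).coeff 0‖ := by
    rw [← PadicAlgCl.spectralNorm_eq, spectralNorm.spectralNorm_eq_norm_coeff_zero_rpow,
      ← hd, one_div, ← Real.rpow_natCast, ← Real.rpow_mul (norm_nonneg _),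
      inv_mul_cancel₀ (Nat.cast_ne_zero.2 hdpos.ne'), Real.rpow_one]
  have hc : (minpoly ℚ_[q] x).coeff 0 ≠ 0 := minpoly.coeff_zero_ne_zero hint hx0
  have hdvd : d ∣ Module.finrank ℚ_[q] E := by
    have he : minpoly ℚ_[q] x = minpoly ℚ_[q] (⟨x, hx⟩ : E) :=
      minpoly.algebraMap_eq (algebraMap E (PadicAlgCl q)).injective (⟨x, hx⟩ : E)
    rw [hd, he]
    exact minpoly.degree_dvd (IsIntegral.of_finite ℚ_[q] _)
  obtain ⟨c, hc'⟩ := hdvd
  refine ⟨-((minpoly ℚ_[q] x).coeff 0).valuation * c, ?_⟩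
  rw [hc', pow_mul, hn, Padic.norm_eq_zpow_neg_valuation hc, ← zpow_natCast, ← zpow_mul]

theorem exists_uniformizer : ∃ π ∈ E, 0 < ‖π‖ ∧ ‖π‖ < 1 ∧
    ∀ x ∈ E, x ≠ 0 → ∃ n : ℤ, ‖x‖ = ‖π‖ ^ n := by
  classical
  set d := Module.finrank ℚ_[q] E
  have hd : 0 < d := Module.finrank_pos
  have hq1 : (1 : ℝ) < q := Nat.one_lt_cast.2 hq.out.one_lt
  let S : AddSubgroup ℤ :=
    { carrier := {m | ∃ x ∈ E, x ≠ 0 ∧ ‖x‖ ^ d = (q : ℝ) ^ m}
      zero_mem' := ⟨1, one_mem E, one_ne_zero, by simp⟩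
      add_mem' := by
        rintro m m' ⟨x, hx, hx0, h⟩ ⟨y, hy, hy0, h'⟩
        exact ⟨x * y, mul_mem hx hy, mul_ne_zero hx0 hy0, by
          rw [norm_mul, mul_pow, h, h', ← zpow_add₀ (by positivity)]⟩
      neg_mem' := by
        rintro m ⟨x, hx, hx0, h⟩
        exact ⟨x⁻¹, inv_mem hx, inv_ne_zero hx0, by rw [norm_inv, inv_pow, h, zpow_neg]⟩ }
  obtain ⟨g, hg⟩ := Int.subgroup_cyclic S
  have hqS : -(d : ℤ) ∈ S := ⟨q, natCast_mem E q, q_ne_zero, by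
    rw [norm_q, inv_pow, zpow_neg, zpow_natCast]⟩
  have hg0 : g ≠ 0 := by
    rintro rfl
    rw [hg, AddSubgroup.mem_closure_singleton] at hqS
    obtain ⟨n, hn⟩ := hqS
    simp at hn
    omega
  have hgS : g ∈ S := hg ▸ AddSubgroup.mem_closure_singleton_self g
  have hneg : -|g| ∈ S := by
    rcases abs_choice g with h | h <;> rw [h]
    · exact S.neg_mem hgS
    · rw [neg_neg]; exact hgS
  obtain ⟨π, hπ, hπ0, hπn⟩ := hneg
  have hlt : ‖π‖ < 1 := by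
    by_contra! hge
    have := one_le_pow₀ (n := d) hge
    rw [hπn] at this
    exact absurd this (not_le.2 (zpow_lt_one_of_neg₀ hq1 (by have := abs_pos.2 hg0; omega)))
  refine ⟨π, hπ, norm_pos_iff.2 hπ0, hlt, fun x hx hx0 => ?_⟩
  obtain ⟨m, hm⟩ := norm_pow_finrank E x hx hx0
  have hmS : m ∈ S := ⟨x, hx, hx0, hm⟩
  rw [hg, AddSubgroup.mem_closure_singleton] at hmS
  obtain ⟨n, hn⟩ := hmS
  obtain ⟨n', hn'⟩ : ∃ n' : ℤ, m = -|g| * n' := by
    rcases abs_choice g with h | h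
    · exact ⟨-n, by rw [h, ← hn, smul_eq_mul]; ring⟩
    · exact ⟨n, by rw [h, ← hn, smul_eq_mul]; ring⟩
  refine ⟨n', ?_⟩
  refine (pow_left_inj₀ (norm_nonneg _) (zpow_nonneg (norm_nonneg _) _) hd.ne').1 ?_
  rw [hm, hn', zpow_mul, ← hπn, ← zpow_natCast, ← zpow_natCast, ← zpow_mul, ← zpow_mul,
    mul_comm]

theorem isCompact_ballIn (c : PadicAlgCl q) (hc : c ∈ E) (r : ℝ) :
    IsCompact {x : PadicAlgCl q | x ∈ E ∧ ‖x - c‖ ≤ r} := by
  let V := Subalgebra.toSubmodule E.toSubalgebra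
  have : FiniteDimensional ℚ_[q] V := inferInstanceAs (FiniteDimensional ℚ_[q] E)
  have : ProperSpace V := FiniteDimensional.proper ℚ_[q] V
  have he : {x : PadicAlgCl q | x ∈ E ∧ ‖x - c‖ ≤ r}
      = Subtype.val '' Metric.closedBall (⟨c, hc⟩ : V) r := by
    ext x
    constructor
    · exact fun h => ⟨⟨x, h.1⟩, by rw [Metric.mem_closedBall, dist_eq_norm]; exact h.2, rfl⟩
    · rintro ⟨y, hy, rfl⟩
      rw [Metric.mem_closedBall, dist_eq_norm] at hy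
      exact ⟨y.2, hy⟩
  rw [he]
  exact (isCompact_closedBall _ _).image continuous_subtype_val

/-- An additive subgroup of integral elements of `E` containing a ball. -/
structure Lat (E : IntermediateField ℚ_[q] (PadicAlgCl q)) where
  /-- The carrier. -/
  carrier : AddSubgroup (PadicAlgCl q)
  le_field : ∀ x ∈ carrier, x ∈ E
  le_one : ∀ x ∈ carrier, ‖x‖ ≤ 1
  /-- The radius exponent. -/
  a : ℕ
  ball : ∀ x ∈ E, ‖x‖ ≤ ‖(q : PadicAlgCl q)‖ ^ a → x ∈ carrier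

namespace Lat

variable {E} (Λ : Lat E)

/-- The multiples of the lattice by a power of `q`. -/
def lvl (k : ℕ) : AddSubgroup (PadicAlgCl q) :=
  Λ.carrier.map (AddMonoidHom.mulLeft ((q : PadicAlgCl q) ^ k))

theorem mem_lvl {k : ℕ} {x : PadicAlgCl q} :
    x ∈ Λ.lvl k ↔ x / (q : PadicAlgCl q) ^ k ∈ Λ.carrier := by
  constructor
  · rintro ⟨y, hy, rfl⟩
    show (q : PadicAlgCl q) ^ k * y / _ ∈ _
    rwa [mul_div_cancel_left₀ _ (pow_ne_zero k q_ne_zero)]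
  · exact fun h => ⟨_, h, mul_div_cancel₀ _ (pow_ne_zero k q_ne_zero)⟩

theorem norm_le_of_mem_lvl {k : ℕ} {x : PadicAlgCl q} (h : x ∈ Λ.lvl k) :
    ‖x‖ ≤ ‖(q : PadicAlgCl q)‖ ^ k := by
  have := Λ.le_one _ (Λ.mem_lvl.1 h)
  rwa [norm_div, norm_qpow, div_le_one (pow_pos norm_q_pos k)] at this

theorem mem_field_of_mem_lvl {k : ℕ} {x : PadicAlgCl q} (h : x ∈ Λ.lvl k) : x ∈ E := by
  have := mul_mem (natCast_qpow_mem E k) (Λ.le_field _ (Λ.mem_lvl.1 h))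
  rwa [mul_div_cancel₀ _ (pow_ne_zero k q_ne_zero)] at this

theorem mem_lvl_of_norm {k : ℕ} {x : PadicAlgCl q} (hx : x ∈ E)
    (h : ‖x‖ ≤ ‖(q : PadicAlgCl q)‖ ^ (k + Λ.a)) : x ∈ Λ.lvl k := by
  refine Λ.mem_lvl.2 (Λ.ball _ (div_mem hx (natCast_qpow_mem E k)) ?_)
  rw [norm_div, norm_qpow, div_le_iff₀ (pow_pos norm_q_pos k), ← pow_add, add_comm]
  exact h

theorem mem_lvl_of_norm' {k m : ℕ} {x : PadicAlgCl q} (hx : x ∈ E)
    (h : ‖x‖ ≤ ‖(q : PadicAlgCl q)‖ ^ m) (hm : k + Λ.a ≤ m) : x ∈ Λ.lvl k :=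
  Λ.mem_lvl_of_norm hx (h.trans (pow_le_pow_of_le_one (norm_nonneg _) norm_q_lt_one.le hm))

theorem lvl_succ_le (k : ℕ) : Λ.lvl (k + 1) ≤ Λ.lvl k := fun x hx => by
  rw [mem_lvl] at hx ⊢
  have := nsmul_mem hx q
  rwa [nsmul_eq_mul, pow_succ, ← mul_div_assoc, mul_comm (_ ^ k) (q : PadicAlgCl q),
    mul_div_mul_left _ _ q_ne_zero] at this

theorem lvl_antitone : Antitone Λ.lvl := antitone_nat_of_succ_le Λ.lvl_succ_le

end Lat

variable {E}

/-- Principal units attached to a lattice. -/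
def unitLvl (Λ : Lat E) (k : ℕ) (hk : Λ.a + 1 ≤ k) : AddSubgroup (UM (PadicAlgCl q)) where
  carrier := {m | m.val - 1 ∈ Λ.lvl k}
  zero_mem' := by
    show (0 : UM (PadicAlgCl q)).val - 1 ∈ Λ.lvl k
    rw [UM.val_zero, sub_self]; exact zero_mem _
  add_mem' {m m'} h h' := by
    show (m + m').val - 1 ∈ Λ.lvl k
    rw [UM.val_add, show m.val * m'.val - 1
      = (m.val - 1) + (m'.val - 1) + (m.val - 1) * (m'.val - 1) by ring]
    refine add_mem (add_mem h h') (Λ.mem_lvl_of_norm' (m := k + k)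
      (mul_mem (Λ.mem_field_of_mem_lvl h) (Λ.mem_field_of_mem_lvl h')) ?_ (by omega))
    rw [norm_mul, pow_add]
    exact mul_le_mul (Λ.norm_le_of_mem_lvl h) (Λ.norm_le_of_mem_lvl h') (norm_nonneg _)
      (pow_nonneg (norm_nonneg _) _)
  neg_mem' {m} h := by
    show (-m).val - 1 ∈ Λ.lvl k
    have hE : m.val ∈ E := by simpa using add_mem (Λ.mem_field_of_mem_lvl h) (one_mem E)
    have hn := Λ.norm_le_of_mem_lvl h
    have hn1 : ‖m.val‖ = 1 := by
      have := norm_one_add (lt_of_le_of_lt hn (pow_lt_one₀ (norm_nonneg _) norm_q_lt_one (by omega)))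
      rwa [add_sub_cancel] at this
    rw [UM.val_neg, show (m.val)⁻¹ - 1 = -(m.val - 1) + (m.val - 1) ^ 2 * (m.val)⁻¹ by
      field_simp [m.val_ne_zero]; ring]
    refine add_mem (neg_mem h) (Λ.mem_lvl_of_norm' (m := k + k)
      (mul_mem (pow_mem (Λ.mem_field_of_mem_lvl h) 2) (inv_mem hE)) ?_ (by omega))
    rw [norm_mul, norm_pow, norm_inv, hn1, inv_one, mul_one, sq, pow_add]
    exact mul_le_mul hn hn (norm_nonneg _) (pow_nonneg (norm_nonneg _) _)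

theorem mem_unitLvl {Λ : Lat E} {k : ℕ} {hk : Λ.a + 1 ≤ k} {m : UM (PadicAlgCl q)} :
    m ∈ unitLvl Λ k hk ↔ m.val - 1 ∈ Λ.lvl k := Iff.rfl

theorem norm_of_mem_unitLvl {Λ : Lat E} {k : ℕ} {hk : Λ.a + 1 ≤ k} {m : UM (PadicAlgCl q)}
    (h : m ∈ unitLvl Λ k hk) : ‖m.val‖ = 1 ∧ m.val ∈ E := by
  refine ⟨?_, by simpa using add_mem (Λ.mem_field_of_mem_lvl h) (one_mem E)⟩
  have := norm_one_add (lt_of_le_of_lt (Λ.norm_le_of_mem_lvl h)
    (pow_lt_one₀ (norm_nonneg _) norm_q_lt_one (by omega)))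
  rwa [add_sub_cancel] at this

/-- Successive approximation. -/
theorem unitLvl_le_map {Λ : Lat E} {k : ℕ} (hk : Λ.a + 1 ≤ k) (f : UM (PadicAlgCl q) →+ UM (PadicAlgCl q))
    (g : PadicAlgCl q → PadicAlgCl q) (hg : ∀ m, (f m).val = g m.val)
    (hgc : ∀ x, x ≠ 0 → ContinuousAt g x)
    (P : AddSubgroup (UM (PadicAlgCl q))) (j0 : ℕ) (hj0 : Λ.a + 1 ≤ j0)
    (hP : ∀ v ∈ unitLvl Λ k hk, f v ∈ P)
    (step : ∀ j (hj : j0 ≤ j), ∀ u ∈ unitLvl Λ j (hj0.trans hj), u ∈ P →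
      ∃ v ∈ unitLvl Λ k hk, u - f v ∈ unitLvl Λ (j + 1) ((hj0.trans hj).trans (Nat.le_succ j))) :
    unitLvl Λ j0 hj0 ⊓ P ≤ (unitLvl Λ k hk).map f := by
  rintro u ⟨hu, huP⟩
  have key : ∀ m, ∃ v ∈ unitLvl Λ k hk,
      u - f v ∈ unitLvl Λ (j0 + m) (hj0.trans (Nat.le_add_right _ _)) := by
    intro m
    induction m with
    | zero => exact ⟨0, zero_mem _, by simpa using hu⟩
    | succ m ih =>
      obtain ⟨v, hv, hd⟩ := ih
      obtain ⟨w, hw, hw'⟩ := step (j0 + m) (Nat.le_add_right _ _) _ hd (sub_mem huP (hP v hv))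
      refine ⟨v + w, add_mem hv hw, ?_⟩
      rw [map_add, ← sub_sub]
      exact hw'
  choose v hv hd using key
  -- the set of values is compact
  have hK : IsCompact (closure {x : PadicAlgCl q | x - 1 ∈ Λ.lvl k}) := by
    refine (isCompact_ballIn E 1 (one_mem E) 1).of_isClosed_subset isClosed_closure
      (closure_minimal (fun x hx => ⟨?_, ?_⟩) (isCompact_ballIn E 1 (one_mem E) 1).isClosed)
    · simpa using add_mem (Λ.mem_field_of_mem_lvl hx) (one_mem E)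
    · exact (Λ.norm_le_of_mem_lvl hx).trans (pow_le_one₀ (norm_nonneg _) norm_q_lt_one.le)
  obtain ⟨x, hx, φ, hφ, hlim⟩ := hK.tendsto_subseq (x := fun m => (v m).val)
    fun m => subset_closure (hv m)
  have hxL : x - 1 ∈ Λ.lvl k := by
    obtain ⟨y, hy, hxy⟩ := Metric.mem_closure_iff.1 hx _ (pow_pos (norm_q_pos (q := q)) (k + Λ.a))
    rw [dist_eq_norm] at hxy
    have hxE : x ∈ E := ((isCompact_ballIn E 1 (one_mem E) 1).isClosed.mem_of_tendsto hlim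
      (Eventually.of_forall fun m => show _ ∈ E ∧ _ from
        ⟨(norm_of_mem_unitLvl (hv (φ m))).2, (Λ.norm_le_of_mem_lvl (hv (φ m))).trans
          (pow_le_one₀ (norm_nonneg _) norm_q_lt_one.le)⟩)).1
    have hyE : y ∈ E := by simpa using add_mem (Λ.mem_field_of_mem_lvl hy) (one_mem E)
    have : x - 1 = (x - y) + (y - 1) := by ring
    rw [this]
    exact add_mem (Λ.mem_lvl_of_norm (sub_mem hxE hyE) hxy.le) hy
  have hx1 : ‖x - 1‖ < 1 :=
    lt_of_le_of_lt (Λ.norm_le_of_mem_lvl hxL) (pow_lt_one₀ (norm_nonneg _) norm_q_lt_one (by omega))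
  have hx0 : x ≠ 0 := fun h => by rw [h, zero_sub, norm_neg, norm_one] at hx1; exact lt_irrefl _ hx1
  refine ⟨UM.mk x hx0, hxL, UM.ext ?_⟩
  rw [hg, UM.val_mk]
  refine tendsto_nhds_unique ((hgc x hx0).tendsto.comp hlim) ?_
  refine tendsto_iff_norm_sub_tendsto_zero.2 (squeeze_zero (fun m => norm_nonneg _) (fun m => ?_)
    ((tendsto_norm_qpow (q := q)).comp hφ.tendsto_atTop))
  have hm := hd (φ m)
  set w := u - f (v (φ m)) with hw
  have hwn := norm_of_mem_unitLvl hm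
  have hun := norm_of_mem_unitLvl hu
  have hval : w.val = u.val / g (v (φ m)).val := by rw [hw, UM.val_sub, hg]
  have hg0 : g (v (φ m)).val ≠ 0 := by rw [← hg]; exact UM.val_ne_zero _
  have hgn : ‖g (v (φ m)).val‖ = 1 := by
    have := hwn.1
    rw [hval, norm_div, hun.1, one_div, inv_eq_one] at this
    exact this
  show ‖g (v (φ m)).val - u.val‖ ≤ _
  rw [norm_sub_rev, show u.val - g (v (φ m)).val = (w.val - 1) * g (v (φ m)).val by
    rw [hval, sub_mul, one_mul, div_mul_cancel₀ _ hg0], norm_mul, hgn, mul_one]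
  exact (Λ.norm_le_of_mem_lvl hm).trans
    (pow_le_pow_of_le_one (norm_nonneg _) norm_q_lt_one.le (Nat.le_add_left _ _))

end FA.GalCoh
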