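import Fermat.Agent.GalCoh.HasseH2
import Fermat.Agent.GalCoh.CycloGlobal

/-!
Conjugation of cochains, localisation of classes of global representations, and the permutation
modules of fields: trivial classes at all places are trivial.
-/

set_option autoImplicit false
set_option linter.unusedSectionVars false

noncomputable section

namespace FA.GalCoh

open Representation
open scoped Pointwise

section Conj

variable {G : Type} [Group G] {L : Levels G} {k : Type} [Field k]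
variable {V : Type} [AddCommGroup V] [Module k V] {ρ : Representation k G V}

/-- The homotopy between a two-cocycle and its conjugate. -/
def conjHty (c : G) (Z : G × G → V) (a : G) : V := Z (a, c) - Z (c, c⁻¹ * a * c)

theorem conjHty_lc (c : G) {Z : G × G → V} (hZ : LC₂ L Z) : LC₁ L (conjHty c Z) := by
  obtain ⟨N, hN, h⟩ := hZ
  obtain ⟨N', hN', hle, hn⟩ := L.exists_normal hN
  refine ⟨N', hN', fun a s hs => ?_⟩
  have e1 := h a c s 1 (hle hs) (one_mem _)
  have e2 := h c (c⁻¹ * a * c) 1 (c⁻¹ * s * c) (one_mem _) (hle (hn.conj_mem' s hs c))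
  rw [mul_one] at e1 e2
  rw [show c⁻¹ * a * c * (c⁻¹ * s * c) = c⁻¹ * (a * s) * c by group] at e2
  rw [conjHty, conjHty, e1, e2]

theorem d1_conjHty (c : G) (Z : ↥(Z2 L ρ)) (a b : G) :
    d1 ρ (conjHty c Z.1) (a, b)
      = Z.1 (a, b) - ρ c (Z.1 (c⁻¹ * a * c, c⁻¹ * b * c)) := by
  have e1 := Z.2.2 a b c
  have e2 := Z.2.2 a c (c⁻¹ * b * c)
  have e3 := Z.2.2 c (c⁻¹ * a * c) (c⁻¹ * b * c)
  rw [show c * (c⁻¹ * b * c) = b * c by group] at e2
  rw [show c * (c⁻¹ * a * c) = a * c by group,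
    show c⁻¹ * a * c * (c⁻¹ * b * c) = c⁻¹ * (a * b) * c by group] at e3
  simp only [d1_apply, conjHty, map_sub]
  linear_combination (norm := abel) -e1 + e2 - e3

end Conj

section Res

variable {k : Type} [Field k] {V : Type} [AddCommGroup V] [Module k V]

/-- Localisation of first cohomology at a prime. -/
abbrev resq1 (q : ℕ) [Fact q.Prime] (ρ : Representation k GQ V) :
    H1 LQ ρ →ₗ[k] H1 (LL q) (ρ.comp (loc q)) :=
  map1 compat_loc (Equi.res (loc q) ρ)

/-- Localisation of second cohomology at a prime. -/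
abbrev resq2 (q : ℕ) [Fact q.Prime] (ρ : Representation k GQ V) :
    H2 LQ ρ →ₗ[k] H2 (LL q) (ρ.comp (loc q)) :=
  map2 compat_loc (Equi.res (loc q) ρ)

end Res

/-- A character which is trivial on almost all local subgroups is trivial. -/
theorem eq_zero_of_locH1 {p : ℕ} [Fact p.Prime] {H : Subgroup GQ} (hH : H ∈ LQ.carrier)
    (S : Finset Nat.Primes) {x : H1 (LQ.sub H) (triv H p)}
    (hx : ∀ q : Nat.Primes, q ∉ S → ∀ g : GQ, locH1 H q g x = 0) : x = 0 := by
  classical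
  obtain ⟨f, rfl⟩ := mk1_surjective x
  refine (congrArg (mk1 _ (triv H p)) (Subtype.ext (funext fun g => ?_))).trans (map_zero _)
  show f.1 g = 0
  obtain ⟨_, ⟨N₁, hN₁, rfl⟩, hf⟩ := f.2.1
  obtain ⟨N, hN, hle, hn⟩ := LQ.exists_normal (LQ.inf_mem hN₁ hH)
  have hadd : ∀ a b : H, f.1 (a * b) = f.1 a + f.1 b := fun a b => by
    rw [f.2.2 a b, add_comm]; rfl
  have hzero : ∀ n : H, (n : GQ) ∈ N → f.1 n = 0 := fun n hn' => by
    have := hf 1 n (hle hn').1
    rwa [one_mul, Z1.map_one (ρ := triv H p) f] at this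
  obtain ⟨q, A, σ, k, hq, hqS, hA, hσ, hk, j, hj⟩ := FA.Density.exists_frobenius_generating N
    (isOpen_of_mem_LQ hN) (g : GQ) (S.image fun q : Nat.Primes => (q : ℕ))
  have : Fact q.Prime := ⟨hq⟩
  have hσH : σ ∈ H := by
    have := mul_mem (pow_mem g.2 j) ((hle hj).2)
    rwa [mul_inv_cancel_left] at this
  obtain ⟨τ, hτ⟩ := FA.TW.exists_smul_eq_of_liesOver hq (A := padicPlace q) (B := A)
    (liesOverPrime_padicPlace q) hA
  have hd : τ⁻¹ * σ * τ ∈ (padicPlace q).decompositionSubgroup ℚ := by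
    have h1 : σ • A = A := MulAction.mem_stabilizer_iff.1 hσ.mem_decompositionSubgroup
    rw [MulAction.mem_stabilizer_iff, mul_smul, mul_smul, hτ, h1, ← hτ, inv_smul_smul]
  rw [← range_loc] at hd
  obtain ⟨t, ht⟩ := hd
  have htσ : (τ⁻¹)⁻¹ * loc q t * τ⁻¹ = σ := by rw [ht]; group
  have hmem : t ∈ hloc H q τ⁻¹ := (mem_hloc H).2 (by rw [htσ]; exact hσH)
  have h0 := hx ⟨q, hq⟩ (fun h => hqS (Finset.mem_image.2 ⟨_, h, rfl⟩)) τ⁻¹
  have hs : f.1 ⟨σ, hσH⟩ = 0 := by
    have h := congrFun (congrArg Subtype.val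
      (mk1_triv_injective (h0.trans (map_zero _).symm))) ⟨t, hmem⟩
    rwa [← show locTo H q τ⁻¹ ⟨t, hmem⟩ = ⟨σ, hσH⟩ from Subtype.ext htσ]
  have hpow : ∀ n : ℕ, f.1 (⟨σ, hσH⟩ ^ n) = 0 := fun n => by
    induction n with
    | zero => exact Z1.map_one (ρ := triv H p) f
    | succ n ih => rw [pow_succ, hadd, ih, hs, add_zero]
  rw [← mul_inv_cancel_left (⟨σ, hσH⟩ ^ k : H) g, hadd, hpow, zero_add]
  exact hzero _ hk

namespace Trans

variable {p : ℕ} [hp : Fact p.Prime] {X : Type} [Fintype X] [MulAction GQ X] (T : Trans LQ X)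

theorem mem_LQ : T.H ∈ LQ.carrier := by
  obtain ⟨N, ⟨E, hE, hle⟩, h⟩ := T.trivial
  exact ⟨E, hE, fun s hs => MulAction.mem_stabilizer_iff.2 (h s (hle hs) T.x0)⟩

theorem coind_triv_x0 (g : GQ) (hg : g ∈ T.H) (f : X → ZMod p) :
    T.coind (triv T.H p) g f T.x0 = f T.x0 := by
  show f (g⁻¹ • T.x0) = f T.x0
  rw [MulAction.mem_stabilizer_iff.1 (inv_mem hg)]

theorem coind_triv_conj {q : ℕ} [Fact q.Prime] (g : GQ) (τ : hloc T.H q g) (f : X → ZMod p) :
    T.coind (triv T.H p) g⁻¹ (T.coind (triv T.H p) (loc q τ) f) T.x0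
      = T.coind (triv T.H p) g⁻¹ f T.x0 := by
  rw [← Module.End.mul_apply, ← map_mul,
    show g⁻¹ * loc q τ = (g⁻¹ * loc q τ * g) * g⁻¹ by group, map_mul, Module.End.mul_apply,
    T.coind_triv_x0 _ ((mem_hloc _).1 τ.2)]

/-- Shapiro's map is compatible with localisation in degree one. -/
theorem locH1_sh1 (q : ℕ) [Fact q.Prime] (g : GQ) {x : H1 LQ (T.coind (triv T.H p))}
    (hx : resq1 q (T.coind (triv T.H p)) x = 0) : locH1 T.H q g (T.sh1 (triv T.H p) x) = 0 := by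
  obtain ⟨f, rfl⟩ := mk1_surjective x
  obtain ⟨v, hv⟩ := (mk1_eq_zero _ _ _).1 hx
  refine (mk1_eq_zero _ _ _).2 ⟨0, funext fun τ => ?_⟩
  show (0 : ZMod p) - 0 = f.1 (g⁻¹ * loc q τ * g) T.x0
  have hv' : T.coind (triv T.H p) (loc q τ) v - v = f.1 (loc q τ) := congrFun hv τ
  rw [f.2.2 (g⁻¹ * loc q τ) g, f.2.2 g⁻¹ (loc q τ), map_mul, Module.End.mul_apply,
    eq_neg_of_add_eq_zero_right (by rw [← f.2.2 g⁻¹ g, inv_mul_cancel, Z1.map_one] :
      T.coind (triv T.H p) g⁻¹ (f.1 g) + f.1 g⁻¹ = 0), ← hv', map_sub, Pi.add_apply, Pi.add_apply,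
    Pi.neg_apply, Pi.sub_apply, T.coind_triv_conj, T.coind_triv_conj]
  ring

/-- Shapiro's map is compatible with localisation in degree two. -/
theorem locH2_sh2 (q : ℕ) [Fact q.Prime] (g : GQ) {z : H2 LQ (T.coind (triv T.H p))}
    (hz : resq2 q (T.coind (triv T.H p)) z = 0) : locH2 T.H q g (T.sh2 (triv T.H p) z) = 0 := by
  obtain ⟨Z, rfl⟩ := mk2_surjective z
  obtain ⟨v, hv, hdv⟩ := (mk2_eq_zero _ _ _).1 hz
  have hw : LC₁ (LL q) fun τ : LG q => v τ - conjHty g Z.1 (loc q τ) :=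
    hv.map₂ ((conjHty_lc g Z.2.1).precomp compat_loc) (· - ·)
  refine (mk2_eq_zero _ _ _).2
    ⟨fun τ => T.coind (triv T.H p) g⁻¹ (v τ - conjHty g Z.1 (loc q τ)) T.x0,
      (hw.precomp ((LL q).sub_compat _)).comp fun f => T.coind (triv T.H p) g⁻¹ f T.x0,
      funext fun ⟨τ, τ'⟩ => ?_⟩
  show _ - _ + _ = Z.1 (g⁻¹ * loc q τ * g, g⁻¹ * loc q τ' * g) T.x0
  have h1 := d1_conjHty g Z (loc q τ) (loc q τ')
  have h2 : d1 _ v ((τ : LG q), (τ' : LG q)) = Z.1 (loc q τ, loc q τ') :=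
    congrFun hdv ((τ : LG q), (τ' : LG q))
  rw [← h2, d1_apply, d1_apply] at h1
  have h3 : T.coind (triv T.H p) g (Z.1 (g⁻¹ * loc q τ * g, g⁻¹ * loc q τ' * g))
      = T.coind (triv T.H p) (loc q τ) (v τ' - conjHty g Z.1 (loc q τ'))
        - (v ((τ * τ' : hloc T.H q g) : LG q) - conjHty g Z.1 (loc q (τ * τ')))
        + (v τ - conjHty g Z.1 (loc q τ)) := by
    rw [Subgroup.coe_mul, map_mul, (T.coind (triv T.H p) (loc q τ)).map_sub]
    change T.coind (triv T.H p) (loc q τ) _ - _ + _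
      = (T.coind (triv T.H p) (loc q τ) _ - _ + _) - _ at h1
    linear_combination (norm := abel) h1
  have h4 := congrArg (fun f => T.coind (triv T.H p) g⁻¹ f T.x0) h3
  simp only [Representation.inv_self_apply, map_add, map_sub, Pi.add_apply, Pi.sub_apply,
    T.coind_triv_conj] at h4
  rw [h4]
  simp only [map_sub, Pi.sub_apply, triv]
  rfl

/-- A class of a permutation module which is trivial at almost all primes is trivial. -/
theorem eq_zero_of_resq1 (S : Finset Nat.Primes) {x : H1 LQ (T.coind (triv T.H p))}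
    (hx : ∀ q : Nat.Primes, q ∉ S → resq1 (q : ℕ) (T.coind (triv T.H p)) x = 0) : x = 0 :=
  T.sh1_injective (σ := triv T.H p) ((eq_zero_of_locH1 T.mem_LQ S fun q hq g =>
    T.locH1_sh1 q g (hx q hq)).trans (map_zero _).symm)

/-- The Hasse principle for permutation modules of totally imaginary fields with the roots. -/
theorem eq_zero_of_resq2 (hT : TC T.H) (hμ : ∀ s ∈ T.H, ExtCitation.cycloChar p s = 1)
    {z : H2 LQ (T.coind (triv T.H p))} (hz : ∀ q : Nat.Primes, resq2 (q : ℕ) (T.coind (triv T.H p)) z = 0) : z = 0 :=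
  T.sh2_injective (σ := triv T.H p) ((hasse_H2 T.mem_LQ hT ((cycQ p).kumData T.H hμ)
    fun q _ g => T.locH2_sh2 q g (hz ⟨q, Fact.out⟩)).trans (map_zero _).symm)

end Trans

end FA.GalCoh
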