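import Fermat.Agent.GalCoh.UnrCoh
import Fermat.Agent.GalCoh.PermModule

/-!
Almost everywhere a finite module is unramified and a class of degree two is trivial.
-/

set_option autoImplicit false
set_option linter.unusedSectionVars false

noncomputable section

namespace FA.GalCoh

open IntermediateField NumberField
open scoped Pointwise

/-- For a level, almost all inertia groups are inside. -/
theorem exists_inertL_subset {N : Subgroup GQ} (hN : N ∈ LQ.carrier) :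
    ∃ S : Finset Nat.Primes, ∀ q : Nat.Primes, q ∉ S → ∀ ι ∈ inertL (q : ℕ),
      loc (q : ℕ) ι ∈ N := by
  classical
  obtain ⟨M, hM, hle, hn⟩ := LQ.exists_normal hN
  set F := fixedField M
  have := finiteDimensional_fixedField hM
  have : NumberField F := { }
  have hFn : F.fixingSubgroup.Normal := by
    rw [fixingSubgroup_fixedField_LQ hM]; exact hn
  have : IsGalois ℚ F := (InfiniteGalois.normal_iff_isGalois F).mp hFn
  obtain ⟨m, hm, hunr⟩ := FA.Density.exists_unramified F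
  refine ⟨(m.divisors.filter Nat.Prime).attach.image fun x => ⟨x.1, (Finset.mem_filter.1 x.2).2⟩,
    fun q hq ι hι => hle ?_⟩
  have hqm : ¬ (q : ℕ) ∣ m := fun hd => hq (Finset.mem_image.2
    ⟨⟨q.1, Finset.mem_filter.2 ⟨Nat.mem_divisors.2 ⟨hd, hm⟩, q.2⟩⟩, Finset.mem_attach _ _, rfl⟩)
  let σ : F ≃ₐ[ℚ] F := AlgEquiv.restrictNormalHom F (loc (q : ℕ) ι)
  have hval : ∀ z : F, ((σ z : F) : AlgebraicClosure ℚ) = loc (q : ℕ) ι z := fun z =>
    AlgEquiv.restrictNormal_commutes (loc (q : ℕ) ι) F z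
  have hσ : σ = 1 := hunr q _ q.2 inferInstance (natCast_mem_pid F q 1) hqm σ fun y => by
    rw [mem_pid]
    show ‖emb (q : ℕ) 1 ((σ (y : F) : AlgebraicClosure ℚ) - ((y : F) : AlgebraicClosure ℚ))‖ < 1
    rw [hval, emb_apply, AlgEquiv.one_apply, map_sub, iota_loc]
    exact sub_lt_of_mem_inertL hι (norm_emb_le_one_of_isIntegral 1 (isIntegral_ringOfIntegers F y))
  rw [← fixingSubgroup_fixedField_LQ hM, IntermediateField.mem_fixingSubgroup_iff]
  intro z hz
  rw [← hval ⟨z, hz⟩, hσ]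
  rfl

variable {p : ℕ} [hp : Fact p.Prime] {V : Type} [AddCommGroup V] [Module (ZMod p) V]
variable {ρ : Representation (ZMod p) GQ V}

theorem smooth_resq (hs : Smooth LQ ρ) (q : ℕ) [Fact q.Prime] : Smooth (LL q) (ρ.comp (loc q)) :=
  hs.comp compat_loc

/-- A module is unramified at almost all primes. -/
theorem exists_unrRep (hs : Smooth LQ ρ) : ∃ S : Finset Nat.Primes,
    ∀ q : Nat.Primes, q ∉ S → UnrRep (ρ.comp (loc (q : ℕ))) := by
  obtain ⟨N, hN, h⟩ := hs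
  obtain ⟨S, hS⟩ := exists_inertL_subset hN
  exact ⟨S, fun q hq ι hι => h _ (hS q hq ι hι)⟩

/-- A class of degree two is trivial at almost all primes. -/
theorem exists_finset_resq2 (hs : Smooth LQ ρ) (z : H2 LQ ρ) :
    ∃ S : Finset Nat.Primes, ∀ q : Nat.Primes, q ∉ S → resq2 (q : ℕ) ρ z = 0 := by
  obtain ⟨Z, rfl⟩ := mk2_surjective z
  obtain ⟨N₁, hN₁, hZ⟩ := Z.2.1
  obtain ⟨N₂, hN₂, hρ⟩ := id hs
  obtain ⟨N, hN, hle, hn⟩ := LQ.exists_normal (LQ.inf_mem hN₁ hN₂)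
  obtain ⟨S, hS⟩ := exists_inertL_subset hN
  refine ⟨S, fun q hq => ?_⟩
  set M := N.comap (loc (q : ℕ))
  have hM : M ∈ (LL (q : ℕ)).carrier := by
    obtain ⟨M', ⟨E, hE, hle'⟩, h⟩ := compat_loc (q := (q : ℕ)) _ hN
    exact ⟨E, hE, hle'.trans h⟩
  obtain ⟨n, hn0, hnM⟩ := exists_frobL_pow_mem hM
  have : NeZero n := ⟨hn0.ne'⟩
  have hu : UnrRep (ρ.comp (loc (q : ℕ))) := fun ι hι => hρ _ (hle (hS q hq ι hι)).2
  refine mk2_eq_zero_of_unr hu (smooth_resq hs q) _ (N := n) fun g h g' h' hg hh => ?_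
  have key : ∀ a a' : LG (q : ℕ), frobExp n a = frobExp n a' → loc (q : ℕ) (a'⁻¹ * a) ∈ N := by
    intro a a' e
    obtain ⟨R, hR, hR1⟩ := frobExp_lc (q := (q : ℕ)) n
    have hdec : ∀ b : LG (q : ℕ), ∃ x ∈ M, b = frobL (q : ℕ) ^ (frobExp n b).val * x := by
      intro b
      obtain ⟨i, ι, hι, m, hm, rfl⟩ := exists_frobL_decomp ((LL (q : ℕ)).inf_mem hM hR) b
      refine ⟨(frobL (q : ℕ) ^ n) ^ (i / n) * (ι * m),
        mul_mem (pow_mem hnM _) (mul_mem (hS q hq ι hι) hm.1), ?_⟩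
      rw [hR1 _ m hm.2, frobExp_mul, frobExp_inertL hι, add_zero, frobExp_frobL_pow,
        ZMod.val_natCast, ← pow_mul, ← mul_assoc, ← pow_add, Nat.mod_add_div, mul_assoc]
    obtain ⟨x, hx, hax⟩ := hdec a
    obtain ⟨x', hx', hax'⟩ := hdec a'
    show a'⁻¹ * a ∈ M
    rw [hax, hax', e, mul_inv_rev]
    simpa [mul_assoc] using mul_mem (inv_mem hx') hx
  have e1 := hle (key g g' hg)
  have e2 := hle (key h h' hh)
  show Z.1 (loc (q : ℕ) g, loc (q : ℕ) h) = Z.1 (loc (q : ℕ) g', loc (q : ℕ) h')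
  rw [← hZ (loc (q : ℕ) g') (loc (q : ℕ) h') _ _ e1.1 e2.1, ← map_mul, ← map_mul,
    mul_inv_cancel_left, mul_inv_cancel_left]

end FA.GalCoh
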