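import Fermat.Agent.GalCoh.Pair

/-!
Perfectness of the duality pairings for all modules, from the trivial module over subgroups.
-/

set_option autoImplicit false
set_option linter.unusedSectionVars false

noncomputable section

namespace FA.GalCoh

open Representation

variable {G : Type} [Group G] {L : Levels G}

/-- The transitive set of left cosets of a subgroup containing a normal level. -/
def cosetTrans (L : Levels G) (S : Subgroup G) [Fintype (G ⧸ S)] {N : Subgroup G}
    (hN : N ∈ L.carrier) (hn : N.Normal) (hle : N ≤ S) : Trans L (G ⧸ S) := by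
  classical
  exact
  { x0 := ((1 : G) : G ⧸ S)
    t := fun x => if x = ((1 : G) : G ⧸ S) then 1 else x.out
    t_smul := fun x => by
      by_cases h : x = ((1 : G) : G ⧸ S)
      · simp [h]
      · simp only [h, if_false]
        rw [MulAction.Quotient.smul_mk, smul_eq_mul, mul_one, QuotientGroup.out_eq']
    t_x0 := if_pos rfl
    trivial := ⟨N, hN, fun s hs x => by
      obtain ⟨g, rfl⟩ := QuotientGroup.mk_surjective x
      rw [MulAction.Quotient.smul_mk, smul_eq_mul, QuotientGroup.eq, mul_inv_rev]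
      exact hle (hn.conj_mem' _ (inv_mem hs) g)⟩ }

theorem mem_cosetTrans_H {S : Subgroup G} [Fintype (G ⧸ S)] {N : Subgroup G}
    (hN : N ∈ L.carrier) (hn : N.Normal) (hle : N ≤ S) {g : G} :
    g ∈ (cosetTrans L S hN hn hle).H ↔ g ∈ S := by
  rw [MulAction.mem_stabilizer_iff]
  show g • ((1 : G) : G ⧸ S) = ((1 : G) : G ⧸ S) ↔ g ∈ S
  rw [MulAction.Quotient.smul_mk, smul_eq_mul, mul_one, QuotientGroup.eq, mul_one, inv_mem_iff]

namespace Trans

variable {X : Type} [Fintype X] [MulAction G X] (T : Trans L X)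
variable {k : Type} [Field k] {χ : G →* kˣ}

/-- The restricted character. -/
abbrev resχ (χ : G →* kˣ) : T.H →* kˣ := χ.comp T.H.subtype

variable {A B C : Type} [AddCommGroup A] [Module k A] [AddCommGroup B] [Module k B]
  [AddCommGroup C] [Module k C]
variable {ρA : Representation k T.H A} {ρB : Representation k T.H B}
  {ρC : Representation k T.H C}

/-- Coinduction of a short exact sequence. -/
def coindSES (E : SES ρA ρB ρC) : SES (T.coind ρA) (T.coind ρB) (T.coind ρC) where
  i := LinearMap.pi fun x => E.i ∘ₗ LinearMap.proj x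
  q := LinearMap.pi fun x => E.q ∘ₗ LinearMap.proj x
  inj f f' h := funext fun x => E.inj (congrFun h x)
  surj f := ⟨fun x => E.s (f x), funext fun x => E.q_s (f x)⟩
  exact := by
    refine le_antisymm ?_ fun f hf => ⟨fun x => E.r (f x), funext fun x => E.i_r (congrFun hf x)⟩
    rintro _ ⟨f, rfl⟩
    exact LinearMap.mem_ker.2 (funext fun x => E.q_i (f x))
  i_equi g f := funext fun x => E.i_equi _ _
  q_equi g f := funext fun x => E.q_equi _ _

variable {W W' : Type} [AddCommGroup W] [Module k W] [AddCommGroup W'] [Module k W']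
variable {σ : Representation k T.H W} {σ' : Representation k T.H W'}

theorem chr_comp : chr (T.resχ χ) = (chr χ).comp T.H.subtype := rfl

/-- The coinduced pairing. -/
def coindβ (χ : G →* kˣ) (β : W →ₗ[k] W' →ₗ[k] k) : (X → W) →ₗ[k] (X → W') →ₗ[k] k :=
  (pmul β).compr₂ (T.aug (chr χ))

theorem coindβ_apply (β : W →ₗ[k] W' →ₗ[k] k) (f : X → W) (f' : X → W') :
    T.coindβ χ β f f' = ∑ x, (χ (T.t x) : k) * β (f x) (f' x) := by
  simp [coindβ, aug_apply, pmul]

theorem coindβ_injective {β : W →ₗ[k] W' →ₗ[k] k} (h : Function.Injective β) :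
    Function.Injective (T.coindβ χ β) := by
  classical
  refine (injective_iff_map_eq_zero _).2 fun f hf => funext fun x => h ?_
  refine LinearMap.ext fun w => ?_
  have := LinearMap.congr_fun hf (Pi.single x w)
  rw [coindβ_apply, Finset.sum_eq_single x (fun y _ hy => by simp [Pi.single_eq_of_ne hy])
    (by simp), Pi.single_eq_same] at this
  simpa [Units.ne_zero] using this

theorem coindβ_flip (β : W →ₗ[k] W' →ₗ[k] k) : (T.coindβ χ β).flip = T.coindβ χ β.flip :=
  LinearMap.ext fun f => LinearMap.ext fun f' => by simp [coindβ_apply]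

/-- The coinduced dual pair. -/
def coindPair (P : DPair (L.sub T.H) (T.resχ χ) σ σ') : DPair L χ (T.coind σ) (T.coind σ') where
  β := T.coindβ χ P.β
  bil g f f' := by
    have h := T.equi_aug (chr χ) g (pmul (X := X) P.β f f')
    simp only [MonoidHom.id_apply] at h
    rw [← T.bil_pmul (τ := (chr χ).comp T.H.subtype) P.bil g f f'] at h
    exact h
  inj_left := T.coindβ_injective P.inj_left
  inj_right := by rw [T.coindβ_flip]; exact T.coindβ_injective P.inj_right
  fin_left := have := P.fin_left; inferInstance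
  fin_right := have := P.fin_right; inferInstance
  smooth_left := T.smooth_coind _ P.smooth_left
  smooth_right := T.smooth_coind _ P.smooth_right

theorem coindPair_flip (P : DPair (L.sub T.H) (T.resχ χ) σ σ') :
    (T.coindPair P).flip = T.coindPair P.flip := by
  simp [DPair.flip, coindPair, T.coindβ_flip]

variable (inv : H2 L (chr χ) →ₗ[k] k)

/-- The invariant map of the subgroup. -/
def invH : H2 (L.sub T.H) (chr (T.resχ χ)) →ₗ[k] k := inv ∘ₗ T.cor2 (chr χ)

theorem pair11_coind (P : DPair (L.sub T.H) (T.resχ χ) σ σ') (a : H1 L (T.coind σ))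
    (b : H1 L (T.coind σ')) :
    pair11 inv (T.coindPair P) a b = pair11 (T.invH inv) P (T.sh1 σ a) (T.sh1 σ' b) := by
  rw [pair11_apply, pair11_apply]
  show _ = inv (T.cor2 (chr χ) _)
  refine congrArg inv ?_
  have hb : Bil σ σ' ((chr χ).comp T.H.subtype) P.β := P.bil
  have h1 : hb.cup P.smooth_right (T.sh1 σ a) (T.sh1 σ' b)
      = T.sh2 ((chr χ).comp T.H.subtype) ((T.bil_pmul hb).cup (T.smooth_coind σ' P.smooth_right) a b) :=
    (T.sh2_cup hb P.smooth_right a b).symm
  show _ = T.cor2 (chr χ) (hb.cup P.smooth_right (T.sh1 σ a) (T.sh1 σ' b))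
  rw [h1, T.cor2_sh2]
  obtain ⟨a, rfl⟩ := mk1_surjective a
  obtain ⟨b, rfl⟩ := mk1_surjective b
  rfl

/-- Invariants of the coinduced module. -/
abbrev constInv (n : ↥σ'.invariants) : ↥(T.coind σ').invariants := (T.invEquiv σ').symm n

theorem pair20_coind (P : DPair (L.sub T.H) (T.resχ χ) σ σ') (z : H2 L (T.coind σ))
    (n : ↥σ'.invariants) :
    pair20 inv (T.coindPair P) z (T.constInv n) = pair20 (T.invH inv) P (T.sh2 σ z) n := by
  rw [pair20_apply, pair20_apply]
  show _ = inv (T.cor2 (chr χ) _)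
  refine congrArg inv ?_
  have hm : Equi (MonoidHom.id G) (T.coind σ) (T.coind ((chr χ).comp T.H.subtype))
      (LinearMap.pi fun x : X => (P.β.flip n.1) ∘ₗ LinearMap.proj x) :=
    fun g f => funext fun x => P.bil.equi_right n.2 (T.h g x) (f (g⁻¹ • x))
  have h2 : map2 Compat.id (P.bil.equi_right n.2) (T.sh2 σ z)
      = T.sh2 ((chr χ).comp T.H.subtype) (map2 Compat.id hm z) := by
    obtain ⟨z, rfl⟩ := mk2_surjective z
    rfl
  show _ = T.cor2 (chr χ) (map2 Compat.id (P.bil.equi_right n.2) (T.sh2 σ z))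
  rw [h2, T.cor2_sh2]
  obtain ⟨z, rfl⟩ := mk2_surjective z
  rfl

theorem bij20_coind (P : DPair (L.sub T.H) (T.resχ χ) σ σ')
    (h : Function.Bijective (pair20 (T.invH inv) P)) :
    Function.Bijective (pair20 inv (T.coindPair P)) := by
  have he : pair20 inv (T.coindPair P) = (T.invEquiv σ').toLinearMap.dualMap ∘ₗ
      pair20 (T.invH inv) P ∘ₗ T.sh2 σ := by
    refine LinearMap.ext fun z => LinearMap.ext fun n => ?_
    obtain ⟨n, rfl⟩ := (T.invEquiv σ').symm.surjective n
    simp only [LinearMap.comp_apply, LinearMap.dualMap_apply, LinearEquiv.coe_coe,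
      LinearEquiv.apply_symm_apply]
    exact T.pair20_coind inv P z n
  rw [he]
  exact ((T.invEquiv σ').dualMap.bijective).comp
    (h.comp ⟨T.sh2_injective, T.sh2_surjective⟩)

theorem perfect_coind (P : DPair (L.sub T.H) (T.resχ χ) σ σ') (h : Perfect (T.invH inv) P) :
    Perfect inv (T.coindPair P) := by
  refine ⟨?_, T.bij20_coind inv P h.bij20, ?_, ?_, ?_⟩
  · have he : pair11 inv (T.coindPair P) = (T.shEquiv1 σ').toLinearMap.dualMap ∘ₗ
        pair11 (T.invH inv) P ∘ₗ T.sh1 σ :=
      LinearMap.ext fun a => LinearMap.ext fun b => T.pair11_coind inv P a b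
    rw [he]
    exact ((T.shEquiv1 σ').dualMap.bijective).comp
      (h.bij11.comp ⟨T.sh1_injective, T.sh1_surjective⟩)
  · rw [T.coindPair_flip]
    exact T.bij20_coind inv P.flip h.bij02
  · have := h.fin1
    exact Module.Finite.equiv (T.shEquiv1 σ).symm
  · have := h.fin1'
    exact Module.Finite.equiv (T.shEquiv1 σ').symm

/-- The base hypothesis: perfectness for the trivial module over the stabiliser. -/
structure BasePerfect : Prop where
  bij11 : ∀ (σ₁ σ₂ : Representation k T.H k), (∀ s, σ₁ s = 1) → (∀ s, σ₂ s = 1) →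
    ∀ P : DPair (L.sub T.H) (T.resχ χ) σ₁ σ₂, Perfect (T.invH inv) P

theorem pair20_surjective_trivial (hb : T.BasePerfect inv) (hχ : ∀ s ∈ T.H, χ s = 1)
    (P : DPair (L.sub T.H) (T.resχ χ) σ σ') (h1 : ∀ s, σ s = 1) :
    Function.Surjective (pair20 (T.invH inv) P) := by
  intro f
  have := P.fin_left
  have := P.fin_right
  obtain ⟨g, hg⟩ := exists_dual_factor (σ'.invariants.subtype) f fun n hn => by
    rw [show n = 0 from Subtype.ext hn, map_zero]
  obtain ⟨v, hv⟩ := (P.flip.toDual).surjective g
  have hc : Smooth (L.sub T.H) (chr (T.resχ χ)) :=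
    ⟨⊤, (L.sub T.H).top_mem, fun s _ => LinearMap.ext fun a => by simp [hχ s.1 s.2]⟩
  let one : DPair (L.sub T.H) (T.resχ χ) (1 : Representation k T.H k) (1 : Representation k T.H k) :=
    { β := LinearMap.mul k k
      bil := fun s a b => by simp [hχ s.1 s.2]
      inj_left := fun a b h => by simpa using LinearMap.congr_fun h 1
      inj_right := fun a b h => by simpa using LinearMap.congr_fun h 1
      fin_left := inferInstance
      fin_right := inferInstance
      smooth_left := ⟨⊤, (L.sub T.H).top_mem, fun _ _ => rfl⟩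
      smooth_right := ⟨⊤, (L.sub T.H).top_mem, fun _ _ => rfl⟩ }
  obtain ⟨z, hz⟩ := (hb.bij11 1 1 (fun _ => rfl) (fun _ => rfl) one).bij20.2
    ((Submodule.subtype _))
  have hφ : Equi (MonoidHom.id T.H) (1 : Representation k T.H k) σ (LinearMap.toSpanSingleton k W v) :=
    fun s a => by simp [h1 s]
  let ψ : W' →ₗ[k] k := P.β v
  have hψ : Equi (MonoidHom.id T.H) σ' (1 : Representation k T.H k) ψ := fun s w => by
    have := P.bil s v w
    rw [h1 s] at this
    simpa [ψ, hχ s.1 s.2] using this
  refine ⟨map2 Compat.id hφ z, LinearMap.ext fun n => ?_⟩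
  rw [pair20_adjoint (T.invH inv) one P hφ hψ (fun a w => by simp [one, ψ]) z n, hz, ← hg n, ← hv]
  rfl

end Trans

section Main

variable {p : ℕ} [hp : Fact p.Prime]

theorem exists_fixed_ne_zero {H : Type} [Group H] {B : Type} [AddCommGroup B] [Module (ZMod p) B]
    [FiniteDimensional (ZMod p) B] [Nontrivial B] (σ : Representation (ZMod p) H B)
    (K : Subgroup H) [K.Normal] (hK : ∀ s ∈ K, σ s = 1) (hP : IsPGroup p (H ⧸ K)) :
    ∃ w : B, w ≠ 0 ∧ ∀ s, σ s w = w := by
  have : Finite B := Module.finite_of_finite (ZMod p)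
  let _ : MulAction (H ⧸ K) B :=
    { smul := fun g b => QuotientGroup.lift K σ (fun s hs => hK s hs) g b
      one_smul := fun b => by
        show QuotientGroup.lift K σ _ 1 b = b
        rw [map_one]; rfl
      mul_smul := fun g g' b => by
        show QuotientGroup.lift K σ _ (g * g') b = _
        rw [map_mul]; rfl }
  have hdvd : p ∣ Nat.card B := by
    rw [Module.natCard_eq_pow_finrank (K := ZMod p), Nat.card_zmod]
    exact dvd_pow_self p Module.finrank_pos.ne'
  have h0 : (0 : B) ∈ MulAction.fixedPoints (H ⧸ K) B := fun g =>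
    map_zero (QuotientGroup.lift K σ _ g)
  obtain ⟨w, hw, hne⟩ := hP.exists_fixed_point_of_prime_dvd_card_of_fixed_point B hdvd h0
  exact ⟨w, hne.symm, fun s => hw (QuotientGroup.mk s)⟩

variable {χ : G →* (ZMod p)ˣ} (inv : H2 L (chr χ) →ₗ[ZMod p] ZMod p)
variable (hχ : Smooth L (chr χ))
  (hbase : ∀ (X : Type) [Fintype X] [MulAction G X] (T : Trans L X),
    (∀ s ∈ T.H, χ s = 1) → T.BasePerfect inv)

section

variable {V W : Type} [AddCommGroup V] [Module (ZMod p) V] [AddCommGroup W] [Module (ZMod p) W]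
variable {ρ : Representation (ZMod p) G V} {σ : Representation (ZMod p) G W}

include hχ hbase in
theorem pair20_surjective_all (P : DPair L χ ρ σ) : Function.Surjective (pair20 inv P) := by
  classical
  obtain ⟨N₁, hN₁, h₁⟩ := P.smooth_left
  obtain ⟨N₂, hN₂, h₂⟩ := (smooth_chr_iff χ).1 hχ
  obtain ⟨N, hN, hle, hn⟩ := L.exists_normal (L.inf_mem hN₁ hN₂)
  have := L.finiteIndex hN
  have : Fintype (G ⧸ N) := Fintype.ofFinite _
  let T := cosetTrans L N hN hn le_rfl
  have hH : ∀ s ∈ T.H, s ∈ N := fun s hs => (mem_cosetTrans_H hN hn le_rfl).1 hs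
  have := P.fin_left
  let P₀ := DPair.canonical (L := L.sub T.H) (χ := T.resχ χ) (ρ.comp T.H.subtype)
    (P.smooth_left.comp (L.sub_compat T.H)) (hχ.comp (L.sub_compat T.H))
  refine pair20_surjective_of_surjective inv (T.coindPair P₀) P (T.equi_aug ρ) (fun v => ?_) ?_
  · refine ⟨Pi.single T.x0 v, ?_⟩
    rw [T.aug_apply, Finset.sum_eq_single T.x0 (fun y _ hy => by simp [Pi.single_eq_of_ne hy])
      (by simp), Pi.single_eq_same, T.t_x0, map_one]
    rfl
  · have hs := T.pair20_surjective_trivial inv (hbase _ T fun s hs => h₂ s (hle (hH s hs)).2)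
      (fun s hs => h₂ s (hle (hH s hs)).2) P₀ (fun s => h₁ s.1 (hle (hH s.1 s.2)).1)
    intro f
    obtain ⟨z, hz⟩ := hs (f ∘ₗ (T.invEquiv _).symm.toLinearMap)
    obtain ⟨z, rfl⟩ := T.sh2_surjective z
    refine ⟨z, LinearMap.ext fun n => ?_⟩
    obtain ⟨n, rfl⟩ := (T.invEquiv _).symm.surjective n
    exact (T.pair20_coind inv P₀ z n).trans (LinearMap.congr_fun hz n)

end

include hχ hbase in
theorem perfect_coind_all {X : Type} [Fintype X] [MulAction G X] (T : Trans L X)
    (hT : ∀ s ∈ T.H, χ s = 1) (K : Subgroup T.H) [K.Normal]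
    (hP : IsPGroup p (T.H ⧸ K)) :
    ∀ (n : ℕ) (B B' : Type) [AddCommGroup B] [Module (ZMod p) B] [AddCommGroup B']
      [Module (ZMod p) B'] (σ : Representation (ZMod p) T.H B)
      (σ' : Representation (ZMod p) T.H B') (P : DPair (L.sub T.H) (T.resχ χ) σ σ'),
      Module.finrank (ZMod p) B = n → (∀ s ∈ K, σ s = 1) → Perfect inv (T.coindPair P) := by
  intro n
  induction n with
  | zero =>
    intro B B' _ _ _ _ σ σ' P hn _
    have := P.fin_left
    have := P.fin_right
    have : Subsingleton B := Module.finrank_zero_iff.1 hn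
    have : Subsingleton B' := P.toDual.toEquiv.subsingleton
    have e1 : ∀ {V : Type} [AddCommGroup V] [Module (ZMod p) V]
        (ρ : Representation (ZMod p) G V), Subsingleton V → Subsingleton (H1 L ρ) :=
      fun ρ _ => (mk1_surjective (L := L) (ρ := ρ)).subsingleton
    have e2 : ∀ {V : Type} [AddCommGroup V] [Module (ZMod p) V]
        (ρ : Representation (ZMod p) G V), Subsingleton V → Subsingleton (H2 L ρ) :=
      fun ρ _ => (mk2_surjective (L := L) (ρ := ρ)).subsingleton
    have := e1 (T.coind σ) inferInstance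
    have := e1 (T.coind σ') inferInstance
    have := e2 (T.coind σ) inferInstance
    have := e2 (T.coind σ') inferInstance
    exact ⟨⟨Function.injective_of_subsingleton _, fun f => ⟨0, Subsingleton.elim _ _⟩⟩,
      ⟨Function.injective_of_subsingleton _, fun f => ⟨0, Subsingleton.elim _ _⟩⟩,
      ⟨Function.injective_of_subsingleton _, fun f => ⟨0, Subsingleton.elim _ _⟩⟩,
      inferInstance, inferInstance⟩
  | succ n ih =>
    intro B B' _ _ _ _ σ σ' P hn hK
    have := P.fin_left
    have : Nontrivial B := Module.nontrivial_of_finrank_pos (R := ZMod p) (by omega)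
    obtain ⟨w, hw0, hw⟩ := exists_fixed_ne_zero σ K hK hP
    let A := Submodule.span (ZMod p) ({w} : Set B)
    have hA : ∀ s, ∀ a ∈ A, σ s a = a := fun s a ha => by
      obtain ⟨c, rfl⟩ := Submodule.mem_span_singleton.1 ha
      rw [map_smul, hw]
    let σC : Representation (ZMod p) T.H (B ⧸ A) :=
      { toFun := fun s => A.mapQ A (σ s) fun a ha => by
          show σ s a ∈ A
          rw [hA s a ha]; exact ha
        map_one' := Submodule.linearMap_qext _ (LinearMap.ext fun b => by simp)
        map_mul' := fun s t => Submodule.linearMap_qext _ (LinearMap.ext fun b => by simp) }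
    let σA : Representation (ZMod p) T.H (ZMod p) := 1
    let E : SES σA σ σC :=
      { i := LinearMap.toSpanSingleton (ZMod p) B w
        q := A.mkQ
        inj := smul_left_injective (ZMod p) hw0
        surj := A.mkQ_surjective
        exact := by rw [Submodule.ker_mkQ, LinearMap.range_toSpanSingleton]
        i_equi := fun s a => by simp [σA, hw]
        q_equi := fun s b => rfl }
    have hC : ∀ s ∈ K, σC s = 1 := fun s hs => Submodule.linearMap_qext _ (LinearMap.ext fun b => by
      simp [σC, hK s hs])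
    have hch : Smooth (L.sub T.H) (chr (T.resχ χ)) := hχ.comp (L.sub_compat T.H)
    let PA := DPair.canonical (χ := T.resχ χ) σA (E.smooth_fst P.smooth_left) hch
    let PC := DPair.canonical (χ := T.resχ χ) σC (E.smooth_snd P.smooth_left) hch
    have hnC : Module.finrank (ZMod p) (B ⧸ A) = n := by
      have := A.finrank_quotient_add_finrank
      rw [finrank_span_singleton hw0] at this
      omega
    have ihC := ih _ _ σC _ PC hnC hC
    have htriv : Perfect inv (T.coindPair PA) := by
      refine T.perfect_coind inv PA ?_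
      let e := (LinearMap.ringLmapEquivSelf (ZMod p) (ZMod p) (ZMod p))
      let P1 : DPair (L.sub T.H) (T.resχ χ) σA σA :=
        { β := LinearMap.mul (ZMod p) (ZMod p)
          bil := fun s a b => by simp [σA, hT s.1 s.2]
          inj_left := fun a b h => by simpa using LinearMap.congr_fun h 1
          inj_right := fun a b h => by simpa using LinearMap.congr_fun h 1
          fin_left := inferInstance
          fin_right := inferInstance
          smooth_left := ⟨⊤, (L.sub T.H).top_mem, fun _ _ => rfl⟩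
          smooth_right := ⟨⊤, (L.sub T.H).top_mem, fun _ _ => rfl⟩ }
      exact Perfect.summand (T.invH inv) PA P1 (φ := LinearMap.id) (π := LinearMap.id)
        (fun _ _ => rfl) (fun _ _ => rfl) (fun _ => rfl)
        ((hbase X T hT).bij11 σA σA (fun _ => rfl) (fun _ => rfl) P1)
    let EG := T.coindSES E
    exact Perfect.of_ses inv (EG.dual_adjoint (T.coindPair PA) (T.coindPair P) (T.coindPair PC))
      htriv ihC (pair20_surjective_all inv hχ hbase _) (pair20_surjective_all inv hχ hbase _)

variable {V W : Type} [AddCommGroup V] [Module (ZMod p) V] [AddCommGroup W] [Module (ZMod p) W]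
variable {ρ : Representation (ZMod p) G V} {σ : Representation (ZMod p) G W}

include hχ hbase in
/-- Duality holds for every dual pair once it holds for the trivial module over subgroups. -/
theorem perfect_all (P : DPair L χ ρ σ) : Perfect inv P := by
  classical
  obtain ⟨N₁, hN₁, h₁⟩ := P.smooth_left
  obtain ⟨N₂, hN₂, h₂⟩ := (smooth_chr_iff χ).1 hχ
  obtain ⟨N, hN, hle, hn⟩ := L.exists_normal (L.inf_mem hN₁ hN₂)
  have := L.finiteIndex hN
  obtain ⟨Q⟩ : Nonempty (Sylow p (G ⧸ N)) := Sylow.nonempty
  let S := (Q : Subgroup (G ⧸ N)).comap (QuotientGroup.mk' N)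
  have hNS : N ≤ S := fun s hs => by
    show QuotientGroup.mk' N s ∈ (Q : Subgroup (G ⧸ N))
    rw [QuotientGroup.mk'_apply, (QuotientGroup.eq_one_iff s).2 hs]
    exact one_mem _
  have : S.FiniteIndex := Subgroup.finiteIndex_of_le hNS
  have : Fintype (G ⧸ S) := Fintype.ofFinite _
  have hindex : ¬ p ∣ Fintype.card (G ⧸ S) := by
    rw [Fintype.card_eq_nat_card, ← Subgroup.index_eq_card,
      Subgroup.index_comap_of_surjective _ (QuotientGroup.mk'_surjective N)]
    exact Q.not_dvd_index
  let T := cosetTrans L S hN hn hNS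
  have hH : ∀ s, s ∈ T.H ↔ s ∈ S := fun s => mem_cosetTrans_H hN hn hNS
  have hPg : ∀ s : T.H, ∃ n : ℕ, (s : G) ^ p ^ n ∈ N := fun s => by
    obtain ⟨n, hn'⟩ := Q.isPGroup' ⟨QuotientGroup.mk' N (s : G), (hH s.1).1 s.2⟩
    refine ⟨n, (QuotientGroup.eq_one_iff _).1 ?_⟩
    exact congrArg Subtype.val hn'
  have hT : ∀ s ∈ T.H, χ s = 1 := fun s hs => by
    obtain ⟨n, hn'⟩ := hPg ⟨s, hs⟩
    have h := h₂ _ (hle hn').2
    rw [map_pow] at h
    refine Units.ext ?_
    have := congrArg Units.val h
    rwa [Units.val_pow_eq_pow_val, ZMod.pow_card_pow] at this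
  let K := N.subgroupOf T.H
  have : K.Normal := hn.comap _
  have hP : IsPGroup p (T.H ⧸ K) := fun x => by
    obtain ⟨s, rfl⟩ := QuotientGroup.mk_surjective x
    obtain ⟨n, hn'⟩ := hPg s
    exact ⟨n, by rw [← QuotientGroup.mk_pow, QuotientGroup.eq_one_iff]; exact hn'⟩
  have := P.fin_left
  let P₀ := DPair.canonical (L := L.sub T.H) (χ := T.resχ χ) (ρ.comp T.H.subtype)
    (P.smooth_left.comp (L.sub_compat T.H)) (hχ.comp (L.sub_compat T.H))
  have h0 := perfect_coind_all inv hχ hbase T hT K hP _ _ _ _ _ P₀ rfl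
    fun s hs => h₁ _ (hle hs).1
  have hcard : (Fintype.card (G ⧸ S) : ZMod p) ≠ 0 := fun h =>
    hindex ((ZMod.natCast_eq_zero_iff _ p).1 h)
  refine Perfect.summand inv P (T.coindPair P₀) (T.equi_dia ρ)
    (π := ((Fintype.card (G ⧸ S) : ZMod p))⁻¹ • T.aug ρ)
    (fun g f => ?_) (fun v => ?_) h0
  · rw [LinearMap.smul_apply, LinearMap.smul_apply, map_smul]
    exact congrArg _ (T.equi_aug ρ g f)
  · rw [LinearMap.smul_apply, T.aug_dia, ← Nat.cast_smul_eq_nsmul (ZMod p), smul_smul,
      inv_mul_cancel₀ hcard, one_smul]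

end Main

end FA.GalCoh
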