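import Fermat.Agent.GalCoh.PermVec
import Fermat.Agent.GalCoh.Devissage

/-!
For odd `p`, the summation map from the permutation module of a Galois splitting field with the
roots of unity is onto in degree two; hence so is the map induced by any surjection of modules.
-/

set_option autoImplicit false
set_option linter.unusedSectionVars false

noncomputable section

namespace FA.GalCoh

open Representation

variable {p : ℕ} [hp : Fact p.Prime]

/-- A local surjection of paired modules is onto in degree two. -/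
theorem map2_surjective_of_surjective {q : ℕ} [Fact q.Prime]
    {V₁ W₁ V₂ W₂ : Type} [AddCommGroup V₁] [Module (ZMod p) V₁] [AddCommGroup W₁]
    [Module (ZMod p) W₁] [AddCommGroup V₂] [Module (ZMod p) V₂] [AddCommGroup W₂]
    [Module (ZMod p) W₂] {ρ₁ : Representation (ZMod p) (LG q) V₁}
    {σ₁ : Representation (ZMod p) (LG q) W₁} {ρ₂ : Representation (ZMod p) (LG q) V₂}
    {σ₂ : Representation (ZMod p) (LG q) W₂} (P₁ : DPair (LL q) (cycL p q).χ ρ₁ σ₁)
    (P₂ : DPair (LL q) (cycL p q).χ ρ₂ σ₂) {φ : V₁ →ₗ[ZMod p] V₂}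
    (hφ : Equi (MonoidHom.id (LG q)) ρ₁ ρ₂ φ) (hsurj : Function.Surjective φ) :
    Function.Surjective (map2 (Compat.id (L := LL q)) hφ) := by
  intro z
  have hψ := P₁.equi_adj P₂ hφ
  let ψ₀ : ↥σ₂.invariants →ₗ[ZMod p] ↥σ₁.invariants :=
    ((P₁.adj P₂ φ).domRestrict σ₂.invariants).codRestrict σ₁.invariants fun n g => by
      show σ₁ g (P₁.adj P₂ φ n.1) = P₁.adj P₂ φ n.1
      rw [← hψ g n.1]; exact congrArg _ (n.2 g)
  obtain ⟨g, hg⟩ := exists_dual_factor ψ₀ (pair20 (localInv (cycL p q)) P₂ z) fun n hn => by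
    have h0 : P₁.adj P₂ φ n.1 = 0 := congrArg Subtype.val hn
    rw [show n = 0 from Subtype.ext (P₁.adj_injective P₂ hsurj (h0.trans (map_zero _).symm)),
      map_zero]
  obtain ⟨w, hw⟩ := (local_perfect (cycL p q) P₁).bij20.2 g
  refine ⟨w, (local_perfect (cycL p q) P₂).bij20.1 (LinearMap.ext fun n => ?_)⟩
  rw [pair20_adjoint _ P₁ P₂ hφ hψ (fun v w => (P₁.β_adj P₂ φ v w).symm) w n, hw, ← hg n]
  rfl

namespace Trans

variable {X : Type} [Fintype X] [MulAction GQ X] (T : Trans LQ X)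
variable {V : Type} [AddCommGroup V] [Module (ZMod p) V]

/-- The summation map is onto in degree two. -/
def AugSurj (ρ : Representation (ZMod p) GQ V) : Prop :=
  Function.Surjective (map2 (Compat.id (L := LQ)) (T.equi_aug ρ))

variable {A B C : Type} [AddCommGroup A] [Module (ZMod p) A] [AddCommGroup B]
  [Module (ZMod p) B] [AddCommGroup C] [Module (ZMod p) C]
variable {ρA : Representation (ZMod p) GQ A} {ρB : Representation (ZMod p) GQ B}
  {ρC : Representation (ZMod p) GQ C}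

theorem equi_compLeft {φ : A →ₗ[ZMod p] B} (h : ∀ s : T.H, ∀ a, φ (ρA s a) = ρB s (φ a)) :
    Equi (MonoidHom.id GQ) (T.coind (ρA.comp T.H.subtype)) (T.coind (ρB.comp T.H.subtype))
      (φ.compLeft X) :=
  fun g f => funext fun x => h (T.h g x) (f (g⁻¹ • x))

theorem aug_natural {φ : A →ₗ[ZMod p] B} (hφ : Equi (MonoidHom.id GQ) ρA ρB φ) (f : X → A) :
    T.aug ρB (φ.compLeft X f) = φ (T.aug ρA f) := by
  rw [T.aug_apply, T.aug_apply, map_sum]
  exact Finset.sum_congr rfl fun x _ => (hφ (T.t x) (f x)).symm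

theorem map2_aug_natural {φ : A →ₗ[ZMod p] B} (hφ : Equi (MonoidHom.id GQ) ρA ρB φ)
    (z : H2 LQ (T.coind (ρA.comp T.H.subtype))) :
    map2 Compat.id (T.equi_aug ρB)
        (map2 Compat.id (T.equi_compLeft (fun s a => hφ (s : GQ) a)) z)
      = map2 Compat.id hφ (map2 Compat.id (T.equi_aug ρA) z) := by
  obtain ⟨Z, rfl⟩ := mk2_surjective z
  exact congrArg (mk2 LQ ρB) (Subtype.ext (funext fun x => T.aug_natural hφ (Z.1 x)))

theorem AugSurj.of_surjective {φ : A →ₗ[ZMod p] B} (hφ : Equi (MonoidHom.id GQ) ρA ρB φ)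
    (hA : T.AugSurj ρA) (h : Function.Surjective (map2 (Compat.id (L := LQ)) hφ)) :
    T.AugSurj ρB := fun z => by
  obtain ⟨z', rfl⟩ := h z
  obtain ⟨w, rfl⟩ := hA z'
  exact ⟨_, T.map2_aug_natural hφ w⟩

/-- Lifts in degree two along a surjection of modules trivial on the subgroup. -/
theorem exists_q2_eq (E : SES ρA ρB ρC) (hB : ∀ s ∈ T.H, ρB s = 1) (hC : T.AugSurj ρC)
    (z : H2 LQ ρC) : ∃ w, E.q2 w = z := by
  obtain ⟨u, rfl⟩ := hC z
  have hC1 : ∀ s : T.H, ∀ c, E.s (ρC s c) = ρB s (E.s c) := fun s c => by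
    obtain ⟨b, rfl⟩ := E.surj c
    rw [← E.q_equi, hB s.1 s.2]; rfl
  refine ⟨map2 Compat.id (T.equi_aug ρB) (map2 Compat.id (T.equi_compLeft hC1) u), ?_⟩
  obtain ⟨U, rfl⟩ := mk2_surjective u
  refine congrArg (mk2 LQ ρC) (Subtype.ext (funext fun x => ?_))
  show E.q (T.aug ρB (E.s.compLeft X (U.1 x))) = T.aug ρC (U.1 x)
  rw [← T.aug_natural E.equi_q]
  refine congrArg (T.aug ρC) (funext fun y => ?_)
  exact E.q_s _

theorem AugSurj.of_ses (E : SES ρA ρB ρC) (hB : ∀ s ∈ T.H, ρB s = 1) (hsB : Smooth LQ ρB)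
    (hA : T.AugSurj ρA) (hC : T.AugSurj ρC) : T.AugSurj ρB := fun z => by
  obtain ⟨u, hu⟩ := hC (E.q2 z)
  have hC1 : ∀ s : T.H, ∀ c, E.s (ρC s c) = ρB s (E.s c) := fun s c => by
    obtain ⟨b, rfl⟩ := E.surj c
    rw [← E.q_equi, hB s.1 s.2]; rfl
  set b := map2 Compat.id (T.equi_compLeft hC1) u
  have hb : E.q2 (map2 Compat.id (T.equi_aug ρB) b) = E.q2 z := by
    rw [← hu]
    obtain ⟨U, rfl⟩ := mk2_surjective u
    refine congrArg (mk2 LQ ρC) (Subtype.ext (funext fun x => ?_))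
    show E.q (T.aug ρB (E.s.compLeft X (U.1 x))) = T.aug ρC (U.1 x)
    rw [← T.aug_natural E.equi_q]
    exact congrArg (T.aug ρC) (funext fun y => E.q_s _)
  obtain ⟨a, ha⟩ := E.exists_of_q2_eq_zero hsB
    (b := z - map2 Compat.id (T.equi_aug ρB) b) (by rw [map_sub, hb, sub_self])
  obtain ⟨w, rfl⟩ := hA a
  refine ⟨b + map2 Compat.id (T.equi_compLeft fun s a => E.equi_i (s : GQ) a) w, ?_⟩
  rw [map_add, T.map2_aug_natural E.equi_i]
  exact (eq_sub_iff_add_eq'.1 ha)

variable {X' : Type} [Fintype X'] [MulAction GQ X'] (T' : Trans LQ X')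

open Classical in
/-- The indicator of the base point. -/
def pt : X' → ZMod p := Pi.single T'.x0 1

/-- The map of permutation modules given by a point. -/
def orb : (X → ZMod p) →ₗ[ZMod p] (X' → ZMod p) :=
  T.aug (T'.perm p) ∘ₗ
    (LinearMap.toSpanSingleton (ZMod p) (X' → ZMod p) (pt (p := p) T')).compLeft X

variable [hn : T.H.Normal] (hle : T.H ≤ T'.H)

include hle in
theorem coind_eq_one {W : Type} [AddCommGroup W] [Module (ZMod p) W]
    (τ : Representation (ZMod p) T'.H W) (hτ : ∀ s : T'.H, (s : GQ) ∈ T.H → τ s = 1)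
    {g : GQ} (hg : g ∈ T.H) : T'.coind τ g = 1 := by
  refine LinearMap.ext fun f => funext fun x => ?_
  have hc : (T'.t x)⁻¹ * g⁻¹ * T'.t x ∈ T.H := hn.conj_mem' _ (inv_mem hg) _
  have hfix : g⁻¹ • x = x := by
    have h := MulAction.mem_stabilizer_iff.1 (hle hc)
    rwa [mul_smul, mul_smul, T'.t_smul, inv_smul_eq_iff, T'.t_smul] at h
  show τ (T'.h g x) (f (g⁻¹ • x)) = f x
  rw [hfix, hτ _ (by rw [T'.h_coe, hfix]; exact hn.conj_mem' _ hg _)]
  rfl

include hle in
theorem perm_eq_one (s : T.H) : (T'.perm p).comp T.H.subtype s = 1 :=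
  T.coind_eq_one T' hle (triv T'.H p) (fun _ _ => rfl) s.2

include hle in
theorem equi_orb : Equi (MonoidHom.id GQ) (T.perm p) (T'.perm p) (T.orb T') := by
  have h1 := T.equi_emb (σ := (T'.perm p).comp T.H.subtype) (T.perm_eq_one (p := p) T' hle)
    (pt (p := p) T')
  intro g f
  rw [MonoidHom.id_apply]
  unfold orb
  rw [LinearMap.comp_apply, LinearMap.comp_apply]
  exact (congrArg (T.aug (T'.perm p)) (h1 g f)).trans (T.equi_aug (T'.perm p) g _)

include hle in
theorem orb_surjective : Function.Surjective (T.orb (p := p) T') := by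
  classical
  intro f
  rw [← Finset.univ_sum_single f]
  have key : ∀ y : X', ∃ v, T.orb (p := p) T' v = Pi.single y (f y) := fun y => by
    refine ⟨T.perm p (T'.t y) (Pi.single T.x0 (f y)), ?_⟩
    rw [show T.orb T' (T.perm p (T'.t y) (Pi.single T.x0 (f y)))
      = T'.perm p (T'.t y) (T.orb T' (Pi.single T.x0 (f y))) from T.equi_orb T' hle (T'.t y) _,
      orb, LinearMap.comp_apply, T.aug_apply, Finset.sum_eq_single T.x0 (fun x _ hx => by
        rw [show (LinearMap.compLeft _ X) (Pi.single T.x0 (f y)) x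
          = (Pi.single T.x0 (f y) : X → ZMod p) x • _ from rfl, Pi.single_eq_of_ne hx, zero_smul,
          map_zero]) (fun h => absurd (Finset.mem_univ _) h), T.t_x0, map_one]
    funext x
    show ((Pi.single T.x0 (f y) : X → ZMod p) T.x0
      • (pt (p := p) T')) ((T'.t y)⁻¹ • x) = _
    rw [Pi.smul_apply, Pi.single_eq_same, smul_eq_mul]
    unfold pt
    by_cases hx : x = y
    · rw [hx, T'.inv_t_smul, Pi.single_eq_same, Pi.single_eq_same, mul_one]
    · rw [Pi.single_eq_of_ne hx, Pi.single_eq_of_ne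
        (fun h => hx (by rw [← T'.t_smul y, ← h, smul_inv_smul])), mul_zero]
  choose v hv using key
  exact ⟨∑ y, v y, by rw [map_sum]; exact Finset.sum_congr rfl fun y _ => hv y⟩

include hle in
theorem augSurj_perm (hp2 : p ≠ 2) (hμ : ∀ s ∈ T.H, ExtCitation.cycloChar p s = 1)
    (hμ' : ∀ s ∈ T'.H, ExtCitation.cycloChar p s = 1) : T.AugSurj (T'.perm p) := by
  classical
  intro z
  have hφ := T.equi_orb (p := p) T' hle
  obtain ⟨S, hS⟩ := exists_finset_resq2 T'.smooth_perm z
  choose w₀ hw₀ using fun q : Nat.Primes => map2_surjective_of_surjective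
    (locPair (q : ℕ) (T.permPair hμ)) (locPair (q : ℕ) (T'.permPair hμ'))
    (equi_loc hφ (q : ℕ)) (T.orb_surjective T' hle) (resq2 (q : ℕ) (T'.perm p) z)
  set ψ := (T.permPair hμ).adj (T'.permPair hμ') (T.orb T')
  have hψ := (T.permPair hμ).equi_adj (T'.permPair hμ') hφ
  let one' : ↥(T'.perm p).invariants := ⟨fun _ => 1, fun _ => rfl⟩
  have hd : ∀ n : ↥(T.perm p).invariants, ∃ c : ZMod p, ψ (c • one'.1) = n.1 := by
    intro n
    have hconst : ∀ m : ↥(T.perm p).invariants, ∀ x, m.1 x = m.1 T.x0 := fun m x => by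
      have h := congrFun (m.2 (T.t x)) x
      rw [T.perm_apply, T.inv_t_smul] at h
      exact h.symm
    have hinv : ψ one'.1 ∈ (T.perm p).invariants := fun g => by
      rw [← show ψ (T'.perm p g one'.1) = T.perm p g (ψ one'.1) from hψ g _]
      exact congrArg ψ (one'.2 g)
    have hd0 : ψ one'.1 T.x0 ≠ 0 := fun h => by
      have h0 : ψ one'.1 = 0 := funext fun x => (hconst ⟨_, hinv⟩ x).trans h
      have := congrFun ((T.permPair hμ).adj_injective (T'.permPair hμ') (T.orb_surjective T' hle)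
        (h0.trans (map_zero _).symm)) T'.x0
      exact one_ne_zero this
    refine ⟨n.1 T.x0 * (ψ one'.1 T.x0)⁻¹, funext fun x => ?_⟩
    have h1 : ψ one'.1 x = ψ one'.1 T.x0 := hconst ⟨_, hinv⟩ x
    rw [map_smul, Pi.smul_apply, smul_eq_mul, h1, hconst n x, inv_mul_cancel_right₀ hd0]
  obtain ⟨u, hu⟩ := T.image_H2 hμ (tc_of_cyclo hp2 hμ) S
    (fun q => if q ∈ S then w₀ q else 0) (fun q hq => if_neg hq) fun n => by
      obtain ⟨c, hc⟩ := hd n
      let n' : ↥(T'.perm p).invariants := c • one'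
      have hz : ∀ q : Nat.Primes, q ∉ S →
          invQ p (q : ℕ) (map2 Compat.id ((T'.permPair hμ').bil.equi_right n'.2) z) = 0 :=
        fun q hq => by rw [invQ_equi_right, hS q hq, map_zero, LinearMap.zero_apply]
      refine Eq.trans ?_ (sum_invQ_eq_zero _ hz (invInf_of_ne_two hp2 _))
      refine Finset.sum_congr rfl fun q _ => ?_
      rw [if_pos q.2, invQ_equi_right, ← hw₀ q.1,
        pair20_adjoint _ (locPair (q.1 : ℕ) (T.permPair hμ)) (locPair (q.1 : ℕ) (T'.permPair hμ'))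
          (equi_loc hφ (q.1 : ℕ)) (equi_loc hψ (q.1 : ℕ))
          (fun v w => ((T.permPair hμ).β_adj _ _ v w).symm)]
      exact congrArg _ (Subtype.ext hc.symm)
  have hzu : map2 Compat.id hφ u = z := sub_eq_zero.1 (T'.eq_zero_of_resq2
    (tc_of_cyclo hp2 hμ') hμ' (z := map2 Compat.id hφ u - z) fun q => by
      rw [map_sub, resq2_map, hu q]
      split_ifs with h
      · rw [hw₀ q, sub_self]
      · rw [map_zero, hS q h, sub_zero])
  rw [← hzu]
  refine ⟨map2 Compat.id (T.equi_emb (σ := (T'.perm p).comp T.H.subtype)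
    (T.perm_eq_one (p := p) T' hle) (pt (p := p) T')) u, ?_⟩
  exact map2_comp_apply _ _ _ _ u

include hle in
theorem augSurj_coind (hp2 : p ≠ 2) (hμ : ∀ s ∈ T.H, ExtCitation.cycloChar p s = 1)
    (hμ' : ∀ s ∈ T'.H, ExtCitation.cycloChar p s = 1) (K : Subgroup T'.H) [K.Normal]
    (hP : IsPGroup p (T'.H ⧸ K)) (hKH : ∀ s : T'.H, (s : GQ) ∈ T.H → s ∈ K) :
    ∀ (n : ℕ) (W : Type) [AddCommGroup W] [Module (ZMod p) W] [FiniteDimensional (ZMod p) W]
      (τ : Representation (ZMod p) T'.H W), Module.finrank (ZMod p) W = n →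
      Smooth (LQ.sub T'.H) τ → (∀ s ∈ K, τ s = 1) → T.AugSurj (T'.coind τ) := by
  intro n
  induction n with
  | zero =>
    intro W _ _ _ τ hn _ _
    have : Subsingleton W := Module.finrank_zero_iff.1 hn
    exact fun z => ⟨0, by
      obtain ⟨Z, rfl⟩ := mk2_surjective z
      rw [map_zero]
      exact (congrArg (mk2 LQ (T'.coind τ)) (Subsingleton.elim Z 0)).trans (map_zero _) |>.symm⟩
  | succ n ih =>
    intro W _ _ _ τ hn hs hK
    have : Nontrivial W := Module.nontrivial_of_finrank_pos (R := ZMod p) (by omega)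
    obtain ⟨w, hw0, hw⟩ := exists_fixed_ne_zero τ K hK hP
    let A₀ := Submodule.span (ZMod p) ({w} : Set W)
    have hA : ∀ s, ∀ a ∈ A₀, τ s a = a := fun s a ha => by
      obtain ⟨c, rfl⟩ := Submodule.mem_span_singleton.1 ha
      rw [map_smul, hw]
    let τC : Representation (ZMod p) T'.H (W ⧸ A₀) :=
      { toFun := fun s => A₀.mapQ A₀ (τ s) fun a ha => by
          show τ s a ∈ A₀
          rw [hA s a ha]; exact ha
        map_one' := Submodule.linearMap_qext _ (LinearMap.ext fun b => by simp)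
        map_mul' := fun s t => Submodule.linearMap_qext _ (LinearMap.ext fun b => by simp) }
    let E : SES (triv T'.H p) τ τC :=
      { i := LinearMap.toSpanSingleton (ZMod p) W w
        q := A₀.mkQ
        inj := smul_left_injective (ZMod p) hw0
        surj := A₀.mkQ_surjective
        exact := by rw [Submodule.ker_mkQ, LinearMap.range_toSpanSingleton]
        i_equi := fun s a => by simp [hw]
        q_equi := fun s b => rfl }
    have hnC : Module.finrank (ZMod p) (W ⧸ A₀) = n := by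
      have := A₀.finrank_quotient_add_finrank
      rw [finrank_span_singleton hw0] at this
      omega
    refine AugSurj.of_ses T (T'.coindSES E)
      (fun s hs' => T.coind_eq_one T' hle τ (fun u hu => hK u (hKH u hu)) hs')
      (T'.smooth_coind τ hs) (T.augSurj_perm T' hle hp2 hμ hμ')
      (ih _ τC hnC (E.smooth_snd hs) fun s hs' => Submodule.linearMap_qext _
        (LinearMap.ext fun b => by simp [τC, hK s hs']))

include hn in
/-- The summation map is onto in degree two for every module trivial on the subgroup. -/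
theorem augSurj (hp2 : p ≠ 2) (hμ : ∀ s ∈ T.H, ExtCitation.cycloChar p s = 1)
    [FiniteDimensional (ZMod p) V] (ρ : Representation (ZMod p) GQ V) (hρs : Smooth LQ ρ)
    (hρ : ∀ s ∈ T.H, ρ s = 1) : T.AugSurj ρ := by
  classical
  have hN := T.mem_LQ
  have := LQ.finiteIndex hN
  obtain ⟨Q⟩ : Nonempty (Sylow p (GQ ⧸ T.H)) := Sylow.nonempty
  let F := (Q : Subgroup (GQ ⧸ T.H)).comap (QuotientGroup.mk' T.H)
  have hNF : T.H ≤ F := fun s hs => by
    show QuotientGroup.mk' T.H s ∈ (Q : Subgroup (GQ ⧸ T.H))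
    rw [QuotientGroup.mk'_apply, (QuotientGroup.eq_one_iff s).2 hs]
    exact one_mem _
  have : F.FiniteIndex := Subgroup.finiteIndex_of_le hNF
  have : Fintype (GQ ⧸ F) := Fintype.ofFinite _
  have hindex : ¬ p ∣ Fintype.card (GQ ⧸ F) := by
    rw [Fintype.card_eq_nat_card, ← Subgroup.index_eq_card,
      Subgroup.index_comap_of_surjective _ (QuotientGroup.mk'_surjective T.H)]
    exact Q.not_dvd_index
  let T' := cosetTrans LQ F hN hn hNF
  have hH : ∀ s, s ∈ T'.H ↔ s ∈ F := fun s => mem_cosetTrans_H hN hn hNF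
  have hPg : ∀ s : T'.H, ∃ n : ℕ, (s : GQ) ^ p ^ n ∈ T.H := fun s => by
    obtain ⟨n, hn'⟩ := Q.isPGroup' ⟨QuotientGroup.mk' T.H (s : GQ), (hH s.1).1 s.2⟩
    exact ⟨n, (QuotientGroup.eq_one_iff _).1 (congrArg Subtype.val hn')⟩
  have hμ' : ∀ s ∈ T'.H, ExtCitation.cycloChar p s = 1 := fun s hs => by
    obtain ⟨n, hn'⟩ := hPg ⟨s, hs⟩
    have h := hμ _ hn'
    rw [map_pow] at h
    refine Units.ext ?_
    have := congrArg Units.val h
    rwa [Units.val_pow_eq_pow_val, ZMod.pow_card_pow] at this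
  let K := T.H.subgroupOf T'.H
  have : K.Normal := hn.comap _
  have hP : IsPGroup p (T'.H ⧸ K) := fun x => by
    obtain ⟨s, rfl⟩ := QuotientGroup.mk_surjective x
    obtain ⟨n, hn'⟩ := hPg s
    exact ⟨n, by rw [← QuotientGroup.mk_pow, QuotientGroup.eq_one_iff]; exact hn'⟩
  have hle : T.H ≤ T'.H := fun s hs => (hH s).2 (hNF hs)
  refine AugSurj.of_surjective T (T'.equi_aug ρ) (T.augSurj_coind T' hle hp2 hμ hμ' K hP
    (fun s hs => hs) _ _ (ρ.comp T'.H.subtype) rfl (hρs.comp (LQ.sub_compat _))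
    fun s hs => hρ s.1 hs) fun z => ?_
  have hcard : (Fintype.card (GQ ⧸ F) : ZMod p) ≠ 0 := fun h =>
    hindex ((ZMod.natCast_eq_zero_iff _ p).1 h)
  obtain ⟨w, hw⟩ := T'.sh2_surjective (σ := ρ.comp T'.H.subtype)
    (map2 (LQ.sub_compat T'.H) (Equi.res T'.H.subtype ρ) z)
  refine ⟨(Fintype.card (GQ ⧸ F) : ZMod p)⁻¹ • w, ?_⟩
  rw [map_smul, ← T'.cor2_sh2 ρ w, hw, T'.cor2_res ρ z, ← Nat.cast_smul_eq_nsmul (ZMod p),
    inv_smul_smul₀ hcard]

end Trans

end FA.GalCoh
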