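import Fermat.Agent.GalCoh.TwistedKummer
import Fermat.Agent.GalCoh.UnrDual

/-!
The character of order `p` attached to an auxiliary prime `l ≡ 1 (mod p)` and its local
components, and the twisted Kummer classes of rational integers at `l`.
-/

set_option autoImplicit false
set_option linter.unusedSectionVars false

noncomputable section

namespace FA.GalCoh

open Polynomial
open scoped Pointwise

/-! ### Closeness -/

section Near

variable {q : ℕ} [hq : Fact q.Prime]

theorem near_intCast {u v : ℤ} (h : (q : ℤ) ∣ u - v) : ‖(u : PadicAlgCl q) - v‖ < 1 := by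
  obtain ⟨c, hc⟩ := h
  rw [← Int.cast_sub, hc, Int.cast_mul, Int.cast_natCast, norm_mul]
  exact mul_lt_one_of_nonneg_of_lt_one_left (norm_nonneg _) norm_q_lt_one
    (IsUltrametricDist.norm_intCast_le_one _ _)

theorem norm_intCast_eq_one {u : ℤ} (hu : ¬ (q : ℤ) ∣ u) : ‖(u : PadicAlgCl q)‖ = 1 := by
  rw [← map_intCast (algebraMap ℚ_[q] (PadicAlgCl q)), norm_algebraMap']
  refine le_antisymm (IsUltrametricDist.norm_intCast_le_one _ _) (not_lt.1 fun h => hu ?_)
  exact (Padic.norm_intCast_lt_one_iff).1 h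

theorem near_trans {x y z : PadicAlgCl q} (h : ‖x - y‖ < 1) (h' : ‖y - z‖ < 1) : ‖x - z‖ < 1 := by
  rw [← sub_add_sub_cancel x y z]
  exact lt_of_le_of_lt (IsUltrametricDist.norm_add_le_max _ _) (max_lt h h')

theorem near_mul {x x' y y' : PadicAlgCl q} (hx : ‖x - x'‖ < 1) (hy : ‖y - y'‖ < 1)
    (hy1 : ‖y‖ ≤ 1) (hx1 : ‖x'‖ ≤ 1) : ‖x * y - x' * y'‖ < 1 := by
  rw [show x * y - x' * y' = (x - x') * y + x' * (y - y') by ring]
  refine lt_of_le_of_lt (IsUltrametricDist.norm_add_le_max _ _) (max_lt ?_ ?_)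
  · rw [norm_mul]
    exact lt_of_le_of_lt (mul_le_of_le_one_right (norm_nonneg _) hy1) hx
  · rw [norm_mul]
    exact lt_of_le_of_lt (mul_le_of_le_one_left (norm_nonneg _) hx1) hy

theorem norm_eq_one_of_near {x y : PadicAlgCl q} (h : ‖x - y‖ < 1) (hy : ‖y‖ = 1) : ‖x‖ = 1 := by
  rw [← sub_add_cancel x y, IsUltrametricDist.norm_add_eq_max_of_norm_ne_norm (by rw [hy]; exact h.ne),
    hy, max_eq_right h.le]

theorem near_pow {x y : PadicAlgCl q} (h : ‖x - y‖ < 1) (hy : ‖y‖ = 1) (n : ℕ) :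
    ‖x ^ n - y ^ n‖ < 1 := by
  induction n with
  | zero => simp
  | succ n ih =>
    rw [pow_succ, pow_succ]
    exact near_mul ih h (norm_eq_one_of_near h hy).le (by rw [norm_pow, hy, one_pow])

theorem near_prod {ι : Type} (s : Finset ι) {f g : ι → PadicAlgCl q}
    (h : ∀ i ∈ s, ‖f i - g i‖ < 1) (hg : ∀ i ∈ s, ‖g i‖ = 1) :
    ‖∏ i ∈ s, f i - ∏ i ∈ s, g i‖ < 1 ∧ ‖∏ i ∈ s, g i‖ = 1 := by
  classical
  induction s using Finset.induction_on with
  | empty => simp
  | insert a s ha ih =>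
    obtain ⟨h1, h2⟩ := ih (fun i hi => h i (Finset.mem_insert_of_mem hi))
      fun i hi => hg i (Finset.mem_insert_of_mem hi)
    rw [Finset.prod_insert ha, Finset.prod_insert ha]
    exact ⟨near_mul (h a (Finset.mem_insert_self _ _)) h1 (norm_eq_one_of_near h1 h2).le
      (hg a (Finset.mem_insert_self _ _)).le,
      by rw [norm_mul, hg a (Finset.mem_insert_self _ _), h2, one_mul]⟩

variable {p : ℕ} [hp : Fact p.Prime]

theorem exists_near_root (_hqp : q ≠ p) {ζ : PadicAlgCl q} (hζ : IsPrimitiveRoot ζ p)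
    {x : PadicAlgCl q} (h : ‖x ^ p - 1‖ < 1) : ∃ j : ZMod p, ‖x - ζ ^ j.val‖ < 1 := by
  by_contra! hc
  have hev := congrArg (Polynomial.eval x) (X_pow_sub_one_eq_prod hp.out.pos hζ)
  simp only [eval_sub, eval_pow, eval_X, eval_one, eval_prod, eval_C] at hev
  have : NeZero p := ⟨hp.out.ne_zero⟩
  rw [hev, norm_prod] at h
  refine absurd h (not_lt.2 (Finset.one_le_prod fun μ hμ => ?_))
  rw [mem_nthRootsFinset hp.out.pos] at hμ
  obtain ⟨i, hi, rfl⟩ := hζ.eq_pow_of_pow_eq_one hμ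
  have := hc (i : ZMod p)
  rwa [ZMod.val_natCast_of_lt hi] at this

theorem eq_of_near_root (hqp : q ≠ p) {ζ : PadicAlgCl q} (hζ : IsPrimitiveRoot ζ p)
    {i j : ZMod p} (h : ‖ζ ^ i.val - ζ ^ j.val‖ < 1) : i = j := by
  refine ZMod.val_injective p (hζ.pow_inj (ZMod.val_lt i) (ZMod.val_lt j) ?_)
  refine root_eq_of_close (m := p) (fun hd => hqp ((Nat.prime_dvd_prime_iff_eq hq.out hp.out).1 hd))
    ?_ ?_ h <;> rw [← pow_mul, mul_comm, pow_mul, hζ.pow_eq_one, one_pow]

theorem norm_pow_zeta {ζ : PadicAlgCl q} (hζ : IsPrimitiveRoot ζ p) (i : ℕ) : ‖ζ ^ i‖ = 1 := by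
  rw [norm_pow, norm_root_of_unity hp.out.pos hζ.pow_eq_one, one_pow]

/-- Two characters agreeing on inertia and at Frobenius are equal. -/
theorem hom_eq_of_frob {f f' : LG q → ZMod p} (hf : LC₁ (LL q) f) (hf' : LC₁ (LL q) f')
    (hadd : ∀ a b, f (a * b) = f a + f b) (hadd' : ∀ a b, f' (a * b) = f' a + f' b)
    (hI : ∀ ι ∈ inertL q, f ι = f' ι) (hF : f (frobL q) = f' (frobL q)) : f = f' := by
  funext g
  obtain ⟨M, hM, h⟩ := hf
  obtain ⟨M', hM', h'⟩ := hf'
  obtain ⟨i, ι, hι, m, hm, rfl⟩ := exists_frobL_decomp ((LL q).inf_mem hM hM') g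
  rw [h _ m hm.1, h' _ m hm.2, hadd, hadd', hI ι hι]
  congr 1
  clear hm
  induction i with
  | zero =>
    have e := hadd 1 1
    have e' := hadd' 1 1
    rw [one_mul, left_eq_add] at e e'
    rw [pow_zero, e, e']
  | succ i ih => rw [pow_succ, hadd, hadd', ih, hF]

theorem unrChar_inertL {ι : LG q} (hι : ι ∈ inertL q) : unrChar p ι = 0 :=
  unrChar_eq_zero (inertL_apply_root hι (not_dvd_expOrder p hp.out.pos) unrRoot_spec.pow_eq_one)

theorem unrChar_frobL : unrChar p (frobL q) = 1 := by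
  rw [← Nat.cast_one]
  refine unrChar_eq ?_
  rw [pow_one, frobL_apply_root (not_dvd_expOrder p hp.out.pos) unrRoot_spec.pow_eq_one]

/-- A Frobenius element raises to the `q`-th power modulo the maximal ideal. -/
theorem near_frob {φ : LG q} (hφ : (padicPlace q).IsFrobeniusAt (loc q φ) q)
    {x : AlgebraicClosure ℚ} (hx : ‖padicEmbedding q x‖ ≤ 1) :
    ‖φ (padicEmbedding q x) - padicEmbedding q x ^ q‖ < 1 := by
  rw [← iota_loc, ← map_pow, ← map_sub, ← mem_nonunits_padicPlace]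
  refine Density.sub_pow_mem_nonunits hφ ?_
  rw [mem_padicPlace_iff, ← NNReal.coe_le_coe]
  exact hx

end Near

/-! ### The residue character -/

variable {p : ℕ} [hp : Fact p.Prime] {l : ℕ} [hl : Fact l.Prime]

open Classical in
variable (p l) in
/-- The power residue symbol modulo `l`. -/
def psi0 (u : ℤ) : ZMod p :=
  if h : ∃ j : ZMod p, ‖(u : PadicAlgCl l) ^ ((l - 1) / p) - (cycL p l).ζ ^ j.val‖ < 1 then h.choose
  else 0

variable (hlp : p ∣ l - 1)
include hlp

theorem ne_of_dvd_sub_one : l ≠ p := fun h => by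
  subst h
  have := Nat.le_of_dvd (by have := hl.out.two_le; omega) hlp
  have := hl.out.two_le
  omega

theorem psi0_spec {u : ℤ} (hu : ¬ (l : ℤ) ∣ u) :
    ‖(u : PadicAlgCl l) ^ ((l - 1) / p) - (cycL p l).ζ ^ (psi0 p l u).val‖ < 1 := by
  have h : ∃ j : ZMod p, ‖(u : PadicAlgCl l) ^ ((l - 1) / p) - (cycL p l).ζ ^ j.val‖ < 1 := by
    refine exists_near_root (ne_of_dvd_sub_one hlp) (cycL p l).prim ?_
    rw [← pow_mul, Nat.div_mul_cancel hlp, ← Int.cast_pow, ← Int.cast_one]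
    refine near_intCast ?_
    rw [← ZMod.intCast_eq_intCast_iff_dvd_sub, Int.cast_one, Int.cast_pow, eq_comm]
    exact ZMod.pow_card_sub_one_eq_one fun h => hu ((ZMod.intCast_zmod_eq_zero_iff_dvd u l).1 h)
  rw [psi0, dif_pos h]
  exact h.choose_spec

theorem psi0_eq {u : ℤ} (hu : ¬ (l : ℤ) ∣ u) {j : ZMod p}
    (h : ‖(u : PadicAlgCl l) ^ ((l - 1) / p) - (cycL p l).ζ ^ j.val‖ < 1) : psi0 p l u = j :=
  eq_of_near_root (ne_of_dvd_sub_one hlp) (cycL p l).prim
    (near_trans (by rw [norm_sub_rev]; exact psi0_spec hlp hu) h)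

theorem psi0_congr {u v : ℤ} (hu : ¬ (l : ℤ) ∣ u) (h : (l : ℤ) ∣ u - v) :
    psi0 p l u = psi0 p l v := by
  have hv : ¬ (l : ℤ) ∣ v := fun hd => hu (by simpa using dvd_add h hd)
  refine psi0_eq hlp hu (near_trans ?_ (psi0_spec hlp hv))
  exact near_pow (near_intCast h) (norm_intCast_eq_one hv) _

theorem psi0_mul {u v : ℤ} (hu : ¬ (l : ℤ) ∣ u) (hv : ¬ (l : ℤ) ∣ v) :
    psi0 p l (u * v) = psi0 p l u + psi0 p l v := by
  refine psi0_eq hlp (fun h => ((Nat.prime_iff_prime_int.1 hl.out).dvd_or_dvd h).elim hu hv) ?_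
  have e : (cycL p l).ζ ^ (psi0 p l u + psi0 p l v).val
      = (cycL p l).ζ ^ (psi0 p l u).val * (cycL p l).ζ ^ (psi0 p l v).val := by
    rw [← (cycL p l).eps_val, ← (cycL p l).eps_val, ← (cycL p l).eps_val, map_add, UM.val_add]
  rw [e, Int.cast_mul, mul_pow]
  exact near_mul (psi0_spec hlp hu) (psi0_spec hlp hv)
    (by rw [norm_pow, norm_intCast_eq_one hv, one_pow]) (norm_pow_zeta (cycL p l).prim _).le

theorem psi0_one : psi0 p l 1 = 0 := by
  have h1 : ¬ (l : ℤ) ∣ 1 := fun h =>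
    hl.out.one_lt.ne' (Nat.dvd_one.1 (Int.natCast_dvd_natCast.1 (by rwa [Nat.cast_one])))
  have := psi0_mul hlp h1 h1
  rwa [one_mul, left_eq_add] at this

/-- The roots of unity of order `p` are rational at `l`. -/
theorem chi_cycL_eq_one (τ : LG l) : (cycL p l).χ τ = 1 := by
  obtain ⟨i, hi, h⟩ := exists_frob_exponent τ Nat.one_pos (M := p) (by rwa [pow_one])
  obtain rfl : i = 0 := by omega
  have h' := ((cycL p l).act τ).symm.trans (h _ (cycL p l).prim.pow_eq_one)
  rw [pow_zero] at h'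
  refine Units.ext ?_
  rw [Units.val_one, ← ZMod.natCast_zmod_val ((cycL p l).χ τ : ZMod p),
    (cycL p l).prim.pow_inj (ZMod.val_lt _) hp.out.one_lt h', Nat.cast_one]

omit hlp in
theorem norm_iota_kroot {a : fixUM GQ (AlgebraicClosure ℚ)} {u : ℤ} (ha : a.1.val = u)
    (hu : ¬ (l : ℤ) ∣ u) :
    ‖padicEmbedding l ((cycQ p).kroot a.1).val‖ = 1 ∧
      padicEmbedding l ((cycQ p).kroot a.1).val ^ p = u := by
  have h : padicEmbedding l ((cycQ p).kroot a.1).val ^ p = u := by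
    rw [← map_pow, ← UM.val_nsmul, (cycQ p).nsmul_kroot, ha, map_intCast]
  refine ⟨(pow_eq_one_iff_of_nonneg (norm_nonneg _) hp.out.ne_zero).1 ?_, h⟩
  rw [← norm_pow, h, norm_intCast_eq_one hu]

omit hlp in
theorem zeta_pow_kc (a : fixUM GQ (AlgebraicClosure ℚ)) (τ : LG l) :
    τ (padicEmbedding l ((cycQ p).kroot a.1).val)
      = (cycL p l).ζ ^ ((cycQ p).kc a (loc l τ)).val *
        padicEmbedding l ((cycQ p).kroot a.1).val := by
  have h := congrArg (fun m : UM (AlgebraicClosure ℚ) => padicEmbedding l m.val)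
    ((cycQ p).eps_kc a (loc l τ))
  simp only [(cycQ p).eps_val, map_pow, UM.val_sub, UM.val_smul, map_div₀, AlgEquiv.smul_def,
    iota_loc] at h
  show _ = padicEmbedding l (zetaQ p) ^ _ * _
  rw [show (cycQ p).ζ = zetaQ p from rfl] at h
  rw [h, div_mul_cancel₀ _ ((_root_.map_ne_zero _).2 (UM.val_ne_zero _))]

/-- The Kummer cocycle of a unit at inertia. -/
theorem kc_inertL {a : fixUM GQ (AlgebraicClosure ℚ)} {u : ℤ} (ha : a.1.val = u)
    (hu : ¬ (l : ℤ) ∣ u) {ι : LG l} (hι : ι ∈ inertL l) : (cycQ p).kc a (loc l ι) = 0 := by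
  obtain ⟨hA, -⟩ := norm_iota_kroot (p := p) ha hu
  have h := sub_lt_of_mem_inertL hι hA.le
  rw [zeta_pow_kc, ← sub_one_mul, norm_mul, hA, mul_one] at h
  refine eq_of_near_root (ne_of_dvd_sub_one hlp) (cycL p l).prim ?_
  rwa [ZMod.val_zero, pow_zero]

/-- The Kummer cocycle of a unit at Frobenius. -/
theorem kc_frob {a : fixUM GQ (AlgebraicClosure ℚ)} {u : ℤ} (ha : a.1.val = u)
    (hu : ¬ (l : ℤ) ∣ u) {φ : LG l} (hφ : (padicPlace l).IsFrobeniusAt (loc l φ) l) :
    (cycQ p).kc a (loc l φ) = psi0 p l u := by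
  obtain ⟨hA, hAp⟩ := norm_iota_kroot (p := p) ha hu
  set A := padicEmbedding l ((cycQ p).kroot a.1).val
  have h := near_frob hφ hA.le
  rw [zeta_pow_kc] at h
  have e : A ^ l = (u : PadicAlgCl l) ^ ((l - 1) / p) * A := by
    rw [← hAp, ← pow_mul, Nat.mul_div_cancel' hlp, ← pow_succ, Nat.sub_add_cancel hl.out.one_le]
  rw [show A ^ l = _ from e, ← sub_mul, norm_mul, hA, mul_one, norm_sub_rev] at h
  exact (psi0_eq hlp hu h).symm

/-- At `l` the Kummer class of a unit is unramified. -/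
theorem kum_unit_eq {a : fixUM GQ (AlgebraicClosure ℚ)} {u : ℤ} (ha : a.1.val = u)
    (hu : ¬ (l : ℤ) ∣ u) :
    map1 (Compat.id (L := LL l)) ((cycL p l).equi_top (chi_cycL_eq_one hlp))
        ((cycL p l).kum (locUnit l a)) = psi0 p l u • unrClass (p := p) := by
  rw [← map1_loc_kum, unrClass, ← map_smul, CycloData.kum, map1_mk1, map1_mk1]
  refine congrArg (mk1 (LL l) (triv (LG l) p)) (Subtype.ext ?_)
  show (fun τ => (cycQ p).kc a (loc l τ)) = fun τ => psi0 p l u * unrChar p τ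
  refine hom_eq_of_frob (((cycQ p).kc_mem a).1.precomp compat_loc)
    (unrChar_lc.comp (psi0 p l u * ·)) (fun x y => ?_)
    (fun x y => by rw [unrChar_mul, mul_add]) (fun ι hι => ?_) ?_
  · rw [map_mul, ((cycQ p).kc_mem a).2, chr_apply,
      show ((cycQ p).χ (loc l x) : ZMod p) = ((cycL p l).χ x : ZMod p) from rfl,
      chi_cycL_eq_one hlp, Units.val_one, one_mul, add_comm]
  · rw [kc_inertL hlp ha hu hι, unrChar_inertL hι, mul_zero]
  · rw [kc_frob hlp ha hu (frobL_spec l), unrChar_frobL, mul_one]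

/-! ### The auxiliary character -/

omit hlp in
variable (p l) in
/-- The character of order `p` of conductor `l`. -/
def auxChar (g : GQ) : ZMod p := psi0 p l (((ExtCitation.cycloChar l g : ZMod l).val : ℕ) : ℤ)

omit hlp in
theorem not_dvd_cyclo_val (g : GQ) :
    ¬ (l : ℤ) ∣ (((ExtCitation.cycloChar l g : ZMod l).val : ℕ) : ℤ) := fun h => by
  rw [← ZMod.intCast_zmod_eq_zero_iff_dvd, Int.cast_natCast, ZMod.natCast_zmod_val] at h
  exact (ExtCitation.cycloChar l g).ne_zero h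

theorem auxChar_mul (g h : GQ) : auxChar p l (g * h) = auxChar p l g + auxChar p l h := by
  rw [auxChar, auxChar, auxChar, ← psi0_mul hlp (not_dvd_cyclo_val g) (not_dvd_cyclo_val h)]
  refine psi0_congr hlp (not_dvd_cyclo_val _) ?_
  rw [← ZMod.intCast_eq_intCast_iff_dvd_sub, Int.cast_mul]
  simp only [Int.cast_natCast, ZMod.natCast_zmod_val, map_mul, Units.val_mul]

omit hlp in
theorem auxChar_lc : LC₁ LQ (auxChar p l) := by
  obtain ⟨N, hN, h⟩ := (smooth_chr_iff _).1 (cycQ l).smooth_chr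
  refine ⟨N, hN, fun g s hs => ?_⟩
  rw [auxChar, auxChar, map_mul, show ExtCitation.cycloChar l s = 1 from h s hs, mul_one]

theorem auxChar_one : auxChar p l 1 = 0 := by
  have := auxChar_mul hlp 1 1
  rwa [one_mul, left_eq_add] at this

theorem auxChar_complexConj : auxChar p l complexConjugation = psi0 p l (-1) := by
  refine psi0_congr hlp (not_dvd_cyclo_val _) ?_
  rw [← ZMod.intCast_eq_intCast_iff_dvd_sub, Int.cast_natCast, Int.cast_neg, Int.cast_one,
    ZMod.natCast_zmod_val]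
  set ζ := complexEmbedding (zetaQ l) with hζdef
  have hζ : IsPrimitiveRoot ζ l := zetaQ_spec.map_of_injective complexEmbedding.injective
  have hc := congrArg complexEmbedding (apply_zetaQ (p := l) complexConjugation)
  rw [complexEmbedding_complexConjugation, map_pow, ← hζdef,
    ← Complex.inv_eq_conj (hζ.norm'_eq_one hl.out.ne_zero)] at hc
  have hpow : ζ ^ ((ExtCitation.cycloChar l complexConjugation : ZMod l).val + 1) = 1 := by
    rw [pow_succ, ← hc, inv_mul_cancel₀ (hζ.ne_zero hl.out.ne_zero)]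
  have hd := (ZMod.natCast_eq_zero_iff _ l).2 ((hζ.pow_eq_one_iff_dvd _).1 hpow)
  rw [Nat.cast_add, Nat.cast_one, ZMod.natCast_zmod_val] at hd
  exact (eq_neg_of_add_eq_zero_left hd).symm

/-- The auxiliary character away from `l`. -/
theorem auxChar_loc {q : ℕ} [hq : Fact q.Prime] (hql : q ≠ l) (τ : LG q) :
    auxChar p l (loc q τ) = psi0 p l q * unrChar p τ := by
  refine congrFun (hom_eq_of_frob (f := fun τ => auxChar p l (loc q τ))
    (f' := fun τ => psi0 p l q * unrChar p τ) (auxChar_lc.precomp compat_loc)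
    (unrChar_lc.comp (psi0 p l q * ·)) (fun x y => by rw [map_mul, auxChar_mul hlp])
    (fun x y => by rw [unrChar_mul, mul_add]) (fun ι hι => ?_) ?_) τ
  · rw [unrChar_inertL hι, mul_zero, auxChar, cycloChar_inertL (p := l) hql hι, Units.val_one,
      ZMod.val_one, Nat.cast_one, psi0_one hlp]
  · rw [unrChar_frobL, mul_one]
    refine psi0_congr hlp (not_dvd_cyclo_val _) ?_
    rw [← ZMod.intCast_eq_intCast_iff_dvd_sub, Int.cast_natCast, Int.cast_natCast,
      ZMod.natCast_zmod_val]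
    have hζ : IsPrimitiveRoot (padicEmbedding q (zetaQ l)) l :=
      zetaQ_spec.map_of_injective (padicEmbedding q).injective
    have hf := frobL_apply_root (q := q) (m := l)
      (fun h => hql ((Nat.prime_dvd_prime_iff_eq hq.out hl.out).1 h)) hζ.pow_eq_one
    rw [← iota_loc, apply_zetaQ, map_pow] at hf
    have := (hζ.isOfFinOrder hl.out.ne_zero).pow_eq_pow_iff_modEq.1 hf
    rw [← hζ.eq_orderOf, ← ZMod.natCast_eq_natCast_iff, ZMod.natCast_zmod_val] at this
    exact this.symm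

/-- The auxiliary character at `l` is the Kummer character of `-l`. -/
theorem auxChar_loc_self {b : fixUM (LG l) (PadicAlgCl l)} (hb : b.1.val = -(l : PadicAlgCl l)) :
    ∃ f : ↥(Z1 (LL l) (chr (cycL p l).χ)),
      (∀ τ, f.1 τ = auxChar p l (loc l τ)) ∧ (cycL p l).kum b = mk1 (LL l) (chr (cycL p l).χ) f := by
  set μ := padicEmbedding l (zetaQ l)
  have hμ : IsPrimitiveRoot μ l := zetaQ_spec.map_of_injective (padicEmbedding l).injective
  have hμ1 : ‖μ‖ = 1 := norm_root_of_unity hl.out.pos hμ.pow_eq_one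
  set π := μ - 1 with hπdef
  have hπ0 : π ≠ 0 := sub_ne_zero.2 (hμ.ne_one hl.out.one_lt)
  have hsub : ‖μ - 1‖ ≤ 1 := by
    rw [sub_eq_add_neg]
    exact (IsUltrametricDist.norm_add_le_max _ _).trans (by simp [hμ1])
  -- `μ` is congruent to one
  have hπ1 : ‖π‖ < 1 := by
    obtain ⟨r, hr⟩ := exists_add_pow_prime_eq hl.out
      (⟨μ - 1, hsub⟩ : intRing l) 1
    have hr' := congrArg Subtype.val hr
    push_cast at hr'
    rw [sub_add_cancel, hμ.pow_eq_one, one_pow] at hr'
    have hπl : π ^ l = -((l : PadicAlgCl l) * π * r.1) := by linear_combination -hr'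
    refine lt_of_pow_lt_pow_left₀ l zero_le_one ?_
    rw [one_pow, ← norm_pow, hπl, norm_neg, norm_mul, norm_mul]
    refine lt_of_le_of_lt ?_ (norm_q_lt_one (q := l))
    exact (mul_le_of_le_one_right (by positivity) r.2).trans (mul_le_of_le_one_right (norm_nonneg _) hsub)
  -- geometric sums
  have hS : ∀ n : ℕ, ¬ l ∣ n → ‖(∑ j ∈ Finset.range n, μ ^ j) - (n : ℤ)‖ < 1 := fun n _ => by
    rw [show (((n : ℤ) : PadicAlgCl l)) = ∑ j ∈ Finset.range n, (1 : PadicAlgCl l) ^ j by simp,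
      ← Finset.sum_sub_distrib]
    exact lt_of_le_of_lt (IsUltrametricDist.norm_sum_le_of_forall_le_of_nonneg (norm_nonneg π)
      fun j _ => by
        rw [one_pow, ← geom_sum_mul μ j, norm_mul]
        refine mul_le_of_le_one_left (norm_nonneg _) ?_
        exact IsUltrametricDist.norm_sum_le_of_forall_le_of_nonneg zero_le_one fun i _ => by
          rw [norm_pow, hμ1, one_pow]) hπ1
  -- the product of the conjugates
  set m := (l - 1) / p
  have hm : m * p = l - 1 := Nat.div_mul_cancel hlp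
  have hlodd : Odd l := hl.out.odd_of_ne_two fun h => by
    subst h
    exact hp.out.one_lt.ne' (Nat.dvd_one.1 hlp)
  set W := ∏ k ∈ Finset.range (l - 1), ∑ j ∈ Finset.range (k + 1), μ ^ j
  have hprod : π ^ (l - 1) * W = l := by
    have h := (show IsPrimitiveRoot μ (l - 1 + 1) by
      rwa [Nat.sub_add_cancel hl.out.one_le]).prod_pow_sub_one_eq_order
    rw [Even.neg_one_pow (Nat.Odd.sub_odd hlodd odd_one), one_mul, ← Nat.cast_add_one,
      Nat.sub_add_cancel hl.out.one_le] at h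
    rw [← h]
    conv_lhs => rw [← Finset.card_range (l - 1), ← Finset.prod_const, ← Finset.prod_mul_distrib]
    exact Finset.prod_congr rfl fun k _ => by rw [mul_comm, geom_sum_mul]
  have hW : ‖W - (-1)‖ < 1 := by
    have hk : ∀ k ∈ Finset.range (l - 1), ¬ l ∣ k + 1 := fun k hk h => by
      have := Nat.le_of_dvd (Nat.succ_pos k) h
      rw [Finset.mem_range] at hk
      omega
    refine near_trans (near_prod _ (fun k hk' => hS (k + 1) (hk k hk')) fun k hk' =>
      norm_intCast_eq_one fun h => hk k hk' (Int.natCast_dvd_natCast.1 h)).1 ?_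
    have h := near_intCast (q := l) (u := ((l - 1).factorial : ℤ)) (v := -1) (by
      rw [← ZMod.intCast_eq_intCast_iff_dvd_sub, Int.cast_natCast, Int.cast_neg, Int.cast_one]
      exact (ZMod.wilsons_lemma l).symm)
    rw [← Finset.prod_range_add_one_eq_factorial] at h
    push_cast at h ⊢
    exact h
  -- the root
  obtain ⟨Y, hY⟩ := (cycL p l).root (-(l : PadicAlgCl l))
  set A := π ^ m with hAdef
  have hA0 : A ≠ 0 := pow_ne_zero _ hπ0
  have hAp : (Y / A) ^ p = -W := by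
    rw [div_pow, hY, hAdef, ← pow_mul, hm, div_eq_iff (pow_ne_zero _ hπ0), ← hprod]
    ring
  obtain ⟨j, hj⟩ := exists_near_root (ne_of_dvd_sub_one hlp) (cycL p l).prim (x := Y / A) (by
    rw [hAp, show -W - 1 = -(W - -1) by ring, norm_neg]; exact hW)
  set ω := (cycL p l).ζ ^ j.val
  have hω0 : ω ≠ 0 := pow_ne_zero _ ((cycL p l).prim.ne_zero hp.out.ne_zero)
  set Y' := Y / ω with hY'
  have hY'0 : Y' ≠ 0 := div_ne_zero (fun h => neg_ne_zero.2 (Nat.cast_ne_zero.2 hl.out.ne_zero : (l : PadicAlgCl l) ≠ 0) (by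
    rw [← hY, h, zero_pow hp.out.ne_zero])) hω0
  have hx : ‖Y' / A - 1‖ < 1 := by
    rw [show Y' / A - 1 = (Y / A - ω) * ω⁻¹ by rw [hY']; field_simp, norm_mul, norm_inv,
      norm_pow_zeta (cycL p l).prim, inv_one, mul_one]
    exact hj
  let Z : UM (PadicAlgCl l) := UM.mk Y' hY'0
  have hZ : p • Z = b.1 := UM.ext (by
    rw [UM.val_nsmul, UM.val_mk, hb, hY', div_pow, hY, ← pow_mul, mul_comm, pow_mul,
      (cycL p l).prim.pow_eq_one, one_pow, div_one])
  have hadd : ∀ g h : LG l, auxChar p l (loc l (g * h))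
      = chr (cycL p l).χ g (auxChar p l (loc l h)) + auxChar p l (loc l g) := fun g h => by
    rw [chr_apply, chi_cycL_eq_one hlp, Units.val_one, one_mul, map_mul, auxChar_mul hlp, add_comm]
  refine ⟨⟨fun τ => auxChar p l (loc l τ), auxChar_lc.precomp compat_loc, hadd⟩, fun _ => rfl,
    (cycL p l).kum_eq b (A := Z) hZ _ fun τ => UM.ext ?_⟩
  rw [(cycL p l).eps_val, UM.val_sub, UM.val_smul, UM.val_mk]
  show _ = τ Y' / Y'
  obtain ⟨i, hi⟩ : ∃ i : ZMod p, τ Y' / Y' = (cycL p l).ζ ^ i.val := by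
    have hsm : τ • Z - Z ∈ {x : UM (PadicAlgCl l) | p • x = 0} := by
      show p • (τ • Z - Z) = 0
      rw [smul_sub, smul_comm, hZ, b.2 τ, sub_self]
    obtain ⟨i, hi⟩ := (cycL p l).exists_eps hsm
    exact ⟨i, ((congrArg UM.val hi).symm.trans ((cycL p l).eps_val i))⟩
  rw [hi]
  congr 2
  show auxChar p l (loc l τ) = i
  set u := (ExtCitation.cycloChar l (loc l τ) : ZMod l).val with hu
  have hul : ¬ l ∣ u := fun h => not_dvd_cyclo_val (loc l τ) (Int.natCast_dvd_natCast.2 h)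
  refine psi0_eq hlp (not_dvd_cyclo_val _) ?_
  have hτμ : τ μ = μ ^ u := by
    show τ (padicEmbedding l (zetaQ l)) = _
    rw [← iota_loc, apply_zetaQ, map_pow]
  have hτA : τ A = (∑ k ∈ Finset.range u, μ ^ k) ^ m * A := by
    rw [hAdef, map_pow, ← mul_pow, hπdef, map_sub, map_one, hτμ, geom_sum_mul]
  have hSu := hS u hul
  have hnS : ‖((u : ℤ) : PadicAlgCl l)‖ = 1 := norm_intCast_eq_one (not_dvd_cyclo_val _)
  have hS0 : (∑ k ∈ Finset.range u, μ ^ k) ≠ 0 := fun h0 => by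
    have h1 := norm_eq_one_of_near hSu hnS
    rw [h0, norm_zero] at h1
    exact zero_ne_one h1
  have key : (∑ k ∈ Finset.range u, μ ^ k) ^ m * τ (Y' / A) = (cycL p l).ζ ^ i.val * (Y' / A) := by
    rw [← hi, map_div₀, hτA]
    field_simp
  have hx1 : ‖τ (Y' / A) - 1‖ < 1 := by rwa [← map_one τ, ← map_sub, norm_algEquiv]
  have h1 := near_mul (near_pow hSu hnS m) hx1
    (norm_eq_one_of_near hx1 norm_one).le (by rw [norm_pow, hnS, one_pow])
  rw [key, mul_one] at h1
  have h2 := near_mul (x := (cycL p l).ζ ^ i.val) (x' := (cycL p l).ζ ^ i.val)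
    (by rw [sub_self, norm_zero]; exact one_pos) hx (norm_eq_one_of_near hx norm_one).le
    (norm_pow_zeta (cycL p l).prim _).le
  rw [mul_one] at h2
  refine near_trans ?_ h2
  rw [norm_sub_rev]
  exact h1

end FA.GalCoh
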