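import Fermat.Agent.GalCoh.AuxChar
import Fermat.Agent.GalCoh.Support

/-!
Auxiliary primes `l ≡ 1 (mod p)` modulo which finitely many primes are not `p`-th powers.
-/

set_option autoImplicit false
set_option linter.unusedSectionVars false

noncomputable section

namespace FA.GalCoh

open scoped Pointwise

variable {p : ℕ} [hp : Fact p.Prime]

/-- A rational integer as a fixed element. -/
def intUM (u : ℤ) (hu : u ≠ 0) : fixUM GQ (AlgebraicClosure ℚ) :=
  ⟨UM.mk (u : AlgebraicClosure ℚ) (Int.cast_ne_zero.2 hu),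
    fun g => UM.ext (by
      show g (u : AlgebraicClosure ℚ) = (u : AlgebraicClosure ℚ)
      exact map_intCast g u)⟩

theorem val_intUM (u : ℤ) (hu : u ≠ 0) :
    (intUM u hu).1.val = (u : AlgebraicClosure ℚ) := rfl

/-- Fixed elements are rational. -/
theorem exists_rat_of_fixUM (a : fixUM GQ (AlgebraicClosure ℚ)) :
    ∃ r : ℚ, r ≠ 0 ∧ a.1.val = (r : AlgebraicClosure ℚ) := by
  have h : a.1.val ∈ IntermediateField.fixedField
      (⊥ : IntermediateField ℚ (AlgebraicClosure ℚ)).fixingSubgroup :=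
    (IntermediateField.mem_fixedField_iff _ _).2 fun g _ => congrArg UM.val (a.2 g)
  rw [InfiniteGalois.fixedField_fixingSubgroup, IntermediateField.mem_bot] at h
  obtain ⟨r, hr⟩ := h
  refine ⟨r, fun h0 => a.1.val_ne_zero ?_, ?_⟩
  · rw [← hr, h0, map_zero]
  · rw [← hr, eq_ratCast]

theorem kc_mul_of_ker (a : fixUM GQ (AlgebraicClosure ℚ)) {g : GQ}
    (hg : ExtCitation.cycloChar p g = 1) (h : GQ) :
    (cycQ p).kc a (g * h) = (cycQ p).kc a g + (cycQ p).kc a h := by
  rw [((cycQ p).kc_mem a).2, chr_apply, show (cycQ p).χ g = 1 from hg, Units.val_one, one_mul,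
    add_comm]

theorem kc_pow_of_ker (a : fixUM GQ (AlgebraicClosure ℚ)) {g : GQ}
    (hg : ExtCitation.cycloChar p g = 1) (n : ℕ) :
    (cycQ p).kc a (g ^ n) = n * (cycQ p).kc a g := by
  induction n with
  | zero =>
    rw [pow_zero, Nat.cast_zero, zero_mul]
    exact Z1.map_one (ρ := chr (cycQ p).χ) ⟨_, (cycQ p).kc_mem a⟩
  | succ n ih =>
    rw [pow_succ', kc_mul_of_ker a hg, ih, Nat.cast_succ]
    ring

/-- Elements with prescribed Kummer values. -/
theorem exists_kc_eq {ι : Type} [Fintype ι] (a : ι → fixUM GQ (AlgebraicClosure ℚ))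
    (w : ι → ZMod p)
    (hind : ∀ n : ι → ℕ, (∃ c : fixUM GQ (AlgebraicClosure ℚ), p • c = ∑ i, n i • a i) →
      ∑ i, (n i : ZMod p) * w i = 0) :
    ∃ σ : GQ, ExtCitation.cycloChar p σ = 1 ∧ ∀ i, (cycQ p).kc (a i) σ = w i := by
  classical
  set H : Subgroup GQ := (ExtCitation.cycloChar p).ker with hHdef
  have hH1 : ∀ h ∈ H, (cycQ p).χ h = 1 := fun h hh => hh
  let Φ : Additive H →+ (ι → ZMod p) := AddMonoidHom.mk'
    (fun g i => (cycQ p).kc (a i) (Additive.toMul g).1)
    fun g g' => funext fun i => kc_mul_of_ker (a i) (Additive.toMul g).2 _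
  by_contra! hno
  have hw : w ∉ AddSubgroup.toZModSubmodule p Φ.range := fun h => by
    obtain ⟨g, hg⟩ := h
    obtain ⟨i, hi⟩ := hno _ (Additive.toMul g).2
    exact hi (congrFun hg i)
  obtain ⟨f, hfw, hf⟩ := Submodule.exists_dual_map_eq_bot_of_notMem hw inferInstance
  let n : ι → ℕ := fun i => (f (Pi.single i 1)).val
  have hfx : ∀ v : ι → ZMod p, f v = ∑ i, (n i : ZMod p) * v i := fun v => by
    conv_lhs => rw [← Finset.univ_sum_single v]
    rw [map_sum]
    refine Finset.sum_congr rfl fun i _ => ?_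
    rw [ZMod.natCast_zmod_val, show Pi.single i (v i) = v i • Pi.single i (1 : ZMod p) by
      rw [← Pi.single_smul', smul_eq_mul, mul_one], map_smul, smul_eq_mul, mul_comm]
  set a' := ∑ i, n i • a i
  have hN : H ∈ LQ.carrier := by
    obtain ⟨N, ⟨E, hE, hle⟩, h⟩ := (smooth_chr_iff _).1 (cycQ p).smooth_chr
    exact ⟨E, hE, fun g hg => h g (hle hg)⟩
  -- the class on the kernel is zero
  have hres : ((cycQ p).kumData H hH1).kum ⟨a'.1, fun g => a'.2 g.1⟩ = 0 := by
    rw [← (cycQ p).res_kum H hH1, ← (cycQ p).kumHom_apply, map_sum, map_sum]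
    simp only [map_nsmul]
    simp only [CycloData.kumHom_apply, CycloData.kum, map1_mk1, ← map_nsmul, ← map_sum]
    refine (congrArg (mk1 _ (triv H p)) (Subtype.ext (funext fun g => ?_))).trans (map_zero _)
    show (∑ i, n i • (⟨_, (cycQ p).kc_mem (a i)⟩ : ↥(Z1 LQ (chr (cycQ p).χ)))).1 g.1 = 0
    rw [AddSubmonoidClass.coe_finsetSum]
    simp only [Finset.sum_apply, AddSubmonoidClass.coe_nsmul, nsmul_eq_mul]
    show ∑ i, (n i : ZMod p) * (cycQ p).kc (a i) g.1 = 0
    rw [← hfx fun i => (cycQ p).kc (a i) g.1]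
    exact LinearMap.mem_ker.1 (LinearMap.le_ker_iff_map.2 hf ⟨Additive.ofMul g, rfl⟩)
  obtain ⟨⟨b, hb⟩, hpb⟩ := (((cycQ p).kumData H hH1).kum_eq_zero_iff _).1 hres
  have hpb' : p • b = a'.1 := congrArg Subtype.val hpb
  -- the norm
  have := LQ.finiteIndex hN
  let _ : Fintype (GQ ⧸ H) := Fintype.ofFinite _
  let m : GQ ⧸ H → UM (AlgebraicClosure ℚ) := fun x => x.out • b
  have hm : ∀ g : GQ, m g = g • b := fun g => by
    obtain ⟨h, hh⟩ := QuotientGroup.mk_out_eq_mul H g
    show ((g : GQ ⧸ H).out) • b = _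
    rw [hh, mul_smul]
    exact congrArg (g • ·) (hb ⟨h, h.2⟩)
  let c : fixUM GQ (AlgebraicClosure ℚ) := ⟨∑ x, m x, fun g => by
    rw [Finset.smul_sum]
    refine Fintype.sum_equiv (MulAction.toPerm g) _ _ fun x => ?_
    induction x using QuotientGroup.induction_on with
    | H z =>
      show g • m z = m ((g * z : GQ) : GQ ⧸ H)
      rw [hm, hm, mul_smul]⟩
  have hc : p • c = H.index • a' := Subtype.ext (by
    rw [AddSubmonoidClass.coe_nsmul, AddSubmonoidClass.coe_nsmul]
    show p • ∑ x, m x = _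
    rw [Finset.smul_sum, Subgroup.index_eq_card, Nat.card_eq_fintype_card, ← Finset.card_univ,
      ← Finset.sum_const]
    refine Finset.sum_congr rfl fun x _ => ?_
    show p • x.out • b = _
    rw [← smul_comm x.out p b, hpb', a'.2])
  have hd : (H.index : ZMod p) ≠ 0 := fun h => by
    rw [ZMod.natCast_eq_zero_iff, hHdef, Subgroup.index_ker] at h
    have := h.trans (Subgroup.card_subgroup_dvd_card (ExtCitation.cycloChar p).range)
    rw [Nat.card_eq_fintype_card, ZMod.card_units] at this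
    have := Nat.le_of_dvd (by have := hp.out.one_lt; omega) this
    have := hp.out.pos
    omega
  have hcast := ZMod.natCast_zmod_val ((H.index : ZMod p)⁻¹)
  set e := ((H.index : ZMod p)⁻¹).val
  obtain ⟨t, ht⟩ : ∃ t, e * H.index = 1 + p * t := by
    refine ⟨e * H.index / p, ?_⟩
    have h1 : ((e * H.index : ℕ) : ZMod p) = ((1 : ℕ) : ZMod p) := by
      rw [Nat.cast_mul, hcast, inv_mul_cancel₀ hd, Nat.cast_one]
    rw [ZMod.natCast_eq_natCast_iff, Nat.ModEq, Nat.mod_eq_of_lt hp.out.one_lt] at h1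
    conv_lhs => rw [← Nat.mod_add_div (e * H.index) p, h1]
  have hpc : p • (e • c - t • a') = a' := by
    rw [smul_sub, smul_comm, hc, smul_smul, ht, add_smul, one_smul, mul_smul, add_sub_cancel_right]
  exact hfw ((hfx w).trans (hind n ⟨_, hpc⟩))

/-- Existence of the auxiliary prime. -/
theorem exists_aux_prime (P : Finset Nat.Primes) : ∃ l : Nat.Primes, l ∉ P ∧ p ∣ (l : ℕ) - 1 ∧
    (∀ q ∈ P, psi0 p (l : ℕ) ((q : ℕ) : ℤ) ≠ 0) ∧ (p = 2 → psi0 p (l : ℕ) (-1) ≠ 0) := by
  classical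
  let u : Option P → ℤ := fun i => i.elim (-1) fun q => ((q.1 : ℕ) : ℤ)
  have hu : ∀ i, u i ≠ 0 := fun i => by
    cases i with
    | none => exact neg_ne_zero.2 one_ne_zero
    | some q => exact Int.natCast_ne_zero.2 q.1.2.ne_zero
  let a : Option P → fixUM GQ (AlgebraicClosure ℚ) := fun i => intUM (u i) (hu i)
  let w : Option P → ZMod p := fun i => i.elim (if p = 2 then 1 else 0) fun _ => 1
  obtain ⟨g, hg1, hgw⟩ := exists_kc_eq a w fun n ⟨c, hc⟩ => by
    obtain ⟨r, hr0, hr⟩ := exists_rat_of_fixUM c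
    have h := congrArg (fun x : fixUM GQ (AlgebraicClosure ℚ) => x.1.val) hc
    simp only [AddSubmonoidClass.coe_nsmul, AddSubmonoidClass.coe_finsetSum, UM.val_nsmul,
      UM.val_sum, hr, a, val_intUM] at h
    rw [Fintype.prod_option] at h
    have h' : r ^ p = (-1 : ℚ) ^ n none * ∏ q : P, ((q.1 : ℕ) : ℚ) ^ n (some q) := by
      apply (Rat.cast_injective (α := AlgebraicClosure ℚ))
      push_cast
      rw [h]
      simp [u]
    have hval : ∀ q : P, (n (some q) : ZMod p) = 0 := by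
      intro q
      have : Fact ((q.1 : ℕ)).Prime := ⟨q.1.2⟩
      have e := congrArg (padicValRat (q.1 : ℕ)) h'
      rw [padicValRat.pow, padicValRat.mul (pow_ne_zero _ (neg_ne_zero.2 one_ne_zero))
        (Finset.prod_ne_zero_iff.2 fun q' _ => pow_ne_zero _ (Nat.cast_ne_zero.2 q'.1.2.ne_zero)),
        padicValRat.pow, padicValRat.neg, padicValRat.one, mul_zero,
        zero_add] at e
      have hsum : ∀ s : Finset P,
          padicValRat (q.1 : ℕ) (∏ q' ∈ s, ((q'.1 : ℕ) : ℚ) ^ n (some q'))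
            = ∑ q' ∈ s, (n (some q') : ℤ) * padicValRat (q.1 : ℕ) ((q'.1 : ℕ) : ℚ) := by
        intro s
        induction s using Finset.induction_on with
        | empty => simp
        | insert b s hb ih =>
          have hne : ∀ q' : P, ((q'.1 : ℕ) : ℚ) ^ n (some q') ≠ 0 := fun q' =>
            pow_ne_zero _ (Nat.cast_ne_zero.2 q'.1.2.ne_zero)
          rw [Finset.prod_insert hb, Finset.sum_insert hb,
            padicValRat.mul (hne b) (Finset.prod_ne_zero_iff.2 fun q' _ => hne q'),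
            padicValRat.pow, ih]
      rw [hsum, Finset.sum_eq_single q (fun q' _ hne => by
        have : Fact ((q'.1 : ℕ)).Prime := ⟨q'.1.2⟩
        rw [padicValRat.of_nat, padicValNat_primes (fun h => hne (Subtype.ext (Subtype.ext h.symm))),
          Nat.cast_zero, mul_zero]) (fun h => absurd (Finset.mem_univ _) h),
        padicValRat.self q.1.2.one_lt, mul_one] at e
      rw [← Int.cast_natCast, ← e, Int.cast_mul, Int.cast_natCast, ZMod.natCast_self, zero_mul]
    rw [Fintype.sum_option, Finset.sum_eq_zero (fun q _ => by rw [hval q, zero_mul]), add_zero]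
    show (n none : ZMod p) * (if p = 2 then 1 else 0) = 0
    split_ifs with hp2
    · subst hp2
      rw [mul_one, ZMod.natCast_eq_zero_iff_even]
      by_contra hodd
      rw [Nat.not_even_iff_odd] at hodd
      rw [hodd.neg_one_pow] at h'
      have hpos : (0 : ℚ) < ∏ q : P, ((q.1 : ℕ) : ℚ) ^ n (some q) :=
        Finset.prod_pos fun q _ => pow_pos (Nat.cast_pos.2 q.1.2.pos) _
      nlinarith [sq_nonneg r]
    · rw [mul_zero]
  -- a common level
  obtain ⟨N₁, hN₁, hs⟩ : LC₁ LQ fun x => fun i => (cycQ p).kc (a i) x := by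
    have key : ∀ s : Finset (Option P), ∃ N ∈ LQ.carrier, ∀ i ∈ s, ∀ x n, n ∈ N →
        (cycQ p).kc (a i) (x * n) = (cycQ p).kc (a i) x := by
      intro s
      induction s using Finset.induction_on with
      | empty => exact ⟨⊤, LQ.top_mem, fun i hi => absurd hi (Finset.notMem_empty i)⟩
      | insert b s hb ih =>
        obtain ⟨N, hN, h⟩ := ih
        obtain ⟨N', hN', h'⟩ := ((cycQ p).kc_mem (a b)).1
        refine ⟨N ⊓ N', LQ.inf_mem hN hN', fun i hi x n hn => ?_⟩
        rcases Finset.mem_insert.1 hi with rfl | hi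
        · exact h' x n hn.2
        · exact h i hi x n hn.1
    obtain ⟨N, hN, h⟩ := key Finset.univ
    exact ⟨N, hN, fun x n hn => funext fun i => h i (Finset.mem_univ i) x n hn⟩
  obtain ⟨N₂, hN₂, hχ⟩ := (smooth_chr_iff _).1 (cycQ p).smooth_chr
  obtain ⟨N, hN, hle, hn⟩ := LQ.exists_normal (LQ.inf_mem hN₁ hN₂)
  obtain ⟨q, A, σ, k, hq, hqS, hA, hσ, hk, j, hj⟩ := FA.Density.exists_frobenius_generating N
    (isOpen_of_mem_LQ hN) g
    ((insert (⟨p, hp.out⟩ : Nat.Primes) P).image fun q : Nat.Primes => (q : ℕ))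
  have : Fact q.Prime := ⟨hq⟩
  have hσ1 : ExtCitation.cycloChar p σ = 1 := by
    rw [← mul_inv_cancel_left (g ^ j) σ, map_mul, map_pow, hg1, one_pow, one_mul]
    exact hχ _ (hle hj).2
  have hσw : ∀ i, (cycQ p).kc (a i) g = k * (cycQ p).kc (a i) σ := fun i => by
    have e := congrFun (hs (σ ^ k) _ (hle hk).1) i
    simp only [mul_inv_cancel_left] at e
    rw [e, kc_pow_of_ker _ hσ1]
  obtain ⟨τ, hτ⟩ := FA.TW.exists_smul_eq_of_liesOver hq (A := padicPlace q) (B := A)
    (liesOverPrime_padicPlace q) hA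
  have hfrob : (padicPlace q).IsFrobeniusAt (τ⁻¹ * σ * τ) q := by
    have h := Density.isFrobeniusAt_smul hσ τ⁻¹
    rwa [inv_inv, ← hτ, inv_smul_smul] at h
  obtain ⟨φ, hφ⟩ : τ⁻¹ * σ * τ ∈ (loc q).range := by
    rw [range_loc]; exact hfrob.mem_decompositionSubgroup
  rw [← hφ] at hfrob
  have hlP : (⟨q, hq⟩ : Nat.Primes) ∉ P := fun h =>
    hqS (Finset.mem_image.2 ⟨_, Finset.mem_insert_of_mem h, rfl⟩)
  have hqp : q ≠ p := fun h =>
    hqS (Finset.mem_image.2 ⟨⟨p, hp.out⟩, Finset.mem_insert_self _ _, h.symm⟩)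
  -- the roots of unity are rational at `q`
  have hdvd : p ∣ q - 1 := by
    set ζ := padicEmbedding q (zetaQ p)
    have hζ : IsPrimitiveRoot ζ p := zetaQ_spec.map_of_injective (padicEmbedding q).injective
    have hζ1 : ‖ζ‖ = 1 := norm_root_of_unity hp.out.pos hζ.pow_eq_one
    have h := near_frob hfrob hζ1.le
    rw [← iota_loc, apply_zetaQ, show ExtCitation.cycloChar p (loc q φ) = 1 by
      rw [hφ, map_mul, map_mul, map_inv, hσ1, mul_one, inv_mul_cancel], Units.val_one, ZMod.val_one,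
      pow_one] at h
    have h' := root_eq_of_close (m := p) (fun hd => hqp ((Nat.prime_dvd_prime_iff_eq hq hp.out).1 hd))
      hζ.pow_eq_one (by rw [← pow_mul, mul_comm, pow_mul, hζ.pow_eq_one, one_pow]) h
    have hmod := (hζ.isOfFinOrder hp.out.ne_zero).pow_eq_pow_iff_modEq.1 ((pow_one ζ).trans h')
    rw [← hζ.eq_orderOf] at hmod
    exact (Nat.modEq_iff_dvd' hq.one_le).1 hmod
  refine ⟨⟨q, hq⟩, hlP, hdvd, ?_⟩
  have hpsi : ∀ i, w i ≠ 0 → psi0 p q (u i) ≠ 0 := by
    intro i hwi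
    have hdiv : ¬ (q : ℤ) ∣ u i := by
      cases i with
      | none => exact fun h => hq.one_lt.ne' (Nat.dvd_one.1 (Int.natCast_dvd_natCast.1 (by
          rw [Nat.cast_one]; exact dvd_neg.1 h)))
      | some r => exact fun h => hlP (by
          have := (Nat.prime_dvd_prime_iff_eq hq r.1.2).1 (Int.natCast_dvd_natCast.1 h)
          rw [show (⟨q, hq⟩ : Nat.Primes) = r.1 from Subtype.ext this]
          exact r.2)
    rw [← kc_frob hdvd (a := a i) (val_intUM _ _) hdiv hfrob, hφ, ((cycQ p).kc_mem (a i)).2,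
      chr_apply, map_mul, show (cycQ p).χ σ = 1 from hσ1, mul_one,
      ((cycQ p).kc_mem (a i)).2 τ⁻¹ σ, chr_apply]
    have h0 : (cycQ p).kc (a i) τ⁻¹ = -(((cycQ p).χ τ⁻¹ : ZMod p) * (cycQ p).kc (a i) τ) := by
      have := ((cycQ p).kc_mem (a i)).2 τ⁻¹ τ
      have h1 : (cycQ p).kc (a i) 1 = 0 :=
        Z1.map_one (ρ := chr (cycQ p).χ) ⟨_, (cycQ p).kc_mem (a i)⟩
      rw [inv_mul_cancel, h1, chr_apply] at this
      exact eq_neg_of_add_eq_zero_right this.symm
    rw [h0, add_comm (((cycQ p).χ τ⁻¹ : ZMod p) * (cycQ p).kc (a i) σ), add_neg_cancel_left]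
    refine mul_ne_zero (Units.ne_zero _) fun h => hwi ?_
    rw [← hgw i, hσw i, h, mul_zero]
  exact ⟨fun r hr => hpsi (some ⟨r, hr⟩) one_ne_zero,
    fun hp2 => hpsi none (by show (if p = 2 then (1 : ZMod p) else 0) ≠ 0; rw [if_pos hp2]; exact one_ne_zero)⟩

end FA.GalCoh
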