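import Mathlib

/-!
Low degree continuous cohomology of a group with a system of levels (a directed family of finite
index subgroups standing for the open subgroups), with linear coefficients.
-/

set_option autoImplicit false
set_option linter.unusedSectionVars false

noncomputable section

namespace FA.GalCoh

open Representation

variable {G : Type} [Group G]

/-- A system of levels: a filter base of finite index subgroups, cofinally normal. -/
structure Levels (G : Type) [Group G] where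
  /-- The subgroups which count as levels. -/
  carrier : Set (Subgroup G)
  top_mem : ⊤ ∈ carrier
  inf_mem : ∀ {N N' : Subgroup G}, N ∈ carrier → N' ∈ carrier → N ⊓ N' ∈ carrier
  exists_normal : ∀ {N : Subgroup G}, N ∈ carrier → ∃ N' ∈ carrier, N' ≤ N ∧ N'.Normal
  finiteIndex : ∀ {N : Subgroup G}, N ∈ carrier → N.FiniteIndex

variable (L : Levels G)

/-- A function on `G` is constant on right cosets of some level. -/
def LC₁ {X : Type*} (f : G → X) : Prop :=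
  ∃ N ∈ L.carrier, ∀ g s, s ∈ N → f (g * s) = f g

/-- A function on `G × G` is constant on right cosets of some level in both variables. -/
def LC₂ {X : Type*} (f : G × G → X) : Prop :=
  ∃ N ∈ L.carrier, ∀ g g' s s', s ∈ N → s' ∈ N → f (g * s, g' * s') = f (g, g')

variable {L}

theorem LC₁.comp {X Y : Type*} {f : G → X} (hf : LC₁ L f) (φ : X → Y) :
    LC₁ L (fun g => φ (f g)) := by
  obtain ⟨N, hN, h⟩ := hf
  exact ⟨N, hN, fun g s hs => by simp only [h g s hs]⟩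

theorem LC₂.comp {X Y : Type*} {f : G × G → X} (hf : LC₂ L f) (φ : X → Y) :
    LC₂ L (fun g => φ (f g)) := by
  obtain ⟨N, hN, h⟩ := hf
  exact ⟨N, hN, fun g g' s s' hs hs' => by simp only [h g g' s s' hs hs']⟩

theorem LC₁.map₂ {X Y Z : Type*} {f : G → X} {f' : G → Y} (hf : LC₁ L f) (hf' : LC₁ L f')
    (φ : X → Y → Z) : LC₁ L (fun g => φ (f g) (f' g)) := by
  obtain ⟨N, hN, h⟩ := hf
  obtain ⟨N', hN', h'⟩ := hf'
  exact ⟨N ⊓ N', L.inf_mem hN hN', fun g s hs => by simp only [h g s hs.1, h' g s hs.2]⟩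

theorem LC₂.map₂ {X Y Z : Type*} {f : G × G → X} {f' : G × G → Y} (hf : LC₂ L f) (hf' : LC₂ L f')
    (φ : X → Y → Z) : LC₂ L (fun g => φ (f g) (f' g)) := by
  obtain ⟨N, hN, h⟩ := hf
  obtain ⟨N', hN', h'⟩ := hf'
  exact ⟨N ⊓ N', L.inf_mem hN hN', fun g g' s s' hs hs' => by
    simp only [h g g' s s' hs.1 hs'.1, h' g g' s s' hs.2 hs'.2]⟩

theorem LC₁.const {X : Type*} (x : X) : LC₁ L (fun _ => x) :=
  ⟨⊤, L.top_mem, fun _ _ _ => rfl⟩

theorem LC₂.const {X : Type*} (x : X) : LC₂ L (fun _ => x) :=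
  ⟨⊤, L.top_mem, fun _ _ _ _ _ _ => rfl⟩

theorem LC₁.fst {X : Type*} {f : G → X} (hf : LC₁ L f) : LC₂ L (fun x => f x.1) := by
  obtain ⟨N, hN, h⟩ := hf
  exact ⟨N, hN, fun g _ s _ hs _ => h g s hs⟩

theorem LC₁.snd {X : Type*} {f : G → X} (hf : LC₁ L f) : LC₂ L (fun x => f x.2) := by
  obtain ⟨N, hN, h⟩ := hf
  exact ⟨N, hN, fun _ g' _ s' _ hs' => h g' s' hs'⟩

theorem LC₁.mul {X : Type*} {f : G → X} (hf : LC₁ L f) : LC₂ L (fun x => f (x.1 * x.2)) := by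
  obtain ⟨N, hN, h⟩ := hf
  obtain ⟨N', hN', hle, hn⟩ := L.exists_normal hN
  refine ⟨N', hN', fun g g' s s' hs hs' => ?_⟩
  show f (g * s * (g' * s')) = f (g * g')
  have hmem : g'⁻¹ * s * g' * s' ∈ N :=
    hle (N'.mul_mem (hn.conj_mem' s hs g') hs')
  have : g * s * (g' * s') = g * g' * (g'⁻¹ * s * g' * s') := by group
  rw [this, h _ _ hmem]

variable {k : Type} [Field k]
variable {V : Type} [AddCommGroup V] [Module k V]
variable {W : Type} [AddCommGroup W] [Module k W]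
variable {U : Type} [AddCommGroup U] [Module k U]

variable (L) in
/-- The module is inflated from some level. -/
def Smooth (ρ : Representation k G V) : Prop := ∃ N ∈ L.carrier, ∀ s ∈ N, ρ s = 1

theorem Smooth.lc {ρ : Representation k G V} (h : Smooth L ρ) : LC₁ L (fun g => ρ g) := by
  obtain ⟨N, hN, hρ⟩ := h
  exact ⟨N, hN, fun g s hs => by simp only [map_mul, hρ s hs, mul_one]⟩

theorem Smooth.lc_apply {ρ : Representation k G V} (h : Smooth L ρ) (v : V) :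
    LC₁ L (fun g => ρ g v) := h.lc.comp (fun e => e v)

section Complex

variable (ρ : Representation k G V)

/-- The differential in degree zero. -/
def d0 : V →ₗ[k] (G → V) where
  toFun v g := ρ g v - v
  map_add' v w := by ext g; simp; abel
  map_smul' c v := by ext g; simp [smul_sub]

/-- The differential in degree one. -/
def d1 : (G → V) →ₗ[k] (G × G → V) where
  toFun f x := ρ x.1 (f x.2) - f (x.1 * x.2) + f x.1
  map_add' f f' := by ext x; simp; abel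
  map_smul' c f := by ext x; simp [smul_sub, smul_add]

@[simp] theorem d0_apply (v : V) (g : G) : d0 ρ v g = ρ g v - v := rfl

theorem d1_apply (f : G → V) (x : G × G) :
    d1 ρ f x = ρ x.1 (f x.2) - f (x.1 * x.2) + f x.1 := rfl

theorem d1_d0 (v : V) : d1 ρ (d0 ρ v) = 0 := by
  ext ⟨g, h⟩
  simp [d1_apply]

variable (L)

/-- Level constant one-cochains. -/
def C1 : Submodule k (G → V) where
  carrier := {f | LC₁ L f}
  add_mem' hf hf' := hf.map₂ hf' (· + ·)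
  zero_mem' := LC₁.const 0
  smul_mem' c _ hf := hf.comp (c • ·)

/-- Level constant two-cochains. -/
def C2 : Submodule k (G × G → V) where
  carrier := {f | LC₂ L f}
  add_mem' hf hf' := hf.map₂ hf' (· + ·)
  zero_mem' := LC₂.const 0
  smul_mem' c _ hf := hf.comp (c • ·)

theorem mem_C1 (f : G → V) : f ∈ C1 L (k := k) ↔ LC₁ L f := Iff.rfl

theorem mem_C2 (f : G × G → V) : f ∈ C2 L (k := k) ↔ LC₂ L f := Iff.rfl

/-- One-cocycles. -/
def Z1 : Submodule k (G → V) where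
  carrier := {f | LC₁ L f ∧ ∀ g h, f (g * h) = ρ g (f h) + f g}
  add_mem' {f f'} hf hf' := ⟨hf.1.map₂ hf'.1 (· + ·), fun g h => by
    simp only [Pi.add_apply, hf.2 g h, hf'.2 g h, map_add]; abel⟩
  zero_mem' := ⟨LC₁.const 0, fun g h => by simp⟩
  smul_mem' c f hf := ⟨hf.1.comp (c • ·), fun g h => by
    simp only [Pi.smul_apply, hf.2 g h, smul_add, map_smul]⟩

/-- Two-cocycles. -/
def Z2 : Submodule k (G × G → V) where
  carrier := {f | LC₂ L f ∧ ∀ g h j, f (g * h, j) + f (g, h) = ρ g (f (h, j)) + f (g, h * j)}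
  add_mem' {f f'} hf hf' := ⟨hf.1.map₂ hf'.1 (· + ·), fun g h j => by
    simp only [Pi.add_apply, map_add]
    rw [add_add_add_comm, hf.2 g h j, hf'.2 g h j]; abel⟩
  zero_mem' := ⟨LC₂.const 0, fun g h j => by simp⟩
  smul_mem' c f hf := ⟨hf.1.comp (c • ·), fun g h j => by
    simp only [Pi.smul_apply, ← smul_add, map_smul, hf.2 g h j]⟩

theorem mem_Z1 (f : G → V) :
    f ∈ Z1 L ρ ↔ LC₁ L f ∧ ∀ g h, f (g * h) = ρ g (f h) + f g := Iff.rfl

theorem mem_Z2 (f : G × G → V) :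
    f ∈ Z2 L ρ ↔ LC₂ L f ∧ ∀ g h j, f (g * h, j) + f (g, h) = ρ g (f (h, j)) + f (g, h * j) :=
  Iff.rfl

/-- One-coboundaries. -/
def B1 : Submodule k (G → V) := LinearMap.range (d0 ρ)

/-- Two-coboundaries. -/
def B2 : Submodule k (G × G → V) := (C1 L).map (d1 ρ)

theorem mem_B1 (f : G → V) : f ∈ B1 ρ ↔ ∃ v, d0 ρ v = f := Iff.rfl

theorem mem_B2 (f : G × G → V) : f ∈ B2 L ρ ↔ ∃ c, LC₁ L c ∧ d1 ρ c = f := by
  simp [B2, mem_C1]

/-- The first continuous cohomology. -/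
abbrev H1 : Type := ↥(Z1 L ρ) ⧸ (B1 ρ).comap (Z1 L ρ).subtype

/-- The second continuous cohomology. -/
abbrev H2 : Type := ↥(Z2 L ρ) ⧸ (B2 L ρ).comap (Z2 L ρ).subtype

/-- The class of a one-cocycle. -/
abbrev mk1 : ↥(Z1 L ρ) →ₗ[k] H1 L ρ := Submodule.mkQ _

/-- The class of a two-cocycle. -/
abbrev mk2 : ↥(Z2 L ρ) →ₗ[k] H2 L ρ := Submodule.mkQ _

theorem mk1_eq_zero (f : ↥(Z1 L ρ)) : mk1 L ρ f = 0 ↔ ∃ v, d0 ρ v = f.1 := by
  simp [mk1, Submodule.Quotient.mk_eq_zero, mem_B1]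

theorem mk2_eq_zero (f : ↥(Z2 L ρ)) : mk2 L ρ f = 0 ↔ ∃ c, LC₁ L c ∧ d1 ρ c = f.1 := by
  simp [mk2, Submodule.Quotient.mk_eq_zero, mem_B2]

theorem mk1_eq_mk1 (f f' : ↥(Z1 L ρ)) : mk1 L ρ f = mk1 L ρ f' ↔ ∃ v, d0 ρ v = f.1 - f'.1 := by
  rw [← sub_eq_zero, ← map_sub, mk1_eq_zero]
  rfl

theorem mk2_eq_mk2 (f f' : ↥(Z2 L ρ)) :
    mk2 L ρ f = mk2 L ρ f' ↔ ∃ c, LC₁ L c ∧ d1 ρ c = f.1 - f'.1 := by
  rw [← sub_eq_zero, ← map_sub, mk2_eq_zero]
  rfl

variable {L} {ρ}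

theorem mk1_surjective : Function.Surjective (mk1 L ρ) := Submodule.mkQ_surjective _

theorem mk2_surjective : Function.Surjective (mk2 L ρ) := Submodule.mkQ_surjective _

theorem d0_mem_Z1 (hρ : Smooth L ρ) (v : V) : d0 ρ v ∈ Z1 L ρ :=
  ⟨(hρ.lc_apply v).comp (· - v), fun g h => by simp⟩

theorem d1_mem_C2 (hρ : Smooth L ρ) {c : G → V} (hc : LC₁ L c) : LC₂ L (d1 ρ c) := by
  have h := (hρ.lc.fst.map₂ hc.snd (fun e v => e v)).map₂ hc.mul (fun a b : V => a - b)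
  exact h.map₂ hc.fst (fun a b : V => a + b)

theorem d1_mem_Z2 (hρ : Smooth L ρ) {c : G → V} (hc : LC₁ L c) : d1 ρ c ∈ Z2 L ρ :=
  ⟨d1_mem_C2 hρ hc, fun g h j => by
    simp only [d1_apply, map_add, map_sub, map_mul, Module.End.mul_apply, mul_assoc]
    abel⟩

theorem mem_Z1_iff_d1 (f : G → V) : f ∈ Z1 L ρ ↔ LC₁ L f ∧ d1 ρ f = 0 := by
  refine and_congr_right fun _ => ⟨fun h => ?_, fun h g j => ?_⟩
  · ext ⟨g, j⟩
    simp [d1_apply, h g j]
  · have := congrFun h (g, j)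
    simp only [d1_apply, Pi.zero_apply] at this
    rw [← sub_eq_zero, ← neg_eq_zero, ← this]; abel

theorem Z1.map_one (f : ↥(Z1 L ρ)) : f.1 1 = 0 := by
  simpa using f.2.2 1 1

theorem Z1.map_inv (f : ↥(Z1 L ρ)) (g : G) : ρ g (f.1 g⁻¹) = -f.1 g := by
  rw [← add_eq_zero_iff_eq_neg, ← f.2.2 g g⁻¹, mul_inv_cancel, Z1.map_one]

end Complex

section Map

variable {G' : Type} [Group G'] {L' : Levels G'}

variable (L L') in
/-- A homomorphism compatible with the levels. -/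
def Compat (f : G' →* G) : Prop :=
  ∀ N ∈ L.carrier, ∃ N' ∈ L'.carrier, N' ≤ N.comap f

theorem Compat.id : Compat L L (MonoidHom.id G) := fun N hN => ⟨N, hN, le_rfl⟩

theorem Compat.comp {G'' : Type} [Group G''] {L'' : Levels G''} {f : G' →* G} (hf : Compat L L' f)
    {f' : G'' →* G'} (hf' : Compat L' L'' f') : Compat L L'' (f.comp f') := fun N hN => by
  obtain ⟨N', hN', h⟩ := hf N hN
  obtain ⟨N'', hN'', h'⟩ := hf' N' hN'
  exact ⟨N'', hN'', fun x hx => h (h' hx)⟩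

theorem LC₁.precomp {X : Type*} {f : G' →* G} (hf : Compat L L' f) {c : G → X} (hc : LC₁ L c) :
    LC₁ L' (fun g => c (f g)) := by
  obtain ⟨N, hN, h⟩ := hc
  obtain ⟨N', hN', hle⟩ := hf N hN
  exact ⟨N', hN', fun g s hs => by simp only [map_mul]; exact h _ _ (hle hs)⟩

theorem LC₂.precomp {X : Type*} {f : G' →* G} (hf : Compat L L' f) {c : G × G → X}
    (hc : LC₂ L c) : LC₂ L' (fun x => c (f x.1, f x.2)) := by
  obtain ⟨N, hN, h⟩ := hc
  obtain ⟨N', hN', hle⟩ := hf N hN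
  exact ⟨N', hN', fun g g' s s' hs hs' => by
    simp only [map_mul]; exact h _ _ _ _ (hle hs) (hle hs')⟩

theorem Smooth.comp {f : G' →* G} (hf : Compat L L' f) {ρ : Representation k G V}
    (hρ : Smooth L ρ) : Smooth L' (ρ.comp f) := by
  obtain ⟨N, hN, h⟩ := hρ
  obtain ⟨N', hN', hle⟩ := hf N hN
  exact ⟨N', hN', fun s hs => h _ (hle hs)⟩

/-- Pullback along `f` and push forward along `φ`, on one-cochains. -/
def pp1 (f : G' →* G) (φ : V →ₗ[k] W) : (G → V) →ₗ[k] (G' → W) where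
  toFun c g := φ (c (f g))
  map_add' c c' := by ext; simp
  map_smul' r c := by ext; simp

/-- Pullback along `f` and push forward along `φ`, on two-cochains. -/
def pp2 (f : G' →* G) (φ : V →ₗ[k] W) : (G × G → V) →ₗ[k] (G' × G' → W) where
  toFun c x := φ (c (f x.1, f x.2))
  map_add' c c' := by ext; simp
  map_smul' r c := by ext; simp

@[simp] theorem pp1_apply (f : G' →* G) (φ : V →ₗ[k] W) (c : G → V) (g : G') :
    pp1 f φ c g = φ (c (f g)) := rfl

@[simp] theorem pp2_apply (f : G' →* G) (φ : V →ₗ[k] W) (c : G × G → V) (x : G' × G') :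
    pp2 f φ c x = φ (c (f x.1, f x.2)) := rfl

/-- Equivariance along `f`. -/
def Equi (f : G' →* G) (ρ : Representation k G V) (σ : Representation k G' W) (φ : V →ₗ[k] W) :
    Prop := ∀ g v, φ (ρ (f g) v) = σ g (φ v)

theorem Equi.comp {G'' : Type} [Group G''] {ρ : Representation k G V}
    {σ : Representation k G' W} {τ : Representation k G'' U} {f : G' →* G} {f' : G'' →* G'}
    {φ : V →ₗ[k] W} {ψ : W →ₗ[k] U} (hφ : Equi f ρ σ φ) (hψ : Equi f' σ τ ψ) :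
    Equi (f.comp f') ρ τ (ψ ∘ₗ φ) := fun g v => by
  show ψ (φ (ρ (f (f' g)) v)) = τ g (ψ (φ v))
  rw [hφ (f' g) v, hψ g]

theorem Equi.res (f : G' →* G) (ρ : Representation k G V) :
    Equi f ρ (ρ.comp f) LinearMap.id := fun _ _ => rfl

variable {ρ : Representation k G V} {σ : Representation k G' W} {f : G' →* G} {φ : V →ₗ[k] W}

theorem pp1_d0 (hφ : Equi f ρ σ φ) (v : V) : pp1 f φ (d0 ρ v) = d0 σ (φ v) := by
  ext g; simp [hφ g v]

theorem pp2_d1 (hφ : Equi f ρ σ φ) (c : G → V) : pp2 f φ (d1 ρ c) = d1 σ (pp1 f φ c) := by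
  ext x; simp [d1_apply, hφ x.1 (c (f x.2))]

theorem pp1_mem_Z1 (hf : Compat L L' f) (hφ : Equi f ρ σ φ) {c : G → V} (hc : c ∈ Z1 L ρ) :
    pp1 f φ c ∈ Z1 L' σ :=
  ⟨(hc.1.precomp hf).comp φ, fun g h => by simp [hc.2, hφ g]⟩

theorem pp2_mem_Z2 (hf : Compat L L' f) (hφ : Equi f ρ σ φ) {c : G × G → V} (hc : c ∈ Z2 L ρ) :
    pp2 f φ c ∈ Z2 L' σ :=
  ⟨(hc.1.precomp hf).comp φ, fun g h j => by
    simp only [pp2_apply, map_mul, ← map_add, hc.2, ← hφ g]⟩

/-- The map induced on one-cocycles. -/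
def mapZ1 (hf : Compat L L' f) (hφ : Equi f ρ σ φ) : ↥(Z1 L ρ) →ₗ[k] ↥(Z1 L' σ) :=
  (pp1 f φ).restrict fun _ => pp1_mem_Z1 hf hφ

/-- The map induced on two-cocycles. -/
def mapZ2 (hf : Compat L L' f) (hφ : Equi f ρ σ φ) : ↥(Z2 L ρ) →ₗ[k] ↥(Z2 L' σ) :=
  (pp2 f φ).restrict fun _ => pp2_mem_Z2 hf hφ

/-- The map induced on first cohomology. -/
def map1 (hf : Compat L L' f) (hφ : Equi f ρ σ φ) : H1 L ρ →ₗ[k] H1 L' σ :=
  Submodule.mapQ _ _ (mapZ1 hf hφ) fun c hc => by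
    obtain ⟨v, hv⟩ := hc
    exact ⟨φ v, by rw [← pp1_d0 hφ, hv]; rfl⟩

/-- The map induced on second cohomology. -/
def map2 (hf : Compat L L' f) (hφ : Equi f ρ σ φ) : H2 L ρ →ₗ[k] H2 L' σ :=
  Submodule.mapQ _ _ (mapZ2 hf hφ) fun c hc => by
    rw [Submodule.mem_comap, mem_B2] at hc
    rw [Submodule.mem_comap, Submodule.mem_comap, mem_B2]
    obtain ⟨x, hx, hdx⟩ := hc
    exact ⟨pp1 f φ x, (hx.precomp hf).comp φ, by rw [← pp2_d1 hφ, hdx]; rfl⟩

@[simp] theorem map1_mk1 (hf : Compat L L' f) (hφ : Equi f ρ σ φ) (c : ↥(Z1 L ρ)) :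
    map1 hf hφ (mk1 L ρ c) = mk1 L' σ (mapZ1 hf hφ c) := rfl

@[simp] theorem map2_mk2 (hf : Compat L L' f) (hφ : Equi f ρ σ φ) (c : ↥(Z2 L ρ)) :
    map2 hf hφ (mk2 L ρ c) = mk2 L' σ (mapZ2 hf hφ c) := rfl

theorem map1_comp_apply {G'' : Type} [Group G''] {L'' : Levels G''} {τ : Representation k G'' U}
    {f' : G'' →* G'} {ψ : W →ₗ[k] U} (hf : Compat L L' f) (hφ : Equi f ρ σ φ)
    (hf' : Compat L' L'' f') (hψ : Equi f' σ τ ψ) (x : H1 L ρ) :
    map1 hf' hψ (map1 hf hφ x) = map1 (hf.comp hf') (hφ.comp hψ) x := by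
  obtain ⟨c, rfl⟩ := mk1_surjective x
  rfl

theorem map2_comp_apply {G'' : Type} [Group G''] {L'' : Levels G''} {τ : Representation k G'' U}
    {f' : G'' →* G'} {ψ : W →ₗ[k] U} (hf : Compat L L' f) (hφ : Equi f ρ σ φ)
    (hf' : Compat L' L'' f') (hψ : Equi f' σ τ ψ) (x : H2 L ρ) :
    map2 hf' hψ (map2 hf hφ x) = map2 (hf.comp hf') (hφ.comp hψ) x := by
  obtain ⟨c, rfl⟩ := mk2_surjective x
  rfl

end Map

end FA.GalCoh
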