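import Fermat.Agent.GalCoh.ShaDual

/-!
Large finite sets of primes for a Galois splitting field: the decomposition groups at their primes
cover the Galois group up to conjugation, so that classes trivial there are trivial at every prime.
-/

set_option autoImplicit false
set_option linter.unusedSectionVars false

noncomputable section

namespace FA.GalCoh

open Representation
open scoped Pointwise

variable {p : ℕ} [hp : Fact p.Prime]

theorem map1_mem_unrOutside {A : Type} [AddCommGroup A] [Module (ZMod p) A]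
    {B : Type} [AddCommGroup B] [Module (ZMod p) B] {ρA : Representation (ZMod p) GQ A}
    {ρB : Representation (ZMod p) GQ B} {φ : A →ₗ[ZMod p] B}
    (hφ : Equi (MonoidHom.id GQ) ρA ρB φ) {S : Finset Nat.Primes} {x : H1 LQ ρA}
    (hx : x ∈ unrOutside S ρA) : map1 Compat.id hφ x ∈ unrOutside S ρB :=
  mem_unrOutside.2 fun q hq => by
    rw [resq1_map]; exact map1_mem_unrH1 _ (mem_unrOutside.1 hx q hq)

namespace Trans

variable {X : Type} [Fintype X] [MulAction GQ X] (T : Trans LQ X)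

variable (p) in
/-- A large set of primes for the field. -/
structure BigS (S : Finset Nat.Primes) : Prop where
  ad : T.AdSet (p := p) S
  frob : ∀ g : GQ, ∃ q ∈ S, ∃ (τ : LG (q : ℕ)) (h : GQ),
    (h * loc (q : ℕ) τ * h⁻¹)⁻¹ * g ∈ T.H

theorem BigS.mono {S S' : Finset Nat.Primes} (h : T.BigS p S) (hS : S ⊆ S') : T.BigS p S' :=
  ⟨AdSet.mono T h.ad hS, fun g => by
    obtain ⟨q, hq, rest⟩ := h.frob g
    exact ⟨q, hS hq, rest⟩⟩

variable [hn : T.H.Normal]

theorem exists_bigS : ∃ S, T.BigS p S := by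
  classical
  obtain ⟨S₁, hS₁⟩ := T.exists_adSet (p := p)
  have key : ∀ g : GQ, ∃ q : Nat.Primes, ∃ (τ : LG (q : ℕ)) (h : GQ),
      (h * loc (q : ℕ) τ * h⁻¹)⁻¹ * g ∈ T.H := by
    intro g
    obtain ⟨q, A, σ, k, hq, -, hA, hσ, hk, -⟩ := FA.Density.exists_frobenius_generating T.H
      (isOpen_of_mem_LQ T.mem_LQ) g ∅
    have : Fact q.Prime := ⟨hq⟩
    obtain ⟨τ, hτ⟩ := FA.TW.exists_smul_eq_of_liesOver hq (A := padicPlace q) (B := A)
      (liesOverPrime_padicPlace q) hA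
    have hd : τ⁻¹ * σ * τ ∈ (padicPlace q).decompositionSubgroup ℚ := by
      have h1 : σ • A = A := MulAction.mem_stabilizer_iff.1 hσ.mem_decompositionSubgroup
      rw [MulAction.mem_stabilizer_iff, mul_smul, mul_smul, hτ, h1, ← hτ, inv_smul_smul]
    rw [← range_loc] at hd
    obtain ⟨t, ht⟩ := hd
    refine ⟨⟨q, hq⟩, t ^ k, τ, ?_⟩
    show (τ * loc q (t ^ k) * τ⁻¹)⁻¹ * g ∈ T.H
    rw [map_pow, ht, ← conj_pow, show τ * (τ⁻¹ * σ * τ) * τ⁻¹ = σ by group]
    exact hk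
  have := LQ.finiteIndex T.mem_LQ
  let _ : Fintype (GQ ⧸ T.H) := Fintype.ofFinite _
  choose qf τf hf hmem using fun x : GQ ⧸ T.H => key x.out
  refine ⟨S₁ ∪ Finset.univ.image qf, AdSet.mono T hS₁ Finset.subset_union_left, fun g => ?_⟩
  refine ⟨qf (g : GQ ⧸ T.H), Finset.mem_union_right _ (Finset.mem_image_of_mem _
    (Finset.mem_univ _)), τf (g : GQ ⧸ T.H), hf (g : GQ ⧸ T.H), ?_⟩
  have hg : (g : GQ ⧸ T.H).out⁻¹ * g ∈ T.H :=
    QuotientGroup.eq.1 (QuotientGroup.out_eq' _)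
  have := mul_mem (hmem (g : GQ ⧸ T.H)) hg
  rwa [mul_assoc, mul_inv_cancel_left] at this

variable {V : Type} [AddCommGroup V] [Module (ZMod p) V]
variable {ρ : Representation (ZMod p) GQ V}

theorem dia_x0 (v : V) : T.dia ρ v T.x0 = v := by
  show ρ (T.t T.x0)⁻¹ v = v
  rw [T.t_x0, inv_one, map_one]; rfl

theorem dia_injective : Function.Injective (T.dia ρ) := fun v w h => by
  rw [← T.dia_x0 (ρ := ρ) v, h, T.dia_x0]

/-- A cocycle whose image in the permutation module is trivial vanishes on the subgroup. -/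
theorem apply_eq_zero_of_dia (hρ : ∀ s ∈ T.H, ρ s = 1) (f : ↥(Z1 LQ ρ))
    (h : map1 Compat.id (T.equi_dia ρ) (mk1 LQ ρ f) = 0) {s : GQ} (hs : s ∈ T.H) :
    f.1 s = 0 := by
  rw [map1_mk1] at h
  obtain ⟨v, hv⟩ := (mk1_eq_zero _ _ _).1 h
  have h0 : d0 (T.coind (ρ.comp T.H.subtype)) v s = T.dia ρ (f.1 s) := congrFun hv s
  rw [d0_apply, T.coind_eq_one T le_rfl (ρ.comp T.H.subtype) (fun u _ => hρ u.1 u.2) hs,
    Module.End.one_apply, sub_self] at h0
  exact T.dia_injective (ρ := ρ) (h0.symm.trans (map_zero _).symm)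

variable {S : Finset Nat.Primes} [FiniteDimensional (ZMod p) V]

theorem unrRep_big (hρ : ∀ s ∈ T.H, ρ s = 1) (hS : T.BigS p S) {q : Nat.Primes} (hq : q ∉ S) :
    UnrRep (ρ.comp (loc (q : ℕ))) :=
  unrRep_of_injective (equi_loc (T.equi_dia ρ) (q : ℕ)) T.dia_injective
    (T.unrRep_coindV (fun s => hρ s.1 s.2) (hS.ad.unr q hq))

variable (hμ : ∀ s ∈ T.H, ExtCitation.cycloChar p s = 1)

include hμ in
theorem map1_dia_eq_zero (hp2 : p ≠ 2) (hρ : ∀ s ∈ T.H, ρ s = 1) (hS : T.BigS p S)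
    {x : H1 LQ ρ} (hx : x ∈ unrOutside S ρ) (h0 : locS S ρ x = 0) :
    map1 Compat.id (T.equi_dia ρ) x = 0 :=
  T.coindV_locS_injOn (fun s => hρ s.1 s.2) hμ hS.ad (tc_of_cyclo hp2 hμ)
    (map1_mem_unrOutside _ hx) (funext fun q => by
      rw [locS_apply, resq1_map, show resq1 (q.1 : ℕ) ρ x = 0 from congrFun h0 q, map_zero]; rfl)

include hμ in
/-- Classes trivial at a large set of primes are trivial at all primes. -/
theorem mem_shaOne_of_big (hp2 : p ≠ 2) (hρs : Smooth LQ ρ) (hρ : ∀ s ∈ T.H, ρ s = 1)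
    (hS : T.BigS p S) {x : H1 LQ ρ} (hx : x ∈ unrOutside S ρ) (h0 : locS S ρ x = 0) :
    x ∈ shaOne ρ := by
  refine mem_shaOne.2 fun q => ?_
  by_cases hq : q ∈ S
  · exact congrFun h0 ⟨q, hq⟩
  have hz := T.map1_dia_eq_zero hμ hp2 hρ hS hx h0
  obtain ⟨f, rfl⟩ := mk1_surjective x
  obtain ⟨q', hq', τ, h, hmem⟩ := hS.frob (loc (q : ℕ) (frobL (q : ℕ)))
  obtain ⟨v', hv'⟩ := (mk1_eq_zero _ _ _).1
    (show mk1 (LL (q' : ℕ)) (ρ.comp (loc (q' : ℕ)))
      (mapZ1 compat_loc (Equi.res (loc (q' : ℕ)) ρ) f) = 0 from congrFun h0 ⟨q', hq'⟩)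
  have ht : ρ (loc (q' : ℕ) τ) v' - v' = f.1 (loc (q' : ℕ) τ) := congrFun hv' τ
  set g := loc (q : ℕ) (frobL (q : ℕ))
  set t := loc (q' : ℕ) τ
  set v := ρ h v' - f.1 h
  have hfg : ρ g v - v = f.1 g := by
    have hg : g = h * t * h⁻¹ * ((h * t * h⁻¹)⁻¹ * g) := by group
    rw [hg, f.2.2 (h * t * h⁻¹) ((h * t * h⁻¹)⁻¹ * g), map_mul, hρ _ hmem, mul_one,
      T.apply_eq_zero_of_dia hρ f hz hmem, map_zero, zero_add, f.2.2 (h * t) h⁻¹, f.2.2 h t,
      ← ht]
    have e : ρ h⁻¹ (f.1 h) = - f.1 h⁻¹ := by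
      rw [← Z1.map_inv f h⁻¹, inv_inv]
    simp only [v, map_mul, Module.End.mul_apply, map_sub, Representation.inv_self_apply, e, map_neg]
    abel
  set c : ↥(Z1 (LL (q : ℕ)) (ρ.comp (loc (q : ℕ)))) :=
    mapZ1 compat_loc (Equi.res (loc (q : ℕ)) ρ) f
      - ⟨d0 (ρ.comp (loc (q : ℕ))) v, d0_mem_Z1 (hρs.comp compat_loc) v⟩
  have hu := T.unrRep_big hρ hS hq
  have hc : c ∈ unrZ (ρ.comp (loc (q : ℕ))) := fun ι hι => by
    show f.1 (loc (q : ℕ) ι) - (ρ (loc (q : ℕ) ι) v - v) = 0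
    rw [show ρ (loc (q : ℕ) ι) = 1 from hu ι hι, Module.End.one_apply, sub_self, sub_zero]
    exact apply_inertL_eq_zero_of_mem hu (c := mapZ1 compat_loc (Equi.res (loc (q : ℕ)) ρ) f)
      (mem_unrOutside.1 hx q hq) hι
  obtain ⟨n, hn0, hA⟩ := UnrRep.exists_period (hρs.comp (compat_loc (q := (q : ℕ))))
  have : NeZero (n * p) := ⟨mul_ne_zero hn0.ne' hp.out.ne_zero⟩
  refine (mk1_eq_zero (LL (q : ℕ)) (ρ.comp (loc (q : ℕ)))
    (mapZ1 compat_loc (Equi.res (loc (q : ℕ)) ρ) f)).2 ⟨v, funext fun a => ?_⟩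
  have h1 := apply_eq_powSum hc hA a
  have h2 : c.1 (frobL (q : ℕ)) = 0 := by
    show f.1 g - (ρ g v - v) = 0
    rw [hfg, sub_self]
  rw [h2] at h1
  have h3 : c.1 a = 0 := by
    rw [h1]
    simp [powSum]
  exact (sub_eq_zero.1 h3).symm

include hμ in
/-- The classes unramified outside a large set form a finite group. -/
theorem finite_unrOutside_big (hp2 : p ≠ 2) (hρ : ∀ s ∈ T.H, ρ s = 1) (hS : T.BigS p S) :
    Finite (unrOutside S ρ) := by
  classical
  have := LQ.finiteIndex T.mem_LQ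
  have : Finite V := Module.finite_of_finite (ZMod p)
  let φ : unrOutside S ρ →+ unrOutside S (T.coind (ρ.comp T.H.subtype)) :=
    AddMonoidHom.mk' (fun x => ⟨map1 Compat.id (T.equi_dia ρ) x.1, map1_mem_unrOutside _ x.2⟩)
      fun a b => Subtype.ext (map_add _ _ _)
  have hρ1 : ∀ s : T.H, ρ.comp T.H.subtype s = 1 := fun s => hρ s.1 s.2
  have := T.coindV_finite_unrOutside (σ := ρ.comp T.H.subtype) hρ1 hμ hS.ad (tc_of_cyclo hp2 hμ)
  have hker : Finite φ.ker := by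
    choose f hf using fun x : φ.ker => mk1_surjective (x.1.1 : H1 LQ ρ)
    refine Finite.of_injective (fun (x : φ.ker) (g : GQ ⧸ T.H) => (f x).1 g.out) fun x y he => ?_
    have hval : ∀ (x : φ.ker) (g : GQ), (f x).1 g = (f x).1 (g : GQ ⧸ T.H).out := fun x g => by
      set r := (g : GQ ⧸ T.H).out
      have hs : r⁻¹ * g ∈ T.H := QuotientGroup.eq.1 (QuotientGroup.out_eq' _)
      have := (f x).2.2 r (r⁻¹ * g)
      rw [mul_inv_cancel_left, T.apply_eq_zero_of_dia hρ (f x) (by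
        rw [hf]; exact congrArg Subtype.val (AddMonoidHom.mem_ker.1 x.2)) hs, map_zero,
        zero_add] at this
      exact this
    refine Subtype.ext (Subtype.ext ?_)
    rw [← hf x, ← hf y]
    refine congrArg _ (Subtype.ext (funext fun g => ?_))
    rw [hval x g, hval y g]
    exact congrFun he _
  have : Finite (unrOutside S ρ ⧸ φ.ker) :=
    Finite.of_equiv _ (QuotientAddGroup.quotientKerEquivRange φ).toEquiv.symm
  exact Finite.of_equiv _ (AddSubgroup.addGroupEquivQuotientProdAddSubgroup (s := φ.ker)).symm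

include hμ in
/-- Ramification outside a large set can be prescribed for every module. -/
theorem exists_ram_big (hp2 : p ≠ 2) (hρs : Smooth LQ ρ) (hρ : ∀ s ∈ T.H, ρ s = 1)
    (hS : T.BigS p S) {S₁ : Finset Nat.Primes} (hdis : Disjoint S S₁)
    (y : ∀ q : Nat.Primes, H1 (LL (q : ℕ)) (ρ.comp (loc (q : ℕ)))) :
    ∃ x ∈ unrOutside (S ∪ S₁) ρ, ∀ q ∈ S₁,
      resq1 (q : ℕ) ρ x - y q ∈ unrH1 (ρ.comp (loc (q : ℕ))) :=
  let P := DPair.canonical ρ hρs (cycQ p).smooth_chr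
  haveI := P.fin_right
  T.exists_ram_gen P hp2 hμ hρ hS.ad (fun _ ha h0 => mem_shaOne.1
    (T.mem_shaOne_of_big hμ hp2 P.smooth_right (fun _ hs => T.eq_one_right P hμ hρ hs) hS ha h0))
    hdis y

end Trans

end FA.GalCoh
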