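import Fermat.Agent.GalCoh.Exact

/-!
Additive invariants of finite dimensional representations of a finite group over a finite field
only depend on characteristic polynomials (Brauer-Nesbitt in the Grothendieck group).
-/

set_option autoImplicit false
set_option linter.unusedSectionVars false

noncomputable section

namespace FA.GalCoh.EulerAlg

open Module

variable {k : Type} [Field k] {Γ : Type} [Group Γ]

variable (k Γ) in
/-- An invariant of representations. -/
abbrev RepFn : Type 1 :=
  ∀ (V : Type) [AddCommGroup V] [Module k V], Representation k Γ V → ℤ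

/-- Additivity in short exact sequences of finite dimensional representations. -/
def IsAdditive (φ : RepFn k Γ) : Prop :=
  ∀ (A B C : Type) [AddCommGroup A] [Module k A] [AddCommGroup B] [Module k B]
    [AddCommGroup C] [Module k C] [FiniteDimensional k B]
    (ρA : Representation k Γ A) (ρB : Representation k Γ B) (ρC : Representation k Γ C),
    SES ρA ρB ρC → φ B ρB = φ A ρA + φ C ρC

variable (k Γ) in
/-- A finite dimensional representation. -/
structure RepObj : Type 1 where
  /-- The space. -/
  V : Type
  [acg : AddCommGroup V]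
  [mod : Module k V]
  [fd : FiniteDimensional k V]
  /-- The action. -/
  ρ : Representation k Γ V

attribute [instance] RepObj.acg RepObj.mod RepObj.fd

/-- Evaluation of an invariant on a bundled representation. -/
abbrev RepObj.app (X : RepObj k Γ) (φ : RepFn k Γ) : ℤ := φ X.V X.ρ

/-- The characteristic polynomial at a group element. -/
abbrev RepObj.cp (X : RepObj k Γ) (g : Γ) : Polynomial k := LinearMap.charpoly (X.ρ g)

/-- Isomorphism of representations. -/
def RepObj.Iso (X Y : RepObj k Γ) : Prop :=
  ∃ e : X.V ≃ₗ[k] Y.V, ∀ g x, e (X.ρ g x) = Y.ρ g (e x)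

theorem RepObj.Iso.refl (X : RepObj k Γ) : X.Iso X := ⟨LinearEquiv.refl k _, fun _ _ => rfl⟩

theorem RepObj.Iso.symm {X Y : RepObj k Γ} : X.Iso Y → Y.Iso X := by
  rintro ⟨e, he⟩
  refine ⟨e.symm, fun g y => ?_⟩
  apply e.injective
  rw [he]
  simp

theorem RepObj.Iso.trans {X Y Z : RepObj k Γ} : X.Iso Y → Y.Iso Z → X.Iso Z := by
  rintro ⟨e, he⟩ ⟨e', he'⟩
  exact ⟨e.trans e', fun g x => by simp [he, he']⟩

/-- Irreducibility. -/
def RepObj.Irr (X : RepObj k Γ) : Prop :=
  Nontrivial X.V ∧ ∀ W : Submodule k X.V, (∀ g, ∀ x ∈ W, X.ρ g x ∈ W) → W = ⊥ ∨ W = ⊤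

section Additive

variable {φ : RepFn k Γ} (hφ : IsAdditive φ)

/-- The short exact sequence with vanishing outer term. -/
def sesEquiv {V W Z : Type} [AddCommGroup V] [Module k V] [AddCommGroup W] [Module k W]
    [AddCommGroup Z] [Module k Z] [Subsingleton Z]
    (ρ : Representation k Γ V) (σ : Representation k Γ W) (τ : Representation k Γ Z)
    (e : V ≃ₗ[k] W) (he : ∀ g x, e (ρ g x) = σ g (e x)) : SES ρ σ τ where
  i := e.toLinearMap
  q := 0
  inj := e.injective
  surj := fun z => ⟨0, Subsingleton.elim _ _⟩
  exact := by rw [LinearMap.ker_zero]; exact LinearMap.range_eq_top.2 e.surjective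
  i_equi := he
  q_equi := fun g b => Subsingleton.elim _ _

include hφ

theorem IsAdditive.subsingleton {V : Type} [AddCommGroup V] [Module k V]
    [Subsingleton V] (ρ : Representation k Γ V) : φ V ρ = 0 := by
  have := hφ V V V ρ ρ ρ (sesEquiv ρ ρ ρ (LinearEquiv.refl k V) fun _ _ => rfl)
  linarith

theorem IsAdditive.congr {V W : Type} [AddCommGroup V] [Module k V] [AddCommGroup W] [Module k W]
    [FiniteDimensional k W] (ρ : Representation k Γ V) (σ : Representation k Γ W)
    (e : V ≃ₗ[k] W) (he : ∀ g x, e (ρ g x) = σ g (e x)) : φ V ρ = φ W σ := by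
  let τ : Representation k Γ PUnit := 1
  have := hφ V W PUnit ρ σ τ (sesEquiv ρ σ τ e he)
  rw [hφ.subsingleton τ] at this
  linarith

theorem IsAdditive.iso {X Y : RepObj k Γ} (h : X.Iso Y) : X.app φ = Y.app φ := by
  obtain ⟨e, he⟩ := h
  exact hφ.congr X.ρ Y.ρ e he

end Additive

theorem charpoly_iso {X Y : RepObj k Γ} (h : X.Iso Y) (g : Γ) : X.cp g = Y.cp g := by
  obtain ⟨e, he⟩ := h
  have : e.conj (X.ρ g) = Y.ρ g := by
    ext y
    simp [LinearEquiv.conj_apply, he]
  show LinearMap.charpoly _ = LinearMap.charpoly _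
  rw [← this, LinearEquiv.charpoly_conj]

/-- Characteristic polynomials are multiplicative in short exact sequences. -/
theorem charpoly_ses {A B C : Type} [AddCommGroup A] [Module k A] [AddCommGroup B] [Module k B]
    [AddCommGroup C] [Module k C] [FiniteDimensional k B] [FiniteDimensional k A]
    [FiniteDimensional k C]
    {ρA : Representation k Γ A} {ρB : Representation k Γ B} {ρC : Representation k Γ C}
    (E : SES ρA ρB ρC) (g : Γ) :
    LinearMap.charpoly (ρB g) = LinearMap.charpoly (ρA g) * LinearMap.charpoly (ρC g) := by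
  classical
  let f : (A × C) →ₗ[k] B := E.i.coprod E.s
  have hfbij : Function.Bijective f := by
    constructor
    · rw [← LinearMap.ker_eq_bot, LinearMap.ker_eq_bot']
      rintro ⟨a, c⟩ h
      have h1 : E.i a + E.s c = 0 := by simpa [f] using h
      have hc : c = 0 := by simpa using congrArg E.q h1
      subst hc
      have ha : a = 0 := E.inj (by simpa using h1)
      simp [ha]
    · intro b
      refine ⟨(E.r (b - E.s (E.q b)), E.q b), ?_⟩
      have := E.i_r (b := b - E.s (E.q b)) (by simp)
      show E.i (E.r (b - E.s (E.q b))) + E.s (E.q b) = b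
      rw [this, sub_add_cancel]
  let e : (A × C) ≃ₗ[k] B := LinearEquiv.ofBijective f hfbij
  rw [← LinearEquiv.charpoly_conj e.symm (ρB g)]
  let bA := Module.finBasis k A
  let bC := Module.finBasis k C
  let T : (A × C) →ₗ[k] (A × C) := e.symm.conj (ρB g)
  have hT1 : ∀ a, T (a, 0) = (ρA g a, 0) := by
    intro a
    apply e.injective
    simp [T, LinearEquiv.conj_apply, e, f, E.i_equi]
  have hT2 : ∀ x, (T x).2 = ρC g x.2 := by
    intro x
    have h : e (T x) = ρB g (e x) := by simp [T, LinearEquiv.conj_apply]
    have := congrArg E.q h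
    simpa [e, f, E.q_equi] using this
  show LinearMap.charpoly T = _
  rw [← LinearMap.charpoly_toMatrix T (bA.prod bC), ← LinearMap.charpoly_toMatrix (ρA g) bA,
    ← LinearMap.charpoly_toMatrix (ρC g) bC]
  have hM : LinearMap.toMatrix (bA.prod bC) (bA.prod bC) T =
      Matrix.fromBlocks (LinearMap.toMatrix bA bA (ρA g))
        (Matrix.of fun i j => bA.repr (T (0, bC j)).1 i) 0 (LinearMap.toMatrix bC bC (ρC g)) := by
    ext (i | i) (j | j) <;> simp [LinearMap.toMatrix_apply, hT1, hT2]
  rw [hM, Matrix.charpoly_fromBlocks_zero₂₁]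

section Decomposition

/-- The restriction to an invariant subspace. -/
def subRep {V : Type} [AddCommGroup V] [Module k V] (ρ : Representation k Γ V)
    (W : Submodule k V) (hW : ∀ g, ∀ x ∈ W, ρ g x ∈ W) : Representation k Γ W where
  toFun g := (ρ g).restrict (hW g)
  map_one' := by ext x; simp
  map_mul' g h := by ext x; simp

/-- The quotient by an invariant subspace. -/
def quotRep {V : Type} [AddCommGroup V] [Module k V] (ρ : Representation k Γ V)
    (W : Submodule k V) (hW : ∀ g, ∀ x ∈ W, ρ g x ∈ W) : Representation k Γ (V ⧸ W) where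
  toFun g := W.mapQ W (ρ g) (hW g)
  map_one' := by ext x; simp
  map_mul' g h := by ext x; simp

/-- The tautological short exact sequence. -/
def sesSub {V : Type} [AddCommGroup V] [Module k V] (ρ : Representation k Γ V)
    (W : Submodule k V) (hW : ∀ g, ∀ x ∈ W, ρ g x ∈ W) :
    SES (subRep ρ W hW) ρ (quotRep ρ W hW) where
  i := W.subtype
  q := W.mkQ
  inj := W.injective_subtype
  surj := W.mkQ_surjective
  exact := by simp
  i_equi := fun _ _ => rfl
  q_equi := fun _ _ => rfl

theorem cp_eq_one {X : RepObj k Γ} (h : finrank k X.V = 0) (g : Γ) : X.cp g = 1 := by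
  refine (Polynomial.Monic.natDegree_eq_zero (LinearMap.charpoly_monic _)).1 ?_
  rw [LinearMap.charpoly_natDegree, h]

/-- Every representation is, for additive purposes, a sum of irreducible ones. -/
theorem exists_irred_list (X : RepObj k Γ) :
    ∃ L : List (RepObj k Γ), (∀ Y ∈ L, Y.Irr) ∧
      (∀ φ : RepFn k Γ, IsAdditive φ → X.app φ = (L.map fun Y => Y.app φ).sum) ∧
      ∀ g, X.cp g = (L.map fun Y => Y.cp g).prod := by
  induction hn : finrank k X.V using Nat.strong_induction_on generalizing X with
  | _ n ih =>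
    by_cases h0 : finrank k X.V = 0
    · have : Subsingleton X.V := Module.finrank_zero_iff.1 h0
      exact ⟨[], by simp, fun φ hφ => by simpa using hφ.subsingleton X.ρ,
        fun g => by simpa using cp_eq_one h0 g⟩
    have : Nontrivial X.V := Module.nontrivial_of_finrank_pos (Nat.pos_of_ne_zero h0)
    by_cases hirr : X.Irr
    · exact ⟨[X], by simpa using hirr, fun φ _ => by simp, fun g => by simp⟩
    obtain ⟨W, hW, hWb, hWt⟩ : ∃ W : Submodule k X.V, (∀ g, ∀ x ∈ W, X.ρ g x ∈ W) ∧
        W ≠ ⊥ ∧ W ≠ ⊤ := by
      by_contra hcon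
      push Not at hcon
      exact hirr ⟨inferInstance, fun W hW => or_iff_not_imp_left.2 fun hb => hcon W hW hb⟩
    let A : RepObj k Γ := ⟨W, subRep X.ρ W hW⟩
    let C : RepObj k Γ := ⟨X.V ⧸ W, quotRep X.ρ W hW⟩
    have hA : finrank k A.V < n := hn ▸ Submodule.finrank_lt hWt
    have hC : finrank k C.V < n := by
      have h1 := Submodule.finrank_quotient_add_finrank W
      have h2 : 0 < finrank k W := Module.finrank_pos_iff.2
        ((Submodule.nontrivial_iff_ne_bot).2 hWb)
      show finrank k (X.V ⧸ W) < n
      omega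
    obtain ⟨LA, hLA, hφA, hcA⟩ := ih _ hA A rfl
    obtain ⟨LC, hLC, hφC, hcC⟩ := ih _ hC C rfl
    refine ⟨LA ++ LC, fun Y hY => (List.mem_append.1 hY).elim (hLA Y) (hLC Y), fun φ hφ => ?_,
      fun g => ?_⟩
    · rw [List.map_append, List.sum_append, ← hφA φ hφ, ← hφC φ hφ]
      exact hφ _ _ _ _ _ _ (sesSub X.ρ W hW)
    · rw [List.map_append, List.prod_append, ← hcA g, ← hcC g]
      exact charpoly_ses (sesSub X.ρ W hW) g

end Decomposition

section Separation

theorem schur {X Y : RepObj k Γ} (hX : X.Irr) (hY : Y.Irr) (T : X.V →ₗ[k] Y.V)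
    (hT : ∀ g x, T (X.ρ g x) = Y.ρ g (T x)) : T = 0 ∨ Function.Bijective T := by
  rcases hX.2 (LinearMap.ker T) (fun g x hx => by
    simp [LinearMap.mem_ker.1 hx, hT]) with h | h
  · rcases hY.2 (LinearMap.range T) (fun g y hy => by
      obtain ⟨x, rfl⟩ := hy
      exact ⟨X.ρ g x, hT g x⟩) with h' | h'
    · left
      rwa [LinearMap.range_eq_bot] at h'
    · exact .inr ⟨LinearMap.ker_eq_bot.1 h, LinearMap.range_eq_top.1 h'⟩
  · left
    rwa [LinearMap.ker_eq_top] at h

/-- Over a finite extension `D` of `k`, some `D`-linear endomorphism has nonzero `k`-trace. -/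
theorem exists_linear_trace_ne_zero [Finite k] (D : Type) [Field D] [Algebra k D]
    [Module.Finite k D] (V : Type) [AddCommGroup V] [Module k V] [Module D V] [IsScalarTower k D V]
    [FiniteDimensional k V] [Nontrivial V] :
    ∃ c : V →ₗ[D] V, LinearMap.trace k V (c.restrictScalars k) ≠ 0 := by
  have : Algebra.IsSeparable k D := inferInstance
  obtain ⟨t, ht⟩ := Algebra.trace_surjective k D (1 : k)
  obtain ⟨u, hu⟩ := exists_ne (0 : V)
  let ι : D →ₗ[D] V := LinearMap.toSpanSingleton D V u
  have hι : LinearMap.ker ι = ⊥ := LinearMap.ker_eq_bot.2 (smul_left_injective D hu)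
  obtain ⟨π, hπ⟩ := ι.exists_leftInverse_of_injective hι
  let mt : D →ₗ[D] D := t • LinearMap.id
  refine ⟨ι ∘ₗ mt ∘ₗ π, ?_⟩
  have h2 : (mt.restrictScalars k ∘ₗ π.restrictScalars k) ∘ₗ ι.restrictScalars k =
      Algebra.lmul k D t := by
    ext d
    have := LinearMap.congr_fun hπ d
    simp only [LinearMap.coe_comp, Function.comp_apply, LinearMap.id_coe, id_eq] at this
    simp [this, mt]
  have h1 : LinearMap.trace k V ((ι ∘ₗ mt ∘ₗ π).restrictScalars k) = LinearMap.trace k D
      ((mt.restrictScalars k ∘ₗ π.restrictScalars k) ∘ₗ ι.restrictScalars k) :=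
    LinearMap.trace_comp_comm' (mt.restrictScalars k ∘ₗ π.restrictScalars k) (ι.restrictScalars k)
  rw [h1, h2, ← Algebra.trace_apply, ht]
  exact one_ne_zero

/-- An endomorphism of nonzero trace commuting with all equivariant endomorphisms. -/
theorem exists_commute_trace_ne_zero [Finite k] {X : RepObj k Γ} (hX : X.Irr) :
    ∃ c : X.V →ₗ[k] X.V, LinearMap.trace k X.V c ≠ 0 ∧
      ∀ T : X.V →ₗ[k] X.V, (∀ g x, T (X.ρ g x) = X.ρ g (T x)) → T ∘ₗ c = c ∘ₗ T := by
  classical
  have : Nontrivial X.V := hX.1
  let D : Subalgebra k (Module.End k X.V) := Subalgebra.centralizer k (Set.range X.ρ)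
  have hequi : ∀ d : D, ∀ g x,
      (d : Module.End k X.V) (X.ρ g x) = X.ρ g ((d : Module.End k X.V) x) :=
    fun d g x => (LinearMap.congr_fun ((Subalgebra.mem_centralizer_iff k).1 d.2 _ ⟨g, rfl⟩) x).symm
  have hunit : ∀ d : D, d ≠ 0 → Function.Injective (d : Module.End k X.V) := by
    intro d hd
    rcases schur hX hX (d : Module.End k X.V) (hequi d) with h | h
    · exact absurd (Subtype.ext h) hd
    · exact h.1
  have : NoZeroDivisors D := ⟨fun {a b} hab => by
    by_contra h
    push Not at h
    refine h.2 (Subtype.ext (LinearMap.ext fun x => hunit a h.1 ?_))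
    have := congrArg (fun d : D => (d : Module.End k X.V) x) hab
    simpa [Module.End.mul_apply] using this⟩
  have : IsDomain D := NoZeroDivisors.to_isDomain D
  have : Finite (Module.End k X.V) := Module.finite_of_finite k
  have : Finite D := Subtype.finite
  have hF : IsField D := Finite.isDomain_to_isField D
  have : Module.Finite k D := Module.Finite.of_finite
  letI iF : Field D := hF.toField
  letI : Algebra k D := { D.algebra with }
  letI : Module D X.V :=
    { smul := fun d x => (d : Module.End k X.V) x
      one_smul := fun x => rfl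
      mul_smul := fun a b x => rfl
      smul_zero := fun a => map_zero _
      smul_add := fun a => map_add _
      add_smul := fun a b x => rfl
      zero_smul := fun x => rfl }
  haveI : IsScalarTower k D X.V := ⟨fun a d x => rfl⟩
  obtain ⟨c, hc⟩ := exists_linear_trace_ne_zero D X.V (k := k)
  refine ⟨c.restrictScalars k, hc, fun T hT => ?_⟩
  have hTD : T ∈ D := (Subalgebra.mem_centralizer_iff k).2 (by
    rintro _ ⟨g, rfl⟩
    exact LinearMap.ext fun x => (hT g x).symm)
  ext x
  exact (LinearMap.map_smul c (⟨T, hTD⟩ : D) x).symm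

/-- Density: an endomorphism commuting with all equivariant ones is a combination of the group
action, if the representation is generated by invariant subspaces without proper invariant
subspaces. -/
theorem exists_sum_smul_eq [Fintype Γ] {M : Type*} [AddCommGroup M] [Module k M] [Finite M]
    (σ : Representation k Γ M) {ι : Type*} (S : ι → Submodule k M)
    (hS : ∀ j, ∀ g, ∀ x ∈ S j, σ g x ∈ S j) (hne : ∀ j, S j ≠ ⊥)
    (hsimp : ∀ j, ∀ W ≤ S j, (∀ g, ∀ x ∈ W, σ g x ∈ W) → W = ⊥ ∨ W = S j) (htop : ⨆ j, S j = ⊤)
    (f : M →ₗ[k] M)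
    (hf : ∀ T : M →ₗ[k] M, (∀ g x, T (σ g x) = σ g (T x)) → T ∘ₗ f = f ∘ₗ T) :
    ∃ a : Γ → k, ∀ m, ∑ g, a g • σ g m = f m := by
  let B : Subalgebra k (Module.End k M) := Algebra.adjoin k (Set.range σ)
  have hσB : ∀ g, σ g ∈ B := fun g => Algebra.subset_adjoin ⟨g, rfl⟩
  have hstab : ∀ (W : Submodule k M), (∀ g, ∀ x ∈ W, σ g x ∈ W) →
      ∀ b ∈ B, ∀ x ∈ W, (b : Module.End k M) x ∈ W := by
    intro W hW b hb
    induction hb using Algebra.adjoin_induction with
    | mem f hf =>
      obtain ⟨g, rfl⟩ := hf
      exact hW g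
    | algebraMap r => intro x hx; exact W.smul_mem r hx
    | add f f' _ _ h h' => intro x hx; exact W.add_mem (h x hx) (h' x hx)
    | mul f f' _ _ h h' => intro x hx; exact h _ (h' x hx)
  let P : ι → Submodule B M := fun j =>
    { carrier := S j
      add_mem' := (S j).add_mem
      zero_mem' := (S j).zero_mem
      smul_mem' := fun b x hx => hstab (S j) (hS j) b b.2 x hx }
  let lower : Submodule B M → Submodule k M := fun q => q.restrictScalars k
  have : IsSemisimpleModule B M := by
    refine isSemisimpleModule_of_isSemisimpleModule_submodule' (p := P) (fun j => ?_) ?_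
    · have : IsSimpleModule B (P j) := by
        rw [isSimpleModule_iff_isAtom]
        refine ⟨fun h => hne j (SetLike.ext fun x => ?_), fun q hq => ?_⟩
        · exact SetLike.ext_iff.1 h x
        · rcases hsimp j (lower q) hq.le (fun g x hx => q.smul_mem ⟨σ g, hσB g⟩ hx) with h | h
          · exact SetLike.ext fun x => SetLike.ext_iff.1 h x
          · exact absurd (show q = P j from SetLike.ext fun x => SetLike.ext_iff.1 h x) hq.ne
      infer_instance
    · rw [eq_top_iff]
      intro x _
      have : (⨆ j, S j) ≤ lower (⨆ j, P j) := iSup_le fun j x hx => (le_iSup P j) hx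
      exact this (htop ▸ Submodule.mem_top)
  have hTcomm : ∀ T : Module.End B M, ∀ g x, T (σ g x) = σ g (T x) :=
    fun T g x => T.map_smul ⟨σ g, hσB g⟩ x
  let F : Module.End (Module.End B M) M :=
    { toFun := f
      map_add' := map_add f
      map_smul' := fun T x => (LinearMap.congr_fun (hf (T.restrictScalars k) (hTcomm T)) x).symm }
  classical
  cases nonempty_fintype M
  obtain ⟨r, hr⟩ := jacobson_density F Finset.univ
  have hspan : B.toSubmodule = Submodule.span k (Set.range σ) := by
    rw [Algebra.adjoin_eq_span]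
    congr 1
    exact congrArg (fun N : Submonoid (Module.End k M) => (N : Set (Module.End k M)))
      (Submonoid.closure_eq (MonoidHom.mrange σ))
  have hr2 : (r : Module.End k M) ∈ Submodule.span k (Set.range σ) := hspan ▸ r.2
  obtain ⟨a, ha⟩ := (Submodule.mem_span_range_iff_exists_fun k).1 hr2
  refine ⟨a, fun m => ?_⟩
  have := congrArg (fun e : Module.End k M => e m) ha
  simp only [LinearMap.coe_sum, Finset.sum_apply, LinearMap.smul_apply] at this
  rw [this]
  exact (hr m (Finset.mem_univ m)).symm

/-- Separation of pairwise non-isomorphic irreducible representations by traces. -/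
theorem exists_separating [Finite k] [Fintype Γ] {ι : Type*} [Fintype ι] (U : ι → RepObj k Γ)
    (hirr : ∀ i, (U i).Irr) (hiso : ∀ i j, (U i).Iso (U j) → i = j) (i : ι) :
    ∃ a : Γ → k, (∀ j, j ≠ i → ∑ g, a g * LinearMap.trace k (U j).V ((U j).ρ g) = 0) ∧
      ∑ g, a g * LinearMap.trace k (U i).V ((U i).ρ g) ≠ 0 := by
  classical
  obtain ⟨c, hc, hcomm⟩ := exists_commute_trace_ne_zero (hirr i)
  let σ : Representation k Γ (∀ j, (U j).V) :=
    { toFun := fun g => LinearMap.piMap fun j => (U j).ρ g
      map_one' := by ext x j; simp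
      map_mul' := fun g h => by ext x j; simp }
  have hσ : ∀ g x j, σ g x j = (U j).ρ g (x j) := fun _ _ _ => rfl
  have hσ1 : ∀ g l (v : (U l).V), σ g (Pi.single l v) = Pi.single l ((U l).ρ g v) := by
    intro g l v
    funext j
    rw [hσ]
    by_cases h : j = l
    · subst h; simp
    · simp [h]
  have : ∀ j, Finite (U j).V := fun j => Module.finite_of_finite k
  let s : ∀ l, (U l).V →ₗ[k] (∀ j, (U j).V) := fun l => LinearMap.single k (fun j => (U j).V) l
  let f : (∀ j, (U j).V) →ₗ[k] (∀ j, (U j).V) := s i ∘ₗ c ∘ₗ LinearMap.proj i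
  have hsinj : ∀ l, Function.Injective (s l) := fun l => Pi.single_injective (M := fun j => (U j).V) l
  obtain ⟨a, ha⟩ := exists_sum_smul_eq σ (fun l => LinearMap.range (s l))
    (fun l g x hx => by
      obtain ⟨v, rfl⟩ := hx
      exact ⟨(U l).ρ g v, (hσ1 g l v).symm⟩)
    (fun l h => by
      have := (hirr l).1
      obtain ⟨v, hv⟩ := exists_ne (0 : (U l).V)
      have hv' : s l v ∈ LinearMap.range (s l) := ⟨v, rfl⟩
      rw [h, Submodule.mem_bot] at hv'
      exact hv (hsinj l (hv'.trans (map_zero _).symm)))
    (fun l W hW hinv => by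
      rcases (hirr l).2 (W.comap (s l)) (fun g v hv => by
        show s l ((U l).ρ g v) ∈ W
        have := hinv g (s l v) hv
        rwa [show σ g (s l v) = s l ((U l).ρ g v) from hσ1 g l v] at this) with h | h
      · left
        rw [eq_bot_iff]
        intro x hx
        obtain ⟨v, rfl⟩ := hW hx
        have : v ∈ W.comap (s l) := hx
        rw [h, Submodule.mem_bot] at this
        simp [this]
      · right
        refine le_antisymm hW ?_
        rintro x ⟨v, rfl⟩
        have : v ∈ W.comap (s l) := h ▸ Submodule.mem_top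
        exact this)
    (by
      rw [eq_top_iff]
      intro x _
      rw [← Finset.univ_sum_single x]
      exact Submodule.sum_mem _ fun j _ => Submodule.mem_iSup_of_mem j ⟨x j, rfl⟩)
    f
    (fun T hT => by
      let T' : ∀ (a b : ι), (U b).V →ₗ[k] (U a).V := fun a b => LinearMap.proj a ∘ₗ T ∘ₗ s b
      have hT' : ∀ a b g v, T' a b ((U b).ρ g v) = (U a).ρ g (T' a b v) := by
        intro a b g v
        show T (s b ((U b).ρ g v)) a = (U a).ρ g (T (s b v) a)
        rw [← show σ g (s b v) = s b ((U b).ρ g v) from hσ1 g b v, hT, hσ]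
      have hoff : ∀ a b, a ≠ b → T' a b = 0 := by
        intro a b hab
        rcases schur (hirr b) (hirr a) (T' a b) (hT' a b) with h | h
        · exact h
        · exact absurd (hiso b a ⟨LinearEquiv.ofBijective (T' a b) h, hT' a b⟩) (Ne.symm hab)
      have hTx : ∀ x a, T x a = T' a a (x a) := by
        intro x a
        conv_lhs => rw [← Finset.univ_sum_single x, map_sum, Finset.sum_apply]
        refine Finset.sum_eq_single a (fun b _ hb => ?_) (fun h => absurd (Finset.mem_univ a) h)
        exact LinearMap.congr_fun (hoff a b (Ne.symm hb)) (x b)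
      refine LinearMap.ext fun x => funext fun a => ?_
      show T (s i (c (x i))) a = s i (c (T x i)) a
      by_cases h : a = i
      · subst h
        rw [hTx x a]
        simpa [s, T'] using LinearMap.congr_fun (hcomm (T' a a) (hT' a a)) (x a)
      · rw [show T (s i (c (x i))) a = T' a i (c (x i)) from rfl, hoff a i h]
        simp [s, h])
  have key : ∀ j, ∑ g, a g • (U j).ρ g = LinearMap.proj j ∘ₗ f ∘ₗ s j := by
    intro j
    refine LinearMap.ext fun v => ?_
    have := congrFun (ha (s j v)) j
    simpa [s, hσ1, Finset.sum_apply] using this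
  have htr : ∀ j, ∑ g, a g * LinearMap.trace k (U j).V ((U j).ρ g) =
      LinearMap.trace k (U j).V (LinearMap.proj j ∘ₗ f ∘ₗ s j) := by
    intro j
    rw [← key, map_sum]
    simp
  refine ⟨a, fun j hj => ?_, ?_⟩
  · rw [htr]
    have : LinearMap.proj j ∘ₗ f ∘ₗ s j = 0 := by
      ext v
      simp [f, s, hj, Ne.symm hj]
    simp [this]
  · rw [htr]
    have : LinearMap.proj i ∘ₗ f ∘ₗ s i = c := by
      ext v
      simp [f, s]
    rwa [this]

end Separation

section Main

variable [Finite k] [Fintype Γ]

/-- The power product determines the exponents. -/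
theorem exponents_eq {ι : Type*} [Fintype ι] (U : ι → RepObj k Γ)
    (hirr : ∀ i, (U i).Irr) (hiso : ∀ i j, (U i).Iso (U j) → i = j) (m n : ι → ℕ)
    (h : ∀ g, ∏ i, (U i).cp g ^ m i = ∏ i, (U i).cp g ^ n i) : m = n := by
  classical
  induction hN : ∑ i, (m i + n i) using Nat.strong_induction_on generalizing m n with
  | _ N ih =>
    let r : ι → ℕ := fun i => min (m i) (n i)
    let m' : ι → ℕ := fun i => m i - r i
    let n' : ι → ℕ := fun i => n i - r i
    have hne : ∀ g, ∏ i, (U i).cp g ^ r i ≠ 0 := fun g =>
      Finset.prod_ne_zero_iff.2 fun i _ => pow_ne_zero _ (LinearMap.charpoly_monic _).ne_zero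
    have h' : ∀ g, ∏ i, (U i).cp g ^ m' i = ∏ i, (U i).cp g ^ n' i := by
      intro g
      refine mul_left_cancel₀ (hne g) ?_
      rw [← Finset.prod_mul_distrib, ← Finset.prod_mul_distrib]
      calc _ = ∏ i, (U i).cp g ^ m i := Finset.prod_congr rfl fun i _ => by
              rw [← pow_add]; congr 1; simp only [m', r]; omega
        _ = ∏ i, (U i).cp g ^ n i := h g
        _ = _ := Finset.prod_congr rfl fun i _ => by
              rw [← pow_add]; congr 1; simp only [n', r]; omega
    have hnc : ∀ (e : ι → ℕ) g, (∏ i, (U i).cp g ^ e i).nextCoeff =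
        -∑ i, (e i : k) * LinearMap.trace k (U i).V ((U i).ρ g) := by
      intro e g
      rw [Polynomial.Monic.nextCoeff_prod _ _ fun i _ => (LinearMap.charpoly_monic _).pow _,
        ← Finset.sum_neg_distrib]
      refine Finset.sum_congr rfl fun i _ => ?_
      rw [(LinearMap.charpoly_monic _).nextCoeff_pow]
      let b := Module.finBasis k (U i).V
      rw [LinearMap.trace_eq_matrix_trace k b, Matrix.trace_eq_neg_charpoly_nextCoeff,
        LinearMap.charpoly_toMatrix]
      simp [nsmul_eq_mul]
    have hcong : ∀ i, (m' i : k) = (n' i : k) := by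
      intro i
      obtain ⟨a, ha0, hai⟩ := exists_separating U hirr hiso i
      have e : ∀ g, ∑ j, ((m' j : k) - n' j) * LinearMap.trace k (U j).V ((U j).ρ g) = 0 := by
        intro g
        have := congrArg Polynomial.nextCoeff (h' g)
        rw [hnc, hnc, neg_inj] at this
        simp only [sub_mul, Finset.sum_sub_distrib, this, sub_self]
      have e2 : ∑ g, a g * ∑ j, ((m' j : k) - n' j) * LinearMap.trace k (U j).V ((U j).ρ g) = 0 := by
        simp [e]
      simp only [Finset.mul_sum] at e2
      rw [Finset.sum_comm, Finset.sum_eq_single i (fun j _ hj => by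
        have := ha0 j hj
        calc _ = ((m' j : k) - n' j) * ∑ g, a g * LinearMap.trace k (U j).V ((U j).ρ g) := by
              rw [Finset.mul_sum]; exact Finset.sum_congr rfl fun g _ => by ring
          _ = 0 := by rw [this, mul_zero]) (fun hh => absurd (Finset.mem_univ i) hh)] at e2
      have e3 : ((m' i : k) - n' i) * ∑ g, a g * LinearMap.trace k (U i).V ((U i).ρ g) = 0 := by
        rw [Finset.mul_sum]
        exact (Finset.sum_congr rfl fun g _ => by ring).trans e2
      exact sub_eq_zero.1 ((mul_eq_zero.1 e3).resolve_right hai)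
    obtain ⟨p, hp⟩ := CharP.exists k
    have hpp : p.Prime := (CharP.char_is_prime_or_zero k p).resolve_right (fun h0 => by
      subst h0
      have : CharZero k := CharP.charP_to_charZero k
      exact not_finite k)
    haveI : Fact p.Prime := ⟨hpp⟩
    have hdvd : ∀ i, p ∣ m' i ∧ p ∣ n' i := by
      intro i
      rcases le_total (m i) (n i) with hle | hle
      · have h0 : m' i = 0 := by simp only [m', r]; omega
        have := hcong i
        rw [h0, Nat.cast_zero, eq_comm, CharP.cast_eq_zero_iff k p] at this
        exact ⟨h0 ▸ dvd_zero p, this⟩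
      · have h0 : n' i = 0 := by simp only [n', r]; omega
        have := hcong i
        rw [h0, Nat.cast_zero, CharP.cast_eq_zero_iff k p] at this
        exact ⟨this, h0 ▸ dvd_zero p⟩
    let m'' : ι → ℕ := fun i => m' i / p
    let n'' : ι → ℕ := fun i => n' i / p
    have h'' : ∀ g, ∏ i, (U i).cp g ^ m'' i = ∏ i, (U i).cp g ^ n'' i := by
      intro g
      apply frobenius_inj (Polynomial k) p
      simp only [frobenius_def, ← Finset.prod_pow, ← pow_mul, m'', n'',
        Nat.div_mul_cancel (hdvd _).1, Nat.div_mul_cancel (hdvd _).2]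
      exact h' g
    by_cases hz : ∀ i, m' i + n' i = 0
    · funext i
      have := hz i
      simp only [m', n', r] at this
      omega
    push Not at hz
    obtain ⟨i₀, hi₀⟩ := hz
    have hlt : ∑ i, (m'' i + n'' i) < N := by
      subst hN
      refine Finset.sum_lt_sum (fun i _ => ?_) ⟨i₀, Finset.mem_univ _, ?_⟩
      · have h1 := Nat.div_le_self (m' i) p
        have h2 := Nat.div_le_self (n' i) p
        simp only [m'', n'', m', n', r] at *
        omega
      · have h1 := Nat.div_le_self (m' i₀) p
        have h2 := Nat.div_le_self (n' i₀) p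
        rcases Nat.eq_zero_or_pos (m' i₀) with h0 | h0
        · have hn0 : 0 < n' i₀ := by omega
          have := Nat.div_lt_self hn0 hpp.one_lt
          simp only [m'', n'', m', n', r] at *
          omega
        · have := Nat.div_lt_self h0 hpp.one_lt
          simp only [m'', n'', m', n', r] at *
          omega
    have heq := ih _ hlt m'' n'' h'' rfl
    funext i
    have := congrFun heq i
    have h1 := Nat.div_mul_cancel (hdvd i).1
    have h2 := Nat.div_mul_cancel (hdvd i).2
    simp only [m'', n''] at this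
    rw [this] at h1
    have : m' i = n' i := h1.symm.trans h2
    simp only [m', n', r] at this
    omega

/-- Isomorphism as a setoid. -/
def isoSetoid : Setoid (RepObj k Γ) :=
  ⟨RepObj.Iso, RepObj.Iso.refl, RepObj.Iso.symm, RepObj.Iso.trans⟩

/-- Brauer-Nesbitt: equal products of characteristic polynomials give equal sums of invariants. -/
theorem sum_eq_of_prod_cp_eq {φ : RepFn k Γ} (hφ : IsAdditive φ) (L₁ L₂ : List (RepObj k Γ))
    (h : ∀ g, (L₁.map fun X => X.cp g).prod = (L₂.map fun X => X.cp g).prod) :
    (L₁.map fun X => X.app φ).sum = (L₂.map fun X => X.app φ).sum := by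
  classical
  have refine' : ∀ L : List (RepObj k Γ), ∃ L' : List (RepObj k Γ), (∀ Y ∈ L', Y.Irr) ∧
      (L.map fun X => X.app φ).sum = (L'.map fun X => X.app φ).sum ∧
      ∀ g, (L.map fun X => X.cp g).prod = (L'.map fun X => X.cp g).prod := by
    intro L
    induction L with
    | nil => exact ⟨[], by simp, rfl, fun _ => rfl⟩
    | cons X L ihL =>
      obtain ⟨A, hA, hAφ, hAc⟩ := exists_irred_list X
      obtain ⟨L', hL', hLφ, hLc⟩ := ihL
      refine ⟨A ++ L', fun Y hY => (List.mem_append.1 hY).elim (hA Y) (hL' Y), ?_, fun g => ?_⟩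
      · simp [hAφ φ hφ, hLφ]
      · simp [hAc g, hLc g]
  obtain ⟨M₁, hM₁, hφ₁, hc₁⟩ := refine' L₁
  obtain ⟨M₂, hM₂, hφ₂, hc₂⟩ := refine' L₂
  rw [hφ₁, hφ₂]
  letI : Setoid (RepObj k Γ) := isoSetoid
  let Q := Quotient (isoSetoid (k := k) (Γ := Γ))
  have hout : ∀ X : RepObj k Γ, ((Quotient.mk isoSetoid X : Q).out).Iso X :=
    fun X => Quotient.mk_out X
  let cls : List (RepObj k Γ) → Multiset Q := fun L => (L.map (Quotient.mk isoSetoid) : List Q)
  have hsum : ∀ L : List (RepObj k Γ),
      (L.map fun X => X.app φ).sum = ((cls L).map fun c => c.out.app φ).sum := by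
    intro L
    simp only [cls, Multiset.map_coe, Multiset.sum_coe, List.map_map]
    exact congrArg List.sum (List.map_congr_left fun X _ => (hφ.iso (hout X)).symm)
  have hprod : ∀ (L : List (RepObj k Γ)) g,
      (L.map fun X => X.cp g).prod = ((cls L).map fun c => c.out.cp g).prod := by
    intro L g
    simp only [cls, Multiset.map_coe, Multiset.prod_coe, List.map_map]
    exact congrArg List.prod (List.map_congr_left fun X _ => (charpoly_iso (hout X) g).symm)
  rw [hsum, hsum]
  have hirrcls : ∀ c ∈ cls M₁ + cls M₂, c.out.Irr := by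
    intro c hc
    obtain ⟨X, hX, rfl⟩ : ∃ X, X.Irr ∧ Quotient.mk isoSetoid X = c := by
      rcases Multiset.mem_add.1 hc with h | h
      · obtain ⟨X, hX, rfl⟩ := List.mem_map.1 (Multiset.mem_coe.1 h)
        exact ⟨X, hM₁ X hX, rfl⟩
      · obtain ⟨X, hX, rfl⟩ := List.mem_map.1 (Multiset.mem_coe.1 h)
        exact ⟨X, hM₂ X hX, rfl⟩
    obtain ⟨e, he⟩ := hout X
    refine ⟨haveI := hX.1; e.toEquiv.nontrivial, fun W hW => ?_⟩
    rcases hX.2 (W.map e.toLinearMap) (fun g y hy => by
      obtain ⟨x, hx, rfl⟩ := hy
      exact ⟨_, hW g x hx, he g x⟩) with h | h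
    · left
      exact Submodule.map_injective_of_injective e.injective (h.trans (Submodule.map_bot _).symm)
    · right
      exact Submodule.map_injective_of_injective e.injective
        (h.trans (by rw [Submodule.map_top, LinearMap.range_eq_top.2 e.surjective]))
  let s : Finset Q := (cls M₁ + cls M₂).toFinset
  have hkey := exponents_eq (fun c : s => (c : Q).out)
    (fun c => hirrcls c (Multiset.mem_toFinset.1 c.2))
    (fun a b hab => Subtype.ext (by
      rw [← Quotient.out_eq (a : Q), ← Quotient.out_eq (b : Q)]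
      exact Quotient.sound hab))
    (fun c => (cls M₁).count (c : Q)) (fun c => (cls M₂).count (c : Q)) (fun g => by
      have e : ∀ M : Multiset Q, M ≤ cls M₁ + cls M₂ → ∏ c : s, (c : Q).out.cp g ^ M.count (c : Q)
          = (M.map fun c => c.out.cp g).prod := by
        intro M hM
        rw [Finset.prod_multiset_map_count]
        rw [Finset.prod_coe_sort s (fun c => c.out.cp g ^ M.count c)]
        symm
        refine Finset.prod_subset (fun c hc => Multiset.mem_toFinset.2
          (Multiset.mem_of_le hM (Multiset.mem_toFinset.1 hc))) (fun c _ hc => ?_)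
        simp [Multiset.count_eq_zero.2 (fun h => hc (Multiset.mem_toFinset.2 h))]
      rw [e _ (Multiset.le_add_right _ _), e _ (Multiset.le_add_left _ _), ← hprod, ← hprod,
        ← hc₁, ← hc₂]
      exact h g)
  have : cls M₁ = cls M₂ := by
    ext c
    by_cases hc : c ∈ s
    · exact congrFun hkey ⟨c, hc⟩
    · have hc' : c ∉ cls M₁ + cls M₂ := fun h => hc (Multiset.mem_toFinset.2 h)
      rw [Multiset.mem_add] at hc'
      push Not at hc'
      rw [Multiset.count_eq_zero.2 hc'.1, Multiset.count_eq_zero.2 hc'.2]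
  rw [this]

end Main

end FA.GalCoh.EulerAlg
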