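import Fermat.Agent.GalCoh.Capitulation

/-!
Corestriction from a deep enough level kills the classes of degree one unramified outside `S` and
trivial at `S`.
-/

set_option autoImplicit false
set_option linter.unusedSectionVars false

noncomputable section

namespace FA.GalCoh

open Representation

variable {p : ℕ} [hp : Fact p.Prime]

theorem map1_mem_shaS1 {A : Type} [AddCommGroup A] [Module (ZMod p) A] {B : Type} [AddCommGroup B]
    [Module (ZMod p) B] {ρA : Representation (ZMod p) GQ A} {ρB : Representation (ZMod p) GQ B}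
    {φ : A →ₗ[ZMod p] B} (hφ : Equi (MonoidHom.id GQ) ρA ρB φ) {S : Finset Nat.Primes}
    {x : H1 LQ ρA} (hx : x ∈ shaS1 S ρA) : map1 Compat.id hφ x ∈ shaS1 S ρB := by
  obtain ⟨h, h'⟩ := mem_shaS1.1 hx
  exact mem_shaS1.2 ⟨map1_mem_unrOutside hφ h, fun q => by rw [resq1_map, h' q, map_zero]⟩

namespace Trans

variable {X : Type} [Fintype X] [MulAction GQ X] (T : Trans LQ X) [hn : T.H.Normal]
variable {S : Finset Nat.Primes}

theorem exists_ram_single (hμ : ∀ s ∈ T.H, ExtCitation.cycloChar p s = 1) (hT : TC T.H)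
    {Sb : Finset Nat.Primes} (hb : T.AdSet (p := p) Sb) {q : Nat.Primes} (hq : q ∉ Sb)
    (y : H1 (LL (q : ℕ)) ((T.perm p).comp (loc (q : ℕ)))) :
    ∃ x : H1 LQ (T.perm p),
      resq1 (q : ℕ) (T.perm p) x - y ∈ unrH1 ((T.perm p).comp (loc (q : ℕ))) := by
  classical
  let yf : ∀ r : Nat.Primes, H1 (LL (r : ℕ)) ((T.perm p).comp (loc (r : ℕ))) :=
    Function.update (β := fun r : Nat.Primes => H1 (LL (r : ℕ)) ((T.perm p).comp (loc (r : ℕ))))
      (fun _ => 0) q y
  obtain ⟨x, -, hx⟩ := T.exists_ram hμ hb hT (S₁ := {q}) (Finset.disjoint_singleton_right.2 hq) yf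
  refine ⟨x, ?_⟩
  have h := hx q (Finset.mem_singleton_self _)
  rwa [show yf q = y from Function.update_self _ _ _] at h

set_option maxHeartbeats 800000 in
-- the instances on local groups are slow to find
/-- A locally trivial class pairs to zero with a pullback of a class whose valuations at `q` are
those of an element supported at `q`. -/
theorem pair_pull_eq_zero (hp2 : p ≠ 2) (hμ : ∀ s ∈ T.H, ExtCitation.cycloChar p s = 1)
    (hpS : (⟨p, hp.out⟩ : Nat.Primes) ∈ S) {X' : Type} [Fintype X'] [MulAction GQ X']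
    (T' : Trans LQ X') [T'.H.Normal] (hH' : T'.H ∈ (levS S).carrier)
    (hμ' : ∀ s ∈ T'.H, ExtCitation.cycloChar p s = 1)
    {π : X' → X} (hπ : ∀ (g : GQ) y, π (g • y) = g • π y) (hπ0 : π T'.x0 = T.x0)
    {q : Nat.Primes} (hqS' : q ∉ S) {x : H1 LQ (T.perm p)} {a₀ : fixUM T.H (AlgebraicClosure ℚ)}
    (hxa : T.sh1 (triv T.H p) x = (T.kum hμ).kum a₀) {N₀ : Subgroup GQ}
    (hle₀ : T'.H ≤ N₀) (hle₁ : T'.H ≤ T.H) (u₀ : fixUM N₀ (AlgebraicClosure ℚ)) (e₀ : ℕ)
    (hu₀ : ∀ r : Nat.Primes, r ∉ S → r ≠ q → ∀ g : GQ, ‖emb (r : ℕ) g u₀.1.val‖ = 1)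
    (hu₀q : ∀ g : GQ, ‖emb (q : ℕ) g u₀.1.val‖
      = ‖emb (q : ℕ) g a₀.1.val‖ ^ (p * e₀ + 1))
    {x' : H1 LQ (T'.perm p)} (hx' : x' ∈ shaS1 S (T'.perm p)) :
    pair11Q (q : ℕ) (T'.permPair hμ')
      (resq1 (q : ℕ) (T'.perm p) (map1 Compat.id (T.equi_pullPerm T' hπ) x))
      (resq1 (q : ℕ) (T'.perm p) x') = 0 := by
  classical
  have hunr' : ∀ r : Nat.Primes, r ∉ S → UnrRep ((T'.perm p).comp (loc (r : ℕ))) := fun r hr =>
    unrRep_of_smoothS ⟨T'.H, hH', fun s hs => T'.coind_eq_one T' le_rfl (triv T'.H p)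
      (fun _ _ => rfl) hs⟩ hr
  have hqp : (q : ℕ) ≠ p := fun h => hqS' ((show q = ⟨p, hp.out⟩ from Subtype.ext h) ▸ hpS)
  obtain ⟨hx'u, hx'0⟩ := mem_shaS1.1 hx'
  have hx'q := mem_unrOutside.1 hx'u q hqS'
  -- the class of the element with the same valuations at `q`
  let u : fixUM T'.H (AlgebraicClosure ℚ) := ⟨u₀.1, fun s => u₀.2 ⟨s.1, hle₀ s.2⟩⟩
  let a' : fixUM T'.H (AlgebraicClosure ℚ) :=
    ⟨a₀.1, fun s => a₀.2 ⟨s.1, hle₁ s.2⟩⟩
  set b := (T'.shEquiv1 (triv T'.H p)).symm ((T'.kum hμ').kum u)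
  set πx := map1 Compat.id (T.equi_pullPerm T' hπ) x
  have hπx : T'.sh1 (triv T'.H p) πx = (T'.kum hμ').kum a' :=
    T.sh1_pullPerm T' hπ hπ0 hμ hμ' hxa a' rfl
  have hb' : T'.sh1 (triv T'.H p) b = (T'.kum hμ').kum u :=
    (T'.shEquiv1 (triv T'.H p)).apply_symm_apply _
  set d : fixUM T'.H (AlgebraicClosure ℚ) := u - (p * e₀ + 1) • a'
  have hd : T'.sh1 (triv T'.H p) (b - πx) = (T'.kum hμ').kum d := by
    rw [map_sub, hb', hπx, map_sub, map_nsmul, add_smul, one_smul, mul_smul,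
      ← Nat.cast_smul_eq_nsmul (ZMod p) p, ZMod.natCast_self, zero_smul, zero_add]
  have hnd : ∀ g : GQ, ‖emb (q : ℕ) g d.1.val‖ = 1 := fun g => by
    rw [AddSubgroupClass.coe_sub, UM.val_sub, AddSubmonoidClass.coe_nsmul, UM.val_nsmul, map_div₀,
      map_pow, norm_div, norm_pow, hu₀q g]
    exact div_self (pow_ne_zero _ (norm_ne_zero_iff.2 ((_root_.map_ne_zero _).2
      a₀.1.val_ne_zero)))
  obtain ⟨Sd, hSd⟩ := exists_finset_norm_emb_eq_one d.1.val_ne_zero
  have hdunr : b - πx ∈ unrOutside ((S ∪ Sd).erase q) (T'.perm p) := by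
    refine T'.kum_mem_unrOutside hμ' (Finset.mem_erase.2
      ⟨fun h => hqp (congrArg Subtype.val h).symm, Finset.mem_union_left _ hpS⟩)
      (fun r hr => hunr' r fun h => hr (Finset.mem_erase.2
        ⟨fun e => hqS' (e ▸ h), Finset.mem_union_left _ h⟩))
      (a := d) (fun v hv => ?_) hd
    show ‖emb (v.1 : ℕ) v.rep d.1.val‖ = 1
    by_cases hvq : v.1 = q
    · rw [hvq]; exact hnd _
    · exact hSd _ (fun h => hv ((mem_placesOver T'.mem_LQ).2
        (Finset.mem_erase.2 ⟨hvq, Finset.mem_union_right _ h⟩))) _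
  have hbS : b ∈ unrOutside (insert q S) (T'.perm p) := by
    refine T'.kum_mem_unrOutside hμ' (Finset.mem_insert_of_mem hpS)
      (fun r hr => hunr' r fun h => hr (Finset.mem_insert_of_mem h)) (a := u) (fun v hv => ?_) hb'
    have hv' : v.1 ∉ insert q S := fun h => hv ((mem_placesOver T'.mem_LQ).2 h)
    exact hu₀ _ (fun h => hv' (Finset.mem_insert_of_mem h))
      (fun h => hv' (h ▸ Finset.mem_insert_self _ _)) _
  have hsum := sum_pair11Q_eq_zero (T'.permPair hμ') (S := insert q S)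
    (Finset.mem_insert_of_mem hpS) (fun r hr => hunr' r fun h => hr (Finset.mem_insert_of_mem h))
    (fun h => absurd h hp2) hbS (unrOutside_mono (Finset.subset_insert q S) hx'u)
  rw [Finset.sum_eq_single ⟨q, Finset.mem_insert_self q S⟩ (fun r _ hr => by
      have hrS : r.1 ∈ S := (Finset.mem_insert.1 r.2).resolve_left fun h => hr (Subtype.ext h)
      rw [hx'0 ⟨r.1, hrS⟩, map_zero])
    (fun h => absurd (Finset.mem_univ _) h)] at hsum
  have hdq := mem_unrOutside.1 hdunr q (Finset.notMem_erase q _)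
  rw [show πx = b - (b - πx) by abel, map_sub, map_sub, LinearMap.sub_apply,
    pair11Q_eq_zero_of_unr hqp (T'.permPair hμ') (hunr' q hqS') hdq hx'q, sub_zero]
  exact hsum

set_option maxHeartbeats 1600000 in
-- the instances on local groups are slow to find
/-- At a deep enough level, corestriction to the field kills the locally trivial classes of the
permutation module. -/
theorem exists_level_cor_perm [DecidableEq X] (hp2 : p ≠ 2)
    (hμ : ∀ s ∈ T.H, ExtCitation.cycloChar p s = 1) (hpS : (⟨p, hp.out⟩ : Nat.Primes) ∈ S)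
    (hH : T.H ∈ (levS S).carrier) :
    ∃ N ∈ (levS S).carrier, N.Normal ∧ N ≤ T.H ∧
      ∀ (X' : Type) [Fintype X'] [MulAction GQ X'] (T' : Trans LQ X') [T'.H.Normal],
      T'.H ≤ N → T'.H ∈ (levS S).carrier →
      ∀ (π : X' → X) (hπ : ∀ (g : GQ) y, π (g • y) = g • π y), π T'.x0 = T.x0 →
      ∀ x ∈ shaS1 S (T'.perm p), map1 Compat.id (equi_fibreSum (p := p) T T' hπ) x = 0 := by
  classical
  have hT := tc_of_cyclo hp2 hμ
  obtain ⟨Sa, hSa⟩ := T.exists_adSet (p := p)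
  set Sb := S ∪ Sa
  have hb : T.AdSet (p := p) Sb := AdSet.mono T hSa Finset.subset_union_right
  have := finite_unrOutside_of (T.permPair hμ) hp2 S
  have : Finite (shaS1 S (T.perm p)) :=
    Finite.of_injective (Submodule.inclusion (selS_le S _)) (Submodule.inclusion_injective _)
  have hdet : ∀ y : {y : shaS1 S (T.perm p) // y ≠ 0},
      ∃ q : Nat.Primes, q ∉ Sb ∧ resq1 (q : ℕ) (T.perm p) y.1.1 ≠ 0 := fun y => by
    by_contra h
    push Not at h
    exact y.2 (Subtype.ext (T.eq_zero_of_resq1 Sb h))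
  choose qf hqf hres using hdet
  let J := Σ i : {y : shaS1 S (T.perm p) // y ≠ 0},
    H1 (LL (qf i : ℕ)) ((T.perm p).comp (loc (qf i : ℕ)))
  have : ∀ i, Finite (H1 (LL (qf i : ℕ)) ((T.perm p).comp (loc (qf i : ℕ)))) := fun i =>
    have := (perfectQ (qf i : ℕ) (T.permPair hμ)).fin1
    Module.finite_of_finite (ZMod p)
  have hram : ∀ j : J, ∃ x : H1 LQ (T.perm p),
      resq1 (qf j.1 : ℕ) (T.perm p) x - j.2
        ∈ unrH1 ((T.perm p).comp (loc (qf j.1 : ℕ))) := fun j =>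
    T.exists_ram_single hμ hT hb (hqf j.1) j.2
  choose xj hxj using hram
  have hkum : ∀ j, ∃ a, (T.kum hμ).kum a = T.sh1 (triv T.H p) (xj j) := fun j =>
    (T.kum hμ).kum_surjective _
  choose aj haj using hkum
  have hqS : ∀ j : J, qf j.1 ∉ S := fun j h => hqf j.1 (Finset.mem_union_left _ h)
  choose Nj hNj _hnj hNjle uj ej huj hujq using fun j : J =>
    exists_cap (p := p) hn hpS hH (hqS j) (aj j)
  obtain ⟨N, hN, hnN, hNH, hNN⟩ := exists_levS_le hH Nj hNj
  refine ⟨N, hN, hnN, hNH, fun X' _ _ T' _ hle hH' π hπ hπ0 x' hx' => ?_⟩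
  by_contra hne
  obtain ⟨y0, hy0e⟩ : ∃ y0 : shaS1 S (T.perm p),
      y0.1 = map1 Compat.id (equi_fibreSum (p := p) T T' hπ) x' :=
    ⟨⟨_, map1_mem_shaS1 _ hx'⟩, rfl⟩
  let i : {y : shaS1 S (T.perm p) // y ≠ 0} :=
    ⟨y0, fun h => hne (by rw [← hy0e, h, ZeroMemClass.coe_zero])⟩
  refine hres i (eq_zero_of_pair11Q (qf i : ℕ) (T.permPair hμ) fun y => ?_)
  have hqS' : (qf i) ∉ S := fun h => hqf i (Finset.mem_union_left _ h)
  have hμ' : ∀ s ∈ T'.H, ExtCitation.cycloChar p s = 1 := fun s hs => hμ s (hNH (hle hs))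
  have hunr' : UnrRep ((T'.perm p).comp (loc ((qf i) : ℕ))) :=
    unrRep_of_smoothS ⟨T'.H, hH', fun s hs => T'.coind_eq_one T' le_rfl (triv T'.H p)
      (fun _ _ => rfl) hs⟩ hqS'
  have hqp : ((qf i) : ℕ) ≠ p := fun h => hqS' ((show (qf i) = ⟨p, hp.out⟩ from Subtype.ext h) ▸ hpS)
  have hx'q := mem_unrOutside.1 (mem_shaS1.1 hx').1 (qf i) hqS'
  have hy0 : resq1 ((qf i) : ℕ) (T.perm p) y0.1
      = map1 Compat.id (equi_loc (equi_fibreSum (p := p) T T' hπ) ((qf i) : ℕ))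
          (resq1 ((qf i) : ℕ) (T'.perm p) x') := by rw [hy0e, resq1_map]
  show pair11Q ((qf i) : ℕ) (T.permPair hμ) y (resq1 ((qf i) : ℕ) (T.perm p) y0.1) = 0
  rw [hy0]
  refine (pair11_adjoint (localInv (cycL p ((qf i) : ℕ))) (locPair ((qf i) : ℕ) (T.permPair hμ))
    (locPair ((qf i) : ℕ) (T'.permPair hμ')) (equi_loc (T.equi_pullPerm T' hπ) ((qf i) : ℕ))
    (equi_loc (equi_fibreSum (p := p) T T' hπ) ((qf i) : ℕ))
    (fun v w => T.pullPerm_adjoint T' hπ hπ0 hμ hμ' v w) y _).symm.trans ?_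
  let j : J := ⟨i, y⟩
  have hsplit : y = resq1 ((qf i) : ℕ) (T.perm p) (xj j)
      - (resq1 ((qf i) : ℕ) (T.perm p) (xj j) - y) := by abel
  rw [hsplit, map_sub, map_sub, LinearMap.sub_apply,
    pair11Q_eq_zero_of_unr hqp (T'.permPair hμ') hunr' (map1_mem_unrH1 _ (hxj j)) hx'q,
    sub_zero, ← resq1_map]
  exact T.pair_pull_eq_zero hp2 hμ hpS T' hH' hμ' hπ hπ0 hqS' (haj j).symm (hle.trans (hNN j))
    (hle.trans hNH) (uj j) (ej j) (huj j) (hujq j) hx'

/-! ### Vector valued version -/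

variable {U : Type} [AddCommGroup U] [Module (ZMod p) U]

/-- Summation over the fibres of a map. -/
def sumFib [DecidableEq X] {X' : Type} [Fintype X'] (π : X' → X) :
    (X' → U) →ₗ[ZMod p] (X → U) where
  toFun f x := ∑ y with π y = x, f y
  map_add' f f' := by ext x; simp [Finset.sum_add_distrib]
  map_smul' c f := by ext x; simp [Finset.smul_sum]

variable {σ : Representation (ZMod p) GQ U}

theorem equi_sumFib [DecidableEq X] {X' : Type} [Fintype X'] [MulAction GQ X']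
    (T' : Trans LQ X') {π : X' → X} (hπ : ∀ (g : GQ) y, π (g • y) = g • π y)
    (hσ : ∀ s ∈ T.H, σ s = 1) (hle : T'.H ≤ T.H) :
    Equi (MonoidHom.id GQ) (T'.coind (σ.comp T'.H.subtype)) (T.coind (σ.comp T.H.subtype))
      (sumFib (p := p) π) :=
  fun g f => funext fun x => by
    show (∑ y with π y = x, σ (T'.h g y : GQ) (f (g⁻¹ • y)))
      = σ (T.h g x : GQ) (∑ y with π y = g⁻¹ • x, f y)
    rw [hσ _ (T.h g x).2, Module.End.one_apply]
    refine Finset.sum_equiv (MulAction.toPerm g⁻¹) (fun y => ?_) fun y _ => ?_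
    · simp only [Finset.mem_filter, Finset.mem_univ, true_and, MulAction.toPerm_apply, hπ,
        smul_left_cancel_iff]
    · rw [hσ _ (hle (T'.h g y).2)]
      rfl

/-- At a deep enough level, corestriction kills the locally trivial classes. -/
theorem exists_level_corShaS [FiniteDimensional (ZMod p) U] (hp2 : p ≠ 2)
    (hμ : ∀ s ∈ T.H, ExtCitation.cycloChar p s = 1) (hσ : ∀ s ∈ T.H, σ s = 1)
    (hpS : (⟨p, hp.out⟩ : Nat.Primes) ∈ S) (hH : T.H ∈ (levS S).carrier) :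
    ∃ N ∈ (levS S).carrier, N.Normal ∧ N ≤ T.H ∧
      ∀ (X' : Type) [Fintype X'] [MulAction GQ X'] (T' : Trans LQ X') [T'.H.Normal],
      T'.H ≤ N → T'.H ∈ (levS S).carrier →
      ∀ (π : X' → X), (∀ (g : GQ) y, π (g • y) = g • π y) → π T'.x0 = T.x0 →
      LinearMap.range (T'.corShaS σ S) = ⊥ := by
  classical
  obtain ⟨N, hN, hnN, hNH, hcor⟩ := T.exists_level_cor_perm hp2 hμ hpS hH
  refine ⟨N, hN, hnN, hNH, fun X' _ _ T' _ hle hH' π hπ hπ0 =>
    LinearMap.range_eq_bot.2 (LinearMap.ext fun x => ?_)⟩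
  have hleH : T'.H ≤ T.H := hle.trans hNH
  have hσ' : ∀ s : T'.H, σ.comp T'.H.subtype s = 1 := fun s => hσ _ (hleH s.2)
  have hσ0 : ∀ s : T.H, σ.comp T.H.subtype s = 1 := fun s => hσ _ s.2
  let b := Module.finBasis (ZMod p) U
  have hfib : map1 Compat.id (T.equi_sumFib T' hπ hσ hleH) x.1 = 0 := by
    rw [← T.sum_map1_coord hσ0 b (map1 Compat.id (T.equi_sumFib T' hπ hσ hleH) x.1)]
    refine Finset.sum_eq_zero fun i _ => ?_
    have hcomm : map1 Compat.id (T.equi_coord hσ0 (b.coord i))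
        (map1 Compat.id (T.equi_sumFib T' hπ hσ hleH) x.1)
        = map1 Compat.id (equi_fibreSum (p := p) T T' hπ)
            (map1 Compat.id (T'.equi_coord hσ' (b.coord i)) x.1) := by
      obtain ⟨f, hf⟩ := mk1_surjective x.1
      rw [← hf]
      refine congrArg (mk1 LQ (T.perm p)) (Subtype.ext (funext fun g => funext fun z => ?_))
      show b.coord i (∑ y with π y = z, f.1 g y) = ∑ y with π y = z, b.coord i (f.1 g y)
      rw [map_sum]
    rw [hcomm, hcor X' T' hle hH' π hπ hπ0 _ (map1_mem_shaS1 _ x.2), map_zero]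
  show (T'.augSES σ).q1 x.1 = 0
  obtain ⟨f, hf⟩ := mk1_surjective x.1
  rw [← hf] at hfib ⊢
  have haug : (T'.augSES σ).q1 (mk1 LQ (T'.coind (σ.comp T'.H.subtype)) f)
      = (T.augSES σ).q1 (map1 Compat.id (T.equi_sumFib T' hπ hσ hleH) (mk1 LQ (T'.coind (σ.comp T'.H.subtype)) f)) := by
    refine congrArg (mk1 LQ σ) (Subtype.ext (funext fun g => ?_))
    show T'.aug σ (f.1 g) = T.aug σ (sumFib (p := p) π (f.1 g))
    simp only [aug_apply]
    rw [← Finset.sum_fiberwise (s := Finset.univ) (g := π)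
      (f := fun y => σ (T'.t y) (f.1 g y))]
    refine Finset.sum_congr rfl fun z _ => ?_
    show _ = σ (T.t z) (∑ y with π y = z, f.1 g y)
    rw [map_sum]
    refine Finset.sum_congr rfl fun y hy => ?_
    have h : (T.t z)⁻¹ * T'.t y ∈ T.H := by
      rw [MulAction.mem_stabilizer_iff, mul_smul, ← hπ0, ← hπ, T'.t_smul,
        (Finset.mem_filter.1 hy).2, T.inv_t_smul, hπ0]
    rw [← mul_inv_cancel_left (T.t z) (T'.t y), map_mul, hσ _ h, mul_one]
  rw [haug, hfib, map_zero]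

end Trans

end FA.GalCoh
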