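import Fermat.Agent.GalCoh.UnitsModP
import Fermat.Agent.GalCoh.Pair

/-!
Invariants of functions on coset spaces with values in a representation, and dimensions of
invariants of dual representations for groups of order prime to `p`.
-/

set_option autoImplicit false
set_option linter.unusedSectionVars false

noncomputable section

namespace FA.GalCoh.FixSwap

open Module Representation EulerAlg UnitsModP

section Swap

variable {k : Type} [Field k] {Γ : Type} [Group Γ] {V : Type} [AddCommGroup V] [Module k V]
variable (σ : Representation k Γ V) (C D : Subgroup Γ)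

/-- Functions on one coset space fixed by the other subgroup. -/
abbrev coFix : Submodule k ((Γ ⧸ C) → V) :=
  Representation.invariants ((permTensor (Γ ⧸ C) σ).comp D.subtype)

/-- The value at a representative. -/
theorem swap_aux (f : coFix σ C D) {γ γ' : Γ}
    (h : (γ : Γ ⧸ D) = (γ' : Γ ⧸ D)) :
    σ γ (f.1 ((γ⁻¹ : Γ) : Γ ⧸ C)) = σ γ' (f.1 ((γ'⁻¹ : Γ) : Γ ⧸ C)) := by
  have hf : permTensor (Γ ⧸ C) σ (γ'⁻¹ * γ) f.1 = f.1 :=
    f.2 ⟨γ'⁻¹ * γ, QuotientGroup.eq.1 h.symm⟩
  conv_rhs => rw [← hf, permTensor_apply, mul_inv_rev, inv_inv, MulAction.Quotient.smul_coe,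
    smul_eq_mul, mul_inv_cancel_right, ← Module.End.mul_apply, ← map_mul, mul_inv_cancel_left]

/-- The exchange of the two subgroups. -/
def swap (f : coFix σ C D) : coFix σ D C :=
  ⟨fun y => σ y.out (f.1 ((y.out⁻¹ : Γ) : Γ ⧸ C)), fun c => funext fun y => by
    obtain ⟨γ, rfl⟩ := QuotientGroup.mk_surjective y
    rw [MonoidHom.comp_apply, permTensor_apply, MulAction.Quotient.smul_coe, smul_eq_mul,
      swap_aux σ C D f (QuotientGroup.out_eq' (_ : Γ ⧸ D)),
      swap_aux σ C D f (QuotientGroup.out_eq' (γ : Γ ⧸ D)), mul_inv_rev, inv_inv,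
      ← Module.End.mul_apply, ← map_mul, Subgroup.coe_subtype, mul_inv_cancel_left]
    refine congrArg (fun z => σ γ (f.1 z)) (QuotientGroup.eq.2 ?_)
    simp [mul_assoc]⟩

theorem swap_mk (f : coFix σ C D) (γ : Γ) :
    (swap σ C D f).1 (γ : Γ ⧸ D) = σ γ (f.1 ((γ⁻¹ : Γ) : Γ ⧸ C)) :=
  swap_aux σ C D f (QuotientGroup.out_eq' _)

theorem swap_swap (f : coFix σ C D) : swap σ D C (swap σ C D f) = f := by
  refine Subtype.ext (funext fun z => ?_)
  obtain ⟨γ, rfl⟩ := QuotientGroup.mk_surjective z
  rw [swap_mk, swap_mk, inv_inv, ← Module.End.mul_apply, ← map_mul, mul_inv_cancel, map_one,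
    Module.End.one_apply]

/-- The exchange as an equivalence. -/
def swapEquiv : coFix σ C D ≃ₗ[k] coFix σ D C where
  toFun := swap σ C D
  invFun := swap σ D C
  left_inv := swap_swap σ C D
  right_inv := swap_swap σ D C
  map_add' f g := Subtype.ext (funext fun y => map_add (σ y.out) _ _)
  map_smul' a f := Subtype.ext (funext fun y => map_smul (σ y.out) _ _)

theorem finrank_coFix_comm :
    finrank k (coFix σ C D) = finrank k (coFix σ D C) := (swapEquiv σ C D).finrank_eq

/-- The invariants of functions on a coset space. -/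
def inducedInvEquiv :
    ↥(permTensor (Γ ⧸ C) σ).invariants ≃ₗ[k] ↥(Representation.invariants (σ.comp C.subtype)) where
  toFun f := ⟨f.1 ((1 : Γ) : Γ ⧸ C), fun c => by
    have h := congrFun (f.2 c.1) ((1 : Γ) : Γ ⧸ C)
    rw [permTensor_apply, MulAction.Quotient.smul_coe, smul_eq_mul, mul_one,
      show ((c.1⁻¹ : Γ) : Γ ⧸ C) = ((1 : Γ) : Γ ⧸ C) from
        QuotientGroup.eq.2 (by simp)] at h
    exact h⟩
  invFun v := ⟨fun z => σ z.out v.1, fun g => funext fun z => by
    rw [permTensor_apply, ← Module.End.mul_apply, ← map_mul]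
    have hc : z.out⁻¹ * (g * (g⁻¹ • z).out) ∈ C := QuotientGroup.eq.1 (by
      rw [QuotientGroup.out_eq', ← smul_eq_mul g, ← MulAction.Quotient.smul_coe,
        QuotientGroup.out_eq', smul_inv_smul])
    conv_lhs => rw [← mul_inv_cancel_left z.out (g * (g⁻¹ • z).out), map_mul, Module.End.mul_apply]
    exact congrArg (σ z.out) (v.2 ⟨_, hc⟩)⟩
  left_inv f := Subtype.ext (funext fun z => by
    have h := congrFun (f.2 z.out) z
    rw [permTensor_apply] at h
    refine Eq.trans ?_ h
    show σ z.out (f.1 ((1 : Γ) : Γ ⧸ C)) = σ z.out (f.1 (z.out⁻¹ • z))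
    rw [show z.out⁻¹ • z = ((1 : Γ) : Γ ⧸ C) from by
      conv_lhs => rw [← QuotientGroup.out_eq' z, MulAction.Quotient.smul_coe, smul_eq_mul,
        QuotientGroup.out_eq', inv_mul_cancel]])
  right_inv v := Subtype.ext (v.2 ⟨((1 : Γ) : Γ ⧸ C).out, by
    have h := QuotientGroup.eq.1 (QuotientGroup.out_eq' ((1 : Γ) : Γ ⧸ C))
    rw [mul_one] at h
    exact (inv_mem_iff (H := C)).1 h⟩)
  map_add' f g := rfl
  map_smul' a f := rfl

end Swap

section Sigma

variable {k : Type} [Field k] {G : Type} [Group G] {V : Type} [AddCommGroup V] [Module k V]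
variable {I : Type} {Y : I → Type} [∀ i, MulAction G (Y i)] (σ : Representation k G V)

/-- Invariants on a disjoint union. -/
def sigmaInvEquiv :
    ↥(permTensor (Σ i, Y i) σ).invariants ≃ₗ[k] ∀ i, ↥(permTensor (Y i) σ).invariants where
  toFun f i := ⟨fun y => f.1 ⟨i, y⟩, fun g => funext fun y => congrFun (f.2 g) ⟨i, y⟩⟩
  invFun F := ⟨fun z => (F z.1).1 z.2, fun g => funext fun z => congrFun ((F z.1).2 g) z.2⟩
  left_inv f := Subtype.ext (funext fun z => rfl)
  right_inv F := funext fun i => Subtype.ext (funext fun y => rfl)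
  map_add' f g := rfl
  map_smul' a f := rfl

theorem finrank_sigma_invariants [Fintype I] [∀ i, Finite (Y i)] [FiniteDimensional k V] :
    finrank k ↥(permTensor (Σ i, Y i) σ).invariants
      = ∑ i, finrank k ↥(permTensor (Y i) σ).invariants := by
  rw [(sigmaInvEquiv σ).finrank_eq, Module.finrank_pi_fintype]

end Sigma

section Dual

variable {p : ℕ} [hp : Fact p.Prime] {C : Type} [Group C] [Fintype C]
variable {V : Type} [AddCommGroup V] [Module (ZMod p) V] [FiniteDimensional (ZMod p) V]

/-- The dual of a representation of a group of order prime to `p` has as many invariants. -/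
theorem finrank_dual_invariants (hC : ¬ p ∣ Nat.card C) (ρ : Representation (ZMod p) C V) :
    finrank (ZMod p) ↥ρ.dual.invariants = finrank (ZMod p) ↥ρ.invariants := by
  set u : ZMod p := (Nat.card C : ZMod p)⁻¹
  have hu : u * (Nat.card C : ZMod p) = 1 :=
    inv_mul_cancel₀ fun h => hC ((ZMod.natCast_eq_zero_iff _ _).1 h)
  let av : ∀ {U : Type} [AddCommGroup U] [Module (ZMod p) U],
      Representation (ZMod p) C U → (U →ₗ[ZMod p] U) := fun τ => u • ∑ g : C, τ g
  have hav : ∀ {U : Type} [AddCommGroup U] [Module (ZMod p) U]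
      (τ : Representation (ZMod p) C U), LinearMap.range (av τ) = τ.invariants := by
    intro U _ _ τ
    refine le_antisymm ?_ fun v hv => ⟨v, ?_⟩
    · rintro _ ⟨v, rfl⟩ h
      simp only [av, LinearMap.smul_apply, LinearMap.sum_apply, map_smul, map_sum]
      refine congrArg (u • ·) (Fintype.sum_equiv (Equiv.mulLeft h) _ _ fun g => ?_)
      rw [Equiv.coe_mulLeft, map_mul, Module.End.mul_apply]
    · simp only [av, LinearMap.smul_apply, LinearMap.sum_apply]
      rw [Finset.sum_congr rfl fun g _ => hv g, Finset.sum_const, Finset.card_univ,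
        ← Nat.cast_smul_eq_nsmul (ZMod p), smul_smul, ← Nat.card_eq_fintype_card, hu, one_smul]
  have hdual : av ρ.dual = (av ρ).dualMap := by
    refine LinearMap.ext fun f => LinearMap.ext fun v => ?_
    simp only [av, LinearMap.smul_apply, LinearMap.sum_apply, LinearMap.dualMap_apply, map_smul,
      map_sum, Representation.dual_apply, Module.Dual.transpose_apply, LinearMap.comp_apply]
    exact congrArg (u • ·) (Fintype.sum_equiv (Equiv.inv C) _ _ fun g => rfl)
  rw [← hav ρ.dual, hdual, LinearMap.finrank_range_dualMap_eq_finrank_range, hav ρ]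

variable {Y : Type} [Fintype Y] [MulAction C Y]

/-- Dual of functions with values in a representation. -/
def permDualEquiv [DecidableEq Y] (ρ : Representation (ZMod p) C V) :
    (Y → Module.Dual (ZMod p) V) ≃ₗ[ZMod p] Module.Dual (ZMod p) (Y → V) :=
  LinearEquiv.ofLinear (∑ y : Y, (LinearMap.proj y : (Y → V) →ₗ[ZMod p] V).dualMap ∘ₗ LinearMap.proj y)
    (LinearMap.pi fun y => (LinearMap.single (ZMod p) (fun _ : Y => V) y).dualMap)
    (LinearMap.ext fun F => LinearMap.ext fun f => by
      simp only [LinearMap.comp_apply, LinearMap.id_apply, LinearMap.sum_apply,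
        LinearMap.dualMap_apply, LinearMap.pi_apply, LinearMap.proj_apply]
      conv_rhs => rw [← Finset.univ_sum_single f]
      rw [map_sum]
      rfl)
    (LinearMap.ext fun F => funext fun y => LinearMap.ext fun v => by
      simp only [LinearMap.comp_apply, LinearMap.id_apply, LinearMap.sum_apply,
        LinearMap.dualMap_apply, LinearMap.pi_apply, LinearMap.proj_apply,
        LinearMap.single_apply]
      rw [Finset.sum_eq_single y (fun z _ hz => by simp [Pi.single_eq_of_ne hz])
        (fun h => absurd (Finset.mem_univ _) h), Pi.single_eq_same])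

/-- Equivariant maps into a permutation representation. -/
theorem finrank_eqHom_perm (hC : ¬ p ∣ Nat.card C) (ρ : Representation (ZMod p) C V) :
    finrank (ZMod p) (eqHom ρ (permTensor Y (1 : Representation (ZMod p) C (ZMod p))))
      = finrank (ZMod p) ↥(permTensor Y ρ).invariants := by
  classical
  rw [← finrank_dual_invariants hC (permTensor Y ρ)]
  let e := permDualEquiv (Y := Y) ρ
  have he : ∀ F f, e F f = ∑ y, F y (f y) := fun F f => by
    simp [e, permDualEquiv, LinearMap.sum_apply]
  have hequi : ∀ g F, e (permTensor Y ρ.dual g F) = (permTensor Y ρ).dual g (e F) := by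
    intro g F
    refine LinearMap.ext fun f => ?_
    rw [he, Representation.dual_apply, Module.Dual.transpose_apply, LinearMap.comp_apply, he]
    refine (Fintype.sum_equiv (MulAction.toPerm g) _ _ fun y => ?_).symm
    simp [permTensor_apply, Representation.dual_apply, Module.Dual.transpose_apply,
      Representation.self_inv_apply, inv_smul_smul, smul_inv_smul]
  let e1 : eqHom ρ (permTensor Y (1 : Representation (ZMod p) C (ZMod p))) ≃ₗ[ZMod p]
      ↥(permTensor Y ρ.dual).invariants :=
    { toFun := fun f => ⟨fun y => LinearMap.proj y ∘ₗ f.1, fun g => funext fun y =>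
        LinearMap.ext fun w => by
          have h := congrFun (f.2 g⁻¹ w) (g⁻¹ • y)
          rw [permTensor_apply, inv_inv, smul_inv_smul, MonoidHom.one_apply] at h
          simpa [permTensor_apply, Representation.dual_apply, Module.Dual.transpose_apply] using h⟩
      invFun := fun F => ⟨LinearMap.pi F.1, fun g w => funext fun y => by
          have h := LinearMap.congr_fun (congrFun (F.2 g⁻¹) (g⁻¹ • y)) w
          rw [permTensor_apply, inv_inv, smul_inv_smul, Representation.dual_apply,
            Module.Dual.transpose_apply, inv_inv, LinearMap.comp_apply] at h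
          rw [permTensor_apply, MonoidHom.one_apply]
          exact h⟩
      left_inv := fun f => Subtype.ext (LinearMap.ext fun w => funext fun y => rfl)
      right_inv := fun F => Subtype.ext (funext fun y => LinearMap.ext fun w => rfl)
      map_add' := fun f f' => rfl
      map_smul' := fun a f => rfl }
  have hmap : (permTensor Y ρ.dual).invariants.map (e : _ →ₗ[ZMod p] _)
      = (permTensor Y ρ).dual.invariants := by
    ext φ
    simp only [Submodule.mem_map]
    constructor
    · rintro ⟨F, hF, rfl⟩ g
      rw [LinearEquiv.coe_coe, ← hequi, hF g]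
    · refine fun hφ => ⟨e.symm φ, fun g => e.injective ?_, e.apply_symm_apply φ⟩
      rw [hequi, e.apply_symm_apply, hφ g]
  rw [e1.finrank_eq, ← hmap, LinearEquiv.finrank_map_eq]

/-- Equivariant maps into the trivial line. -/
theorem finrank_eqHom_one (hC : ¬ p ∣ Nat.card C) (ρ : Representation (ZMod p) C V) :
    finrank (ZMod p) (eqHom ρ (1 : Representation (ZMod p) C (ZMod p)))
      = finrank (ZMod p) ↥ρ.invariants := by
  rw [← finrank_dual_invariants hC ρ]
  refine LinearEquiv.finrank_eq (LinearEquiv.ofEq _ _ ?_)
  ext f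
  rw [mem_eqHom]
  constructor
  · intro hf g
    refine LinearMap.ext fun v => ?_
    simpa [Representation.dual_apply, Module.Dual.transpose_apply] using hf g⁻¹ v
  · intro hf g v
    have := LinearMap.congr_fun (hf g⁻¹) v
    simpa [Representation.dual_apply, Module.Dual.transpose_apply] using this

end Dual

section Involution

variable {k : Type} [Field k] {G : Type} [Group G] {V : Type} [AddCommGroup V] [Module k V]
variable {W : Type} [AddCommGroup W] [Module k W] [FiniteDimensional k V] [FiniteDimensional k W]

/-- For an element with sign character the fixed space of the partner is the `-1` eigenspace. -/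
theorem finrank_ker_add_one {ρ : Representation k G V} {σ : Representation k G W} {χ : G →* kˣ}
    {β : V →ₗ[k] W →ₗ[k] k} (hβ : Bil ρ σ (chr χ) β) (hinj : Function.Injective β.flip)
    (hinj' : Function.Injective β) {c : G} (hc : c * c = 1) (hχ : (χ c : k) = -1) :
    finrank k ↥(LinearMap.ker (ρ c + 1)) = finrank k ↥(LinearMap.ker (σ c - 1)) := by
  have hdual : finrank k W = finrank k V := by
    refine le_antisymm ((LinearMap.finrank_le_finrank_of_injective hinj).trans_eq
      Subspace.dual_finrank_eq) ?_
    exact (LinearMap.finrank_le_finrank_of_injective hinj').trans_eq Subspace.dual_finrank_eq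
  let e : W ≃ₗ[k] Module.Dual k V := LinearEquiv.ofBijective β.flip ⟨hinj,
    (LinearMap.injective_iff_surjective_of_finrank_eq_finrank
      (hdual.trans Subspace.dual_finrank_eq.symm)).1 hinj⟩
  have key : ∀ v w, β (ρ c v) w = - β v (σ c w) := fun v w => by
    have h := hβ c v (σ c w)
    rw [← Module.End.mul_apply, ← map_mul, hc, map_one, Module.End.one_apply, chr_apply, hχ,
      neg_one_mul] at h
    exact h
  have hann : (LinearMap.ker (σ c - 1)).map (e : W →ₗ[k] Module.Dual k V)
      = (LinearMap.range (ρ c + 1)).dualAnnihilator := by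
    ext f
    constructor
    · rintro ⟨w, hw, rfl⟩
      rw [Submodule.mem_dualAnnihilator]
      rintro _ ⟨v, rfl⟩
      have hw' : σ c w = w := sub_eq_zero.1 hw
      show β ((ρ c + 1) v) w = 0
      rw [LinearMap.add_apply, Module.End.one_apply, map_add, LinearMap.add_apply, key, hw',
        neg_add_cancel]
    · intro hf
      refine ⟨e.symm f, ?_, e.apply_symm_apply f⟩
      refine LinearMap.mem_ker.2 (sub_eq_zero.2 (hinj (LinearMap.ext fun v => ?_)))
      show β v (σ c (e.symm f)) = β v (e.symm f)
      have h := (Submodule.mem_dualAnnihilator _).1 hf _ ⟨v, rfl⟩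
      rw [← e.apply_symm_apply f] at h
      change β ((ρ c + 1) v) (e.symm f) = 0 at h
      rw [LinearMap.add_apply, Module.End.one_apply, map_add, LinearMap.add_apply, key,
        neg_add_eq_zero] at h
      exact h
  have h1 := Subspace.finrank_add_finrank_dualAnnihilator_eq (LinearMap.range (ρ c + 1))
  rw [← hann, LinearEquiv.finrank_map_eq] at h1
  have h2 := (ρ c + 1).finrank_range_add_finrank_ker
  omega

/-- The invariants of a cyclic group. -/
theorem invariants_zpowers (ρ : Representation k G V) (c : G) :
    Representation.invariants (ρ.comp (Subgroup.zpowers c).subtype)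
      = LinearMap.ker (ρ c - 1) := by
  ext v
  rw [LinearMap.mem_ker, LinearMap.sub_apply, Module.End.one_apply, sub_eq_zero]
  refine ⟨fun h => h ⟨c, Subgroup.mem_zpowers c⟩, fun h x => ?_⟩
  let St : Subgroup G :=
    { carrier := {g | ρ g v = v}
      mul_mem' := fun {a b} ha hb => by
        show ρ (a * b) v = v
        rw [map_mul, Module.End.mul_apply, hb, ha]
      one_mem' := by show ρ 1 v = v; rw [map_one]; rfl
      inv_mem' := fun {a} ha => by
        show ρ a⁻¹ v = v
        conv_lhs => rw [← ha, ← Module.End.mul_apply, ← map_mul, inv_mul_cancel, map_one]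
        rfl }
  exact (Subgroup.zpowers_le.2 (show c ∈ St from h)) x.2

end Involution

end FA.GalCoh.FixSwap
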