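import Fermat.Agent.GalCoh.PermVec

/-!
Places of the fields between `ℚ` and a Galois splitting field as orbits on coset spaces of
decomposition groups, and the rank of the units in those terms.
-/

set_option autoImplicit false
set_option linter.unusedSectionVars false

noncomputable section

namespace FA.GalCoh

open NumberField IntermediateField

/-- Two surjections with the same fibres have targets of the same cardinality. -/
theorem natCard_eq_of_fibres {α A B : Type} (f : α → A) (g : α → B) (hf : Function.Surjective f)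
    (hg : Function.Surjective g) (h : ∀ a a', f a = f a' ↔ g a = g a') :
    Nat.card A = Nat.card B := by
  refine Nat.card_congr (Equiv.ofBijective (fun x => g (hf x).choose) ⟨fun x y e => ?_, fun b => ?_⟩)
  · rw [← (hf x).choose_spec, ← (hf y).choose_spec]
    exact (h _ _).2 e
  · obtain ⟨a, rfl⟩ := hg b
    exact ⟨f a, (h _ _).1 (hf (f a)).choose_spec⟩

/-- Complex conjugation inverts roots of unity. -/
theorem cycloChar_complexConjugation {p : ℕ} [hp : Fact p.Prime] :
    (ExtCitation.cycloChar p complexConjugation : ZMod p) = -1 := by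
  set ζ := complexEmbedding (zetaQ p) with hζdef
  have hζ : IsPrimitiveRoot ζ p := zetaQ_spec.map_of_injective complexEmbedding.injective
  have hc := congrArg complexEmbedding (apply_zetaQ (p := p) complexConjugation)
  rw [complexEmbedding_complexConjugation, map_pow, ← hζdef,
    ← Complex.inv_eq_conj (hζ.norm'_eq_one hp.out.ne_zero)] at hc
  have hpow : ζ ^ ((ExtCitation.cycloChar p complexConjugation : ZMod p).val + 1) = 1 := by
    rw [pow_succ, ← hc, inv_mul_cancel₀ (hζ.ne_zero hp.out.ne_zero)]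
  have hd := (ZMod.natCast_eq_zero_iff _ p).2 ((hζ.pow_eq_one_iff_dvd _).1 hpow)
  rw [Nat.cast_add, Nat.cast_one, ZMod.natCast_zmod_val] at hd
  exact eq_neg_of_add_eq_zero_left hd

section Orbits

variable {N : Subgroup GQ} [N.Normal]

/-- The subgroup of the absolute Galois group over a subgroup of the quotient. -/
def overSub (C : Subgroup (GQ ⧸ N)) (C₁ : Subgroup C) : Subgroup GQ :=
  (C₁.map C.subtype).comap (QuotientGroup.mk' N)

theorem mem_overSub {C : Subgroup (GQ ⧸ N)} {C₁ : Subgroup C} {s : GQ} :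
    s ∈ overSub C C₁ ↔ ∃ c : C₁, ((c : C) : GQ ⧸ N) = (s : GQ ⧸ N) := by
  simp only [overSub, Subgroup.mem_comap, Subgroup.mem_map, QuotientGroup.mk'_apply,
    Subgroup.coe_subtype]
  exact ⟨fun ⟨c, hc, e⟩ => ⟨⟨c, hc⟩, e⟩, fun ⟨c, e⟩ => ⟨c.1, c.2, e⟩⟩

theorem le_overSub (C : Subgroup (GQ ⧸ N)) (C₁ : Subgroup C) : N ≤ overSub C C₁ := fun s hs =>
  mem_overSub.2 ⟨1, ((QuotientGroup.eq_one_iff s).2 hs).symm⟩

variable (C : Subgroup (GQ ⧸ N)) (C₁ : Subgroup C) (E : Subgroup GQ)

/-- The orbit of the coset of the inverse. -/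
def orbitOf (g : GQ) :
    MulAction.orbitRel.Quotient C₁ ((GQ ⧸ N) ⧸ E.map (QuotientGroup.mk' N)) :=
  Quotient.mk'' (((g⁻¹ : GQ) : GQ ⧸ N) : (GQ ⧸ N) ⧸ E.map (QuotientGroup.mk' N))

theorem orbitOf_surjective : Function.Surjective (orbitOf C C₁ E) := fun o => by
  induction o using Quotient.inductionOn' with
  | h y =>
    obtain ⟨γ, rfl⟩ := QuotientGroup.mk_surjective y
    obtain ⟨g, rfl⟩ := QuotientGroup.mk_surjective γ
    exact ⟨g⁻¹, by rw [orbitOf, inv_inv]⟩

theorem orbitOf_eq_iff {g g' : GQ} :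
    orbitOf C C₁ E g = orbitOf C C₁ E g' ↔
      ∃ e ∈ E, ∃ s ∈ overSub C C₁, g' = e * g * s := by
  rw [eq_comm, orbitOf, orbitOf, Quotient.eq'', MulAction.orbitRel_apply, MulAction.mem_orbit_iff]
  constructor
  · rintro ⟨c, hc⟩
    have hc' : (((c : C) : GQ ⧸ N) * ((g⁻¹ : GQ) : GQ ⧸ N) : GQ ⧸ N)⁻¹ * ((g'⁻¹ : GQ) : GQ ⧸ N)
        ∈ E.map (QuotientGroup.mk' N) := QuotientGroup.eq.1 hc
    obtain ⟨e, he, hee⟩ := hc'
    obtain ⟨s, hs⟩ := QuotientGroup.mk_surjective ((c : C) : GQ ⧸ N)
    rw [← hs, QuotientGroup.mk'_apply, ← QuotientGroup.mk_mul, ← QuotientGroup.mk_inv,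
      ← QuotientGroup.mk_mul, QuotientGroup.eq] at hee
    refine ⟨e⁻¹, inv_mem he, s⁻¹ * ((s * g⁻¹ * e) * (e⁻¹ * ((s * g⁻¹)⁻¹ * g'⁻¹)) *
      (s * g⁻¹ * e)⁻¹)⁻¹, mul_mem (inv_mem (mem_overSub.2 ⟨c, hs.symm⟩))
      (le_overSub C C₁ (inv_mem (Subgroup.Normal.conj_mem inferInstance _ hee _))), ?_⟩
    group
  · rintro ⟨e, he, s, hs, rfl⟩
    obtain ⟨c, hc⟩ := mem_overSub.1 hs
    refine ⟨c⁻¹, QuotientGroup.eq.2 ⟨e⁻¹, inv_mem he, ?_⟩⟩
    simp only [smul_eq_mul, Subgroup.coe_subtype, InvMemClass.coe_inv, hc,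
      QuotientGroup.mk'_apply, QuotientGroup.mk_inv, QuotientGroup.mk_mul]
    group

end Orbits

section Rank

variable {H : Subgroup GQ} (hH : H ∈ LQ.carrier)

include hH in
/-- The rank of the group of units outside finitely many places. -/
theorem finrank_tUnits_add_one [NumberField (fixedField H)] (T : Finset (Place H)) :
    Module.finrank ℤ (tUnits H T) + 1
      = Fintype.card (InfinitePlace (fixedField H)) + T.card := by
  classical
  have := finite_tUnits hH T
  have h1 := Submodule.finrank_quotient_add_finrank (LinearMap.ker (ordMap hH T))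
  have h2 := (ordMap hH T).quotKerEquivRange.finrank_eq
  rw [finrank_range_ordMap hH T] at h2
  rw [h2, finrank_ker_ordMap hH T, NumberField.Units.rank] at h1
  have : 0 < Fintype.card (InfinitePlace (fixedField H)) := Fintype.card_pos
  omega

theorem card_placesOver {S : Finset Nat.Primes} :
    (placesOver hH S).card = ∑ q : {q // q ∈ S}, Nat.card (PlaceOver H (q.1 : ℕ)) := by
  have := fun q : Nat.Primes => finite_placeOver hH (q : ℕ)
  rw [placesOver, Finset.card_sigma, ← Finset.sum_coe_sort S]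
  exact Finset.sum_congr rfl fun q _ =>
    (@Finset.card_univ (PlaceOver H (q.1 : ℕ)) (Fintype.ofFinite _)).trans
      (@Nat.card_eq_fintype_card (PlaceOver H (q.1 : ℕ)) (Fintype.ofFinite _)).symm

end Rank

section Places

variable {N : Subgroup GQ} [N.Normal] (C : Subgroup (GQ ⧸ N)) (C₁ : Subgroup C)

theorem natCard_orbits_placeOver (q : ℕ) [Fact q.Prime] :
    Nat.card (MulAction.orbitRel.Quotient C₁ ((GQ ⧸ N) ⧸ (DQ q).map (QuotientGroup.mk' N)))
      = Nat.card (PlaceOver (overSub C C₁) q) := by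
  refine natCard_eq_of_fibres (orbitOf C C₁ (DQ q)) (fun g => placeQ g)
    (orbitOf_surjective C C₁ _) (fun c => ⟨repQ c, placeQ_repQ c⟩) fun g g' => ?_
  rw [eq_comm (a := placeQ g), orbitOf_eq_iff, placeQ_eq_iff]
  constructor
  · rintro ⟨_, ⟨τ, rfl⟩, s, hs, rfl⟩
    exact ⟨τ, s, hs, rfl⟩
  · rintro ⟨τ, s, hs, rfl⟩
    exact ⟨_, ⟨τ, rfl⟩, s, hs, rfl⟩

theorem natCard_orbits_infinitePlace (hN : N ∈ LQ.carrier)
    [NumberField (fixedField (overSub C C₁))] :
    Nat.card (MulAction.orbitRel.Quotient C₁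
        ((GQ ⧸ N) ⧸ (Subgroup.zpowers complexConjugation).map (QuotientGroup.mk' N)))
      = Nat.card (InfinitePlace (fixedField (overSub C C₁))) := by
  set H := overSub C C₁
  have hH : H ∈ LQ.carrier := by
    obtain ⟨F, hF, hle⟩ := hN
    exact ⟨F, hF, hle.trans (le_overSub C C₁)⟩
  set K := fixedField H
  let place : GQ → InfinitePlace K := fun g =>
    InfinitePlace.mk (complexEmbedding.toRingHom.comp
      ((g : AlgebraicClosure ℚ →+* AlgebraicClosure ℚ).comp K.val.toRingHom))
  have hmem : ∀ g g' : GQ, (∀ a : K, g a = g' a) ↔ g⁻¹ * g' ∈ H := fun g g' => by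
    conv_rhs => rw [← fixingSubgroup_fixedField_LQ hH, IntermediateField.mem_fixingSubgroup_iff]
    constructor
    · intro h a ha
      rw [AlgEquiv.mul_apply, AlgEquiv.aut_inv, AlgEquiv.symm_apply_eq]
      exact (h ⟨a, ha⟩).symm
    · intro h a
      have := h a.1 a.2
      rw [AlgEquiv.mul_apply, AlgEquiv.aut_inv, AlgEquiv.symm_apply_eq] at this
      exact this.symm
  refine natCard_eq_of_fibres (orbitOf C C₁ _) place (orbitOf_surjective C C₁ _) (fun w => ?_)
    fun g g' => ?_
  · obtain ⟨ψ, hψ⟩ : ∃ ψ : AlgebraicClosure ℚ →ₐ[ℚ] ℂ, ∀ a : K, ψ a = w.embedding a := by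
      let _ : Algebra K ℂ := w.embedding.toAlgebra
      have : Algebra.IsAlgebraic K (AlgebraicClosure ℚ) :=
        Algebra.IsAlgebraic.tower_top (K := ℚ) K
      let ψ : AlgebraicClosure ℚ →ₐ[K] ℂ := IsAlgClosed.lift
      exact ⟨ψ.toRingHom.toRatAlgHom, fun a => ψ.commutes a⟩
    obtain ⟨e, he⟩ : ∃ g : GQ, ∀ x, ψ x = complexEmbedding (g x) := by
      let _ : Algebra (AlgebraicClosure ℚ) ℂ := complexEmbedding.toRingHom.toAlgebra
      have : IsScalarTower ℚ (AlgebraicClosure ℚ) ℂ :=
        IsScalarTower.of_algebraMap_eq' (Subsingleton.elim _ _)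
      refine ⟨AlgEquiv.ofBijective (ψ.restrictNormal' (AlgebraicClosure ℚ) : _ ≃ₐ[ℚ] _).toAlgHom
        (AlgEquiv.bijective _), fun x => ?_⟩
      exact (AlgHom.restrictNormal_commutes ψ (AlgebraicClosure ℚ) x).symm
    refine ⟨e, ?_⟩
    conv_rhs => rw [← InfinitePlace.mk_embedding w]
    exact congrArg InfinitePlace.mk (RingHom.ext fun a => by rw [← hψ, he]; rfl)
  · rw [orbitOf_eq_iff, InfinitePlace.mk_eq_iff]
    constructor
    · rintro ⟨e, he, s, hs, rfl⟩
      obtain ⟨n, rfl⟩ := he
      have hfix : ∀ a : K, s (a : AlgebraicClosure ℚ) = a := fun a => by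
        have := (hmem 1 s).2 (by rwa [inv_one, one_mul]) a
        exact this.symm
      rcases Int.emod_two_eq_zero_or_one n with h | h
      · left
        refine RingHom.ext fun a => ?_
        show complexEmbedding (g a) = complexEmbedding ((complexConjugation ^ n * g * s) a)
        rw [AlgEquiv.mul_apply, hfix, ← Int.mul_ediv_add_emod n 2, h, add_zero, zpow_mul,
          zpow_two, complexConjugation_mul_self, one_zpow, one_mul]
      · right
        refine RingHom.ext fun a => ?_
        show starRingEnd ℂ (complexEmbedding (g a))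
          = complexEmbedding ((complexConjugation ^ n * g * s) a)
        rw [AlgEquiv.mul_apply, hfix, ← Int.mul_ediv_add_emod n 2, h, zpow_add, zpow_mul,
          zpow_two, complexConjugation_mul_self, one_zpow, one_mul, zpow_one, AlgEquiv.mul_apply,
          complexEmbedding_complexConjugation]
    · rintro (h | h)
      · refine ⟨1, one_mem _, g⁻¹ * g', (hmem g g').1 fun a => complexEmbedding.injective
          (RingHom.congr_fun h a), ?_⟩
        group
      · refine ⟨complexConjugation, Subgroup.mem_zpowers _, (complexConjugation * g)⁻¹ * g',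
          (hmem _ g').1 fun a => complexEmbedding.injective ?_, ?_⟩
        · rw [AlgEquiv.mul_apply]
          exact (complexEmbedding_complexConjugation _).trans (RingHom.congr_fun h a)
        · group

end Places

end FA.GalCoh
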