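import Fermat.Agent.GalCoh.EulerSeq
import Fermat.Agent.GalCoh.FixSwap
import Fermat.Agent.GalCoh.OrbitPlaces

/-!
The first cohomology of a permutation module with values in a representation, in terms of the
units of the splitting field modulo `p`.
-/

set_option autoImplicit false
set_option linter.unusedSectionVars false

noncomputable section

namespace FA.GalCoh

open Representation EulerAlg UnitsModP

variable {p : ℕ} [hp : Fact p.Prime]

namespace Trans

variable {X : Type} [Fintype X] [MulAction GQ X] (T : Trans LQ X) [hn : T.H.Normal]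

/-! ### The set as a torsor of the quotient -/

theorem smul_of_mem {s : GQ} (hs : s ∈ T.H) (x : X) : s • x = x := by
  have hc : (T.t x)⁻¹ * s * T.t x ∈ T.H := hn.conj_mem' _ hs _
  have h := MulAction.mem_stabilizer_iff.1 hc
  rwa [mul_smul, mul_smul, T.t_smul, inv_smul_eq_iff, T.t_smul] at h

/-- The element of the quotient of a point. -/
def tq (x : X) : GQ ⧸ T.H := (T.t x : GQ)

/-- The point of an element of the quotient. -/
def toX (γ : GQ ⧸ T.H) : X := γ.out • T.x0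

theorem toX_mk (g : GQ) : T.toX (g : GQ ⧸ T.H) = g • T.x0 := by
  obtain ⟨h, hh⟩ := QuotientGroup.mk_out_eq_mul T.H g
  rw [toX, hh, mul_smul, T.smul_of_mem h.2]

theorem toX_tq (x : X) : T.toX (T.tq x) = x := by
  rw [tq, T.toX_mk, T.t_smul]

theorem tq_toX (γ : GQ ⧸ T.H) : T.tq (T.toX γ) = γ := by
  obtain ⟨g, rfl⟩ := QuotientGroup.mk_surjective γ
  rw [T.toX_mk, tq, QuotientGroup.eq, MulAction.mem_stabilizer_iff, mul_smul, inv_smul_eq_iff,
    T.t_smul]

theorem tq_x0 : T.tq T.x0 = 1 := by rw [tq, T.t_x0]; rfl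

theorem tq_smul (g : GQ) (x : X) : T.tq (g • x) = (g : GQ ⧸ T.H) * T.tq x := by
  have : g • x = T.toX ((g * T.t x : GQ) : GQ ⧸ T.H) := by rw [T.toX_mk, mul_smul, T.t_smul]
  rw [this, T.tq_toX, QuotientGroup.mk_mul]
  rfl

theorem finite_quot : Finite (GQ ⧸ T.H) := by
  have := LQ.finiteIndex T.mem_LQ
  infer_instance

/-- A representation of the quotient on the absolute Galois group. -/
abbrev infl {V : Type} [AddCommGroup V] [Module (ZMod p) V]
    (ρ : Representation (ZMod p) (GQ ⧸ T.H) V) : Representation (ZMod p) GQ V :=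
  ρ.comp (QuotientGroup.mk' T.H)

theorem infl_eq_one {V : Type} [AddCommGroup V] [Module (ZMod p) V]
    (ρ : Representation (ZMod p) (GQ ⧸ T.H) V) {s : GQ} (hs : s ∈ T.H) : T.infl ρ s = 1 := by
  rw [infl, MonoidHom.comp_apply, QuotientGroup.mk'_apply, (QuotientGroup.eq_one_iff s).2 hs,
    map_one]

theorem smooth_infl {V : Type} [AddCommGroup V] [Module (ZMod p) V]
    (ρ : Representation (ZMod p) (GQ ⧸ T.H) V) : Smooth LQ (T.infl ρ) :=
  ⟨T.H, T.mem_LQ, fun _ hs => T.infl_eq_one ρ hs⟩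

variable (hμ : ∀ s ∈ T.H, ExtCitation.cycloChar p s = 1)

/-- The cyclotomic character of the quotient. -/
def chiQ : GQ ⧸ T.H →* (ZMod p)ˣ := QuotientGroup.lift T.H (cycQ p).χ fun s hs => hμ s hs

theorem chiQ_mk (g : GQ) : T.chiQ hμ (g : GQ ⧸ T.H) = (cycQ p).χ g := rfl

/-! ### Translations -/

/-- Translation on the right by an element of the quotient. -/
def rt (γ : GQ ⧸ T.H) : (X → ZMod p) →ₗ[ZMod p] (X → ZMod p) :=
  LinearMap.funLeft (ZMod p) (ZMod p) fun x => T.toX (T.tq x * γ)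

theorem rt_apply (γ : GQ ⧸ T.H) (F : X → ZMod p) (x : X) :
    T.rt γ F x = F (T.toX (T.tq x * γ)) := rfl

theorem rt_one (F : X → ZMod p) : T.rt (p := p) 1 F = F := funext fun x => by
  rw [rt_apply, mul_one, T.toX_tq]

theorem rt_mul (γ δ : GQ ⧸ T.H) (F : X → ZMod p) :
    T.rt (γ * δ) F = T.rt γ (T.rt δ F) := funext fun x => by
  simp only [rt_apply, T.tq_toX, mul_assoc]

theorem equi_rt (γ : GQ ⧸ T.H) : Equi (MonoidHom.id GQ) (T.perm p) (T.perm p) (T.rt γ) :=
  fun g F => funext fun x => by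
    show F (g⁻¹ • T.toX (T.tq x * γ)) = F (T.toX (T.tq (g⁻¹ • x) * γ))
    rw [T.tq_smul, ← T.toX_tq (g⁻¹ • T.toX (T.tq x * γ)), T.tq_smul, T.tq_toX, mul_assoc]

theorem map1_rt_one (y : H1 LQ (T.perm p)) : map1 Compat.id (T.equi_rt 1) y = y := by
  obtain ⟨f, rfl⟩ := mk1_surjective y
  exact congrArg (mk1 LQ (T.perm p)) (Subtype.ext (funext fun g => T.rt_one (f.1 g)))

theorem map1_rt_mul (γ δ : GQ ⧸ T.H) (y : H1 LQ (T.perm p)) :
    map1 Compat.id (T.equi_rt (γ * δ)) y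
      = map1 Compat.id (T.equi_rt γ) (map1 Compat.id (T.equi_rt δ) y) := by
  obtain ⟨f, rfl⟩ := mk1_surjective y
  exact congrArg (mk1 LQ (T.perm p)) (Subtype.ext (funext fun g => T.rt_mul γ δ (f.1 g)))

variable (S : Finset Nat.Primes) (C : Subgroup (GQ ⧸ T.H))

/-- The twisted translations on the classes unramified outside `S`. -/
def repA : Representation (ZMod p) C (unrOutside S (T.perm p)) where
  toFun c := (T.chiQ hμ c.1 : ZMod p) •
    (map1 Compat.id (T.equi_rt c.1)).restrict fun _ hx => map1_mem_unrOutside _ hx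
  map_one' := LinearMap.ext fun x => Subtype.ext (by
    show (T.chiQ hμ ((1 : C) : GQ ⧸ T.H) : ZMod p) • _ = _
    rw [Subgroup.coe_one, map_one, Units.val_one, one_smul]
    exact T.map1_rt_one x.1)
  map_mul' c d := LinearMap.ext fun x => Subtype.ext (by
    show (T.chiQ hμ ((c * d : C) : GQ ⧸ T.H) : ZMod p)
        • map1 Compat.id (T.equi_rt ((c * d : C) : GQ ⧸ T.H)) x.1
      = (T.chiQ hμ c.1 : ZMod p) • map1 Compat.id (T.equi_rt c.1)
          ((T.chiQ hμ d.1 : ZMod p) • map1 Compat.id (T.equi_rt d.1) x.1)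
    rw [map_smul, smul_smul, ← T.map1_rt_mul, Subgroup.coe_mul, map_mul, Units.val_mul])

theorem coe_repA (c : C) (x : unrOutside S (T.perm p)) :
    (T.repA hμ S C c x).1
      = (T.chiQ hμ c.1 : ZMod p) • map1 Compat.id (T.equi_rt c.1) x.1 := rfl

/-! ### The units -/

theorem smul_mem_fixUM (g : GQ) {a : UM (AlgebraicClosure ℚ)}
    (ha : a ∈ fixUM T.H (AlgebraicClosure ℚ)) : g • a ∈ fixUM T.H (AlgebraicClosure ℚ) := fun s => by
  show (s : GQ) • g • a = g • a
  rw [show (s : GQ) • g • a = g • ((⟨g⁻¹ * s * g, hn.conj_mem' _ s.2 _⟩ : T.H) : GQ) • a by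
    rw [smul_smul, smul_smul]; congr 1; group]
  exact congrArg (g • ·) (ha ⟨g⁻¹ * s * g, hn.conj_mem' _ s.2 _⟩)

/-- The Galois translate of a unit. -/
def unitSmul (g : GQ) (a : tUnits T.H (placesOver T.mem_LQ S)) :
    tUnits T.H (placesOver T.mem_LQ S) :=
  ⟨⟨g • a.1.1, T.smul_mem_fixUM g a.1.2⟩, fun v hv => by
    show ‖emb (v.1 : ℕ) v.rep (g • a.1.1).val‖ = 1
    rw [UM.val_smul, AlgEquiv.smul_def, ← emb_mul,
      ← absv_placeOf (q := v.1) (H := T.H) (v.rep * g)
        fun h hh => congrArg UM.val (a.1.2 ⟨h, hh⟩)]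
    exact a.2 _ fun h => hv ((mem_placesOver T.mem_LQ).2 ((mem_placesOver T.mem_LQ).1 h :))⟩

theorem unitSmul_coe (g : GQ) (a : tUnits T.H (placesOver T.mem_LQ S)) :
    (T.unitSmul S g a).1.1 = g • a.1.1 := rfl

theorem unitSmul_congr {g g' : GQ} (h : (g : GQ ⧸ T.H) = (g' : GQ ⧸ T.H))
    (a : tUnits T.H (placesOver T.mem_LQ S)) : T.unitSmul S g a = T.unitSmul S g' a := by
  refine Subtype.ext (Subtype.ext ?_)
  rw [unitSmul_coe, unitSmul_coe, ← mul_inv_cancel_left g g', mul_smul]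
  exact congrArg (g • ·) (a.1.2 ⟨g⁻¹ * g', QuotientGroup.eq.1 h⟩).symm

/-- The action of the subgroup on the units. -/
@[reducible] def unitsAction : DistribMulAction C (tUnits T.H (placesOver T.mem_LQ S)) where
  smul c a := T.unitSmul S (c : GQ ⧸ T.H).out a
  one_smul a := by
    show T.unitSmul S _ a = a
    exact (T.unitSmul_congr S (g' := (1 : GQ))
      (by rw [QuotientGroup.out_eq', Subgroup.coe_one]; rfl) a).trans
      (Subtype.ext (Subtype.ext (one_smul GQ a.1.1)))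
  mul_smul c d a := by
    show T.unitSmul S _ a = T.unitSmul S _ (T.unitSmul S _ a)
    rw [T.unitSmul_congr S (g' := (c : GQ ⧸ T.H).out * (d : GQ ⧸ T.H).out)
      (by rw [QuotientGroup.mk_mul, QuotientGroup.out_eq', QuotientGroup.out_eq',
        QuotientGroup.out_eq', Subgroup.coe_mul]) a]
    exact Subtype.ext (Subtype.ext (mul_smul _ _ a.1.1))
  smul_zero c := Subtype.ext (Subtype.ext (smul_zero _))
  smul_add c a b := Subtype.ext (Subtype.ext (smul_add _ _ _))

/-- The roots of unity of the data over the subgroup. -/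
theorem kum_eps (i : ZMod p) : (T.kum hμ).eps i = (cycQ p).eps i :=
  UM.ext (by rw [(T.kum hμ).eps_val, (cycQ p).eps_val]; rfl)

set_option maxHeartbeats 800000 in
-- classes over nested subgroups are slow to unify
/-- Translating a Kummer class gives the Kummer class of the conjugate. -/
theorem sh1_rt (g : GQ) {x : H1 LQ (T.perm p)} {a : fixUM T.H (AlgebraicClosure ℚ)}
    (hx : T.sh1 (triv T.H p) x = (T.kum hμ).kum a) :
    T.sh1 (triv T.H p) (((cycQ p).χ g : ZMod p) • map1 Compat.id (T.equi_rt (g : GQ ⧸ T.H)) x)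
      = (T.kum hμ).kum ⟨g • a.1, T.smul_mem_fixUM g a.2⟩ := by
  obtain ⟨f, rfl⟩ := mk1_surjective x
  have hval : ∀ s : T.H, f.1 (s : GQ) T.x0 = (T.kum hμ).kc a s := fun s =>
    congrFun (congrArg Subtype.val (mk1_triv_injective (hx.trans ((T.kum hμ).kum_apply a)))) s
  rw [KumData.kum_apply, map1_mk1, ← map_smul]
  refine congrArg (mk1 (LQ.sub T.H) (triv T.H p)) (Subtype.ext (funext fun s => ?_))
  show ((cycQ p).χ g : ZMod p) * f.1 (s : GQ) (T.toX (T.tq T.x0 * (g : GQ ⧸ T.H)))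
    = (T.kum hμ).kc ⟨g • a.1, T.smul_mem_fixUM g a.2⟩ s
  rw [T.tq_x0, one_mul, T.toX_mk]
  set t : T.H := ⟨g⁻¹ * s * g, hn.conj_mem' _ s.2 _⟩
  have ht : f.1 (t : GQ) T.x0 = f.1 (s : GQ) (g • T.x0) := by
    show f.1 (g⁻¹ * s * g) T.x0 = _
    have e1 := congrFun (f.2.2 (g⁻¹ * (s : GQ)) g) T.x0
    have e2 := congrFun (f.2.2 g⁻¹ (s : GQ)) T.x0
    have e3 := congrFun (f.2.2 g⁻¹ g) T.x0
    rw [inv_mul_cancel, Z1.map_one, Pi.add_apply, Pi.zero_apply, perm_apply, inv_inv] at e3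
    rw [Pi.add_apply, perm_apply, inv_inv] at e2
    rw [Pi.add_apply, perm_apply, mul_inv_rev, inv_inv, mul_smul,
      T.smul_of_mem (inv_mem s.2) (g • T.x0)] at e1
    linear_combination e1 + e2 - e3
  have hA := (T.kum hμ).nsmul_kroot a.1
  refine (T.kum hμ).eps_injective ?_
  rw [(T.kum hμ).eps_kc ⟨g • a.1, T.smul_mem_fixUM g a.2⟩ (A := g • (T.kum hμ).kroot a.1)
    (by rw [smul_comm, hA]), kum_eps, ← (cycQ p).smul_eps, ← T.kum_eps hμ, ← ht, hval t,
    (T.kum hμ).eps_kc a hA, smul_sub]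
  show g • (g⁻¹ * (s : GQ) * g) • (T.kum hμ).kroot a.1 - g • (T.kum hμ).kroot a.1
    = (s : GQ) • g • (T.kum hμ).kroot a.1 - g • (T.kum hμ).kroot a.1
  rw [smul_smul, smul_smul, mul_assoc, mul_inv_cancel_left]

variable {S} (hS : T.BigS p S)

/-- The units modulo `p` as classes. -/
def unitsClass : tUnits T.H (placesOver T.mem_LQ S) →+ unrOutside S (T.perm p) :=
  AddMonoidHom.mk' (fun a => ⟨(T.shEquiv1 (triv T.H p)).symm (kumUnits (T.kum hμ) _ a),
    T.kum_mem_unrOutside hμ hS.ad.pmem hS.ad.unr a.2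
      ((T.shEquiv1 (triv T.H p)).apply_symm_apply _)⟩)
    fun a b => Subtype.ext (by
      show (T.shEquiv1 (triv T.H p)).symm _ = _ + _
      rw [map_add, map_add])

theorem sh1_unitsClass (a : tUnits T.H (placesOver T.mem_LQ S)) :
    T.sh1 (triv T.H p) (T.unitsClass hμ hS a).1 = (T.kum hμ).kum a.1 :=
  (T.shEquiv1 (triv T.H p)).apply_symm_apply _

theorem modelQ_units :
    letI := T.unitsAction S C
    ModelQ (T.repA hμ S C) (T.unitsClass hμ hS) := by
  letI := T.unitsAction S C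
  refine ⟨fun x => ?_, fun a => ?_, fun c a => Subtype.ext (T.sh1_injective (σ := triv T.H p) ?_)⟩
  · obtain ⟨u, hu, hux⟩ := T.exists_unit_kum hμ hS.ad.adapted hS.ad.unr x.2
    exact ⟨⟨u, hu⟩, Subtype.ext (T.sh1_injective (σ := triv T.H p)
      ((T.sh1_unitsClass hμ hS ⟨u, hu⟩).trans hux))⟩
  · rw [Subtype.ext_iff, ← (T.sh1_injective (σ := triv T.H p)).eq_iff, T.sh1_unitsClass,
      Submodule.coe_zero, map_zero, ← kumUnits_apply, ← AddMonoidHom.mem_ker, ker_kumUnits,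
      AddMonoidHom.mem_range]
    rfl
  · rw [T.sh1_unitsClass, coe_repA]
    have h := T.sh1_rt hμ (c : GQ ⧸ T.H).out (T.sh1_unitsClass hμ hS a)
    rw [← T.chiQ_mk hμ, QuotientGroup.out_eq'] at h
    exact h.symm

/-- The roots of unity as units. -/
def rootsUnit : ZMod p →+ tUnits T.H (placesOver T.mem_LQ S) :=
  AddMonoidHom.mk' (fun i => ⟨⟨(T.kum hμ).eps i, fun g => (T.kum hμ).smul_eps g i⟩,
    fun v _ => by
      show v.absv ((T.kum hμ).eps i).val = 1
      rw [(T.kum hμ).eps_val, absv_pow, absv_zeta, one_pow]⟩)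
    fun i j => Subtype.ext (Subtype.ext (map_add _ i j))

theorem modelT_units :
    letI := T.unitsAction S C
    ModelT (chr ((T.chiQ hμ).comp C.subtype)) (T.rootsUnit (S := S) hμ) := by
  letI := T.unitsAction S C
  refine ⟨fun i j h => (T.kum hμ).eps_injective
    (congrArg (fun z : tUnits T.H (placesOver T.mem_LQ S) => z.1.1) h), fun m => ?_, fun c i => ?_⟩
  · constructor
    · rintro ⟨i, rfl⟩
      exact Subtype.ext (Subtype.ext ((T.kum hμ).nsmul_eps i))
    · intro hm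
      obtain ⟨i, hi⟩ := (T.kum hμ).exists_eps
        (congrArg (fun z : tUnits T.H (placesOver T.mem_LQ S) => z.1.1) hm)
      exact ⟨i, Subtype.ext (Subtype.ext hi)⟩
  · refine Subtype.ext (Subtype.ext ?_)
    show (T.kum hμ).eps ((T.chiQ hμ c.1 : ZMod p) * i) = (c : GQ ⧸ T.H).out • (T.kum hμ).eps i
    rw [kum_eps, kum_eps, (cycQ p).smul_eps, ← T.chiQ_mk hμ, QuotientGroup.out_eq']

/-! ### The rank of the units -/

variable (S)

/-- The decomposition groups at `S` and at infinity in the quotient. -/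
def decQ : Option {q // q ∈ S} → Subgroup (GQ ⧸ T.H)
  | none => (Subgroup.zpowers complexConjugation).map (QuotientGroup.mk' T.H)
  | some q => (DQ (q.1 : ℕ)).map (QuotientGroup.mk' T.H)

/-- The places above `S` and infinity of the splitting field. -/
abbrev PlacesS : Type := Σ i : Option {q // q ∈ S}, (GQ ⧸ T.H) ⧸ T.decQ S i

theorem natCard_orbits_sigma {G I : Type} [Group G] [Fintype I] {Y : I → Type}
    [∀ i, MulAction G (Y i)] [∀ i, Finite (Y i)] :
    Nat.card (MulAction.orbitRel.Quotient G (Σ i, Y i))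
      = ∑ i, Nat.card (MulAction.orbitRel.Quotient G (Y i)) := by
  rw [← Nat.card_sigma]
  refine natCard_eq_of_fibres (α := Σ i, Y i)
    (fun z => Quotient.mk'' z) (fun z => ⟨z.1, Quotient.mk'' z.2⟩) Quotient.mk''_surjective ?_ ?_
  · rintro ⟨i, o⟩
    induction o using Quotient.inductionOn' with
    | h y => exact ⟨⟨i, y⟩, rfl⟩
  · rintro ⟨i, y⟩ ⟨j, z⟩
    constructor
    · intro h
      obtain ⟨g, hg⟩ := Quotient.eq''.1 h
      cases hg
      exact Sigma.ext rfl (heq_of_eq (Quotient.sound' ⟨g, rfl⟩))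
    · intro h
      obtain ⟨rfl, h⟩ := Sigma.mk.inj_iff.1 h
      obtain ⟨g, hg⟩ := Quotient.eq''.1 (eq_of_heq h)
      exact Quotient.sound' ⟨g, Sigma.ext rfl (heq_of_eq hg)⟩

variable {C}

theorem overSub_mem_LQ (C₁ : Subgroup C) : overSub C C₁ ∈ LQ.carrier := by
  obtain ⟨F, hF, hle⟩ := T.mem_LQ
  exact ⟨F, hF, hle.trans (le_overSub C C₁)⟩

theorem mem_units_iff (C₁ : Subgroup C) (a : fixUM T.H (AlgebraicClosure ℚ))
    (b : fixUM (overSub C C₁) (AlgebraicClosure ℚ)) (hab : a.1 = b.1) :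
    a ∈ tUnits T.H (placesOver T.mem_LQ S) ↔
      b ∈ tUnits (overSub C C₁) (placesOver (T.overSub_mem_LQ C₁) S) := by
  constructor
  · intro ha w hw
    show ‖emb (w.1 : ℕ) w.rep b.1.val‖ = 1
    rw [← hab, ← absv_placeOf (q := w.1) (H := T.H) w.rep fun h hh => congrArg UM.val (a.2 ⟨h, hh⟩)]
    exact ha _ fun h => hw ((mem_placesOver _).2 ((mem_placesOver T.mem_LQ).1 h :))
  · intro hb v hv
    show ‖emb (v.1 : ℕ) v.rep a.1.val‖ = 1
    rw [hab, ← absv_placeOf (q := v.1) (H := overSub C C₁) v.rep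
      fun h hh => congrArg UM.val (b.2 ⟨h, hh⟩)]
    exact hb _ fun h => hv ((mem_placesOver T.mem_LQ).2 ((mem_placesOver _).1 h :))

theorem finrank_fixed_units (C₁ : Subgroup C) :
    letI := T.unitsAction S C
    Module.finrank ℤ (FixedPoints.addSubgroup C₁ (tUnits T.H (placesOver T.mem_LQ S))) + 1
      = Nat.card (MulAction.orbitRel.Quotient C₁ (T.PlacesS S)) := by
  letI := T.unitsAction S C
  classical
  have := T.finite_quot
  have hH := T.overSub_mem_LQ C₁
  have := finiteDimensional_fixedField hH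
  have : NumberField (IntermediateField.fixedField (overSub C C₁)) := { }
  have hfix : ∀ a : FixedPoints.addSubgroup C₁ (tUnits T.H (placesOver T.mem_LQ S)),
      a.1.1.1 ∈ fixUM (overSub C C₁) (AlgebraicClosure ℚ) := fun a s => by
    obtain ⟨c, hc⟩ := mem_overSub.1 s.2
    show (s : GQ) • a.1.1.1 = a.1.1.1
    rw [← T.unitSmul_coe S (s : GQ) a.1, T.unitSmul_congr S
      (g' := ((c : C) : GQ ⧸ T.H).out) (by rw [QuotientGroup.out_eq', hc]) a.1]
    exact congrArg (fun z : tUnits T.H (placesOver T.mem_LQ S) => z.1.1) (a.2 c)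
  have hres : ∀ b : tUnits (overSub C C₁) (placesOver hH S),
      b.1.1 ∈ fixUM T.H (AlgebraicClosure ℚ) := fun b s =>
    b.1.2 ⟨(s : GQ), le_overSub C C₁ s.2⟩
  let e : FixedPoints.addSubgroup C₁ (tUnits T.H (placesOver T.mem_LQ S)) ≃+
      tUnits (overSub C C₁) (placesOver hH S) :=
    { toFun := fun a => ⟨⟨a.1.1.1, hfix a⟩, (T.mem_units_iff S C₁ a.1.1 _ rfl).1 a.1.2⟩
      invFun := fun b => ⟨⟨⟨b.1.1, hres b⟩, (T.mem_units_iff S C₁ _ b.1 rfl).2 b.2⟩,
        fun c => Subtype.ext (Subtype.ext (b.1.2 ⟨((c : C) : GQ ⧸ T.H).out,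
          mem_overSub.2 ⟨c, (QuotientGroup.out_eq' _).symm⟩⟩))⟩
      left_inv := fun a => rfl
      right_inv := fun b => rfl
      map_add' := fun a b => rfl }
  have hnone : Nat.card (MulAction.orbitRel.Quotient C₁ ((GQ ⧸ T.H) ⧸ T.decQ S none))
      = Fintype.card (NumberField.InfinitePlace (IntermediateField.fixedField (overSub C C₁))) :=
    (natCard_orbits_infinitePlace C C₁ T.mem_LQ).trans Nat.card_eq_fintype_card
  have hsome : ∀ q : {q // q ∈ S},
      Nat.card (MulAction.orbitRel.Quotient C₁ ((GQ ⧸ T.H) ⧸ T.decQ S (some q)))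
      = Nat.card (PlaceOver (overSub C C₁) (q.1 : ℕ)) := fun q =>
    natCard_orbits_placeOver C C₁ (q.1 : ℕ)
  refine Eq.trans ?_ (natCard_orbits_sigma (G := C₁)
    (Y := fun i => (GQ ⧸ T.H) ⧸ T.decQ S i)).symm
  rw [e.toIntLinearEquiv.finrank_eq, finrank_tUnits_add_one hH, card_placesOver,
    Fintype.sum_option, hnone, Finset.sum_congr rfl fun q _ => hsome q]

/-! ### Classes with values in a representation -/

variable (C)
variable {V : Type} [AddCommGroup V] [Module (ZMod p) V]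
variable (ρ : Representation (ZMod p) (GQ ⧸ T.H) V)

/-- The coordinate of a function on the cosets along a functional. -/
def coC (φ : Module.Dual (ZMod p) V) :
    (((GQ ⧸ T.H) ⧸ C) → V) →ₗ[ZMod p] (X → ZMod p) :=
  LinearMap.pi fun x => φ ∘ₗ ρ (T.tq x)⁻¹ ∘ₗ LinearMap.proj (T.tq x : (GQ ⧸ T.H) ⧸ C)

theorem coC_apply (φ : Module.Dual (ZMod p) V) (F : ((GQ ⧸ T.H) ⧸ C) → V) (x : X) :
    T.coC C ρ φ F x = φ (ρ (T.tq x)⁻¹ (F (T.tq x : (GQ ⧸ T.H) ⧸ C))) := rfl

theorem equi_coC (φ : Module.Dual (ZMod p) V) :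
    Equi (MonoidHom.id GQ) (T.infl (permTensor ((GQ ⧸ T.H) ⧸ C) ρ)) (T.perm p) (T.coC C ρ φ) :=
  fun g F => funext fun x => by
    show φ (ρ (T.tq x)⁻¹ (ρ (g : GQ ⧸ T.H) (F ((g : GQ ⧸ T.H)⁻¹ • (T.tq x : (GQ ⧸ T.H) ⧸ C)))))
      = φ (ρ (T.tq (g⁻¹ • x))⁻¹ (F (T.tq (g⁻¹ • x) : (GQ ⧸ T.H) ⧸ C)))
    rw [T.tq_smul, QuotientGroup.mk_inv, mul_inv_rev, inv_inv, map_mul, Module.End.mul_apply,
      MulAction.Quotient.smul_coe, smul_eq_mul]

/-- The class of the coordinate. -/
def coClass : H1 LQ (T.infl (permTensor ((GQ ⧸ T.H) ⧸ C) ρ)) →ₗ[ZMod p]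
    Module.Dual (ZMod p) V →ₗ[ZMod p] H1 LQ (T.perm p) :=
  LinearMap.mk₂ (ZMod p) (fun m φ => map1 Compat.id (T.equi_coC C ρ φ) m)
    (fun m m' φ => map_add _ m m') (fun a m φ => map_smul _ a m)
    (fun m φ φ' => by
      obtain ⟨f, rfl⟩ := mk1_surjective m
      simp only [map1_mk1, ← map_add]
      exact congrArg (mk1 LQ (T.perm p)) (Subtype.ext (funext fun g => funext fun x => rfl)))
    (fun a m φ => by
      obtain ⟨f, rfl⟩ := mk1_surjective m
      rw [map1_mk1, map1_mk1, ← map_smul]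
      exact congrArg (mk1 LQ (T.perm p)) (Subtype.ext (funext fun g => funext fun x => rfl)))

theorem coClass_apply (m : H1 LQ (T.infl (permTensor ((GQ ⧸ T.H) ⧸ C) ρ)))
    (φ : Module.Dual (ZMod p) V) :
    T.coClass C ρ m φ = map1 Compat.id (T.equi_coC C ρ φ) m := rfl

/-- The twisted dual. -/
abbrev sigmaC : Representation (ZMod p) C (Module.Dual (ZMod p) V) :=
  (ρ.dual.twist (T.chiQ hμ)).comp C.subtype

theorem sigmaC_apply (c : C) (φ : Module.Dual (ZMod p) V) :
    T.sigmaC hμ C ρ c φ = (T.chiQ hμ c.1 : ZMod p) • (φ ∘ₗ ρ (c.1)⁻¹) := rfl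

theorem coClass_equi (m : H1 LQ (T.infl (permTensor ((GQ ⧸ T.H) ⧸ C) ρ))) (c : C)
    (φ : Module.Dual (ZMod p) V) :
    T.coClass C ρ m (T.sigmaC hμ C ρ c φ)
      = (T.chiQ hμ c.1 : ZMod p) • map1 Compat.id (T.equi_rt c.1) (T.coClass C ρ m φ) := by
  rw [sigmaC_apply, map_smul]
  refine congrArg _ ?_
  rw [coClass_apply, coClass_apply, map1_comp_apply]
  obtain ⟨f, rfl⟩ := mk1_surjective m
  refine congrArg (mk1 LQ (T.perm p)) (Subtype.ext (funext fun g => funext fun x => ?_))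
  show φ (ρ (c.1)⁻¹ (ρ (T.tq x)⁻¹ (f.1 g (T.tq x : (GQ ⧸ T.H) ⧸ C))))
    = φ (ρ (T.tq (T.toX (T.tq x * c.1)))⁻¹ (f.1 g (T.tq (T.toX (T.tq x * c.1)) : (GQ ⧸ T.H) ⧸ C)))
  rw [T.tq_toX, mul_inv_rev, map_mul, Module.End.mul_apply,
    show ((T.tq x * c.1 : GQ ⧸ T.H) : (GQ ⧸ T.H) ⧸ C) = (T.tq x : (GQ ⧸ T.H) ⧸ C) from
      QuotientGroup.eq.2 (by simp)]

variable [Fintype C]

/-- The averaged inverse of the coordinates. -/
def projC : (X → V) →ₗ[ZMod p] (((GQ ⧸ T.H) ⧸ C) → V) :=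
  (Nat.card C : ZMod p)⁻¹ • LinearMap.pi fun z =>
    ∑ c : C, ρ (z.out * c.1) ∘ₗ LinearMap.proj (T.toX (z.out * c.1))

theorem projC_mk (F : X → V) (γ : GQ ⧸ T.H) :
    T.projC C ρ F (γ : (GQ ⧸ T.H) ⧸ C)
      = (Nat.card C : ZMod p)⁻¹ • ∑ c : C, ρ (γ * c.1) (F (T.toX (γ * c.1))) := by
  simp only [projC, LinearMap.smul_apply, LinearMap.pi_apply, LinearMap.sum_apply,
    LinearMap.comp_apply, LinearMap.proj_apply, Pi.smul_apply]
  obtain ⟨h, hh⟩ := QuotientGroup.mk_out_eq_mul C γ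
  refine congrArg _ (Fintype.sum_equiv (Equiv.mulLeft h) _ _ fun c => ?_)
  rw [hh, Equiv.coe_mulLeft, Subgroup.coe_mul, mul_assoc]

/-- The inverse of the coordinates along a vector. -/
def embC (v : V) : (X → ZMod p) →ₗ[ZMod p] (((GQ ⧸ T.H) ⧸ C) → V) :=
  T.projC C ρ ∘ₗ (LinearMap.toSpanSingleton (ZMod p) V v).compLeft X

theorem equi_projC : Equi (MonoidHom.id GQ) (T.coind ((T.infl ρ).comp T.H.subtype))
    (T.infl (permTensor ((GQ ⧸ T.H) ⧸ C) ρ)) (T.projC C ρ) := fun g F => funext fun z => by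
  obtain ⟨γ, rfl⟩ := QuotientGroup.mk_surjective z
  show T.projC C ρ (T.coind ((T.infl ρ).comp T.H.subtype) g F) (γ : (GQ ⧸ T.H) ⧸ C)
    = ρ (g : GQ ⧸ T.H) (T.projC C ρ F ((g : GQ ⧸ T.H)⁻¹ • (γ : (GQ ⧸ T.H) ⧸ C)))
  rw [MulAction.Quotient.smul_coe, smul_eq_mul, T.projC_mk, T.projC_mk, map_smul, map_sum]
  refine congrArg _ (Finset.sum_congr rfl fun c _ => ?_)
  show ρ (γ * c.1) (T.infl ρ (T.h g (T.toX (γ * c.1)) : GQ) (F (g⁻¹ • T.toX (γ * c.1)))) = _
  rw [T.infl_eq_one ρ (T.h g _).2, Module.End.one_apply,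
    ← T.toX_tq (g⁻¹ • T.toX (γ * c.1)), T.tq_smul, T.tq_toX, QuotientGroup.mk_inv,
    ← Module.End.mul_apply, ← map_mul]
  simp [mul_assoc]

variable [FiniteDimensional (ZMod p) V]

theorem equi_embC (v : V) : Equi (MonoidHom.id GQ) (T.perm p)
    (T.infl (permTensor ((GQ ⧸ T.H) ⧸ C) ρ)) (T.embC C ρ v) := fun g F => by
  have h1 := T.equi_emb (σ := (T.infl ρ).comp T.H.subtype) (fun s => T.infl_eq_one ρ s.2) v g F
  have h2 := T.equi_projC C ρ g ((LinearMap.toSpanSingleton (ZMod p) V v).compLeft X F)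
  rw [MonoidHom.id_apply] at h1 h2 ⊢
  show T.projC C ρ _ = _
  rw [h1, h2]
  rfl

set_option maxHeartbeats 1600000 in
-- classes over nested subgroups are slow to unify
include hμ in
/-- The classes of the permutation module with values in a representation. -/
theorem finrank_unrOutside_perm (hC : ¬ p ∣ Nat.card C) :
    Module.finrank (ZMod p) (unrOutside S (T.infl (permTensor ((GQ ⧸ T.H) ⧸ C) ρ)))
      = Module.finrank (ZMod p) (eqHom (T.sigmaC hμ C ρ) (T.repA hμ S C)) := by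
  classical
  let b := Module.finBasis (ZMod p) V
  have hu : (Nat.card C : ZMod p)⁻¹ * (Nat.card C : ZMod p) = 1 :=
    inv_mul_cancel₀ fun h => hC ((ZMod.natCast_eq_zero_iff _ _).1 h)
  let fwd : unrOutside S (T.infl (permTensor ((GQ ⧸ T.H) ⧸ C) ρ)) →ₗ[ZMod p]
      eqHom (T.sigmaC hμ C ρ) (T.repA hμ S C) :=
    { toFun := fun m => ⟨(T.coClass C ρ m.1).codRestrict _ fun φ =>
          map1_mem_unrOutside _ m.2, fun c φ => Subtype.ext (T.coClass_equi hμ C ρ m.1 c φ)⟩
      map_add' := fun m m' => Subtype.ext (LinearMap.ext fun φ => Subtype.ext (by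
        show T.coClass C ρ (m.1 + m'.1) φ = _
        rw [map_add]; rfl))
      map_smul' := fun a m => Subtype.ext (LinearMap.ext fun φ => Subtype.ext (by
        show T.coClass C ρ (a • m.1) φ = _
        rw [map_smul]; rfl)) }
  let back : eqHom (T.sigmaC hμ C ρ) (T.repA hμ S C) →
      unrOutside S (T.infl (permTensor ((GQ ⧸ T.H) ⧸ C) ρ)) := fun Φ =>
    ⟨∑ i, map1 Compat.id (T.equi_embC C ρ (b i)) (Φ.1 (b.coord i)).1,
      sum_mem fun i _ => map1_mem_unrOutside _ (Φ.1 (b.coord i)).2⟩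
  have hleft : ∀ m, back (fwd m) = m := fun m => Subtype.ext (by
    show ∑ i, map1 Compat.id (T.equi_embC C ρ (b i)) (T.coClass C ρ m.1 (b.coord i)) = m.1
    obtain ⟨f, hf⟩ := mk1_surjective m.1
    rw [← hf]
    simp only [coClass_apply, map1_mk1, ← map_sum]
    refine congrArg (mk1 LQ (T.infl (permTensor ((GQ ⧸ T.H) ⧸ C) ρ)))
      (Subtype.ext (funext fun g => funext fun z => ?_))
    obtain ⟨γ, rfl⟩ := QuotientGroup.mk_surjective z
    rw [AddSubmonoidClass.coe_finsetSum, Finset.sum_apply, Finset.sum_apply]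
    show ∑ i, T.projC C ρ (fun x => T.coC C ρ (b.coord i) (f.1 g) x • b i) _ = _
    simp only [T.projC_mk, ← Finset.smul_sum]
    rw [Finset.sum_comm]
    have : ∀ c : C, ∑ i, ρ (γ * c.1) (T.coC C ρ (b.coord i) (f.1 g) (T.toX (γ * c.1)) • b i)
        = f.1 g (γ : (GQ ⧸ T.H) ⧸ C) := fun c => by
      rw [← map_sum]
      simp only [coC_apply, T.tq_toX, Module.Basis.coord_apply]
      rw [b.sum_repr, Representation.self_inv_apply]
      exact congrArg (f.1 g) (QuotientGroup.eq.2 (by simp))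
    rw [Finset.sum_congr rfl fun c _ => this c, Finset.sum_const, Finset.card_univ,
      ← Nat.cast_smul_eq_nsmul (ZMod p), smul_smul, ← Nat.card_eq_fintype_card, hu, one_smul])
  have hright : ∀ Φ, fwd (back Φ) = Φ := fun Φ => Subtype.ext (LinearMap.ext fun φ => Subtype.ext (by
    show T.coClass C ρ (∑ i, map1 Compat.id (T.equi_embC C ρ (b i)) (Φ.1 (b.coord i)).1) φ
      = (Φ.1 φ).1
    rw [map_sum, LinearMap.sum_apply]
    have key : ∀ (v : V) (y : H1 LQ (T.perm p)),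
        T.coClass C ρ (map1 Compat.id (T.equi_embC C ρ v) y) φ = (Nat.card C : ZMod p)⁻¹ •
          ∑ c : C, φ (ρ c.1 v) • map1 Compat.id (T.equi_rt c.1) y := by
      intro v y
      obtain ⟨f, rfl⟩ := mk1_surjective y
      simp only [coClass_apply, map1_mk1, ← map_smul, ← map_sum]
      refine congrArg (mk1 LQ (T.perm p)) (Subtype.ext (funext fun g => funext fun x => ?_))
      rw [SetLike.val_smul, AddSubmonoidClass.coe_finsetSum, Pi.smul_apply, Finset.sum_apply,
        Pi.smul_apply, Finset.sum_apply]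
      show φ (ρ (T.tq x)⁻¹ (T.projC C ρ (fun y => f.1 g y • v) _)) = _
      rw [T.projC_mk, map_smul, map_sum, map_smul, map_sum]
      refine congrArg _ (Finset.sum_congr rfl fun c _ => ?_)
      rw [map_mul, Module.End.mul_apply, Representation.inv_self_apply, map_smul, map_smul,
        smul_eq_mul, mul_comm]
      rfl
    simp only [key, ← Finset.smul_sum]
    rw [Finset.sum_comm]
    have hc : ∀ c : C, ∑ i, φ (ρ c.1 (b i)) • map1 Compat.id (T.equi_rt c.1) (Φ.1 (b.coord i)).1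
        = (Φ.1 φ).1 := fun c => by
      have hφ : φ ∘ₗ ρ c.1 = ∑ i, φ (ρ c.1 (b i)) • b.coord i := by
        refine b.ext fun j => ?_
        simp [LinearMap.sum_apply, Finsupp.single_apply, eq_comm]
      have hσ : φ ∘ₗ ρ c.1 = (T.chiQ hμ c.1 : ZMod p) • T.sigmaC hμ C ρ c⁻¹ φ := by
        rw [sigmaC_apply, smul_smul, ← Units.val_mul, ← map_mul, Subgroup.coe_inv, mul_inv_cancel,
          map_one, Units.val_one, one_smul, inv_inv]
      calc ∑ i, φ (ρ c.1 (b i)) • map1 Compat.id (T.equi_rt c.1) (Φ.1 (b.coord i)).1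
          = map1 Compat.id (T.equi_rt c.1) (Φ.1 (φ ∘ₗ ρ c.1)).1 := by
            rw [hφ, map_sum, AddSubmonoidClass.coe_finsetSum, map_sum]
            exact Finset.sum_congr rfl fun i _ => by rw [map_smul, SetLike.val_smul, map_smul]
        _ = (Φ.1 φ).1 := by
            rw [hσ, map_smul, Φ.2, SetLike.val_smul, coe_repA, map_smul, map_smul, smul_smul,
              ← Units.val_mul, ← map_mul, Subgroup.coe_inv, mul_inv_cancel, map_one, Units.val_one,
              one_smul, ← T.map1_rt_mul, mul_inv_cancel, T.map1_rt_one]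
    rw [Finset.sum_congr rfl fun c _ => hc c, Finset.sum_const, Finset.card_univ,
      ← Nat.cast_smul_eq_nsmul (ZMod p), smul_smul, ← Nat.card_eq_fintype_card, hu, one_smul]))
  exact LinearEquiv.finrank_eq (LinearEquiv.ofLinear fwd
    { toFun := back
      map_add' := fun Φ Φ' => Subtype.ext (by
        simp only [back, Submodule.coe_add, LinearMap.add_apply, map_add, Finset.sum_add_distrib])
      map_smul' := fun a Φ => Subtype.ext (by
        simp only [back, SetLike.val_smul, LinearMap.smul_apply, map_smul, Finset.smul_sum,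
          RingHom.id_apply]) }
    (LinearMap.ext hright) (LinearMap.ext hleft))

end Trans

end FA.GalCoh
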