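import Fermat.Agent.GalCoh.ShaS
import Fermat.Agent.GalCoh.PermUnits

/-!
Prescribed valuations after an extension unramified outside `S`, and the vanishing of corestriction
on locally trivial classes unramified outside `S` from a deep enough level.
-/

set_option autoImplicit false
set_option linter.unusedSectionVars false

noncomputable section

namespace FA.GalCoh

open Representation

variable {p : ℕ} [hp : Fact p.Prime]

theorem val_zsmul_um {Ω : Type} [Field Ω] (k : ℤ) (m : UM Ω) : (k • m).val = m.val ^ k :=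
  Units.val_zpow_eq_zpow_val _ _

/-- A norm is a rational power of `q`. -/
theorem exists_norm_pow_eq {q : ℕ} [Fact q.Prime] (x : PadicAlgCl q) (hx : x ≠ 0) :
    ∃ (d : ℕ) (m : ℤ), 0 < d ∧ ‖x‖ ^ d = (q : ℝ) ^ m := by
  have := IntermediateField.adjoin.finiteDimensional
    ((Algebra.IsAlgebraic.isAlgebraic (R := ℚ_[q]) x).isIntegral)
  obtain ⟨m, hm⟩ := norm_pow_finrank (IntermediateField.adjoin ℚ_[q] {x}) x
    (IntermediateField.mem_adjoin_simple_self ℚ_[q] x) hx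
  exact ⟨_, m, Module.finrank_pos, hm⟩

/-- Two values at a place are commensurable. -/
theorem exists_pow_eq_zpow {H : Subgroup GQ} (v : Place H) {a y : AlgebraicClosure ℚ}
    (ha : a ≠ 0) (hy : y ≠ 0) (hlt : v.absv y < 1) :
    ∃ (e : ℕ) (k : ℤ), 0 < e ∧ v.absv a ^ e = v.absv y ^ k := by
  obtain ⟨d₁, ma, hd₁, ha'⟩ := exists_norm_pow_eq (emb (v.1 : ℕ) v.rep a)
    ((_root_.map_ne_zero _).2 ha)
  obtain ⟨d₂, my, hd₂, hy'⟩ := exists_norm_pow_eq (emb (v.1 : ℕ) v.rep y)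
    ((_root_.map_ne_zero _).2 hy)
  have hmy : my ≠ 0 := fun h => by
    rw [h, zpow_zero] at hy'
    exact hlt.ne ((pow_eq_one_iff_of_nonneg (norm_nonneg _) hd₂.ne').1 hy')
  set t : ℤ := d₁ * my with ht
  have ht0 : 0 < t * t := mul_self_pos.2 (mul_ne_zero (Int.natCast_ne_zero.2 hd₁.ne') hmy)
  refine ⟨(t * t).toNat, d₂ * (ma * t), by omega, ?_⟩
  show ‖emb (v.1 : ℕ) v.rep a‖ ^ (t * t).toNat = ‖emb (v.1 : ℕ) v.rep y‖ ^ ((d₂ : ℤ) * (ma * t))
  have hcast : (((t * t).toNat : ℕ) : ℤ) = (d₁ : ℤ) * (my * t) := by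
    rw [Int.toNat_of_nonneg ht0.le, ht, mul_assoc]
  conv_lhs => rw [← zpow_natCast, hcast, zpow_mul, zpow_natCast, ha', ← zpow_mul]
  conv_rhs => rw [zpow_mul, zpow_natCast, hy', ← zpow_mul]
  congr 1
  ring

set_option maxHeartbeats 800000 in
-- products over places are slow to unify
/-- An element supported at `q` with the valuations of a power of a given one there. -/
theorem exists_supported_at {H : Subgroup GQ} (hH : H ∈ LQ.carrier) (q : Nat.Primes)
    (a : fixUM H (AlgebraicClosure ℚ)) :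
    ∃ (e : ℕ) (c : fixUM H (AlgebraicClosure ℚ)), 0 < e ∧
      (∀ g : GQ, ‖emb (q : ℕ) g c.1.val‖ = ‖emb (q : ℕ) g a.1.val‖ ^ e) ∧
      ∀ r : Nat.Primes, r ≠ q → ∀ g : GQ, ‖emb (r : ℕ) g c.1.val‖ = 1 := by
  classical
  have := finite_placeOver hH (q : ℕ)
  let _ : Fintype (PlaceOver H (q : ℕ)) := Fintype.ofFinite _
  let pl : PlaceOver H (q : ℕ) → Place H := fun c => ⟨q, c⟩
  choose y hymem hy0 hylt hyo using fun c => exists_supported hH (pl c)
  choose e k he hek using fun c => exists_pow_eq_zpow (pl c) a.1.val_ne_zero (hy0 c) (hylt c)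
  let Y : PlaceOver H (q : ℕ) → fixUM H (AlgebraicClosure ℚ) := fun c =>
    ⟨UM.mk (y c) (hy0 c), fun s => UM.ext ((IntermediateField.mem_fixedField_iff _ _).1 (hymem c)
      s.1 s.2)⟩
  set z : fixUM H (AlgebraicClosure ℚ) :=
    ∑ c, (k c * ((∏ i ∈ Finset.univ.erase c, e i : ℕ) : ℤ)) • Y c with hz
  have habsv : ∀ w : Place H, w.absv z.1.val
      = ∏ c, (w.absv (y c)) ^ (k c * ((∏ i ∈ Finset.univ.erase c, e i : ℕ) : ℤ)) := fun w => by
    rw [hz, AddSubmonoidClass.coe_finsetSum, UM.val_sum, Place.absv, map_prod, norm_prod]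
    refine Finset.prod_congr rfl fun c _ => ?_
    rw [AddSubgroupClass.coe_zsmul, val_zsmul_um, map_zpow₀, norm_zpow]
    rfl
  have hfix : ∀ x : fixUM H (AlgebraicClosure ℚ), ∀ h ∈ H, h x.1.val = x.1.val :=
    fun x h hh => congrArg UM.val (x.2 ⟨h, hh⟩)
  refine ⟨∏ c, e c, z, Finset.prod_pos fun c _ => he c, fun g => ?_, fun r hr g => ?_⟩
  · rw [← absv_placeOf g (hfix z), ← absv_placeOf g (hfix a)]
    set c₀ : PlaceOver H (q : ℕ) := placeQ g
    show (pl c₀).absv z.1.val = (pl c₀).absv a.1.val ^ _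
    rw [habsv, Finset.prod_eq_single c₀ (fun c _ hc => by
        rw [hyo c (pl c₀) fun h => hc (by
          have h' : (⟨q, c₀⟩ : Place H) = ⟨q, c⟩ := h
          exact (eq_of_heq (Sigma.mk.inj_iff.1 h').2).symm), one_zpow])
      (fun h => absurd (Finset.mem_univ _) h), zpow_mul, ← hek c₀, zpow_natCast, ← pow_mul,
      Finset.mul_prod_erase _ _ (Finset.mem_univ c₀)]
  · rw [← absv_placeOf g (hfix z), habsv]
    refine Finset.prod_eq_one fun c _ => ?_
    rw [hyo c (placeOf r g) fun h => hr (congrArg Sigma.fst h), one_zpow]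

set_option maxHeartbeats 800000 in
-- roots of unity in local fields are slow to unify
/-- Valuations at `q` become those of an element supported at `q` after an extension unramified
outside `S`, up to `p`-th powers. -/
theorem exists_cap {H : Subgroup GQ} (hn : H.Normal) {S : Finset Nat.Primes}
    (hpS : (⟨p, hp.out⟩ : Nat.Primes) ∈ S) (hH : H ∈ (levS S).carrier) {q : Nat.Primes}
    (hq : q ∉ S) (a : fixUM H (AlgebraicClosure ℚ)) :
    ∃ N ∈ (levS S).carrier, N.Normal ∧ N ≤ H ∧ ∃ (u : fixUM N (AlgebraicClosure ℚ)) (j : ℕ),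
      (∀ r : Nat.Primes, r ∉ S → r ≠ q → ∀ g : GQ, ‖emb (r : ℕ) g u.1.val‖ = 1) ∧
      ∀ g : GQ, ‖emb (q : ℕ) g u.1.val‖ = ‖emb (q : ℕ) g a.1.val‖ ^ (p * j + 1) := by
  classical
  obtain ⟨e, c, he, hcq, hco⟩ := exists_supported_at hH.1 q a
  obtain ⟨k, m, hm, hem⟩ := Nat.exists_eq_pow_mul_and_not_dvd he.ne' p hp.out.ne_one
  obtain ⟨B, hB⟩ := IsAlgClosed.exists_pow_nat_eq c.1.val (pow_pos hp.out.pos k)
  have hB0 : B ≠ 0 := fun h => c.1.val_ne_zero (by
    rw [← hB, h, zero_pow (pow_ne_zero k hp.out.ne_zero)])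
  set β : UM (AlgebraicClosure ℚ) := UM.mk B hB0
  have hpk : p ^ k ≠ 0 := pow_ne_zero k hp.out.ne_zero
  have hβq : ∀ g, ‖emb (q : ℕ) g B‖ = ‖emb (q : ℕ) g a.1.val‖ ^ m := fun g => by
    refine (pow_left_inj₀ (norm_nonneg _) (pow_nonneg (norm_nonneg _) _) hpk).1 ?_
    rw [← norm_pow, ← map_pow, hB, hcq, hem, ← pow_mul, mul_comm]
  have hβo : ∀ r : Nat.Primes, r ≠ q → ∀ g, ‖emb (r : ℕ) g B‖ = 1 := fun r hr g => by
    refine (pow_eq_one_iff_of_nonneg (norm_nonneg _) hpk).1 ?_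
    rw [← norm_pow, ← map_pow, hB, hco r hr]
  -- the stabiliser contains the inertia groups outside `S`
  have hfixa : ∀ h ∈ H, h a.1.val = a.1.val := fun h hh => congrArg UM.val (a.2 ⟨h, hh⟩)
  have hfixc : ∀ h ∈ H, h c.1.val = c.1.val := fun h hh => congrArg UM.val (c.2 ⟨h, hh⟩)
  have hkey : ∀ r : Nat.Primes, r ∉ S → ∀ t ∈ inertL (r : ℕ), ∀ g : GQ,
      (g * loc (r : ℕ) t * g⁻¹) B = B := by
    intro r hr t ht g
    have hmem := hH.2 r hr t ht g
    have hmove : ∀ x : AlgebraicClosure ℚ, (g * loc (r : ℕ) t * g⁻¹) x = x →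
        t (emb (r : ℕ) g⁻¹ x) = emb (r : ℕ) g⁻¹ x := fun x hx => by
      rw [emb_apply, ← iota_loc]
      congr 1
      conv_rhs => rw [← hx]
      rw [← AlgEquiv.mul_apply, ← AlgEquiv.mul_apply, mul_assoc, inv_mul_cancel_left]
    set y := emb (r : ℕ) g⁻¹ B with hydef
    have hy0 : y ≠ 0 := (_root_.map_ne_zero _).2 hB0
    obtain ⟨w, hw, hwt⟩ : ∃ w : PadicAlgCl (r : ℕ), ‖w‖ = ‖y‖ ∧ t w = w := by
      by_cases hrq : r = q
      · subst hrq
        refine ⟨emb (r : ℕ) g⁻¹ a.1.val ^ m, ?_, ?_⟩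
        · rw [norm_pow, hβq]
        · rw [map_pow, hmove _ (hfixa _ hmem)]
      · exact ⟨1, by rw [norm_one, hydef, hβo r hrq], map_one t⟩
    have hw0 : w ≠ 0 := norm_pos_iff.1 (by rw [hw]; exact norm_pos_iff.2 hy0)
    have hpr : ¬ (r : ℕ) ∣ p ^ k := fun h => hr (by
      have := (Nat.prime_dvd_prime_iff_eq r.2 hp.out).1 (r.2.dvd_of_dvd_pow h)
      rwa [show r = (⟨p, hp.out⟩ : Nat.Primes) from Subtype.ext this])
    have hroot : t y / y = 1 := by
      refine root_eq_of_close hpr ?_ (one_pow _) ?_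
      · rw [div_pow, ← map_pow, hydef, ← map_pow, hB, hmove _ (hfixc _ hmem),
          div_self ((_root_.map_ne_zero _).2 c.1.val_ne_zero)]
      · have hz : ‖y / w‖ = 1 := by
          rw [norm_div, hw, div_self (norm_ne_zero_iff.2 hy0)]
        have h1 := sub_lt_of_mem_inertL' ht hz.le
        rw [map_div₀, hwt, ← sub_div, norm_div, hw] at h1
        rwa [div_sub_one hy0, norm_div]
    rw [div_eq_one_iff_eq hy0] at hroot
    have h2 : (loc (r : ℕ) t) (g⁻¹ B) = g⁻¹ B := (padicEmbedding (r : ℕ)).injective (by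
      show padicEmbedding (r : ℕ) _ = padicEmbedding (r : ℕ) _
      rw [iota_loc]; exact hroot)
    rw [AlgEquiv.mul_apply, AlgEquiv.mul_apply, h2, ← AlgEquiv.mul_apply, mul_inv_cancel]
    rfl
  let St : Subgroup GQ := H ⊓ MulAction.stabilizer GQ β
  have hSt : St ∈ (levS S).carrier := by
    obtain ⟨M, hM, hMs⟩ := (galAct_fieldLevels (F := ℚ) (Ω := AlgebraicClosure ℚ)).smoothAct β
    refine ⟨mem_LQ_iff_isOpen.2 (Subgroup.isOpen_mono (show H ⊓ M ≤ St from
      inf_le_inf le_rfl fun s hs => MulAction.mem_stabilizer_iff.2 (hMs s hs))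
      (isOpen_of_mem_LQ (LQ.inf_mem hH.1 hM))), fun r hr t ht g => ⟨hH.2 r hr t ht g, ?_⟩⟩
    exact MulAction.mem_stabilizer_iff.2 (UM.ext (hkey r hr t ht g))
  obtain ⟨N, hN, hle, hnN⟩ := (levS S).exists_normal hSt
  have hm0 : (m : ZMod p) ≠ 0 := fun h => hm ((ZMod.natCast_eq_zero_iff m p).1 h)
  set m' := ((m : ZMod p)⁻¹).val
  have : NeZero p := ⟨hp.out.ne_zero⟩
  have hmm : m * m' % p = 1 := by
    rw [← Nat.mod_eq_of_lt hp.out.one_lt, ← Nat.ModEq, ← ZMod.natCast_eq_natCast_iff, Nat.cast_mul,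
      ZMod.natCast_zmod_val, mul_inv_cancel₀ hm0, Nat.cast_one]
  have hj : m * m' = p * (m * m' / p) + 1 := by
    conv_lhs => rw [← Nat.div_add_mod (m * m') p, hmm]
  refine ⟨N, hN, hnN, hle.trans inf_le_left, ⟨m' • β, fun s => ?_⟩, m * m' / p,
    fun r _ hr g => ?_, fun g => ?_⟩
  · show (s : GQ) • (m' • β) = m' • β
    rw [smul_comm, MulAction.mem_stabilizer_iff.1 (hle s.2).2]
  · rw [UM.val_nsmul, map_pow, norm_pow, show β.val = B from rfl, hβo r hr g, one_pow]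
  · rw [UM.val_nsmul, map_pow, norm_pow, show β.val = B from rfl, hβq g, ← pow_mul, ← hj]

/-- Finitely many levels have a common normal level. -/
theorem exists_levS_le {S : Finset Nat.Primes} {ι : Type} [Finite ι] {H : Subgroup GQ}
    (hH : H ∈ (levS S).carrier) (N : ι → Subgroup GQ) (hN : ∀ i, N i ∈ (levS S).carrier) :
    ∃ M ∈ (levS S).carrier, M.Normal ∧ M ≤ H ∧ ∀ i, M ≤ N i := by
  classical
  let _ : Fintype ι := Fintype.ofFinite ι
  suffices h : ∀ s : Finset ι, ∃ M ∈ (levS S).carrier, M ≤ H ∧ ∀ i ∈ s, M ≤ N i by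
    obtain ⟨M, hM, hMH, hMN⟩ := h Finset.univ
    obtain ⟨M', hM', hle, hn⟩ := (levS S).exists_normal hM
    exact ⟨M', hM', hn, hle.trans hMH, fun i => hle.trans (hMN i (Finset.mem_univ i))⟩
  intro s
  induction s using Finset.induction_on with
  | empty => exact ⟨H, hH, le_rfl, fun i hi => absurd hi (Finset.notMem_empty i)⟩
  | @insert i s _ ih =>
    obtain ⟨M, hM, hMH, hMs⟩ := ih
    refine ⟨M ⊓ N i, (levS S).inf_mem hM (hN i), inf_le_left.trans hMH, fun j hj => ?_⟩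
    rcases Finset.mem_insert.1 hj with rfl | hj
    · exact inf_le_right
    · exact inf_le_left.trans (hMs j hj)

namespace Trans

variable {X : Type} [Fintype X] [MulAction GQ X] (T : Trans LQ X)
variable {X' : Type} [Fintype X'] [MulAction GQ X'] (T' : Trans LQ X')
variable {π : X' → X} (hπ : ∀ (g : GQ) y, π (g • y) = g • π y)

include hπ in
theorem equi_pullPerm :
    Equi (MonoidHom.id GQ) (T.perm p) (T'.perm p) (LinearMap.funLeft (ZMod p) (ZMod p) π) :=
  fun g f => funext fun y => by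
    show f (g⁻¹ • π y) = f (π (g⁻¹ • y))
    rw [hπ]

include hπ in
theorem pullPerm_adjoint [DecidableEq X] (hπ0 : π T'.x0 = T.x0) (hμ : ∀ s ∈ T.H, ExtCitation.cycloChar p s = 1)
    (hμ' : ∀ s ∈ T'.H, ExtCitation.cycloChar p s = 1) (f : X → ZMod p) (f' : X' → ZMod p) :
    (T'.permPair hμ').β (LinearMap.funLeft (ZMod p) (ZMod p) π f) f'
      = (T.permPair hμ).β f (fibreSum (p := p) π f') := by
  rw [permPair_apply, permPair_apply]
  show ∑ y, ((cycQ p).χ (T'.t y) : ZMod p) * (f (π y) * f' y)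
    = ∑ x, ((cycQ p).χ (T.t x) : ZMod p) * (f x * ∑ y with π y = x, f' y)
  rw [← Finset.sum_fiberwise (s := Finset.univ) (g := π)
    (f := fun y => ((cycQ p).χ (T'.t y) : ZMod p) * (f (π y) * f' y))]
  refine Finset.sum_congr rfl fun x _ => ?_
  rw [Finset.mul_sum, Finset.mul_sum]
  refine Finset.sum_congr rfl fun y hy => ?_
  have hy' := (Finset.mem_filter.1 hy).2
  have h : (T.t x)⁻¹ * T'.t y ∈ T.H := by
    rw [MulAction.mem_stabilizer_iff, mul_smul, ← hπ0, ← hπ, T'.t_smul, hy', T.inv_t_smul, hπ0]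
  rw [hy', show (cycQ p).χ (T'.t y) = (cycQ p).χ (T.t x) by
    rw [← mul_inv_cancel_left (T.t x) (T'.t y), map_mul, show (cycQ p).χ _ = 1 from hμ _ h,
      mul_one]]

include hπ in
/-- The pullback of a Kummer class. -/
theorem sh1_pullPerm (hπ0 : π T'.x0 = T.x0) (hμ : ∀ s ∈ T.H, ExtCitation.cycloChar p s = 1)
    (hμ' : ∀ s ∈ T'.H, ExtCitation.cycloChar p s = 1) {x : H1 LQ (T.perm p)}
    {a : fixUM T.H (AlgebraicClosure ℚ)} (hx : T.sh1 (triv T.H p) x = (T.kum hμ).kum a)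
    (a' : fixUM T'.H (AlgebraicClosure ℚ)) (ha : a'.1 = a.1) :
    T'.sh1 (triv T'.H p) (map1 Compat.id (T.equi_pullPerm T' hπ) x) = (T'.kum hμ').kum a' := by
  obtain ⟨f, rfl⟩ := mk1_surjective x
  have hle : ∀ s ∈ T'.H, s ∈ T.H := fun s hs => by
    rw [MulAction.mem_stabilizer_iff, ← hπ0, ← hπ, MulAction.mem_stabilizer_iff.1 hs]
  have hval : ∀ s : T.H, f.1 (s : GQ) T.x0 = (T.kum hμ).kc a s := fun s =>
    congrFun (congrArg Subtype.val (mk1_triv_injective (hx.trans ((T.kum hμ).kum_apply a)))) s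
  rw [KumData.kum_apply, map1_mk1]
  refine congrArg (mk1 (LQ.sub T'.H) (triv T'.H p)) (Subtype.ext (funext fun s => ?_))
  show f.1 (s : GQ) (π T'.x0) = (T'.kum hμ').kc a' s
  rw [hπ0, hval ⟨s, hle s s.2⟩]
  have hA := (T.kum hμ).nsmul_kroot a.1
  refine (T'.kum hμ').eps_injective ?_
  have heps : ∀ i, (T'.kum hμ').eps i = (T.kum hμ).eps i := fun i =>
    UM.ext (by rw [(T'.kum hμ').eps_val, (T.kum hμ).eps_val]; rfl)
  rw [(T'.kum hμ').eps_kc a' (A := (T.kum hμ).kroot a.1) (hA.trans ha.symm), heps,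
    (T.kum hμ).eps_kc a hA]
  rfl

end Trans

end FA.GalCoh
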