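import Fermat.Agent.GalCoh.LocalH2

/-!
Surjectivity of corestriction in degree two, and twisted Kummer classes.
-/

set_option autoImplicit false
set_option linter.unusedSectionVars false

noncomputable section

namespace FA.GalCoh

variable {G : Type} [Group G] {L : Levels G} {p : ℕ} [hp : Fact p.Prime] (χ : G →* (ZMod p)ˣ)

theorem chr_eq_triv {H : Type} [Group H] {η : H →* (ZMod p)ˣ} (h : ∀ g, η g = 1) :
    chr η = triv H p := by
  refine MonoidHom.ext fun g => LinearMap.ext fun x => ?_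
  show (η g : ZMod p) * x = x
  rw [h, Units.val_one, one_mul]

theorem equi_chr_triv {H : Type} [Group H] (f : H →* G) (h : ∀ g, χ (f g) = 1) :
    Equi f (chr χ) (triv H p) (LinearMap.id : ZMod p →ₗ[ZMod p] ZMod p) := fun g v => by
  show (χ (f g) : ZMod p) * v = v
  rw [h, Units.val_one, one_mul]

variable {X : Type} [Fintype X] [MulAction G X]

/-- Weighted summation on a permutation module. -/
def Trans.augχ (T : Trans L X) : (X → ZMod p) →ₗ[ZMod p] ZMod p := T.aug (chr χ)

theorem Trans.equi_augχ (T : Trans L X) (hT : ∀ s ∈ T.H, χ s = 1) :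
    Equi (MonoidHom.id G) (T.coind (triv T.H p)) (chr χ) (T.augχ χ) := fun g f => by
  have h := T.equi_aug (chr χ) g f
  rw [show (chr χ).comp T.H.subtype = triv T.H p from chr_eq_triv (η := χ.comp T.H.subtype)
    fun s => hT s.1 s.2] at h
  exact h

/-- Corestriction to the twisted coefficients is onto. -/
def Trans.Good (T : Trans L X) : Prop :=
  ∀ hT : ∀ s ∈ T.H, χ s = 1,
    Function.Surjective (map2 (Compat.id (L := L)) (T.equi_augχ χ hT))

theorem Trans.cor2_sh2_triv (T : Trans L X) (z : H2 L (T.coind (triv T.H p))) :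
    T.cor2 (triv G p) (T.sh2 (triv T.H p) z)
      = map2 (Compat.id (L := L)) (T.equi_aug (triv G p)) z :=
  T.cor2_sh2 (triv G p) z

variable {X' : Type} [Fintype X'] [MulAction G X']

/-- A map of transitive sets on the modules of functions. -/
def fibreSum [DecidableEq X] (π : X' → X) : (X' → ZMod p) →ₗ[ZMod p] (X → ZMod p) where
  toFun f x := ∑ y with π y = x, f y
  map_add' f f' := by ext x; simp [Finset.sum_add_distrib]
  map_smul' c f := by ext x; simp [Finset.mul_sum]

theorem equi_fibreSum [DecidableEq X] (T : Trans L X) (T' : Trans L X') {π : X' → X}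
    (hπ : ∀ (g : G) y, π (g • y) = g • π y) :
    Equi (MonoidHom.id G) (T'.coind (triv T'.H p)) (T.coind (triv T.H p)) (fibreSum (p := p) π) :=
  fun g f => funext fun x => by
  show (∑ y with π y = x, f (g⁻¹ • y)) = ∑ y with π y = g⁻¹ • x, f y
  refine Finset.sum_equiv (MulAction.toPerm g⁻¹) (fun y => ?_) fun y _ => rfl
  simp only [Finset.mem_filter, Finset.mem_univ, true_and, MulAction.toPerm_apply, hπ,
    smul_left_cancel_iff]

theorem augχ_fibreSum [DecidableEq X] (T : Trans L X) (T' : Trans L X') {π : X' → X}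
    (hπ : ∀ (g : G) y, π (g • y) = g • π y) (hπ0 : π T'.x0 = T.x0) (hT : ∀ s ∈ T.H, χ s = 1)
    (f : X' → ZMod p) : T.augχ χ (fibreSum (p := p) π f) = T'.augχ χ f := by
  simp only [Trans.augχ, Trans.aug_apply, chr_apply, fibreSum, LinearMap.coe_mk, AddHom.coe_mk,
    Finset.mul_sum]
  rw [← Finset.sum_fiberwise (s := Finset.univ) (g := π) (f := fun y => (χ (T'.t y) : ZMod p) * f y)]
  refine Finset.sum_congr rfl fun x _ => Finset.sum_congr rfl fun y hy => ?_
  rw [Finset.mem_filter] at hy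
  congr 2
  have h : (T.t x)⁻¹ * T'.t y ∈ T.H := by
    rw [MulAction.mem_stabilizer_iff, mul_smul, ← hπ0, ← hπ, T'.t_smul, hy.2, T.inv_t_smul, hπ0]
  rw [← mul_inv_cancel_left (T.t x) (T'.t y), map_mul, hT _ h, mul_one]

/-- Surjectivity of corestriction passes to larger subgroups. -/
theorem Trans.Good.mono {T : Trans L X} {T' : Trans L X'} (h : T'.Good χ) {π : X' → X}
    (hπ : ∀ (g : G) y, π (g • y) = g • π y) (hπ0 : π T'.x0 = T.x0) : T.Good χ := fun hT => by
  classical
  have hT' : ∀ s ∈ T'.H, χ s = 1 := fun s hs => hT s (by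
    rw [MulAction.mem_stabilizer_iff, ← hπ0, ← hπ, MulAction.mem_stabilizer_iff.1 hs])
  intro w
  obtain ⟨z, rfl⟩ := h hT' w
  refine ⟨map2 Compat.id (equi_fibreSum T T' hπ) z, ?_⟩
  obtain ⟨Z, rfl⟩ := mk2_surjective z
  refine congrArg (mk2 L (chr χ)) (Subtype.ext (funext fun x => ?_))
  exact augχ_fibreSum χ T T' hπ hπ0 hT _

/-- The fibre over the base point as a transitive set of the stabiliser. -/
def fibreAction (T : Trans L X) {π : X' → X} (hπ : ∀ (g : G) y, π (g • y) = g • π y) :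
    SubMulAction T.H X' where
  carrier := {y | π y = T.x0}
  smul_mem' s y hy := by
    show π ((s : G) • y) = T.x0
    rw [hπ, show π y = T.x0 from hy]
    exact s.2

variable {π : X' → X} (hπ : ∀ (g : G) y, π (g • y) = g • π y)

instance (T : Trans L X) : Fintype (fibreAction T hπ) := Fintype.ofFinite _

/-- The transversal of the fibre. -/
def fibreTrans (T : Trans L X) (T' : Trans L X') (hπ0 : π T'.x0 = T.x0) :
    Trans (L.sub T.H) (fibreAction T hπ) where
  x0 := ⟨T'.x0, hπ0⟩
  t y := ⟨T'.t y.1, by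
    rw [MulAction.mem_stabilizer_iff, ← hπ0, ← hπ, T'.t_smul, hπ0]
    exact y.2⟩
  t_smul y := Subtype.ext (T'.t_smul y.1)
  t_x0 := Subtype.ext T'.t_x0
  trivial := by
    obtain ⟨N, hN, h⟩ := T'.trivial
    exact ⟨N.subgroupOf T.H, ⟨N, hN, rfl⟩, fun s hs y => Subtype.ext (h s.1 hs y.1)⟩

/-- Composition of surjective corestrictions. -/
theorem Trans.Good.comp {T : Trans L X} (h : T.Good χ) (T' : Trans L X') (hπ0 : π T'.x0 = T.x0)
    (hT : ∀ s ∈ T.H, χ s = 1)
    (hY : Function.Surjective ((fibreTrans hπ T T' hπ0).cor2 (triv T.H p))) : T'.Good χ := by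
  classical
  intro hT'
  set TY := fibreTrans hπ T T' hπ0 with hTY
  -- restriction to the fibre
  let r : (X' → ZMod p) →ₗ[ZMod p] (fibreAction T hπ → ZMod p) :=
    LinearMap.pi fun y => LinearMap.proj y.1
  have hr : Equi T.H.subtype (T'.coind (triv T'.H p)) (TY.coind ((triv T.H p).comp TY.H.subtype)) r :=
    fun s f => rfl
  -- the identification of the two stabilisers
  let ι : TY.H →* T'.H := (T.H.subtype.comp TY.H.subtype).codRestrict _ fun s => by
    rw [MulAction.mem_stabilizer_iff]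
    exact congrArg Subtype.val (MulAction.mem_stabilizer_iff.1 s.2)
  let j : T'.H →* TY.H :=
    ((Subgroup.inclusion (H := T'.H) (K := T.H) fun s hs => by
      rw [MulAction.mem_stabilizer_iff, ← hπ0, ← hπ, MulAction.mem_stabilizer_iff.1 hs])).codRestrict
        _ fun s => Subtype.ext (MulAction.mem_stabilizer_iff.1 s.2)
  have hι : Compat (L.sub T'.H) ((L.sub T.H).sub TY.H) ι := by
    rintro _ ⟨N, hN, rfl⟩
    exact ⟨_, ⟨_, ⟨N, hN, rfl⟩, rfl⟩, fun g hg => hg⟩
  have hj : Compat ((L.sub T.H).sub TY.H) (L.sub T'.H) j := by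
    rintro _ ⟨_, ⟨N, hN, rfl⟩, rfl⟩
    exact ⟨_, ⟨N, hN, rfl⟩, fun g hg => hg⟩
  have hsurj : Function.Surjective (map2 (L.sub_compat T.H) hr) := by
    intro v
    obtain ⟨z, hz⟩ := T'.sh2_surjective (σ := triv T'.H p)
      (res2t hj (TY.sh2 ((triv T.H p).comp TY.H.subtype) v))
    refine ⟨z, TY.sh2_injective ?_⟩
    have := congrArg (res2t (p := p) hι) hz
    obtain ⟨Z, rfl⟩ := mk2_surjective z
    obtain ⟨V, rfl⟩ := mk2_surjective v
    exact this
  intro w
  obtain ⟨z, rfl⟩ := h hT w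
  obtain ⟨u, hu⟩ := hY (T.sh2 (triv T.H p) z)
  obtain ⟨v, rfl⟩ := TY.sh2_surjective u
  obtain ⟨z', rfl⟩ := hsurj v
  have hφ : map2 Compat.id (equi_fibreSum (p := p) T T' hπ) z' = z := T.sh2_injective (by
    rw [← hu, TY.cor2_sh2]
    obtain ⟨Z, rfl⟩ := mk2_surjective z'
    refine congrArg (mk2 (L.sub T.H) (triv T.H p)) (Subtype.ext (funext fun x => ?_))
    show (∑ y with π y = T.x0, Z.1 ((x.1 : G), (x.2 : G)) y)
      = TY.aug (triv T.H p) fun y => Z.1 ((x.1 : G), (x.2 : G)) y.1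
    rw [TY.aug_apply]
    exact (Finset.sum_subtype (p := fun y => π y = T.x0) (F := inferInstanceAs
      (Fintype (fibreAction T hπ))) _ (fun y => by simp) _))
  refine ⟨z', ?_⟩
  rw [← hφ]
  obtain ⟨Z, rfl⟩ := mk2_surjective z'
  refine congrArg (mk2 L (chr χ)) (Subtype.ext (funext fun x => ?_))
  exact (augχ_fibreSum χ T T' hπ hπ0 hT _).symm

/-- Corestriction from a subgroup of index prime to `p` is onto. -/
theorem Trans.good_of_card (T : Trans L X) (hcard : (Fintype.card X : ZMod p) ≠ 0) :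
    T.Good χ := fun hT => by
  intro w
  obtain ⟨W, rfl⟩ := mk2_surjective w
  have hid : Equi (MonoidHom.id G) (T.coind ((chr χ).comp T.H.subtype)) (T.coind (triv T.H p))
      (LinearMap.id : (X → ZMod p) →ₗ[ZMod p] _) := fun g f => funext fun x => by
    show (χ (T.h g x : G) : ZMod p) * f (g⁻¹ • x) = f (g⁻¹ • x)
    rw [hT _ (T.h g x).2, Units.val_one, one_mul]
  refine ⟨((Fintype.card X : ZMod p))⁻¹ •
    map2 Compat.id hid (map2 Compat.id (T.equi_dia (chr χ)) (mk2 L (chr χ) W)), ?_⟩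
  have h0 : map2 Compat.id (T.equi_augχ χ hT)
      (map2 Compat.id hid (map2 Compat.id (T.equi_dia (chr χ)) (mk2 L (chr χ) W)))
      = (Fintype.card X : ZMod p) • mk2 L (chr χ) W := by
    rw [← map_smul (mk2 L (chr χ))]
    refine congrArg (mk2 L (chr χ)) (Subtype.ext (funext fun x => ?_))
    show T.aug (chr χ) (T.dia (chr χ) (W.1 x)) = (Fintype.card X : ZMod p) • W.1 x
    rw [T.aug_dia, Nat.cast_smul_eq_nsmul]
  rw [map_smul, h0, inv_smul_smul₀ hcard]

section Twist

variable {Ω : Type} [Field Ω] [MulSemiringAction G Ω]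

/-- A root of unity with its cyclotomic character. -/
structure CycloData (L : Levels G) (Ω : Type) [Field Ω] [MulSemiringAction G Ω] (p : ℕ) where
  gal : GalAct L Ω
  /-- The root of unity. -/
  ζ : Ω
  prim : IsPrimitiveRoot ζ p
  root : ∀ x : Ω, ∃ y, y ^ p = x
  /-- The cyclotomic character. -/
  χ : G →* (ZMod p)ˣ
  act : ∀ g : G, g • ζ = ζ ^ ((χ g : ZMod p)).val

namespace CycloData

variable (D : CycloData L Ω p)
include D

theorem fix_of_ker {g : G} (h : D.χ g = 1) : g • D.ζ = D.ζ := by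
  rw [D.act, h, Units.val_one, ZMod.val_one p, pow_one]

/-- Kummer data over a subgroup fixing the root of unity. -/
def kumData (H : Subgroup G) (hH : ∀ h ∈ H, D.χ h = 1) : KumData (L.sub H) Ω p where
  gal := D.gal.sub H
  ζ := D.ζ
  prim := D.prim
  fixζ g := D.fix_of_ker (hH g.1 g.2)
  root := D.root

theorem smooth_chr : Smooth L (chr D.χ) := by
  obtain ⟨N, hN, h⟩ := D.gal.smooth D.ζ
  refine (smooth_chr_iff D.χ).2 ⟨N, hN, fun s hs => Units.ext ?_⟩
  have := (D.act s).symm.trans (h s hs)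
  have hval : ((D.χ s : ZMod p)).val = 1 :=
    D.prim.pow_inj (ZMod.val_lt _) hp.out.one_lt (by rw [this, pow_one])
  rw [Units.val_one, ← ZMod.natCast_zmod_val (D.χ s : ZMod p), hval, Nat.cast_one]

/-- The embedding of `ZMod p` by powers of the root of unity. -/
def eps : ZMod p →+ UM Ω where
  toFun i := i.val • UM.mk D.ζ (D.prim.ne_zero hp.out.ne_zero)
  map_zero' := by simp
  map_add' i j := UM.ext (by
    simp only [UM.val_nsmul, UM.val_add, UM.val_mk, ← pow_add, ZMod.val_add]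
    conv_rhs => rw [← Nat.mod_add_div (i.val + j.val) p]
    rw [pow_add, pow_mul, D.prim.pow_eq_one, one_pow, mul_one])

theorem eps_val (i : ZMod p) : (D.eps i).val = D.ζ ^ i.val := by simp [eps]

theorem eps_injective : Function.Injective D.eps := fun i j h => by
  have := congrArg UM.val h
  rw [eps_val, eps_val] at this
  exact ZMod.val_injective p (D.prim.pow_inj (ZMod.val_lt i) (ZMod.val_lt j) this)

theorem smul_eps (g : G) (i : ZMod p) : g • D.eps i = D.eps ((D.χ g : ZMod p) * i) := UM.ext (by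
  rw [UM.val_smul, eps_val, eps_val, smul_pow', D.act, ← pow_mul, ZMod.val_mul]
  conv_lhs => rw [← Nat.mod_add_div ((D.χ g : ZMod p).val * i.val) p]
  rw [pow_add, pow_mul D.ζ p, D.prim.pow_eq_one, one_pow, mul_one])

theorem exists_eps {m : UM Ω} (h : p • m = 0) : ∃ i, D.eps i = m := by
  have hm := congrArg UM.val h
  rw [UM.val_nsmul, UM.val_zero] at hm
  have : NeZero p := ⟨hp.out.ne_zero⟩
  obtain ⟨i, hi, h'⟩ := D.prim.eq_pow_of_pow_eq_one hm
  exact ⟨i, UM.ext (by rw [eps_val, ZMod.val_natCast_of_lt hi, h'])⟩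

theorem exists_root (a : UM Ω) : ∃ A : UM Ω, p • A = a := by
  obtain ⟨y, hy⟩ := D.root a.val
  exact ⟨UM.mk y fun h => a.val_ne_zero (by rw [← hy, h, zero_pow hp.out.ne_zero]),
    UM.ext (by rw [UM.val_nsmul, UM.val_mk, hy])⟩

/-- A chosen root. -/
def kroot (a : UM Ω) : UM Ω := (D.exists_root a).choose

theorem nsmul_kroot (a : UM Ω) : p • D.kroot a = a := (D.exists_root a).choose_spec

theorem exists_kc (a : fixUM G Ω) (g : G) :
    ∃ i, D.eps i = g • D.kroot a.1 - D.kroot a.1 :=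
  D.exists_eps (by rw [smul_sub, smul_comm, D.nsmul_kroot, a.2 g, sub_self])

/-- The twisted Kummer cocycle. -/
def kc (a : fixUM G Ω) (g : G) : ZMod p := (D.exists_kc a g).choose

theorem eps_kc (a : fixUM G Ω) (g : G) : D.eps (D.kc a g) = g • D.kroot a.1 - D.kroot a.1 :=
  (D.exists_kc a g).choose_spec

theorem kc_mem (a : fixUM G Ω) : D.kc a ∈ Z1 L (chr D.χ) := by
  refine ⟨?_, fun g h => D.eps_injective ?_⟩
  · obtain ⟨N, hN, hs⟩ := D.gal.smoothAct (D.kroot a.1)
    refine ⟨N, hN, fun g s hs' => D.eps_injective ?_⟩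
    rw [D.eps_kc, D.eps_kc, mul_smul, hs s hs']
  · rw [chr_apply, map_add, ← D.smul_eps, D.eps_kc, D.eps_kc, D.eps_kc, smul_sub, mul_smul]
    abel

/-- The twisted Kummer class. -/
def kum (a : fixUM G Ω) : H1 L (chr D.χ) := mk1 L (chr D.χ) ⟨D.kc a, D.kc_mem a⟩

theorem res_kum (H : Subgroup G) (hH : ∀ h ∈ H, D.χ h = 1) (a : fixUM G Ω) :
    map1 (L.sub_compat H) (equi_chr_triv D.χ H.subtype fun h => hH h.1 h.2) (D.kum a)
      = (D.kumData H hH).kum ⟨a.1, fun g => a.2 g.1⟩ := by
  refine congrArg (mk1 (L.sub H) (triv H p))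
    (Subtype.ext (funext fun g => (D.kumData H hH).eps_injective ?_))
  show D.eps (D.kc a g.1) = (D.kumData H hH).eps ((D.kumData H hH).kc _ g)
  rw [D.eps_kc, (D.kumData H hH).eps_kc _ (A := D.kroot a.1) (D.nsmul_kroot a.1)]
  rfl

end CycloData

end Twist

end FA.GalCoh
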