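import Fermat.Agent.GalCoh.AugSurj

/-!
The summation sequence of a module over a Galois splitting field and its dual, the image theorem
in degree two for every module, and classes with prescribed ramification.
-/

set_option autoImplicit false
set_option linter.unusedSectionVars false

noncomputable section

namespace FA.GalCoh

open Representation

section Kernel

variable {G : Type} [Group G] {k : Type} [Field k]
variable {A : Type} [AddCommGroup A] [Module k A] {B : Type} [AddCommGroup B] [Module k B]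
variable {ρA : Representation k G A} {ρB : Representation k G B} {φ : A →ₗ[k] B}

/-- The kernel of an equivariant map as a representation. -/
def kerRep (hφ : Equi (MonoidHom.id G) ρA ρB φ) : Representation k G (LinearMap.ker φ) where
  toFun g := (ρA g).restrict fun a ha => by
    rw [LinearMap.mem_ker] at ha ⊢
    rw [show φ (ρA g a) = ρB g (φ a) from hφ g a, ha, map_zero]
  map_one' := LinearMap.ext fun a => Subtype.ext (by simp)
  map_mul' g h := LinearMap.ext fun a => Subtype.ext (by simp)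

/-- The sequence of the kernel of a surjection. -/
def kerSES (hφ : Equi (MonoidHom.id G) ρA ρB φ) (hs : Function.Surjective φ) :
    SES (kerRep hφ) ρA ρB where
  i := (LinearMap.ker φ).subtype
  q := φ
  inj := Subtype.val_injective
  surj := hs
  exact := Submodule.range_subtype _
  i_equi _ _ := rfl
  q_equi g a := hφ g a

end Kernel

variable {p : ℕ} [hp : Fact p.Prime]

namespace Trans

variable {X : Type} [Fintype X] [MulAction GQ X] (T : Trans LQ X)
variable {V : Type} [AddCommGroup V] [Module (ZMod p) V]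
variable {W : Type} [AddCommGroup W] [Module (ZMod p) W]
variable {ρ : Representation (ZMod p) GQ V} {σ : Representation (ZMod p) GQ W}
variable (P : DPair LQ (cycQ p).χ ρ σ)

/-- The pair restricted to the subgroup. -/
def subPair :
    DPair (LQ.sub T.H) (T.resχ (cycQ p).χ) (ρ.comp T.H.subtype) (σ.comp T.H.subtype) where
  β := P.β
  bil s v w := P.bil (s : GQ) v w
  inj_left := P.inj_left
  inj_right := P.inj_right
  fin_left := P.fin_left
  fin_right := P.fin_right
  smooth_left := P.smooth_left.comp (LQ.sub_compat _)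
  smooth_right := P.smooth_right.comp (LQ.sub_compat _)

/-- The induced pair. -/
def covPair : DPair LQ (cycQ p).χ (T.coind (ρ.comp T.H.subtype))
    (T.coind (σ.comp T.H.subtype)) :=
  T.coindPair (T.subPair P)

theorem aug_surjective (ρ : Representation (ZMod p) GQ V) :
    Function.Surjective (T.aug ρ) := fun v => by
  classical
  refine ⟨Pi.single T.x0 v, ?_⟩
  rw [T.aug_apply, Finset.sum_eq_single T.x0 (fun y _ hy => by simp [Pi.single_eq_of_ne hy])
    (by simp), Pi.single_eq_same, T.t_x0, map_one]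
  rfl

variable (ρ) in
/-- The sequence of the summation map. -/
def augSES : SES (kerRep (T.equi_aug ρ)) (T.coind (ρ.comp T.H.subtype)) ρ :=
  kerSES (T.equi_aug ρ) (T.aug_surjective ρ)

/-- The pair of the kernel. -/
def kerPair : DPair LQ (cycQ p).χ (kerRep (T.equi_aug ρ))
    ((kerRep (T.equi_aug ρ)).dual.twist (cycQ p).χ) :=
  haveI := (T.covPair P).fin_left
  DPair.canonical (kerRep (T.equi_aug ρ)) ((T.augSES ρ).smooth_fst (T.covPair P).smooth_left)
    (cycQ p).smooth_chr

/-- The dual sequence. -/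
def dualSES : SES σ (T.coind (σ.comp T.H.subtype))
    ((kerRep (T.equi_aug ρ)).dual.twist (cycQ p).χ) :=
  (T.augSES ρ).dual (T.kerPair P) (T.covPair P) P

theorem cov_adjoint : (T.augSES ρ).Adjoint (T.dualSES P) (T.kerPair P).β (T.covPair P).β P.β :=
  (T.augSES ρ).dual_adjoint (T.kerPair P) (T.covPair P) P

variable (hμ : ∀ s ∈ T.H, ExtCitation.cycloChar p s = 1)
variable (hρ : ∀ s ∈ T.H, ρ s = 1)

include P hμ hρ in
/-- The partner of a module trivial on the subgroup is trivial there. -/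
theorem eq_one_right {s : GQ} (hs : s ∈ T.H) : σ s = 1 :=
  LinearMap.ext fun w => P.ext_right fun v => by
    have h := P.bil s v w
    rw [hρ s hs, chr_apply, show (cycQ p).χ s = 1 from hμ s hs, Units.val_one, one_mul] at h
    exact h

/-- Local classes orthogonal to the global invariants come from a global class. -/
theorem image_gen (hp2 : p ≠ 2) (hμ : ∀ s ∈ T.H, ExtCitation.cycloChar p s = 1)
    (hρ : ∀ s ∈ T.H, ρ s = 1) (S₀ : Finset Nat.Primes)
    (w : ∀ q : Nat.Primes, H2 (LL (q : ℕ)) (ρ.comp (loc (q : ℕ))))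
    (hw : ∀ q : Nat.Primes, q ∉ S₀ → w q = 0)
    (hsum : ∀ n : ↥σ.invariants, ∑ q : {q // q ∈ S₀},
      pair20Q (q.1 : ℕ) P (w q.1) (resInv σ (q.1 : ℕ) n) = 0) :
    ∃ z : H2 LQ ρ, ∀ q : Nat.Primes, resq2 (q : ℕ) ρ z = w q := by
  classical
  set E := T.augSES ρ
  set E' := T.dualSES P
  set PB := T.covPair P
  have hadj := T.cov_adjoint P
  have := PB.fin_left
  have := P.fin_left
  choose w₁ hw₁ using fun q : Nat.Primes => map2_surjective_of_surjective (locPair (q : ℕ) PB)
    (locPair (q : ℕ) P) (equi_loc E.equi_q (q : ℕ)) E.surj (w q)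
  let wl : ∀ q : Nat.Primes, H2 (LL (q : ℕ)) ((T.coind (ρ.comp T.H.subtype)).comp (loc (q : ℕ))) :=
    fun q => if q ∈ S₀ then w₁ q else 0
  have hwl : ∀ q : Nat.Primes, map2 Compat.id (equi_loc E.equi_q (q : ℕ)) (wl q) = w q := fun q => by
    simp only [wl]
    split_ifs with h
    · exact hw₁ q
    · rw [map_zero, hw q h]
  set pp : Nat.Primes := ⟨p, hp.out⟩
  -- a correction at one prime
  set lam : ↥(T.coind (σ.comp T.H.subtype)).invariants →ₗ[ZMod p] ZMod p :=
    ∑ q : {q // q ∈ S₀},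
      (pair20Q (q.1 : ℕ) PB (wl q.1)) ∘ₗ resInv (T.coind (σ.comp T.H.subtype)) (q.1 : ℕ)
  let D : Submodule (ZMod p)
      ↥(Representation.invariants ((T.coind (σ.comp T.H.subtype)).comp (loc (pp : ℕ)))) :=
    (LinearMap.range (E'.i ∘ₗ (Representation.invariants (σ.comp (loc (pp : ℕ)))).subtype)).comap
      (Representation.invariants _).subtype
  obtain ⟨g, hg⟩ := exists_dual_factor
    (D.mkQ ∘ₗ resInv (T.coind (σ.comp T.H.subtype)) (pp : ℕ)) lam fun n hn => by
      rw [LinearMap.comp_apply, Submodule.mkQ_apply, Submodule.Quotient.mk_eq_zero] at hn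
      obtain ⟨m, hm⟩ := hn
      change E'.i m.1 = n.1 at hm
      have hminv : m.1 ∈ σ.invariants := fun g => E'.inj (by rw [E'.i_equi, hm, n.2 g])
      rw [← hsum ⟨m.1, hminv⟩]
      simp only [lam, LinearMap.sum_apply, LinearMap.comp_apply]
      refine Finset.sum_congr rfl fun q _ => ?_
      rw [← hwl q.1, pair20_adjoint (localInv (cycL p (q.1 : ℕ))) (locPair (q.1 : ℕ) PB)
        (locPair (q.1 : ℕ) P) (equi_loc E.equi_q (q.1 : ℕ)) (equi_loc E'.equi_i (q.1 : ℕ))
        (fun v w => (hadj.right v w).symm) (wl q.1)]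
      exact congrArg _ (Subtype.ext hm.symm)
  obtain ⟨r, hr⟩ := (perfectQ (pp : ℕ) PB).bij20.2 (g ∘ₗ D.mkQ)
  have hr0 : map2 Compat.id (equi_loc E.equi_q (pp : ℕ)) r = 0 :=
    (perfectQ (pp : ℕ) P).bij20.1 (LinearMap.ext fun m => by
      rw [pair20_adjoint (localInv (cycL p (pp : ℕ))) (locPair (pp : ℕ) PB) (locPair (pp : ℕ) P)
        (equi_loc E.equi_q (pp : ℕ)) (equi_loc E'.equi_i (pp : ℕ))
        (fun v w => (hadj.right v w).symm) r m, hr, LinearMap.comp_apply, Submodule.mkQ_apply,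
        (Submodule.Quotient.mk_eq_zero D).2 ⟨m, rfl⟩, map_zero, map_zero, LinearMap.zero_apply])
  let corr : ∀ q : Nat.Primes,
      H2 (LL (q : ℕ)) ((T.coind (ρ.comp T.H.subtype)).comp (loc (q : ℕ))) :=
    Function.update (fun _ => 0) pp r
  obtain ⟨z, hz⟩ := T.coindV_image_H2 (σ := ρ.comp T.H.subtype) (fun s => hρ s.1 s.2) hμ
    (tc_of_cyclo hp2 hμ) PB (insert pp S₀) (fun q => wl q - corr q) (fun q hq => by
      rw [Finset.mem_insert, not_or] at hq
      simp only [wl, if_neg hq.2, corr, Function.update_of_ne hq.1, sub_zero]) fun n => by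
      simp only [map_sub, LinearMap.sub_apply, Finset.sum_sub_distrib]
      rw [sub_eq_zero, Finset.sum_coe_sort (insert pp S₀) fun q => pair20Q (q : ℕ) PB (wl q)
          (resInv (T.coind (σ.comp T.H.subtype)) (q : ℕ) n),
        Finset.sum_coe_sort (insert pp S₀) fun q => pair20Q (q : ℕ) PB (corr q)
          (resInv (T.coind (σ.comp T.H.subtype)) (q : ℕ) n),
        ← Finset.sum_subset (Finset.subset_insert pp S₀) (fun q _ hq => by
          simp only [wl, if_neg hq, map_zero, LinearMap.zero_apply]),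
        Finset.sum_eq_single pp (fun q _ hq => by
          simp only [corr, Function.update_of_ne hq, map_zero, LinearMap.zero_apply])
          (fun h => absurd (Finset.mem_insert_self pp S₀) h),
        ← Finset.sum_coe_sort S₀ fun q => pair20Q (q : ℕ) PB (wl q)
          (resInv (T.coind (σ.comp T.H.subtype)) (q : ℕ) n)]
      simp only [corr, Function.update_self]
      rw [hr, LinearMap.comp_apply]
      refine Eq.trans ?_ (hg n).symm
      simp only [lam, LinearMap.sum_apply, LinearMap.comp_apply]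
  refine ⟨E.q2 z, fun q => ?_⟩
  rw [resq2_map, hz q, map_sub, hwl]
  by_cases h : q = pp
  · subst h
    simp only [corr, Function.update_self, hr0, sub_zero]
  · simp only [corr, Function.update_of_ne h, map_zero, sub_zero]

set_option maxHeartbeats 1600000 in
-- the instances on local groups are slow to find
include P in
/-- Ramification outside `S` can be prescribed when locally trivial classes of the dual at `S` are
trivial everywhere. -/
theorem exists_ram_gen [hn : T.H.Normal] (hp2 : p ≠ 2)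
    (hμ : ∀ s ∈ T.H, ExtCitation.cycloChar p s = 1) (hρ : ∀ s ∈ T.H, ρ s = 1)
    {S : Finset Nat.Primes} (hS : T.AdSet (p := p) S)
    (hsha : ∀ a ∈ unrOutside S σ, locS S σ a = 0 →
      ∀ q : Nat.Primes, resq1 (q : ℕ) σ a = 0)
    {S₁ : Finset Nat.Primes} (hdis : Disjoint S S₁)
    (y : ∀ q : Nat.Primes, H1 (LL (q : ℕ)) (ρ.comp (loc (q : ℕ)))) :
    ∃ x ∈ unrOutside (S ∪ S₁) ρ, ∀ q ∈ S₁,
      resq1 (q : ℕ) ρ x - y q ∈ unrH1 (ρ.comp (loc (q : ℕ))) := by
  classical
  set E := T.augSES ρ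
  set E' := T.dualSES P
  set PB := T.covPair P
  set PR := T.kerPair P
  have hadj := T.cov_adjoint P
  have hT := tc_of_cyclo hp2 hμ
  have := P.fin_left
  have := P.fin_right
  have hρ1 : ∀ s : T.H, ρ.comp T.H.subtype s = 1 := fun s => hρ s.1 s.2
  have hσ1 : ∀ s : T.H, σ.comp T.H.subtype s = 1 := fun s => T.eq_one_right P hμ hρ s.2
  have hPB := PB.smooth_left
  have hPB' := PB.smooth_right
  have hunrB : ∀ q : Nat.Primes, q ∉ S →
      UnrRep ((T.coind (ρ.comp T.H.subtype)).comp (loc (q : ℕ))) := fun q hq =>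
    T.unrRep_coindV hρ1 (hS.unr q hq)
  have hunrC : ∀ q : Nat.Primes, q ∉ S → UnrRep (ρ.comp (loc (q : ℕ))) := fun q hq =>
    unrRep_of_surjective (equi_loc E.equi_q (q : ℕ)) E.surj (hunrB q hq)
  -- the local pairing of the connecting maps
  have hpair : ∀ (q : Nat.Primes) (c : H1 (LL (q : ℕ)) (ρ.comp (loc (q : ℕ))))
      (n : ↥((kerRep (T.equi_aug ρ)).dual.twist (cycQ p).χ).invariants),
      pair20Q (q : ℕ) PR ((E.res (loc (q : ℕ))).δ1 (hPB.comp compat_loc) c) (resInv _ (q : ℕ) n)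
        = pair11Q (q : ℕ) P c (resq1 (q : ℕ) σ (E'.δ0 hPB' n)) := by
    intro q c n
    rw [pair20Q, pair20_apply, pair11Q, pair11_apply]
    refine congrArg (localInv (cycL p (q : ℕ))) ?_
    exact SES.δ1_pair (E := E.res (loc (q : ℕ))) (E' := E'.res (loc (q : ℕ)))
      (locPair (q : ℕ) PR).bil (locPair (q : ℕ) PB).bil (locPair (q : ℕ) P).bil
      ⟨hadj.left, hadj.right⟩ (hPB.comp compat_loc) (hPB'.comp compat_loc)
      (locPair (q : ℕ) P).smooth_right c (resInv _ (q : ℕ) n)
  let lam : ↥((kerRep (T.equi_aug ρ)).dual.twist (cycQ p).χ).invariants →ₗ[ZMod p] ZMod p :=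
    ∑ q : {q // q ∈ S₁}, (pair11Q (q.1 : ℕ) P (y q.1)) ∘ₗ resq1 (q.1 : ℕ) σ ∘ₗ E'.δ0 hPB'
  obtain ⟨g, hg⟩ := exists_dual_factor (k := ZMod p) (B := LocH1 S σ) (locS S σ ∘ₗ E'.δ0 hPB') lam fun n hn => by
    have h := hsha _ (δ0_mem_unrOutside E' hPB'
      (fun q hq => T.unrRep_coindV hσ1 (hS.unr q hq)) n) hn
    simp only [lam, LinearMap.sum_apply, LinearMap.comp_apply, h, map_zero, Finset.sum_const_zero]
  have hx : ∀ q : {q // q ∈ S}, ∃ x, pair11Q (q.1 : ℕ) P x = g ∘ₗ LinearMap.single (ZMod p)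
      (fun q : {q // q ∈ S} => H1 (LL (q.1 : ℕ)) (σ.comp (loc (q.1 : ℕ)))) q :=
    fun q => (perfectQ (q.1 : ℕ) P).bij11.2 _
  choose xs hxs using hx
  have hgv : ∀ v : LocH1 S σ, g v = ∑ q : {q // q ∈ S}, pair11Q (q.1 : ℕ) P (xs q) (v q) := by
    intro v
    conv_lhs => rw [← Finset.univ_sum_single v]
    rw [map_sum]
    exact Finset.sum_congr rfl fun q _ => (LinearMap.congr_fun (hxs q) (v q)).symm
  let Y : ∀ q : Nat.Primes, H1 (LL (q : ℕ)) (ρ.comp (loc (q : ℕ))) := fun q =>
    if q ∈ S₁ then y q else if h : q ∈ S then -xs ⟨q, h⟩ else 0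
  have hY : ∀ q : Nat.Primes, q ∉ S ∪ S₁ → Y q = 0 := fun q hq => by
    rw [Finset.mem_union, not_or] at hq
    simp only [Y, if_neg hq.2, dif_neg hq.1]
  let δY : ∀ q : Nat.Primes,
      H2 (LL (q : ℕ)) ((kerRep (T.equi_aug ρ)).comp (loc (q : ℕ))) :=
    fun q => (E.res (loc (q : ℕ))).δ1 (hPB.comp compat_loc) (Y q)
  obtain ⟨r, hr⟩ := T.image_gen PR hp2 hμ (fun s hs => LinearMap.ext fun a => Subtype.ext (by
      show T.coind (ρ.comp T.H.subtype) s a.1 = a.1
      rw [T.coind_eq_one T le_rfl (ρ.comp T.H.subtype) (fun u _ => hρ1 u) hs]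
      rfl))
    (S ∪ S₁) δY (fun q hq => by simp only [δY, hY q hq, map_zero]) fun n => by
      have hterm : ∀ q : Nat.Primes, pair20Q (q : ℕ) PR (δY q) (resInv _ (q : ℕ) n)
          = pair11Q (q : ℕ) P (Y q) (resq1 (q : ℕ) σ (E'.δ0 hPB' n)) := fun q => hpair q (Y q) n
      rw [Finset.sum_congr rfl fun q _ => hterm q.1,
        Finset.sum_coe_sort (S ∪ S₁) fun q => pair11Q (q : ℕ) P (Y q)
          (resq1 (q : ℕ) σ (E'.δ0 hPB' n)),
        Finset.sum_union hdis, ← Finset.sum_coe_sort S, ← Finset.sum_coe_sort S₁]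
      have h1 : g (locS S σ (E'.δ0 hPB' n)) = lam n := hg n
      rw [hgv] at h1
      simp only [lam, LinearMap.sum_apply, LinearMap.comp_apply, locS_apply] at h1
      rw [add_eq_zero_iff_eq_neg, eq_comm, neg_eq_iff_eq_neg, ← Finset.sum_neg_distrib]
      refine Eq.trans ?_ (h1.symm.trans (Finset.sum_congr rfl fun q _ => ?_))
      · exact Finset.sum_congr rfl fun q _ => by simp only [Y, if_pos q.2]
      · simp only [Y, if_neg (Finset.disjoint_left.1 hdis q.2), dif_pos q.2, map_neg,
          LinearMap.neg_apply, neg_neg]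
  have hir : E.i2 r = 0 := T.coindV_eq_zero_of_resq2 hρ1 hμ hT fun q => by
    rw [resq2_i2, hr q]
    exact (E.res (loc (q : ℕ))).i2_δ1 (hPB.comp compat_loc) (Y q)
  obtain ⟨m, rfl⟩ := E.exists_of_i2_eq_zero hPB hir
  have hlift : ∀ q : Nat.Primes, ∃ b,
      (E.res (loc (q : ℕ))).q1 b = resq1 (q : ℕ) ρ m - Y q := fun q => by
    refine (E.res (loc (q : ℕ))).exists_of_δ1_eq_zero (hPB.comp compat_loc) ?_
    rw [map_sub, sub_eq_zero, ← resq2_δ1 E hPB]
    exact hr q
  choose bq hbq using hlift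
  obtain ⟨Sm, hm⟩ := exists_mem_unrOutside m
  obtain ⟨b, hbJ, hb⟩ := T.coindV_exists_ram (σ := ρ.comp T.H.subtype) hρ1 hμ hS hT
    (S₁ := S₁ ∪ (Sm \ S)) (Finset.disjoint_union_right.2 ⟨hdis, Finset.disjoint_sdiff⟩) bq
  have key : ∀ q ∈ S₁ ∪ (Sm \ S),
      resq1 (q : ℕ) ρ (m - E.q1 b) - Y q ∈ unrH1 (ρ.comp (loc (q : ℕ))) := fun q hq => by
    rw [map_sub, resq1_q1, sub_right_comm, ← hbq q, ← map_sub]
    refine map1_mem_unrH1 _ ?_
    rw [← neg_sub]
    exact neg_mem (hb q hq)
  refine ⟨m - E.q1 b, mem_unrOutside.2 fun q hq => ?_, fun q hq => ?_⟩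
  · rw [Finset.mem_union, not_or] at hq
    by_cases hq2 : q ∈ Sm
    · have h := key q (Finset.mem_union_right _ (Finset.mem_sdiff.2 ⟨hq2, hq.1⟩))
      rwa [hY q (by rw [Finset.mem_union]; tauto), sub_zero] at h
    · rw [map_sub, resq1_q1]
      refine sub_mem (mem_unrOutside.1 hm q hq2) (map1_mem_unrH1 _ (mem_unrOutside.1 hbJ q ?_))
      simp only [Finset.mem_union, Finset.mem_sdiff]
      tauto
  · have h := key q (Finset.mem_union_left _ hq)
    simp only [Y, if_pos hq] at h
    exact h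

end Trans

end FA.GalCoh
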