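import Fermat.Agent.GalCoh.Exact

/-!
Cup products in degree `1 + 1` and pairings with invariants.
-/

set_option autoImplicit false
set_option linter.unusedSectionVars false

noncomputable section

namespace FA.GalCoh

open Representation

variable {G : Type} [Group G] {L : Levels G}
variable {k : Type} [Field k]
variable {V : Type} [AddCommGroup V] [Module k V]
variable {W : Type} [AddCommGroup W] [Module k W]
variable {U : Type} [AddCommGroup U] [Module k U]

/-- An equivariant bilinear map. -/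
def Bil (ρ : Representation k G V) (σ : Representation k G W) (τ : Representation k G U)
    (β : V →ₗ[k] W →ₗ[k] U) : Prop := ∀ g v w, β (ρ g v) (σ g w) = τ g (β v w)

/-- The one-dimensional representation of a character. -/
def chr (χ : G →* kˣ) : Representation k G k where
  toFun g := (χ g : k) • LinearMap.id
  map_one' := by ext; simp
  map_mul' g h := by ext; simp [mul_comm]

@[simp] theorem chr_apply (χ : G →* kˣ) (g : G) (x : k) : chr χ g x = (χ g : k) * x := rfl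

/-- Smoothness of a character. -/
theorem smooth_chr_iff (χ : G →* kˣ) :
    Smooth L (chr χ) ↔ ∃ N ∈ L.carrier, ∀ s ∈ N, χ s = 1 := by
  refine ⟨fun ⟨N, hN, h⟩ => ⟨N, hN, fun s hs => Units.ext ?_⟩,
    fun ⟨N, hN, h⟩ => ⟨N, hN, fun s hs => LinearMap.ext fun x => by simp [h s hs]⟩⟩
  simpa using LinearMap.congr_fun (h s hs) (1 : k)

namespace Bil

variable {ρ : Representation k G V} {σ : Representation k G W} {τ : Representation k G U}
  {β : V →ₗ[k] W →ₗ[k] U} (hβ : Bil ρ σ τ β)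

include hβ in
theorem flip : Bil σ ρ τ β.flip := fun g w v => hβ g v w

include hβ in
theorem equi_left {v : V} (hv : v ∈ ρ.invariants) : Equi (MonoidHom.id G) σ τ (β v) :=
  fun g w => by
    show β v (σ g w) = τ g (β v w)
    rw [← hβ g v w, hv g]

include hβ in
theorem equi_right {w : W} (hw : w ∈ σ.invariants) : Equi (MonoidHom.id G) ρ τ (β.flip w) :=
  hβ.flip.equi_left hw

/-- The cup product on one-cochains. -/
def cupc (_hβ : Bil ρ σ τ β) (a : G → V) (b : G → W) : G × G → U :=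
  fun x => β (a x.1) (σ x.1 (b x.2))

theorem cupc_apply (a : G → V) (b : G → W) (x : G × G) :
    hβ.cupc a b x = β (a x.1) (σ x.1 (b x.2)) := rfl

theorem cupc_mem {a : G → V} {b : G → W} (hσ : Smooth L σ) (ha : a ∈ Z1 L ρ) (hb : b ∈ Z1 L σ) :
    hβ.cupc a b ∈ Z2 L τ :=
  ⟨ha.1.fst.map₂ (hσ.lc.fst.map₂ hb.1.snd (fun e w => e w)) (fun v w => β v w), fun g h j => by
    simp only [cupc_apply, ha.2, hb.2, map_add, map_mul, Module.End.mul_apply,
      LinearMap.add_apply, ← hβ g]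
    abel⟩

variable (hσ : Smooth L σ)

/-- The cup product on cocycles, with values in cohomology. -/
def cupz : ↥(Z1 L ρ) →ₗ[k] ↥(Z1 L σ) →ₗ[k] H2 L τ :=
  LinearMap.mk₂ k (fun a b => mk2 L τ ⟨hβ.cupc a.1 b.1, hβ.cupc_mem hσ a.2 b.2⟩)
    (fun a a' b => by rw [← map_add]; congr 1; ext x; simp [cupc_apply])
    (fun c a b => by rw [← map_smul]; congr 1; ext x; simp [cupc_apply])
    (fun a b b' => by rw [← map_add]; congr 1; ext x; simp [cupc_apply])
    (fun c a b => by rw [← map_smul]; congr 1; ext x; simp [cupc_apply])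

theorem cupz_d0_left (v : V) (a : ↥(Z1 L ρ)) (ha : d0 ρ v = a.1) (b : ↥(Z1 L σ)) :
    hβ.cupz hσ a b = 0 := by
  refine (mk2_eq_zero L τ _).2 ⟨fun g => β v (b.1 g), b.2.1.comp (β v), ?_⟩
  ext ⟨g, h⟩
  simp only [d1_apply, cupc_apply, ← ha, d0_apply, map_sub, LinearMap.sub_apply, b.2.2, map_add,
    ← hβ g]
  abel

theorem cupz_d0_right (a : ↥(Z1 L ρ)) (w : W) (b : ↥(Z1 L σ)) (hb : d0 σ w = b.1) :
    hβ.cupz hσ a b = 0 := by
  refine (mk2_eq_zero L τ _).2 ⟨-fun g => β (a.1 g) (σ g w),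
    (a.2.1.map₂ (hσ.lc_apply w) (fun v w => β v w)).comp Neg.neg, ?_⟩
  ext ⟨g, h⟩
  simp only [map_neg, Pi.neg_apply, d1_apply, cupc_apply, ← hb, d0_apply, map_sub, a.2.2,
    map_mul, Module.End.mul_apply, map_add, LinearMap.add_apply, ← hβ g]
  abel

/-- The cup product on first cohomology. -/
def cup : H1 L ρ →ₗ[k] H1 L σ →ₗ[k] H2 L τ :=
  Submodule.liftQ _
    { toFun := fun a => Submodule.liftQ _ (hβ.cupz hσ a) fun b ⟨w, hw⟩ =>
        hβ.cupz_d0_right hσ a w b hw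
      map_add' := fun a a' => Submodule.linearMap_qext _ (LinearMap.ext fun b => by simp)
      map_smul' := fun c a => Submodule.linearMap_qext _ (LinearMap.ext fun b => by simp) }
    fun a ⟨v, hv⟩ => LinearMap.mem_ker.2
      (Submodule.linearMap_qext _ (LinearMap.ext fun b => by
        simpa using hβ.cupz_d0_left hσ v a hv b))

theorem cup_mk1 (a : ↥(Z1 L ρ)) (b : ↥(Z1 L σ)) :
    hβ.cup hσ (mk1 L ρ a) (mk1 L σ b)
      = mk2 L τ ⟨hβ.cupc a.1 b.1, hβ.cupc_mem hσ a.2 b.2⟩ := rfl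

theorem cup_comm (hρ : Smooth L ρ) (x : H1 L ρ) (y : H1 L σ) :
    hβ.flip.cup hρ y x = -hβ.cup hσ x y := by
  obtain ⟨a, rfl⟩ := mk1_surjective x
  obtain ⟨b, rfl⟩ := mk1_surjective y
  rw [cup_mk1, cup_mk1, ← map_neg, mk2_eq_mk2]
  refine ⟨-fun g => β (a.1 g) (b.1 g), (a.2.1.map₂ b.2.1 fun v w => β v w).comp Neg.neg, ?_⟩
  ext ⟨g, h⟩
  simp only [map_neg, Pi.neg_apply, d1_apply, cupc_apply, Pi.sub_apply, Submodule.coe_neg,
    LinearMap.flip_apply, a.2.2, b.2.2, map_add, LinearMap.add_apply, ← hβ g]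
  abel

end Bil

section Naturality

variable {G' : Type} [Group G'] {L' : Levels G'}
variable {V' : Type} [AddCommGroup V'] [Module k V']
variable {W' : Type} [AddCommGroup W'] [Module k W']
variable {U' : Type} [AddCommGroup U'] [Module k U']
variable {ρ : Representation k G V} {σ : Representation k G W} {τ : Representation k G U}
  {β : V →ₗ[k] W →ₗ[k] U}
variable {ρ' : Representation k G' V'} {σ' : Representation k G' W'} {τ' : Representation k G' U'}
  {β' : V' →ₗ[k] W' →ₗ[k] U'}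

theorem Bil.res (f : G' →* G) (hβ : Bil ρ σ τ β) : Bil (ρ.comp f) (σ.comp f) (τ.comp f) β :=
  fun g v w => hβ (f g) v w

/-- Cup products are natural. -/
theorem Bil.map2_cup (hβ : Bil ρ σ τ β) (hσ : Smooth L σ) (hβ' : Bil ρ' σ' τ' β')
    (hσ' : Smooth L' σ') {f : G' →* G} (hf : Compat L L' f) {φ : V →ₗ[k] V'} {ψ : W →ₗ[k] W'}
    {θ : U →ₗ[k] U'} (hφ : Equi f ρ ρ' φ) (hψ : Equi f σ σ' ψ) (hθ : Equi f τ τ' θ)
    (hc : ∀ v w, θ (β v w) = β' (φ v) (ψ w)) (x : H1 L ρ) (y : H1 L σ) :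
    map2 hf hθ (hβ.cup hσ x y) = hβ'.cup hσ' (map1 hf hφ x) (map1 hf hψ y) := by
  obtain ⟨a, rfl⟩ := mk1_surjective x
  obtain ⟨b, rfl⟩ := mk1_surjective y
  refine congrArg (mk2 L' τ') (Subtype.ext (funext fun x => ?_))
  show θ (β (a.1 (f x.1)) (σ (f x.1) (b.1 (f x.2)))) = _
  rw [hc, hψ x.1]
  rfl

variable {V'' : Type} [AddCommGroup V''] [Module k V''] {ρ'' : Representation k G V''}
variable {W'' : Type} [AddCommGroup W''] [Module k W''] {σ'' : Representation k G W''}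
  {β'' : V'' →ₗ[k] W'' →ₗ[k] U}

/-- Adjoint maps move across cup products. -/
theorem Bil.cup_adjoint (hβ : Bil ρ σ τ β) (hσ : Smooth L σ) (hβ'' : Bil ρ'' σ'' τ β'')
    (hσ'' : Smooth L σ'') {φ : V →ₗ[k] V''} {ψ : W'' →ₗ[k] W}
    (hφ : Equi (MonoidHom.id G) ρ ρ'' φ) (hψ : Equi (MonoidHom.id G) σ'' σ ψ)
    (hc : ∀ v w, β'' (φ v) w = β v (ψ w)) (x : H1 L ρ) (y : H1 L σ'') :
    hβ''.cup hσ'' (map1 Compat.id hφ x) y = hβ.cup hσ x (map1 Compat.id hψ y) := by
  obtain ⟨a, rfl⟩ := mk1_surjective x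
  obtain ⟨b, rfl⟩ := mk1_surjective y
  refine congrArg (mk2 L τ) (Subtype.ext (funext fun x => ?_))
  show β'' (φ (a.1 x.1)) (σ'' x.1 (b.1 x.2)) = β (a.1 x.1) (σ x.1 (ψ (b.1 x.2)))
  rw [hc]
  exact congrArg (β (a.1 x.1)) (hψ x.1 (b.1 x.2))

end Naturality

section Delta

variable {A : Type} [AddCommGroup A] [Module k A]
variable {B : Type} [AddCommGroup B] [Module k B]
variable {C : Type} [AddCommGroup C] [Module k C]
variable {A' : Type} [AddCommGroup A'] [Module k A']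
variable {B' : Type} [AddCommGroup B'] [Module k B']
variable {C' : Type} [AddCommGroup C'] [Module k C']
variable {ρA : Representation k G A} {ρB : Representation k G B} {ρC : Representation k G C}
  {σA : Representation k G A'} {σB : Representation k G B'} {σC : Representation k G C'}
  {τ : Representation k G U}
  (E : SES ρA ρB ρC) (E' : SES σC σB σA)
  {βA : A →ₗ[k] A' →ₗ[k] U} {βB : B →ₗ[k] B' →ₗ[k] U} {βC : C →ₗ[k] C' →ₗ[k] U}

/-- Two short exact sequences are adjoint for given pairings. -/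
structure SES.Adjoint (βA : A →ₗ[k] A' →ₗ[k] U) (βB : B →ₗ[k] B' →ₗ[k] U)
    (βC : C →ₗ[k] C' →ₗ[k] U) : Prop where
  left : ∀ a b', βB (E.i a) b' = βA a (E'.q b')
  right : ∀ b c', βB b (E'.i c') = βC (E.q b) c'

variable {E E'}

theorem SES.Adjoint.symm (h : E.Adjoint E' βA βB βC) :
    E'.Adjoint E βC.flip βB.flip βA.flip :=
  ⟨fun c' b => h.right b c', fun b' a => h.left a b'⟩

variable (hA : Bil ρA σA τ βA) (hBb : Bil ρB σB τ βB) (hC : Bil ρC σC τ βC)
  (hadj : E.Adjoint E' βA βB βC) (hB : Smooth L ρB) (hB' : Smooth L σB)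

include hBb hadj in
/-- `δ c · n = c ∪ δ' n`. -/
theorem SES.δ1_pair (hσC : Smooth L σC) (c : H1 L ρC) (n : ↥σA.invariants) :
    map2 Compat.id (hA.equi_right n.2) (E.δ1 hB c)
      = hC.cup hσC c (E'.δ0 hB' n) := by
  obtain ⟨c, rfl⟩ := mk1_surjective c
  rw [SES.δ1_mk1, SES.δ0_apply, Bil.cup_mk1, map2_mk2, mk2_eq_mk2]
  refine ⟨fun g => βB (E.s (c.1 g)) (σB g (E'.s n.1)),
    (c.2.1.comp E.s).map₂ (hB'.lc_apply _) (fun v w => βB v w), ?_⟩
  ext ⟨g, h⟩
  show _ = βA (E.δc1 c.1 (g, h)) n.1 - βC (c.1 g) (σC g (E'.δc0 n.1 h))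
  have h1 : βA (E.δc1 c.1 (g, h)) n.1
      = βB (d1 ρB (fun g => E.s (c.1 g)) (g, h)) (σB (g * h) (E'.s n.1)) := by
    rw [← congrFun (E.i_δc1 c.2) (g, h), hadj.left, E'.q_equi, E'.q_s, n.2 (g * h)]
  have h2 : βC (c.1 g) (σC g (E'.δc0 n.1 h))
      = βB (E.s (c.1 g)) (σB g (d0 σB (E'.s n.1) h)) := by
    rw [← congrFun (E'.i_δc0 n.2) h, ← E'.i_equi, hadj.right, E.q_s]
  rw [h1, h2]
  simp only [d1_apply, d0_apply, map_sub, map_add, LinearMap.sub_apply, LinearMap.add_apply,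
    map_mul, Module.End.mul_apply, ← hBb g]
  abel

include hBb hadj in
/-- `v · δ' y = -(δ v ∪ y)`. -/
theorem SES.pair_δ1 (hσA : Smooth L σA) (v : ↥ρC.invariants) (y : H1 L σA) :
    map2 Compat.id (hC.equi_left v.2) (E'.δ1 hB' y)
      = -hA.cup hσA (E.δ0 hB v) y := by
  obtain ⟨y, rfl⟩ := mk1_surjective y
  rw [SES.δ1_mk1, SES.δ0_apply, Bil.cup_mk1, map2_mk2, ← map_neg, mk2_eq_mk2]
  refine ⟨fun g => βB (E.s v.1) (E'.s (y.1 g)), (y.2.1.comp E'.s).comp (βB (E.s v.1)), ?_⟩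
  ext ⟨g, h⟩
  show _ = βC v.1 (E'.δc1 y.1 (g, h)) - -βA (E.δc0 v.1 g) (σA g (y.1 h))
  have h1 : βC v.1 (E'.δc1 y.1 (g, h))
      = βB (E.s v.1) (d1 σB (fun g => E'.s (y.1 g)) (g, h)) := by
    rw [← congrFun (E'.i_δc1 y.2) (g, h), hadj.right, E.q_s]
  have h2 : βA (E.δc0 v.1 g) (σA g (y.1 h))
      = βB (d0 ρB (E.s v.1) g) (σB g (E'.s (y.1 h))) := by
    rw [← congrFun (E.i_δc0 v.2) g, hadj.left, E'.q_equi, E'.q_s]
  rw [h1, h2]
  simp only [d1_apply, d0_apply, map_sub, map_add, LinearMap.sub_apply, ← hBb g]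
  abel

end Delta

end FA.GalCoh
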