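import Fermat.Agent.GalCoh.Basic

/-!
Two-cocycles of a group with values in a module which split on the kernel of a character of prime
order are cohomologous to carry cocycles; carry cocycles split exactly at norms.
-/

set_option autoImplicit false
set_option linter.unusedSectionVars false

noncomputable section

namespace FA.GalCoh

variable {G : Type} [Group G] {M : Type} [AddCommGroup M] [DistribMulAction G M]

/-- The differential of a one-cochain with values in a module. -/
def dM (e : G → M) : G × G → M := fun x => x.1 • e x.2 - e (x.1 * x.2) + e x.1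

theorem dM_apply (e : G → M) (g h : G) : dM e (g, h) = g • e h - e (g * h) + e g := rfl

theorem dM_sub (e e' : G → M) : dM (e - e') = dM e - dM e' := by
  ext ⟨g, h⟩
  simp only [dM_apply, Pi.sub_apply, smul_sub]
  abel

theorem dM_add (e e' : G → M) : dM (e + e') = dM e + dM e' := by
  ext ⟨g, h⟩
  simp only [dM_apply, Pi.add_apply, smul_add]
  abel

/-- The two-cocycle identity. -/
def IsCocycle (z : G × G → M) : Prop :=
  ∀ g h j, g • z (h, j) + z (g, h * j) = z (g * h, j) + z (g, h)

theorem isCocycle_dM (e : G → M) : IsCocycle (dM e) := fun g h j => by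
  simp only [dM_apply, smul_add, smul_sub, mul_smul, mul_assoc]
  abel

theorem IsCocycle.sub {z z' : G × G → M} (h : IsCocycle z) (h' : IsCocycle z') :
    IsCocycle (z - z') := fun a b c => by
  simp only [Pi.sub_apply, smul_sub]
  linear_combination (norm := abel) h a b c - h' a b c

/-- Every element has its stabiliser containing a level. -/
def SmoothAct (L : Levels G) (M : Type) [AddCommGroup M] [DistribMulAction G M] : Prop :=
  ∀ m : M, ∃ N ∈ L.carrier, ∀ s ∈ N, s • m = m

theorem SmoothAct.lc_smul {L : Levels G} (hM : SmoothAct L M) {e : G → M} (he : LC₁ L e) :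
    LC₂ L (fun x : G × G => x.1 • e x.2) := by
  obtain ⟨N, hN, hs⟩ := he
  obtain ⟨N₀, hN₀, hle, hn⟩ := L.exists_normal hN
  have := L.finiteIndex hN₀
  have := Fintype.ofFinite (G ⧸ N₀)
  have hrep : ∀ g, e (QuotientGroup.mk g : G ⧸ N₀).out = e g := fun g => by
    obtain ⟨s, hs'⟩ := QuotientGroup.mk_out_eq_mul N₀ g
    rw [hs', hs g s (hle s.2)]
  have key : ∀ T : Finset (G ⧸ N₀), ∃ K ∈ L.carrier, ∀ q ∈ T, ∀ s ∈ K, s • e q.out = e q.out := by
    classical
    intro T
    induction T using Finset.induction_on with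
    | empty => exact ⟨⊤, L.top_mem, by simp⟩
    | @insert q T _ ih =>
      obtain ⟨K, hK, h⟩ := ih
      obtain ⟨K', hK', h'⟩ := hM (e q.out)
      refine ⟨K ⊓ K', L.inf_mem hK hK', fun r hr s hs => ?_⟩
      rcases Finset.mem_insert.1 hr with rfl | hr
      · exact h' s hs.2
      · exact h r hr s hs.1
  obtain ⟨K, hK, hfix⟩ := key Finset.univ
  refine ⟨N ⊓ K, L.inf_mem hN hK, fun g g' s s' hs₁ hs₂ => ?_⟩
  show (g * s) • e (g' * s') = g • e g'
  rw [hs g' s' hs₂.1, mul_smul, ← hrep g', hfix _ (Finset.mem_univ _) s hs₁.2]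

theorem SmoothAct.lc_dM {L : Levels G} (hM : SmoothAct L M) {e : G → M} (he : LC₁ L e) :
    LC₂ L (dM e) :=
  ((hM.lc_smul he).map₂ he.mul (fun a b => a - b)).map₂ he.fst (fun a b => a + b)

section Cyclic

variable {p : ℕ} [hp : Fact p.Prime]

/-- The carry of two residues. -/
def carry (i j : ZMod p) : ℕ := (i.val + j.val) / p

theorem carry_zero_left (j : ZMod p) : carry 0 j = 0 := by
  simp [carry, Nat.div_eq_of_lt (ZMod.val_lt j)]

theorem carry_zero_right (i : ZMod p) : carry i 0 = 0 := by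
  simp [carry, Nat.div_eq_of_lt (ZMod.val_lt i)]

theorem carry_natCast {i j : ℕ} (hi : i < p) (hj : j < p) :
    carry (i : ZMod p) (j : ZMod p) = (i + j) / p := by
  simp [carry, ZMod.val_natCast_of_lt hi, ZMod.val_natCast_of_lt hj]

variable {L : Levels G} {χ : G → ZMod p}

/-- A continuous character of order `p` with a chosen element of value one. -/
structure CycData (L : Levels G) (χ : G → ZMod p) where
  hom : ∀ g h, χ (g * h) = χ g + χ h
  lc : LC₁ L χ
  /-- An element of value one. -/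
  σ : G
  map_σ : χ σ = 1

namespace CycData

variable (C : CycData L χ)
include C

theorem map_one : χ 1 = 0 := by
  have := C.hom 1 1
  rw [one_mul] at this
  linear_combination -this

theorem map_pow_σ (i : ℕ) : χ (C.σ ^ i) = i := by
  induction i with
  | zero => simp [C.map_one]
  | succ i ih => rw [pow_succ, C.hom, ih, C.map_σ, Nat.cast_succ]

theorem map_inv (g : G) : χ g⁻¹ = -χ g := by
  have := C.hom g g⁻¹
  rw [mul_inv_cancel, C.map_one] at this
  linear_combination -this

/-- The representative of a coset of the kernel. -/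
def rep (g : G) : G := C.σ ^ (χ g).val

theorem map_rep (g : G) : χ (C.rep g) = χ g := by
  rw [rep, C.map_pow_σ, ZMod.natCast_zmod_val]

theorem rep_congr {g g' : G} (h : χ g = χ g') : C.rep g = C.rep g' := by rw [rep, rep, h]

theorem rep_inv_mul (g : G) : χ ((C.rep g)⁻¹ * g) = 0 := by
  rw [C.hom, C.map_inv, C.map_rep, neg_add_cancel]

theorem carry_lc : LC₂ L (fun x : G × G => carry (χ x.1) (χ x.2)) :=
  C.lc.fst.map₂ C.lc.snd carry

end CycData

namespace CycData

variable (C : CycData L χ) (hM : SmoothAct L M)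
  (h90 : ∀ e : G → M, LC₁ L e → (∀ n m, χ n = 0 → χ m = 0 → e (n * m) = n • e m + e n) →
    ∃ w : M, ∀ n, χ n = 0 → e n = n • w - w)

include C hM h90 in
/-- A cocycle split on the kernel of a character is cohomologous to a carry cocycle. -/
theorem exists_carry {z : G × G → M} (hz : IsCocycle z) (hlc : LC₂ L z)
    {b : G → M} (hb : LC₁ L b) (hzb : ∀ n m, χ n = 0 → χ m = 0 → z (n, m) = dM b (n, m)) :
    ∃ (e : G → M) (a : M), LC₁ L e ∧ (∀ g : G, g • a = a) ∧
      ∀ g h, z (g, h) = dM e (g, h) + carry (χ g) (χ h) • a := by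
  classical
  -- first step
  let z1 := z - dM b
  have hz1 : IsCocycle z1 := hz.sub (isCocycle_dM b)
  have hl1 : LC₂ L z1 := hlc.map₂ (hM.lc_dM hb) (· - ·)
  have h1 : ∀ n m, χ n = 0 → χ m = 0 → z1 (n, m) = 0 := fun n m hn hm =>
    sub_eq_zero.2 (hzb n m hn hm)
  have hl : ∀ j, z1 (1, j) = 0 := fun j => by
    have e := hz1 1 1 j
    rw [one_smul, one_mul, one_mul, h1 1 1 C.map_one C.map_one, add_zero] at e
    exact add_right_cancel (e.trans (zero_add _).symm)
  have hr : ∀ g, z1 (g, 1) = 0 := fun g => by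
    have e := hz1 g 1 1
    rw [one_mul, mul_one, h1 1 1 C.map_one C.map_one, smul_zero, zero_add] at e
    exact add_left_cancel (e.symm.trans (add_zero _).symm)
  -- second step
  let b1 : G → M := fun g => -z1 (C.rep g, (C.rep g)⁻¹ * g)
  have hb1 : LC₁ L b1 := by
    obtain ⟨N, hN, hs⟩ := hl1
    obtain ⟨N', hN', hs'⟩ := C.lc
    refine ⟨N ⊓ N', L.inf_mem hN hN', fun g s hs'' => ?_⟩
    have hrep : C.rep (g * s) = C.rep g := by simp only [CycData.rep, hs' g s hs''.2]
    simp only [b1, hrep, ← mul_assoc]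
    have := hs (C.rep g) ((C.rep g)⁻¹ * g) 1 s (one_mem _) hs''.1
    rw [mul_one] at this
    rw [this]
  have hb1n : ∀ n, χ n = 0 → b1 n = 0 := fun n hn => by
    simp [b1, CycData.rep, hn, hl]
  let z2 := z1 - dM b1
  have hz2 : IsCocycle z2 := hz1.sub (isCocycle_dM b1)
  have hl2 : LC₂ L z2 := hl1.map₂ (hM.lc_dM hb1) (· - ·)
  have h2 : ∀ n m, χ n = 0 → χ m = 0 → z2 (n, m) = 0 := fun n m hn hm => by
    have hnm : χ (n * m) = 0 := by rw [C.hom, hn, hm, add_zero]
    simp [z2, dM_apply, h1 n m hn hm, hb1n n hn, hb1n m hm, hb1n _ hnm]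
  have h2r : ∀ g n, χ n = 0 → z2 (C.rep g, n) = 0 := fun g n hn => by
    have hrep : C.rep (C.rep g * n) = C.rep g :=
      C.rep_congr (by rw [C.hom, hn, add_zero, C.map_rep])
    have hrep' : C.rep (C.rep g) = C.rep g := C.rep_congr (C.map_rep g)
    simp [z2, dM_apply, hb1n n hn, b1, hrep, hrep', hr]
  have h2g : ∀ g m, χ m = 0 → z2 (g, m) = 0 := fun g m hm => by
    have hn := C.rep_inv_mul g
    have hnm : χ ((C.rep g)⁻¹ * g * m) = 0 := by rw [C.hom, hn, hm, add_zero]
    have e := hz2 (C.rep g) ((C.rep g)⁻¹ * g) m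
    rw [h2 _ _ hn hm, smul_zero, h2r g _ hnm, h2r g _ hn, mul_inv_cancel_left] at e
    simpa using e.symm
  have h2c : ∀ n h m, χ n = 0 → χ m = 0 → z2 (n, h * m) = z2 (n, h) := fun n h m hn hm => by
    have e := hz2 n h m
    rw [h2g h m hm, h2g (n * h) m hm, smul_zero, zero_add, zero_add] at e
    exact e
  have h2f : ∀ h n m, χ n = 0 → χ m = 0 → z2 (n * m, h) = n • z2 (m, h) + z2 (n, h) :=
    fun h n m hn hm => by
    have hc : χ (h⁻¹ * m * h) = 0 := by rw [C.hom, C.hom, C.map_inv, hm]; ring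
    have e := hz2 n m h
    rw [show m * h = h * (h⁻¹ * m * h) by group, h2c n h _ hn hc, h2 n m hn hm, add_zero] at e
    exact e.symm
  -- third step
  have hw : ∀ i : ZMod p, ∃ w : M, (i = 0 → w = 0) ∧
      ∀ n, χ n = 0 → z2 (n, C.σ ^ i.val) = n • w - w := fun i => by
    by_cases hi : i = 0
    · subst hi
      exact ⟨0, fun _ => rfl, fun n hn => by simp [h2 n 1 hn C.map_one]⟩
    · have he : LC₁ L (fun n => z2 (n, C.σ ^ i.val)) := by
        obtain ⟨N, hN, hs⟩ := hl2
        exact ⟨N, hN, fun g s hs' => by simpa using hs g (C.σ ^ i.val) s 1 hs' (one_mem _)⟩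
      obtain ⟨w, hw⟩ := h90 _ he fun n m hn hm => h2f _ n m hn hm
      exact ⟨w, fun h => absurd h hi, hw⟩
  choose w hw0 hw using hw
  let b2 : G → M := fun g => w (χ g)
  have hb2 : LC₁ L b2 := C.lc.comp w
  let z3 := z2 - dM b2
  have hz3 : IsCocycle z3 := hz2.sub (isCocycle_dM b2)
  have h3r : ∀ g m, χ m = 0 → z3 (g, m) = 0 := fun g m hm => by
    simp [z3, dM_apply, b2, h2g g m hm, C.hom, hm, hw0 0 rfl]
  have h3l : ∀ n h, χ n = 0 → z3 (n, h) = 0 := fun n h hn => by
    have : z2 (n, h) = z2 (n, C.rep h) := by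
      conv_lhs => rw [← mul_inv_cancel_left (C.rep h) h]
      exact h2c n _ _ hn (C.rep_inv_mul h)
    simp [z3, dM_apply, b2, this, C.hom, hn, hw0 0 rfl, CycData.rep, hw (χ h) n hn]
  have h3c : ∀ g h m, χ m = 0 → z3 (g, h * m) = z3 (g, h) := fun g h m hm => by
    have e := hz3 g h m
    rw [h3r h m hm, h3r (g * h) m hm, smul_zero, zero_add, zero_add] at e
    exact e
  have h3d : ∀ g n h, χ n = 0 → z3 (g * n, h) = z3 (g, h) := fun g n h hn => by
    have hc : χ (h⁻¹ * n * h) = 0 := by rw [C.hom, C.hom, C.map_inv, hn]; ring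
    have e := hz3 g n h
    rw [h3l n h hn, h3r g n hn, smul_zero, zero_add, add_zero,
      show n * h = h * (h⁻¹ * n * h) by group, h3c g h _ hc] at e
    exact e.symm
  let Z : ZMod p → ZMod p → M := fun i j => z3 (C.σ ^ i.val, C.σ ^ j.val)
  have hZ : ∀ g h, z3 (g, h) = Z (χ g) (χ h) := fun g h => by
    conv_lhs => rw [← mul_inv_cancel_left (C.rep g) g, ← mul_inv_cancel_left (C.rep h) h]
    rw [h3d _ _ _ (C.rep_inv_mul g), h3c _ _ _ (C.rep_inv_mul h)]
    rfl
  have hfix : ∀ n g h, χ n = 0 → n • z3 (g, h) = z3 (g, h) := fun n g h hn => by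
    have e := hz3 n g h
    have : z3 (n * g, h) = z3 (g, h) := by
      rw [show n * g = g * (g⁻¹ * n * g) by group]
      exact h3d _ _ _ (by rw [C.hom, C.hom, C.map_inv, hn]; ring)
    rw [h3l n _ hn, h3l n _ hn, this, add_zero, add_zero] at e
    exact e
  -- fourth step
  let β : ZMod p → M := fun i => -∑ j ∈ Finset.range i.val, Z (j : ZMod p) 1
  let b3 : G → M := fun g => β (χ g)
  have hb3 : LC₁ L b3 := C.lc.comp β
  let z4 := z3 - dM b3
  have hz4 : IsCocycle z4 := hz3.sub (isCocycle_dM b3)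
  have hval1 : (1 : ZMod p).val = 1 := ZMod.val_one p
  have hβ1 : β 1 = 0 := by simp [β, hval1, Z, h3l 1 _ C.map_one]
  have hβ0 : β 0 = 0 := by simp [β]
  have hstep : ∀ g, (χ g).val + 1 < p → z4 (g, C.σ) = 0 := fun g hlt => by
    have hv : (χ g + 1).val = (χ g).val + 1 := by rw [ZMod.val_add_of_lt] <;> simp [hval1, hlt]
    have hb : β (χ g + 1) = β (χ g) - Z (χ g) 1 := by
      simp only [β, hv, Finset.sum_range_succ, ZMod.natCast_zmod_val]
      abel
    simp [z4, dM_apply, b3, C.hom, C.map_σ, hβ1, hb, hZ g C.σ]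
  have h4r : ∀ g m, χ m = 0 → z4 (g, m) = 0 := fun g m hm => by
    simp [z4, dM_apply, b3, h3r g m hm, C.hom, hm, hβ0]
  have h4l : ∀ n h, χ n = 0 → z4 (n, h) = 0 := fun n h hn => by
    have hnβ : n • β (χ h) = β (χ h) := by
      simp only [β, smul_neg, Finset.smul_sum]
      exact congrArg _ (Finset.sum_congr rfl fun j _ => hfix n _ _ hn)
    simp [z4, dM_apply, b3, h3l n h hn, C.hom, hn, hβ0, hnβ]
  have hp1 := hp.out.one_lt
  set a := z4 (C.σ ^ (p - 1), C.σ) with ha
  have hdep : ∀ g g' h h', χ g = χ g' → χ h = χ h' → z4 (g, h) = z4 (g', h') := by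
    intro g g' h h' hg hh
    have key : ∀ g g' h, χ g = χ g' → z4 (g, h) = z4 (g', h) := by
      intro g g' h hg
      have hn : χ (g'⁻¹ * g) = 0 := by rw [C.hom, C.map_inv, hg, neg_add_cancel]
      have hc : χ (h⁻¹ * (g'⁻¹ * g) * h) = 0 := by rw [C.hom, C.hom, C.map_inv, hn]; ring
      have e := hz4 g' (g'⁻¹ * g) h
      rw [h4l _ h hn, h4r g' _ hn, smul_zero, zero_add, add_zero, mul_inv_cancel_left] at e
      rw [← e, show g'⁻¹ * g * h = h * (h⁻¹ * (g'⁻¹ * g) * h) by group]
      have e' := hz4 g' h (h⁻¹ * (g'⁻¹ * g) * h)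
      rw [h4r h _ hc, h4r (g' * h) _ hc, smul_zero, zero_add, zero_add] at e'
      exact e'
    rw [key g g' h hg]
    have hn : χ (h'⁻¹ * h) = 0 := by rw [C.hom, C.map_inv, hh, neg_add_cancel]
    have e' := hz4 g' h' (h'⁻¹ * h)
    rw [h4r h' _ hn, h4r (g' * h') _ hn, smul_zero, zero_add, zero_add, mul_inv_cancel_left] at e'
    exact e'
  have hone : ∀ g, z4 (g, C.σ) = carry (χ g) (1 : ZMod p) • a := fun g => by
    have hlt := ZMod.val_lt (χ g)
    by_cases h : (χ g).val + 1 < p
    · rw [hstep g h, carry, hval1, Nat.div_eq_of_lt h, zero_smul]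
    · have hg : (χ g).val = p - 1 := by omega
      rw [carry, hval1, show (χ g).val + 1 = p by omega, Nat.div_self hp.out.pos, one_smul]
      refine hdep g _ _ _ ?_ rfl
      rw [C.map_pow_σ, ← hg, ZMod.natCast_zmod_val]
  have hall : ∀ j : ℕ, j < p → ∀ g, z4 (g, C.σ ^ j) = carry (χ g) (j : ZMod p) • a := by
    intro j
    induction j with
    | zero => intro _ g; simp [h4r g 1 C.map_one, carry_zero_right]
    | succ j ih =>
      intro hj g
      have h0 : z4 (C.σ ^ j, C.σ) = 0 := hstep _ (by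
        rw [C.map_pow_σ, ZMod.val_natCast_of_lt (by omega)]; omega)
      have e := hz4 g (C.σ ^ j) C.σ
      rw [h0, smul_zero, zero_add, ← pow_succ, hone, ih (by omega), C.hom, C.map_pow_σ,
        ← add_smul] at e
      rw [e]
      congr 1
      simp only [carry, hval1, ZMod.val_natCast_of_lt hj, ZMod.val_natCast_of_lt (show j < p by omega)]
      have hv := ZMod.val_add (χ g) (j : ZMod p)
      rw [ZMod.val_natCast_of_lt (show j < p by omega)] at hv
      have hlt := ZMod.val_lt (χ g)
      rcases lt_or_ge ((χ g).val + j) p with h | h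
      · rw [hv, Nat.mod_eq_of_lt h, Nat.div_eq_of_lt h, add_zero, add_assoc]
      · rw [hv, show ((χ g).val + j) / p = 1 from Nat.div_eq_of_lt_le (by omega) (by omega),
          Nat.mod_eq_sub_mod h, Nat.mod_eq_of_lt (by omega),
          show ((χ g).val + (j + 1)) / p = 1 from Nat.div_eq_of_lt_le (by omega) (by omega),
          Nat.div_eq_of_lt (by omega)]
  have hz4all : ∀ g h, z4 (g, h) = carry (χ g) (χ h) • a := fun g h => by
    rw [hdep g g h (C.rep h) rfl (C.map_rep h).symm]
    have := hall _ (ZMod.val_lt (χ h)) g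
    rwa [ZMod.natCast_zmod_val] at this
  have hafix : ∀ g : G, g • a = a := by
    have hN : ∀ n, χ n = 0 → n • a = a := fun n hn => by
      have e := hz4 n (C.σ ^ (p - 1)) C.σ
      have hd : z4 (n * C.σ ^ (p - 1), C.σ) = a :=
        hdep _ _ _ _ (by rw [C.hom, hn, zero_add]) rfl
      rw [h4l n _ hn, h4l n _ hn, hd, add_zero, add_zero] at e
      exact e
    have hσ : C.σ • a = a := by
      have hp' : χ (C.σ ^ (p - 1) * C.σ) = 0 := by
        rw [← pow_succ, C.map_pow_σ, show p - 1 + 1 = p by omega, ZMod.natCast_self]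
      have e := hz4 C.σ (C.σ ^ (p - 1)) C.σ
      have hd : z4 (C.σ * C.σ ^ (p - 1), C.σ) = 0 :=
        h4l _ _ (by rw [← pow_succ', C.map_pow_σ, show p - 1 + 1 = p by omega, ZMod.natCast_self])
      rw [h4r C.σ _ hp', hd, zero_add, add_zero,
        hall (p - 1) (by omega) C.σ, C.map_σ, carry, hval1, ZMod.val_natCast_of_lt (by omega),
        show 1 + (p - 1) = p by omega, Nat.div_self hp.out.pos, one_smul] at e
      exact e
    intro g
    have hσi : ∀ i : ℕ, C.σ ^ i • a = a := fun i => by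
      induction i with
      | zero => simp
      | succ i ih => rw [pow_succ, mul_smul, hσ, ih]
    rw [← mul_inv_cancel_left (C.rep g) g, mul_smul, hN _ (C.rep_inv_mul g)]
    exact hσi _
  refine ⟨b + b1 + b2 + b3, a, ((hb.map₂ hb1 (· + ·)).map₂ hb2 (· + ·)).map₂ hb3 (· + ·),
    hafix, fun g h => ?_⟩
  rw [← hz4all, dM_add, dM_add, dM_add]
  simp only [z4, z3, z2, z1, Pi.add_apply, Pi.sub_apply]
  abel

include C h90 in
/-- A split carry cocycle comes from a norm. -/
theorem norm_of_carry_split {a : M} {e : G → M} (he : LC₁ L e)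
    (h : ∀ g k, dM e (g, k) = carry (χ g) (χ k) • a) :
    ∃ x : M, (∀ n, χ n = 0 → n • x = x) ∧ a = ∑ i ∈ Finset.range p, C.σ ^ i • x := by
  obtain ⟨w, hw⟩ := h90 e he fun n m hn hm => by
    have := h n m
    rw [hn, hm, carry_zero_left, zero_smul, dM_apply] at this
    linear_combination (norm := abel) -this
  let e' : G → M := fun g => e g - (g • w - w)
  have h' : ∀ g k, dM e' (g, k) = carry (χ g) (χ k) • a := fun g k => by
    rw [← h g k]
    simp only [dM_apply, e', smul_sub, mul_smul]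
    abel
  have hn0 : ∀ n, χ n = 0 → e' n = 0 := fun n hn => by simp [e', hw n hn]
  have hr : ∀ g n, χ n = 0 → e' (g * n) = e' g := fun g n hn => by
    have := h' g n
    rw [hn, carry_zero_right, zero_smul, dM_apply, hn0 n hn, smul_zero, zero_sub,
      neg_add_eq_zero] at this
    exact this
  refine ⟨e' C.σ, fun n hn => ?_, ?_⟩
  · have := h' n C.σ
    rw [hn, carry_zero_left, zero_smul, dM_apply, hn0 n hn, add_zero, sub_eq_zero] at this
    rw [this, show n * C.σ = C.σ * (C.σ⁻¹ * n * C.σ) by group]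
    exact hr _ _ (by rw [C.hom, C.hom, C.map_inv, hn]; ring)
  · have hp1 := hp.out.one_lt
    have key : ∀ i : ℕ, C.σ ^ i • e' C.σ
        = (e' (C.σ ^ (i + 1)) - e' (C.σ ^ i)) + carry ((i : ℕ) : ZMod p) (1 : ZMod p) • a :=
      fun i => by
      rw [← C.map_pow_σ i]
      nth_rw 1 [← C.map_σ]
      rw [← h', dM_apply, pow_succ]
      abel
    rw [Finset.sum_congr rfl fun i _ => key i, Finset.sum_add_distrib, Finset.sum_range_sub
      (fun i => e' (C.σ ^ i)), pow_zero, hn0 _ (by rw [C.map_pow_σ, ZMod.natCast_self]),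
      hn0 1 C.map_one, sub_zero, zero_add, Finset.sum_eq_single (p - 1)]
    · rw [carry, ZMod.val_one p, ZMod.val_natCast_of_lt (by omega), show p - 1 + 1 = p by omega,
        Nat.div_self hp.out.pos, one_smul]
    · intro i hi hne
      rw [Finset.mem_range] at hi
      rw [carry, ZMod.val_one p, ZMod.val_natCast_of_lt hi, Nat.div_eq_of_lt (by omega), zero_smul]
    · intro h; exact absurd (Finset.mem_range.2 (by omega)) h

include C in
/-- The carry cocycle of a norm splits. -/
theorem carry_split_of_norm {x : M} (hx : ∀ n, χ n = 0 → n • x = x) :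
    ∃ e : G → M, LC₁ L e ∧ e C.σ = x ∧ (∀ n, χ n = 0 → e n = 0) ∧ ∀ g k,
      dM e (g, k) = carry (χ g) (χ k) • ∑ i ∈ Finset.range p, C.σ ^ i • x := by
  let E : ℕ → M := fun i => ∑ j ∈ Finset.range i, C.σ ^ j • x
  refine ⟨fun g => E (χ g).val, C.lc.comp fun i => E i.val, by simp [E, C.map_σ, ZMod.val_one p],
    fun n hn => by simp [E, hn], fun g k => ?_⟩
  have hdep : ∀ g g', χ g = χ g' → g • x = g' • x := fun g g' hgg => by
    have : (g'⁻¹ * g) • x = x := hx _ (by rw [C.hom, C.map_inv, hgg, neg_add_cancel])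
    conv_lhs => rw [← mul_inv_cancel_left g' g, mul_smul, this]
  have hshift : g • E (χ k).val = E ((χ g).val + (χ k).val) - E (χ g).val := by
    simp only [E, Finset.sum_range_add, add_sub_cancel_left, Finset.smul_sum, ← mul_smul]
    refine Finset.sum_congr rfl fun j _ => hdep _ _ ?_
    rw [C.hom, C.map_pow_σ, C.map_pow_σ, Nat.cast_add, ZMod.natCast_zmod_val]
  rw [dM_apply, C.hom, hshift]
  have hlt := ZMod.val_lt (χ g)
  have hlt' := ZMod.val_lt (χ k)
  rcases lt_or_ge ((χ g).val + (χ k).val) p with h | h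
  · rw [ZMod.val_add_of_lt h, carry, Nat.div_eq_of_lt h, zero_smul]
    abel
  · rw [carry, show ((χ g).val + (χ k).val) / p = 1 from
      Nat.div_eq_of_lt_le (by omega) (by omega), one_smul]
    have hv : (χ g).val + (χ k).val = p + (χ g + χ k).val := by
      rw [ZMod.val_add, Nat.mod_eq_sub_mod h, Nat.mod_eq_of_lt (by omega)]; omega
    rw [hv]
    have : E (p + (χ g + χ k).val) = E p + E (χ g + χ k).val := by
      simp only [E, Finset.sum_range_add]
      refine congrArg (_ + ·) (Finset.sum_congr rfl fun j _ => hdep _ _ ?_)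
      rw [C.map_pow_σ, C.map_pow_σ, Nat.cast_add, ZMod.natCast_self, zero_add]
    rw [this]
    simp only [E]
    abel

end CycData

end Cyclic

end FA.GalCoh
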