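import Fermat.Agent.GalCoh.PermUnits

/-!
The global Euler characteristic formula for odd `p` at a large set of primes.
-/

set_option autoImplicit false
set_option linter.unusedSectionVars false

noncomputable section

namespace FA.GalCoh

open Representation EulerAlg UnitsModP FixSwap

variable {p : ℕ} [hp : Fact p.Prime]

theorem finrank_invariants_congr {G : Type} [Group G] {A : Type} [AddCommGroup A] [Module (ZMod p) A]
    {B : Type} [AddCommGroup B] [Module (ZMod p) B] {ρ : Representation (ZMod p) G A}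
    {σ : Representation (ZMod p) G B} (e : A ≃ₗ[ZMod p] B) (he : ∀ g a, e (ρ g a) = σ g (e a)) :
    Module.finrank (ZMod p) ↥ρ.invariants = Module.finrank (ZMod p) ↥σ.invariants :=
  LinearEquiv.finrank_eq
    { toFun := fun a => ⟨e a.1, fun g => by rw [← he, a.2 g]⟩
      invFun := fun b => ⟨e.symm b.1, fun g => e.injective (by
        rw [he, e.apply_symm_apply, b.2 g])⟩
      left_inv := fun a => Subtype.ext (e.symm_apply_apply a.1)
      right_inv := fun b => Subtype.ext (e.apply_symm_apply b.1)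
      map_add' := fun a b => Subtype.ext (map_add e a.1 b.1)
      map_smul' := fun c a => Subtype.ext (map_smul e c a.1) }

theorem invariants_comp_range {G G' : Type} [Group G] [Group G'] {A : Type} [AddCommGroup A]
    [Module (ZMod p) A] (ρ : Representation (ZMod p) G A) (f : G' →* G) :
    Representation.invariants (ρ.comp f) = Representation.invariants (ρ.comp f.range.subtype) := by
  ext a
  refine ⟨fun h x => ?_, fun h g => h ⟨f g, ⟨g, rfl⟩⟩⟩
  obtain ⟨g, hg⟩ := x.2
  rw [MonoidHom.comp_apply, Subgroup.coe_subtype, ← hg]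
  exact h g

theorem invariants_comp_of_surjective {G G' : Type} [Group G] [Group G'] {A : Type}
    [AddCommGroup A] [Module (ZMod p) A] (ρ : Representation (ZMod p) G A) (f : G' →* G)
    (hf : Function.Surjective f) :
    Representation.invariants (ρ.comp f) = ρ.invariants := by
  ext a
  exact ⟨fun h x => by obtain ⟨g, rfl⟩ := hf x; exact h g, fun h g => h (f g)⟩

namespace Trans

variable {X : Type} [Fintype X] [MulAction GQ X] (T : Trans LQ X) [hn : T.H.Normal]
variable (hμ : ∀ s ∈ T.H, ExtCitation.cycloChar p s = 1) {S : Finset Nat.Primes}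

variable (S) in
/-- The Euler characteristic at `S` with the term at infinity. -/
def eulerFn : RepFn (ZMod p) (GQ ⧸ T.H) := fun V _ _ ρ =>
  eulerS S (T.infl ρ)
    + Module.finrank (ZMod p) (LinearMap.ker (ρ ((complexConjugation : GQ) : GQ ⧸ T.H) + 1))

theorem cc_mul_cc :
    ((complexConjugation : GQ) : GQ ⧸ T.H) * ((complexConjugation : GQ) : GQ ⧸ T.H) = 1 := by
  rw [← QuotientGroup.mk_mul, complexConjugation_mul_self, QuotientGroup.mk_one]

theorem two_ne_zero_zmod (hp2 : p ≠ 2) : (2 : ZMod p) ≠ 0 := fun h =>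
  hp2 ((Nat.prime_dvd_prime_iff_eq hp.out Nat.prime_two).1
    ((ZMod.natCast_eq_zero_iff 2 p).1 (by exact_mod_cast h)))

include hμ in
theorem isAdditive_eulerFn (hp2 : p ≠ 2) (hS : T.BigS p S) :
    IsAdditive (T.eulerFn (p := p) S) := by
  intro A B C _ _ _ _ _ _ _ ρA ρB ρC E
  have : FiniteDimensional (ZMod p) A := FiniteDimensional.of_injective E.i E.inj
  have : FiniteDimensional (ZMod p) C := Module.Finite.of_surjective E.q E.surj
  have h1 := T.eulerS_add hμ (E.res (QuotientGroup.mk' T.H)) hp2 (T.smooth_infl ρB)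
    (fun s hs => T.infl_eq_one ρB hs) hS
  set c : GQ ⧸ T.H := ((complexConjugation : GQ) : GQ ⧸ T.H)
  let f : LinearMap.ker (ρA c + 1) →ₗ[ZMod p] LinearMap.ker (ρB c + 1) :=
    (E.i.domRestrict _).codRestrict _ fun a => by
      rw [LinearMap.mem_ker, LinearMap.domRestrict_apply, LinearMap.add_apply, Module.End.one_apply,
        ← E.i_equi, ← map_add, show ρA c a.1 + a.1 = 0 from LinearMap.mem_ker.1 a.2, map_zero]
  let g : LinearMap.ker (ρB c + 1) →ₗ[ZMod p] LinearMap.ker (ρC c + 1) :=
    (E.q.domRestrict _).codRestrict _ fun a => by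
      rw [LinearMap.mem_ker, LinearMap.domRestrict_apply, LinearMap.add_apply, Module.End.one_apply,
        ← E.q_equi, ← map_add, show ρB c a.1 + a.1 = 0 from LinearMap.mem_ker.1 a.2, map_zero]
  have hf : Function.Injective f := fun a b h => Subtype.ext (E.inj (congrArg Subtype.val h))
  have hex : ∀ b, g b = 0 ↔ ∃ a, f a = b := fun b => by
    refine ⟨fun h => ?_, ?_⟩
    · obtain ⟨a, ha⟩ := E.exists_of_q_eq_zero (congrArg Subtype.val h)
      refine ⟨⟨a, LinearMap.mem_ker.2 (E.inj ?_)⟩, Subtype.ext ha⟩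
      rw [LinearMap.add_apply, Module.End.one_apply, map_add, E.i_equi, ha, map_zero]
      exact LinearMap.mem_ker.1 b.2
    · rintro ⟨a, rfl⟩
      exact Subtype.ext (E.q_i a.1)
  have hsurj : Function.Surjective g := fun x => by
    have hx : ρC c x.1 = -x.1 := eq_neg_of_add_eq_zero_left (LinearMap.mem_ker.1 x.2)
    obtain ⟨b, hb⟩ := E.surj x.1
    refine ⟨⟨(2 : ZMod p)⁻¹ • (b - ρB c b), LinearMap.mem_ker.2 ?_⟩, Subtype.ext ?_⟩
    · rw [LinearMap.add_apply, Module.End.one_apply, map_smul, map_sub,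
        ← Module.End.mul_apply (ρB c), ← map_mul, T.cc_mul_cc, map_one, Module.End.one_apply,
        ← smul_add, sub_add_sub_cancel, sub_self, smul_zero]
    · show E.q ((2 : ZMod p)⁻¹ • (b - ρB c b)) = x.1
      rw [map_smul, map_sub, E.q_equi, hb, hx, sub_neg_eq_add, ← two_smul (ZMod p), smul_smul,
        inv_mul_cancel₀ (two_ne_zero_zmod hp2), one_smul]
  have h2 := finrank_of_exact f g hex
  rw [LinearMap.finrank_range_of_inj hf, LinearMap.range_eq_top.2 hsurj, finrank_top] at h2
  simp only [eulerFn]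
  rw [h1, h2]
  push_cast
  ring

/-! ### The value on permutation modules -/

section Perm

variable {V : Type} [AddCommGroup V] [Module (ZMod p) V] [FiniteDimensional (ZMod p) V]
variable (ρ : Representation (ZMod p) (GQ ⧸ T.H) V) (C : Subgroup (GQ ⧸ T.H))

/-- The twisted dual on the quotient. -/
abbrev sigmaG : Representation (ZMod p) (GQ ⧸ T.H) (Module.Dual (ZMod p) V) :=
  ρ.dual.twist (T.chiQ hμ)

variable [Fintype ((GQ ⧸ T.H) ⧸ C)]

/-- The pair of permutation modules with values in a representation and its twisted dual. -/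
def permTensorPair : DPair LQ (cycQ p).χ (T.infl (permTensor ((GQ ⧸ T.H) ⧸ C) ρ))
    (T.infl (permTensor ((GQ ⧸ T.H) ⧸ C) (T.sigmaG hμ ρ))) where
  β := LinearMap.mk₂ (ZMod p) (fun F G => ∑ z, G z (F z))
    (fun F F' G => by simp [Finset.sum_add_distrib])
    (fun a F G => by simp [Finset.mul_sum])
    (fun F G G' => by simp [Finset.sum_add_distrib])
    (fun a F G => by simp [Finset.mul_sum])
  bil g F G := by
    simp only [LinearMap.mk₂_apply, MonoidHom.comp_apply, permTensor_apply, QuotientGroup.mk'_apply,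
      chr_apply, Representation.twist_apply_apply, Representation.dual_apply,
      Module.Dual.transpose_apply, LinearMap.smul_apply, LinearMap.comp_apply, T.chiQ_mk,
      Representation.inv_self_apply, smul_eq_mul, Finset.mul_sum]
    exact Fintype.sum_equiv (MulAction.toPerm ((g : GQ ⧸ T.H)⁻¹)) _ _ fun z => rfl
  inj_left := by
    classical
    refine (injective_iff_map_eq_zero _).2 fun F hF => funext fun z => ?_
    refine (Module.forall_dual_apply_eq_zero_iff (ZMod p) (F z)).1 fun φ => ?_
    have h := LinearMap.congr_fun hF (Pi.single z φ)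
    rw [LinearMap.mk₂_apply, LinearMap.zero_apply, Finset.sum_eq_single z
      (fun y _ hy => by simp [Pi.single_eq_of_ne hy]) (fun h => absurd (Finset.mem_univ _) h),
      Pi.single_eq_same] at h
    exact h
  inj_right := by
    classical
    refine (injective_iff_map_eq_zero _).2 fun G hG => funext fun z => LinearMap.ext fun v => ?_
    have h := LinearMap.congr_fun hG (Pi.single z v)
    rw [LinearMap.flip_apply, LinearMap.mk₂_apply, LinearMap.zero_apply, Finset.sum_eq_single z
      (fun y _ hy => by simp [Pi.single_eq_of_ne hy]) (fun h => absurd (Finset.mem_univ _) h),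
      Pi.single_eq_same] at h
    exact h
  fin_left := inferInstance
  fin_right := inferInstance
  smooth_left := T.smooth_infl _
  smooth_right := T.smooth_infl _

variable [Fintype C]

theorem shaOne_perm (hC : ¬ p ∣ Nat.card C) :
    shaOne (T.infl (permTensor ((GQ ⧸ T.H) ⧸ C) ρ)) = ⊥ := by
  classical
  refine (Submodule.eq_bot_iff _).2 fun m hm => ?_
  let b := Module.finBasis (ZMod p) V
  have hz : ∀ i, T.coClass C ρ m (b.coord i) = 0 := fun i =>
    T.eq_zero_of_resq1 ∅ fun q _ => by
      rw [coClass_apply, resq1_map, mem_shaOne.1 hm q, map_zero]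
  obtain ⟨f, rfl⟩ := mk1_surjective m
  have hu : (Nat.card C : ZMod p)⁻¹ * (Nat.card C : ZMod p) = 1 :=
    inv_mul_cancel₀ fun h => hC ((ZMod.natCast_eq_zero_iff _ _).1 h)
  have key : mk1 LQ (T.infl (permTensor ((GQ ⧸ T.H) ⧸ C) ρ)) f = ∑ i, map1 Compat.id (T.equi_embC C ρ (b i))
      (T.coClass C ρ (mk1 LQ (T.infl (permTensor ((GQ ⧸ T.H) ⧸ C) ρ)) f) (b.coord i)) := by
    simp only [coClass_apply, map1_mk1, ← map_sum]
    refine congrArg (mk1 LQ (T.infl (permTensor ((GQ ⧸ T.H) ⧸ C) ρ)))
      (Subtype.ext (funext fun g => funext fun z => ?_))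
    obtain ⟨γ, rfl⟩ := QuotientGroup.mk_surjective z
    rw [AddSubmonoidClass.coe_finsetSum, Finset.sum_apply, Finset.sum_apply]
    show _ = ∑ i, T.projC C ρ (fun x => T.coC C ρ (b.coord i) (f.1 g) x • b i) _
    simp only [T.projC_mk, ← Finset.smul_sum]
    rw [Finset.sum_comm]
    have : ∀ c : C, ∑ i, ρ (γ * c.1) (T.coC C ρ (b.coord i) (f.1 g) (T.toX (γ * c.1)) • b i)
        = f.1 g (γ : (GQ ⧸ T.H) ⧸ C) := fun c => by
      rw [← map_sum]
      simp only [coC_apply, T.tq_toX, Module.Basis.coord_apply]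
      rw [b.sum_repr, Representation.self_inv_apply]
      exact congrArg (f.1 g) (QuotientGroup.eq.2 (by simp))
    rw [Finset.sum_congr rfl fun c _ => this c, Finset.sum_const, Finset.card_univ,
      ← Nat.cast_smul_eq_nsmul (ZMod p), smul_smul, ← Nat.card_eq_fintype_card, hu, one_smul]
  rw [key]
  exact Finset.sum_eq_zero fun i _ => by rw [hz i, map_zero]

theorem finrank_dec_invariants (i : Option {q // q ∈ S}) :
    Module.finrank (ZMod p) ↥(permTensor ((GQ ⧸ T.H) ⧸ T.decQ S i) (ρ.comp C.subtype)).invariants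
      = Module.finrank (ZMod p) ↥(Representation.invariants
          ((permTensor ((GQ ⧸ T.H) ⧸ C) ρ).comp (T.decQ S i).subtype)) := by
  refine Eq.trans ?_ (finrank_coFix_comm ρ C (T.decQ S i)).symm
  rfl

theorem invariants_dec_some (q : {q // q ∈ S}) {W : Type} [AddCommGroup W] [Module (ZMod p) W]
    (τ : Representation (ZMod p) (GQ ⧸ T.H) W) :
    Representation.invariants (τ.comp (T.decQ S (some q)).subtype)
      = Representation.invariants ((T.infl τ).comp (loc (q.1 : ℕ))) := by
  ext w
  constructor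
  · exact fun h t => h ⟨_, ⟨loc (q.1 : ℕ) t, ⟨t, rfl⟩, rfl⟩⟩
  · rintro h ⟨_, _, ⟨t, rfl⟩, rfl⟩
    exact h t

theorem invariants_dec_none {W : Type} [AddCommGroup W] [Module (ZMod p) W]
    [FiniteDimensional (ZMod p) W] (τ : Representation (ZMod p) (GQ ⧸ T.H) W) :
    Representation.invariants (τ.comp (T.decQ S none).subtype)
      = LinearMap.ker (τ ((complexConjugation : GQ) : GQ ⧸ T.H) - 1) := by
  rw [← invariants_zpowers]
  ext w
  constructor
  · rintro h ⟨x, n, rfl⟩
    exact h ⟨_, ⟨complexConjugation ^ n, ⟨n, rfl⟩, by rw [map_zpow]; rfl⟩⟩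
  · rintro h ⟨_, _, ⟨n, rfl⟩, rfl⟩
    exact h ⟨_, n, by rw [map_zpow]; rfl⟩

set_option maxHeartbeats 1600000 in
-- the instances on local groups are slow to find
include hμ in
/-- The Euler characteristic vanishes on permutation modules of subgroups of order prime to `p`. -/
theorem eulerFn_perm (hp2 : p ≠ 2) (hS : T.BigS p S) (hC : ¬ p ∣ Nat.card C) :
    T.eulerFn (p := p) S ((GQ ⧸ T.H) ⧸ C → V) (permTensor ((GQ ⧸ T.H) ⧸ C) ρ) = 0 := by
  classical
  have := T.finite_quot
  have hMone : ∀ s ∈ T.H, T.infl (permTensor ((GQ ⧸ T.H) ⧸ C) ρ) s = 1 := fun s hs => T.infl_eq_one (permTensor ((GQ ⧸ T.H) ⧸ C) ρ) hs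
  let P := T.permTensorPair hμ ρ C
  obtain ⟨-, -, hsha⟩ := T.finrank_shaTwo P hp2 hμ hMone
  rw [T.shaOne_perm (T.sigmaG hμ ρ) C hC, finrank_bot] at hsha
  obtain ⟨-, h2⟩ := T.finrank_h2S hμ P hp2 hMone hS
  rw [hsha, zero_add] at h2
  -- the units
  letI := T.unitsAction S C
  have := finite_tUnits T.mem_LQ (placesOver T.mem_LQ S)
  have : Finite (unrOutside S (T.perm p)) :=
    T.finite_unrOutside hμ (tc_of_cyclo hp2 hμ) hS.ad.pmem hS.ad.good hS.ad.adapted hS.ad.unr
  have : FiniteDimensional (ZMod p) (unrOutside S (T.perm p)) := Module.Finite.of_finite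
  let _ : Fintype (T.PlacesS S) := Fintype.ofFinite _
  have hunits := finrank_eqHom_eq (X := T.PlacesS S) hC
    (fun C₁ _ => T.finrank_fixed_units S C₁) (T.repA hμ S C) (T.unitsClass hμ hS)
    (T.modelQ_units hμ (C := C) hS) (chr ((T.chiQ hμ).comp C.subtype)) (T.rootsUnit (S := S) hμ)
    (T.modelT_units (S := S) hμ C) (T.sigmaC hμ C ρ)
  rw [← T.finrank_unrOutside_perm hμ S C ρ hC, finrank_eqHom_one hC,
    finrank_eqHom_perm hC] at hunits
  -- the terms
  have hroots : Module.finrank (ZMod p)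
      (eqHom (T.sigmaC hμ C ρ) (chr ((T.chiQ hμ).comp C.subtype)))
        = Module.finrank (ZMod p) ↥(T.infl (permTensor ((GQ ⧸ T.H) ⧸ C) ρ)).invariants := by
    rw [invariants_comp_of_surjective (permTensor ((GQ ⧸ T.H) ⧸ C) ρ) _ (QuotientGroup.mk'_surjective T.H),
      (inducedInvEquiv ρ C).finrank_eq]
    have e : ↥(Representation.invariants (ρ.comp C.subtype))
        ≃ₗ[ZMod p] eqHom (T.sigmaC hμ C ρ) (chr ((T.chiQ hμ).comp C.subtype)) :=
      { toFun := fun v => ⟨Module.Dual.eval (ZMod p) V v.1, fun c φ => by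
          rw [sigmaC_apply, chr_apply]
          show (T.chiQ hμ c.1 : ZMod p) * φ (ρ c.1⁻¹ v.1) = _
          rw [show ρ c.1⁻¹ v.1 = v.1 from v.2 c⁻¹]
          rfl⟩
        invFun := fun f => ⟨(Module.evalEquiv (ZMod p) V).symm f.1, fun c => by
          refine (Module.evalEquiv (ZMod p) V).injective (LinearMap.ext fun φ => ?_)
          have hf := f.2 c⁻¹ φ
          rw [sigmaC_apply, chr_apply, map_smul, Subgroup.coe_inv, inv_inv, smul_eq_mul] at hf
          simp only [Module.evalEquiv_apply, Module.Dual.eval_apply, MonoidHom.comp_apply,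
            Subgroup.coe_subtype]
          rw [show φ ((Module.evalEquiv (ZMod p) V).symm f.1) = f.1 φ from
              Module.apply_evalEquiv_symm_apply (R := ZMod p) (M := V) φ f.1,
            show φ (ρ c.1 ((Module.evalEquiv (ZMod p) V).symm f.1)) = f.1 (φ ∘ₗ ρ c.1) from
              Module.apply_evalEquiv_symm_apply (R := ZMod p) (M := V) (φ ∘ₗ ρ c.1) f.1]
          exact mul_left_cancel₀ (Units.ne_zero _) hf⟩
        left_inv := fun v => Subtype.ext ((Module.evalEquiv (ZMod p) V).symm_apply_apply v.1)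
        right_inv := fun f => Subtype.ext ((Module.evalEquiv (ZMod p) V).apply_symm_apply f.1)
        map_add' := fun v w => Subtype.ext (map_add _ v.1 w.1)
        map_smul' := fun a v => Subtype.ext (map_smul _ a v.1) }
    exact e.finrank_eq.symm
  have htriv : Module.finrank (ZMod p) ↥(T.sigmaC hμ C ρ).invariants
      = Module.finrank (ZMod p) ↥(T.infl (permTensor ((GQ ⧸ T.H) ⧸ C) (T.sigmaG hμ ρ))).invariants := by
    rw [invariants_comp_of_surjective (permTensor ((GQ ⧸ T.H) ⧸ C) (T.sigmaG hμ ρ)) _ (QuotientGroup.mk'_surjective T.H),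
      (inducedInvEquiv (T.sigmaG hμ ρ) C).finrank_eq]
  have hperm : Module.finrank (ZMod p) ↥(permTensor (T.PlacesS S) (T.sigmaC hμ C ρ)).invariants
      = Module.finrank (ZMod p) (LinearMap.ker ((permTensor ((GQ ⧸ T.H) ⧸ C) ρ) ((complexConjugation : GQ) : GQ ⧸ T.H) + 1))
        + ∑ q : {q // q ∈ S}, Module.finrank (ZMod p)
            ↥(Representation.invariants ((T.infl (permTensor ((GQ ⧸ T.H) ⧸ C) (T.sigmaG hμ ρ))).comp (loc (q.1 : ℕ)))) := by
    refine (finrank_sigma_invariants (Y := fun i => (GQ ⧸ T.H) ⧸ T.decQ S i) _).trans ?_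
    rw [Fintype.sum_option]
    refine congrArg₂ (· + ·) ?_ (Finset.sum_congr rfl fun q _ => ?_)
    · rw [T.finrank_dec_invariants (T.sigmaG hμ ρ) C, T.invariants_dec_none]
      have hneg : (chr (T.chiQ hμ) ((complexConjugation : GQ) : GQ ⧸ T.H) : ZMod p →ₗ[ZMod p] ZMod p) 1 = -1 := by
        rw [chr_apply, mul_one, T.chiQ_mk]
        exact cycloChar_complexConjugation
      exact (finrank_ker_add_one (χ := T.chiQ hμ)
        (ρ := (permTensor ((GQ ⧸ T.H) ⧸ C) ρ)) (σ := (permTensor ((GQ ⧸ T.H) ⧸ C) (T.sigmaG hμ ρ))) (β := P.β) (fun g F G => by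
          obtain ⟨g, rfl⟩ := QuotientGroup.mk_surjective g
          exact P.bil g F G) P.inj_right P.inj_left T.cc_mul_cc
        (by rw [T.chiQ_mk]; exact cycloChar_complexConjugation)).symm
    · rw [T.finrank_dec_invariants (T.sigmaG hμ ρ) C, T.invariants_dec_some]
  rw [hroots, htriv, hperm] at hunits
  simp only [eulerFn, eulerS]
  omega

end Perm

/-! ### The formula -/

variable {V : Type} [AddCommGroup V] [Module (ZMod p) V]
variable {W : Type} [AddCommGroup W] [Module (ZMod p) W]
variable {ρ : Representation (ZMod p) GQ V} {σ : Representation (ZMod p) GQ W}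

set_option maxHeartbeats 800000 in
-- the instances on local groups are slow to find
include hμ in
/-- The global Euler characteristic formula. -/
theorem finrank_unrOutside_eq (P : DPair LQ (cycQ p).χ ρ σ) (hp2 : p ≠ 2)
    (hρ : ∀ s ∈ T.H, ρ s = 1) (hS : T.BigS p S) :
    Module.finrank (ZMod p) (unrOutside S ρ) + Module.finrank (ZMod p) ↥σ.invariants
      = Module.finrank (ZMod p) ↥ρ.invariants + Module.finrank (ZMod p) (shaOne σ)
        + ∑ q : {q // q ∈ S},
            Module.finrank (ZMod p) ↥(Representation.invariants (σ.comp (loc (q.1 : ℕ))))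
        + Module.finrank (ZMod p) (LinearMap.ker (σ complexConjugation - 1)) := by
  classical
  have := P.fin_left
  have := P.fin_right
  have := T.finite_quot
  let _ : Fintype (GQ ⧸ T.H) := Fintype.ofFinite _
  let ρ' : Representation (ZMod p) (GQ ⧸ T.H) V := QuotientGroup.lift T.H ρ fun s hs => hρ s hs
  have h0 : T.eulerFn (p := p) S V ρ' = 0 :=
    eq_zero_of_permTensor (p := p) (T.isAdditive_eulerFn hμ hp2 hS) (fun C _ hC V' _ _ _ ρ'' => by
      let _ : Fintype C := Fintype.ofFinite _
      let _ : Fintype ((GQ ⧸ T.H) ⧸ C) := Fintype.ofFinite _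
      exact T.eulerFn_perm hμ ρ'' C hp2 hS hC) V ρ'
  have hinfl : T.infl ρ' = ρ := MonoidHom.ext fun g => rfl
  obtain ⟨-, h2⟩ := T.finrank_h2S hμ P hp2 hρ hS
  obtain ⟨-, -, hsha⟩ := T.finrank_shaTwo P hp2 hμ hρ
  have hc := finrank_ker_add_one P.bil P.inj_right P.inj_left complexConjugation_mul_self
    cycloChar_complexConjugation
  simp only [eulerFn] at h0
  rw [hinfl] at h0
  simp only [eulerS] at h0
  rw [show ρ' ((complexConjugation : GQ) : GQ ⧸ T.H) = ρ complexConjugation from rfl] at h0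
  omega

end Trans

end FA.GalCoh
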