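import Mathlib

/-!
Characteristic polynomials of endomorphisms permuting a product of copies of a space.
-/

set_option autoImplicit false
set_option linter.unusedSectionVars false

noncomputable section

namespace FA.GalCoh.EulerAlg

open Module

variable {k : Type} [Field k] {V : Type} [AddCommGroup V] [Module k V]

/-- Apply `A` componentwise and permute the components by `π`. -/
def permMap {X : Type} (π : Equiv.Perm X) (A : V →ₗ[k] V) : (X → V) →ₗ[k] (X → V) :=
  LinearMap.pi fun x => A ∘ₗ LinearMap.proj (π.symm x)

@[simp] theorem permMap_apply {X : Type} (π : Equiv.Perm X) (A : V →ₗ[k] V) (f : X → V) (x : X) :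
    permMap π A f x = A (f (π.symm x)) := rfl

variable [FiniteDimensional k V]

theorem charpoly_permMap_congr {X Y : Type} [Finite X] [Finite Y] (e : X ≃ Y) (π : Equiv.Perm X)
    (π' : Equiv.Perm Y) (h : ∀ x, e (π x) = π' (e x)) (A : V →ₗ[k] V) :
    (permMap π A).charpoly = (permMap π' A).charpoly := by
  have h' : ∀ x, π'.symm (e x) = e (π.symm x) := by
    intro x
    rw [Equiv.symm_apply_eq, ← h, Equiv.apply_symm_apply]
  have : (LinearEquiv.funCongrLeft k V e).conj (permMap π' A) = permMap π A := by
    ext f x
    simp [LinearEquiv.conj_apply, LinearEquiv.funCongrLeft, LinearMap.funLeft, h']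
  rw [← this, LinearEquiv.charpoly_conj]

theorem charpoly_permMap_sum {X Y : Type} [Finite X] [Finite Y] (π : Equiv.Perm X)
    (π' : Equiv.Perm Y) (A : V →ₗ[k] V) :
    (permMap (Equiv.sumCongr π π') A).charpoly =
      (permMap π A).charpoly * (permMap π' A).charpoly := by
  have : (LinearEquiv.sumArrowLequivProdArrow X Y k V).symm.conj
      ((permMap π A).prodMap (permMap π' A)) = permMap (Equiv.sumCongr π π') A := by
    ext f (x | y) <;> simp [LinearEquiv.conj_apply]
  rw [← this, LinearEquiv.charpoly_conj, LinearMap.charpoly_prodMap]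

theorem charpoly_permMap_unique {X : Type} [Unique X] (π : Equiv.Perm X) (A : V →ₗ[k] V) :
    (permMap π A).charpoly = A.charpoly := by
  have : (LinearEquiv.funUnique X k V).conj (permMap π A) = A := by
    ext v
    simp [LinearEquiv.conj_apply]
  conv_rhs => rw [← this]
  rw [LinearEquiv.charpoly_conj]

theorem charpoly_permMap_isEmpty {X : Type} [IsEmpty X] (π : Equiv.Perm X) (A : V →ₗ[k] V) :
    (permMap π A).charpoly = 1 := by
  refine (Polynomial.Monic.natDegree_eq_zero (LinearMap.charpoly_monic _)).1 ?_
  rw [LinearMap.charpoly_natDegree]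
  exact Module.finrank_zero_of_subsingleton

/-- The polynomial of a single cycle. -/
def cyclePoly (A : V →ₗ[k] V) (d : ℕ) : Polynomial k := (permMap (finRotate d) A).charpoly

theorem cyclePoly_one (A : V →ₗ[k] V) : cyclePoly A 1 = A.charpoly :=
  charpoly_permMap_unique _ A

theorem cyclePoly_monic (A : V →ₗ[k] V) (d : ℕ) : (cyclePoly A d).Monic :=
  LinearMap.charpoly_monic _

/-- The number of fixed points of a permutation. -/
def fixCard {X : Type} (π : Equiv.Perm X) : ℕ := Nat.card {x : X // π x = x}

theorem fixCard_congr {X Y : Type} (e : X ≃ Y) (π : Equiv.Perm X) (π' : Equiv.Perm Y)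
    (h : ∀ x, e (π x) = π' (e x)) : fixCard π = fixCard π' :=
  Nat.card_congr (e.subtypeEquiv fun x => by rw [← h, e.injective.eq_iff])

theorem fixCard_sum {X Y : Type} [Finite X] [Finite Y] (π : Equiv.Perm X) (π' : Equiv.Perm Y) :
    fixCard (Equiv.sumCongr π π') = fixCard π + fixCard π' := by
  rw [fixCard, fixCard, fixCard, ← Nat.card_sum]
  refine Nat.card_congr (Equiv.subtypeSum.trans (Equiv.sumCongr ?_ ?_))
  · exact Equiv.subtypeEquivRight fun x => by simp
  · exact Equiv.subtypeEquivRight fun x => by simp

theorem sumCongr_pow {X Y : Type} (π : Equiv.Perm X) (π' : Equiv.Perm Y) (m : ℕ) :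
    (Equiv.sumCongr π π' : Equiv.Perm (X ⊕ Y)) ^ m = Equiv.sumCongr (π ^ m) (π' ^ m) :=
  (map_pow (Equiv.Perm.sumCongrHom X Y) (π, π') m).symm

theorem perm_pow_conj {X Y : Type} (e : X ≃ Y) (π : Equiv.Perm X) (π' : Equiv.Perm Y)
    (h : ∀ x, e (π x) = π' (e x)) (m : ℕ) : ∀ x, e ((π ^ m) x) = (π' ^ m) (e x) := by
  induction m with
  | zero => simp
  | succ m ih => intro x; simp [pow_succ, ih, h]

open Function in
/-- Cycle type data of a permutation. -/
theorem exists_cycle_counts {X : Type} [Finite X] (π : Equiv.Perm X) (N : ℕ)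
    (hN : Nat.card X ≤ N) :
    ∃ n : ℕ → ℕ, (∀ A : V →ₗ[k] V,
        (permMap π A).charpoly = ∏ d ∈ Finset.Icc 1 N, cyclePoly A d ^ n d) ∧
      ∀ m, fixCard (π ^ m) = ∑ d ∈ Finset.Icc 1 N, if d ∣ m then d * n d else 0 := by
  classical
  induction hc : Nat.card X using Nat.strong_induction_on generalizing X with
  | _ c ih =>
    cases isEmpty_or_nonempty X with
    | inl h =>
      exact ⟨0, fun A => by simp [charpoly_permMap_isEmpty], fun m => by simp [fixCard]⟩
    | inr h =>
      obtain ⟨x⟩ := h
      let d := minimalPeriod π x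
      have hd : 0 < d := minimalPeriod_pos_of_mem_periodicPts
        (π.injective.mem_periodicPts x)
      let P : X → Prop := fun y => ∃ i : ℕ, π^[i] x = y
      have hPinv : ∀ y, P (π y) ↔ P y := by
        intro y
        constructor
        · rintro ⟨i, hi⟩
          refine ⟨i + (d - 1), π.injective ?_⟩
          rw [← hi, ← iterate_succ_apply' π]
          rw [show (i + (d - 1)).succ = i + d by omega, iterate_add_apply]
          exact congrArg _ (iterate_minimalPeriod (f := π) (x := x))
        · rintro ⟨i, rfl⟩
          exact ⟨i + 1, iterate_succ_apply' π i x⟩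
      let π₁ : Equiv.Perm {y // P y} := π.subtypePerm hPinv
      let π₂ : Equiv.Perm {y // ¬ P y} := π.subtypePerm fun y => not_congr (hPinv y)
      let e : {y // P y} ⊕ {y // ¬ P y} ≃ X := Equiv.sumCompl P
      have he : ∀ z, e (Equiv.sumCongr π₁ π₂ z) = π (e z) := by
        rintro (y | y) <;> simp [e, π₁, π₂]
      let f : Fin d → {y // P y} := fun i => ⟨π^[(i : ℕ)] x, i, rfl⟩
      have hf : Bijective f := by
        refine ⟨fun i j hij => Fin.ext (iterate_injOn_Iio_minimalPeriod i.2 j.2
          (congrArg Subtype.val hij)), ?_⟩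
        rintro ⟨y, i, rfl⟩
        exact ⟨⟨i % d, Nat.mod_lt _ hd⟩, Subtype.ext iterate_mod_minimalPeriod_eq⟩
      have hrot : ∀ i, Equiv.ofBijective f hf (finRotate d i) = π₁ (Equiv.ofBijective f hf i) := by
        intro i
        apply Subtype.ext
        show π^[((finRotate d i : Fin d) : ℕ)] x = π (π^[(i : ℕ)] x)
        rw [← iterate_succ_apply' π]
        obtain ⟨d', hd'⟩ : ∃ d', d = d' + 1 := ⟨d - 1, by omega⟩
        have : ((finRotate d i : Fin d) : ℕ) = ((i : ℕ) + 1) % d := by
          revert i
          rw [hd']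
          intro i
          rw [finRotate_succ_apply, Fin.val_add, Fin.val_one']
          simp
        rw [this]
        exact iterate_mod_minimalPeriod_eq
      have hcard : Nat.card {y // P y} = d :=
        (Nat.card_congr (Equiv.ofBijective f hf)).symm.trans (Nat.card_fin d)
      have hsum : Nat.card {y // P y} + Nat.card {y // ¬ P y} = Nat.card X := by
        rw [← Nat.card_sum]
        exact Nat.card_congr e
      have hdN : d ∈ Finset.Icc 1 N := Finset.mem_Icc.2 ⟨hd, by omega⟩
      obtain ⟨n, hn1, hn2⟩ := ih _ (by omega) π₂ (by omega) rfl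
      refine ⟨fun j => n j + if j = d then 1 else 0, fun A => ?_, fun m => ?_⟩
      · rw [← charpoly_permMap_congr e _ π he, charpoly_permMap_sum, hn1,
          ← charpoly_permMap_congr (Equiv.ofBijective f hf) (finRotate d) π₁ hrot]
        simp only [pow_add, Finset.prod_mul_distrib, pow_ite, pow_one, pow_zero,
          Finset.prod_ite_eq', hdN, if_true]
        exact mul_comm _ _
      · rw [← fixCard_congr e _ (π ^ m) (perm_pow_conj e _ π he m), sumCongr_pow, fixCard_sum,
          hn2]
        have hfix : fixCard (π₁ ^ m) = if d ∣ m then d else 0 := by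
          have hval : ∀ y : {y // P y}, ((π₁ ^ m) y : X) = π^[m] y := by
            intro y
            induction m with
            | zero => simp
            | succ m ihm =>
              rw [pow_succ', Equiv.Perm.mul_apply, iterate_succ_apply', ← ihm]
              rfl
          have hiff : ∀ y : {y // P y}, (π₁ ^ m) y = y ↔ d ∣ m := by
            intro y
            obtain ⟨i, rfl⟩ := hf.2 y
            rw [← Subtype.coe_inj, hval]
            show π^[m] (π^[(i : ℕ)] x) = π^[(i : ℕ)] x ↔ _
            rw [← iterate_add_apply, add_comm, iterate_add_apply,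
              (π.injective.iterate (i : ℕ)).eq_iff]
            exact isPeriodicPt_iff_minimalPeriod_dvd
          split_ifs with hdm
          · rw [fixCard, Nat.card_congr (Equiv.subtypeUnivEquiv fun y => (hiff y).2 hdm), hcard]
          · have : IsEmpty {y // (π₁ ^ m) y = y} := ⟨fun y => hdm ((hiff y.1).1 y.2)⟩
            exact Nat.card_of_isEmpty
        have hsplit : ∀ j, (if j ∣ m then j * (n j + if j = d then 1 else 0) else 0) =
            (if j ∣ m then j * n j else 0) + if j = d then (if d ∣ m then d else 0) else 0 := by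
          intro j
          by_cases hjd : j = d
          · subst hjd
            split_ifs <;> simp [mul_add]
          · simp [hjd]
        rw [Finset.sum_congr rfl fun j _ => hsplit j, Finset.sum_add_distrib, Finset.sum_ite_eq',
          if_pos hdN, hfix, add_comm]

/-- The numbers `d * n d` are determined by the sums over divisors. -/
theorem eq_of_divisor_sums {N : ℕ} (a b : ℕ → ℕ)
    (h : ∀ m, 0 < m → (∑ d ∈ Finset.Icc 1 N, if d ∣ m then d * a d else 0) =
      ∑ d ∈ Finset.Icc 1 N, if d ∣ m then d * b d else 0) :
    ∀ d ∈ Finset.Icc 1 N, a d = b d := by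
  intro d
  induction d using Nat.strong_induction_on with
  | _ d ih =>
    intro hd
    obtain ⟨h1, h2⟩ := Finset.mem_Icc.1 hd
    have := h d h1
    rw [← Finset.add_sum_erase _ _ hd, ← Finset.add_sum_erase _ _ hd, if_pos dvd_rfl,
      if_pos dvd_rfl] at this
    have hrest : (∑ j ∈ (Finset.Icc 1 N).erase d, if j ∣ d then j * a j else 0) =
        ∑ j ∈ (Finset.Icc 1 N).erase d, if j ∣ d then j * b j else 0 := by
      refine Finset.sum_congr rfl fun j hj => ?_
      obtain ⟨hne, hjI⟩ := Finset.mem_erase.1 hj
      split_ifs with hjd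
      · rw [ih j (lt_of_le_of_ne (Nat.le_of_dvd h1 hjd) hne) hjI]
      · rfl
    rw [hrest] at this
    exact Nat.eq_of_mul_eq_mul_left h1 (Nat.add_right_cancel this)

end FA.GalCoh.EulerAlg
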