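import Fermat.Agent.GalCoh.BrauerNesbitt
import Fermat.Agent.GalCoh.PermPoly

/-!
An additive invariant of representations of a finite group in characteristic `p` which kills all
representations induced from cyclic subgroups of order prime to `p` kills everything
(Artin induction, as used for Euler characteristic formulas).
-/

set_option autoImplicit false
set_option linter.unusedSectionVars false

noncomputable section

namespace FA.GalCoh.EulerAlg

open Module

variable {k : Type} [Field k] {Γ : Type} [Group Γ]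

/-- The representation on functions from a `Γ`-set to a representation. -/
def permTensor (X : Type) [MulAction Γ X] {V : Type} [AddCommGroup V] [Module k V]
    (ρ : Representation k Γ V) : Representation k Γ (X → V) where
  toFun g := permMap (MulAction.toPerm g : Equiv.Perm X) (ρ g)
  map_one' := by ext f x; simp
  map_mul' g h := by ext f x; simp [mul_smul]

theorem permTensor_apply (X : Type) [MulAction Γ X] {V : Type} [AddCommGroup V] [Module k V]
    (ρ : Representation k Γ V) (g : Γ) (f : X → V) (x : X) :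
    permTensor X ρ g f x = ρ g (f (g⁻¹ • x)) := rfl

section Regular

variable [Fintype k] {p : ℕ} [hp : Fact p.Prime] [CharP k p] [Finite Γ]

theorem cp_pow_card (X : RepObj k Γ) (g : Γ) (a : ℕ) :
    X.cp (g ^ Fintype.card k ^ a) = X.cp g := by
  induction a with
  | zero => simp
  | succ a ih =>
    rw [← ih, pow_succ, pow_mul]
    let b := Module.finBasis k X.V
    show LinearMap.charpoly _ = LinearMap.charpoly _
    rw [map_pow, ← LinearMap.charpoly_toMatrix _ b, ← LinearMap.charpoly_toMatrix _ b,
      ← LinearMap.toMatrix_pow, FiniteField.Matrix.charpoly_pow_card]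

variable (p) in
theorem exists_pRegular (g : Γ) :
    ∃ h : Γ, ¬ p ∣ orderOf h ∧ ∀ X : RepObj k Γ, X.cp h = X.cp g := by
  obtain ⟨b, m, hm, hord⟩ := Nat.exists_eq_pow_mul_and_not_dvd (orderOf_pos g).ne' p hp.out.ne_one
  obtain ⟨n, -, hn⟩ := FiniteField.card k p
  refine ⟨g ^ Fintype.card k ^ b, ?_, fun X => cp_pow_card X g b⟩
  rw [orderOf_pow' g (pow_ne_zero _ Fintype.card_ne_zero), hord, hn, ← pow_mul]
  have hgcd : Nat.gcd (p ^ b * m) (p ^ ((n : ℕ) * b)) = p ^ b := by
    have hle : b ≤ (n : ℕ) * b := Nat.le_mul_of_pos_left b n.pos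
    apply Nat.dvd_antisymm
    · have hc : (Nat.gcd (p ^ b * m) (p ^ ((n : ℕ) * b))).Coprime m :=
        Nat.Coprime.coprime_dvd_left (Nat.gcd_dvd_right _ _)
          ((hp.out.coprime_iff_not_dvd.2 hm).pow_left _)
      exact hc.dvd_of_dvd_mul_right (Nat.gcd_dvd_left _ _)
    · exact Nat.dvd_gcd (dvd_mul_right _ _) (pow_dvd_pow _ hle)
  rw [hgcd, Nat.mul_div_cancel_left _ (pow_pos hp.out.pos b)]
  exact hm

/-- Brauer-Nesbitt with the hypothesis on elements of order prime to `p` only. -/
theorem sum_eq_of_prod_cp_eq_regular [Fintype Γ] {φ : RepFn k Γ} (hφ : IsAdditive φ)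
    (L₁ L₂ : List (RepObj k Γ))
    (h : ∀ g, ¬ p ∣ orderOf g →
      (L₁.map fun X => X.cp g).prod = (L₂.map fun X => X.cp g).prod) :
    (L₁.map fun X => X.app φ).sum = (L₂.map fun X => X.app φ).sum := by
  refine sum_eq_of_prod_cp_eq hφ L₁ L₂ fun g => ?_
  obtain ⟨h', hh', hcp⟩ := exists_pRegular (k := k) p g
  simpa only [hcp] using h h' hh'

end Regular

section Artin

variable (Γ) [Fintype Γ]

/-- Number of points of a coset space of a cyclic subgroup fixed by an element. -/
def fixCount (c g : Γ) : ℕ :=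
  Nat.card {x : Γ ⧸ Subgroup.zpowers c // g • x = x}

variable {Γ}

theorem fixCount_mul (c g : Γ) :
    fixCount Γ c g * Nat.card (Subgroup.zpowers c) =
      Nat.card {t : Γ // t⁻¹ * g * t ∈ Subgroup.zpowers c} := by
  have e := QuotientGroup.preimageMkEquivSubgroupProdSet (Subgroup.zpowers c)
    {x : Γ ⧸ Subgroup.zpowers c | g • x = x}
  rw [fixCount, mul_comm, ← Nat.card_prod]
  refine (Nat.card_congr (e.symm.trans (Equiv.subtypeEquivRight fun t => ?_)))
  show g • (t : Γ ⧸ Subgroup.zpowers c) = (t : Γ ⧸ Subgroup.zpowers c) ↔ _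
  rw [MulAction.Quotient.smul_coe, smul_eq_mul, eq_comm, QuotientGroup.eq, ← mul_assoc]

variable (p : ℕ)

theorem artin_rat :
    ∃ a : Γ → ℚ, ∀ g : Γ, ¬ p ∣ orderOf g →
      ∑ c ∈ Finset.univ.filter (fun c : Γ => ¬ p ∣ orderOf c), a c * fixCount Γ c g = 1 := by
  classical
  set R := Finset.univ.filter fun c : Γ => ¬ p ∣ orderOf c with hR
  let F : R → (R → ℚ) := fun c g => (fixCount Γ (c : Γ) (g : Γ) : ℚ)
  by_cases hone : (fun _ => 1 : R → ℚ) ∈ Submodule.span ℚ (Set.range F)
  · obtain ⟨a, ha⟩ := (Submodule.mem_span_range_iff_exists_fun ℚ).1 hone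
    refine ⟨fun c => if hc : c ∈ R then a ⟨c, hc⟩ else 0, fun g hg => ?_⟩
    have := congrFun ha ⟨g, by simp [hR, hg]⟩
    simp only [Finset.sum_apply, Pi.smul_apply, smul_eq_mul, F] at this
    rw [← this, ← Finset.sum_coe_sort R]
    exact Finset.sum_congr rfl fun c _ => by simp
  exfalso
  obtain ⟨y, hy1, hy⟩ := Submodule.exists_dual_map_eq_bot_of_notMem hone inferInstance
  apply hy1
  let z : Γ → ℚ := fun u => if hu : u ∈ R then y (Pi.single ⟨u, hu⟩ 1) else 0
  let Y : Γ → ℚ := fun u => ∑ t, z (t * u * t⁻¹)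
  have hyz : ∀ v : R → ℚ, y v = ∑ g : R, v g * z g := by
    intro v
    conv_lhs => rw [← Finset.univ_sum_single v, map_sum]
    refine Finset.sum_congr rfl fun g _ => ?_
    rw [show Pi.single g (v g) = v g • (Pi.single g (1 : ℚ) : R → ℚ) from by
      rw [← Pi.single_smul, smul_eq_mul, mul_one], map_smul, smul_eq_mul]
    simp [z]
  have hzR : ∀ u, u ∉ R → z u = 0 := fun u hu => dif_neg hu
  have hF : ∀ c ∈ R, ∑ u ∈ Finset.univ.filter (· ∈ Subgroup.zpowers c), Y u = 0 := by
    intro c hc
    have h0 : y (F ⟨c, hc⟩) = 0 := by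
      have : y (F ⟨c, hc⟩) ∈ (Submodule.span ℚ (Set.range F)).map y :=
        Submodule.mem_map_of_mem (Submodule.subset_span ⟨_, rfl⟩)
      rwa [hy, Submodule.mem_bot] at this
    rw [hyz] at h0
    have h1 : ∑ g, (fixCount Γ c g : ℚ) * z g = 0 := by
      rw [← h0, Finset.sum_coe_sort R fun g => (fixCount Γ c g : ℚ) * z g]
      symm
      exact Finset.sum_subset (Finset.subset_univ _) fun u _ hu => by simp [hzR u hu]
    calc ∑ u ∈ Finset.univ.filter (· ∈ Subgroup.zpowers c), Y u
        = ∑ t, ∑ u ∈ Finset.univ.filter (· ∈ Subgroup.zpowers c), z (t * u * t⁻¹) :=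
          Finset.sum_comm
      _ = ∑ t, ∑ g, if t⁻¹ * g * t ∈ Subgroup.zpowers c then z g else 0 := by
          refine Finset.sum_congr rfl fun t _ => ?_
          rw [Finset.sum_filter]
          refine Finset.sum_equiv (MulAut.conj t).toEquiv (by simp) fun u _ => ?_
          simp [mul_assoc]
      _ = ∑ g, (Nat.card {t : Γ // t⁻¹ * g * t ∈ Subgroup.zpowers c} : ℚ) * z g := by
          rw [Finset.sum_comm]
          refine Finset.sum_congr rfl fun g _ => ?_
          rw [← Finset.sum_filter, Finset.sum_const, nsmul_eq_mul, Nat.card_eq_fintype_card,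
            Fintype.card_subtype]
      _ = ∑ g, ((fixCount Γ c g : ℚ) * z g) * Nat.card (Subgroup.zpowers c) := by
          refine Finset.sum_congr rfl fun g _ => ?_
          rw [← fixCount_mul]; push_cast; ring
      _ = 0 := by rw [← Finset.sum_mul, h1, zero_mul]
  let Z : Γ → ℚ := fun c =>
    ∑ u ∈ Finset.univ.filter (fun u => Subgroup.zpowers u = Subgroup.zpowers c), Y u
  have hmem : ∀ c ∈ R, ∀ u ∈ Subgroup.zpowers c, u ∈ R := by
    intro c hc u hu
    simp only [hR, Finset.mem_filter, Finset.mem_univ, true_and] at hc ⊢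
    exact fun hd => hc (hd.trans (orderOf_dvd_of_mem_zpowers hu))
  have hZ : ∀ n, ∀ c ∈ R, orderOf c = n → Z c = 0 := by
    intro n
    induction n using Nat.strong_induction_on with
    | _ n ih =>
      intro c hc hn
      have hsum := hF c hc
      set s := Finset.univ.filter (· ∈ Subgroup.zpowers c) with hs
      rw [← Finset.sum_fiberwise_of_maps_to (g := fun u => Subgroup.zpowers u)
        (t := s.image fun u => Subgroup.zpowers u) (fun u hu => Finset.mem_image_of_mem _ hu) Y]
        at hsum
      rw [← hsum]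
      refine Eq.trans ?_ (Finset.sum_eq_single (Subgroup.zpowers c) (fun D hD hne => ?_)
        (fun h => absurd (Finset.mem_image_of_mem _ (by simp [hs])) h)).symm
      · refine Finset.sum_congr ?_ fun _ _ => rfl
        ext u
        simp only [hs, Finset.mem_filter, Finset.mem_univ, true_and]
        exact ⟨fun h => ⟨h ▸ Subgroup.mem_zpowers u, h⟩, fun h => h.2⟩
      · obtain ⟨v, hv, rfl⟩ := Finset.mem_image.1 hD
        have hvc : v ∈ Subgroup.zpowers c := by simpa [hs] using hv
        have hle : Subgroup.zpowers v ≤ Subgroup.zpowers c := Subgroup.zpowers_le.2 hvc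
        have hlt : orderOf v < n := by
          rw [← hn, ← Nat.card_zpowers v, ← Nat.card_zpowers c]
          refine lt_of_le_of_ne (Subgroup.card_le_of_le hle) fun hcard => hne ?_
          exact Subgroup.eq_of_le_of_card_ge hle hcard.ge
        refine Eq.trans ?_ (ih _ hlt v (hmem c hc v hvc) rfl)
        refine Finset.sum_congr ?_ fun _ _ => rfl
        ext u
        simp only [hs, Finset.mem_filter, Finset.mem_univ, true_and]
        exact ⟨fun h => h.2, fun h => ⟨hle (h ▸ Subgroup.mem_zpowers u), h⟩⟩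
  have hYR : ∑ u ∈ R, Y u = 0 := by
    rw [← Finset.sum_fiberwise_of_maps_to (g := fun u => Subgroup.zpowers u)
      (t := R.image fun u => Subgroup.zpowers u) (fun u hu => Finset.mem_image_of_mem _ hu) Y]
    refine Finset.sum_eq_zero fun D hD => ?_
    obtain ⟨c, hc, rfl⟩ := Finset.mem_image.1 hD
    refine Eq.trans ?_ (hZ _ c hc rfl)
    refine Finset.sum_congr ?_ fun _ _ => rfl
    ext u
    simp only [Finset.mem_filter, Finset.mem_univ, true_and]
    exact ⟨fun h => h.2, fun h => ⟨hmem c hc u (h ▸ Subgroup.mem_zpowers u), h⟩⟩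
  rw [hyz]
  simp only [one_mul]
  rw [Finset.sum_coe_sort R z]
  have hconj : ∀ t : Γ, ∑ u ∈ R, z (t * u * t⁻¹) = ∑ u ∈ R, z u := by
    intro t
    refine Finset.sum_equiv (MulAut.conj t).toEquiv (fun u => ?_) fun u _ => by simp
    simp only [hR, Finset.mem_filter, Finset.mem_univ, true_and]
    rw [show (MulAut.conj t).toEquiv u = MulAut.conj t u from rfl, MulEquiv.orderOf_eq]
  rw [show ∑ u ∈ R, Y u = ∑ t : Γ, ∑ u ∈ R, z (t * u * t⁻¹) from Finset.sum_comm,
    Finset.sum_congr rfl fun t _ => hconj t, Finset.sum_const, nsmul_eq_mul] at hYR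
  exact (mul_eq_zero.1 hYR).resolve_left (by simp)

theorem artin_int :
    ∃ (N : ℕ) (pos neg : Γ → ℕ), 0 < N ∧ ∀ g : Γ, ¬ p ∣ orderOf g →
      ∑ c ∈ Finset.univ.filter (fun c : Γ => ¬ p ∣ orderOf c), pos c * fixCount Γ c g =
        N + ∑ c ∈ Finset.univ.filter (fun c : Γ => ¬ p ∣ orderOf c), neg c * fixCount Γ c g := by
  obtain ⟨a, ha⟩ := artin_rat (Γ := Γ) p
  let N : ℕ := ∏ c, (a c).den
  have hint : ∀ c, ∃ b : ℤ, (b : ℚ) = N * a c := by
    intro c
    obtain ⟨e, he⟩ := Finset.dvd_prod_of_mem (fun c => (a c).den) (Finset.mem_univ c)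
    refine ⟨e * (a c).num, ?_⟩
    rw [show (N : ℚ) = ((a c).den * e : ℕ) by rw [show N = _ from he]]
    push_cast
    rw [mul_comm ((a c).den : ℚ), mul_assoc, mul_comm ((a c).den : ℚ), Rat.mul_den_eq_num]
  choose b hb using hint
  refine ⟨N, fun c => (b c).toNat, fun c => (-b c).toNat,
    Finset.prod_pos fun c _ => (a c).den_pos, fun g hg => ?_⟩
  have h1 := congrArg (fun x => (N : ℚ) * x) (ha g hg)
  simp only [Finset.mul_sum, ← mul_assoc, ← hb, mul_one] at h1
  have h2 : ∀ c, ((b c).toNat : ℚ) = ((-b c).toNat : ℚ) + b c := by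
    intro c
    have : ((b c).toNat : ℤ) = ((-b c).toNat : ℤ) + b c := by omega
    exact_mod_cast this
  rw [← Nat.cast_inj (R := ℚ)]
  push_cast
  simp only [h2, add_mul, Finset.sum_add_distrib, h1]
  ring

end Artin

section Main

variable [Fintype k] {p : ℕ} [hp : Fact p.Prime] [CharP k p] [Fintype Γ]

theorem sum_map_flatMap_replicate {α M : Type*} [CommMonoid M] {β : Type*} (l : List α)
    (n : α → ℕ) (o : α → β) (f : β → M) :
    ((l.flatMap fun c => List.replicate (n c) (o c)).map f).prod =
      (l.map fun c => f (o c) ^ n c).prod := by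
  induction l with
  | nil => simp
  | cons a l ih => simp [ih]

theorem sum_map_flatMap_replicate' {α M : Type*} [AddCommMonoid M] {β : Type*} (l : List α)
    (n : α → ℕ) (o : α → β) (f : β → M) :
    ((l.flatMap fun c => List.replicate (n c) (o c)).map f).sum =
      (l.map fun c => n c • f (o c)).sum := by
  induction l with
  | nil => simp
  | cons a l ih => simp [ih]

/-- Artin induction: an additive invariant vanishing on the representations induced from cyclic
subgroups of order prime to `p` vanishes. -/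
theorem eq_zero_of_permTensor {φ : RepFn k Γ} (hφ : IsAdditive φ)
    (h : ∀ C : Subgroup Γ, IsCyclic C → ¬ p ∣ Nat.card C →
      ∀ (V : Type) [AddCommGroup V] [Module k V] [FiniteDimensional k V]
        (ρ : Representation k Γ V), φ ((Γ ⧸ C) → V) (permTensor (Γ ⧸ C) ρ) = 0)
    (V : Type) [AddCommGroup V] [Module k V] [FiniteDimensional k V] (ρ : Representation k Γ V) :
    φ V ρ = 0 := by
  classical
  obtain ⟨N, pos, neg, hN, hfix⟩ := artin_int (Γ := Γ) p
  set R := Finset.univ.filter fun c : Γ => ¬ p ∣ orderOf c with hR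
  let X : RepObj k Γ := ⟨V, ρ⟩
  let P : Γ → RepObj k Γ := fun c =>
    ⟨(Γ ⧸ Subgroup.zpowers c) → V, permTensor (Γ ⧸ Subgroup.zpowers c) ρ⟩
  have hP : ∀ c ∈ R, (P c).app φ = 0 := fun c hc => by
    simp only [hR, Finset.mem_filter, Finset.mem_univ, true_and] at hc
    exact h (Subgroup.zpowers c) inferInstance (by rwa [Nat.card_zpowers]) V ρ
  let L₁ := R.toList.flatMap fun c => List.replicate (pos c) (P c)
  let L₂ := List.replicate N X ++ R.toList.flatMap fun c => List.replicate (neg c) (P c)
  have key : (L₁.map fun Y => Y.app φ).sum = (L₂.map fun Y => Y.app φ).sum := by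
    refine sum_eq_of_prod_cp_eq_regular (p := p) hφ L₁ L₂ fun g hg => ?_
    simp only [L₁, L₂, List.map_append, List.prod_append, List.map_replicate, List.prod_replicate,
      sum_map_flatMap_replicate, Finset.prod_map_toList]
    have hcnt : ∀ c : Γ, ∃ n : ℕ → ℕ,
        (P c).cp g = ∏ d ∈ Finset.Icc 1 (Nat.card Γ), cyclePoly (ρ g) d ^ n d ∧
        ∀ m, fixCount Γ c (g ^ m) =
          ∑ d ∈ Finset.Icc 1 (Nat.card Γ), if d ∣ m then d * n d else 0 := by
      intro c
      obtain ⟨n, h1, h2⟩ := exists_cycle_counts (k := k) (V := V)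
        (MulAction.toPerm g : Equiv.Perm (Γ ⧸ Subgroup.zpowers c)) (Nat.card Γ)
        (Subgroup.card_eq_card_quotient_mul_card_subgroup (Subgroup.zpowers c) ▸
          Nat.le_mul_of_pos_right _ Nat.card_pos)
      refine ⟨n, h1 (ρ g), fun m => ?_⟩
      rw [← h2 m, show (MulAction.toPerm g : Equiv.Perm (Γ ⧸ Subgroup.zpowers c)) ^ m =
          MulAction.toPerm (g ^ m) from
          (map_pow (MulAction.toPermHom Γ (Γ ⧸ Subgroup.zpowers c)) g m).symm]
      rfl
    choose n hn1 hn2 using hcnt
    have hXcp : X.cp g = ∏ d ∈ Finset.Icc 1 (Nat.card Γ),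
        cyclePoly (ρ g) d ^ (if d = 1 then 1 else 0) := by
      simp only [pow_ite, pow_one, pow_zero, Finset.prod_ite_eq', Finset.mem_Icc, le_refl,
        true_and, Nat.one_le_iff_ne_zero.2 Nat.card_pos.ne', if_true, cyclePoly_one]
      rfl
    simp only [hn1, hXcp, ← Finset.prod_pow, ← pow_mul]
    rw [Finset.prod_comm, Finset.prod_comm (s := R), ← Finset.prod_mul_distrib]
    refine Finset.prod_congr rfl fun d hd => ?_
    simp only [Finset.prod_pow_eq_pow_sum, ← pow_add]
    congr 1
    revert d
    refine eq_of_divisor_sums _ _ fun m hm => ?_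
    have hgm : ¬ p ∣ orderOf (g ^ m) := fun hd => hg (hd.trans (orderOf_pow_dvd m))
    have e := hfix _ hgm
    simp only [hn2, Finset.mul_sum, mul_ite, mul_zero] at e
    rw [Finset.sum_comm] at e
    rw [Finset.sum_comm (s := R)] at e
    have hone : (∑ d ∈ Finset.Icc 1 (Nat.card Γ),
        if d ∣ m then d * ((if d = 1 then 1 else 0) * N) else 0) = N := by
      rw [Finset.sum_eq_single 1 (fun d _ hd => by simp [hd]) (fun h => absurd (Finset.mem_Icc.2
        ⟨le_rfl, Nat.card_pos⟩) h)]
      simp
    calc (∑ d ∈ Finset.Icc 1 (Nat.card Γ), if d ∣ m then d * (∑ c ∈ R, n c d * pos c) else 0)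
        = _ := Finset.sum_congr rfl fun d _ => by
          by_cases hdm : d ∣ m
          · simp only [if_pos hdm, Finset.mul_sum]
            exact Finset.sum_congr rfl fun c _ => by ring
          · simp [hdm]
      _ = _ := e
      _ = _ := by
          conv_lhs => arg 1; rw [← hone]
          rw [← Finset.sum_add_distrib]
          refine Finset.sum_congr rfl fun d _ => ?_
          by_cases hdm : d ∣ m
          · simp only [if_pos hdm, mul_add, Finset.mul_sum]
            congr 1
            exact Finset.sum_congr rfl fun c _ => by ring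
          · simp [hdm]
  simp only [L₁, L₂, List.map_append, List.sum_append, List.map_replicate, List.sum_replicate,
    sum_map_flatMap_replicate', Finset.sum_map_toList] at key
  rw [Finset.sum_eq_zero (fun c hc => by rw [hP c hc, smul_zero]),
    Finset.sum_eq_zero (fun c hc => by rw [hP c hc, smul_zero]), add_zero, eq_comm,
    smul_eq_zero] at key
  exact key.resolve_left hN.ne'

end Main

end FA.GalCoh.EulerAlg
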