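import Fermat.Agent.GalCoh.BigSet

/-!
Second cohomology supported at a large finite set of primes, the long exact sequence, and the
additivity of the Euler characteristic.
-/

set_option autoImplicit false
set_option linter.unusedSectionVars false

noncomputable section

namespace FA.GalCoh

open Representation

variable {p : ℕ} [hp : Fact p.Prime]

section Defs

variable {V : Type} [AddCommGroup V] [Module (ZMod p) V]

/-- The classes of degree two trivial outside `S`. -/
def h2S (S : Finset Nat.Primes) (ρ : Representation (ZMod p) GQ V) :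
    Submodule (ZMod p) (H2 LQ ρ) :=
  ⨅ q : {q : Nat.Primes // q ∉ S}, LinearMap.ker (resq2 (q.1 : ℕ) ρ)

theorem mem_h2S {S : Finset Nat.Primes} {ρ : Representation (ZMod p) GQ V} {z : H2 LQ ρ} :
    z ∈ h2S S ρ ↔ ∀ q : Nat.Primes, q ∉ S → resq2 (q : ℕ) ρ z = 0 := by
  simp only [h2S, Submodule.mem_iInf, LinearMap.mem_ker]
  exact ⟨fun h q hq => h ⟨q, hq⟩, fun h q => h q.1 q.2⟩

/-- The Euler characteristic at `S`. -/
def eulerS (S : Finset Nat.Primes) (ρ : Representation (ZMod p) GQ V) : ℤ :=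
  (Module.finrank (ZMod p) ↥ρ.invariants : ℤ) - Module.finrank (ZMod p) (unrOutside S ρ)
    + Module.finrank (ZMod p) (h2S S ρ)

theorem resInv_injective (ρ : Representation (ZMod p) GQ V) (q : ℕ) [Fact q.Prime] :
    Function.Injective (resInv ρ q) := fun n n' h =>
  Subtype.ext (by rw [← coe_resInv (ρ := ρ) q n, h, coe_resInv])

end Defs

/-- Rank and nullity at the middle of an exact sequence. -/
theorem finrank_of_exact {k A B C : Type} [Field k] [AddCommGroup A] [Module k A]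
    [AddCommGroup B] [Module k B] [Module.Finite k B] [AddCommGroup C] [Module k C]
    (f : A →ₗ[k] B) (g : B →ₗ[k] C) (h : ∀ b, g b = 0 ↔ ∃ a, f a = b) :
    Module.finrank k B
      = Module.finrank k (LinearMap.range f) + Module.finrank k (LinearMap.range g) := by
  have hk : LinearMap.ker g = LinearMap.range f := by
    ext b
    rw [LinearMap.mem_ker, LinearMap.mem_range]
    exact h b
  have h1 := g.finrank_range_add_finrank_ker
  rw [hk] at h1
  omega

/-- Finiteness and dimension from a map with known kernel and range. -/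
theorem finrank_of_ker_range {k A B C K : Type} [Field k] [AddCommGroup A] [Module k A]
    [AddCommGroup B] [Module k B] [Module.Finite k B] [AddCommGroup C] [Module k C]
    [AddCommGroup K] [Module k K] [Module.Finite k K]
    (r : A →ₗ[k] B) (Λ : B →ₗ[k] C) (e : LinearMap.ker r ≃ₗ[k] K)
    (h : LinearMap.range r = LinearMap.ker Λ) (hΛ : LinearMap.range Λ = ⊤) :
    Module.Finite k A ∧ Module.finrank k A + Module.finrank k C
      = Module.finrank k K + Module.finrank k B := by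
  have : Module.Finite k (LinearMap.ker r) := Module.Finite.equiv e.symm
  have : Module.Finite k (A ⧸ LinearMap.ker r) := Module.Finite.equiv r.quotKerEquivRange.symm
  have : Module.Finite k A := Module.Finite.of_submodule_quotient (LinearMap.ker r)
  refine ⟨this, ?_⟩
  have h1 := r.finrank_range_add_finrank_ker
  rw [h, e.finrank_eq] at h1
  have h2 := Λ.finrank_range_add_finrank_ker
  rw [hΛ, finrank_top] at h2
  omega

namespace Trans

variable {X : Type} [Fintype X] [MulAction GQ X] (T : Trans LQ X) [hn : T.H.Normal]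
variable (hμ : ∀ s ∈ T.H, ExtCitation.cycloChar p s = 1)
variable {S : Finset Nat.Primes}

section Dim

variable {V : Type} [AddCommGroup V] [Module (ZMod p) V]
variable {W : Type} [AddCommGroup W] [Module (ZMod p) W]
variable {ρ : Representation (ZMod p) GQ V} {σ : Representation (ZMod p) GQ W}

theorem finite_LocH2 (P : DPair LQ (cycQ p).χ ρ σ) (S : Finset Nat.Primes) :
    Module.Finite (ZMod p) (LocH2 S ρ) ∧
      Module.finrank (ZMod p) (LocH2 S ρ) = ∑ q : {q // q ∈ S},
        Module.finrank (ZMod p) ↥(Representation.invariants (σ.comp (loc (q.1 : ℕ)))) := by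
  have := P.fin_right
  have he : ∀ q : {q // q ∈ S}, Module.Finite (ZMod p) (H2 (LL (q.1 : ℕ)) (ρ.comp (loc (q.1 : ℕ)))) ∧
      Module.finrank (ZMod p) (H2 (LL (q.1 : ℕ)) (ρ.comp (loc (q.1 : ℕ))))
        = Module.finrank (ZMod p) ↥(Representation.invariants (σ.comp (loc (q.1 : ℕ)))) := fun q =>
    let e := LinearEquiv.ofBijective (pair20Q (q.1 : ℕ) P) (perfectQ (q.1 : ℕ) P).bij20
    ⟨Module.Finite.equiv e.symm, e.finrank_eq.trans Subspace.dual_finrank_eq⟩
  have := fun q => (he q).1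
  have : ∀ q : {q // q ∈ S}, Module.Free (ZMod p) (H2 (LL (q.1 : ℕ)) (ρ.comp (loc (q.1 : ℕ)))) :=
    fun q => Module.Free.of_divisionRing _ _
  refine ⟨Module.Finite.pi, ?_⟩
  rw [Module.finrank_pi_fintype]
  exact Finset.sum_congr rfl fun q _ => (he q).2

/-- The pairing of local classes of degree two with the global invariants. -/
def h2Pair (S : Finset Nat.Primes) (P : DPair LQ (cycQ p).χ ρ σ) :
    LocH2 S ρ →ₗ[ZMod p] Module.Dual (ZMod p) ↥σ.invariants :=
  ∑ q : {q // q ∈ S}, (resInv σ (q.1 : ℕ)).dualMap ∘ₗ pair20Q (q.1 : ℕ) P ∘ₗ LinearMap.proj q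

theorem h2Pair_apply (P : DPair LQ (cycQ p).χ ρ σ) (v : LocH2 S ρ) (n : ↥σ.invariants) :
    h2Pair S P v n
      = ∑ q : {q // q ∈ S}, pair20Q (q.1 : ℕ) P (v q) (resInv σ (q.1 : ℕ) n) := by
  simp [h2Pair, LinearMap.sum_apply]

/-- Localisation at `S`. -/
def h2Res (S : Finset Nat.Primes) (ρ : Representation (ZMod p) GQ V) :
    h2S S ρ →ₗ[ZMod p] LocH2 S ρ :=
  (LinearMap.pi fun q : {q // q ∈ S} => resq2 (q.1 : ℕ) ρ).domRestrict (h2S S ρ)

theorem h2Res_apply (z : h2S S ρ) (q : {q // q ∈ S}) :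
    h2Res S ρ z q = resq2 (q.1 : ℕ) ρ z.1 := rfl

set_option maxHeartbeats 800000 in
-- the instances on local groups are slow to find
include hμ in
theorem range_h2Res (P : DPair LQ (cycQ p).χ ρ σ) (hp2 : p ≠ 2) (hρ : ∀ s ∈ T.H, ρ s = 1) :
    LinearMap.range (h2Res S ρ) = LinearMap.ker (h2Pair S P) := by
  ext v
  constructor
  · rintro ⟨z, rfl⟩
    refine LinearMap.mem_ker.2 (LinearMap.ext fun n => ?_)
    have key : ∀ q : {q // q ∈ S}, pair20Q (q.1 : ℕ) P (h2Res S ρ z q) (resInv σ (q.1 : ℕ) n)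
        = invQ p (q.1 : ℕ) (map2 Compat.id (P.bil.equi_right n.2) z.1) := by
      intro q
      rw [h2Res_apply, invQ_equi_right]
    rw [h2Pair_apply, LinearMap.zero_apply, Finset.sum_congr rfl fun q _ => key q]
    refine sum_invQ_eq_zero (map2 Compat.id (P.bil.equi_right n.2) z.1) (fun q hq => ?_)
      (invInf_of_ne_two hp2 _)
    rw [invQ_equi_right, mem_h2S.1 z.2 q hq, map_zero, LinearMap.zero_apply]
  · intro hv
    let w : ∀ q : Nat.Primes, H2 (LL (q : ℕ)) (ρ.comp (loc (q : ℕ))) :=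
      fun q => if h : q ∈ S then v ⟨q, h⟩ else 0
    have hw : ∀ q : Nat.Primes, q ∉ S → w q = 0 := fun q hq => dif_neg hq
    have hw' : ∀ q : {q // q ∈ S}, w q.1 = v q := fun q => dif_pos q.2
    clear_value w
    obtain ⟨z, hz⟩ := T.image_gen P hp2 hμ hρ S w hw fun n => by
      refine Eq.trans ?_ (LinearMap.congr_fun (LinearMap.mem_ker.1 hv) n)
      rw [h2Pair_apply]
      exact Finset.sum_congr rfl fun q _ => by rw [hw' q]
    exact ⟨⟨z, mem_h2S.2 fun q hq => (hz q).trans (hw q hq)⟩,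
      funext fun q => (h2Res_apply _ q).trans ((hz q.1).trans (hw' q))⟩

theorem range_h2Pair (P : DPair LQ (cycQ p).χ ρ σ) (hpS : (⟨p, hp.out⟩ : Nat.Primes) ∈ S) :
    LinearMap.range (h2Pair S P) = ⊤ := LinearMap.range_eq_top.2 fun f => by
  classical
  obtain ⟨g, hg⟩ := exists_dual_factor (resInv σ p) f fun n hn' => by
    rw [show n = 0 from resInv_injective σ _ (hn'.trans (map_zero _).symm), map_zero]
  obtain ⟨r₀, hr₀⟩ := (perfectQ p P).bij20.2 g
  let q₀ : {q // q ∈ S} := ⟨⟨p, hp.out⟩, hpS⟩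
  refine ⟨Pi.single q₀ r₀, LinearMap.ext fun n => ?_⟩
  rw [h2Pair_apply, Finset.sum_eq_single q₀
    (fun q _ hq => by rw [Pi.single_eq_of_ne hq, map_zero, LinearMap.zero_apply])
    (fun h => absurd (Finset.mem_univ _) h), Pi.single_eq_same]
  exact (LinearMap.congr_fun hr₀ _).trans (hg n)

theorem map_ker_h2Res :
    (LinearMap.ker (h2Res S ρ)).map (h2S S ρ).subtype = shaTwo ρ := by
  ext z
  constructor
  · rintro ⟨z, hz, rfl⟩
    refine mem_shaTwo.2 fun q => ?_
    by_cases hq : q ∈ S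
    · exact (h2Res_apply z ⟨q, hq⟩).symm.trans (congrFun (LinearMap.mem_ker.1 hz) ⟨q, hq⟩)
    · exact mem_h2S.1 z.2 q hq
  · exact fun hz => ⟨⟨z, mem_h2S.2 fun q _ => mem_shaTwo.1 hz q⟩,
      LinearMap.mem_ker.2 (funext fun q => (h2Res_apply _ q).trans (mem_shaTwo.1 hz q.1)), rfl⟩

include hμ in
/-- The dimension of the second cohomology supported at `S`. -/
theorem finrank_h2S (P : DPair LQ (cycQ p).χ ρ σ) (hp2 : p ≠ 2) (hρ : ∀ s ∈ T.H, ρ s = 1)
    (hS : T.BigS p S) :
    Module.Finite (ZMod p) (h2S S ρ) ∧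
      Module.finrank (ZMod p) (h2S S ρ) + Module.finrank (ZMod p) ↥σ.invariants
        = Module.finrank (ZMod p) (shaTwo ρ) + ∑ q : {q // q ∈ S},
          Module.finrank (ZMod p) ↥(Representation.invariants (σ.comp (loc (q.1 : ℕ)))) := by
  have := P.fin_right
  obtain ⟨-, hfin2, -⟩ := T.finrank_shaTwo P hp2 hμ hρ
  obtain ⟨hfinL, hdimL⟩ := finite_LocH2 P S
  let e : LinearMap.ker (h2Res S ρ) ≃ₗ[ZMod p] shaTwo ρ :=
    (Submodule.equivMapOfInjective _ (Submodule.injective_subtype _) _).trans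
      (LinearEquiv.ofEq _ _ map_ker_h2Res)
  have e1 := T.range_h2Res (S := S) hμ P hp2 hρ
  have e2 := range_h2Pair (S := S) P hS.ad.pmem
  have t1 := @finrank_of_ker_range (ZMod p) (h2S S ρ) (LocH2 S ρ)
    (Module.Dual (ZMod p) ↥σ.invariants) (shaTwo ρ) _ _ _ _ _ hfinL _ _ _ _ hfin2
  have t2 := t1 (h2Res S ρ)
  obtain ⟨hfin, h⟩ := t2 (h2Pair S P) e e1 e2
  refine ⟨hfin, ?_⟩
  rwa [Subspace.dual_finrank_eq, hdimL] at h

end Dim

section Seq

variable {A B C : Type} [AddCommGroup A] [Module (ZMod p) A] [AddCommGroup B]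
  [Module (ZMod p) B] [AddCommGroup C] [Module (ZMod p) C] [FiniteDimensional (ZMod p) B]
variable {ρA : Representation (ZMod p) GQ A} {ρB : Representation (ZMod p) GQ B}
  {ρC : Representation (ZMod p) GQ C}

set_option maxHeartbeats 1600000 in
-- the instances on local groups are slow to find
include hμ in
/-- The Euler characteristic at a large set is additive. -/
theorem eulerS_add (E : SES ρA ρB ρC) (hp2 : p ≠ 2) (hsB : Smooth LQ ρB)
    (hB : ∀ s ∈ T.H, ρB s = 1) (hS : T.BigS p S) :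
    eulerS S ρB = eulerS S ρA + eulerS S ρC := by
  classical
  have : FiniteDimensional (ZMod p) A := FiniteDimensional.of_injective E.i E.inj
  have : FiniteDimensional (ZMod p) C := Module.Finite.of_surjective E.q E.surj
  have hsA := E.smooth_fst hsB
  have hsC := E.smooth_snd hsB
  have hA : ∀ s ∈ T.H, ρA s = 1 := fun s hs => LinearMap.ext fun a => E.inj (by
    rw [E.i_equi, hB s hs]; rfl)
  have hC : ∀ s ∈ T.H, ρC s = 1 := fun s hs => LinearMap.ext fun c => by
    obtain ⟨b, rfl⟩ := E.surj c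
    rw [← E.q_equi, hB s hs]; rfl
  have := T.finite_unrOutside_big hμ hp2 hA hS
  have := T.finite_unrOutside_big hμ hp2 hB hS
  have := T.finite_unrOutside_big hμ hp2 hC hS
  have := (T.finrank_h2S hμ (DPair.canonical ρA hsA (cycQ p).smooth_chr) hp2 hA hS).1
  have := (T.finrank_h2S hμ (DPair.canonical ρB hsB (cycQ p).smooth_chr) hp2 hB hS).1
  have := (T.finrank_h2S hμ (DPair.canonical ρC hsC (cycQ p).smooth_chr) hp2 hC hS).1
  have hlocB : ∀ q : Nat.Primes, q ∉ S → UnrRep (ρB.comp (loc (q : ℕ))) :=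
    fun q hq => T.unrRep_big hB hS hq
  have hlocC : ∀ q : Nat.Primes, q ∉ S → UnrRep (ρC.comp (loc (q : ℕ))) :=
    fun q hq => T.unrRep_big hC hS hq
  -- the maps
  let f0 : ↥ρA.invariants →ₗ[ZMod p] ↥ρB.invariants :=
    (E.i.domRestrict ρA.invariants).codRestrict ρB.invariants fun a g => by
      show ρB g (E.i a.1) = E.i a.1
      rw [← E.i_equi, a.2 g]
  let g0 : ↥ρB.invariants →ₗ[ZMod p] ↥ρC.invariants :=
    (E.q.domRestrict ρB.invariants).codRestrict ρC.invariants fun a g => by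
      show ρC g (E.q a.1) = E.q a.1
      rw [← E.q_equi, a.2 g]
  let d0 : ↥ρC.invariants →ₗ[ZMod p] unrOutside S ρA :=
    (E.δ0 hsB).codRestrict _ fun n => δ0_mem_unrOutside E hsB hlocB n
  let f1 : unrOutside S ρA →ₗ[ZMod p] unrOutside S ρB :=
    E.i1.restrict fun _ hx => i1_mem_unrOutside E hx
  let g1 : unrOutside S ρB →ₗ[ZMod p] unrOutside S ρC :=
    E.q1.restrict fun _ hx => q1_mem_unrOutside E hx
  let d1 : unrOutside S ρC →ₗ[ZMod p] h2S S ρA :=
    (E.δ1 hsB).restrict fun c hc => mem_h2S.2 fun q hq => by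
      rw [resq2_δ1]
      exact δ1_res_eq_zero_of_unr E hsB (hlocB q hq) (mem_unrOutside.1 hc q hq)
  let f2 : h2S S ρA →ₗ[ZMod p] h2S S ρB :=
    E.i2.restrict fun z hz => mem_h2S.2 fun q hq => by
      rw [resq2_i2, mem_h2S.1 hz q hq, map_zero]
  let g2 : h2S S ρB →ₗ[ZMod p] h2S S ρC :=
    E.q2.restrict fun z hz => mem_h2S.2 fun q hq => by
      rw [resq2_q2, mem_h2S.1 hz q hq, map_zero]
  have hdisj : ∀ Sx : Finset Nat.Primes, Disjoint S (Sx \ S) := fun _ => Finset.disjoint_sdiff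
  -- exactness
  have x0 : Function.Injective f0 := fun a b h =>
    Subtype.ext (E.inj (congrArg Subtype.val h))
  have e0 : ∀ b, g0 b = 0 ↔ ∃ a, f0 a = b := fun b => by
    refine ⟨fun h => (E.exact_H0 (congrArg Subtype.val h)).imp fun a ha => Subtype.ext ha, ?_⟩
    rintro ⟨a, rfl⟩
    exact Subtype.ext (E.q_i a.1)
  have e0' : ∀ c, d0 c = 0 ↔ ∃ b, g0 b = c := fun c => by
    refine ⟨fun h => (E.exists_of_δ0_eq_zero hsB (congrArg Subtype.val h)).imp
      fun b hb => Subtype.ext hb, ?_⟩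
    rintro ⟨b, rfl⟩
    exact Subtype.ext (E.δ0_q hsB b (g0 b).2)
  have e1a : ∀ a, f1 a = 0 ↔ ∃ n, d0 n = a := fun a => by
    refine ⟨fun h => (E.exists_of_i1_eq_zero hsB (congrArg Subtype.val h)).imp
      fun b hb => Subtype.ext hb, ?_⟩
    rintro ⟨b, rfl⟩
    exact Subtype.ext (E.i1_δ0 hsB b)
  have e1b : ∀ b, g1 b = 0 ↔ ∃ a, f1 a = b := fun b => by
    refine ⟨fun h => ?_, ?_⟩
    · obtain ⟨a, ha⟩ := E.exists_of_q1_eq_zero hsB (congrArg Subtype.val h)
      refine ⟨⟨a, mem_unrOutside.2 fun q hq => mem_unrH1_of_map1 (E.res (loc (q : ℕ))).equi_i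
        E.inj (hlocB q hq) ?_⟩, Subtype.ext ha⟩
      show (E.res (loc (q : ℕ))).i1 _ ∈ _
      rw [← resq1_i1, ha]
      exact mem_unrOutside.1 b.2 q hq
    · rintro ⟨a, rfl⟩
      exact Subtype.ext (E.q1_i1 a.1)
  have e1c : ∀ c, d1 c = 0 ↔ ∃ b, g1 b = c := fun c => by
    refine ⟨fun h => ?_, ?_⟩
    · obtain ⟨b, hb⟩ := E.exists_of_δ1_eq_zero hsB (congrArg Subtype.val h)
      obtain ⟨Sb, hSb⟩ := exists_mem_unrOutside b
      have hy : ∀ q : Nat.Primes, ∃ y, q ∉ S →
          resq1 (q : ℕ) ρB b - (E.res (loc (q : ℕ))).i1 y ∈ unrH1 (ρB.comp (loc (q : ℕ))) := by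
        intro q
        by_cases hq : q ∈ S
        · exact ⟨0, fun h => absurd hq h⟩
        obtain ⟨u, hu, hue⟩ := exists_unr_lift (E.res (loc (q : ℕ))).equi_q E.surj (hlocB q hq)
          (hsB.comp compat_loc) (hsC.comp compat_loc) (mem_unrOutside.1 c.2 q hq)
        obtain ⟨y, hy⟩ := (E.res (loc (q : ℕ))).exists_of_q1_eq_zero (hsB.comp compat_loc)
          (b := resq1 (q : ℕ) ρB b - u) (by rw [map_sub, ← resq1_q1, hb, hue]; exact sub_self _)
        exact ⟨y, fun _ => by rw [hy, sub_sub_cancel]; exact hu⟩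
      choose y hy using hy
      obtain ⟨a, haJ, ha⟩ := T.exists_ram_big hμ hp2 hsA hA hS (hdisj Sb) y
      refine ⟨⟨b - E.i1 a, mem_unrOutside.2 fun q hq => ?_⟩, Subtype.ext ?_⟩
      · rw [map_sub, resq1_i1]
        by_cases hq' : q ∈ Sb
        · have h1 := map1_mem_unrH1 (E.res (loc (q : ℕ))).equi_i
            (ha q (Finset.mem_sdiff.2 ⟨hq', hq⟩))
          rw [map_sub] at h1
          simpa using sub_mem (hy q hq) h1
        · refine sub_mem (mem_unrOutside.1 hSb q hq') (map1_mem_unrH1 _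
            (mem_unrOutside.1 haJ q ?_))
          simp only [Finset.mem_union, Finset.mem_sdiff]
          tauto
      · show E.q1 (b - E.i1 a) = c.1
        rw [map_sub, E.q1_i1, sub_zero, hb]; rfl
    · rintro ⟨b, rfl⟩
      exact Subtype.ext (E.δ1_q1 hsB b.1)
  have e2a : ∀ a, f2 a = 0 ↔ ∃ c, d1 c = a := fun a => by
    refine ⟨fun h => ?_, ?_⟩
    · obtain ⟨c, hc⟩ := E.exists_of_i2_eq_zero hsB (congrArg Subtype.val h)
      obtain ⟨Sc, hSc⟩ := exists_mem_unrOutside c
      have hy : ∀ q : Nat.Primes, ∃ y, q ∉ S →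
          (E.res (loc (q : ℕ))).q1 y = resq1 (q : ℕ) ρC c := by
        intro q
        by_cases hq : q ∈ S
        · exact ⟨0, fun h => absurd hq h⟩
        obtain ⟨y, hy⟩ := (E.res (loc (q : ℕ))).exists_of_δ1_eq_zero (hsB.comp compat_loc)
          (c := resq1 (q : ℕ) ρC c) (by rw [← resq2_δ1 E hsB, hc]; exact mem_h2S.1 a.2 q hq)
        exact ⟨y, fun _ => hy⟩
      choose y hy using hy
      obtain ⟨b, hbJ, hb⟩ := T.exists_ram_big hμ hp2 hsB hB hS (hdisj Sc) y
      refine ⟨⟨c - E.q1 b, mem_unrOutside.2 fun q hq => ?_⟩, Subtype.ext ?_⟩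
      · rw [map_sub, resq1_q1]
        by_cases hq' : q ∈ Sc
        · rw [← hy q hq, ← map_sub, ← neg_sub (resq1 (q : ℕ) ρB b)]
          exact map1_mem_unrH1 _ (neg_mem (hb q (Finset.mem_sdiff.2 ⟨hq', hq⟩)))
        · refine sub_mem (mem_unrOutside.1 hSc q hq') (map1_mem_unrH1 _
            (mem_unrOutside.1 hbJ q ?_))
          simp only [Finset.mem_union, Finset.mem_sdiff]
          tauto
      · show E.δ1 hsB (c - E.q1 b) = a.1
        rw [map_sub, E.δ1_q1, sub_zero, hc]; rfl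
    · rintro ⟨c, rfl⟩
      exact Subtype.ext (E.i2_δ1 hsB c.1)
  have e2b : ∀ z, g2 z = 0 ↔ ∃ a, f2 a = z := fun z => by
    refine ⟨fun h => ?_, ?_⟩
    · obtain ⟨a, ha⟩ := E.exists_of_q2_eq_zero hsB (congrArg Subtype.val h)
      obtain ⟨Sa, hSa⟩ := exists_finset_resq2 hsA a
      have hy : ∀ q : Nat.Primes, ∃ y, q ∉ S →
          (E.res (loc (q : ℕ))).δ1 (hsB.comp compat_loc) y = resq2 (q : ℕ) ρA a := by
        intro q
        by_cases hq : q ∈ S
        · exact ⟨0, fun h => absurd hq h⟩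
        obtain ⟨y, hy⟩ := (E.res (loc (q : ℕ))).exists_of_i2_eq_zero (hsB.comp compat_loc)
          (a := resq2 (q : ℕ) ρA a) (by rw [← resq2_i2, ha]; exact mem_h2S.1 z.2 q hq)
        exact ⟨y, fun _ => hy⟩
      choose y hy using hy
      obtain ⟨c, hcJ, hc⟩ := T.exists_ram_big hμ hp2 hsC hC hS (hdisj Sa) y
      refine ⟨⟨a - E.δ1 hsB c, mem_h2S.2 fun q hq => ?_⟩, Subtype.ext ?_⟩
      · rw [map_sub, resq2_δ1]
        by_cases hq' : q ∈ Sa
        · rw [← hy q hq, ← map_sub, ← neg_sub (resq1 (q : ℕ) ρC c), map_neg,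
            δ1_res_eq_zero_of_unr E hsB (hlocB q hq) (hc q (Finset.mem_sdiff.2 ⟨hq', hq⟩)),
            neg_zero]
        · rw [hSa q hq', δ1_res_eq_zero_of_unr E hsB (hlocB q hq) (mem_unrOutside.1 hcJ q (by
            simp only [Finset.mem_union, Finset.mem_sdiff]
            tauto)), sub_zero]
      · show E.i2 (a - E.δ1 hsB c) = z.1
        rw [map_sub, E.i2_δ1, sub_zero, ha]; rfl
    · rintro ⟨a, rfl⟩
      exact Subtype.ext (E.q2_i2 a.1)
  have x2 : Function.Surjective g2 := fun w => by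
    obtain ⟨z, hz⟩ := T.exists_q2_eq E hB (T.augSurj hp2 hμ ρC hsC hC) w.1
    obtain ⟨Sz, hSz⟩ := exists_finset_resq2 hsB z
    have hy : ∀ q : Nat.Primes, ∃ v, q ∉ S →
        (E.res (loc (q : ℕ))).i2 v = resq2 (q : ℕ) ρB z := by
      intro q
      by_cases hq : q ∈ S
      · exact ⟨0, fun h => absurd hq h⟩
      obtain ⟨v, hv⟩ := (E.res (loc (q : ℕ))).exists_of_q2_eq_zero (hsB.comp compat_loc)
        (b := resq2 (q : ℕ) ρB z) (by rw [← resq2_q2, hz]; exact mem_h2S.1 w.2 q hq)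
      exact ⟨v, fun _ => hv⟩
    choose v hv using hy
    let PA := DPair.canonical ρA hsA (cycQ p).smooth_chr
    set pp : Nat.Primes := ⟨p, hp.out⟩
    set S₁ := Sz \ S
    have hpp : pp ∉ S₁ := fun h => (Finset.mem_sdiff.1 h).2 hS.ad.pmem
    obtain ⟨F, hF⟩ := exists_dual_factor (resInv (ρA.dual.twist (cycQ p).χ) (pp : ℕ))
      (-∑ q ∈ S₁, (pair20Q (q : ℕ) PA (v q)) ∘ₗ resInv (ρA.dual.twist (cycQ p).χ) (q : ℕ))
      fun n hn' => by
        rw [show n = 0 from resInv_injective _ _ (hn'.trans (map_zero _).symm), map_zero]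
    obtain ⟨r, hr⟩ := (perfectQ (pp : ℕ) PA).bij20.2 F
    let wl : ∀ q : Nat.Primes, H2 (LL (q : ℕ)) (ρA.comp (loc (q : ℕ))) :=
      Function.update (fun q => if q ∈ S₁ then v q else 0) pp r
    obtain ⟨a, ha⟩ := T.image_gen PA hp2 hμ hA (insert pp S₁) wl (fun q hq => by
      rw [Finset.mem_insert, not_or] at hq
      simp only [wl, Function.update_of_ne hq.1, if_neg hq.2]) fun n => by
      rw [Finset.sum_coe_sort (insert pp S₁)
          (fun q => pair20Q (q : ℕ) PA (wl q) (resInv (ρA.dual.twist (cycQ p).χ) (q : ℕ) n)),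
        Finset.sum_insert hpp]
      simp only [wl, Function.update_self]
      rw [hr, hF, LinearMap.neg_apply, LinearMap.sum_apply, ← sub_eq_neg_add, sub_eq_zero]
      exact Finset.sum_congr rfl fun q hq => by
        rw [Function.update_of_ne (fun h => hpp (by rwa [← h])), if_pos hq]; rfl
    refine ⟨⟨z - E.i2 a, mem_h2S.2 fun q hq => ?_⟩, Subtype.ext ?_⟩
    · have hqp : q ≠ pp := fun h => hq (by rw [h]; exact hS.ad.pmem)
      rw [map_sub, resq2_i2, ha q]
      simp only [wl, Function.update_of_ne hqp]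
      by_cases hq' : q ∈ Sz
      · rw [if_pos (show q ∈ S₁ from Finset.mem_sdiff.2 ⟨hq', hq⟩), hv q hq, sub_self]
      · rw [if_neg fun h => hq' (Finset.mem_sdiff.1 h).1, map_zero, hSz q hq', sub_zero]
    · show E.q2 (z - E.i2 a) = w.1
      rw [map_sub, E.q2_i2, sub_zero, hz]
  -- counting
  have r0 := LinearMap.finrank_range_of_inj x0
  have r1 := finrank_of_exact f0 g0 e0
  have r2 := finrank_of_exact g0 d0 e0'
  have r3 := finrank_of_exact d0 f1 e1a
  have r4 := finrank_of_exact f1 g1 e1b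
  have r5 := finrank_of_exact g1 d1 e1c
  have r6 := finrank_of_exact d1 f2 e2a
  have r7 := finrank_of_exact f2 g2 e2b
  rw [LinearMap.range_eq_top.2 x2, finrank_top] at r7
  simp only [eulerS]
  omega

end Seq

end Trans

end FA.GalCoh
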