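import Fermat.Agent.GalCoh.Basic

/-!
The long exact sequence in degrees at most two.
-/

set_option autoImplicit false
set_option linter.unusedSectionVars false

noncomputable section

namespace FA.GalCoh

open Representation

variable {G : Type} [Group G] {L : Levels G}
variable {k : Type} [Field k]
variable {A : Type} [AddCommGroup A] [Module k A]
variable {B : Type} [AddCommGroup B] [Module k B]
variable {C : Type} [AddCommGroup C] [Module k C]

/-- A short exact sequence of representations. -/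
structure SES (ρA : Representation k G A) (ρB : Representation k G B)
    (ρC : Representation k G C) where
  /-- The inclusion. -/
  i : A →ₗ[k] B
  /-- The projection. -/
  q : B →ₗ[k] C
  inj : Function.Injective i
  surj : Function.Surjective q
  exact : LinearMap.range i = LinearMap.ker q
  i_equi : ∀ g a, i (ρA g a) = ρB g (i a)
  q_equi : ∀ g b, q (ρB g b) = ρC g (q b)

namespace SES

variable {ρA : Representation k G A} {ρB : Representation k G B} {ρC : Representation k G C}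
  (E : SES ρA ρB ρC)

/-- A linear section of the projection. -/
def s : C →ₗ[k] B := (E.q.exists_rightInverse_of_surjective (LinearMap.range_eq_top.2 E.surj)).choose

@[simp] theorem q_s (c : C) : E.q (E.s c) = c :=
  LinearMap.congr_fun
    (E.q.exists_rightInverse_of_surjective (LinearMap.range_eq_top.2 E.surj)).choose_spec c

/-- A linear retraction of the inclusion. -/
def r : B →ₗ[k] A := (E.i.exists_leftInverse_of_injective (LinearMap.ker_eq_bot.2 E.inj)).choose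

@[simp] theorem r_i (a : A) : E.r (E.i a) = a :=
  LinearMap.congr_fun
    (E.i.exists_leftInverse_of_injective (LinearMap.ker_eq_bot.2 E.inj)).choose_spec a

@[simp] theorem q_i (a : A) : E.q (E.i a) = 0 := by
  have h : E.i a ∈ LinearMap.ker E.q := E.exact ▸ LinearMap.mem_range_self E.i a
  exact h

theorem exists_of_q_eq_zero {b : B} (h : E.q b = 0) : ∃ a, E.i a = b := by
  have h' : b ∈ LinearMap.range E.i := E.exact.symm ▸ h
  exact h'

theorem i_r {b : B} (h : E.q b = 0) : E.i (E.r b) = b := by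
  obtain ⟨a, rfl⟩ := E.exists_of_q_eq_zero h
  rw [E.r_i]

include E in
theorem smooth_fst (hB : Smooth L ρB) : Smooth L ρA := by
  obtain ⟨N, hN, h⟩ := hB
  exact ⟨N, hN, fun s hs => LinearMap.ext fun a => E.inj (by simp [E.i_equi, h s hs])⟩

include E in
theorem smooth_snd (hB : Smooth L ρB) : Smooth L ρC := by
  obtain ⟨N, hN, h⟩ := hB
  refine ⟨N, hN, fun s hs => LinearMap.ext fun c => ?_⟩
  obtain ⟨b, rfl⟩ := E.surj c
  rw [← E.q_equi, h s hs]
  rfl

theorem i_d1_r {b : G → B} (h : ∀ g, E.q (b g) = 0) (x : G × G) :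
    E.i (d1 ρA (fun g => E.r (b g)) x) = d1 ρB b x := by
  simp only [d1_apply, map_add, E.i.map_sub, E.i_equi, E.i_r (h _)]

theorem i_d0_r {b : B} (h : E.q b = 0) (g : G) : E.i (d0 ρA (E.r b) g) = d0 ρB b g := by
  simp only [d0_apply, E.i.map_sub, E.i_equi, E.i_r h]

theorem equi_i : Equi (MonoidHom.id G) ρA ρB E.i := fun g a => E.i_equi g a

theorem equi_q : Equi (MonoidHom.id G) ρB ρC E.q := fun g b => E.q_equi g b

/-- The map on first cohomology induced by the inclusion. -/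
abbrev i1 : H1 L ρA →ₗ[k] H1 L ρB := map1 Compat.id E.equi_i

/-- The map on first cohomology induced by the projection. -/
abbrev q1 : H1 L ρB →ₗ[k] H1 L ρC := map1 Compat.id E.equi_q

/-- The map on second cohomology induced by the inclusion. -/
abbrev i2 : H2 L ρA →ₗ[k] H2 L ρB := map2 Compat.id E.equi_i

/-- The map on second cohomology induced by the projection. -/
abbrev q2 : H2 L ρB →ₗ[k] H2 L ρC := map2 Compat.id E.equi_q

theorem q_d0_s {c : C} (hc : ∀ g, ρC g c = c) (g : G) : E.q (d0 ρB (E.s c) g) = 0 := by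
  simp [E.q_equi, hc]

theorem q_d1_s {c : G → C} (hc : c ∈ Z1 L ρC) (x : G × G) :
    E.q (d1 ρB (fun g => E.s (c g)) x) = 0 := by
  simp only [d1_apply, map_add, map_sub, E.q_equi, q_s, hc.2]
  abel

theorem mem_Z1_of_i {f : G → A} (h : (fun g => E.i (f g)) ∈ Z1 L ρB) : f ∈ Z1 L ρA := by
  refine ⟨?_, fun g j => E.inj (by rw [map_add, E.i_equi]; exact h.2 g j)⟩
  have := h.1.comp E.r
  simpa using this

theorem mem_Z2_of_i {f : G × G → A} (h : (fun x => E.i (f x)) ∈ Z2 L ρB) : f ∈ Z2 L ρA := by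
  refine ⟨?_, fun g j l => E.inj (by rw [map_add, map_add, E.i_equi]; exact h.2 g j l)⟩
  have := h.1.comp E.r
  simpa using this

/-- The connecting map on cochains in degree zero. -/
def δc0 : C →ₗ[k] (G → A) where
  toFun c g := E.r (d0 ρB (E.s c) g)
  map_add' c c' := by ext g; simp; abel
  map_smul' t c := by ext g; simp [smul_sub]

/-- The connecting map on cochains in degree one. -/
def δc1 : (G → C) →ₗ[k] (G × G → A) where
  toFun c x := E.r (d1 ρB (fun g => E.s (c g)) x)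
  map_add' c c' := by ext x; simp [d1_apply]; abel
  map_smul' t c := by ext x; simp [d1_apply, smul_sub, smul_add]

theorem δc0_apply (c : C) (g : G) : E.δc0 c g = E.r (d0 ρB (E.s c) g) := rfl

theorem δc1_apply (c : G → C) (x : G × G) :
    E.δc1 c x = E.r (d1 ρB (fun g => E.s (c g)) x) := rfl

theorem i_δc0 {c : C} (hc : ∀ g, ρC g c = c) :
    (fun g => E.i (E.δc0 c g)) = d0 ρB (E.s c) := by
  ext g
  exact E.i_r (E.q_d0_s hc g)

theorem i_δc1 {c : G → C} (hc : c ∈ Z1 L ρC) :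
    (fun x => E.i (E.δc1 c x)) = d1 ρB (fun g => E.s (c g)) := by
  ext x
  exact E.i_r (E.q_d1_s hc x)

variable (hB : Smooth L ρB)

include hB in
theorem δc0_mem {c : C} (hc : c ∈ ρC.invariants) : E.δc0 c ∈ Z1 L ρA :=
  E.mem_Z1_of_i (by rw [E.i_δc0 hc]; exact d0_mem_Z1 hB _)

include hB in
theorem δc1_mem {c : G → C} (hc : c ∈ Z1 L ρC) : E.δc1 c ∈ Z2 L ρA :=
  E.mem_Z2_of_i (by rw [E.i_δc1 hc]; exact d1_mem_Z2 hB (hc.1.comp E.s))

/-- The connecting map `H⁰ C → H¹ A`. -/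
def δ0 : ↥ρC.invariants →ₗ[k] H1 L ρA :=
  mk1 L ρA ∘ₗ
    { toFun := fun c => ⟨E.δc0 c.1, E.δc0_mem hB c.2⟩
      map_add' := fun c c' => Subtype.ext (map_add E.δc0 c.1 c'.1)
      map_smul' := fun t c => Subtype.ext (map_smul E.δc0 t c.1) }

/-- The connecting map on cocycles `Z¹ C → H² A`. -/
def δz1 : ↥(Z1 L ρC) →ₗ[k] H2 L ρA :=
  mk2 L ρA ∘ₗ
    { toFun := fun c => ⟨E.δc1 c.1, E.δc1_mem hB c.2⟩
      map_add' := fun c c' => Subtype.ext (map_add E.δc1 c.1 c'.1)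
      map_smul' := fun t c => Subtype.ext (map_smul E.δc1 t c.1) }

/-- The connecting map `H¹ C → H² A`. -/
def δ1 : H1 L ρC →ₗ[k] H2 L ρA :=
  Submodule.liftQ _ (E.δz1 hB) fun c hc => by
    obtain ⟨v, hv⟩ := hc
    refine (mk2_eq_zero L ρA _).2 ⟨fun g => E.r (E.s (c.1 g) - d0 ρB (E.s v) g), ?_, ?_⟩
    · exact ((c.2.1.comp E.s).map₂ (d0_mem_Z1 hB (E.s v)).1 (· - ·)).comp E.r
    · ext x
      show _ = E.δc1 c.1 x
      have hq : ∀ g, E.q (E.s (c.1 g) - d0 ρB (E.s v) g) = 0 := fun g => by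
        simp only [map_sub, q_s, d0_apply, E.q_equi]
        exact sub_eq_zero.2 (congrFun hv g).symm
      refine E.inj ?_
      rw [E.i_d1_r hq x, congrFun (E.i_δc1 c.2) x]
      simp only [d1_apply, d0_apply, map_sub, map_mul, Module.End.mul_apply]
      abel

theorem δ0_apply (c : ↥ρC.invariants) :
    E.δ0 hB c = mk1 L ρA ⟨E.δc0 c.1, E.δc0_mem hB c.2⟩ := rfl

theorem δ1_mk1 (c : ↥(Z1 L ρC)) :
    E.δ1 hB (mk1 L ρC c) = mk2 L ρA ⟨E.δc1 c.1, E.δc1_mem hB c.2⟩ := rfl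

theorem exact_H0 {b : ↥ρB.invariants} (h : E.q b.1 = 0) :
    ∃ a : ↥ρA.invariants, E.i a.1 = b.1 := by
  obtain ⟨a, ha⟩ := E.exists_of_q_eq_zero h
  exact ⟨⟨a, fun g => E.inj (by rw [E.i_equi, ha, b.2 g])⟩, ha⟩

include hB in
theorem exists_of_δ0_eq_zero {c : ↥ρC.invariants} (h : E.δ0 hB c = 0) :
    ∃ b : ↥ρB.invariants, E.q b.1 = c.1 := by
  obtain ⟨v, hv⟩ := (mk1_eq_zero L ρA _).1 h
  refine ⟨⟨E.s c.1 - E.i v, fun g => ?_⟩, by simp⟩
  have h' : E.i (d0 ρA v g) = d0 ρB (E.s c.1) g := by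
    rw [congrFun hv g]; exact congrFun (E.i_δc0 c.2) g
  simp only [d0_apply, map_sub, E.i_equi] at h' ⊢
  rw [sub_eq_sub_iff_sub_eq_sub, h']

include hB in
theorem δ0_q (b : ↥ρB.invariants) (hb : E.q b.1 ∈ ρC.invariants) :
    E.δ0 hB ⟨E.q b.1, hb⟩ = 0 := by
  refine (mk1_eq_zero L ρA _).2 ⟨E.r (E.s (E.q b.1) - b.1), ?_⟩
  ext g
  show _ = E.δc0 (E.q b.1) g
  refine E.inj ?_
  rw [E.i_d0_r (by simp) g, congrFun (E.i_δc0 (c := E.q b.1) hb) g]
  simp only [d0_apply, map_sub, b.2 g]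
  abel

include hB in
theorem i1_δ0 (c : ↥ρC.invariants) : E.i1 (E.δ0 hB c) = 0 := by
  refine (mk1_eq_zero L ρB _).2 ⟨E.s c.1, ?_⟩
  exact (E.i_δc0 c.2).symm

include hB in
theorem exists_of_i1_eq_zero {a : H1 L ρA} (h : E.i1 a = 0) :
    ∃ c : ↥ρC.invariants, E.δ0 hB c = a := by
  obtain ⟨a, rfl⟩ := mk1_surjective a
  obtain ⟨b, hb⟩ := (mk1_eq_zero L ρB _).1 h
  have hb' : ∀ g, d0 ρB b g = E.i (a.1 g) := fun g => congrFun hb g
  have hc : E.q b ∈ ρC.invariants := fun g => by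
    have := congrArg E.q (hb' g)
    simp only [d0_apply, map_sub, E.q_equi, q_i] at this
    exact sub_eq_zero.1 this
  refine ⟨⟨E.q b, hc⟩, (mk1_eq_mk1 L ρA _ _).2 ⟨E.r (E.s (E.q b) - b), ?_⟩⟩
  ext g
  show _ = E.δc0 (E.q b) g - a.1 g
  refine E.inj ?_
  rw [E.i_d0_r (by simp) g, E.i.map_sub, congrFun (E.i_δc0 hc) g, ← hb' g]
  simp only [d0_apply, map_sub]
  abel

theorem q1_i1 (a : H1 L ρA) : E.q1 (E.i1 a) = 0 := by
  obtain ⟨a, rfl⟩ := mk1_surjective a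
  exact (mk1_eq_zero L ρC _).2 ⟨0, by ext g; simp [mapZ1]⟩

include hB in
theorem exists_of_q1_eq_zero {b : H1 L ρB} (h : E.q1 b = 0) : ∃ a, E.i1 a = b := by
  obtain ⟨b, rfl⟩ := mk1_surjective b
  obtain ⟨v, hv⟩ := (mk1_eq_zero L ρC _).1 h
  have hv' : ∀ g, d0 ρC v g = E.q (b.1 g) := fun g => congrFun hv g
  have hi : (fun g => E.i (E.r ((b.1 - d0 ρB (E.s v)) g))) = b.1 - d0 ρB (E.s v) := by
    ext g
    refine E.i_r ?_
    simp only [Pi.sub_apply, map_sub, d0_apply, E.q_equi, q_s]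
    rw [← hv' g, d0_apply, sub_self]
  refine ⟨mk1 L ρA ⟨fun g => E.r ((b.1 - d0 ρB (E.s v)) g), E.mem_Z1_of_i (hi.symm ▸
    (Z1 L ρB).sub_mem b.2 (d0_mem_Z1 hB _))⟩, (mk1_eq_mk1 L ρB _ _).2 ⟨-E.s v, ?_⟩⟩
  ext g
  have h1 := congrFun hi g
  simp only [Pi.sub_apply] at h1
  show d0 ρB (-E.s v) g = E.i (E.r (b.1 g - d0 ρB (E.s v) g)) - b.1 g
  rw [h1, map_neg, Pi.neg_apply]
  abel

include hB in
theorem δ1_q1 (b : H1 L ρB) : E.δ1 hB (E.q1 b) = 0 := by
  obtain ⟨b, rfl⟩ := mk1_surjective b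
  refine (mk2_eq_zero L ρA _).2 ⟨fun g => E.r (E.s (E.q (b.1 g)) - b.1 g),
    ((b.2.1.comp fun x => E.s (E.q x) - x)).comp E.r, ?_⟩
  ext x
  show _ = E.δc1 (fun g => E.q (b.1 g)) x
  refine E.inj ?_
  have hb : (fun g => E.q (b.1 g)) ∈ Z1 L ρC := pp1_mem_Z1 Compat.id E.equi_q b.2
  rw [E.i_d1_r (fun g => by simp) x, congrFun (E.i_δc1 hb) x]
  simp only [d1_apply, map_sub, b.2.2]
  abel

include hB in
theorem exists_of_δ1_eq_zero {c : H1 L ρC} (h : E.δ1 hB c = 0) : ∃ b, E.q1 b = c := by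
  obtain ⟨c, rfl⟩ := mk1_surjective c
  obtain ⟨a, ha, hda⟩ := (mk2_eq_zero L ρA _).1 h
  have hb : (fun g => E.s (c.1 g) - E.i (a g)) ∈ Z1 L ρB := by
    rw [mem_Z1_iff_d1]
    refine ⟨(c.2.1.comp E.s).map₂ (ha.comp E.i) (· - ·), ?_⟩
    ext x
    have h1 : E.i (d1 ρA a x) = d1 ρB (fun g => E.s (c.1 g)) x := by
      rw [congrFun hda x]; exact congrFun (E.i_δc1 c.2) x
    simp only [d1_apply, map_add, E.i.map_sub, E.i_equi] at h1 ⊢
    simp only [map_sub, Pi.zero_apply]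
    rw [← sub_eq_zero.2 h1.symm]
    abel
  refine ⟨mk1 L ρB ⟨_, hb⟩, congrArg (mk1 L ρC) (Subtype.ext (funext fun g => ?_))⟩
  show E.q (E.s (c.1 g) - E.i (a g)) = c.1 g
  simp

include hB in
theorem i2_δ1 (c : H1 L ρC) : E.i2 (E.δ1 hB c) = 0 := by
  obtain ⟨c, rfl⟩ := mk1_surjective c
  refine (mk2_eq_zero L ρB _).2 ⟨fun g => E.s (c.1 g), c.2.1.comp E.s, ?_⟩
  exact (E.i_δc1 c.2).symm

include hB in
theorem exists_of_i2_eq_zero {a : H2 L ρA} (h : E.i2 a = 0) : ∃ c, E.δ1 hB c = a := by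
  obtain ⟨a, rfl⟩ := mk2_surjective a
  obtain ⟨b, hb, hdb⟩ := (mk2_eq_zero L ρB _).1 h
  have hdb' : ∀ x, d1 ρB b x = E.i (a.1 x) := fun x => congrFun hdb x
  have hc : (fun g => E.q (b g)) ∈ Z1 L ρC := by
    refine ⟨hb.comp E.q, fun g j => ?_⟩
    have := congrArg E.q (hdb' (g, j))
    simp only [d1_apply, map_add, map_sub, E.q_equi, q_i] at this
    rw [← sub_eq_zero, ← neg_eq_zero, ← this]; abel
  refine ⟨mk1 L ρC ⟨_, hc⟩, (mk2_eq_mk2 L ρA _ _).2
    ⟨fun g => E.r (E.s (E.q (b g)) - b g), (hb.comp fun x => E.s (E.q x) - x).comp E.r, ?_⟩⟩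
  ext x
  show _ = E.δc1 (fun g => E.q (b g)) x - a.1 x
  refine E.inj ?_
  rw [E.i_d1_r (fun g => by simp) x, E.i.map_sub, congrFun (E.i_δc1 hc) x, ← hdb' x]
  simp only [d1_apply, map_sub]
  abel

theorem q2_i2 (a : H2 L ρA) : E.q2 (E.i2 a) = 0 := by
  obtain ⟨a, rfl⟩ := mk2_surjective a
  exact (mk2_eq_zero L ρC _).2 ⟨0, LC₁.const 0, by ext x; simp [mapZ2]⟩

include hB in
theorem exists_of_q2_eq_zero {b : H2 L ρB} (h : E.q2 b = 0) : ∃ a, E.i2 a = b := by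
  obtain ⟨b, rfl⟩ := mk2_surjective b
  obtain ⟨v, hv, hdv⟩ := (mk2_eq_zero L ρC _).1 h
  have hsv : LC₁ L (fun g => E.s (v g)) := hv.comp E.s
  have hi : (fun x => E.i (E.r ((b.1 - d1 ρB (fun g => E.s (v g))) x)))
      = b.1 - d1 ρB (fun g => E.s (v g)) := by
    ext x
    refine E.i_r ?_
    have h1 : d1 ρC v x = E.q (b.1 x) := congrFun hdv x
    simp only [Pi.sub_apply, map_sub, d1_apply, map_add, E.q_equi, q_s]
    rw [← h1, d1_apply, sub_self]
  refine ⟨mk2 L ρA ⟨_, E.mem_Z2_of_i (f := fun x => E.r ((b.1 - d1 ρB (fun g => E.s (v g))) x))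
    (hi.symm ▸ (Z2 L ρB).sub_mem b.2 (d1_mem_Z2 hB hsv))⟩,
    (mk2_eq_mk2 L ρB _ _).2 ⟨-fun g => E.s (v g), hsv.comp Neg.neg, ?_⟩⟩
  ext x
  have h1 := congrFun hi x
  simp only [Pi.sub_apply] at h1
  show d1 ρB (-fun g => E.s (v g)) x
    = E.i (E.r (b.1 x - d1 ρB (fun g => E.s (v g)) x)) - b.1 x
  rw [h1, map_neg, Pi.neg_apply]
  abel

end SES

end FA.GalCoh
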