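import Fermat.Agent.GalCoh.UMod

/-!
The levels of the automorphism group of a Galois extension: subgroups containing the fixing
subgroup of a finite subextension.
-/

set_option autoImplicit false
set_option linter.unusedSectionVars false

noncomputable section

namespace FA.GalCoh

variable (F Ω : Type) [Field F] [Field Ω] [Algebra F Ω] [IsGalois F Ω]

theorem fixingSubgroup_normal (E : IntermediateField F Ω) [Normal F E] :
    E.fixingSubgroup.Normal := by
  rw [← E.restrictNormalHom_ker]
  infer_instance

theorem fixingSubgroup_finiteIndex (E : IntermediateField F Ω) [FiniteDimensional F E] :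
    E.fixingSubgroup.FiniteIndex := by
  have hle := E.fixingSubgroup_antitone E.le_normalClosure
  have : (IntermediateField.normalClosure F E Ω).fixingSubgroup.FiniteIndex := by
    rw [← (IntermediateField.normalClosure F E Ω).restrictNormalHom_ker]
    infer_instance
  exact Subgroup.finiteIndex_of_le hle

/-- The levels of the Galois group: subgroups containing the fixing subgroup of a finite
subextension. -/
def fieldLevels : Levels (Ω ≃ₐ[F] Ω) where
  carrier := {N | ∃ E : IntermediateField F Ω, FiniteDimensional F E ∧ E.fixingSubgroup ≤ N}
  top_mem := ⟨⊥, inferInstance, le_top⟩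
  inf_mem := by
    rintro N N' ⟨E, hE, h⟩ ⟨E', hE', h'⟩
    refine ⟨E ⊔ E', inferInstance, ?_⟩
    rw [IntermediateField.fixingSubgroup_sup]
    exact inf_le_inf h h'
  exists_normal := by
    rintro N ⟨E, hE, h⟩
    exact ⟨(IntermediateField.normalClosure F E Ω).fixingSubgroup, ⟨_, inferInstance, le_rfl⟩,
      (IntermediateField.fixingSubgroup_antitone E.le_normalClosure).trans h,
      fixingSubgroup_normal F Ω _⟩
  finiteIndex := by
    rintro N ⟨E, hE, h⟩
    have := fixingSubgroup_finiteIndex F Ω E
    exact Subgroup.finiteIndex_of_le h

variable {F Ω}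

theorem fixingSubgroup_mem_fieldLevels (E : IntermediateField F Ω) [FiniteDimensional F E] :
    E.fixingSubgroup ∈ (fieldLevels F Ω).carrier := ⟨E, inferInstance, le_rfl⟩

theorem galAct_fieldLevels : GalAct (fieldLevels F Ω) Ω where
  smooth x := by
    have := IntermediateField.adjoin.finiteDimensional
      ((Algebra.IsAlgebraic.isAlgebraic (R := F) x).isIntegral)
    exact ⟨_, fixingSubgroup_mem_fieldLevels (IntermediateField.adjoin F {x}), fun s hs =>
      (IntermediateField.mem_fixingSubgroup_iff _ s).1 hs x
        (IntermediateField.mem_adjoin_simple_self F x)⟩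
  closed := by
    rintro N ⟨E, hE, h⟩
    refine ⟨(IntermediateField.normalClosure F E Ω).fixingSubgroup, ⟨_, inferInstance, le_rfl⟩,
      (IntermediateField.fixingSubgroup_antitone E.le_normalClosure).trans h,
      fixingSubgroup_normal F Ω _, fun g hg => ?_⟩
    exact (IntermediateField.mem_fixingSubgroup_iff _ g).2 fun x hx =>
      hg x fun s hs => (IntermediateField.mem_fixingSubgroup_iff _ s).1 hs x hx

/-- A subgroup which is a level has finite dimensional fixed field. -/
theorem finiteDimensional_fixedField {H : Subgroup (Ω ≃ₐ[F] Ω)}
    (hH : H ∈ (fieldLevels F Ω).carrier) :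
    FiniteDimensional F (IntermediateField.fixedField H) := by
  obtain ⟨E, hE, h⟩ := hH
  have hle : IntermediateField.fixedField H ≤ E := by
    conv_rhs => rw [← InfiniteGalois.fixedField_fixingSubgroup E]
    exact IntermediateField.fixedField_antitone h
  exact FiniteDimensional.of_injective (IntermediateField.inclusion hle).toLinearMap
    (IntermediateField.inclusion_injective hle)

end FA.GalCoh
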