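import Mathlib

/-!
Rational endomorphisms of finite order: the characteristic polynomial is determined by the
dimensions of the fixed spaces of the powers.
-/

set_option autoImplicit false
set_option linter.unusedSectionVars false

noncomputable section

namespace FA.GalCoh.FiniteOrder

open Polynomial Module

variable {V : Type} [AddCommGroup V] [Module ℚ V] [FiniteDimensional ℚ V]

/-- The fixed space of a power. -/
abbrev fixSub (A : Module.End ℚ V) (m : ℕ) : Submodule ℚ V := LinearMap.ker (A ^ m - 1)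

theorem mem_fixSub {A : Module.End ℚ V} {m : ℕ} {x : V} :
    x ∈ fixSub A m ↔ (A ^ m) x = x := by
  simp [LinearMap.mem_ker, sub_eq_zero]

theorem injective_aeval_prod {A : Module.End ℚ V} {ι : Type*} (s : Finset ι) (P : ι → ℚ[X])
    (h : ∀ i ∈ s, Function.Injective (aeval A (P i))) :
    Function.Injective (aeval A (∏ i ∈ s, P i)) := by
  classical
  induction s using Finset.induction_on with
  | empty => intro x y h; simpa using h
  | insert i s hi ih =>
    rw [Finset.prod_insert hi, map_mul, Module.End.mul_eq_comp, LinearMap.coe_comp]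
    exact (h i (Finset.mem_insert_self i s)).comp
      (ih fun j hj => h j (Finset.mem_insert_of_mem hj))

theorem aeval_cyclotomic_eq_zero {A : Module.End ℚ V} {m : ℕ} (hm : 0 < m) (hA : A ^ m = 1)
    (hmin : ∀ j, 0 < j → j < m → fixSub A j = ⊥) : aeval A (cyclotomic m ℚ) = 0 := by
  classical
  have hprod := prod_cyclotomic_eq_X_pow_sub_one hm ℚ
  rw [← Nat.insert_self_properDivisors hm.ne', Finset.prod_insert (by simp)] at hprod
  have hinj : Function.Injective (aeval A (∏ e ∈ m.properDivisors, cyclotomic e ℚ)) := by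
    refine injective_aeval_prod _ _ fun e he => ?_
    obtain ⟨hem, helt⟩ := Nat.mem_properDivisors.1 he
    rw [← LinearMap.ker_eq_bot, eq_bot_iff, ← hmin e (Nat.pos_of_dvd_of_pos hem hm) helt]
    intro x hx
    obtain ⟨q, hq⟩ := cyclotomic.dvd_X_pow_sub_one e ℚ
    rw [mem_fixSub]
    have : aeval A (X ^ e - 1 : ℚ[X]) x = 0 := by
      rw [hq, mul_comm, map_mul, Module.End.mul_apply, LinearMap.mem_ker.1 hx, map_zero]
    simpa [sub_eq_zero] using this
  refine LinearMap.ext fun x => hinj ?_
  have := LinearMap.congr_fun (congrArg (aeval A) hprod) x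
  rw [mul_comm, map_mul, Module.End.mul_apply] at this
  simpa [hA] using this

theorem eq_cyclotomic_of_irreducible_dvd {A : Module.End ℚ V} {m : ℕ} (hm : 0 < m)
    (hA : aeval A (cyclotomic m ℚ) = 0) {Q : ℚ[X]} (hQ : Irreducible Q) (hQm : Q.Monic)
    (hdvd : Q ∣ A.charpoly) : Q = cyclotomic m ℚ := by
  classical
  haveI : Fact (Irreducible Q) := ⟨hQ⟩
  have key : ∀ P : ℚ[X], aeval (AdjoinRoot.root Q) P = AdjoinRoot.mk Q P := fun P => by
    rw [aeval_def, Subsingleton.elim (algebraMap ℚ (AdjoinRoot Q)) (AdjoinRoot.of Q)]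
    induction P using Polynomial.induction_on' with
    | add a b ha hb => rw [eval₂_add, map_add, ha, hb]
    | monomial j a =>
      rw [eval₂_monomial, ← C_mul_X_pow_eq_monomial, map_mul, map_pow, AdjoinRoot.mk_C,
        AdjoinRoot.mk_X]
  let b := Module.finBasis ℚ V
  let M : Matrix (Fin (finrank ℚ V)) (Fin (finrank ℚ V)) (AdjoinRoot Q) :=
    ((LinearMap.toMatrixAlgEquiv b) A).map (algebraMap ℚ (AdjoinRoot Q))
  have hM0 : aeval M (cyclotomic m ℚ) = 0 := by
    have h1 : aeval ((LinearMap.toMatrixAlgEquiv b) A) (cyclotomic m ℚ) = 0 := by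
      rw [← AlgEquiv.coe_toAlgHom, aeval_algHom_apply, hA, map_zero]
    have h2 := aeval_algHom_apply ((Algebra.ofId ℚ (AdjoinRoot Q)).mapMatrix (m := Fin (finrank ℚ V)))
      ((LinearMap.toMatrixAlgEquiv b) A) (cyclotomic m ℚ)
    rw [h1, map_zero] at h2
    exact h2
  let f : Module.End (AdjoinRoot Q) (Fin (finrank ℚ V) → (AdjoinRoot Q)) := Matrix.toLinAlgEquiv' M
  have hroot : f.charpoly.IsRoot (AdjoinRoot.root Q) := by
    have e : f.charpoly = A.charpoly.map (algebraMap ℚ (AdjoinRoot Q)) := by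
      show (Matrix.toLin' M).charpoly = _
      rw [Matrix.charpoly_toLin', ← LinearMap.charpoly_toMatrix A b]
      exact Matrix.charpoly_map _ _
    rw [e, IsRoot.def, eval_map_algebraMap]
    exact aeval_eq_zero_of_dvd_aeval_eq_zero hdvd (by rw [key, AdjoinRoot.mk_self])
  obtain ⟨v, hv⟩ := ((Module.End.hasEigenvalue_iff_isRoot_charpoly f _).2 hroot).exists_hasEigenvector
  have hf0 : aeval f ((cyclotomic m ℚ).map (algebraMap ℚ (AdjoinRoot Q))) = 0 := by
    rw [show f = (Matrix.toLinAlgEquiv' (R := (AdjoinRoot Q)) (n := Fin (finrank ℚ V))).toAlgHom M from rfl,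
      aeval_algHom_apply, aeval_map_algebraMap, hM0, map_zero]
  have := Module.End.aeval_apply_of_hasEigenvector (p := (cyclotomic m ℚ).map (algebraMap ℚ (AdjoinRoot Q))) hv
  rw [hf0, LinearMap.zero_apply, eq_comm, smul_eq_zero] at this
  have hPhi : aeval (AdjoinRoot.root Q) (cyclotomic m ℚ) = 0 := by
    rw [← eval_map_algebraMap]
    exact this.resolve_right hv.2
  rw [key, AdjoinRoot.mk_eq_zero] at hPhi
  exact eq_of_monic_of_associated hQm (cyclotomic.monic m ℚ)
    (hQ.associated_of_dvd (cyclotomic.irreducible_rat hm) hPhi)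

theorem exists_pow_of_monic_factors {Φ : ℚ[X]} (hΦm : Φ.Monic) (hΦ : Irreducible Φ) :
    ∀ P : ℚ[X], P.Monic → (∀ Q : ℚ[X], Q.Monic → Irreducible Q → Q ∣ P → Q = Φ) →
      ∃ j, P = Φ ^ j := by
  intro P
  induction hd : P.natDegree using Nat.strong_induction_on generalizing P with
  | _ d ih =>
    intro hP hfac
    by_cases hu : IsUnit P
    · exact ⟨0, by rw [pow_zero]; exact hP.eq_one_of_isUnit hu⟩
    obtain ⟨Q, hQm, hQi, hQd⟩ := exists_monic_irreducible_factor P hu
    obtain rfl := hfac Q hQm hQi hQd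
    obtain ⟨P', rfl⟩ := hQd
    have hP' : P'.Monic := hQm.of_mul_monic_left hP
    have hlt : P'.natDegree < d := by
      rw [← hd, hQm.natDegree_mul hP']
      have := hQi.natDegree_pos
      omega
    obtain ⟨j, hj⟩ := ih _ hlt P' rfl hP' fun Q' h1 h2 h3 => hfac Q' h1 h2 (h3.mul_left Q)
    exact ⟨j + 1, by rw [hj, pow_succ']⟩

theorem charpoly_of_minimal {A : Module.End ℚ V} {m : ℕ} (hm : 0 < m) (hA : A ^ m = 1)
    (hmin : ∀ j, 0 < j → j < m → fixSub A j = ⊥) :
    A.charpoly = cyclotomic m ℚ ^ (finrank ℚ V / m.totient) := by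
  have h0 := aeval_cyclotomic_eq_zero hm hA hmin
  obtain ⟨j, hj⟩ := exists_pow_of_monic_factors (cyclotomic.monic m ℚ)
    (cyclotomic.irreducible_rat hm) A.charpoly (LinearMap.charpoly_monic A)
    fun Q h1 h2 h3 => eq_cyclotomic_of_irreducible_dvd hm h0 h2 h1 h3
  have hd := congrArg natDegree hj
  rw [LinearMap.charpoly_natDegree, natDegree_pow, natDegree_cyclotomic] at hd
  rw [hd, Nat.mul_div_cancel _ (Nat.totient_pos.2 hm), hj]

omit [FiniteDimensional ℚ V] in
theorem comm_pow {A : Module.End ℚ V} (m j : ℕ) (x : V) :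
    (A ^ m - 1) ((A ^ j) x) = (A ^ j) ((A ^ m - 1) x) := by
  simp only [LinearMap.sub_apply, Module.End.one_apply, map_sub]
  rw [← Module.End.mul_apply, ← Module.End.mul_apply, ← pow_add, ← pow_add, add_comm]

theorem isCompl_fix_range {A : Module.End ℚ V} {n : ℕ} (hn : 0 < n) (hA : A ^ n = 1) (m : ℕ) :
    IsCompl (fixSub A m) (LinearMap.range (A ^ m - 1)) := by
  have hdim : finrank ℚ (fixSub A m) + finrank ℚ (LinearMap.range (A ^ m - 1)) = finrank ℚ V := by
    rw [add_comm]
    exact LinearMap.finrank_range_add_finrank_ker _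
  have hdisj : Disjoint (fixSub A m) (LinearMap.range (A ^ m - 1)) := by
    rw [Submodule.disjoint_def]
    rintro x hx ⟨y, rfl⟩
    rw [mem_fixSub] at hx
    set z := (A ^ m - 1) y with hz
    have hy : (A ^ m) y = y + z := by rw [hz]; simp
    have hj : ∀ j : ℕ, ((A ^ m) ^ j) y = y + (j : ℚ) • z := by
      intro j
      induction j with
      | zero => simp
      | succ j ih =>
        rw [pow_succ', Module.End.mul_apply, ih, map_add, map_smul, hx, hy]
        push_cast
        module
    have := hj n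
    rw [← pow_mul, mul_comm, pow_mul, hA, one_pow] at this
    simpa [hn.ne'] using this
  exact (Submodule.isCompl_iff_disjoint _ _ hdim.ge).2 hdisj

/-- Splitting off the fixed space of a power. -/
theorem exists_split {A : Module.End ℚ V} {n : ℕ} (hn : 0 < n) (hA : A ^ n = 1) (m : ℕ) :
    ∃ (T : Module.End ℚ (fixSub A m)) (S : Module.End ℚ (LinearMap.range (A ^ m - 1))),
      T ^ m = 1 ∧ S ^ n = 1 ∧ A.charpoly = T.charpoly * S.charpoly ∧
      ∀ j, finrank ℚ (fixSub A j) = finrank ℚ (fixSub T j) + finrank ℚ (fixSub S j) := by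
  have hW : ∀ x ∈ fixSub A m, A x ∈ fixSub A m := fun x hx => by
    rw [LinearMap.mem_ker, show A x = (A ^ 1) x by simp, comm_pow, LinearMap.mem_ker.1 hx, map_zero]
  have hR : ∀ x ∈ LinearMap.range (A ^ m - 1), A x ∈ LinearMap.range (A ^ m - 1) := by
    rintro _ ⟨y, rfl⟩
    exact ⟨(A ^ 1) y, by rw [comm_pow]; simp⟩
  let T : Module.End ℚ (fixSub A m) := A.restrict hW
  let S : Module.End ℚ (LinearMap.range (A ^ m - 1)) := A.restrict hR
  let e := Submodule.prodEquivOfIsCompl _ _ (isCompl_fix_range hn hA m)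
  have hT : ∀ (j : ℕ) x, (((T ^ j) x : fixSub A m) : V) = (A ^ j) x := by
    intro j
    induction j with
    | zero => simp
    | succ j ih =>
      intro x
      rw [pow_succ', pow_succ', Module.End.mul_apply, Module.End.mul_apply, ← ih]
      rfl
  have hS : ∀ (j : ℕ) x,
      (((S ^ j) x : LinearMap.range (A ^ m - 1)) : V) = (A ^ j) x := by
    intro j
    induction j with
    | zero => simp
    | succ j ih =>
      intro x
      rw [pow_succ', pow_succ', Module.End.mul_apply, Module.End.mul_apply, ← ih]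
      rfl
  refine ⟨T, S, ?_, ?_, ?_, fun j => ?_⟩
  · ext x
    rw [hT]
    exact mem_fixSub.1 x.2
  · ext x
    rw [hS, hA]
    rfl
  · have : e.conj (T.prodMap S) = A := by
      ext v
      obtain ⟨⟨a, b⟩, rfl⟩ := e.surjective v
      simp [LinearEquiv.conj_apply, e, T, S]
    rw [← LinearMap.charpoly_prodMap, ← LinearEquiv.charpoly_conj e, this]
  · let f : (fixSub T j) × (fixSub S j) →ₗ[ℚ] V :=
      e.toLinearMap ∘ₗ ((fixSub T j).subtype.prodMap (fixSub S j).subtype)
    have hf : Function.Injective f := by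
      rintro ⟨a, b⟩ ⟨a', b'⟩ hab
      have := e.injective hab
      simp only [LinearMap.prodMap_apply, Submodule.subtype_apply, Prod.mk.injEq] at this
      exact Prod.ext (Subtype.ext this.1) (Subtype.ext this.2)
    have hrange : LinearMap.range f = fixSub A j := by
      ext v
      obtain ⟨⟨a, b⟩, rfl⟩ := e.surjective v
      have he : (A ^ j) (e (a, b)) = e ((T ^ j) a, (S ^ j) b) := by
        simp [e, hT, hS]
      rw [mem_fixSub, he, e.injective.eq_iff]
      constructor
      · rintro ⟨⟨a', b'⟩, h⟩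
        have h' := e.injective h
        simp only [LinearMap.prodMap_apply, Submodule.subtype_apply, Prod.mk.injEq] at h'
        rw [Prod.mk.injEq, ← h'.1, ← h'.2]
        exact ⟨mem_fixSub.1 a'.2, mem_fixSub.1 b'.2⟩
      · intro h
        rw [Prod.mk.injEq] at h
        exact ⟨⟨⟨a, mem_fixSub.2 h.1⟩, ⟨b, mem_fixSub.2 h.2⟩⟩, rfl⟩
    rw [← hrange, LinearMap.finrank_range_of_inj hf, Module.finrank_prod]

theorem finrank_fixSub_of_minimal {A : Module.End ℚ V} {m : ℕ} (hm : 0 < m) (hA : A ^ m = 1)
    (hmin : ∀ j, 0 < j → j < m → fixSub A j = ⊥) (j : ℕ) :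
    finrank ℚ (fixSub A j) = if m ∣ j then finrank ℚ V else 0 := by
  have hred : fixSub A j = fixSub A (j % m) := by
    show LinearMap.ker _ = LinearMap.ker _
    rw [pow_eq_pow_mod j hA]
  split_ifs with h
  · have : fixSub A j = ⊤ := by
      rw [hred, Nat.mod_eq_zero_of_dvd h]
      simp [fixSub]
    rw [this, finrank_top]
  · rw [hred, hmin _ (Nat.pos_of_ne_zero fun h0 => h (Nat.dvd_of_mod_eq_zero h0))
      (Nat.mod_lt _ hm), finrank_bot]

omit [FiniteDimensional ℚ V] in
theorem finrank_fixSub_period {A : Module.End ℚ V} {n : ℕ} (hA : A ^ n = 1) :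
    finrank ℚ (fixSub A n) = finrank ℚ V := by
  have : fixSub A n = ⊤ := by simp [fixSub, hA]
  rw [this, finrank_top]

/-- The characteristic polynomial of a rational endomorphism of finite order is determined by
the dimensions of the fixed spaces of its powers. -/
theorem charpoly_eq_of_fixed {n : ℕ} (hn : 0 < n) (d : ℕ) :
    ∀ {V V' : Type} [AddCommGroup V] [Module ℚ V] [FiniteDimensional ℚ V] [AddCommGroup V']
      [Module ℚ V'] [FiniteDimensional ℚ V'] (A : Module.End ℚ V) (A' : Module.End ℚ V'),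
      finrank ℚ V = d → A ^ n = 1 → A' ^ n = 1 →
      (∀ m, 0 < m → finrank ℚ (fixSub A m) = finrank ℚ (fixSub A' m)) →
      A.charpoly = A'.charpoly := by
  induction d using Nat.strong_induction_on with
  | _ d ih =>
    intro V V' _ _ _ _ _ _ A A' hd hA hA' h
    have hdim : finrank ℚ V = finrank ℚ V' := by
      rw [← finrank_fixSub_period hA, ← finrank_fixSub_period hA', h n hn]
    by_cases h0 : d = 0
    · rw [(LinearMap.charpoly_monic A).natDegree_eq_zero.1
        (by rw [LinearMap.charpoly_natDegree, hd, h0]),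
        (LinearMap.charpoly_monic A').natDegree_eq_zero.1
        (by rw [LinearMap.charpoly_natDegree, ← hdim, hd, h0])]
    classical
    have hex : ∃ m, 0 < m ∧ finrank ℚ (fixSub A m) ≠ 0 :=
      ⟨n, hn, by rw [finrank_fixSub_period hA, hd]; exact h0⟩
    let m := Nat.find hex
    obtain ⟨hm, hmne⟩ : 0 < m ∧ finrank ℚ (fixSub A m) ≠ 0 := Nat.find_spec hex
    have hminA : ∀ j, 0 < j → j < m → finrank ℚ (fixSub A j) = 0 := fun j hj hjm => by
      by_contra hne
      exact Nat.find_min hex hjm ⟨hj, hne⟩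
    obtain ⟨T, S, hT, hS, hcp, hfix⟩ := exists_split hn hA m
    obtain ⟨T', S', hT', hS', hcp', hfix'⟩ := exists_split hn hA' m
    have hmT : ∀ j, 0 < j → j < m → fixSub T j = ⊥ := fun j hj hjm =>
      Submodule.finrank_eq_zero.1 (by have := hfix j; have := hminA j hj hjm; omega)
    have hmT' : ∀ j, 0 < j → j < m → fixSub T' j = ⊥ := fun j hj hjm =>
      Submodule.finrank_eq_zero.1 (by
        have := hfix' j; have := hminA j hj hjm; have := h j hj; omega)
    have hTT : T.charpoly = T'.charpoly := by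
      rw [charpoly_of_minimal hm hT hmT, charpoly_of_minimal hm hT' hmT', h m hm]
    have hlt : finrank ℚ (LinearMap.range (A ^ m - 1)) < d := by
      have : finrank ℚ (LinearMap.range (A ^ m - 1)) + finrank ℚ (fixSub A m) = finrank ℚ V :=
        LinearMap.finrank_range_add_finrank_ker (A ^ m - 1)
      omega
    have hSS : S.charpoly = S'.charpoly := ih _ hlt S S' rfl hS hS' fun j hj => by
      have e := h j hj
      rw [hfix, hfix', finrank_fixSub_of_minimal hm hT hmT,
        finrank_fixSub_of_minimal hm hT' hmT', h m hm] at e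
      omega
    rw [hcp, hcp', hTT, hSS]

end FA.GalCoh.FiniteOrder
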