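import Fermat.Agent.GalCoh.Reciprocity
import Fermat.Agent.GalCoh.UnrDual

/-!
Global dual pairs: localisation of pairings, classes unramified outside a finite set, and the
reciprocity law for products.
-/

set_option autoImplicit false
set_option linter.unusedSectionVars false

noncomputable section

namespace FA.GalCoh

open Representation

variable {p : ℕ} [hp : Fact p.Prime]
variable {V : Type} [AddCommGroup V] [Module (ZMod p) V]
variable {W : Type} [AddCommGroup W] [Module (ZMod p) W]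
variable {ρ : Representation (ZMod p) GQ V} {σ : Representation (ZMod p) GQ W}

/-- The pair at a prime. -/
def locPair (q : ℕ) [Fact q.Prime] (P : DPair LQ (cycQ p).χ ρ σ) :
    DPair (LL q) (cycL p q).χ (ρ.comp (loc q)) (σ.comp (loc q)) where
  β := P.β
  bil g v w := P.bil (loc q g) v w
  inj_left := P.inj_left
  inj_right := P.inj_right
  fin_left := P.fin_left
  fin_right := P.fin_right
  smooth_left := P.smooth_left.comp compat_loc
  smooth_right := P.smooth_right.comp compat_loc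

variable (ρ) in
/-- The invariants in the local invariants. -/
def resInv (q : ℕ) [Fact q.Prime] :
    ↥ρ.invariants →ₗ[ZMod p] ↥(Representation.invariants (ρ.comp (loc q))) where
  toFun n := ⟨n.1, fun τ => n.2 (loc q τ)⟩
  map_add' _ _ := rfl
  map_smul' _ _ := rfl

@[simp] theorem coe_resInv (q : ℕ) [Fact q.Prime] (n : ↥ρ.invariants) :
    (resInv ρ q n).1 = n.1 := rfl

/-- The pairing of first cohomology at a prime. -/
abbrev pair11Q (q : ℕ) [Fact q.Prime] (P : DPair LQ (cycQ p).χ ρ σ) :=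
  pair11 (localInv (cycL p q)) (locPair q P)

/-- The pairing of second cohomology at a prime. -/
abbrev pair20Q (q : ℕ) [Fact q.Prime] (P : DPair LQ (cycQ p).χ ρ σ) :=
  pair20 (localInv (cycL p q)) (locPair q P)

theorem perfectQ (q : ℕ) [Fact q.Prime] (P : DPair LQ (cycQ p).χ ρ σ) :
    Perfect (localInv (cycL p q)) (locPair q P) :=
  local_perfect (cycL p q) (locPair q P)

theorem invQ_cupP (q : ℕ) [Fact q.Prime] (P : DPair LQ (cycQ p).χ ρ σ) (x : H1 LQ ρ)
    (y : H1 LQ σ) :
    invQ p q (P.bil.cup P.smooth_right x y) = pair11Q q P (resq1 q ρ x) (resq1 q σ y) := by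
  obtain ⟨a, rfl⟩ := mk1_surjective x
  obtain ⟨b, rfl⟩ := mk1_surjective y
  rfl

theorem invQ_equi_right (q : ℕ) [Fact q.Prime] (P : DPair LQ (cycQ p).χ ρ σ) (z : H2 LQ ρ)
    (n : ↥σ.invariants) :
    invQ p q (map2 Compat.id (P.bil.equi_right n.2) z)
      = pair20Q q P (resq2 q ρ z) (resInv σ q n) := by
  obtain ⟨Z, rfl⟩ := mk2_surjective z
  rfl

theorem unrRep_chr {q : ℕ} [Fact q.Prime] (hqp : q ≠ p) : UnrRep (chr (cycL p q).χ) :=
  fun ι hι => LinearMap.ext fun x => by
    show ((cycL p q).χ ι : ZMod p) * x = x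
    rw [cycL_chi, MonoidHom.comp_apply, cycloChar_inertL hqp hι, Units.val_one, one_mul]

theorem pair11Q_eq_zero_of_unr {q : ℕ} [Fact q.Prime] (hqp : q ≠ p)
    (P : DPair LQ (cycQ p).χ ρ σ) (hσ : UnrRep (σ.comp (loc q)))
    {x : H1 (LL q) (ρ.comp (loc q))} {y : H1 (LL q) (σ.comp (loc q))}
    (hx : x ∈ unrH1 (ρ.comp (loc q))) (hy : y ∈ unrH1 (σ.comp (loc q))) :
    pair11Q q P x y = 0 := by
  rw [pair11Q, pair11_apply, cupc_eq_zero_of_unr (locPair q P).bil hσ (unrRep_chr hqp)
    (locPair q P).smooth_left (locPair q P).smooth_right (cycL p q).smooth_chr hx hy, map_zero]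

/-! ### Classes unramified outside a finite set -/

/-- The classes unramified outside `S`. -/
def unrOutside (S : Finset Nat.Primes) (ρ : Representation (ZMod p) GQ V) :
    Submodule (ZMod p) (H1 LQ ρ) :=
  ⨅ q : {q : Nat.Primes // q ∉ S},
    (unrH1 (ρ.comp (loc (q.1 : ℕ)))).comap (resq1 (q.1 : ℕ) ρ)

theorem mem_unrOutside {S : Finset Nat.Primes} {x : H1 LQ ρ} :
    x ∈ unrOutside S ρ ↔
      ∀ q : Nat.Primes, q ∉ S → resq1 (q : ℕ) ρ x ∈ unrH1 (ρ.comp (loc (q : ℕ))) := by
  rw [unrOutside, Submodule.mem_iInf]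
  exact ⟨fun h q hq => h ⟨q, hq⟩, fun h q => h q.1 q.2⟩

theorem unrOutside_mono {S S' : Finset Nat.Primes} (h : S ⊆ S') :
    unrOutside S ρ ≤ unrOutside S' ρ := fun _ hx =>
  mem_unrOutside.2 fun q hq => mem_unrOutside.1 hx q fun h' => hq (h h')

/-- A class is unramified almost everywhere. -/
theorem exists_mem_unrOutside (x : H1 LQ ρ) : ∃ S, x ∈ unrOutside S ρ := by
  obtain ⟨f, rfl⟩ := mk1_surjective x
  obtain ⟨N, hN, hf⟩ := f.2.1
  obtain ⟨S, hS⟩ := exists_inertL_subset hN
  refine ⟨S, mem_unrOutside.2 fun q hq => ⟨mapZ1 compat_loc (Equi.res (loc (q : ℕ)) ρ) f,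
    fun ι hι => ?_, (map1_mk1 compat_loc _ f).symm⟩⟩
  show f.1 (loc (q : ℕ) ι) = 0
  have h := hf 1 _ (hS q hq ι hι)
  rwa [one_mul, Z1.map_one] at h

/-! ### The reciprocity law for products -/

/-- The first cohomology of complex conjugation vanishes. -/
def RealAcyclic (ρ : Representation (ZMod p) GQ V) : Prop :=
  ∀ m : V, ρ complexConjugation m + m = 0 → ∃ v, ρ complexConjugation v - v = m

theorem invInf_of_ne_two (h : p ≠ 2) (z : H2 LQ (chr (cycQ p).χ)) : invInf p z = 0 := by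
  obtain ⟨Z, rfl⟩ := mk2_surjective z
  show (if p = 2 then 1 else 0) * _ = (0 : ZMod p)
  rw [if_neg h, zero_mul]

theorem invInf_cup_eq_zero (P : DPair LQ (cycQ p).χ ρ σ) (hρ : p = 2 → RealAcyclic ρ)
    (x : H1 LQ ρ) (y : H1 LQ σ) : invInf p (P.bil.cup P.smooth_right x y) = 0 := by
  by_cases h2 : p = 2
  swap
  · exact invInf_of_ne_two h2 _
  subst h2
  obtain ⟨a, rfl⟩ := mk1_surjective x
  obtain ⟨b, rfl⟩ := mk1_surjective y
  show (if (2 : ℕ) = 2 then 1 else 0) * (P.β (a.1 complexConjugation)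
      (σ complexConjugation (b.1 complexConjugation)) - P.β (a.1 1) (σ 1 (b.1 1))) = (0 : ZMod 2)
  have hc : ∀ {U : Type} [AddCommGroup U] [Module (ZMod 2) U]
      {τ : Representation (ZMod 2) GQ U} (c : ↥(Z1 LQ τ)),
      τ complexConjugation (c.1 complexConjugation) + c.1 complexConjugation = 0 := by
    intro U _ _ τ c
    rw [← c.2.2, complexConjugation_mul_self, Z1.map_one]
  obtain ⟨v, hv⟩ := hρ rfl _ (hc a)
  have hb := eq_neg_of_add_eq_zero_left (hc b)
  have key : P.β (ρ complexConjugation v) (σ complexConjugation (b.1 complexConjugation))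
      = P.β v (b.1 complexConjugation) := by
    rw [P.bil complexConjugation, chr_apply,
      show (cycQ 2).χ complexConjugation = 1 from Subsingleton.elim _ _, Units.val_one, one_mul]
  rw [if_pos rfl, one_mul, Z1.map_one (ρ := ρ) a, map_zero, LinearMap.zero_apply, sub_zero, ← hv,
    map_sub, LinearMap.sub_apply, key, hb, map_neg, sub_neg_eq_add]
  exact CharTwo.add_self_eq_zero _

/-- Reciprocity for classes trivial outside a finite set. -/
theorem sum_invQ_eq_zero {S : Finset Nat.Primes} (z : H2 LQ (chr (cycQ p).χ))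
    (hz : ∀ q : Nat.Primes, q ∉ S → invQ p (q : ℕ) z = 0) (hinf : invInf p z = 0) :
    ∑ q : {q // q ∈ S}, invQ p (q.1 : ℕ) z = 0 := by
  have h := reciprocity z
  rw [invTot_apply, hinf, add_zero, finsum_eq_sum_of_support_subset _ (s := S) fun q hq => by
    by_contra hqS
    exact hq (hz q hqS)] at h
  rw [← Finset.sum_coe_sort S (fun q => invQ p (q : ℕ) z)] at h
  exact h

/-- Reciprocity for classes unramified outside a finite set. -/
theorem sum_pair11Q_eq_zero (P : DPair LQ (cycQ p).χ ρ σ) {S : Finset Nat.Primes}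
    (hpS : (⟨p, hp.out⟩ : Nat.Primes) ∈ S)
    (hσ : ∀ q : Nat.Primes, q ∉ S → UnrRep (σ.comp (loc (q : ℕ))))
    (hρ : p = 2 → RealAcyclic ρ) {x : H1 LQ ρ} (hx : x ∈ unrOutside S ρ) {y : H1 LQ σ}
    (hy : y ∈ unrOutside S σ) :
    ∑ q : {q // q ∈ S}, pair11Q (q.1 : ℕ) P (resq1 (q.1 : ℕ) ρ x) (resq1 (q.1 : ℕ) σ y) = 0 := by
  rw [Finset.sum_congr rfl fun q _ => (invQ_cupP (q.1 : ℕ) P x y).symm]
  refine sum_invQ_eq_zero _ (fun q hq => ?_) (invInf_cup_eq_zero P hρ x y)
  rw [invQ_cupP]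
  exact pair11Q_eq_zero_of_unr (fun h => hq (by
    rwa [show q = (⟨p, hp.out⟩ : Nat.Primes) from Subtype.ext h]))
    P (hσ q hq) (mem_unrOutside.1 hx q hq) (mem_unrOutside.1 hy q hq)

end FA.GalCoh
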