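import Fermat.Agent.GalCoh.HasseNorm

/-!
The Hasse principle for the second cohomology of `μ_p` over totally imaginary number fields
containing the roots of unity.
-/

set_option autoImplicit false
set_option linter.unusedSectionVars false

noncomputable section

namespace FA.GalCoh

variable {p : ℕ} [hp : Fact p.Prime]

/-- A class which is trivial at all places. -/
def LocTriv2 (H : Subgroup GQ) (z : H2 (LQ.sub H) (triv H p)) : Prop :=
  ∀ (q : ℕ) [Fact q.Prime] (g : GQ), locH2 H q g z = 0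

/-- The Kummer data of a smaller subgroup. -/
def KumData.restrictLe {G : Type} [Group G] {L : Levels G} {Ω : Type} [Field Ω]
    [MulSemiringAction G Ω] (hgal : GalAct L Ω) {H H' : Subgroup G} (hle : H' ≤ H)
    (K : KumData (L.sub H) Ω p) : KumData (L.sub H') Ω p where
  gal := hgal.sub H'
  ζ := K.ζ
  prim := K.prim
  fixζ g := K.fixζ ⟨g.1, hle g.2⟩
  root := K.root

theorem hloc_mono {H H' : Subgroup GQ} (hle : H' ≤ H) (q : ℕ) [Fact q.Prime] (g : GQ) :
    hloc H' q g ≤ hloc H q g := fun _ h => (mem_hloc H).2 (hle ((mem_hloc H').1 h))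

theorem LocTriv2.res {H H' : Subgroup GQ} (hle : H' ≤ H) {z : H2 (LQ.sub H) (triv H p)}
    (h : LocTriv2 H z) : LocTriv2 H' (res2t (compat_inclusion hle) z) := fun q _ g => by
  have := congrArg (res2t (p := p) (compat_inclusion (L := LL q) (hloc_mono hle q g))) (h q g)
  rw [map_zero] at this
  rw [← this]
  obtain ⟨Z, rfl⟩ := mk2_surjective z
  rfl

variable {H : Subgroup GQ}

/-- A class split on the kernel of a character is a symbol. -/
theorem exists_symb_of_extSub (K : KumData (LQ.sub H) (AlgebraicClosure ℚ) p) {χ : H → ZMod p}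
    (C : CycData (LQ.sub H) χ) (Z : ↥(Z2 (LQ.sub H) (triv H p)))
    (h : res2t (compat_inclusion (extSub_le C)) (mk2 (LQ.sub H) (triv H p) Z) = 0) :
    ∃ a, mk2 (LQ.sub H) (triv H p) Z = symb (K.kum a) C.cls := by
  obtain ⟨b, ⟨_, ⟨N, hN, rfl⟩, hs⟩, hdb⟩ := (mk2_eq_zero (LQ.sub (extSub C)) _
    (mapZ2 (compat_inclusion (extSub_le C)) (equi_triv _) Z)).1 h
  have hmem : ∀ g : H, (((C.rep g)⁻¹ * g : H) : GQ) ∈ extSub C := fun g =>
    (mem_extSub C).2 ⟨SetLike.coe_mem _, C.rep_inv_mul g⟩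
  let b' : H → ZMod p := fun g => b ⟨_, hmem g⟩
  obtain ⟨_, ⟨N', hN', rfl⟩, hs'⟩ := C.lc
  have hb' : LC₁ (LQ.sub H) b' := by
    refine ⟨_, ⟨N ⊓ N', LQ.inf_mem hN hN', rfl⟩, fun g s hsm => ?_⟩
    have hrep : C.rep (g * s) = C.rep g := C.rep_congr (hs' g s hsm.2)
    have hsE : (s : GQ) ∈ extSub C := (mem_extSub C).2 ⟨s.2, by
      have := hs' 1 s hsm.2
      rwa [one_mul, C.map_one] at this⟩
    have := hs ⟨_, hmem g⟩ ⟨s, hsE⟩ hsm.1
    show b ⟨_, hmem (g * s)⟩ = b ⟨_, hmem g⟩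
    rw [← this]
    refine congrArg b (Subtype.ext ?_)
    show (((C.rep (g * s))⁻¹ * (g * s) : H) : GQ) = (((C.rep g)⁻¹ * g : H) : GQ) * (s : GQ)
    rw [hrep, ← mul_assoc, Subgroup.coe_mul]
  have hb'n : ∀ g : H, ∀ hg : χ g = 0, b' g = b ⟨g, (mem_extSub C).2 ⟨g.2, hg⟩⟩ := fun g hg =>
    congrArg b (Subtype.ext (by
      show (((C.rep g)⁻¹ * g : H) : GQ) = (g : GQ)
      simp [CycData.rep, hg]))
  exact K.exists_symb_of_res C Z hb' fun m m' hm hm' => by
    have h := congrFun hdb (⟨m, (mem_extSub C).2 ⟨m.2, hm⟩⟩, ⟨m', (mem_extSub C).2 ⟨m'.2, hm'⟩⟩)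
    have hmm : χ (m * m') = 0 := by rw [C.hom, hm, hm', add_zero]
    rw [d1_apply, hb'n m hm, hb'n m' hm', hb'n _ hmm]
    exact h.symm

/-- The Hasse principle for classes split by an extension of `p`-power degree. -/
theorem hasse_H2_of_pGroup {M : Subgroup GQ} [M.Normal] (hM : M ∈ LQ.carrier) {n : ℕ}
    (hH : H ∈ LQ.carrier) (hT : TC H) (K : KumData (LQ.sub H) (AlgebraicClosure ℚ) p)
    (hMH : M ≤ H) (hindex : M.relIndex H = p ^ n) (Z : ↥(Z2 (LQ.sub H) (triv H p)))
    (hZ : KilledOn Z.1 (M.subgroupOf H) (LQ.sub H))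
    (hloc : LocTriv2 H (mk2 (LQ.sub H) (triv H p) Z)) : mk2 (LQ.sub H) (triv H p) Z = 0 := by
  induction n generalizing H with
  | zero =>
    refine KilledOn.mk2_eq_zero ?_
    rwa [show M.subgroupOf H = ⊤ by
      rw [← Subgroup.index_eq_one, ← Subgroup.relIndex, hindex, pow_zero]] at hZ
  | succ n ih =>
    have hMs : M.subgroupOf H ∈ (LQ.sub H).carrier := ⟨M, hM, rfl⟩
    have : (M.subgroupOf H).FiniteIndex := (LQ.sub H).finiteIndex hMs
    obtain ⟨χ, C, hχM⟩ := exists_cycData_of_pGroup (L := LQ.sub H) (M.subgroupOf H) hMs hindex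
    have hle := extSub_le C
    have hH' := extSub_mem C hH
    have hMH' : M ≤ extSub C := fun m hm =>
      (mem_extSub C).2 ⟨hMH hm, hχM _ (Subgroup.mem_subgroupOf.2 hm)⟩
    have hHH' : (extSub C).relIndex H = p := by
      have h := Subgroup.relIndex_mul_index hle
      rw [index_extSub] at h
      exact Nat.eq_of_mul_eq_mul_right (Nat.pos_of_ne_zero (LQ.finiteIndex hH).index_ne_zero) h
    have hindex' : M.relIndex (extSub C) = p ^ n := by
      have := Subgroup.relIndex_mul_relIndex _ _ _ hMH' hle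
      rw [hindex, hHH', pow_succ] at this
      exact Nat.eq_of_mul_eq_mul_right hp.out.pos this
    have h0 := ih hH' (hT.mono hle) (K.restrictLe galAct_fieldLevels hle) hMH' hindex'
      (mapZ2 (compat_inclusion hle) (equi_triv _) Z)
      ((hZ.res (compat_inclusion hle)).mono fun g hg => hg) (hloc.res hle)
    obtain ⟨a, ha⟩ := exists_symb_of_extSub K C Z h0
    rw [ha]
    exact hasse_norm K hH hT C fun v => by rw [← ha]; exact hloc v.1 v.rep

/-- The Hasse principle. -/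
theorem hasse_H2 (hH : H ∈ LQ.carrier) (hT : TC H)
    (K : KumData (LQ.sub H) (AlgebraicClosure ℚ) p) {z : H2 (LQ.sub H) (triv H p)}
    (hz : LocTriv2 H z) : z = 0 := by
  classical
  obtain ⟨Z, rfl⟩ := mk2_surjective z
  obtain ⟨_, ⟨N₁, hN₁, rfl⟩, hs₁⟩ := Z.2.1
  obtain ⟨M, hM, hle, hn⟩ := LQ.exists_normal (LQ.inf_mem hN₁ hH)
  have hMH : M ≤ H := fun m hm => (hle hm).2
  have hMs : M.subgroupOf H ∈ (LQ.sub H).carrier := ⟨M, hM, rfl⟩
  have : (M.subgroupOf H).FiniteIndex := (LQ.sub H).finiteIndex hMs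
  obtain ⟨P⟩ : Nonempty (Sylow p (H ⧸ M.subgroupOf H)) := Sylow.nonempty
  let S₀ : Subgroup H := (P : Subgroup (H ⧸ M.subgroupOf H)).comap (QuotientGroup.mk' _)
  have hMS₀ : M.subgroupOf H ≤ S₀ := fun s hs => by
    show QuotientGroup.mk' (M.subgroupOf H) s ∈ (P : Subgroup (H ⧸ M.subgroupOf H))
    rw [QuotientGroup.mk'_apply, (QuotientGroup.eq_one_iff s).2 hs]
    exact one_mem _
  have : S₀.FiniteIndex := Subgroup.finiteIndex_of_le hMS₀
  have : Fintype (H ⧸ S₀) := Fintype.ofFinite _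
  let T := cosetTrans (LQ.sub H) S₀ hMs inferInstance hMS₀
  have hcard : (Fintype.card (H ⧸ S₀) : ZMod p) ≠ 0 := fun h => by
    rw [ZMod.natCast_eq_zero_iff, Fintype.card_eq_nat_card, ← Subgroup.index_eq_card,
      Subgroup.index_comap_of_surjective _ (QuotientGroup.mk'_surjective _)] at h
    exact P.not_dvd_index h
  let S := S₀.map H.subtype
  have hSH : S ≤ H := Subgroup.map_subtype_le _
  have hMS : M ≤ S := fun m hm =>
    ⟨⟨m, hMH hm⟩, hMS₀ (Subgroup.mem_subgroupOf.2 hm), rfl⟩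
  have hS : S ∈ LQ.carrier := by
    obtain ⟨F, hF, hFle⟩ := hM
    exact ⟨F, hF, fun g hg => hMS (hFle hg)⟩
  obtain ⟨n, hnP⟩ : ∃ n, Nat.card (P : Subgroup (H ⧸ M.subgroupOf H)) = p ^ n :=
    IsPGroup.iff_card.1 P.isPGroup'
  have hindex : M.relIndex S = p ^ n := by
    rw [show M.relIndex S = (M.subgroupOf H).relIndex S₀ from by
      rw [← Subgroup.relIndex_subgroupOf hSH]
      exact congrArg _ (Subgroup.comap_map_eq_self_of_injective H.subtype_injective S₀)]
    have hb : M.subgroupOf H = (⊥ : Subgroup (H ⧸ M.subgroupOf H)).comap (QuotientGroup.mk' _) := by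
      rw [MonoidHom.comap_bot, QuotientGroup.ker_mk']
    conv_lhs => rw [hb]
    rw [Subgroup.relIndex_comap, Subgroup.map_comap_eq_self_of_surjective
      (QuotientGroup.mk'_surjective _), Subgroup.relIndex_bot_left, hnP]
  have h0 : res2t (p := p) (compat_inclusion (L := LQ) hSH) (mk2 _ (triv H p) Z) = 0 :=
    hasse_H2_of_pGroup hM hS (hT.mono hSH) (K.restrictLe galAct_fieldLevels hSH) hMS hindex
      (mapZ2 (compat_inclusion hSH) (equi_triv _) Z)
      (((killedOn_of_const (L := LQ.sub H) hs₁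
        (show M.subgroupOf H ≤ N₁.subgroupOf H from
          Subgroup.comap_mono fun m hm => (hle hm).1)).res (compat_inclusion hSH)).mono
            fun g hg => hg) (hz.res hSH)
  refine res2_injective_of_card T hcard (Eq.trans ?_ (map_zero _).symm)
  let j : T.H →* S := ((H.subtype.comp T.H.subtype)).codRestrict _ fun g =>
    ⟨g.1, (mem_cosetTrans_H hMs inferInstance hMS₀).1 g.2, rfl⟩
  have hj : Compat (LQ.sub S) ((LQ.sub H).sub T.H) j := by
    rintro _ ⟨N, hN, rfl⟩
    exact ⟨_, ⟨_, ⟨N, hN, rfl⟩, rfl⟩, fun g hg => hg⟩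
  have := congrArg (res2t (p := p) hj) h0
  rw [map_zero] at this
  exact this

end FA.GalCoh
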