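import Fermat.Agent.GalCoh.KummerUnits

/-!
The Hasse norm theorem for cyclic extensions of prime degree of totally imaginary number fields
containing the roots of unity.
-/

set_option autoImplicit false
set_option linter.unusedSectionVars false

noncomputable section

namespace FA.GalCoh

open IntermediateField

/-- A subgroup of a product of groups of order `p` which is triangular with respect to a splitting
of the index set is everything. -/
theorem eq_top_of_triangular {ι : Type} [Finite ι] [DecidableEq ι] {M : ι → Type}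
    [∀ i, AddCommGroup (M i)] {p : ℕ} [Fact p.Prime] (R : AddSubgroup (∀ i, M i))
    (hM : ∀ i, Nat.card (M i) = p) (B : ι → Prop)
    (hA : ∀ i, ¬ B i → ∃ y ∈ R, y i ≠ 0 ∧ ∀ j, j ≠ i → y j = 0)
    (hB : ∀ i, B i → ∃ y ∈ R, y i ≠ 0 ∧ ∀ j, j ≠ i → B j → y j = 0) : R = ⊤ := by
  classical
  have := Fintype.ofFinite ι
  have hone : ∀ i, (∃ y ∈ R, y i ≠ 0 ∧ ∀ j, j ≠ i → y j = 0) → ∀ z, Pi.single i z ∈ R := by
    rintro i ⟨y, hy, hyi, hyj⟩ z
    obtain ⟨n, rfl⟩ := AddSubgroup.mem_zmultiples_iff.1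
      (mem_zmultiples_of_prime_card (hM i) hyi (g' := z))
    rw [show Pi.single i (n • y i) = n • y from funext fun j => by
      by_cases hj : j = i
      · subst hj; rw [Pi.single_eq_same, Pi.smul_apply]
      · rw [Pi.single_eq_of_ne hj, Pi.smul_apply, hyj j hj, smul_zero]]
    exact zsmul_mem hy n
  have hall : ∀ i z, Pi.single i z ∈ R := fun i => by
    by_cases hi : B i
    · obtain ⟨y, hy, hyi, hyB⟩ := hB i hi
      refine hone i ⟨y - ∑ j ∈ Finset.univ.filter (fun j => ¬ B j), Pi.single j (y j),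
        sub_mem hy (sum_mem fun j hj => hone j (hA j (Finset.mem_filter.1 hj).2) _), ?_,
        fun j hj => ?_⟩
      · rw [Pi.sub_apply, Finset.sum_apply, Finset.sum_pi_single, if_neg, sub_zero]
        · exact hyi
        · intro h
          exact (Finset.mem_filter.1 h).2 hi
      · rw [Pi.sub_apply, Finset.sum_apply, Finset.sum_pi_single]
        simp only [Finset.mem_filter, Finset.mem_univ, true_and]
        by_cases hjB : B j
        · rw [if_neg (not_not_intro hjB), hyB j hj hjB, sub_zero]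
        · rw [if_pos hjB, sub_self]
    · exact hone i (hA i hi)
  rw [eq_top_iff]
  intro z _
  rw [← Finset.univ_sum_single z]
  exact sum_mem fun i _ => hall i (z i)

variable {H : Subgroup GQ} {p : ℕ} [hp : Fact p.Prime]

/-- The second cohomology at a place. -/
abbrev placeH2 (p : ℕ) [Fact p.Prime] (v : Place H) : Type :=
  H2 ((LL (v.1 : ℕ)).sub v.sub) (triv v.sub p)

/-- The symbol at a place. -/
def symbAt (v : Place H) (x y : H1 (LQ.sub H) (triv H p)) : placeH2 p v :=
  symb (locH1 H v.1 v.rep x) (locH1 H v.1 v.rep y)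

theorem symbAt_eq (v : Place H) (x y : H1 (LQ.sub H) (triv H p)) :
    symbAt v x y = locH2 H v.1 v.rep (symb x y) :=
  (res2t_symb (compat_locTo v.rep) x y).symm

/-- The second cohomology at a finite set of places. -/
def PlacesH2 (p : ℕ) [Fact p.Prime] (W : Finset (Place H)) : Type :=
  ∀ w : {w // w ∈ W}, placeH2 p w.1

instance (p : ℕ) [Fact p.Prime] (W : Finset (Place H)) : AddCommGroup (PlacesH2 p W) :=
  inferInstanceAs (AddCommGroup (∀ w : {w // w ∈ W}, placeH2 p w.1))

/-- The first cohomology at a finite set of places. -/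
def PlacesH1 (p : ℕ) [Fact p.Prime] (T : Finset (Place H)) : Type :=
  ∀ v : {v // v ∈ T}, H1 ((LL (v.1.1 : ℕ)).sub v.1.sub) (triv v.1.sub p)

instance (p : ℕ) [Fact p.Prime] (T : Finset (Place H)) : AddCommGroup (PlacesH1 p T) :=
  inferInstanceAs (AddCommGroup (∀ v : {v // v ∈ T},
    H1 ((LL (v.1.1 : ℕ)).sub v.1.sub) (triv v.1.sub p)))

/-- The symbols with a fixed class at a finite set of places. -/
def symbsAt (K : KumData (LQ.sub H) (AlgebraicClosure ℚ) p) (W : Finset (Place H))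
    (A : AddSubgroup (fixUM H (AlgebraicClosure ℚ))) (c : H1 (LQ.sub H) (triv H p)) :
    ↥A →+ PlacesH2 p W :=
  AddMonoidHom.mk' (fun (y : ↥A) (w : {w // w ∈ W}) => symbAt w.1 (K.kum y.1) c)
    fun y z => funext fun w => by
    show symbAt w.1 (K.kum (y + z).1) c = symbAt w.1 (K.kum y.1) c + symbAt w.1 (K.kum z.1) c
    simp only [symbAt, AddSubgroup.coe_add, map_add, LinearMap.add_apply]

theorem natCard_placeH2 (hH : H ∈ LQ.carrier) (K : KumData (LQ.sub H) (AlgebraicClosure ℚ) p)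
    (v : Place H) : Nat.card (placeH2 p v) = p := by
  obtain ⟨u, hu0, hu, -⟩ := exists_generator_H2 (hloc_mem hH v.rep) (locKum K (v.1 : ℕ) v.rep)
  refine (Nat.card_congr (Equiv.ofBijective (fun c : ZMod p => c • u)
    ⟨fun a b h => ?_, fun z => Submodule.mem_span_singleton.1 (hu z)⟩)).symm.trans (Nat.card_zmod p)
  by_contra hab
  have h' : (a - b) • u = 0 := by rw [sub_smul, sub_eq_zero]; exact h
  exact hu0 ((smul_eq_zero.1 h').resolve_left (sub_ne_zero.2 hab))

set_option maxHeartbeats 800000 in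
-- classes over nested subgroups are slow to unify
theorem surjective_symb_right (hH : H ∈ LQ.carrier) (K : KumData (LQ.sub H) (AlgebraicClosure ℚ) p)
    (v : Place H) {c : H1 (LQ.sub H) (triv H p)} (hc : locH1 H v.1 v.rep c ≠ 0) (z : placeH2 p v) :
    ∃ y, symb y (locH1 H v.1 v.rep c) = z := by
  obtain ⟨u, -, hu, hnd⟩ := exists_generator_H2 (hloc_mem hH v.rep) (locKum K (v.1 : ℕ) v.rep)
  obtain ⟨y, hy⟩ := hnd _ hc
  obtain ⟨y', hy'⟩ := surjective_of_line (symb (locH1 H v.1 v.rep c)) hu hy (-z)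
  exact ⟨y', (symb_comm _ _).trans (neg_eq_iff_eq_neg.2 hy')⟩

/-- The local class at a place is that of a local unit. -/
def IsUnitClass (K : KumData (LQ.sub H) (AlgebraicClosure ℚ) p) (v : Place H)
    (x : H1 (LQ.sub H) (triv H p)) : Prop :=
  ∃ a : fixUM v.sub (PadicAlgCl (v.1 : ℕ)),
    ‖a.1.val‖ = 1 ∧ locH1 H v.1 v.rep x = (locKum K (v.1 : ℕ) v.rep).kum a

theorem isUnitClass_kum (K : KumData (LQ.sub H) (AlgebraicClosure ℚ) p) (v : Place H)
    {a : fixUM H (AlgebraicClosure ℚ)} (ha : v.absv a.1.val = 1) : IsUnitClass K v (K.kum a) :=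
  ⟨locEl H (v.1 : ℕ) v.rep a, ha, locH1_kum K _ _ a⟩

theorem symbAt_units_eq_zero (hH : H ∈ LQ.carrier)
    (K : KumData (LQ.sub H) (AlgebraicClosure ℚ) p) (v : Place H) (hqp : (v.1 : ℕ) ≠ p)
    {x y : H1 (LQ.sub H) (triv H p)} (hx : IsUnitClass K v x) (hy : IsUnitClass K v y) :
    symbAt v x y = 0 := by
  obtain ⟨a, ha, hxa⟩ := hx
  obtain ⟨b, hb, hyb⟩ := hy
  unfold symbAt
  rw [hxa, hyb]
  exact symb_units_eq_zero (hloc_mem hH _) _ hqp ha hb

theorem symbAt_ne_zero_of_not_unit (hH : H ∈ LQ.carrier)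
    (K : KumData (LQ.sub H) (AlgebraicClosure ℚ) p) {S : Finset Nat.Primes} (hgood : Good H S)
    (v : Place H) (hv : v.1 ∉ S) (hqp : (v.1 : ℕ) ≠ p) {u : fixUM H (AlgebraicClosure ℚ)}
    (hu : v.absv u.1.val = 1) (hu0 : locH1 H v.1 v.rep (K.kum u) ≠ 0)
    {x : fixUM H (AlgebraicClosure ℚ)} (hx : ¬ IsUnitClass K v (K.kum x)) :
    symbAt v (K.kum u) (K.kum x) ≠ 0 := by
  unfold symbAt
  rw [locH1_kum, locH1_kum]
  rw [locH1_kum] at hu0
  exact symb_unit_ne_zero_of_not_unit (hloc_mem hH _) (locKum K _ _) hqp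
    (π := natUM (v.1 : ℕ) (Nat.cast_ne_zero.2 v.1.2.ne_zero))
    (exists_zpow_norm hH hgood hv rfl) hu hu0
    fun ⟨w, hw, he⟩ => hx ⟨w, hw, (locH1_kum K _ _ x).trans he⟩

theorem symbAt_unif_ne_zero (hH : H ∈ LQ.carrier)
    (K : KumData (LQ.sub H) (AlgebraicClosure ℚ) p) {S : Finset Nat.Primes} (hgood : Good H S)
    (v : Place H) (hv : v.1 ∉ S) (hqp : (v.1 : ℕ) ≠ p) {y : fixUM H (AlgebraicClosure ℚ)}
    (hy : v.absv y.1.val = ‖((v.1 : ℕ) : PadicAlgCl (v.1 : ℕ))‖)
    {x : H1 (LQ.sub H) (triv H p)} (hx : IsUnitClass K v x)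
    (hx0 : locH1 H v.1 v.rep x ≠ 0) : symbAt v (K.kum y) x ≠ 0 := by
  obtain ⟨a, ha, he⟩ := hx
  unfold symbAt
  rw [locH1_kum, he]
  rw [he] at hx0
  intro h0
  refine symb_unit_unif_ne_zero (hloc_mem hH _) (locKum K _ _) hqp
    (π := locEl H _ v.rep y) (exists_zpow_norm hH hgood hv hy) ha hx0 ?_
  exact (symb_comm _ _).trans (by rw [h0, neg_zero])

theorem natCard_placesH2 (hH : H ∈ LQ.carrier) (K : KumData (LQ.sub H) (AlgebraicClosure ℚ) p)
    (W : Finset (Place H)) : Nat.card (PlacesH2 p W) = p ^ W.card := by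
  classical
  unfold PlacesH2
  rw [Nat.card_pi, Finset.prod_congr rfl (fun w _ => natCard_placeH2 hH K w.1),
    Finset.prod_const, Finset.card_univ, Fintype.card_coe]

set_option maxHeartbeats 800000 in
-- classes over nested subgroups are slow to unify
/-- The pairing of local classes with a fixed class. -/
def pairAt {T W : Finset (Place H)} (hWT : W ⊆ T) (c : H1 (LQ.sub H) (triv H p)) :
    PlacesH1 p T →+ PlacesH2 p W :=
  AddMonoidHom.mk' (fun (f : PlacesH1 p T) (w : {w // w ∈ W}) =>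
      symb (f ⟨w.1, hWT w.2⟩) (locH1 H w.1.1 w.1.rep c))
    fun f g => funext fun w => LinearMap.map_add₂ symb (f ⟨w.1, hWT w.2⟩) (g ⟨w.1, hWT w.2⟩)
      (locH1 H w.1.1 w.1.rep c)

theorem pairAt_apply {T W : Finset (Place H)} (hWT : W ⊆ T) (c : H1 (LQ.sub H) (triv H p))
    (f : PlacesH1 p T) (w : {w // w ∈ W}) :
    pairAt hWT c f w = symb (f ⟨w.1, hWT w.2⟩) (locH1 H w.1.1 w.1.rep c) := rfl

set_option maxHeartbeats 1600000 in
-- classes over nested subgroups are slow to unify
theorem surjective_pairAt (hH : H ∈ LQ.carrier) (K : KumData (LQ.sub H) (AlgebraicClosure ℚ) p)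
    {T W : Finset (Place H)} (hWT : W ⊆ T) {c : H1 (LQ.sub H) (triv H p)}
    (hc : ∀ w ∈ W, locH1 H w.1 w.rep c ≠ 0) : Function.Surjective (pairAt hWT c) := fun z => by
  classical
  choose y hy using fun w : {w // w ∈ W} => surjective_symb_right hH K w.1 (hc w.1 w.2) (z w)
  let f : PlacesH1 p T := fun v : {v // v ∈ T} => if h : v.1 ∈ W then y ⟨v.1, h⟩ else 0
  refine ⟨f, funext fun w => ?_⟩
  have hf : f ⟨w.1, hWT w.2⟩ = y w := dif_pos w.2
  rw [pairAt_apply, hf]
  exact hy w

set_option maxHeartbeats 800000 in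
-- classes over nested subgroups are slow to unify
open Classical in
/-- The symbols at a set of places cannot be everything when a norm group of that index is killed. -/
theorem natCard_range_symbsAt_le (K : KumData (LQ.sub H) (AlgebraicClosure ℚ) p)
    {χ : H → ZMod p} (C : CycData (LQ.sub H) χ) (T : Finset (Place H))
    (W : Finset (Place H)) {N : AddSubgroup (tUnits H T)} (hN : ∀ y ∈ N, y.1 ∈ K.norms C) :
    N ≤ (symbsAt K W (tUnits H T) C.cls).ker := fun y hy => by
  rw [AddMonoidHom.mem_ker]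
  funext w
  show symbAt w.1 (K.kum y.1) C.cls = 0
  rw [symbAt_eq, show symb (K.kum y.1) C.cls = 0 from hN y hy, map_zero]

variable (K : KumData (LQ.sub H) (AlgebraicClosure ℚ) p)

/-- The hypothesis that `T'` is a set of auxiliary places with units separating them. -/
def Separated (hH : H ∈ LQ.carrier) (S : Finset Nat.Primes) (T' : Finset (Place H)) : Prop :=
  ∀ v ∈ T', ∃ u : fixUM H (AlgebraicClosure ℚ), u ∈ tUnits H (placesOver hH S) ∧
    locH1 H v.1 v.rep (K.kum u) ≠ 0 ∧
    ∀ w ∈ T', w ≠ v → locH1 H w.1 w.rep (K.kum u) = 0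

set_option maxHeartbeats 1600000 in
-- classes over nested subgroups are slow to unify
open Classical in
/-- A unit outside `T ∪ T'` with trivial classes on `T` has trivial class. -/
theorem kum_eq_zero_of_loc (hH : H ∈ LQ.carrier) (hT : TC H) {S : Finset Nat.Primes}
    (hpS : (⟨p, hp.out⟩ : Nat.Primes) ∈ S) (hgood : Good H S) (had : Adapted H S)
    {T' : Finset (Place H)} (hsep : Separated K hH S T')
    {x : fixUM H (AlgebraicClosure ℚ)} (hxU : x ∈ tUnits H (placesOver hH S ∪ T'))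
    (hx : ∀ v ∈ placesOver hH S, locH1 H v.1 v.rep (K.kum x) = 0) : K.kum x = 0 := by
  by_contra hne
  obtain ⟨χ₂, C₂, hC₂⟩ := exists_cycData hne
  obtain ⟨S₃, hS₃⟩ := exists_good (extSub_mem C₂ hH)
  set S' := S ∪ S₃
  set T₂ := placesOver hH S' ∪ T'
  obtain ⟨N, hN, hidx⟩ := exists_index_units C₂ K hH hT (T := T₂)
    (hS₃.mono Finset.subset_union_right) (had.mono Finset.subset_union_left)
    Finset.subset_union_left
  set W := T₂.filter fun v => ¬ Split C₂ v with hW
  have hWx : ∀ w ∈ W, locH1 H w.1 w.rep (K.kum x) ≠ 0 := fun w hw => by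
    rw [← hC₂]; exact (Finset.mem_filter.1 hw).2
  have hWS : ∀ w ∈ W, w.1 ∉ S := fun w hw h => hWx w hw (hx w ((mem_placesOver hH).2 h))
  have hqp : ∀ w ∈ W, (w.1 : ℕ) ≠ p := fun w hw h => hWS w hw (by
    rwa [show w.1 = (⟨p, hp.out⟩ : Nat.Primes) from Subtype.ext h])
  have hunitS : ∀ {a : fixUM H (AlgebraicClosure ℚ)}, a ∈ tUnits H (placesOver hH S) →
      ∀ w : Place H, w.1 ∉ S → w.absv a.1.val = 1 :=
    fun {a} ha w hw => ha w fun h => hw ((mem_placesOver hH).1 h)
  have hsubT : placesOver hH S ⊆ T₂ := fun v hv => Finset.mem_union_left _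
    ((mem_placesOver hH).2 (Finset.mem_union_left _ ((mem_placesOver hH).1 hv)))
  let B : {w // w ∈ W} → Prop := fun w => IsUnitClass K w.1 (K.kum x)
  have hxunit : ∀ w : {w // w ∈ W}, w.1 ∉ T' → B w := fun w hw =>
    isUnitClass_kum K w.1 (hxU w.1 fun h => (Finset.mem_union.1 h).elim
      (fun h => hWS w.1 w.2 ((mem_placesOver hH).1 h)) hw)
  have hsymb : ∀ (w : {w // w ∈ W}) (y : tUnits H T₂), symbsAt K W (tUnits H T₂) C₂.cls y w
      = symbAt w.1 (K.kum y.1) (K.kum x) := fun w y => by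
    rw [← hC₂]; rfl
  have htop : (symbsAt K W (tUnits H T₂) C₂.cls).range = ⊤ := by
    refine eq_top_of_triangular (M := fun w : {w // w ∈ W} => placeH2 p w.1) (p := p) _
      (fun w => natCard_placeH2 hH K w.1) B (fun w hw => ?_) (fun w hw => ?_)
    · have hwT' : w.1 ∈ T' := by_contra fun h => hw (hxunit w h)
      obtain ⟨u, hu, hu0, huo⟩ := hsep w.1 hwT'
      let u' : tUnits H T₂ := ⟨u, tUnits_mono H hsubT hu⟩
      refine ⟨_, ⟨u', rfl⟩, ?_, fun j hj => ?_⟩
      · rw [hsymb]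
        exact symbAt_ne_zero_of_not_unit hH K hgood w.1 (hWS w.1 w.2) (hqp w.1 w.2)
          (hunitS hu w.1 (hWS w.1 w.2)) hu0 hw
      · rw [hsymb]
        by_cases hjT' : j.1 ∈ T'
        · show symbAt j.1 (K.kum u) (K.kum x) = 0
          rw [symbAt, huo j.1 hjT' (fun h => hj (Subtype.ext h)), map_zero, LinearMap.zero_apply]
        · exact symbAt_units_eq_zero hH K j.1 (hqp j.1 j.2)
            (isUnitClass_kum K j.1 (hunitS hu j.1 (hWS j.1 j.2))) (hxunit j hjT')
    · obtain ⟨y, hy, hy0, hyv, hyo⟩ := had w.1 (hWS w.1 w.2)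
      have hyU : mkFix hy hy0 ∈ tUnits H T₂ := fun v hv =>
        hyo v (fun h => hv (hsubT ((mem_placesOver hH).2 h)))
          (fun h => hv (h ▸ (Finset.mem_filter.1 w.2).1))
      refine ⟨_, ⟨⟨_, hyU⟩, rfl⟩, ?_, fun j hj hjB => ?_⟩
      · rw [hsymb]
        have hy' : w.1.absv (mkFix hy hy0).1.val
            = ‖((w.1.1 : ℕ) : PadicAlgCl (w.1.1 : ℕ))‖ := by
          rw [val_mkFix]; exact hyv
        have hw' : IsUnitClass K w.1 (K.kum x) := hw
        have hx0 : locH1 H w.1.1 w.1.rep (K.kum x) ≠ 0 := hWx w.1 w.2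
        exact symbAt_unif_ne_zero (y := mkFix hy hy0) (x := K.kum x) hH K hgood w.1
          (hWS w.1 w.2) (hqp w.1 w.2) hy' hw' hx0
      · rw [hsymb]
        exact symbAt_units_eq_zero hH K j.1 (hqp j.1 j.2)
          (isUnitClass_kum K j.1 (hyo j.1 (hWS j.1 j.2) (fun h => hj (Subtype.ext h)))) hjB
  have h1 := AddSubgroup.index_dvd_of_le (natCard_range_symbsAt_le K C₂ T₂ W hN)
  rw [AddSubgroup.index_ker, htop, AddSubgroup.card_top, natCard_placesH2 hH K, ← hidx] at h1
  have hN0 : 0 < N.index := Nat.pos_of_ne_zero fun h0 => by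
    rw [h0, zero_mul] at hidx
    exact (pow_ne_zero _ hp.out.ne_zero) hidx.symm
  have h2 := Nat.le_of_dvd hN0 h1
  nlinarith [hp.out.two_le]

set_option maxHeartbeats 1600000 in
-- classes over nested subgroups are slow to unify
open Classical in
/-- The Hasse norm theorem. -/
theorem hasse_norm (hH : H ∈ LQ.carrier) (hT : TC H) {χ : H → ZMod p}
    (C : CycData (LQ.sub H) χ) {a : fixUM H (AlgebraicClosure ℚ)}
    (ha : ∀ v : Place H, locH2 H v.1 v.rep (symb (K.kum a) C.cls) = 0) : a ∈ K.norms C := by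
  obtain ⟨α, hα⟩ := K.kum_surjective C.cls
  obtain ⟨S₁, hS₁⟩ := exists_good (extSub_mem C hH)
  obtain ⟨S₂, hS₂, hS₂'⟩ := exists_adapted hH
  obtain ⟨Tα, hTα⟩ := exists_finset_support hH α
  obtain ⟨Ta, hTa⟩ := exists_finset_support hH a
  obtain ⟨S, hpS, hS₁S, hS₂S, hαS, haS⟩ : ∃ S : Finset Nat.Primes,
      (⟨p, hp.out⟩ : Nat.Primes) ∈ S ∧ S₁ ⊆ S ∧ S₂ ⊆ S ∧
      α ∈ tUnits H (placesOver hH S) ∧ a ∈ tUnits H (placesOver hH S) :=
    ⟨insert ⟨p, hp.out⟩ (S₁ ∪ S₂ ∪ (Tα ∪ Ta).image Sigma.fst),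
      Finset.mem_insert_self _ _,
      fun q hq => Finset.mem_insert_of_mem (Finset.mem_union_left _ (Finset.mem_union_left _ hq)),
      fun q hq => Finset.mem_insert_of_mem (Finset.mem_union_left _ (Finset.mem_union_right _ hq)),
      tUnits_mono H (fun v hv => (mem_placesOver hH).2 (Finset.mem_insert_of_mem
        (Finset.mem_union_right _ (Finset.mem_image_of_mem _ (Finset.mem_union_left _ hv))))) hTα,
      tUnits_mono H (fun v hv => (mem_placesOver hH).2 (Finset.mem_insert_of_mem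
        (Finset.mem_union_right _ (Finset.mem_image_of_mem _ (Finset.mem_union_right _ hv))))) hTa⟩
  have had : Adapted H S := Adapted.mono hS₂' hS₂S
  obtain ⟨T', hT', hsep, hcount⟩ := exists_aux K C hH hT hpS hα hαS
  obtain ⟨r, hr⟩ := two_dvd_index_of_tc hH hT
  set T := placesOver hH S with hTdef
  set U := tUnits H (T ∪ T')
  obtain ⟨N, hN, hidx⟩ := exists_index_units C K hH hT (T := T ∪ T') (hS₁.mono hS₁S) had
    Finset.subset_union_left
  set W := (T ∪ T').filter fun v => ¬ Split C v with hW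
  have hWT : ∀ w ∈ W, w ∈ T := fun w hw => by
    obtain ⟨h, h'⟩ := Finset.mem_filter.1 hw
    exact (Finset.mem_union.1 h).resolve_right fun h'' => h' (hT' w h'').2
  -- the local classes on `T`
  let Φ : U →+ PlacesH1 p T := AddMonoidHom.mk'
    (fun (y : U) (v : {v // v ∈ T}) => locH1 H v.1.1 v.1.rep (K.kum y.1))
    fun y z => funext fun v => by
      show locH1 H v.1.1 v.1.rep (K.kum (y + z).1) = _
      rw [AddSubgroup.coe_add, map_add, map_add]; rfl
  let Γ : PlacesH1 p T →+ PlacesH2 p W := pairAt hWT C.cls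
  have hΓ : Function.Surjective Γ :=
    surjective_pairAt hH K hWT fun w hw => (Finset.mem_filter.1 hw).2
  have hcomp : symbsAt K W U C.cls = Γ.comp Φ := rfl
  -- the classes on `T` are injective
  have hker : Φ.ker = (kumUnits K (T ∪ T')).ker := by
    ext y
    rw [AddMonoidHom.mem_ker, AddMonoidHom.mem_ker, kumUnits_apply]
    constructor
    · intro h
      exact kum_eq_zero_of_loc K hH hT hpS (hS₂.mono hS₂S) had hsep
        y.2 fun v hv => congrFun h ⟨v, hv⟩
    · intro h
      funext v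
      show locH1 H v.1.1 v.1.rep (K.kum y.1) = 0
      rw [h, map_zero]
  have hdisj : Disjoint T T' := Finset.disjoint_left.2 fun v hv hv' =>
    (hT' v hv').1 ((mem_placesOver hH).1 hv)
  have hcardV : Nat.card (PlacesH1 p T) = p ^ (2 * T.card + H.index) := natCard_pi_H1 hH K hpS
  have hcardI : Nat.card Φ.range = p ^ (r + T.card + T'.card) := by
    rw [← AddSubgroup.index_ker, hker, AddSubgroup.index_ker, natCard_range_kumUnits hH hT K _ hr,
      Finset.card_union_of_disjoint hdisj, add_assoc]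
  have hidxI : Φ.range.index ≤ p := by
    have h := Φ.range.card_mul_index
    rw [hcardI, hcardV, hr] at h
    have hle := hcount hr
    have h' : p ^ (r + T.card + T'.card) * Φ.range.index ≤ p ^ (r + T.card + T'.card) * p := by
      rw [h, ← pow_succ]
      exact Nat.pow_le_pow_right hp.out.pos (by omega)
    exact Nat.le_of_mul_le_mul_left h' (pow_pos hp.out.pos _)
  have hcardW : Nat.card (PlacesH2 p W) = p ^ W.card := natCard_placesH2 hH K W
  have hrangeidx : (symbsAt K W U C.cls).range.index ≤ p := by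
    rw [hcomp, AddMonoidHom.range_comp]
    have hI0 : Φ.range.index ≠ 0 := fun h0 => by
      have h := Φ.range.card_mul_index
      rw [h0, mul_zero, hcardV] at h
      exact pow_ne_zero _ hp.out.ne_zero h.symm
    exact (Nat.le_of_dvd (Nat.pos_of_ne_zero hI0) (AddSubgroup.index_map_dvd _ hΓ)).trans hidxI
  have hNker := natCard_range_symbsAt_le K C (T ∪ T') W hN
  have h := (symbsAt K W U C.cls).range.card_mul_index
  rw [hcardW, ← AddSubgroup.index_ker, ← hidx] at h
  have hdvd := AddSubgroup.index_dvd_of_le hNker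
  have hN0 : 0 < N.index := Nat.pos_of_ne_zero fun h0 => by
    rw [h0, zero_mul] at hidx
    exact (pow_ne_zero _ hp.out.ne_zero) hidx.symm
  have hge : N.index ≤ (symbsAt K W U C.cls).ker.index := by
    refine Nat.le_of_mul_le_mul_right ?_ hp.out.pos
    rw [← h]
    exact Nat.mul_le_mul_left _ hrangeidx
  have heq : N = (symbsAt K W U C.cls).ker := by
    refine le_antisymm hNker ?_
    rw [← AddSubgroup.relIndex_eq_one]
    have h2 := AddSubgroup.relIndex_mul_index hNker
    have h3 := Nat.le_of_dvd hN0 hdvd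
    have hj : (symbsAt K W U C.cls).ker.index = N.index := le_antisymm h3 hge
    rw [hj] at h2
    exact Nat.eq_of_mul_eq_mul_right hN0 (h2.trans (one_mul _).symm)
  have haU : a ∈ U := tUnits_mono H Finset.subset_union_left haS
  refine hN ⟨a, haU⟩ ?_
  rw [heq, AddMonoidHom.mem_ker]
  funext w
  show symbAt w.1 (K.kum a) C.cls = 0
  rw [symbAt_eq]
  exact ha w.1

end FA.GalCoh
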