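import Fermat.Agent.GalCoh.UMod

/-!
Kummer theory for a field with a smooth Galois action containing the roots of unity of prime
order, and the description of the symbols of cyclic algebras by norms.
-/

set_option autoImplicit false
set_option linter.unusedSectionVars false

noncomputable section

namespace FA.GalCoh

open Representation

variable {G : Type} [Group G] {L : Levels G} {Ω : Type} [Field Ω] [MulSemiringAction G Ω]
variable {p : ℕ} [hp : Fact p.Prime]

variable (p G) in
/-- The trivial representation on `ZMod p`. -/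
abbrev triv : Representation (ZMod p) G (ZMod p) := 1

theorem smooth_triv : Smooth L (triv G p) := ⟨⊤, L.top_mem, fun _ _ => rfl⟩

theorem bil_triv : Bil (triv G p) (triv G p) (triv G p) (LinearMap.mul (ZMod p) (ZMod p)) :=
  fun _ _ _ => rfl

theorem d0_triv (v : ZMod p) : d0 (triv G p) v = 0 := by
  ext g; simp

theorem mk1_triv_injective : Function.Injective (mk1 L (triv G p)) :=
  (injective_iff_map_eq_zero _).2 fun f hf => by
    obtain ⟨v, hv⟩ := (mk1_eq_zero L (triv G p) f).1 hf
    exact Subtype.ext (by rw [← hv, d0_triv]; rfl)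

/-- The symbol of two classes. -/
abbrev symb : H1 L (triv G p) →ₗ[ZMod p] H1 L (triv G p) →ₗ[ZMod p] H2 L (triv G p) :=
  bil_triv.cup smooth_triv

theorem symb_comm (x y : H1 L (triv G p)) : symb y x = -symb x y := by
  obtain ⟨a, rfl⟩ := mk1_surjective x
  obtain ⟨b, rfl⟩ := mk1_surjective y
  rw [← bil_triv.cup_comm smooth_triv smooth_triv, symb, Bil.cup_mk1, Bil.cup_mk1]
  refine congrArg (mk2 L (triv G p)) (Subtype.ext (funext fun z => ?_))
  simp [Bil.cupc_apply, mul_comm]

theorem CycData.mem_Z1 {χ : G → ZMod p} (C : CycData L χ) : χ ∈ Z1 L (triv G p) :=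
  ⟨C.lc, fun g h => by rw [C.hom, add_comm]; rfl⟩

/-- The class of a character. -/
abbrev CycData.cls {χ : G → ZMod p} (C : CycData L χ) : H1 L (triv G p) :=
  mk1 L (triv G p) ⟨χ, C.mem_Z1⟩

/-- The data of Kummer theory: a fixed primitive root of unity, with all roots present. -/
structure KumData (L : Levels G) (Ω : Type) [Field Ω] [MulSemiringAction G Ω] (p : ℕ) where
  gal : GalAct L Ω
  /-- The root of unity. -/
  ζ : Ω
  prim : IsPrimitiveRoot ζ p
  fixζ : ∀ g : G, g • ζ = ζ
  root : ∀ x : Ω, ∃ y, y ^ p = x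

namespace KumData

variable (K : KumData L Ω p)
include K

theorem ζ_ne_zero : K.ζ ≠ 0 := K.prim.ne_zero hp.out.ne_zero

/-- The embedding of `ZMod p` by powers of the root of unity. -/
def eps : ZMod p →+ UM Ω where
  toFun i := i.val • UM.mk K.ζ K.ζ_ne_zero
  map_zero' := by simp
  map_add' i j := UM.ext (by
    simp only [UM.val_nsmul, UM.val_add, UM.val_mk, ← pow_add, ZMod.val_add]
    conv_rhs => rw [← Nat.mod_add_div (i.val + j.val) p]
    rw [pow_add, pow_mul, K.prim.pow_eq_one, one_pow, mul_one])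

theorem eps_val (i : ZMod p) : (K.eps i).val = K.ζ ^ i.val := by
  simp [eps]

theorem eps_injective : Function.Injective K.eps := fun i j h => by
  have := congrArg UM.val h
  rw [eps_val, eps_val] at this
  exact ZMod.val_injective p (K.prim.pow_inj (ZMod.val_lt i) (ZMod.val_lt j) this)

theorem smul_eps (g : G) (i : ZMod p) : g • K.eps i = K.eps i :=
  UM.ext (by rw [UM.val_smul, eps_val, smul_pow', K.fixζ])

theorem exists_eps {m : UM Ω} (h : p • m = 0) : ∃ i, K.eps i = m := by
  have hm := congrArg UM.val h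
  rw [UM.val_nsmul, UM.val_zero] at hm
  have : NeZero p := ⟨hp.out.ne_zero⟩
  obtain ⟨i, hi, h'⟩ := K.prim.eq_pow_of_pow_eq_one hm
  exact ⟨i, UM.ext (by rw [eps_val, ZMod.val_natCast_of_lt hi, h'])⟩

theorem nsmul_eps (i : ZMod p) : p • K.eps i = 0 := by
  rw [← map_nsmul, nsmul_eq_mul, ZMod.natCast_self, zero_mul, map_zero]

theorem exists_root (m : UM Ω) : ∃ A : UM Ω, p • A = m := by
  obtain ⟨y, hy⟩ := K.root m.val
  have hy0 : y ≠ 0 := fun h => m.val_ne_zero (by rw [← hy, h, zero_pow hp.out.ne_zero])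
  exact ⟨UM.mk y hy0, UM.ext (by rw [UM.val_nsmul, UM.val_mk, hy])⟩

variable (G Ω) in
/-- The elements of the ground field. -/
def _root_.FA.GalCoh.fixUM : AddSubgroup (UM Ω) where
  carrier := {m | ∀ g : G, g • m = m}
  zero_mem' g := smul_zero g
  add_mem' {m m'} h h' g := by rw [smul_add, h g, h' g]
  neg_mem' {m} h g := by rw [smul_neg, h g]

theorem exists_kc {a : UM Ω} (ha : a ∈ fixUM G Ω) {A : UM Ω} (hA : p • A = a) (g : G) :
    ∃ i, K.eps i = g • A - A :=
  K.exists_eps (by rw [smul_sub, smul_comm, hA, ha g, sub_self])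

/-- A chosen root. -/
def kroot (a : UM Ω) : UM Ω := (K.exists_root a).choose

theorem nsmul_kroot (a : UM Ω) : p • K.kroot a = a := (K.exists_root a).choose_spec

/-- The Kummer cocycle. -/
def kc (a : fixUM G Ω) (g : G) : ZMod p := (K.exists_kc a.2 (K.nsmul_kroot a.1) g).choose

theorem eps_kc (a : fixUM G Ω) {A : UM Ω} (hA : p • A = a.1) (g : G) :
    K.eps (K.kc a g) = g • A - A := by
  obtain ⟨i, hi⟩ := K.exists_eps (m := A - K.kroot a.1) (by
    rw [smul_sub, hA, K.nsmul_kroot, sub_self])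
  rw [kc, (K.exists_kc a.2 (K.nsmul_kroot a.1) g).choose_spec,
    show A = K.eps i + K.kroot a.1 by rw [hi, sub_add_cancel], smul_add, K.smul_eps]
  abel

theorem kc_mem (a : fixUM G Ω) : K.kc a ∈ Z1 L (triv G p) := by
  have hA := K.nsmul_kroot a.1
  refine ⟨?_, fun g h => K.eps_injective ?_⟩
  · obtain ⟨N, hN, hs⟩ := K.gal.smoothAct (K.kroot a.1)
    refine ⟨N, hN, fun g s hs' => K.eps_injective ?_⟩
    rw [K.eps_kc a hA, K.eps_kc a hA, mul_smul, hs s hs']
  · rw [MonoidHom.one_apply, Module.End.one_apply, map_add, K.eps_kc a hA, K.eps_kc a hA,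
      K.eps_kc a hA]
    calc (g * h) • K.kroot a.1 - K.kroot a.1
        = g • (h • K.kroot a.1 - K.kroot a.1) + (g • K.kroot a.1 - K.kroot a.1) := by
          rw [smul_sub, mul_smul]; abel
      _ = _ := by
          obtain ⟨i, hi⟩ := K.exists_kc a.2 hA h
          rw [← hi, K.smul_eps]

/-- The Kummer map. -/
def kum : fixUM G Ω →+ H1 L (triv G p) :=
  AddMonoidHom.mk' (fun a => mk1 L (triv G p) ⟨K.kc a, K.kc_mem a⟩) fun a b => by
    rw [← map_add]
    refine congrArg (mk1 L (triv G p)) (Subtype.ext (funext fun g => K.eps_injective ?_))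
    show K.eps (K.kc (a + b) g) = K.eps (K.kc a g + K.kc b g)
    rw [map_add, K.eps_kc a (K.nsmul_kroot a.1), K.eps_kc b (K.nsmul_kroot b.1),
      K.eps_kc (a + b) (A := K.kroot a.1 + K.kroot b.1)
        (by rw [smul_add, K.nsmul_kroot, K.nsmul_kroot]; rfl), smul_add]
    abel

theorem kum_apply (a : fixUM G Ω) : K.kum a = mk1 L (triv G p) ⟨K.kc a, K.kc_mem a⟩ := rfl

theorem kum_eq_zero_iff (a : fixUM G Ω) : K.kum a = 0 ↔ ∃ b : fixUM G Ω, p • b = a := by
  rw [kum_apply]
  constructor
  · intro h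
    have h0 : ∀ g, K.kc a g = 0 := fun g =>
      congrFun (congrArg Subtype.val (mk1_triv_injective (h.trans (map_zero _).symm))) g
    refine ⟨⟨K.kroot a.1, fun g => ?_⟩, Subtype.ext (K.nsmul_kroot a.1)⟩
    have := K.eps_kc a (K.nsmul_kroot a.1) g
    rw [h0, map_zero] at this
    exact sub_eq_zero.1 this.symm
  · rintro ⟨b, rfl⟩
    rw [← map_zero (mk1 L (triv G p))]
    refine congrArg (mk1 L (triv G p)) (Subtype.ext (funext fun g => K.eps_injective ?_))
    rw [K.eps_kc (p • b) (A := b.1) rfl, b.2 g, sub_self]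
    exact (map_zero K.eps).symm

theorem kum_surjective : Function.Surjective K.kum := by
  intro x
  obtain ⟨f, rfl⟩ := mk1_surjective x
  obtain ⟨w, hw⟩ := K.gal.hilbert90 (e := fun g => K.eps (f.1 g)) (f.2.1.comp K.eps) fun g h => by
    rw [f.2.2, map_add, K.smul_eps]
    rfl
  refine ⟨⟨p • w, fun g => ?_⟩, ?_⟩
  · rw [smul_comm, ← sub_eq_zero, ← smul_sub, ← hw, K.nsmul_eps]
  · refine congrArg (mk1 L (triv G p)) (Subtype.ext (funext fun g => K.eps_injective ?_))
    rw [K.eps_kc _ (A := w) rfl, ← hw]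

/-- A cocycle with values in roots of unity which splits in the multiplicative group splits. -/
theorem mk2_eq_zero_of_split (z : ↥(Z2 L (triv G p))) {e : G → UM Ω} (he : LC₁ L e)
    (h : ∀ g k, K.eps (z.1 (g, k)) = dM e (g, k)) : mk2 L (triv G p) z = 0 := by
  obtain ⟨w, hw⟩ := K.gal.hilbert90 (e := fun g => p • e g) (he.comp (p • ·)) fun g k => by
    have := congrArg (p • ·) (h g k)
    simp only [K.nsmul_eps, dM_apply, smul_add, smul_sub, smul_comm p g] at this
    linear_combination (norm := abel) this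
  obtain ⟨W, hW⟩ := K.exists_root w
  have hp' : ∀ g, ∃ i, K.eps i = e g - (g • W - W) := fun g => K.exists_eps (by
    rw [smul_sub, smul_sub, smul_comm, hW, hw, sub_self])
  choose c hc using hp'
  refine (mk2_eq_zero L (triv G p) z).2 ⟨c, ?_, funext fun ⟨g, k⟩ => K.eps_injective ?_⟩
  · obtain ⟨N, hN, hs⟩ := he
    obtain ⟨N', hN', hs'⟩ := K.gal.smoothAct W
    refine ⟨N ⊓ N', L.inf_mem hN hN', fun g s hs'' => K.eps_injective ?_⟩
    rw [hc, hc, hs g s hs''.1, mul_smul, hs' s hs''.2]
  · rw [h, d1_apply, MonoidHom.one_apply, Module.End.one_apply, map_add, map_sub, hc, hc, hc]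
    show _ = dM e (g, k)
    have e1 : K.eps (c k) = g • K.eps (c k) := (K.smul_eps g _).symm
    rw [hc] at e1
    rw [e1, dM_apply, smul_sub, smul_sub, mul_smul]
    abel

variable {χ : G → ZMod p} (C : CycData L χ)

include C in
/-- The identity between the symbol and the carry cocycle. -/
theorem symb_identity (a : fixUM G Ω) (g k : G) :
    K.eps (K.kc a g * χ k)
      = dM (fun g => (χ g).val • K.kroot a.1) (g, k) - carry (χ g) (χ k) • a.1 := by
  have hA := K.nsmul_kroot a.1
  have hv : K.eps (K.kc a g * χ k) = (χ k).val • (g • K.kroot a.1 - K.kroot a.1) := by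
    rw [← K.eps_kc a hA, ← map_nsmul, nsmul_eq_mul, ZMod.natCast_zmod_val, mul_comm]
  have hc : (χ g).val + (χ k).val = (χ g + χ k).val + p * carry (χ g) (χ k) := by
    rw [ZMod.val_add, carry, Nat.mod_add_div]
  have h2 : ((χ g).val + (χ k).val) • K.kroot a.1
      = (χ g + χ k).val • K.kroot a.1 + carry (χ g) (χ k) • a.1 := by
    rw [hc, add_smul, mul_comm, mul_smul, hA]
  simp only [dM_apply, C.hom, hv, smul_sub, smul_comm g]
  rw [add_smul] at h2
  linear_combination (norm := abel) -h2

/-- A symbol vanishes exactly at norms. -/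
theorem symb_eq_zero_iff (a : fixUM G Ω) :
    symb (K.kum a) (C.cls) = 0 ↔
      ∃ x : UM Ω, (∀ n, χ n = 0 → n • x = x) ∧ a.1 = ∑ i ∈ Finset.range p, C.σ ^ i • x := by
  rw [kum_apply, symb, Bil.cup_mk1]
  have hC : LC₁ L (fun g => (χ g).val • K.kroot a.1) := C.lc.comp fun i => i.val • K.kroot a.1
  constructor
  · intro h
    obtain ⟨c, hc, hdc⟩ := (mk2_eq_zero L (triv G p) _).1 h
    refine C.norm_of_carry_split (K.gal.h90 C)
      (e := fun g => (χ g).val • K.kroot a.1 - K.eps (c g)) (hC.map₂ (hc.comp K.eps) (· - ·))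
      fun g k => ?_
    have h1 := congrArg K.eps (congrFun hdc (g, k))
    simp only [d1_apply, Bil.cupc_apply, MonoidHom.one_apply, Module.End.one_apply,
      LinearMap.mul_apply', map_add, map_sub] at h1
    rw [K.symb_identity C] at h1
    simp only [dM_apply, smul_sub, K.smul_eps] at h1 ⊢
    linear_combination (norm := abel) -h1
  · rintro ⟨x, hx, hax⟩
    obtain ⟨e, he, -, -, hde⟩ := C.carry_split_of_norm hx
    refine K.mk2_eq_zero_of_split _ (hC.map₂ he (· - ·)) fun g k => ?_
    show K.eps (K.kc a g * χ k) = _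
    rw [K.symb_identity C, hax, ← hde]
    simp only [dM_apply, smul_sub]
    abel

include C in
/-- A class split on the kernel of a character is a symbol. -/
theorem exists_symb_of_res (z : ↥(Z2 L (triv G p))) {b : G → ZMod p} (hb : LC₁ L b)
    (hzb : ∀ n m, χ n = 0 → χ m = 0 → z.1 (n, m) = d1 (triv G p) b (n, m)) :
    ∃ a : fixUM G Ω, mk2 L (triv G p) z = symb (K.kum a) (C.cls) := by
  obtain ⟨e, a, he, ha, hdec⟩ := C.exists_carry K.gal.smoothAct (K.gal.h90 C)
    (z := fun x => K.eps (z.1 x))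
    (fun g h j => by
      have := congrArg K.eps (z.2.2 g h j)
      simp only [map_add, MonoidHom.one_apply, Module.End.one_apply] at this
      rw [K.smul_eps]
      exact this.symm)
    (z.2.1.comp K.eps) (b := fun g => K.eps (b g)) (hb.comp K.eps) fun n m hn hm => by
      rw [hzb n m hn hm, d1_apply, dM_apply, K.smul_eps, map_add, map_sub]
      rfl
  let a' : fixUM G Ω := -⟨a, ha⟩
  have hC : LC₁ L (fun g => (χ g).val • K.kroot a'.1) := C.lc.comp fun i => i.val • K.kroot a'.1
  refine ⟨a', ?_⟩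
  rw [kum_apply, symb, Bil.cup_mk1, ← sub_eq_zero, ← map_sub]
  refine K.mk2_eq_zero_of_split _ (he.map₂ hC (· - ·)) fun g k => ?_
  show K.eps (z.1 (g, k) - K.kc a' g * χ k) = _
  rw [map_sub, hdec, K.symb_identity C, show a'.1 = -a from rfl, smul_neg]
  simp only [dM_apply, smul_sub]
  abel

end KumData

end FA.GalCoh
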