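import Fermat.Agent.GalCoh.Kummer

/-!
The normal basis of a cyclic Kummer extension of prime degree, by explicit formulas.
-/

set_option autoImplicit false
set_option linter.unusedSectionVars false

noncomputable section

namespace FA.GalCoh

variable {G : Type} [Group G] {L : Levels G} {Ω : Type} [Field Ω] [MulSemiringAction G Ω]
variable {p : ℕ} [hp : Fact p.Prime] {χ : G → ZMod p}

/-- The powers of the chosen element. -/
def CycData.T (C : CycData L χ) (i : ZMod p) (x : Ω) : Ω := (C.σ ^ i.val) • x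

/-- Elements fixed by the kernel of the character. -/
def CycData.upper (_C : CycData L χ) (Ω : Type) [Field Ω] [MulSemiringAction G Ω] : Subfield Ω where
  carrier := {x | ∀ n, χ n = 0 → n • x = x}
  one_mem' n _ := smul_one n
  zero_mem' n _ := smul_zero n
  add_mem' {x y} hx hy n hn := by rw [smul_add, hx n hn, hy n hn]
  mul_mem' {x y} hx hy n hn := by rw [smul_mul', hx n hn, hy n hn]
  neg_mem' {x} hx n hn := by rw [smul_neg, hx n hn]
  inv_mem' x hx n hn := by rw [smul_inv'', hx n hn]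

namespace CycData

variable (C : CycData L χ)
include C

theorem smul_eq_of_map_eq {x : Ω} (hx : x ∈ C.upper Ω) {g g' : G} (h : χ g = χ g') :
    g • x = g' • x := by
  conv_lhs => rw [← mul_inv_cancel_left g' g, mul_smul,
    hx _ (by rw [C.hom, C.map_inv, h, neg_add_cancel])]

theorem smul_mem_upper {x : Ω} (hx : x ∈ C.upper Ω) (g : G) : g • x ∈ C.upper Ω := fun n hn => by
  rw [← mul_smul]
  exact C.smul_eq_of_map_eq hx (by rw [C.hom, hn, zero_add])

theorem T_mem_upper {x : Ω} (hx : x ∈ C.upper Ω) (i : ZMod p) : C.T i x ∈ C.upper Ω :=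
  C.smul_mem_upper hx _

theorem T_T {x : Ω} (hx : x ∈ C.upper Ω) (i j : ZMod p) : C.T i (C.T j x) = C.T (i + j) x := by
  rw [T, T, T, ← mul_smul]
  exact C.smul_eq_of_map_eq hx (by
    rw [C.hom, C.map_pow_σ, C.map_pow_σ, C.map_pow_σ, ZMod.natCast_zmod_val,
      ZMod.natCast_zmod_val, ZMod.natCast_zmod_val])

theorem smul_eq_T {x : Ω} (hx : x ∈ C.upper Ω) (g : G) : g • x = C.T (χ g) x :=
  C.smul_eq_of_map_eq hx (by rw [C.map_pow_σ, ZMod.natCast_zmod_val])

theorem T_zero (x : Ω) : C.T 0 x = x := by simp [T]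

end CycData

variable (p) in
/-- The generator of the normal basis. -/
def kTheta (A : Ω) : Ω := ∑ j : ZMod p, A ^ j.val

variable (K : KumData L Ω p)

namespace KumData

/-- The additive character given by the root of unity. -/
def ψ (i : ZMod p) : Ω := K.ζ ^ i.val

theorem ψ_eq (i : ZMod p) : K.ψ i = (K.eps i).val := (K.eps_val i).symm

theorem ψ_add (i j : ZMod p) : K.ψ (i + j) = K.ψ i * K.ψ j := by
  rw [ψ_eq, ψ_eq, ψ_eq, map_add, UM.val_add]

theorem ψ_zero : K.ψ 0 = 1 := by simp [ψ]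

theorem ψ_neg (i : ZMod p) : K.ψ (-i) = (K.ψ i)⁻¹ := by
  rw [ψ_eq, ψ_eq, map_neg, UM.val_neg]

theorem ψ_ne_zero (i : ZMod p) : K.ψ i ≠ 0 := by rw [ψ_eq]; exact UM.val_ne_zero _

theorem smul_ψ (g : G) (i : ZMod p) : g • K.ψ i = K.ψ i := by
  rw [ψ, smul_pow', K.fixζ]

theorem sum_ψ (j : ZMod p) : ∑ i, K.ψ (i * j) = if j = 0 then (p : Ω) else 0 := by
  split_ifs with h
  · subst h; simp [ψ_zero]
  · have h1 : ∑ i, K.ψ (i * j) = ∑ i, K.ψ i :=
      Fintype.sum_equiv (Equiv.mulRight₀ j h) _ _ fun i => rfl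
    rw [h1]
    have h2 : K.ψ 1 * ∑ i, K.ψ i = ∑ i, K.ψ i := by
      rw [Finset.mul_sum]
      exact Fintype.sum_equiv (Equiv.addLeft 1) _ _ fun i => (K.ψ_add 1 i).symm
    have hne : K.ψ 1 ≠ 1 := by
      rw [ψ, ZMod.val_one p, pow_one]
      exact K.prim.ne_one hp.out.one_lt
    by_contra hs
    exact hne (mul_eq_right₀ hs |>.1 h2)

theorem exists_kummer_gen (C : CycData L χ) : ∃ A : Ω, A ≠ 0 ∧ ∀ g, g • A = K.ψ (χ g) * A := by
  obtain ⟨a, ha⟩ := K.kum_surjective C.cls
  refine ⟨(K.kroot a.1).val, UM.val_ne_zero _, fun g => ?_⟩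
  have h : K.kc a g = χ g := congrFun (congrArg Subtype.val (mk1_triv_injective ha)) g
  have := K.eps_kc a (K.nsmul_kroot a.1) g
  rw [h] at this
  rw [ψ_eq, this, UM.val_sub, UM.val_smul, div_mul_cancel₀ _ (UM.val_ne_zero _)]

variable (C : CycData L χ) (A : Ω)

/-- The eigen components. -/
def eigen (j : ZMod p) (x : Ω) : Ω :=
  (p : Ω)⁻¹ * ∑ l, K.ψ (-(l * j)) * C.T l x * (A ^ j.val)⁻¹

/-- The coefficients in the normal basis. -/
def coef (i : ZMod p) (x : Ω) : Ω :=
  (p : Ω)⁻¹ * ∑ j, K.ψ (-(i * j)) * K.eigen C A j x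

variable (hA : A ≠ 0 ∧ ∀ g, g • A = K.ψ (χ g) * A) (hpΩ : (p : Ω) ≠ 0)

include hA in
theorem A_mem_upper : A ∈ C.upper Ω := fun n hn => by rw [hA.2, hn, ψ_zero, one_mul]

include hA in
theorem smul_Apow (g : G) (j : ZMod p) : g • A ^ j.val = K.ψ (χ g * j) * A ^ j.val := by
  rw [smul_pow', hA.2, mul_pow]
  congr 1
  rw [ψ_eq, ψ_eq, ← UM.val_nsmul, ← map_nsmul, nsmul_eq_mul, ZMod.natCast_zmod_val, mul_comm]

include hA in
theorem theta_mem : kTheta p A ∈ C.upper Ω :=
  sum_mem fun _ _ => pow_mem (K.A_mem_upper C A hA) _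

include hA in
theorem T_theta (i : ZMod p) : C.T i (kTheta p A) = ∑ j, K.ψ (i * j) * A ^ j.val := by
  rw [CycData.T, kTheta, Finset.smul_sum]
  refine Finset.sum_congr rfl fun j _ => ?_
  rw [K.smul_Apow A hA, C.map_pow_σ, ZMod.natCast_zmod_val]

include hA in
theorem eigen_smul {x : Ω} (hx : x ∈ C.upper Ω) (g : G) (j : ZMod p) :
    g • K.eigen C A j x = K.eigen C A j x := by
  rw [eigen, smul_mul', smul_inv'', ← MulSemiringAction.toRingHom_apply G Ω g (p : Ω), map_natCast,
    Finset.smul_sum]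
  congr 1
  refine Fintype.sum_equiv (Equiv.addLeft (χ g)) _ _ fun l => ?_
  simp only [smul_mul', K.smul_ψ, smul_inv'', K.smul_Apow A hA, Equiv.coe_addLeft]
  rw [C.smul_eq_T (C.T_mem_upper hx l), C.T_T hx, mul_inv, ← K.ψ_neg,
    show -((χ g + l) * j) = -(l * j) + -(χ g * j) by ring, K.ψ_add]
  ring

include hA in
theorem coef_smul {x : Ω} (hx : x ∈ C.upper Ω) (g : G) (i : ZMod p) :
    g • K.coef C A i x = K.coef C A i x := by
  rw [coef, smul_mul', smul_inv'', ← MulSemiringAction.toRingHom_apply G Ω g (p : Ω), map_natCast,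
    Finset.smul_sum]
  congr 1
  exact Finset.sum_congr rfl fun j _ => by rw [smul_mul', K.smul_ψ, K.eigen_smul C A hA hx]

theorem eigen_add (j : ZMod p) (x y : Ω) :
    K.eigen C A j (x + y) = K.eigen C A j x + K.eigen C A j y := by
  simp only [eigen, CycData.T, smul_add, mul_add, add_mul, Finset.sum_add_distrib]

theorem coef_add (i : ZMod p) (x y : Ω) :
    K.coef C A i (x + y) = K.coef C A i x + K.coef C A i y := by
  simp only [coef, eigen_add, mul_add, Finset.sum_add_distrib]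

include hA hpΩ in
theorem sum_eigen (x : Ω) : ∑ j, K.eigen C A j x * A ^ j.val = x := by
  have h : ∀ j : ZMod p, K.eigen C A j x * A ^ j.val
      = (p : Ω)⁻¹ * ∑ l, K.ψ (j * -l) * C.T l x := fun j => by
    rw [eigen, mul_assoc, Finset.sum_mul]
    congr 1
    refine Finset.sum_congr rfl fun l _ => ?_
    rw [inv_mul_cancel_right₀ (pow_ne_zero _ hA.1), mul_neg, mul_comm j l]
  rw [Finset.sum_congr rfl fun j _ => h j, ← Finset.mul_sum, Finset.sum_comm]
  simp_rw [← Finset.sum_mul, K.sum_ψ, neg_eq_zero, ite_mul, zero_mul, Finset.sum_ite_eq',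
    Finset.mem_univ, if_true, C.T_zero]
  rw [← mul_assoc, inv_mul_cancel₀ hpΩ, one_mul]

include hA hpΩ in
/-- Every element is the combination of the conjugates of the generator by its coefficients. -/
theorem sum_coef (x : Ω) : ∑ i, K.coef C A i x * C.T i (kTheta p A) = x := by
  have h : ∀ i, K.coef C A i x * C.T i (kTheta p A)
      = ∑ j, ∑ j', K.ψ (i * (j' - j)) * ((p : Ω)⁻¹ * K.eigen C A j x * A ^ j'.val) := fun i => by
    rw [K.T_theta C A hA, coef, Finset.mul_sum, Finset.mul_sum]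
    rw [Finset.sum_comm]
    refine Finset.sum_congr rfl fun j' _ => ?_
    rw [Finset.sum_mul]
    refine Finset.sum_congr rfl fun j _ => ?_
    rw [show i * (j' - j) = -(i * j) + i * j' by ring, K.ψ_add]
    ring
  rw [Finset.sum_congr rfl fun i _ => h i, Finset.sum_comm]
  conv_rhs => rw [← K.sum_eigen C A hA hpΩ x]
  refine Finset.sum_congr rfl fun j _ => ?_
  rw [Finset.sum_comm]
  simp_rw [← Finset.sum_mul, K.sum_ψ, sub_eq_zero, ite_mul, zero_mul, Finset.sum_ite_eq',
    Finset.mem_univ, if_true]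
  rw [← mul_assoc, ← mul_assoc, mul_inv_cancel₀ hpΩ, one_mul]

include hA hpΩ in
/-- The coefficients of a combination with fixed coefficients. -/
theorem coef_sum (d : ZMod p → Ω) (hd : ∀ g i, (g : G) • d i = d i) (k : ZMod p) :
    K.coef C A k (∑ i, d i * C.T i (kTheta p A)) = d k := by
  have hT : ∀ l, C.T l (∑ i, d i * C.T i (kTheta p A))
      = ∑ i, ∑ j', K.ψ ((l + i) * j') * (d i * A ^ j'.val) := fun l => by
    rw [CycData.T, Finset.smul_sum]
    refine Finset.sum_congr rfl fun i _ => ?_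
    rw [smul_mul', hd]
    show d i * C.T l (C.T i (kTheta p A)) = _
    rw [C.T_T (K.theta_mem C A hA), K.T_theta C A hA, Finset.mul_sum]
    exact Finset.sum_congr rfl fun j' _ => by ring
  have he : ∀ j, K.eigen C A j (∑ i, d i * C.T i (kTheta p A))
      = ∑ i, K.ψ (i * j) * d i := fun j => by
    rw [eigen]
    have : ∀ l, K.ψ (-(l * j)) * C.T l (∑ i, d i * C.T i (kTheta p A)) * (A ^ j.val)⁻¹
        = ∑ i, ∑ j', K.ψ (l * (j' - j)) * (K.ψ (i * j') * d i * A ^ j'.val * (A ^ j.val)⁻¹) :=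
      fun l => by
      rw [hT, Finset.mul_sum, Finset.sum_mul]
      refine Finset.sum_congr rfl fun i _ => ?_
      rw [Finset.mul_sum, Finset.sum_mul]
      refine Finset.sum_congr rfl fun j' _ => ?_
      rw [show (l + i) * j' = l * j' + i * j' by ring,
        show l * (j' - j) = -(l * j) + l * j' by ring, K.ψ_add, K.ψ_add]
      ring
    rw [Finset.sum_congr rfl fun l _ => this l, Finset.sum_comm, Finset.mul_sum]
    refine Finset.sum_congr rfl fun i _ => ?_
    rw [Finset.sum_comm]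
    simp_rw [← Finset.sum_mul, K.sum_ψ, sub_eq_zero, ite_mul, zero_mul, Finset.sum_ite_eq',
      Finset.mem_univ, if_true]
    field_simp [hA.1, hpΩ]
  rw [coef, Finset.sum_congr rfl fun j _ => by rw [he, Finset.mul_sum], Finset.sum_comm]
  have : ∀ i, ∑ j, K.ψ (-(k * j)) * (K.ψ (i * j) * d i) = if i = k then (p : Ω) * d i else 0 :=
    fun i => by
    simp_rw [← mul_assoc, ← K.ψ_add, show ∀ j, -(k * j) + i * j = j * (i - k) from fun j => by ring,
      ← Finset.sum_mul, K.sum_ψ, sub_eq_zero, ite_mul, zero_mul]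
  rw [Finset.sum_congr rfl fun i _ => this i, Finset.sum_ite_eq', if_pos (Finset.mem_univ k),
    ← mul_assoc, inv_mul_cancel₀ hpΩ, one_mul]

end KumData

end FA.GalCoh
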