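import Fermat.Agent.GalCoh.LocalEuler

/-!
Cohomology at the levels unramified outside a finite set of primes.
-/

set_option autoImplicit false
set_option linter.unusedSectionVars false

noncomputable section

namespace FA.GalCoh

open Representation

/-- The levels containing all conjugates of the inertia groups outside `S`. -/
def levS (S : Finset Nat.Primes) : Levels GQ where
  carrier := {N | N ∈ LQ.carrier ∧
    ∀ q : Nat.Primes, q ∉ S → ∀ t ∈ inertL (q : ℕ), ∀ g : GQ, g * loc (q : ℕ) t * g⁻¹ ∈ N}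
  top_mem := ⟨LQ.top_mem, fun _ _ _ _ _ => Subgroup.mem_top _⟩
  inf_mem h h' := ⟨LQ.inf_mem h.1 h'.1,
    fun q hq t ht g => ⟨h.2 q hq t ht g, h'.2 q hq t ht g⟩⟩
  exists_normal {N} h := by
    obtain ⟨N'', hN'', hle, hn⟩ := LQ.exists_normal h.1
    have hle' : N'' ≤ N.normalCore := fun x hx b => hle (hn.conj_mem x hx b)
    refine ⟨N.normalCore, ⟨mem_LQ_iff_isOpen.2
      (Subgroup.isOpen_mono hle' (isOpen_of_mem_LQ hN'')), fun q hq t ht g b => ?_⟩,
      Subgroup.normalCore_le N, Subgroup.normalCore_normal N⟩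
    have := h.2 q hq t ht (b * g)
    rwa [mul_inv_rev, ← mul_assoc, mul_assoc b g, mul_assoc b] at this
  finiteIndex h := LQ.finiteIndex h.1

theorem mem_levS {S : Finset Nat.Primes} {N : Subgroup GQ} :
    N ∈ (levS S).carrier ↔ N ∈ LQ.carrier ∧
      ∀ q : Nat.Primes, q ∉ S → ∀ t ∈ inertL (q : ℕ), ∀ g : GQ, g * loc (q : ℕ) t * g⁻¹ ∈ N :=
  Iff.rfl

theorem levS_of_le {S : Finset Nat.Primes} {N N' : Subgroup GQ} (h : N ∈ (levS S).carrier)
    (hle : N ≤ N') : N' ∈ (levS S).carrier :=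
  ⟨mem_LQ_iff_isOpen.2 (Subgroup.isOpen_mono hle (isOpen_of_mem_LQ h.1)),
    fun q hq t ht g => hle (h.2 q hq t ht g)⟩

theorem compatS (S : Finset Nat.Primes) : Compat (levS S) LQ (MonoidHom.id GQ) :=
  fun N hN => ⟨N, hN.1, le_rfl⟩

theorem compatSL (S : Finset Nat.Primes) (q : ℕ) [Fact q.Prime] :
    Compat (levS S) (LL q) (loc q) :=
  fun N hN => compat_loc N hN.1

variable {p : ℕ} [hp : Fact p.Prime]
variable {V : Type} [AddCommGroup V] [Module (ZMod p) V]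

/-- Inflation of classes of degree one. -/
def inflS (S : Finset Nat.Primes) (ρ : Representation (ZMod p) GQ V) :
    H1 (levS S) ρ →ₗ[ZMod p] H1 LQ ρ :=
  map1 (compatS S) (φ := LinearMap.id) fun _ _ => rfl

/-- Restriction of classes of degree one to a prime. -/
def res1S (S : Finset Nat.Primes) (q : ℕ) [Fact q.Prime] (ρ : Representation (ZMod p) GQ V) :
    H1 (levS S) ρ →ₗ[ZMod p] H1 (LL q) (ρ.comp (loc q)) :=
  map1 (compatSL S q) (Equi.res (loc q) ρ)

/-- Restriction of classes of degree two to a prime. -/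
def res2S (S : Finset Nat.Primes) (q : ℕ) [Fact q.Prime] (ρ : Representation (ZMod p) GQ V) :
    H2 (levS S) ρ →ₗ[ZMod p] H2 (LL q) (ρ.comp (loc q)) :=
  map2 (compatSL S q) (Equi.res (loc q) ρ)

/-- The classes of degree one unramified outside `S` and trivial at `S`. -/
def shaS1 (S : Finset Nat.Primes) (ρ : Representation (ZMod p) GQ V) :
    Submodule (ZMod p) (H1 LQ ρ) :=
  selS S ρ fun _ => ⊥

/-- The classes of degree two at the levels outside `S` which are trivial at `S`. -/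
def shaS2 (S : Finset Nat.Primes) (ρ : Representation (ZMod p) GQ V) :
    Submodule (ZMod p) (H2 (levS S) ρ) :=
  ⨅ q : {q : Nat.Primes // q ∈ S}, LinearMap.ker (res2S S (q.1 : ℕ) ρ)

variable {ρ : Representation (ZMod p) GQ V} {S : Finset Nat.Primes}

theorem mem_shaS1 {x : H1 LQ ρ} :
    x ∈ shaS1 S ρ ↔ x ∈ unrOutside S ρ ∧
      ∀ q : {q : Nat.Primes // q ∈ S}, resq1 (q.1 : ℕ) ρ x = 0 := by
  rw [shaS1, mem_selS]
  simp only [Submodule.mem_bot]

theorem mem_shaS2 {z : H2 (levS S) ρ} :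
    z ∈ shaS2 S ρ ↔ ∀ q : {q : Nat.Primes // q ∈ S}, res2S S (q.1 : ℕ) ρ z = 0 := by
  simp only [shaS2, Submodule.mem_iInf, LinearMap.mem_ker]

theorem resq1_inflS (q : ℕ) [Fact q.Prime] (x : H1 (levS S) ρ) :
    resq1 q ρ (inflS S ρ x) = res1S S q ρ x := by
  obtain ⟨c, rfl⟩ := mk1_surjective x
  rfl

theorem inflS_injective : Function.Injective (inflS S ρ) := by
  refine (injective_iff_map_eq_zero _).2 fun x hx => ?_
  obtain ⟨c, rfl⟩ := mk1_surjective x
  obtain ⟨v, hv⟩ := (mk1_eq_zero LQ ρ _).1 hx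
  exact (mk1_eq_zero (levS S) ρ c).2 ⟨v, hv⟩

theorem unrRep_of_smoothS (hs : Smooth (levS S) ρ) {q : Nat.Primes} (hq : q ∉ S) :
    UnrRep (ρ.comp (loc (q : ℕ))) := fun t ht => by
  obtain ⟨N, hN, h⟩ := hs
  exact h _ (by simpa using hN.2 q hq t ht 1)

theorem inflS_mem (x : H1 (levS S) ρ) : inflS S ρ x ∈ unrOutside S ρ := by
  obtain ⟨c, rfl⟩ := mk1_surjective x
  obtain ⟨N, hN, hc⟩ := c.2.1
  refine mem_unrOutside.2 fun q hq => ⟨mapZ1 compat_loc (Equi.res (loc (q : ℕ)) ρ)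
    (mapZ1 (compatS S) (φ := LinearMap.id) (fun _ _ => rfl) c), fun t ht => ?_, rfl⟩
  show c.1 (loc (q : ℕ) t) = 0
  have := hc 1 (loc (q : ℕ) t) (by simpa using hN.2 q hq t ht 1)
  rwa [one_mul, Z1.map_one] at this

theorem exists_inflS_eq (hs : Smooth (levS S) ρ) {y : H1 LQ ρ} (hy : y ∈ unrOutside S ρ) :
    ∃ x, inflS S ρ x = y := by
  obtain ⟨f, rfl⟩ := mk1_surjective y
  obtain ⟨N, hN, hfN⟩ := f.2.1
  obtain ⟨M, hM, hρ⟩ := hs
  obtain ⟨M', hM', hle, hn⟩ := (levS S).exists_normal hM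
  let N' : Subgroup GQ :=
    { carrier := {s | s ∈ M' ∧ f.1 s = 0}
      one_mem' := ⟨one_mem _, Z1.map_one f⟩
      mul_mem' := fun {a b} ha hb => ⟨mul_mem ha.1 hb.1, by
        rw [f.2.2, hb.2, ha.2, map_zero, add_zero]⟩
      inv_mem' := fun {a} ha => by
        refine ⟨inv_mem ha.1, ?_⟩
        have h2 := f.2.2 a a⁻¹
        rw [mul_inv_cancel, Z1.map_one, ha.2, add_zero, hρ a (hle ha.1)] at h2
        exact h2.symm }
  have hmem : N' ∈ (levS S).carrier := by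
    refine ⟨mem_LQ_iff_isOpen.2 (Subgroup.isOpen_mono (show N ⊓ M' ≤ N' from fun s hs => ⟨hs.2, by
      have := hfN 1 s hs.1
      rwa [one_mul, Z1.map_one] at this⟩) (isOpen_of_mem_LQ (LQ.inf_mem hN hM'.1))),
      fun q hq t ht g => ⟨hM'.2 q hq t ht g, ?_⟩⟩
    have hρt : ρ (loc (q : ℕ) t) = 1 := hρ _ (hle (by simpa using hM'.2 q hq t ht 1))
    have hft : f.1 (loc (q : ℕ) t) = 0 :=
      apply_inertL_eq_zero_of_mem (unrRep_of_smoothS ⟨M, hM, hρ⟩ hq)
        (c := mapZ1 compat_loc (Equi.res (loc (q : ℕ)) ρ) f) (mem_unrOutside.1 hy q hq) ht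
    have h2 := f.2.2 g g⁻¹
    rw [mul_inv_cancel, Z1.map_one] at h2
    rw [f.2.2 (g * loc (q : ℕ) t) g⁻¹, f.2.2 g (loc (q : ℕ) t), hft, map_zero, zero_add, map_mul,
      hρt, mul_one, ← h2]
  exact ⟨mk1 (levS S) ρ ⟨f.1, ⟨N', hmem, fun g s hs => by
    rw [f.2.2, hs.2, map_zero, zero_add]⟩, f.2.2⟩, rfl⟩

theorem range_inflS (hs : Smooth (levS S) ρ) :
    LinearMap.range (inflS S ρ) = unrOutside S ρ :=
  le_antisymm (by rintro _ ⟨x, rfl⟩; exact inflS_mem x) fun _ hy => exists_inflS_eq hs hy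

theorem smooth_levS (hs : Smooth LQ ρ)
    (hunr : ∀ q : Nat.Primes, q ∉ S → UnrRep (ρ.comp (loc (q : ℕ)))) : Smooth (levS S) ρ := by
  obtain ⟨N, hN, h⟩ := hs
  have hker : N ≤ ρ.ker := fun s hs => MonoidHom.mem_ker.2 (h s hs)
  refine ⟨ρ.ker, ⟨mem_LQ_iff_isOpen.2 (Subgroup.isOpen_mono hker (isOpen_of_mem_LQ hN)),
    fun q hq t ht g => (MonoidHom.normal_ker ρ).conj_mem _ (MonoidHom.mem_ker.2 (hunr q hq t ht)) g⟩,
    fun s hs => MonoidHom.mem_ker.1 hs⟩

theorem finite_H1S {W : Type} [AddCommGroup W] [Module (ZMod p) W]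
    {σ : Representation (ZMod p) GQ W} (P : DPair LQ (cycQ p).χ ρ σ) (hp2 : p ≠ 2) :
    Module.Finite (ZMod p) (H1 (levS S) ρ) := by
  have := finite_unrOutside_of P hp2 S
  have : Finite (H1 (levS S) ρ) :=
    Finite.of_injective (fun x => (⟨inflS S ρ x, inflS_mem x⟩ : unrOutside S ρ))
      fun x y h => inflS_injective (congrArg Subtype.val h)
  exact Module.Finite.of_finite

theorem finrank_H1S (hs : Smooth (levS S) ρ) :
    Module.finrank (ZMod p) (H1 (levS S) ρ)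
      = Module.finrank (ZMod p) (selS S ρ fun _ => ⊤) := by
  rw [← LinearMap.finrank_range_of_inj inflS_injective, range_inflS hs,
    show selS S ρ (fun _ => ⊤) = unrOutside S ρ from
      le_antisymm (selS_le S _) fun x hx => mem_selS.2 ⟨hx, fun _ => Submodule.mem_top⟩]

end FA.GalCoh
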