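import Fermat.Agent.GalCoh.LocalH2

/-!
Residue fields, Frobenius exponents on roots of unity and the unramified character of order `p` of
the absolute Galois group of `ℚ_q`.
-/

set_option autoImplicit false
set_option linter.unusedSectionVars false

noncomputable section

namespace FA.GalCoh

open Polynomial

/-- In a domain of characteristic `q` an endomorphism acts on `x` with `x ^ q ^ N = x` as a power of
Frobenius. -/
theorem exists_frobenius_pow {R : Type} [CommRing R] [IsDomain R] {q : ℕ} [hq : Fact q.Prime]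
    [CharP R q] (φ : R →+* R) {N : ℕ} (hN : 0 < N) {x : R} (hx : x ^ q ^ N = x) :
    ∃ i < N, φ x = x ^ q ^ i := by
  classical
  set P : R[X] := ∏ i ∈ Finset.range N, (X - C (x ^ q ^ i)) with hP
  have hfrob : P.map (frobenius R q) = P := by
    rw [hP, Polynomial.map_prod]
    simp only [Polynomial.map_sub, map_X, map_C, frobenius_def]
    have h : ∀ i, (x ^ q ^ i) ^ q = x ^ q ^ (i + 1) := fun i => by rw [← pow_mul, ← pow_succ]
    simp only [h]
    obtain ⟨M, rfl⟩ := Nat.exists_eq_succ_of_ne_zero hN.ne'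
    rw [Finset.prod_range_succ, hx, Finset.prod_range_succ' (fun i => X - C (x ^ q ^ i))]
    simp
  have hcoef : ∀ k, ∃ n : ℕ, P.coeff k = (n : R) := by
    intro k
    have hc : (P.coeff k) ^ q = P.coeff k := by
      rw [← frobenius_def (R := R) q, ← Polynomial.coeff_map, hfrob]
    let s : Finset R := (Finset.range q).image fun n : ℕ => (n : R)
    have hcard : s.card = q := by
      rw [Finset.card_image_of_injOn, Finset.card_range]
      intro a ha b hb h
      exact Nat.ModEq.eq_of_lt_of_lt ((CharP.natCast_eq_natCast R q).1 h)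
        (Finset.mem_range.1 ha) (Finset.mem_range.1 hb)
    have hdeg : (X ^ q - X : R[X]).natDegree = q := by
      rw [natDegree_sub_eq_left_of_natDegree_lt] <;> simp [hq.out.one_lt]
    have hQ : (X ^ q - X : R[X]) ≠ 0 :=
      ne_zero_of_natDegree_gt (n := 0) (by rw [hdeg]; exact hq.out.pos)
    have hsub : s ⊆ (X ^ q - X : R[X]).roots.toFinset := by
      intro c hc'
      obtain ⟨n, -, rfl⟩ := Finset.mem_image.1 hc'
      rw [Multiset.mem_toFinset, mem_roots hQ, IsRoot, eval_sub, eval_pow, eval_X,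
        ← frobenius_def, map_natCast, sub_self]
    have heq : s = (X ^ q - X : R[X]).roots.toFinset := by
      refine Finset.eq_of_subset_of_card_le hsub ?_
      rw [hcard]
      refine (Multiset.toFinset_card_le _).trans ((card_roots' _).trans ?_)
      rw [hdeg]
    have hmem : P.coeff k ∈ s := by
      rw [heq, Multiset.mem_toFinset, mem_roots hQ, IsRoot, eval_sub, eval_pow, eval_X, hc, sub_self]
    obtain ⟨n, -, hn⟩ := Finset.mem_image.1 hmem
    exact ⟨n, hn.symm⟩
  have hφP : P.map φ = P := by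
    ext k
    obtain ⟨n, hn⟩ := hcoef k
    rw [Polynomial.coeff_map, hn, map_natCast]
  have h0 : P.eval x = 0 := by
    rw [hP, eval_prod]
    exact Finset.prod_eq_zero (Finset.mem_range.2 hN) (by simp)
  have h1 : P.eval (φ x) = 0 := by
    rw [← hφP, Polynomial.eval_map, Polynomial.eval₂_at_apply, h0, map_zero]
  rw [hP, eval_prod, Finset.prod_eq_zero_iff] at h1
  obtain ⟨i, hi, h⟩ := h1
  exact ⟨i, Finset.mem_range.1 hi, sub_eq_zero.1 (by simpa using h)⟩

variable {q : ℕ} [hq : Fact q.Prime]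

variable (q) in
/-- The integers of the algebraic closure. -/
def intRing : Subring (PadicAlgCl q) where
  carrier := {x | ‖x‖ ≤ 1}
  mul_mem' {x y} hx hy := by
    show ‖x * y‖ ≤ 1
    rw [norm_mul]
    exact mul_le_one₀ hx (norm_nonneg _) hy
  one_mem' := norm_one.le
  add_mem' hx hy := norm_add_le_of_le hx hy
  zero_mem' := by show ‖(0 : PadicAlgCl q)‖ ≤ 1; simp
  neg_mem' {x} hx := by show ‖-x‖ ≤ 1; rw [norm_neg]; exact hx

variable (q) in
/-- The maximal ideal of the integers. -/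
def intIdeal : Ideal (intRing q) where
  carrier := {x | ‖(x : PadicAlgCl q)‖ < 1}
  add_mem' {x y} hx hy := lt_of_le_of_lt (IsUltrametricDist.norm_add_le_max _ _) (max_lt hx hy)
  zero_mem' := by show ‖(0 : PadicAlgCl q)‖ < 1; simp
  smul_mem' c {x} hx := by
    show ‖(c : PadicAlgCl q) * x‖ < 1
    rw [norm_mul]
    exact lt_of_le_of_lt (mul_le_of_le_one_left (norm_nonneg _) c.2) hx

theorem mem_intIdeal {x : intRing q} : x ∈ intIdeal q ↔ ‖(x : PadicAlgCl q)‖ < 1 := Iff.rfl

instance : (intIdeal q).IsPrime := by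
  constructor
  · rw [Ideal.ne_top_iff_one, mem_intIdeal]
    simp
  · intro x y h
    rw [mem_intIdeal, Subring.coe_mul, norm_mul] at h
    by_contra! hc
    rw [mem_intIdeal, mem_intIdeal, not_lt, not_lt] at hc
    exact absurd h (not_lt.2 (one_le_mul_of_one_le_of_one_le hc.1 hc.2))

variable (q) in
/-- The residue ring. -/
abbrev ResRing : Type := intRing q ⧸ intIdeal q

instance : CharP (ResRing q) q := by
  refine (CharP.charP_iff_prime_eq_zero hq.out).2 ?_
  rw [← map_natCast (Ideal.Quotient.mk (intIdeal q)), Ideal.Quotient.eq_zero_iff_mem, mem_intIdeal]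
  exact norm_q_lt_one

theorem norm_root_of_unity {m : ℕ} (hm : 0 < m) {x : PadicAlgCl q} (h : x ^ m = 1) : ‖x‖ = 1 := by
  have := congrArg norm h
  rw [norm_pow, norm_one] at this
  exact (pow_eq_one_iff_of_nonneg (norm_nonneg _) hm.ne').1 this

/-- Roots of unity of order prime to `q` are incongruent. -/
theorem root_eq_of_close {m : ℕ} (hm : ¬ q ∣ m) {x y : PadicAlgCl q} (hx : x ^ m = 1)
    (hy : y ^ m = 1) (h : ‖x - y‖ < 1) : x = y := by
  have hm0 : 0 < m := Nat.pos_of_ne_zero fun h => hm (h ▸ dvd_zero q)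
  have hy1 := norm_root_of_unity hm0 hy
  have hy0 : y ≠ 0 := norm_pos_iff.1 (by rw [hy1]; exact one_pos)
  set t := x / y - 1 with ht
  have htn : ‖t‖ < 1 := by rw [ht, div_sub_one hy0, norm_div, hy1, div_one]; exact h
  by_contra hne
  have ht0 : t ≠ 0 := fun h0 => hne ((div_eq_one_iff_eq hy0).1 (sub_eq_zero.1 h0))
  have hx' : (1 + t) ^ m = 1 := by rw [ht, add_sub_cancel, div_pow, hx, hy, div_one]
  have hexp := norm_pow_expansion htn.le m
  rw [hx', sub_self, zero_sub, norm_neg, norm_mul] at hexp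
  have hmn : ‖(m : PadicAlgCl q)‖ = 1 := by
    rw [← map_natCast (algebraMap ℚ_[q] (PadicAlgCl q)), norm_algebraMap']
    exact Padic.norm_natCast_eq_one_iff.2 ((Nat.Prime.coprime_iff_not_dvd hq.out).2 hm)
  rw [hmn, one_mul, sq] at hexp
  have : (1 : ℝ) ≤ ‖t‖ := le_of_mul_le_mul_right (by rwa [one_mul]) (norm_pos_iff.2 ht0)
  exact absurd htn (not_lt.2 this)

/-- The residual endomorphism of an automorphism. -/
def resMap (g : LG q) : ResRing q →+* ResRing q :=
  Ideal.Quotient.lift (intIdeal q)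
    ((Ideal.Quotient.mk (intIdeal q)).comp
      (((g : PadicAlgCl q →+* PadicAlgCl q).comp (intRing q).subtype).codRestrict (intRing q)
        fun x => by show ‖g x‖ ≤ 1; rw [norm_algEquiv]; exact x.2))
    fun x hx => by
      rw [RingHom.comp_apply, Ideal.Quotient.eq_zero_iff_mem, mem_intIdeal]
      show ‖g x‖ < 1
      rw [norm_algEquiv]
      exact hx

/-- An automorphism acts on roots of unity of order prime to `q` as a power of Frobenius. -/
theorem exists_frob_exponent (g : LG q) {N M : ℕ} (hN : 0 < N) (hM : M ∣ q ^ N - 1) :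
    ∃ i < N, ∀ x : PadicAlgCl q, x ^ M = 1 → g x = x ^ q ^ i := by
  have hqN : 1 < q ^ N := Nat.one_lt_pow hN.ne' hq.out.one_lt
  have hqM : ¬ q ∣ q ^ N - 1 := fun h => by
    have h2 : q ∣ q ^ N := dvd_pow_self q hN.ne'
    have : q ∣ q ^ N - (q ^ N - 1) := Nat.dvd_sub h2 h
    rw [show q ^ N - (q ^ N - 1) = 1 by omega] at this
    exact hq.out.one_lt.ne' (Nat.dvd_one.1 this)
  set m := q ^ N - 1 with hm
  have hm0 : 0 < m := by omega
  have : NeZero (m : PadicAlgCl q) := ⟨Nat.cast_ne_zero.2 hm0.ne'⟩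
  obtain ⟨ζ, hζ⟩ := HasEnoughRootsOfUnity.exists_primitiveRoot (PadicAlgCl q) m
  have hζ1 : ‖ζ‖ ≤ 1 := (norm_root_of_unity hm0 hζ.pow_eq_one).le
  let z : intRing q := ⟨ζ, hζ1⟩
  have hz : (Ideal.Quotient.mk (intIdeal q) z) ^ q ^ N = Ideal.Quotient.mk (intIdeal q) z := by
    rw [← map_pow]
    refine congrArg _ (Subtype.ext ?_)
    show ζ ^ q ^ N = ζ
    rw [show q ^ N = m + 1 by omega, pow_succ, hζ.pow_eq_one, one_mul]
  obtain ⟨i, hi, h⟩ := exists_frobenius_pow (resMap g) hN hz
  refine ⟨i, hi, fun x hx => ?_⟩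
  have hg : g ζ = ζ ^ q ^ i := by
    refine root_eq_of_close hqM (by rw [← map_pow, hζ.pow_eq_one, map_one])
      (by rw [← pow_mul, mul_comm, pow_mul, hζ.pow_eq_one, one_pow]) ?_
    rw [← map_pow, resMap, Ideal.Quotient.lift_mk, RingHom.comp_apply, Ideal.Quotient.eq,
      mem_intIdeal] at h
    exact h
  obtain ⟨d, hd⟩ := hM
  have hxm : x ^ m = 1 := by rw [hd, pow_mul, hx, one_pow]
  have : NeZero m := ⟨hm0.ne'⟩
  obtain ⟨j, -, rfl⟩ := hζ.eq_pow_of_pow_eq_one hxm
  rw [map_pow, hg, ← pow_mul, ← pow_mul, mul_comm]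

/-- A field of small degree with a root of unity of order `q ^ N - 1` has a uniformiser `π` with
`‖q‖ = ‖π‖ ^ e` for an exponent `e` at most the degree divided by `N`. -/
theorem exists_small_ramification (E : IntermediateField ℚ_[q] (PadicAlgCl q))
    [FiniteDimensional ℚ_[q] E] {N : ℕ} (hN : 0 < N) {ζ : PadicAlgCl q}
    (hζ : IsPrimitiveRoot ζ (q ^ N - 1)) (hζE : ζ ∈ E) :
    ∃ (π : PadicAlgCl q) (e : ℕ), π ∈ E ∧ 0 < ‖π‖ ∧ ‖π‖ < 1 ∧
      (∀ x ∈ E, x ≠ 0 → ∃ n : ℤ, ‖x‖ = ‖π‖ ^ n) ∧ 0 < e ∧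
      ‖(q : PadicAlgCl q)‖ = ‖π‖ ^ e ∧ e * N ≤ Module.finrank ℚ_[q] E := by
  classical
  obtain ⟨π, hπ, h0, h1, hall⟩ := exists_uniformizer E
  have hπ0 : π ≠ 0 := norm_pos_iff.1 h0
  obtain ⟨n, hn⟩ := hall q (natCast_mem E q) q_ne_zero
  have hnpos : 0 < n := by
    by_contra! hle
    exact absurd (one_le_zpow_of_nonpos₀ h0 h1.le hle) (not_le.2 (hn ▸ norm_q_lt_one))
  obtain ⟨e, rfl⟩ := Int.eq_ofNat_of_zero_le hnpos.le
  rw [zpow_natCast] at hn
  refine ⟨π, e, hπ, h0, h1, hall, by exact_mod_cast hnpos, hn, ?_⟩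
  set O := (ringLat E).carrier
  let mulπ : PadicAlgCl q →+ PadicAlgCl q := AddMonoidHom.mulLeft π
  -- the filtration by powers of the uniformiser
  have hfil : ∀ k : ℕ, (O.map (AddMonoidHom.mulLeft (π ^ k))).relIndex O
      = (O.map mulπ).relIndex O ^ k := by
    intro k
    induction k with
    | zero =>
      have : AddMonoidHom.mulLeft ((π : PadicAlgCl q) ^ 0) = AddMonoidHom.id _ := by ext x; simp
      rw [this, AddSubgroup.map_id, AddSubgroup.relIndex_self, pow_zero]
    | succ k ih =>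
      have hcomp : O.map (AddMonoidHom.mulLeft (π ^ (k + 1)))
          = (O.map (AddMonoidHom.mulLeft (π ^ k))).map mulπ := by
        rw [AddSubgroup.map_map]
        congr 1
        ext x
        simp [mulπ, pow_succ']
        ring
      have hle : ∀ j : ℕ, O.map (AddMonoidHom.mulLeft (π ^ j)) ≤ O := by
        rintro j _ ⟨x, hx, rfl⟩
        refine ⟨mul_mem (pow_mem hπ j) hx.1, ?_⟩
        show ‖π ^ j * x‖ ≤ 1
        rw [norm_mul, norm_pow]
        exact mul_le_one₀ (pow_le_one₀ (norm_nonneg _) h1.le) (norm_nonneg _) hx.2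
      have hle1 : O.map mulπ ≤ O := by
        have := hle 1
        rwa [pow_one] at this
      rw [hcomp, ← AddSubgroup.relIndex_mul_relIndex _ _ _ (AddSubgroup.map_mono (hle k)) hle1,
        AddSubgroup.relIndex_map_map_of_injective _ _ (mul_right_injective₀ hπ0), ih, pow_succ]
  have hqe : O.map (AddMonoidHom.mulLeft (π ^ e)) = (ringLat E).lvl 1 := by
    ext x
    rw [mem_ringLat_lvl, pow_one]
    constructor
    · rintro ⟨y, hy, rfl⟩
      refine ⟨mul_mem (pow_mem hπ e) hy.1, ?_⟩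
      show ‖π ^ e * y‖ ≤ _
      rw [norm_mul, norm_pow, hn]
      exact mul_le_of_le_one_right (pow_nonneg (norm_nonneg _) _) hy.2
    · intro hx
      refine ⟨x / π ^ e, ⟨div_mem hx.1 (pow_mem hπ e), ?_⟩, mul_div_cancel₀ _ (pow_ne_zero e hπ0)⟩
      rw [norm_div, norm_pow, div_le_one (pow_pos h0 e), ← hn]
      exact hx.2
  have hcard : (O.map mulπ).relIndex O ^ e = q ^ Module.finrank ℚ_[q] E := by
    rw [← hfil, hqe, ringLat_index]
  obtain ⟨f, -, hf⟩ := (Nat.dvd_prime_pow hq.out).1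
    (hcard ▸ dvd_pow_self _ (show e ≠ 0 by omega) :
      (O.map mulπ).relIndex O ∣ q ^ Module.finrank ℚ_[q] E)
  have hfe : f * e = Module.finrank ℚ_[q] E := by
    rw [hf, ← pow_mul] at hcard
    exact Nat.pow_right_injective hq.out.two_le hcard
  rw [← hfe, mul_comm f]
  refine Nat.mul_le_mul_left e ?_
  -- the residues of the roots of unity are distinct
  have hqN : 1 < q ^ N := Nat.one_lt_pow hN.ne' hq.out.one_lt
  have hm0 : 0 < q ^ N - 1 := by omega
  have hζn : ∀ i : ℕ, ‖ζ ^ i‖ = 1 := fun i => by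
    rw [norm_pow, norm_root_of_unity hm0 hζ.pow_eq_one, one_pow]
  have hnd : ¬ q ∣ q ^ N - 1 := fun h => by
    have h2 : q ∣ q ^ N := dvd_pow_self q hN.ne'
    have : q ∣ q ^ N - (q ^ N - 1) := Nat.dvd_sub h2 h
    rw [show q ^ N - (q ^ N - 1) = 1 by omega] at this
    exact hq.out.one_lt.ne' (Nat.dvd_one.1 this)
  let ψ : Option (Fin (q ^ N - 1)) → O := fun o => match o with
    | none => 0
    | some i => ⟨ζ ^ (i : ℕ), pow_mem hζE _, (hζn i).le⟩
  have hinj : Function.Injective fun o =>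
      ((ψ o : O) : O ⧸ (O.map mulπ).addSubgroupOf O) := by
    have hsmall : ∀ {a b : O}, (a : O ⧸ (O.map mulπ).addSubgroupOf O) = b →
        ‖(a : PadicAlgCl q) - b‖ < 1 := by
      intro a b h
      rw [QuotientAddGroup.eq] at h
      obtain ⟨y, hy, hyx⟩ := h
      have : (a : PadicAlgCl q) - b = -(π * y) := by
        rw [show (π * y : PadicAlgCl q) = mulπ y from rfl, hyx]
        simp
        ring
      rw [this, norm_neg, norm_mul]
      exact lt_of_le_of_lt (mul_le_of_le_one_right (norm_nonneg _) hy.2) h1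
    intro a b h
    have hd := hsmall h
    match a, b with
    | none, none => rfl
    | none, some i =>
      simp only [ψ, ZeroMemClass.coe_zero, zero_sub, norm_neg, hζn] at hd
      exact absurd hd (lt_irrefl 1)
    | some i, none =>
      simp only [ψ, ZeroMemClass.coe_zero, sub_zero, hζn] at hd
      exact absurd hd (lt_irrefl 1)
    | some i, some j =>
      simp only [ψ] at hd
      refine congrArg some (Fin.ext (hζ.pow_inj i.2 j.2 (root_eq_of_close hnd ?_ ?_ hd)))
      · rw [← pow_mul, mul_comm, pow_mul, hζ.pow_eq_one, one_pow]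
      · rw [← pow_mul, mul_comm, pow_mul, hζ.pow_eq_one, one_pow]
  have hfin : ((O.map mulπ).addSubgroupOf O).FiniteIndex := ⟨by
    show (O.map mulπ).relIndex O ≠ 0
    rw [hf]; exact pow_ne_zero _ hq.out.ne_zero⟩
  have hle := Nat.card_le_card_of_injective _ hinj
  rw [Nat.card_eq_fintype_card (α := Option (Fin (q ^ N - 1))), Fintype.card_option,
    Fintype.card_fin, show q ^ N - 1 + 1 = q ^ N by omega] at hle
  rw [show Nat.card (O ⧸ (O.map mulπ).addSubgroupOf O) = q ^ f from hf] at hle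
  exact (Nat.pow_le_pow_iff_right hq.out.one_lt).1 hle

variable {p : ℕ} [hp : Fact p.Prime]

variable (q p) in
/-- The order of the roots of unity defining the unramified character. -/
abbrev unrOrder : ℕ := q ^ p - 1

theorem orderOf_q : orderOf (q : ZMod (unrOrder q p)) = p := by
  have hqp : 1 < q ^ p := Nat.one_lt_pow hp.out.ne_zero hq.out.one_lt
  refine orderOf_eq_prime ?_ fun h1 => ?_
  · rw [← Nat.cast_pow, ← Nat.cast_one, ZMod.natCast_eq_natCast_iff]
    exact ((Nat.modEq_iff_dvd' hqp.le).2 dvd_rfl).symm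
  · rw [← Nat.cast_one, ZMod.natCast_eq_natCast_iff] at h1
    have hdvd := (Nat.modEq_iff_dvd' hq.out.one_lt.le).1 h1.symm
    have hle := Nat.le_of_dvd (by have := hq.out.one_lt; omega) hdvd
    have hlt : q < q ^ p := by
      calc q = q ^ 1 := (pow_one q).symm
        _ < q ^ p := Nat.pow_lt_pow_right hq.out.one_lt hp.out.one_lt
    unfold unrOrder at hle
    omega

theorem pow_q_eq_iff {ζ : PadicAlgCl q} (hζ : IsPrimitiveRoot ζ (unrOrder q p)) {i j : ℕ} :
    ζ ^ q ^ i = ζ ^ q ^ j ↔ (i : ZMod p) = j := by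
  have hm0 : 0 < unrOrder q p := by
    have hqp : 1 < q ^ p := Nat.one_lt_pow hp.out.ne_zero hq.out.one_lt
    unfold unrOrder
    omega
  have hfin : IsOfFinOrder (q : ZMod (unrOrder q p)) :=
    orderOf_pos_iff.1 (by rw [orderOf_q]; exact hp.out.pos)
  rw [(hζ.isOfFinOrder hm0.ne').pow_eq_pow_iff_modEq, ← hζ.eq_orderOf, ← ZMod.natCast_eq_natCast_iff,
    Nat.cast_pow, Nat.cast_pow, hfin.pow_eq_pow_iff_modEq, orderOf_q, ZMod.natCast_eq_natCast_iff]

variable (q p) in
/-- The root of unity defining the unramified character. -/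
def unrRoot : PadicAlgCl q :=
  have : NeZero (unrOrder q p : PadicAlgCl q) := ⟨Nat.cast_ne_zero.2 (by
    have := Nat.one_lt_pow hp.out.ne_zero hq.out.one_lt
    unfold unrOrder
    omega)⟩
  (HasEnoughRootsOfUnity.exists_primitiveRoot (PadicAlgCl q) (unrOrder q p)).choose

theorem unrRoot_spec : IsPrimitiveRoot (unrRoot q p) (unrOrder q p) :=
  have : NeZero (unrOrder q p : PadicAlgCl q) := ⟨Nat.cast_ne_zero.2 (by
    have := Nat.one_lt_pow hp.out.ne_zero hq.out.one_lt
    unfold unrOrder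
    omega)⟩
  (HasEnoughRootsOfUnity.exists_primitiveRoot (PadicAlgCl q) (unrOrder q p)).choose_spec

theorem exists_unr_exponent (g : LG q) :
    ∃ i : ℕ, g (unrRoot q p) = unrRoot q p ^ q ^ i := by
  obtain ⟨i, -, h⟩ := exists_frob_exponent g hp.out.pos (M := unrOrder q p) dvd_rfl
  exact ⟨i, h _ unrRoot_spec.pow_eq_one⟩

variable (p) in
/-- The unramified character of order `p`: the exponent of Frobenius. -/
def unrChar (g : LG q) : ZMod p := ((exists_unr_exponent (p := p) g).choose : ZMod p)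

theorem unrChar_eq {g : LG q} {i : ℕ} (h : g (unrRoot q p) = unrRoot q p ^ q ^ i) :
    unrChar p g = (i : ZMod p) :=
  (pow_q_eq_iff unrRoot_spec).1 ((exists_unr_exponent (p := p) g).choose_spec.symm.trans h)

theorem unrChar_mul (g h : LG q) : unrChar p (g * h) = unrChar p g + unrChar p h := by
  obtain ⟨i, hi⟩ := exists_unr_exponent (p := p) g
  obtain ⟨j, hj⟩ := exists_unr_exponent (p := p) h
  rw [unrChar_eq hi, unrChar_eq hj, ← Nat.cast_add]
  refine unrChar_eq ?_
  rw [AlgEquiv.mul_apply, hj, map_pow, hi, ← pow_mul, ← pow_add]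

theorem unrChar_eq_zero {g : LG q} (h : g (unrRoot q p) = unrRoot q p) : unrChar p g = 0 := by
  simpa using unrChar_eq (i := 0) (by simpa using h)

theorem smul_unrRoot_of_unrChar_eq_zero {g : LG q} (h : unrChar p g = 0) :
    g (unrRoot q p) = unrRoot q p := by
  obtain ⟨i, hi⟩ := exists_unr_exponent (p := p) g
  rw [unrChar_eq hi] at h
  rw [hi]
  conv_rhs => rw [← pow_one (unrRoot q p), ← pow_zero q]
  exact (pow_q_eq_iff unrRoot_spec).2 (by simpa using h)

theorem unrChar_lc : LC₁ (LL q) (unrChar (q := q) p) := by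
  obtain ⟨N, hN, h⟩ := galAct_fieldLevels.smooth (L := fieldLevels ℚ_[q] (PadicAlgCl q))
    (unrRoot q p)
  exact ⟨N, hN, fun g s hs => by rw [unrChar_mul, unrChar_eq_zero (h s hs), add_zero]⟩

end FA.GalCoh
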