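import Fermat.Agent.GalCoh.CorSurj
import Fermat.Agent.GalCoh.Unram

/-!
The local invariant map and local Tate duality for all finite modules over `ℚ_q`.
-/

set_option autoImplicit false
set_option linter.unusedSectionVars false

noncomputable section

namespace FA.GalCoh

section Generic

variable {G : Type} [Group G] {L : Levels G} {p : ℕ} [hp : Fact p.Prime]
variable {X X' : Type} [Fintype X] [MulAction G X] [Fintype X'] [MulAction G X']

theorem cor2_ne_zero_of_map (T : Trans L X) (T' : Trans L X') {π : X' → X}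
    (hπ : ∀ (g : G) y, π (g • y) = g • π y)
    {w : H2 (L.sub T'.H) (triv T'.H p)} (hw : T'.cor2 (triv G p) w ≠ 0) :
    ∃ v, T.cor2 (triv G p) v ≠ 0 := by
  classical
  obtain ⟨z, rfl⟩ := T'.sh2_surjective w
  refine ⟨T.sh2 (triv T.H p) (map2 Compat.id (equi_fibreSum (p := p) T T' hπ) z), fun h => hw ?_⟩
  rw [Trans.cor2_sh2_triv] at h
  rw [Trans.cor2_sh2_triv, ← h]
  obtain ⟨Z, rfl⟩ := mk2_surjective z
  refine congrArg (mk2 L (triv G p)) (Subtype.ext (funext fun x => ?_))
  show T'.aug (triv G p) (Z.1 x) = T.aug (triv G p) (fibreSum (p := p) π (Z.1 x))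
  simp only [Trans.aug_apply, MonoidHom.one_apply, Module.End.one_apply, fibreSum, LinearMap.coe_mk,
    AddHom.coe_mk]
  exact (Finset.sum_fiberwise Finset.univ π (Z.1 x)).symm

theorem surjective_of_line {U V : Type} [AddCommGroup U] [Module (ZMod p) U] [AddCommGroup V]
    [Module (ZMod p) V] (f : U →ₗ[ZMod p] V) {u : V} (hu : ∀ v, v ∈ Submodule.span (ZMod p) {u})
    {x : U} (hx : f x ≠ 0) : Function.Surjective f := fun v => by
  obtain ⟨c, hc⟩ := Submodule.mem_span_singleton.1 (hu (f x))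
  have hc0 : c ≠ 0 := fun h => hx (by rw [← hc, h, zero_smul])
  obtain ⟨d, hd⟩ := Submodule.mem_span_singleton.1 (hu v)
  exact ⟨(d * c⁻¹) • x, by rw [map_smul, ← hc, smul_smul, mul_assoc, inv_mul_cancel₀ hc0, mul_one, hd]⟩

theorem cup_eq_symb {τ : Representation (ZMod p) G (ZMod p)} (hτ : τ = triv G p)
    {β : ZMod p →ₗ[ZMod p] ZMod p →ₗ[ZMod p] ZMod p} (hβ : Bil (triv G p) (triv G p) τ β)
    (hs : Smooth L (triv G p)) (x y : H1 L (triv G p)) :
    hβ.cup hs x y = β 1 1 • (hτ ▸ symb x y : H2 L τ) := by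
  subst hτ
  obtain ⟨a, rfl⟩ := mk1_surjective x
  obtain ⟨b, rfl⟩ := mk1_surjective y
  rw [Bil.cup_mk1, symb, Bil.cup_mk1, ← map_smul]
  refine congrArg (mk2 L (triv G p)) (Subtype.ext (funext fun z => ?_))
  show β (a.1 z.1) (b.1 z.2) = β 1 1 * (a.1 z.1 * b.1 z.2)
  conv_lhs => rw [← mul_one (a.1 z.1), ← smul_eq_mul (a.1 z.1) 1, map_smul, LinearMap.smul_apply,
    ← mul_one (b.1 z.2), ← smul_eq_mul (b.1 z.2) 1, map_smul, smul_smul]
  ring

theorem surjective_cor2_fibre (T : Trans L X) (T' : Trans L X') {π : X' → X}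
    (hπ : ∀ (g : G) y, π (g • y) = g • π y) (hπ0 : π T'.x0 = T.x0) {χ'' : T.H → ZMod p}
    (C : CycData (L.sub T.H) χ'') (hfix : ∀ n : T.H, χ'' n = 0 → (n : G) • T'.x0 = T'.x0)
    {u : H2 (L.sub T.H) (triv T.H p)} (hu : ∀ v, v ∈ Submodule.span (ZMod p) {u})
    (h : letI := C.action; ∃ w, C.trans.cor2 (triv T.H p) w ≠ 0) :
    Function.Surjective ((fibreTrans hπ T T' hπ0).cor2 (triv T.H p)) := by
  let _ := C.action
  obtain ⟨w, hw⟩ := h
  set TY := fibreTrans hπ T T' hπ0
  have hfix' : ∀ n : T.H, χ'' n = 0 → n • TY.x0 = TY.x0 := fun n hn0 => Subtype.ext (hfix n hn0)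
  obtain ⟨v, hv⟩ := cor2_ne_zero_of_map TY C.trans
    (π := fun i : ZMod p => (C.σ ^ i.val) • TY.x0) (fun g i => by
      show (C.σ ^ (χ'' g + i).val) • TY.x0 = g • (C.σ ^ i.val) • TY.x0
      have hn : ((C.σ ^ (χ'' g + i).val)⁻¹ * (g * C.σ ^ i.val)) • TY.x0 = TY.x0 := hfix' _ (by
        rw [C.hom, C.map_inv, C.hom, C.map_pow_σ, C.map_pow_σ, ZMod.natCast_zmod_val,
          ZMod.natCast_zmod_val, neg_add_cancel])
      rw [mul_smul, inv_smul_eq_iff, mul_smul] at hn
      exact hn.symm) hw
  exact surjective_of_line _ hu hv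

variable (χ : G →* (ZMod p)ˣ)

theorem bil_chr : Bil (chr χ) (triv G p) (chr χ) (LinearMap.mul (ZMod p) (ZMod p)) :=
  fun g a b => by
  show (χ g : ZMod p) * a * b = (χ g : ZMod p) * (a * b)
  rw [mul_assoc]

theorem equi_chr_sub {H : Subgroup G} (h : ∀ s ∈ H, χ s = 1) :
    Equi (MonoidHom.id H) ((chr χ).comp H.subtype) (triv H p)
      (LinearMap.id : ZMod p →ₗ[ZMod p] ZMod p) := fun g v => by
  show (χ (g : G) : ZMod p) * v = v
  rw [h _ g.2, Units.val_one, one_mul]

theorem equi_sub_chr {H : Subgroup G} (h : ∀ s ∈ H, χ s = 1) :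
    Equi (MonoidHom.id H) (triv H p) ((chr χ).comp H.subtype)
      (LinearMap.id : ZMod p →ₗ[ZMod p] ZMod p) := fun g v => by
  show v = (χ (g : G) : ZMod p) * v
  rw [h _ g.2, Units.val_one, one_mul]

/-- Restriction to a subgroup killing the character. -/
abbrev resTriv {H : Subgroup G} (h : ∀ s ∈ H, χ s = 1) :
    H2 L (chr χ) →ₗ[ZMod p] H2 (L.sub H) (triv H p) :=
  map2 (L.sub_compat H) (equi_chr_triv χ H.subtype fun s => h s.1 s.2)

theorem resTriv_injective (T : Trans L X) (h : ∀ s ∈ T.H, χ s = 1)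
    (hcard : (Fintype.card X : ZMod p) ≠ 0) : Function.Injective (resTriv (L := L) χ h) := by
  refine (injective_iff_map_eq_zero _).2 fun w hw => ?_
  have h0 : map2 (L.sub_compat T.H) (Equi.res T.H.subtype (chr χ)) w = 0 := by
    have := congrArg (map2 (Compat.id (L := L.sub T.H)) (equi_sub_chr χ h)) hw
    rw [map_zero] at this
    rw [← this]
    obtain ⟨W, rfl⟩ := mk2_surjective w
    rfl
  have := T.cor2_res (chr χ) w
  rw [h0, map_zero, ← Nat.cast_smul_eq_nsmul (ZMod p)] at this
  exact (smul_eq_zero.1 this.symm).resolve_left hcard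

theorem Trans.mem_H_of_cosetTrans {S : Subgroup G} [Fintype (G ⧸ S)] {N : Subgroup G}
    (hN : N ∈ L.carrier) (hn : N.Normal) (hle : N ≤ S) :
    (cosetTrans L S hN hn hle).H = S := by
  ext g
  exact mem_cosetTrans_H hN hn hle

end Generic

variable {q : ℕ} [hq : Fact q.Prime] {p : ℕ} [hp : Fact p.Prime]

theorem level_of_le {N S : Subgroup (LG q)} (hN : N ∈ (LL q).carrier) (h : N ≤ S) :
    S ∈ (LL q).carrier := by
  obtain ⟨E, hE, hle⟩ := hN
  exact ⟨E, hE, hle.trans h⟩

theorem finrank_fixedField_le {H : Subgroup (LG q)} (hH : H ∈ (LL q).carrier) :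
    Module.finrank ℚ_[q] (IntermediateField.fixedField H) ≤ H.index := by
  have := finiteDimensional_fixedField hH
  have := (LL q).finiteIndex hH
  set E := IntermediateField.fixedField H
  let f : LG q ⧸ H → (E →ₐ[ℚ_[q]] PadicAlgCl q) := fun c =>
    Quotient.liftOn' c (fun g => (g : PadicAlgCl q →ₐ[ℚ_[q]] PadicAlgCl q).comp E.val) fun g g' h => by
      refine AlgHom.ext fun x => ?_
      show g x.1 = g' x.1
      rw [QuotientGroup.leftRel_apply] at h
      have := (IntermediateField.mem_fixedField_iff _ _).1 x.2 _ h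
      rw [AlgEquiv.mul_apply, AlgEquiv.aut_inv, AlgEquiv.symm_apply_eq] at this
      exact this.symm
  have hf : Function.Surjective f := fun φ => by
    let g : PadicAlgCl q →ₐ[ℚ_[q]] PadicAlgCl q := φ.liftNormal (PadicAlgCl q)
    have hg : ∀ x : E, g x = φ x := AlgHom.liftNormal_commutes φ (PadicAlgCl q)
    refine ⟨QuotientGroup.mk (AlgEquiv.ofBijective g (Algebra.IsAlgebraic.algHom_bijective g)), ?_⟩
    exact AlgHom.ext hg
  rw [← AlgHom.card ℚ_[q] E (PadicAlgCl q), ← Nat.card_eq_fintype_card]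
  exact Nat.card_le_card_of_surjective f hf

variable (D : CycloData (LL q) (PadicAlgCl q) p)

theorem exists_kerChar_level : ∃ N ∈ (LL q).carrier, N.Normal ∧ ∀ s ∈ N, D.χ s = 1 := by
  obtain ⟨N, hN, h⟩ := (smooth_chr_iff D.χ).1 D.smooth_chr
  obtain ⟨N', hN', hle, hn⟩ := (LL q).exists_normal hN
  exact ⟨N', hN', hn, fun s hs => h s (hle hs)⟩

set_option maxHeartbeats 1000000 in
-- nested subgroups of the Galois group are slow to unify
/-- One step of the descent. -/
theorem good_step {N S : Subgroup (LG q)} (hN : N ∈ (LL q).carrier) (hn : N.Normal) (hNS : N ≤ S)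
    (hS1 : ∀ s ∈ S, D.χ s = 1) [Fintype (LG q ⧸ S)] {m : ℕ}
    (hindex : N.relIndex S = p ^ (m + 1)) (hgood : (cosetTrans (LL q) S hN hn hNS).Good D.χ) :
    ∃ S' : Subgroup (LG q), ∃ hNS' : N ≤ S', S' ≤ S ∧ N.relIndex S' = p ^ m ∧
      ∀ [Fintype (LG q ⧸ S')], (cosetTrans (LL q) S' hN hn hNS').Good D.χ := by
  classical
  have hS : S ∈ (LL q).carrier := level_of_le hN hNS
  have hNs : N.subgroupOf S ∈ ((LL q).sub S).carrier := ⟨N, hN, rfl⟩
  have : (N.subgroupOf S).Normal := hn.comap _
  have : (N.subgroupOf S).FiniteIndex := ((LL q).sub S).finiteIndex hNs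
  obtain ⟨χ', C, hχN⟩ := exists_cycData_of_pGroup (L := (LL q).sub S) (N.subgroupOf S) hNs hindex
  set S' := kerSub C with hS'def
  have hle : S' ≤ S := Subgroup.map_subtype_le _
  have hNS' : N ≤ S' := fun s hs => ⟨⟨s, hNS hs⟩, hχN _ (Subgroup.mem_subgroupOf.2 hs), rfl⟩
  have hker : C.ker.index = p := by
    let π : S →* Multiplicative (ZMod p) :=
      MonoidHom.mk' (fun g => Multiplicative.ofAdd (χ' g)) fun g h => by rw [C.hom, ofAdd_add]
    have hπ : π.ker = C.ker := by
      ext g
      exact Iff.rfl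
    rw [← hπ, Subgroup.index_ker, MonoidHom.range_eq_top.2, Subgroup.card_top]
    · simp
    · intro z
      refine ⟨C.σ ^ (Multiplicative.toAdd z).val, ?_⟩
      show Multiplicative.ofAdd (χ' _) = z
      rw [C.map_pow_σ, ZMod.natCast_zmod_val]; rfl
  refine ⟨S', hNS', hle, ?_, ?_⟩
  · have h1 := Subgroup.relIndex_mul_relIndex _ _ _ hNS' hle
    have h2 : S'.relIndex S = p := by
      rw [Subgroup.relIndex, hS'def, kerSub, show (C.ker.map S.subtype).subgroupOf S = C.ker from
        Subgroup.comap_map_eq_self_of_injective S.subtype_injective _, hker]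
    rw [hindex, h2, pow_succ] at h1
    exact Nat.eq_of_mul_eq_mul_right hp.out.pos h1
  intro _
  set T := cosetTrans (LL q) S hN hn hNS with hT
  set T' := cosetTrans (LL q) S' hN hn hNS' with hT'
  let π : LG q ⧸ S' → LG q ⧸ S := Quotient.map' id fun a b h => by
    rw [QuotientGroup.leftRel_apply] at h ⊢
    exact hle h
  have hπ : ∀ (g : LG q) y, π (g • y) = g • π y := fun g y => by
    induction y using QuotientGroup.induction_on with | H z => rfl
  have hTH : ∀ s ∈ T.H, D.χ s = 1 := fun s hs => hS1 s ((mem_cosetTrans_H hN hn hNS).1 hs)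
  refine hgood.comp D.χ hπ T' rfl hTH ?_
  -- the group `T.H` is `S`
  have hHS : T.H = S := Trans.mem_H_of_cosetTrans hN hn hNS
  have hH : T.H ∈ (LL q).carrier := by rw [hHS]; exact hS
  have hH1 : ∀ s ∈ T.H, D.χ s = 1 := hTH
  let e : T.H →* S := Subgroup.inclusion hHS.le
  let χ'' : T.H → ZMod p := fun s => χ' (e s)
  let C' : CycData ((LL q).sub T.H) χ'' :=
    { hom := fun g h => by simp only [χ'', map_mul, C.hom]
      lc := C.lc.precomp (compat_inclusion hHS.le)
      σ := ⟨C.σ.1, hHS.ge C.σ.2⟩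
      map_σ := C.map_σ }
  set K := D.kumData T.H hH1
  obtain ⟨u, -, hu, hnd⟩ := exists_generator_H2 hH K
  have hidx := norms_index hH K C'
  have hlt : (K.norms C').index < Nat.card (H1 ((LL q).sub T.H) (triv T.H p)) := by
    rw [hidx, natCard_H1 hH K]
    calc p = p ^ 1 := (pow_one p).symm
      _ < _ := Nat.pow_lt_pow_right hp.out.one_lt (by omega)
  refine surjective_cor2_fibre T T' hπ rfl C' (fun n hn0 => ?_) hu ?_
  · exact MulAction.mem_stabilizer_iff.1 ((mem_cosetTrans_H hN hn hNS').2 ⟨e n, hn0, rfl⟩)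
  · obtain ⟨x, y, hxy⟩ := exists_cor_ne_zero K C' hlt (by rw [hidx]; exact hp.out.ne_zero) hnd
    exact ⟨_, hxy⟩

/-- Corestriction to the twisted coefficients is onto from every level. -/
theorem good_all {X : Type} [Fintype X] [MulAction (LG q) X] (T : Trans (LL q) X) :
    T.Good D.χ := by
  classical
  obtain ⟨N₀, hN₀, -, h₀⟩ := exists_kerChar_level D
  obtain ⟨M, hM, hMX⟩ := T.trivial
  obtain ⟨N, hN, hle, hn⟩ := (LL q).exists_normal ((LL q).inf_mem hN₀ hM)
  have := (LL q).finiteIndex hN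
  obtain ⟨P⟩ : Nonempty (Sylow p (LG q ⧸ N)) := Sylow.nonempty
  let S := (P : Subgroup (LG q ⧸ N)).comap (QuotientGroup.mk' N)
  have hNS : N ≤ S := fun s hs => by
    show QuotientGroup.mk' N s ∈ (P : Subgroup (LG q ⧸ N))
    rw [QuotientGroup.mk'_apply, (QuotientGroup.eq_one_iff s).2 hs]
    exact one_mem _
  have : S.FiniteIndex := Subgroup.finiteIndex_of_le hNS
  have : Fintype (LG q ⧸ S) := Fintype.ofFinite _
  have hS1 : ∀ s ∈ S, D.χ s = 1 := fun s hs => by
    obtain ⟨n, hn'⟩ := P.isPGroup' ⟨QuotientGroup.mk' N s, hs⟩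
    have hsN : s ^ p ^ n ∈ N := (QuotientGroup.eq_one_iff _).1 (congrArg Subtype.val hn')
    have h := h₀ _ (hle hsN).1
    rw [map_pow] at h
    refine Units.ext ?_
    have := congrArg Units.val h
    rwa [Units.val_pow_eq_pow_val, ZMod.pow_card_pow] at this
  have hgoodS : (cosetTrans (LL q) S hN hn hNS).Good D.χ := by
    refine Trans.good_of_card D.χ _ fun h => ?_
    rw [ZMod.natCast_eq_zero_iff, Fintype.card_eq_nat_card, ← Subgroup.index_eq_card,
      Subgroup.index_comap_of_surjective _ (QuotientGroup.mk'_surjective _)] at h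
    exact P.not_dvd_index h
  obtain ⟨n, hnP⟩ : ∃ n, Nat.card (P : Subgroup (LG q ⧸ N)) = p ^ n :=
    IsPGroup.iff_card.1 P.isPGroup'
  have hindex : N.relIndex S = p ^ n := by
    have hb : N = (⊥ : Subgroup (LG q ⧸ N)).comap (QuotientGroup.mk' N) := by
      rw [MonoidHom.comap_bot, QuotientGroup.ker_mk']
    conv_lhs => rw [hb]
    rw [Subgroup.relIndex_comap, Subgroup.map_comap_eq_self_of_surjective
      (QuotientGroup.mk'_surjective _), Subgroup.relIndex_bot_left, hnP]
  have : Fintype (LG q ⧸ N) := Fintype.ofFinite _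
  have key : ∀ m : ℕ, ∀ (S : Subgroup (LG q)) (hNS : N ≤ S) (_ : Fintype (LG q ⧸ S)),
      (∀ s ∈ S, D.χ s = 1) → N.relIndex S = p ^ m → (cosetTrans (LL q) S hN hn hNS).Good D.χ →
      (cosetTrans (LL q) N hN hn le_rfl).Good D.χ := by
    intro m
    induction m with
    | zero =>
      intro S hNS _ _ hi hg
      have hSN : S ≤ N := Subgroup.relIndex_eq_one.1 (by rwa [pow_zero] at hi)
      refine hg.mono D.χ (π := Quotient.map' id fun a b h => by
        rw [QuotientGroup.leftRel_apply] at h ⊢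
        exact hSN h) (fun g y => ?_) rfl
      induction y using QuotientGroup.induction_on with | H z => rfl
    | succ m ih =>
      intro S hNS _ h1 hi hg
      obtain ⟨S', hNS', hle', hi', hg'⟩ := good_step D hN hn hNS h1 hi hg
      have : S'.FiniteIndex := Subgroup.finiteIndex_of_le hNS'
      exact ih S' hNS' (Fintype.ofFinite _) (fun s hs => h1 s (hle' hs)) hi'
        (@hg' (Fintype.ofFinite _))
  have hgoodN := key n S hNS inferInstance hS1 hindex hgoodS
  refine hgoodN.mono D.χ (π := Quotient.lift (fun g : LG q => g • T.x0) fun a b h => ?_)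
    (fun g y => ?_) (one_smul _ _)
  · have h' : a⁻¹ * b ∈ N := QuotientGroup.leftRel_apply.1 h
    show a • T.x0 = b • T.x0
    conv_rhs => rw [← mul_inv_cancel_left a b, mul_smul, hMX _ (hle h').2]
  · induction y using QuotientGroup.induction_on with | H z => exact mul_smul g z T.x0

/-! ### The invariant map -/

/-- The class of the unramified character. -/
def unrClass : H1 (LL q) (triv (LG q) p) :=
  mk1 (LL q) (triv (LG q) p) ⟨unrChar p, unrChar_lc, fun g h => by
    rw [unrChar_mul, add_comm]; rfl⟩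

/-- The element `q`. -/
def qUnit : fixUM (LG q) (PadicAlgCl q) :=
  ⟨UM.mk (q : PadicAlgCl q) q_ne_zero, fun g => UM.ext (by simp)⟩

/-- The product of a Kummer class with the unramified class. -/
def unrCup (a : fixUM (LG q) (PadicAlgCl q)) : H2 (LL q) (chr D.χ) :=
  (bil_chr D.χ).cup smooth_triv (D.kum a) (unrClass (p := p))

set_option maxHeartbeats 1000000 in
-- nested subgroups of the Galois group are slow to unify
/-- The cohomology of the twisted coefficients is a line generated by the class of `q`, and the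
classes of units pair trivially with the unramified character. -/
theorem unrCup_spec :
    unrCup D qUnit ≠ 0 ∧ (∀ z, z ∈ Submodule.span (ZMod p) {unrCup D qUnit}) ∧
      ∀ a : fixUM (LG q) (PadicAlgCl q), ‖a.1.val‖ = 1 → unrCup D a = 0 := by
  classical
  obtain ⟨N, hN, hn, hN1⟩ := exists_kerChar_level D
  have hker : D.χ.ker ∈ (LL q).carrier := level_of_le hN fun s hs => hN1 s hs
  have := (LL q).finiteIndex hker
  have : Fintype (LG q ⧸ D.χ.ker) := Fintype.ofFinite _
  let T := cosetTrans (LL q) D.χ.ker hN hn fun s hs => hN1 s hs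
  have hTker : T.H = D.χ.ker := Trans.mem_H_of_cosetTrans hN hn _
  have hH : T.H ∈ (LL q).carrier := by rw [hTker]; exact hker
  have h1 : ∀ s ∈ T.H, D.χ s = 1 := fun s hs => (hTker ▸ hs : s ∈ D.χ.ker)
  have hidxle : T.H.index ≤ p - 1 ∧ ¬ p ∣ Fintype.card (LG q ⧸ D.χ.ker) := by
    have h := Subgroup.index_ker D.χ
    have hd : Nat.card D.χ.range ∣ p - 1 := by
      have := Subgroup.card_subgroup_dvd_card D.χ.range
      rwa [Nat.card_eq_fintype_card (α := (ZMod p)ˣ), ZMod.card_units] at this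
    have hp1 : 0 < p - 1 := by have := hp.out.one_lt; omega
    rw [hTker, h, Fintype.card_eq_nat_card, ← Subgroup.index_eq_card, h]
    refine ⟨Nat.le_of_dvd hp1 hd, fun hpd => ?_⟩
    have := Nat.le_of_dvd hp1 (hpd.trans hd)
    omega
  have hcard : (Fintype.card (LG q ⧸ D.χ.ker) : ZMod p) ≠ 0 := fun h =>
    hidxle.2 ((ZMod.natCast_eq_zero_iff _ p).1 h)
  set K := D.kumData T.H h1
  have := finiteDimensional_fixedField hH
  -- the character is nontrivial on the kernel
  have hζE : ∀ {S : Subgroup (LG q)}, (∀ s ∈ S, unrChar p s = 0) →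
      unrRoot q p ∈ IntermediateField.fixedField S := fun h =>
    (IntermediateField.mem_fixedField_iff _ _).2 fun g hg =>
      smul_unrRoot_of_unrChar_eq_zero (h g hg)
  obtain ⟨s, hs⟩ : ∃ s : T.H, unrChar p (s : LG q) ≠ 0 := by
    by_contra! hall
    obtain ⟨π, e, -, -, -, -, he, -, hep⟩ := exists_small_ramification _ hp.out.pos
      unrRoot_spec (hζE fun g hg => hall ⟨g, hg⟩)
    have h2 := le_trans hep ((finrank_fixedField_le hH).trans hidxle.1)
    have := Nat.le_mul_of_pos_left p he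
    have := hp.out.one_lt
    omega
  let χu : T.H → ZMod p := fun g => unrChar p (g : LG q)
  have hpow : ∀ n : ℕ, unrChar p ((s : LG q) ^ n) = n * unrChar p (s : LG q) := fun n => by
    induction n with
    | zero => rw [pow_zero, Nat.cast_zero, zero_mul, unrChar_eq_zero rfl]
    | succ n ih => rw [pow_succ, unrChar_mul, ih, Nat.cast_succ]; ring
  let C : CycData ((LL q).sub T.H) χu :=
    { hom := fun g h => unrChar_mul _ _
      lc := unrChar_lc.precomp ((LL q).sub_compat T.H)
      σ := s ^ ((unrChar p (s : LG q))⁻¹).val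
      map_σ := by
        show unrChar p ((s : LG q) ^ _) = 1
        rw [hpow, ZMod.natCast_zmod_val, inv_mul_cancel₀ hs] }
  have hres : ∀ a : fixUM (LG q) (PadicAlgCl q), resTriv D.χ h1 (unrCup D a)
      = symb (K.kum ⟨a.1, fun g => a.2 g.1⟩) C.cls := fun a => by
    rw [← D.res_kum T.H h1 a]
    exact Bil.map2_cup (bil_chr D.χ) smooth_triv bil_triv smooth_triv ((LL q).sub_compat T.H)
      (equi_chr_triv D.χ T.H.subtype fun g => h1 g.1 g.2) (equi_triv T.H.subtype)
      (equi_chr_triv D.χ T.H.subtype fun g => h1 g.1 g.2) (fun _ _ => rfl) (D.kum a) unrClass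
  -- ramification of the cyclic extension
  have hS : kerSub C ∈ (LL q).carrier := kerSub_mem hH C
  have := finiteDimensional_fixedField hS
  obtain ⟨π, e, hπE, hπ0, hπ1, hall, he, hqe, hep⟩ := exists_small_ramification _ hp.out.pos
    unrRoot_spec (hζE (S := kerSub C) (by rintro _ ⟨n, hn', rfl⟩; exact hn'))
  have helt : e < p := by
    have hi : (kerSub C).index = p * T.H.index := by
      have hle : kerSub C ≤ T.H := Subgroup.map_subtype_le _
      rw [← Subgroup.relIndex_mul_index hle, Subgroup.relIndex, kerSub,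
        show (C.ker.map T.H.subtype).subgroupOf T.H = C.ker from
          Subgroup.comap_map_eq_self_of_injective T.H.subtype_injective _]
      congr 1
      let φ : T.H →* Multiplicative (ZMod p) :=
        MonoidHom.mk' (fun g => Multiplicative.ofAdd (χu g)) fun g h => by rw [C.hom, ofAdd_add]
      have hφ : φ.ker = C.ker := by
        ext g
        exact Iff.rfl
      rw [← hφ, Subgroup.index_ker, MonoidHom.range_eq_top.2, Subgroup.card_top]
      · simp
      · intro z
        refine ⟨C.σ ^ (Multiplicative.toAdd z).val, ?_⟩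
        show Multiplicative.ofAdd (χu _) = z
        rw [C.map_pow_σ, ZMod.natCast_zmod_val]; rfl
    have h2 := le_trans hep ((finrank_fixedField_le hS).trans (hi.le.trans
      (Nat.mul_le_mul_left p hidxle.1)))
    rw [mul_comm e p] at h2
    have := Nat.le_of_mul_le_mul_left h2 hp.out.pos
    have := hp.out.one_lt
    omega
  -- norms of elements have norm a power of `‖π‖ ^ p`
  have hnorm : ∀ a : fixUM T.H (PadicAlgCl q), a ∈ K.norms C →
      ∃ k : ℤ, ‖a.1.val‖ = ‖π‖ ^ ((p : ℤ) * k) := fun a ha => by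
    obtain ⟨x, hx, hsum⟩ := (K.mem_norms C a).1 ha
    have hxE : x.val ∈ IntermediateField.fixedField (kerSub C) :=
      (mem_fixedField_kerSub C).2 fun n hn' => congrArg UM.val (hx n hn')
    obtain ⟨k, hk⟩ := hall _ hxE x.val_ne_zero
    refine ⟨k, ?_⟩
    rw [hsum, UM.val_sum, norm_prod]
    simp only [UM.val_smul, norm_smulH, Finset.prod_const, Finset.card_range, hk]
    rw [← zpow_natCast, ← zpow_mul, mul_comm]
  have hzinj : ∀ a b : ℤ, ‖π‖ ^ a = ‖π‖ ^ b → a = b := fun a b h =>
    zpow_right_injective₀ hπ0 hπ1.ne h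
  let qH : fixUM T.H (PadicAlgCl q) := ⟨qUnit.1, fun g => qUnit.2 g.1⟩
  have hqn : qH ∉ K.norms C := fun hmem => by
    obtain ⟨k, hk⟩ := hnorm qH hmem
    rw [show qH.1.val = (q : PadicAlgCl q) from rfl, hqe, ← zpow_natCast] at hk
    have hk' := hzinj _ _ hk
    rcases lt_trichotomy k 0 with hlt | heq | hgt
    · have : (p : ℤ) * k < 0 := mul_neg_of_pos_of_neg (Nat.cast_pos.2 hp.out.pos) hlt
      omega
    · subst heq; simp at hk'; omega
    · have : (p : ℤ) * 1 ≤ (p : ℤ) * k := Int.mul_le_mul_of_nonneg_left hgt (Nat.cast_nonneg p)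
      omega
  have hne : unrCup D qUnit ≠ 0 := fun h => hqn (by
    have := hres qUnit
    rw [h, map_zero] at this
    exact this.symm)
  have hinj := resTriv_injective D.χ T h1 hcard
  obtain ⟨u, hu0, hu, -⟩ := exists_generator_H2 hH K
  refine ⟨hne, fun z => ?_, fun a ha => hinj ?_⟩
  · obtain ⟨c, hc⟩ := Submodule.mem_span_singleton.1 (hu (resTriv D.χ h1 z))
    obtain ⟨d, hd⟩ := Submodule.mem_span_singleton.1 (hu (resTriv D.χ h1 (unrCup D qUnit)))
    have hd0 : d ≠ 0 := fun h => hne (hinj (by rw [← hd, h, zero_smul, map_zero]))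
    refine Submodule.mem_span_singleton.2 ⟨c * d⁻¹, hinj ?_⟩
    rw [map_smul, ← hd, smul_smul, mul_assoc, inv_mul_cancel₀ hd0, mul_one, hc]
  · rw [map_zero, hres a]
    let aH : fixUM T.H (PadicAlgCl q) := ⟨a.1, fun g => a.2 g.1⟩
    show aH ∈ K.norms C
    have hidx := norms_index hH K C
    have hcardQ : Nat.card (fixUM T.H (PadicAlgCl q) ⧸ K.norms C) = p := hidx
    obtain ⟨n, hn⟩ := AddSubgroup.mem_zmultiples_iff.1
      (mem_zmultiples_of_prime_card hcardQ
        (g := (qH : fixUM T.H (PadicAlgCl q) ⧸ K.norms C))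
        (fun h => hqn ((QuotientAddGroup.eq_zero_iff _).1 h))
        (g' := (aH : fixUM T.H (PadicAlgCl q) ⧸ K.norms C)))
    rw [← QuotientAddGroup.mk_zsmul, QuotientAddGroup.eq] at hn
    obtain ⟨k, hk⟩ := hnorm _ hn
    have hval : ‖(-(n • qH) + aH : fixUM T.H (PadicAlgCl q)).1.val‖ = ‖π‖ ^ (-(e * n) : ℤ) := by
      rw [AddSubgroup.coe_add, NegMemClass.coe_neg, AddSubgroupClass.coe_zsmul, UM.val_add,
        UM.val_neg, norm_mul, norm_inv, UM.norm_zsmul, show aH.1 = a.1 from rfl, ha, mul_one,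
        show qH.1.val = (q : PadicAlgCl q) from rfl, hqe, ← zpow_natCast, ← zpow_mul, zpow_neg]
    rw [hval] at hk
    have hk' := hzinj _ _ hk
    have hpn : (p : ℤ) ∣ n := by
      have hdvd : (p : ℤ) ∣ (e : ℤ) * n := ⟨-k, by rw [mul_neg, ← hk', neg_neg]⟩
      rcases Int.Prime.dvd_mul' hp.out hdvd with h | h
      · exact absurd (Nat.le_of_dvd he (Int.natCast_dvd_natCast.1 h)) (not_le.2 helt)
      · exact h
    obtain ⟨m, rfl⟩ := hpn
    have hmem : ((p : ℤ) * m) • qH ∈ K.norms C := by
      rw [mul_comm, mul_smul, natCast_zsmul]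
      have hq' := AddSubgroup.nsmul_index_mem (K.norms C) qH
      rw [hidx] at hq'
      exact zsmul_mem hq' m
    have := add_mem hmem hn
    rwa [add_neg_cancel_left] at this

/-- The local invariant map. -/
def localInv : H2 (LL q) (chr D.χ) →ₗ[ZMod p] ZMod p :=
  (LinearEquiv.ofTop _ (Submodule.eq_top_iff'.2 (unrCup_spec D).2.1)).symm.trans
    (LinearEquiv.toSpanNonzeroSingleton (ZMod p) _ (unrCup D qUnit) (unrCup_spec D).1).symm

theorem localInv_unrCup : localInv D (unrCup D qUnit) = 1 := by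
  rw [localInv, LinearEquiv.coe_coe, LinearEquiv.trans_apply, LinearEquiv.symm_apply_eq]
  refine Subtype.ext ?_
  simp

theorem localInv_injective : Function.Injective (localInv D) := LinearEquiv.injective _

theorem localInv_unit {a : fixUM (LG q) (PadicAlgCl q)} (ha : ‖a.1.val‖ = 1) :
    localInv D (unrCup D a) = 0 := by rw [(unrCup_spec D).2.2 a ha, map_zero]

set_option maxHeartbeats 1000000 in
-- nested subgroups of the Galois group are slow to unify
/-- Local duality for the trivial module over every level. -/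
theorem basePerfect {X : Type} [Fintype X] [MulAction (LG q) X] (T : Trans (LL q) X)
    (hT : ∀ s ∈ T.H, D.χ s = 1) : T.BasePerfect (localInv D) := by
  have hH : T.H ∈ (LL q).carrier := by
    obtain ⟨M, hM, h⟩ := T.trivial
    exact level_of_le hM fun s hs => h s hs T.x0
  set K := D.kumData T.H hT
  obtain ⟨u, hu0, hu, hnd⟩ := exists_generator_H2 hH K
  have hτ : chr (T.resχ D.χ) = triv T.H p := chr_eq_triv fun s => hT s.1 s.2
  -- the invariant map of the subgroup is injective
  have hinvH : Function.Injective (T.invH (localInv D)) := by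
    have hline : ∃ u' : H2 ((LL q).sub T.H) (chr (T.resχ D.χ)),
        ∀ z, z ∈ Submodule.span (ZMod p) {u'} := by rw [hτ]; exact ⟨u, hu⟩
    obtain ⟨u', hu'⟩ := hline
    obtain ⟨z, hz⟩ := good_all D T hT (unrCup D qUnit)
    have hid : Equi (MonoidHom.id (LG q)) (T.coind (triv T.H p))
        (T.coind ((chr D.χ).comp T.H.subtype))
        (LinearMap.id : (X → ZMod p) →ₗ[ZMod p] _) := fun g f => funext fun x => by
      show f (g⁻¹ • x) = (D.χ (T.h g x : LG q) : ZMod p) * f (g⁻¹ • x)
      rw [hT _ (T.h g x).2, Units.val_one, one_mul]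
    set w := T.sh2 ((chr D.χ).comp T.H.subtype) (map2 Compat.id hid z)
    have hw : T.invH (localInv D) w = 1 := by
      show localInv D (T.cor2 (chr D.χ) w) = 1
      rw [T.cor2_sh2, ← localInv_unrCup D, ← hz]
      obtain ⟨Z, rfl⟩ := mk2_surjective z
      rfl
    refine (injective_iff_map_eq_zero _).2 fun v hv => ?_
    obtain ⟨c, hc⟩ := Submodule.mem_span_singleton.1 (hu' v)
    obtain ⟨d, hd⟩ := Submodule.mem_span_singleton.1 (hu' w)
    have hu1 : T.invH (localInv D) u' ≠ 0 := fun h => by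
      rw [← hd, map_smul, h, smul_zero] at hw
      exact zero_ne_one hw
    rw [← hc, map_smul, smul_eq_zero] at hv
    rw [← hc, hv.resolve_right hu1, zero_smul]
  refine ⟨fun σ₁ σ₂ h₁ h₂ P => ?_⟩
  obtain rfl : σ₁ = triv T.H p := MonoidHom.ext h₁
  obtain rfl : σ₂ = triv T.H p := MonoidHom.ext h₂
  have hβ : P.β 1 1 ≠ 0 := fun h => one_ne_zero (α := ZMod p) (P.inj_left (by
    rw [map_zero]
    refine LinearMap.ext_ring ?_
    rw [h, LinearMap.zero_apply]))
  have hsymb : ∀ x y, symb x y = 0 ↔ (P.bil.cup P.smooth_right x y) = 0 := by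
    intro x y
    rw [cup_eq_symb hτ P.bil P.smooth_right x y, smul_eq_zero, or_iff_right hβ]
    generalize chr (T.resχ D.χ) = τ at hτ
    subst hτ
    rfl
  have hcard := natCard_H1 hH K
  have : Finite (H1 ((LL q).sub T.H) (triv T.H p)) := Nat.finite_of_card_ne_zero (by
    rw [hcard]; exact pow_ne_zero _ hp.out.ne_zero)
  have hfin : Module.Finite (ZMod p) (H1 ((LL q).sub T.H) (triv T.H p)) := Module.Finite.of_finite
  have hbij20 : ∀ (R : DPair ((LL q).sub T.H) (T.resχ D.χ) (triv T.H p) (triv T.H p)),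
      R.β 1 1 ≠ 0 → Function.Bijective (pair20 (T.invH (localInv D)) R) := by
    intro R hR
    have hone : (1 : ZMod p) ∈ (triv T.H p).invariants := fun g => rfl
    have key : ∀ z, pair20 (T.invH (localInv D)) R z ⟨1, hone⟩
        = R.β 1 1 * T.invH (localInv D) (map2 Compat.id
          (show Equi (MonoidHom.id T.H) (triv T.H p) (chr (T.resχ D.χ))
            (LinearMap.id : ZMod p →ₗ[ZMod p] ZMod p) from fun g v => by
              rw [hτ]; rfl) z) := by
      intro z
      rw [pair20_apply, ← smul_eq_mul, ← map_smul]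
      refine congrArg _ ?_
      obtain ⟨Z, rfl⟩ := mk2_surjective z
      rw [map2_mk2, map2_mk2, ← map_smul]
      refine congrArg (mk2 _ (chr (T.resχ D.χ))) (Subtype.ext (funext fun x => ?_))
      show R.β (Z.1 x) 1 = R.β 1 1 * Z.1 x
      conv_lhs => rw [← mul_one (Z.1 x), ← smul_eq_mul (Z.1 x) 1, map_smul, LinearMap.smul_apply]
      rw [smul_eq_mul, mul_comm]
    have hiso : Function.Bijective (map2 (Compat.id (L := (LL q).sub T.H))
        (show Equi (MonoidHom.id T.H) (triv T.H p) (chr (T.resχ D.χ))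
          (LinearMap.id : ZMod p →ₗ[ZMod p] ZMod p) from fun g v => by rw [hτ]; rfl)) := by
      refine Function.bijective_iff_has_inverse.2 ⟨map2 (Compat.id (L := (LL q).sub T.H))
        (show Equi (MonoidHom.id T.H) (chr (T.resχ D.χ)) (triv T.H p)
          (LinearMap.id : ZMod p →ₗ[ZMod p] ZMod p) from fun g v => by rw [hτ]; rfl), ?_, ?_⟩
      · intro z
        obtain ⟨Z, rfl⟩ := mk2_surjective z
        rfl
      · intro z
        obtain ⟨Z, rfl⟩ := mk2_surjective z
        rfl
    refine ⟨(injective_iff_map_eq_zero _).2 fun z hz => ?_, fun f => ?_⟩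
    · have := LinearMap.congr_fun hz ⟨1, hone⟩
      rw [key, LinearMap.zero_apply, mul_eq_zero, or_iff_right hR] at this
      exact hiso.1 ((hinvH (this.trans (map_zero _).symm)).trans (map_zero _).symm)
    · obtain ⟨c, hc⟩ : ∃ c, pair20 (T.invH (localInv D)) R c ⟨1, hone⟩ ≠ 0 := by
        refine ⟨u, fun h => hu0 ?_⟩
        rw [key, mul_eq_zero, or_iff_right hR] at h
        exact hiso.1 ((hinvH (h.trans (map_zero _).symm)).trans (map_zero _).symm)
      refine ⟨(f ⟨1, hone⟩ * (pair20 (T.invH (localInv D)) R c ⟨1, hone⟩)⁻¹) • c,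
        LinearMap.ext fun n => ?_⟩
      rw [show n = n.1 • (⟨1, hone⟩ : ↥(triv T.H p).invariants) from
        Subtype.ext (mul_one n.1).symm, map_smul, map_smul, map_smul, LinearMap.smul_apply]
      congr 1
      rw [smul_eq_mul, mul_assoc, inv_mul_cancel₀ hc, mul_one]
  have hinj : Function.Injective (pair11 (T.invH (localInv D)) P) :=
    (injective_iff_map_eq_zero _).2 fun x hx => by
      by_contra hx0
      obtain ⟨y, hy⟩ := hnd x hx0
      have h := LinearMap.congr_fun hx y
      rw [pair11_apply, LinearMap.zero_apply] at h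
      exact hy ((hsymb x y).2 (hinvH (h.trans (map_zero _).symm)))
  exact ⟨⟨hinj, (LinearMap.injective_iff_surjective_of_finrank_eq_finrank
      (Subspace.dual_finrank_eq).symm).1 hinj⟩, hbij20 P hβ,
    hbij20 P.flip (by exact hβ), hfin, hfin⟩

/-- Local Tate duality. -/
theorem local_perfect {V W : Type} [AddCommGroup V] [Module (ZMod p) V] [AddCommGroup W]
    [Module (ZMod p) W] {ρ : Representation (ZMod p) (LG q) V}
    {σ : Representation (ZMod p) (LG q) W} (P : DPair (LL q) D.χ ρ σ) :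
    Perfect (localInv D) P :=
  perfect_all (localInv D) D.smooth_chr (fun _ _ _ T hT => basePerfect D T hT) P

end FA.GalCoh
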