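import Fermat.Agent.GalCoh.GlobalDuality

/-!
The Euler characteristic formula summed over the local groups at a finite set of primes, and the
Greenberg-Wiles formula as an equality.
-/

set_option autoImplicit false
set_option linter.unusedSectionVars false

noncomputable section

namespace FA.GalCoh

open Representation

/-- The inequality of Euler characteristics from a long exact sequence. -/
theorem euler_le_of_ses {G : Type} [Group G] {L : Levels G} {k : Type} [Field k]
    {A B C : Type} [AddCommGroup A] [Module k A] [AddCommGroup B] [Module k B]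
    [AddCommGroup C] [Module k C] [FiniteDimensional k A] [FiniteDimensional k B]
    [FiniteDimensional k C] {ρA : Representation k G A} {ρB : Representation k G B}
    {ρC : Representation k G C} (E : SES ρA ρB ρC) (hB : Smooth L ρB)
    [FiniteDimensional k (H1 L ρA)] [FiniteDimensional k (H1 L ρB)] [FiniteDimensional k (H1 L ρC)]
    [FiniteDimensional k (H2 L ρA)] [FiniteDimensional k (H2 L ρB)]
    [FiniteDimensional k (H2 L ρC)] :
    Module.finrank k (H1 L ρA) + Module.finrank k (H1 L ρC) + Module.finrank k ↥ρB.invariants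
        + Module.finrank k (H2 L ρB)
      ≤ Module.finrank k (H1 L ρB) + Module.finrank k ↥ρA.invariants
        + Module.finrank k ↥ρC.invariants + Module.finrank k (H2 L ρA)
        + Module.finrank k (H2 L ρC) := by
  let f0 : ↥ρA.invariants →ₗ[k] ↥ρB.invariants :=
    (E.i.domRestrict ρA.invariants).codRestrict ρB.invariants fun a g => by
      show ρB g (E.i a.1) = E.i a.1
      rw [← E.i_equi, a.2 g]
  let g0 : ↥ρB.invariants →ₗ[k] ↥ρC.invariants :=
    (E.q.domRestrict ρB.invariants).codRestrict ρC.invariants fun a g => by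
      show ρC g (E.q a.1) = E.q a.1
      rw [← E.q_equi, a.2 g]
  have x0 : Function.Injective f0 := fun a b h => Subtype.ext (E.inj (congrArg Subtype.val h))
  have e0 : ∀ b, g0 b = 0 ↔ ∃ a, f0 a = b := fun b => by
    refine ⟨fun h => (E.exact_H0 (congrArg Subtype.val h)).imp fun a ha => Subtype.ext ha, ?_⟩
    rintro ⟨a, rfl⟩
    exact Subtype.ext (E.q_i a.1)
  have e0' : ∀ c, E.δ0 hB c = 0 ↔ ∃ b, g0 b = c := fun c => by
    refine ⟨fun h => (E.exists_of_δ0_eq_zero hB h).imp fun b hb => Subtype.ext hb, ?_⟩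
    rintro ⟨b, rfl⟩
    exact E.δ0_q hB b (g0 b).2
  have e1a : ∀ a, E.i1 a = 0 ↔ ∃ n, E.δ0 hB n = a := fun a =>
    ⟨fun h => E.exists_of_i1_eq_zero hB h, by rintro ⟨n, rfl⟩; exact E.i1_δ0 hB n⟩
  have e1b : ∀ b, E.q1 b = 0 ↔ ∃ a, E.i1 (L := L) a = b := fun b =>
    ⟨fun h => E.exists_of_q1_eq_zero hB h, by rintro ⟨a, rfl⟩; exact E.q1_i1 a⟩
  have e1c : ∀ c, E.δ1 hB c = 0 ↔ ∃ b, E.q1 b = c := fun c =>
    ⟨fun h => E.exists_of_δ1_eq_zero hB h, by rintro ⟨b, rfl⟩; exact E.δ1_q1 hB b⟩
  have e2a : ∀ a, E.i2 a = 0 ↔ ∃ c, E.δ1 hB c = a := fun a =>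
    ⟨fun h => E.exists_of_i2_eq_zero hB h, by rintro ⟨c, rfl⟩; exact E.i2_δ1 hB c⟩
  have e2b : ∀ b, E.q2 b = 0 ↔ ∃ a, E.i2 (L := L) a = b := fun b =>
    ⟨fun h => E.exists_of_q2_eq_zero hB h, by rintro ⟨a, rfl⟩; exact E.q2_i2 a⟩
  have h0 := finrank_of_exact f0 g0 e0
  have h1 := finrank_of_exact g0 (E.δ0 hB) e0'
  have h2 := finrank_of_exact (E.δ0 hB) (E.i1 (L := L)) e1a
  have h3 := finrank_of_exact (E.i1 (L := L)) (E.q1 (L := L)) e1b
  have h4 := finrank_of_exact (E.q1 (L := L)) (E.δ1 hB) e1c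
  have h5 := finrank_of_exact (E.δ1 hB) (E.i2 (L := L)) e2a
  have h6 := finrank_of_exact (E.i2 (L := L)) (E.q2 (L := L)) e2b
  have h7 := Submodule.finrank_le (LinearMap.range (E.q2 (L := L)))
  rw [LinearMap.finrank_range_of_inj x0] at h0
  omega

variable {p : ℕ} [hp : Fact p.Prime]

/-- The two eigenspaces of an involution. -/
theorem finrank_ker_sub_add_ker_add {V : Type} [AddCommGroup V] [Module (ZMod p) V]
    [FiniteDimensional (ZMod p) V] (hp2 : p ≠ 2) {f : Module.End (ZMod p) V} (hf : f * f = 1) :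
    Module.finrank (ZMod p) (LinearMap.ker (f - 1)) + Module.finrank (ZMod p) (LinearMap.ker (f + 1))
      = Module.finrank (ZMod p) V := by
  have h2 : (2 : ZMod p) ≠ 0 := Trans.two_ne_zero_zmod hp2
  have hff : ∀ v, f (f v) = v := fun v => LinearMap.congr_fun hf v
  refine Submodule.finrank_add_eq_of_isCompl ⟨?_, ?_⟩
  · rw [Submodule.disjoint_def]
    intro v hv hv'
    rw [LinearMap.mem_ker, LinearMap.sub_apply, Module.End.one_apply, sub_eq_zero] at hv
    rw [LinearMap.mem_ker, LinearMap.add_apply, Module.End.one_apply, hv, ← two_smul (ZMod p)] at hv'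
    exact (smul_eq_zero.1 hv').resolve_left h2
  · rw [codisjoint_iff, eq_top_iff]
    intro v _
    refine Submodule.mem_sup.2 ⟨(2 : ZMod p)⁻¹ • (v + f v), ?_, (2 : ZMod p)⁻¹ • (v - f v), ?_, ?_⟩
    · rw [LinearMap.mem_ker, LinearMap.sub_apply, Module.End.one_apply, map_smul, map_add, hff,
        add_comm, sub_self]
    · rw [LinearMap.mem_ker, LinearMap.add_apply, Module.End.one_apply, map_smul, map_sub, hff,
        ← smul_add, sub_add_sub_cancel, sub_self, smul_zero]
    · rw [← smul_add, add_add_sub_cancel, ← two_smul (ZMod p), smul_smul, inv_mul_cancel₀ h2,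
        one_smul]

variable {V : Type} [AddCommGroup V] [Module (ZMod p) V]
variable {W : Type} [AddCommGroup W] [Module (ZMod p) W]
variable {ρ : Representation (ZMod p) GQ V} {σ : Representation (ZMod p) GQ W}

theorem finrank_ker_cc_add (P : DPair LQ (cycQ p).χ ρ σ) (hp2 : p ≠ 2) :
    Module.finrank (ZMod p) (LinearMap.ker (ρ complexConjugation - 1))
        + Module.finrank (ZMod p) (LinearMap.ker (σ complexConjugation - 1))
      = Module.finrank (ZMod p) V := by
  have := P.fin_left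
  have := P.fin_right
  rw [← FixSwap.finrank_ker_add_one P.bil P.inj_right P.inj_left complexConjugation_mul_self
    cycloChar_complexConjugation]
  exact finrank_ker_sub_add_ker_add hp2 (by
    rw [← map_mul, complexConjugation_mul_self, map_one])

theorem finrank_H2Q (q : ℕ) [Fact q.Prime] (P : DPair LQ (cycQ p).χ ρ σ) :
    Module.Finite (ZMod p) (H2 (LL q) (ρ.comp (loc q))) ∧
      Module.finrank (ZMod p) (H2 (LL q) (ρ.comp (loc q)))
        = Module.finrank (ZMod p) ↥(Representation.invariants (σ.comp (loc q))) := by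
  have := P.fin_right
  let e := LinearEquiv.ofBijective (pair20Q q P) (perfectQ q P).bij20
  exact ⟨Module.Finite.equiv e.symm, e.finrank_eq.trans Subspace.dual_finrank_eq⟩

theorem finrank_H1Q_eq (q : ℕ) [Fact q.Prime] (P : DPair LQ (cycQ p).χ ρ σ) :
    Module.finrank (ZMod p) (H1 (LL q) (ρ.comp (loc q)))
      = Module.finrank (ZMod p) (H1 (LL q) (σ.comp (loc q))) :=
  (LinearEquiv.ofBijective (pair11Q q P) (perfectQ q P).bij11).finrank_eq.trans
    Subspace.dual_finrank_eq

theorem orthQ_bot (q : ℕ) [Fact q.Prime] (P : DPair LQ (cycQ p).χ ρ σ) : orthQ q P ⊥ = ⊤ :=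
  eq_top_iff.2 fun y _ => mem_orthQ.2 fun x hx => by
    rw [(Submodule.mem_bot _).1 hx, map_zero, LinearMap.zero_apply]

theorem finrank_orthQ (q : ℕ) [Fact q.Prime] (P : DPair LQ (cycQ p).χ ρ σ)
    (L : Submodule (ZMod p) (H1 (LL q) (ρ.comp (loc q)))) :
    Module.finrank (ZMod p) L + Module.finrank (ZMod p) (orthQ q P L)
      = Module.finrank (ZMod p) (H1 (LL q) (ρ.comp (loc q))) := by
  have := (perfectQ q P).fin1
  have := (perfectQ q P).fin1'
  rw [finrank_H1Q_eq q P, orthQ,
    ← Subspace.finrank_add_finrank_dualCoannihilator_eq (L.map (pair11Q q P)),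
    (Submodule.equivMapOfInjective _ (perfectQ q P).bij11.1 L).finrank_eq]

theorem orthQ_orthQ (q : ℕ) [Fact q.Prime] (P : DPair LQ (cycQ p).χ ρ σ)
    (L : Submodule (ZMod p) (H1 (LL q) (ρ.comp (loc q)))) :
    orthQ q P.flip (orthQ q P L) = L := by
  have := (perfectQ q P).fin1
  have hle : L ≤ orthQ q P.flip (orthQ q P L) := fun x hx => mem_orthQ.2 fun y hy => by
    show pair11 (localInv (cycL p q)) (locPair q P).flip y x = 0
    rw [pair11_flip]
    exact (congrArg Neg.neg (mem_orthQ.1 hy x hx)).trans neg_zero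
  refine (Submodule.eq_of_le_of_finrank_le hle ?_).symm
  have h1 := finrank_orthQ q P L
  have h2 := finrank_orthQ q P.flip (orthQ q P L)
  have h3 := finrank_H1Q_eq q P
  omega

/-- The lower bound for the local first cohomology groups. -/
theorem le_sum_finrank_H1 (P : DPair LQ (cycQ p).χ ρ σ) (hp2 : p ≠ 2) {S : Finset Nat.Primes}
    (hpS : (⟨p, hp.out⟩ : Nat.Primes) ∈ S)
    (hunr : ∀ q : Nat.Primes, q ∉ S → UnrRep (ρ.comp (loc (q : ℕ)))) :
    Module.finrank (ZMod p) V
        + ∑ q : {q // q ∈ S},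
            Module.finrank (ZMod p) ↥(Representation.invariants (ρ.comp (loc (q.1 : ℕ))))
        + ∑ q : {q // q ∈ S},
            Module.finrank (ZMod p) ↥(Representation.invariants (σ.comp (loc (q.1 : ℕ))))
      ≤ ∑ q : {q // q ∈ S}, Module.finrank (ZMod p) (H1 (LL (q.1 : ℕ)) (ρ.comp (loc (q.1 : ℕ)))) := by
  have hne : ∀ q : Nat.Primes, q ∉ S → (q : ℕ) ≠ p := fun q hq h =>
    hq ((show q = ⟨p, hp.out⟩ from Subtype.ext h) ▸ hpS)
  have h1 := finrank_selS_le P hp2 hpS hunr (fun _ => ⊤)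
  have h2 := finrank_selS_le P.flip hp2 hpS
    (fun q hq => unrRep_right P (hne q hq) (hunr q hq)) (fun _ => ⊥)
  rw [show (fun q : {q // q ∈ S} => orthQ (q.1 : ℕ) P ⊤) = fun q => ⊥ from
    funext fun q => orthQ_top (q.1 : ℕ) P] at h1
  rw [show (fun q : {q // q ∈ S} => orthQ (q.1 : ℕ) P.flip ⊥) = fun q => ⊤ from
    funext fun q => orthQ_bot (q.1 : ℕ) P.flip] at h2
  simp only [finrank_top, finrank_bot, Finset.sum_const_zero, add_zero] at h1 h2
  have h3 := finrank_ker_cc_add P hp2
  omega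

namespace Trans

variable {X : Type} [Fintype X] [MulAction GQ X] (T : Trans LQ X)

theorem index_eq_card : T.H.index = Fintype.card X := by
  rw [← Nat.card_eq_fintype_card, Subgroup.index]
  have : MulAction.IsPretransitive GQ X :=
    ⟨fun x y => ⟨T.t y * (T.t x)⁻¹, by rw [mul_smul, T.inv_t_smul, T.t_smul]⟩⟩
  exact Nat.card_congr (((MulAction.orbitEquivQuotientStabilizer GQ T.x0).symm.trans
    (Equiv.setCongr (MulAction.orbit_eq_univ GQ T.x0))).trans (Equiv.Set.univ X))

variable {U : Type} [AddCommGroup U] [Module (ZMod p) U] [FiniteDimensional (ZMod p) U]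
variable {τ : Representation (ZMod p) T.H U}

theorem sum_map1_coord_loc (hτ : ∀ s, τ s = 1)
    (b : Module.Basis (Fin (Module.finrank (ZMod p) U)) (ZMod p) U) (q : ℕ) [Fact q.Prime]
    (y : H1 (LL q) ((T.coind τ).comp (loc q))) :
    ∑ i, map1 Compat.id (equi_loc (T.equi_emb hτ (b i)) q)
      (map1 Compat.id (equi_loc (T.equi_coord hτ (b.coord i)) q) y) = y := by
  obtain ⟨f, rfl⟩ := mk1_surjective y
  simp only [map1_mk1]
  rw [← map_sum]
  refine congrArg (mk1 (LL q) ((T.coind τ).comp (loc q))) (Subtype.ext (funext fun g => ?_))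
  rw [AddSubmonoidClass.coe_finsetSum, Finset.sum_apply]
  exact sum_coord b (f.1 g)

theorem finrank_LocH1_coindV_le (hμ : ∀ s ∈ T.H, ExtCitation.cycloChar p s = 1)
    (hτ : ∀ s, τ s = 1) {S : Finset Nat.Primes} (hpS : (⟨p, hp.out⟩ : Nat.Primes) ∈ S) :
    Module.finrank (ZMod p) (LocH1 S (T.coind τ))
      ≤ Module.finrank (ZMod p) U * (2 * (placesOver T.mem_LQ S).card + T.H.index) := by
  obtain ⟨hfin, hle⟩ := T.finrank_LocH1_le (p := p) hμ hpS
  have : Module.Finite (ZMod p) (LocH1 S (T.perm p)) := Module.Finite.of_finite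
  let b := Module.finBasis (ZMod p) U
  let Φ : LocH1 S (T.coind τ) →ₗ[ZMod p] Fin (Module.finrank (ZMod p) U) → LocH1 S (T.perm p) :=
    LinearMap.pi fun i => LinearMap.pi fun q : {q // q ∈ S} =>
      map1 Compat.id (equi_loc (T.equi_coord hτ (b.coord i)) (q.1 : ℕ)) ∘ₗ LinearMap.proj q
  have hΦ : Function.Injective Φ := (injective_iff_map_eq_zero _).2 fun y hy => funext fun q => by
    rw [← T.sum_map1_coord_loc hτ b (q.1 : ℕ) (y q), Pi.zero_apply]
    refine Finset.sum_eq_zero fun i _ => ?_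
    rw [show map1 Compat.id (equi_loc (T.equi_coord hτ (b.coord i)) (q.1 : ℕ)) (y q) = 0 from
      congrFun (congrFun hy i) q, map_zero]
  refine (LinearMap.finrank_le_finrank_of_injective hΦ).trans ?_
  have : Module.Free (ZMod p) (LocH1 S (T.perm p)) :=
    @Module.Free.of_divisionRing (ZMod p) (LocH1 S (T.perm p)) _ Pi.addCommGroup (moduleLocH1 S (T.perm p))
  rw [Module.finrank_pi_fintype, Finset.sum_const, Finset.card_univ, Fintype.card_fin, smul_eq_mul]
  exact Nat.mul_le_mul_left _ hle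

theorem mul_le_finrank_invariants_coindV (hτ : ∀ s, τ s = 1) (q : ℕ) [Fact q.Prime] :
    Nat.card (PlaceOver T.H q) * Module.finrank (ZMod p) U
      ≤ Module.finrank (ZMod p) ↥(Representation.invariants ((T.coind τ).comp (loc q))) := by
  have := finite_placeOver T.mem_LQ q
  let _ : Fintype (PlaceOver T.H q) := Fintype.ofFinite _
  let Ψ : (PlaceOver T.H q → U) →ₗ[ZMod p]
      ↥(Representation.invariants ((T.coind τ).comp (loc q))) :=
    ((LinearMap.funLeft (ZMod p) U fun x => placeQ (H := T.H) (q := q) (T.t x))).codRestrict _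
      fun F t => funext fun x => by
        show τ (T.h (loc q t) x) (F (placeQ (T.t ((loc q t)⁻¹ • x)))) = F (placeQ (T.t x))
        rw [hτ, Module.End.one_apply]
        refine congrArg F (placeQ_eq_iff.2 ⟨t⁻¹, _, (T.h (loc q t) x).2, ?_⟩)
        rw [map_inv, mul_assoc, T.t_mul_h, inv_mul_cancel_left]
  have hΨ : Function.Injective Ψ := fun F F' h => funext fun c => by
    have he := congrFun (congrArg Subtype.val h) (repQ c • T.x0)
    have hc : placeQ (H := T.H) (q := q) (T.t (repQ c • T.x0)) = c := by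
      conv_rhs => rw [← placeQ_repQ c]
      refine placeQ_eq_iff.2 ⟨1, (repQ c)⁻¹ * T.t (repQ c • T.x0), ?_, by
        rw [map_one, one_mul, mul_inv_cancel_left]⟩
      rw [MulAction.mem_stabilizer_iff, mul_smul, T.t_smul, inv_smul_smul]
    have : F (placeQ (T.t (repQ c • T.x0))) = F' (placeQ (T.t (repQ c • T.x0))) := he
    rwa [hc] at this
  refine le_trans (le_of_eq ?_) (LinearMap.finrank_le_finrank_of_injective hΨ)
  rw [Module.finrank_pi_fintype, Finset.sum_const, Finset.card_univ, smul_eq_mul,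
    Nat.card_eq_fintype_card]

end Trans

set_option maxHeartbeats 1600000 in
-- the instances on local groups are slow to find
/-- The Euler characteristic formula summed over the local groups at `S`. -/
theorem sum_finrank_H1 (P : DPair LQ (cycQ p).χ ρ σ) (hp2 : p ≠ 2) {S : Finset Nat.Primes}
    (hpS : (⟨p, hp.out⟩ : Nat.Primes) ∈ S)
    (hunr : ∀ q : Nat.Primes, q ∉ S → UnrRep (ρ.comp (loc (q : ℕ)))) :
    ∑ q : {q // q ∈ S}, Module.finrank (ZMod p) (H1 (LL (q.1 : ℕ)) (ρ.comp (loc (q.1 : ℕ))))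
      = Module.finrank (ZMod p) V
        + ∑ q : {q // q ∈ S},
            Module.finrank (ZMod p) ↥(Representation.invariants (ρ.comp (loc (q.1 : ℕ))))
        + ∑ q : {q // q ∈ S},
            Module.finrank (ZMod p) ↥(Representation.invariants (σ.comp (loc (q.1 : ℕ)))) := by
  classical
  refine le_antisymm ?_ (le_sum_finrank_H1 P hp2 hpS hunr)
  have hN := kerLevel_mem P.smooth_left
  have hnorm : (kerLevel (p := p) ρ).Normal := by rw [kerLevel]; infer_instance
  have := LQ.finiteIndex hN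
  let _ : Fintype (GQ ⧸ kerLevel ρ) := Fintype.ofFinite _
  set T := cosetTrans LQ (kerLevel ρ) hN hnorm le_rfl
  have hH : ∀ s, s ∈ T.H ↔ s ∈ kerLevel (p := p) ρ := fun s => mem_cosetTrans_H hN hnorm le_rfl
  have hnT : T.H.Normal := by
    rw [show T.H = kerLevel (p := p) ρ from Subgroup.ext hH]; exact hnorm
  have hμ : ∀ s ∈ T.H, ExtCitation.cycloChar p s = 1 := fun s hs =>
    MonoidHom.mem_ker.1 ((hH s).1 hs).2
  have hρ : ∀ s ∈ T.H, ρ s = 1 := fun s hs => MonoidHom.mem_ker.1 ((hH s).1 hs).1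
  have hσ : ∀ s ∈ T.H, σ s = 1 := fun s hs => T.eq_one_right P hμ hρ hs
  have := P.fin_left
  have := P.fin_right
  set PB := T.covPair P
  set PK := T.kerPair P
  set E := T.augSES ρ
  have := PK.fin_right
  have hne : ∀ q : Nat.Primes, q ∉ S → (q : ℕ) ≠ p := fun q hq h =>
    hq ((show q = ⟨p, hp.out⟩ from Subtype.ext h) ▸ hpS)
  have hB1 : ∀ s ∈ T.H, T.coind (ρ.comp T.H.subtype) s = 1 := fun s hs =>
    T.coind_eq_one T le_rfl (ρ.comp T.H.subtype) (fun u _ => hρ u.1 u.2) hs
  have hunrK : ∀ q : Nat.Primes, q ∉ S →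
      UnrRep ((kerRep (T.equi_aug ρ)).comp (loc (q : ℕ))) := fun q hq ι hι => by
    refine LinearMap.ext fun a => Subtype.ext ?_
    show T.coind (ρ.comp T.H.subtype) (loc (q : ℕ) ι) a.1 = a.1
    rw [hB1 _ ((hH _).2 ⟨MonoidHom.mem_ker.2 (hunr q hq ι hι),
      MonoidHom.mem_ker.2 (cycloChar_inertL (hne q hq) hι)⟩)]
    rfl
  have hK := le_sum_finrank_H1 PK hp2 hpS hunrK
  have hV := le_sum_finrank_H1 P hp2 hpS hunr
  have key : ∀ q : {q // q ∈ S},
      Module.finrank (ZMod p) (H1 (LL (q.1 : ℕ)) ((kerRep (T.equi_aug ρ)).comp (loc (q.1 : ℕ))))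
        + Module.finrank (ZMod p) (H1 (LL (q.1 : ℕ)) (ρ.comp (loc (q.1 : ℕ))))
        + Module.finrank (ZMod p)
            ↥(Representation.invariants ((T.coind (ρ.comp T.H.subtype)).comp (loc (q.1 : ℕ))))
        + Module.finrank (ZMod p)
            ↥(Representation.invariants ((T.coind (σ.comp T.H.subtype)).comp (loc (q.1 : ℕ))))
      ≤ Module.finrank (ZMod p)
            (H1 (LL (q.1 : ℕ)) ((T.coind (ρ.comp T.H.subtype)).comp (loc (q.1 : ℕ))))
        + Module.finrank (ZMod p)
            ↥(Representation.invariants ((kerRep (T.equi_aug ρ)).comp (loc (q.1 : ℕ))))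
        + Module.finrank (ZMod p) ↥(Representation.invariants (ρ.comp (loc (q.1 : ℕ))))
        + Module.finrank (ZMod p) ↥(Representation.invariants
            (((kerRep (T.equi_aug ρ)).dual.twist (cycQ p).χ).comp (loc (q.1 : ℕ))))
        + Module.finrank (ZMod p) ↥(Representation.invariants (σ.comp (loc (q.1 : ℕ)))) := by
    intro q
    have := (perfectQ (q.1 : ℕ) PK).fin1
    have := (perfectQ (q.1 : ℕ) PB).fin1
    have := (perfectQ (q.1 : ℕ) P).fin1
    have := (finrank_H2Q (q.1 : ℕ) PK).1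
    have := (finrank_H2Q (q.1 : ℕ) PB).1
    have := (finrank_H2Q (q.1 : ℕ) P).1
    have h := euler_le_of_ses (E.res (loc (q.1 : ℕ)))
      (PB.smooth_left.comp (compat_loc (q := (q.1 : ℕ))))
    rwa [(finrank_H2Q (q.1 : ℕ) PK).2, (finrank_H2Q (q.1 : ℕ) PB).2,
      (finrank_H2Q (q.1 : ℕ) P).2] at h
  have hsum := Finset.sum_le_sum fun q (_ : q ∈ Finset.univ) => key q
  simp only [Finset.sum_add_distrib] at hsum
  have hB := T.finrank_LocH1_coindV_le (τ := ρ.comp T.H.subtype) hμ (fun s => hρ s.1 s.2) hpS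
  have := fun q : {q // q ∈ S} => (perfectQ (q.1 : ℕ) PB).fin1
  have : ∀ q : {q // q ∈ S}, Module.Free (ZMod p)
      (H1 (LL (q.1 : ℕ)) ((T.coind (ρ.comp T.H.subtype)).comp (loc (q.1 : ℕ)))) :=
    fun q => Module.Free.of_divisionRing _ _
  rw [Module.finrank_pi_fintype, card_placesOver] at hB
  have h0 := Finset.sum_le_sum fun q (_ : q ∈ (Finset.univ : Finset {q // q ∈ S})) =>
    T.mul_le_finrank_invariants_coindV (τ := ρ.comp T.H.subtype) (fun s => hρ s.1 s.2) (q.1 : ℕ)
  have h0' := Finset.sum_le_sum fun q (_ : q ∈ (Finset.univ : Finset {q // q ∈ S})) =>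
    T.mul_le_finrank_invariants_coindV (τ := σ.comp T.H.subtype) (fun s => hσ s.1 s.2) (q.1 : ℕ)
  have hdW : Module.finrank (ZMod p) W = Module.finrank (ZMod p) V :=
    P.toDual.finrank_eq.trans Subspace.dual_finrank_eq
  have hdim : Module.finrank (ZMod p) (LinearMap.ker (T.aug ρ)) + Module.finrank (ZMod p) V
      = T.H.index * Module.finrank (ZMod p) V := by
    have h := LinearMap.finrank_range_add_finrank_ker (T.aug ρ)
    rw [LinearMap.range_eq_top.2 (T.aug_surjective ρ), finrank_top, Module.finrank_pi_fintype,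
      Finset.sum_const, Finset.card_univ, smul_eq_mul, ← T.index_eq_card] at h
    omega
  rw [← Finset.sum_mul] at h0 h0'
  rw [hdW] at h0'
  rw [mul_add, mul_comm _ (T.H.index)] at hB
  set n := ∑ q : {q // q ∈ S}, Nat.card (PlaceOver T.H (q.1 : ℕ))
  rw [show Module.finrank (ZMod p) V * (2 * n)
    = n * Module.finrank (ZMod p) V + n * Module.finrank (ZMod p) V by ring] at hB
  omega

/-- The Greenberg-Wiles formula. -/
theorem finrank_selS_formula (P : DPair LQ (cycQ p).χ ρ σ) (hp2 : p ≠ 2) {S : Finset Nat.Primes}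
    (hpS : (⟨p, hp.out⟩ : Nat.Primes) ∈ S)
    (hunr : ∀ q : Nat.Primes, q ∉ S → UnrRep (ρ.comp (loc (q : ℕ)))) (L : LocCond S ρ) :
    Module.finrank (ZMod p) (selS S ρ L) + Module.finrank (ZMod p) ↥σ.invariants
        + Module.finrank (ZMod p) (LinearMap.ker (ρ complexConjugation - 1))
        + ∑ q : {q // q ∈ S},
            Module.finrank (ZMod p) ↥(Representation.invariants (ρ.comp (loc (q.1 : ℕ))))
      = Module.finrank (ZMod p) (selS S σ fun q => orthQ (q.1 : ℕ) P (L q))
        + Module.finrank (ZMod p) ↥ρ.invariants + ∑ q, Module.finrank (ZMod p) (L q) := by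
  have hne : ∀ q : Nat.Primes, q ∉ S → (q : ℕ) ≠ p := fun q hq h =>
    hq ((show q = ⟨p, hp.out⟩ from Subtype.ext h) ▸ hpS)
  refine le_antisymm (finrank_selS_le P hp2 hpS hunr L) ?_
  have h2 := finrank_selS_le P.flip hp2 hpS (fun q hq => unrRep_right P (hne q hq) (hunr q hq))
    (fun q => orthQ (q.1 : ℕ) P (L q))
  rw [show (fun q : {q // q ∈ S} => orthQ (q.1 : ℕ) P.flip (orthQ (q.1 : ℕ) P (L q))) = L from
    funext fun q => orthQ_orthQ (q.1 : ℕ) P (L q)] at h2
  have h3 := finrank_ker_cc_add P hp2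
  have h4 := sum_finrank_H1 P hp2 hpS hunr
  have h5 := Finset.sum_congr rfl fun q (_ : q ∈ (Finset.univ : Finset {q // q ∈ S})) =>
    finrank_orthQ (q.1 : ℕ) P (L q)
  rw [Finset.sum_add_distrib] at h5
  omega

end FA.GalCoh
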