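import Fermat.Agent.GalCoh.LocalNorm
import Fermat.Agent.GalCoh.Devissage

/-!
The second cohomology of a local field containing the roots of unity is a line spanned by symbols.
-/

set_option autoImplicit false
set_option linter.unusedSectionVars false

noncomputable section

namespace FA.GalCoh

section Generic

variable {G : Type} [Group G] {L : Levels G} {p : ℕ} [hp : Fact p.Prime]
variable {G' : Type} [Group G'] {L' : Levels G'}

theorem equi_triv (f : G' →* G) :
    Equi f (triv G p) (triv G' p) (LinearMap.id : ZMod p →ₗ[ZMod p] ZMod p) := fun _ _ => rfl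

/-- Restriction of classes with trivial coefficients. -/
abbrev res1t {f : G' →* G} (hf : Compat L L' f) :
    H1 L (triv G p) →ₗ[ZMod p] H1 L' (triv G' p) := map1 hf (equi_triv f)

/-- Restriction of classes with trivial coefficients. -/
abbrev res2t {f : G' →* G} (hf : Compat L L' f) :
    H2 L (triv G p) →ₗ[ZMod p] H2 L' (triv G' p) := map2 hf (equi_triv f)

theorem res2t_symb {f : G' →* G} (hf : Compat L L' f) (x y : H1 L (triv G p)) :
    res2t hf (symb x y) = symb (res1t hf x) (res1t hf y) :=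
  Bil.map2_cup bil_triv smooth_triv bil_triv smooth_triv hf (equi_triv f) (equi_triv f)
    (equi_triv f) (fun _ _ => rfl) x y

theorem res2t_injective {f : G' →* G} {g : G →* G'} (hf : Compat L L' f) (hg : Compat L' L g)
    (h : ∀ x, f (g x) = x) : Function.Injective (res2t (p := p) hf) := by
  refine Function.LeftInverse.injective (g := res2t hg) fun z => ?_
  obtain ⟨Z, rfl⟩ := mk2_surjective z
  refine congrArg (mk2 L (triv G p)) (Subtype.ext (funext fun x => ?_))
  show Z.1 (f (g x.1), f (g x.2)) = Z.1 x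
  rw [h, h]

/-- A two-cocycle is killed on a subgroup. -/
def KilledOn (Z : G × G → ZMod p) (M : Subgroup G) (L : Levels G) : Prop :=
  ∃ b : G → ZMod p, LC₁ L b ∧ ∀ m ∈ M, ∀ m' ∈ M, Z (m, m') = b m' - b (m * m') + b m

theorem killedOn_of_const {Z : G × G → ZMod p} {N M : Subgroup G}
    (h : ∀ g g' s s', s ∈ N → s' ∈ N → Z (g * s, g' * s') = Z (g, g')) (hM : M ≤ N) :
    KilledOn Z M L := by
  refine ⟨fun _ => Z (1, 1), LC₁.const _, fun m hm m' hm' => ?_⟩
  have := h 1 1 m m' (hM hm) (hM hm')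
  rw [one_mul, one_mul] at this
  rw [this]; ring

theorem KilledOn.mono {Z : G × G → ZMod p} {M M' : Subgroup G} (h : KilledOn Z M L) (hle : M' ≤ M) :
    KilledOn Z M' L :=
  ⟨h.choose, h.choose_spec.1, fun m hm m' hm' => h.choose_spec.2 m (hle hm) m' (hle hm')⟩

theorem KilledOn.res {Z : G × G → ZMod p} {M : Subgroup G} (h : KilledOn Z M L) {f : G' →* G}
    (hf : Compat L L' f) : KilledOn (fun x => Z (f x.1, f x.2)) (M.comap f) L' := by
  obtain ⟨b, hb, h⟩ := h
  exact ⟨fun g => b (f g), hb.precomp hf, fun m hm m' hm' => by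
    show Z (f m, f m') = b (f m') - b (f (m * m')) + b (f m)
    rw [map_mul]; exact h (f m) hm (f m') hm'⟩

theorem KilledOn.mk2_eq_zero {Z : ↥(Z2 L (triv G p))} (h : KilledOn Z.1 ⊤ L) :
    mk2 L (triv G p) Z = 0 := by
  obtain ⟨b, hb, h⟩ := h
  exact (FA.GalCoh.mk2_eq_zero L _ Z).2 ⟨b, hb, funext fun x =>
    (h x.1 trivial x.2 trivial).symm⟩

end Generic

section CycTrans

variable {G : Type} [Group G] {L : Levels G} {p : ℕ} [hp : Fact p.Prime] {χ : G → ZMod p}

/-- The translation action of a group on the values of a character. -/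
@[instance_reducible]
def CycData.action (C : CycData L χ) : MulAction G (ZMod p) where
  smul g i := χ g + i
  one_smul i := show χ 1 + i = i by rw [C.map_one, zero_add]
  mul_smul g h i := show χ (g * h) + i = χ g + (χ h + i) by rw [C.hom, add_assoc]

/-- The transitive set of a character. -/
def CycData.trans (C : CycData L χ) :
    letI := C.action
    Trans L (ZMod p) :=
  letI := C.action
  { x0 := 0
    t := fun i => C.σ ^ i.val
    t_smul := fun i => show χ (C.σ ^ i.val) + 0 = i by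
      rw [add_zero, C.map_pow_σ, ZMod.natCast_zmod_val]
    t_x0 := by simp
    trivial := by
      obtain ⟨N, hN, h⟩ := C.lc
      refine ⟨N, hN, fun s hs i => show χ s + i = i from ?_⟩
      have := h 1 s hs
      rw [one_mul, C.map_one] at this
      rw [this, zero_add] }

theorem CycData.mem_trans_H (C : CycData L χ) (g : G) :
    letI := C.action
    g ∈ C.trans.H ↔ χ g = 0 := by
  let _ := C.action
  rw [MulAction.mem_stabilizer_iff]
  show χ g + 0 = 0 ↔ _
  rw [add_zero]

theorem exists_cycData_of_pGroup {L : Levels G} (M : Subgroup G) [M.Normal] [M.FiniteIndex]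
    (hM : M ∈ L.carrier) {n : ℕ} (hindex : M.index = p ^ (n + 1)) :
    ∃ (χ : G → ZMod p) (_ : CycData L χ), ∀ m ∈ M, χ m = 0 := by
  have hcard : Nat.card (G ⧸ M) = p ^ (n + 1) := hindex
  obtain ⟨K, hK⟩ := Sylow.exists_subgroup_card_pow_prime (G := G ⧸ M) p (n := n)
    (hcard ▸ pow_dvd_pow p (Nat.le_succ n))
  have hKi : K.index = p := by
    have := K.card_mul_index
    rw [hK, hcard, pow_succ] at this
    exact Nat.eq_of_mul_eq_mul_left (pow_pos hp.out.pos n) this
  have hnormal : K.Normal := Subgroup.normal_of_index_eq_minFac_card (by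
    rw [hKi, hcard, Nat.pow_minFac (Nat.succ_ne_zero n), hp.out.minFac_eq])
  have hcyc : Nat.card ((G ⧸ M) ⧸ K) = p := hKi
  obtain ⟨ψ⟩ : Nonempty ((G ⧸ M) ⧸ K ≃* Multiplicative (ZMod p)) :=
    ⟨mulEquivOfPrimeCardEq hcyc (by simp)⟩
  let π : G →* Multiplicative (ZMod p) :=
    (ψ.toMonoidHom.comp (QuotientGroup.mk' K)).comp (QuotientGroup.mk' M)
  have hπM : ∀ m ∈ M, π m = 1 := fun m hm => by
    show ψ (QuotientGroup.mk' K (QuotientGroup.mk' M m)) = 1
    rw [show QuotientGroup.mk' M m = 1 from (QuotientGroup.eq_one_iff m).2 hm, map_one, map_one]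
  obtain ⟨σ, hσ⟩ : ∃ σ, π σ = Multiplicative.ofAdd (1 : ZMod p) := by
    obtain ⟨x, hx⟩ := ψ.surjective (Multiplicative.ofAdd (1 : ZMod p))
    obtain ⟨y, rfl⟩ := QuotientGroup.mk_surjective x
    obtain ⟨z, rfl⟩ := QuotientGroup.mk_surjective y
    exact ⟨z, hx⟩
  refine ⟨fun g => Multiplicative.toAdd (π g),
    { hom := fun g h => by rw [map_mul, toAdd_mul]
      lc := ⟨M, hM, fun g s hs => by
        show Multiplicative.toAdd (π (g * s)) = Multiplicative.toAdd (π g)
        rw [map_mul, hπM s hs, mul_one]⟩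
      σ := σ
      map_σ := by rw [hσ]; rfl }, fun m hm => ?_⟩
  show Multiplicative.toAdd (π m) = 0
  rw [hπM m hm]; rfl

end CycTrans

section GenericStep

variable {G : Type} [Group G] {L : Levels G} {p : ℕ} [hp : Fact p.Prime]
variable {Ω : Type} [Field Ω] [MulSemiringAction G Ω] (K : KumData L Ω p)
variable {χ : G → ZMod p} (C : CycData L χ)

include K in
/-- Some symbol on the kernel of a character has nonzero corestriction. -/
theorem exists_cor_ne_zero (hlt : (K.norms C).index < Nat.card (H1 L (triv G p)))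
    (hnz : (K.norms C).index ≠ 0)
    (hnd : ∀ x : H1 L (triv G p), x ≠ 0 → ∃ y, symb x y ≠ 0) :
    letI := C.action
    ∃ x y : H1 (L.sub C.trans.H) (triv C.trans.H p),
      C.trans.cor2 (triv G p) (symb x y) ≠ 0 := by
  let _ := C.action
  obtain ⟨a, ha⟩ : ∃ a : fixUM C.trans.H Ω, K.kum (C.trans.nrm a) ≠ 0 := by
    by_contra! hall
    have hle : K.norms C ≤ K.kum.ker := by
      intro b hb
      obtain ⟨x, hx, hsum⟩ := (K.mem_norms C b).1 hb
      have hxf : x ∈ fixUM C.trans.H Ω := fun g => hx g.1 ((C.mem_trans_H g.1).1 g.2)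
      have : C.trans.nrm ⟨x, hxf⟩ = b := by
        refine Subtype.ext ?_
        rw [hsum]
        refine Finset.sum_bij (fun i _ => i.val) (fun i _ => Finset.mem_range.2 (ZMod.val_lt i))
          (fun i _ j _ h => ZMod.val_injective p h)
          (fun i hi => ⟨(i : ZMod p), Finset.mem_univ _,
            ZMod.val_natCast_of_lt (Finset.mem_range.1 hi)⟩) (fun i _ => rfl)
      rw [AddMonoidHom.mem_ker, ← this]
      exact hall _
    have h2 := AddSubgroup.index_dvd_of_le hle
    rw [AddSubgroup.index_ker, AddMonoidHom.range_eq_top.2 K.kum_surjective,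
      AddSubgroup.card_top] at h2
    exact absurd (Nat.le_of_dvd (Nat.pos_of_ne_zero hnz) h2) (not_le.2 hlt)
  obtain ⟨b, hb⟩ := hnd _ ha
  refine ⟨C.trans.res1 b, (K.sub C.trans).kum a, fun h => hb ?_⟩
  rw [Trans.cor2_symb, K.cor1_kum] at h
  rw [symb_comm, h, neg_zero]

include K in
/-- A class whose restriction is a multiple of a class with nonzero corestriction is a symbol. -/
theorem exists_symb_of_res_mem (Z : ↥(Z2 L (triv G p))) :
    letI := C.action
    ∀ (w : H2 (L.sub C.trans.H) (triv C.trans.H p)), C.trans.cor2 (triv G p) w ≠ 0 →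
      map2 (Levels.sub_compat _ C.trans.H) (Equi.res C.trans.H.subtype (triv G p))
        (mk2 L (triv G p) Z) ∈ Submodule.span (ZMod p) {w} →
      ∃ x y : H1 L (triv G p), mk2 L (triv G p) Z = symb x y := by
  let _ := C.action
  intro w hw hmem
  obtain ⟨c, hc⟩ := Submodule.mem_span_singleton.1 hmem
  have hcd : c = 0 := by
    have h := C.trans.cor2_res (triv G p) (mk2 L (triv G p) Z)
    rw [← hc, ZMod.card p, ← Nat.cast_smul_eq_nsmul (ZMod p), ZMod.natCast_self, zero_smul] at h
    have h' : c • C.trans.cor2 (triv G p) w = 0 := by rw [← map_smul]; exact h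
    exact (smul_eq_zero.1 h').resolve_right hw
  rw [hcd, zero_smul] at hc
  obtain ⟨b, hb, hdb⟩ := (mk2_eq_zero (L.sub C.trans.H) _
    (mapZ2 (Levels.sub_compat _ C.trans.H) (Equi.res C.trans.H.subtype (triv G p)) Z)).1 hc.symm
  let b' : G → ZMod p := fun g => b ⟨(C.rep g)⁻¹ * g, (C.mem_trans_H _).2 (C.rep_inv_mul g)⟩
  have hb' : LC₁ L b' := by
    obtain ⟨_, ⟨N, hN, rfl⟩, hs⟩ := hb
    obtain ⟨N', hN', hs'⟩ := C.lc
    refine ⟨N ⊓ N', L.inf_mem hN hN', fun g s hsm => ?_⟩
    have hrep : C.rep (g * s) = C.rep g := C.rep_congr (hs' g s hsm.2)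
    have hsT : s ∈ C.trans.H := (C.mem_trans_H _).2 (by
      have := hs' 1 s hsm.2
      rwa [one_mul, C.map_one] at this)
    have := hs ⟨(C.rep g)⁻¹ * g, (C.mem_trans_H _).2 (C.rep_inv_mul g)⟩ ⟨s, hsT⟩ hsm.1
    simp only [b']
    rw [← this]
    refine congrArg b (Subtype.ext ?_)
    show (C.rep (g * s))⁻¹ * (g * s) = (C.rep g)⁻¹ * g * s
    rw [hrep, mul_assoc]
  have hb'n : ∀ g, ∀ hg : χ g = 0, b' g = b ⟨g, (C.mem_trans_H g).2 hg⟩ := fun g hg => by
    refine congrArg b (Subtype.ext ?_)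
    show (C.rep g)⁻¹ * g = g
    simp [CycData.rep, hg]
  obtain ⟨a, ha⟩ := K.exists_symb_of_res C Z hb' fun m m' hm hm' => by
    have h := congrFun hdb (⟨m, (C.mem_trans_H m).2 hm⟩, ⟨m', (C.mem_trans_H m').2 hm'⟩)
    have hmm : χ (m * m') = 0 := by rw [C.hom, hm, hm', add_zero]
    rw [d1_apply, hb'n m hm, hb'n m' hm', hb'n _ hmm]
    exact h.symm
  exact ⟨_, _, ha⟩

variable {X : Type} [Fintype X] [MulAction G X]

/-- Restriction to a subgroup of index prime to `p` is injective. -/
theorem res2_injective_of_card (T : Trans L X) (h : (Fintype.card X : ZMod p) ≠ 0) :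
    Function.Injective (map2 (Levels.sub_compat L T.H) (Equi.res T.H.subtype (triv G p))) := by
  refine (injective_iff_map_eq_zero _).2 fun w hw => ?_
  have := T.cor2_res (triv G p) w
  rw [hw, map_zero, ← Nat.cast_smul_eq_nsmul (ZMod p)] at this
  exact (smul_eq_zero.1 this.symm).resolve_left h

end GenericStep

variable {q : ℕ} [hq : Fact q.Prime] {p : ℕ} [hp : Fact p.Prime]

/-- The Kummer data of a subgroup. -/
def KumData.restrict {H H' : Subgroup (LG q)} (hle : H' ≤ H)
    (K : KumData ((LL q).sub H) (PadicAlgCl q) p) : KumData ((LL q).sub H') (PadicAlgCl q) p where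
  gal := galAct_fieldLevels.sub H'
  ζ := K.ζ
  prim := K.prim
  fixζ g := K.fixζ ⟨g.1, hle g.2⟩
  root := K.root

theorem compat_inclusion {G : Type} [Group G] {L : Levels G} {H H' : Subgroup G} (hle : H' ≤ H) :
    Compat (L.sub H) (L.sub H') (Subgroup.inclusion hle) := by
  rintro _ ⟨N, hN, rfl⟩
  exact ⟨_, ⟨N, hN, rfl⟩, fun g hg => hg⟩

variable {H : Subgroup (LG q)} (hH : H ∈ (LL q).carrier)
  (K : KumData ((LL q).sub H) (PadicAlgCl q) p)

include hH K in
theorem nontrivial_H1 : Nontrivial (H1 ((LL q).sub H) (triv H p)) := by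
  have h := natCard_H1 hH K
  have : 1 < Nat.card (H1 ((LL q).sub H) (triv H p)) := by
    rw [h]
    exact Nat.one_lt_pow (by omega) hp.out.one_lt
  have hfin : Finite (H1 ((LL q).sub H) (triv H p)) := Nat.finite_of_card_ne_zero (by omega)
  exact Finite.one_lt_card_iff_nontrivial.1 this

include hH K in
theorem exists_line_local :
    ∃ u : H2 ((LL q).sub H) (triv H p), u ≠ 0 ∧
      (∀ x y, symb x y ∈ Submodule.span (ZMod p) {u}) ∧
      ∀ x : H1 ((LL q).sub H) (triv H p), x ≠ 0 → ∃ y, symb x y ≠ 0 :=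
  have := nontrivial_H1 hH K
  K.exists_symb_line fun _ C => norms_index hH K C

/-- A class lies in the line of the symbols. -/
def InLine (z : H2 ((LL q).sub H) (triv H p)) : Prop :=
  ∀ u, (∀ x y, symb x y ∈ Submodule.span (ZMod p) {u}) → z ∈ Submodule.span (ZMod p) {u}

set_option maxHeartbeats 1000000 in
-- nested subgroups of the Galois group are slow to unify
include hH K in
theorem inLine_of_pGroup {M : Subgroup (LG q)} [M.Normal] (hM : M ∈ (LL q).carrier) (hMH : M ≤ H)
    {n : ℕ} (hindex : M.relIndex H = p ^ n) (Z : ↥(Z2 ((LL q).sub H) (triv H p)))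
    (hZ : KilledOn Z.1 (M.subgroupOf H) ((LL q).sub H)) :
    InLine (mk2 _ (triv H p) Z) := by
  induction n using Nat.strong_induction_on generalizing H with
  | _ n ih =>
  intro u hu
  rcases n with _ | n
  · have hMeq : M.subgroupOf H = ⊤ := by
      rw [← Subgroup.index_eq_one, ← Subgroup.relIndex, hindex, pow_zero]
    rw [hMeq] at hZ
    rw [hZ.mk2_eq_zero]
    exact zero_mem _
  have hMs : M.subgroupOf H ∈ ((LL q).sub H).carrier := ⟨M, hM, rfl⟩
  have : (M.subgroupOf H).FiniteIndex := ((LL q).sub H).finiteIndex hMs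
  obtain ⟨χ, C, hχM⟩ := exists_cycData_of_pGroup (L := (LL q).sub H) (M.subgroupOf H) hMs hindex
  let _ := C.action
  set H' := kerSub C with hH'def
  have hH' : H' ∈ (LL q).carrier := kerSub_mem hH C
  have hle : H' ≤ H := Subgroup.map_subtype_le _
  have hker : ∀ g : H', χ ⟨g.1, hle g.2⟩ = 0 := fun g => by
    obtain ⟨⟨h, hh⟩, hk, hval⟩ := g.2
    have : (⟨g.1, hle g.2⟩ : H) = ⟨h, hh⟩ := Subtype.ext hval.symm
    rw [this]; exact hk
  -- the two identifications of the kernel
  let ι : H' →* C.trans.H := (Subgroup.inclusion hle).codRestrict _ fun g =>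
    (C.mem_trans_H _).2 (hker g)
  let j : C.trans.H →* H' := ((H.subtype.comp C.trans.H.subtype)).codRestrict _ fun g =>
    ⟨g.1, (C.mem_trans_H g.1).1 g.2, rfl⟩
  have hι : Compat (((LL q).sub H).sub C.trans.H) ((LL q).sub H') ι := by
    rintro _ ⟨_, ⟨N, hN, rfl⟩, rfl⟩
    exact ⟨_, ⟨N, hN, rfl⟩, fun g hg => hg⟩
  have hj : Compat ((LL q).sub H') (((LL q).sub H).sub C.trans.H) j := by
    rintro _ ⟨N, hN, rfl⟩
    exact ⟨_, ⟨_, ⟨N, hN, rfl⟩, rfl⟩, fun g hg => hg⟩
  have hinj : Function.Injective (res2t (p := p) hι) := res2t_injective hι hj fun g => rfl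
  -- the index
  have hHH' : H'.relIndex H = p := by
    have h1 : C.ker.index = p := by
      let π : H →* Multiplicative (ZMod p) :=
        MonoidHom.mk' (fun g => Multiplicative.ofAdd (χ g)) fun g h => by rw [C.hom, ofAdd_add]
      have hπ : π.ker = C.ker := by
        ext g
        exact Iff.rfl
      rw [← hπ, Subgroup.index_ker, MonoidHom.range_eq_top.2, Subgroup.card_top]
      · simp
      · intro z
        refine ⟨C.σ ^ (Multiplicative.toAdd z).val, ?_⟩
        show Multiplicative.ofAdd (χ _) = z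
        rw [C.map_pow_σ, ZMod.natCast_zmod_val]; rfl
    rw [Subgroup.relIndex, hH'def, kerSub]
    have : (C.ker.map H.subtype).subgroupOf H = C.ker :=
      Subgroup.comap_map_eq_self_of_injective H.subtype_injective _
    rw [this, h1]
  have hMH' : M ≤ H' := fun m hm =>
    ⟨⟨m, hMH hm⟩, hχM _ (Subgroup.mem_subgroupOf.2 hm), rfl⟩
  have hindex' : M.relIndex H' = p ^ n := by
    have := Subgroup.relIndex_mul_relIndex _ _ _ hMH' hle
    rw [hindex, hHH', pow_succ] at this
    exact Nat.eq_of_mul_eq_mul_right hp.out.pos this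
  -- restriction to the kernel
  set z := mk2 _ (triv H p) Z with hz
  have hcomp : Compat ((LL q).sub H) ((LL q).sub H') (Subgroup.inclusion hle) :=
    compat_inclusion hle
  have hK' := K.restrict hle
  obtain ⟨u', hu'0, hu', -⟩ := exists_line_local hH' hK'
  have hres : res2t hι (map2 (Levels.sub_compat _ C.trans.H)
      (Equi.res C.trans.H.subtype (triv H p)) z) ∈ Submodule.span (ZMod p) {u'} := by
    have h := ih n (Nat.lt_succ_self n) hH' hK' hMH' hindex'
      (mapZ2 hcomp (equi_triv _) Z) ((hZ.res hcomp).mono (fun g hg => hg)) u' hu'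
    exact h
  obtain ⟨-, -, -, hnd⟩ := exists_line_local hH K
  have hidx := norms_index hH K C
  have hlt : (K.norms C).index < Nat.card (H1 ((LL q).sub H) (triv H p)) := by
    rw [hidx, natCard_H1 hH K]
    calc p = p ^ 1 := (pow_one p).symm
      _ < _ := Nat.pow_lt_pow_right hp.out.one_lt (by omega)
  obtain ⟨x, y, hxy⟩ := exists_cor_ne_zero K C hlt (by rw [hidx]; exact hp.out.ne_zero) hnd
  obtain ⟨c, hc⟩ := Submodule.mem_span_singleton.1 hres
  obtain ⟨d, hd⟩ := Submodule.mem_span_singleton.1 (by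
    have := hu' (res1t hι x) (res1t hι y)
    rwa [← res2t_symb] at this : res2t hι (symb x y) ∈ Submodule.span (ZMod p) {u'})
  have hd0 : d ≠ 0 := fun h => hxy (by
    rw [h, zero_smul, eq_comm] at hd
    rw [hinj (hd.trans (map_zero _).symm), map_zero])
  obtain ⟨x', y', hxy'⟩ := exists_symb_of_res_mem K C Z (symb x y) hxy
    (Submodule.mem_span_singleton.2 ⟨c * d⁻¹, hinj (by
      rw [map_smul, ← hd, smul_smul, mul_assoc, inv_mul_cancel₀ hd0, mul_one, hc])⟩)
  rw [hz, hxy']
  exact hu _ _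

set_option maxHeartbeats 1000000 in
-- nested subgroups of the Galois group are slow to unify
include hH K in
/-- The second cohomology of a local field with enough roots of unity is one line. -/
theorem exists_generator_H2 :
    ∃ u : H2 ((LL q).sub H) (triv H p), u ≠ 0 ∧ (∀ z, z ∈ Submodule.span (ZMod p) {u}) ∧
      ∀ x : H1 ((LL q).sub H) (triv H p), x ≠ 0 → ∃ y, symb x y ≠ 0 := by
  classical
  obtain ⟨u, hu0, hu, hnd⟩ := exists_line_local hH K
  refine ⟨u, hu0, fun z => ?_, hnd⟩
  obtain ⟨Z, rfl⟩ := mk2_surjective z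
  obtain ⟨U, rfl⟩ := mk2_surjective u
  obtain ⟨_, ⟨N₁, hN₁, rfl⟩, hs₁⟩ := Z.2.1
  obtain ⟨_, ⟨N₂, hN₂, rfl⟩, hs₂⟩ := U.2.1
  obtain ⟨M, hM, hle, hn⟩ := (LL q).exists_normal ((LL q).inf_mem ((LL q).inf_mem hN₁ hN₂) hH)
  have hMH : M ≤ H := fun m hm => (hle hm).2
  have hMs : M.subgroupOf H ∈ ((LL q).sub H).carrier := ⟨M, hM, rfl⟩
  have : (M.subgroupOf H).FiniteIndex := ((LL q).sub H).finiteIndex hMs
  have : Finite (H ⧸ M.subgroupOf H) := inferInstance
  obtain ⟨P⟩ : Nonempty (Sylow p (H ⧸ M.subgroupOf H)) := Sylow.nonempty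
  let S₀ : Subgroup H := (P : Subgroup (H ⧸ M.subgroupOf H)).comap (QuotientGroup.mk' _)
  have hMS₀ : M.subgroupOf H ≤ S₀ := fun s hs => by
    show QuotientGroup.mk' (M.subgroupOf H) s ∈ (P : Subgroup (H ⧸ M.subgroupOf H))
    rw [QuotientGroup.mk'_apply, (QuotientGroup.eq_one_iff s).2 hs]
    exact one_mem _
  have : S₀.FiniteIndex := Subgroup.finiteIndex_of_le hMS₀
  have : Fintype (H ⧸ S₀) := Fintype.ofFinite _
  let T := cosetTrans ((LL q).sub H) S₀ hMs inferInstance hMS₀
  have hcard : (Fintype.card (H ⧸ S₀) : ZMod p) ≠ 0 := fun h => by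
    rw [ZMod.natCast_eq_zero_iff, Fintype.card_eq_nat_card, ← Subgroup.index_eq_card,
      Subgroup.index_comap_of_surjective _ (QuotientGroup.mk'_surjective _)] at h
    exact P.not_dvd_index h
  let S := S₀.map H.subtype
  have hSH : S ≤ H := Subgroup.map_subtype_le _
  have hS : S ∈ (LL q).carrier := by
    obtain ⟨F, hF, hFle⟩ := hM
    exact ⟨F, hF, fun g hg => ⟨⟨g, hMH (hFle hg)⟩,
      hMS₀ (Subgroup.mem_subgroupOf.2 (hFle hg)), rfl⟩⟩
  have hMS : M ≤ S := fun m hm =>
    ⟨⟨m, hMH hm⟩, hMS₀ (Subgroup.mem_subgroupOf.2 hm), rfl⟩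
  obtain ⟨n, hnP⟩ : ∃ n, Nat.card (P : Subgroup (H ⧸ M.subgroupOf H)) = p ^ n :=
    IsPGroup.iff_card.1 P.isPGroup'
  have hindex : M.relIndex S = p ^ n := by
    rw [show M.relIndex S = (M.subgroupOf H).relIndex S₀ from by
      rw [← Subgroup.relIndex_subgroupOf hSH]
      exact congrArg _ (Subgroup.comap_map_eq_self_of_injective H.subtype_injective S₀)]
    have hb : M.subgroupOf H = (⊥ : Subgroup (H ⧸ M.subgroupOf H)).comap (QuotientGroup.mk' _) := by
      rw [MonoidHom.comap_bot, QuotientGroup.ker_mk']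
    conv_lhs => rw [hb]
    rw [Subgroup.relIndex_comap, Subgroup.map_comap_eq_self_of_surjective
      (QuotientGroup.mk'_surjective _), Subgroup.relIndex_bot_left, hnP]
  -- the two restrictions
  have hcomp : Compat ((LL q).sub H) ((LL q).sub S) (Subgroup.inclusion hSH) := compat_inclusion hSH
  have hinj : Function.Injective (res2t (p := p) hcomp) := by
    refine (injective_iff_map_eq_zero _).2 fun w hw => ?_
    let j : T.H →* S := ((H.subtype.comp T.H.subtype)).codRestrict _ fun g =>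
      ⟨g.1, (mem_cosetTrans_H hMs inferInstance hMS₀).1 g.2, rfl⟩
    have hj : Compat ((LL q).sub S) (((LL q).sub H).sub T.H) j := by
      rintro _ ⟨N, hN, rfl⟩
      exact ⟨_, ⟨_, ⟨N, hN, rfl⟩, rfl⟩, fun g hg => hg⟩
    have h0 : map2 (Levels.sub_compat _ T.H) (Equi.res T.H.subtype (triv H p)) w = 0 := by
      have := congrArg (res2t (p := p) hj) hw
      rw [map_zero] at this
      rw [← this]
      obtain ⟨W, rfl⟩ := mk2_surjective w
      rfl
    exact res2_injective_of_card T hcard (h0.trans (map_zero _).symm)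
  obtain ⟨uS, -, huS, -⟩ := exists_line_local hS (K.restrict hSH)
  have hkill : ∀ (W : ↥(Z2 ((LL q).sub H) (triv H p))) (N : Subgroup (LG q)),
      (∀ g g' s s', s ∈ N.subgroupOf H → s' ∈ N.subgroupOf H →
        W.1 (g * s, g' * s') = W.1 (g, g')) → M ≤ N →
      res2t hcomp (mk2 _ (triv H p) W) ∈ Submodule.span (ZMod p) {uS} := by
    intro W N hW hMN
    refine inLine_of_pGroup hS (K.restrict hSH) hM hMS hindex (mapZ2 hcomp (equi_triv _) W)
      (((killedOn_of_const (L := (LL q).sub H) hW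
        (show M.subgroupOf H ≤ N.subgroupOf H from Subgroup.comap_mono hMN)).res hcomp).mono
          fun g hg => hg) uS huS
  obtain ⟨c, hc⟩ := Submodule.mem_span_singleton.1
    (hkill Z N₁ hs₁ fun m hm => (hle hm).1.1)
  obtain ⟨d, hd⟩ := Submodule.mem_span_singleton.1
    (hkill U N₂ hs₂ fun m hm => (hle hm).1.2)
  have hd0 : d ≠ 0 := fun h => hu0 (hinj (by rw [← hd, h, zero_smul, map_zero]))
  refine Submodule.mem_span_singleton.2 ⟨c * d⁻¹, hinj ?_⟩
  rw [map_smul, ← hd, smul_smul, mul_assoc, inv_mul_cancel₀ hd0, mul_one, hc]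

end FA.GalCoh
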