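import Fermat.Agent.GalCoh.LocalField

/-!
Indices of subgroups of local unit groups, and the index of the `p`-th powers.
-/

set_option autoImplicit false
set_option linter.unusedSectionVars false

noncomputable section

namespace FA.GalCoh

open Filter Topology

variable {q : ℕ} [hq : Fact q.Prime]

/-- A subgroup containing the small elements of a bounded subgroup has finite index in it. -/
theorem relIndex_ne_zero_of_close {M : Type} [AddCommGroup M] (f : M → PadicAlgCl q)
    {A B : AddSubgroup M} {S : Set (PadicAlgCl q)} (hS : TotallyBounded S)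
    (hA : ∀ a ∈ A, f a ∈ S) {δ : ℝ} (hδ : 0 < δ)
    (hB : ∀ a ∈ A, ∀ b ∈ A, ‖f a - f b‖ ≤ δ → -a + b ∈ B) : B.relIndex A ≠ 0 := by
  classical
  obtain ⟨t, ht, hcov⟩ := Metric.totallyBounded_iff.1 hS δ hδ
  have := ht.to_subtype
  have hex : ∀ a : A, ∃ c : t, dist (f a.1) c.1 < δ := fun a => by
    obtain ⟨c, hc, hd⟩ := Set.mem_iUnion₂.1 (hcov (hA a.1 a.2))
    exact ⟨⟨c, hc⟩, hd⟩
  choose c hc using hex
  have hinj : Function.Injective fun x : A ⧸ B.addSubgroupOf A => c x.out := fun x y h => by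
    rw [← x.out_eq', ← y.out_eq', QuotientAddGroup.eq]
    refine hB _ x.out.2 _ y.out.2 ?_
    have h1 := hc x.out
    have h2 := hc y.out
    simp only at h
    rw [h] at h1
    rw [← dist_eq_norm]
    exact (IsUltrametricDist.dist_triangle_max _ (c y.out).1 _).trans
      (max_le h1.le (by rw [dist_comm]; exact h2.le))
  have : Finite (A ⧸ B.addSubgroupOf A) := Finite.of_injective _ hinj
  exact AddSubgroup.index_ne_zero_of_finite

variable (E : IntermediateField ℚ_[q] (PadicAlgCl q)) [FiniteDimensional ℚ_[q] E]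

theorem totallyBounded_ball : TotallyBounded {x : PadicAlgCl q | x ∈ E ∧ ‖x‖ ≤ 1} := by
  simpa using (isCompact_ballIn E 0 (zero_mem E) 1).totallyBounded

theorem Lat.relIndex_ne_zero {E : IntermediateField ℚ_[q] (PadicAlgCl q)}
    [FiniteDimensional ℚ_[q] E] (Λ : Lat E) {A : AddSubgroup (PadicAlgCl q)}
    (hA : ∀ x ∈ A, x ∈ E ∧ ‖x‖ ≤ 1) (k : ℕ) : (Λ.lvl k).relIndex A ≠ 0 :=
  relIndex_ne_zero_of_close id (totallyBounded_ball E) hA (pow_pos norm_q_pos (k + Λ.a))
    fun a ha b hb h => Λ.mem_lvl_of_norm (add_mem (neg_mem (hA a ha).1) (hA b hb).1)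
      (by rw [neg_add_eq_sub, norm_sub_rev]; exact h)

/-- The integral elements. -/
def ringLat : Lat E where
  carrier :=
    { carrier := {x | x ∈ E ∧ ‖x‖ ≤ 1}
      zero_mem' := ⟨zero_mem E, by simp⟩
      add_mem' := fun h h' => ⟨add_mem h.1 h'.1, norm_add_le_of_le h.2 h'.2⟩
      neg_mem' := fun h => ⟨neg_mem h.1, by rw [norm_neg]; exact h.2⟩ }
  le_field _ h := h.1
  le_one _ h := h.2
  a := 0
  ball x hx h := ⟨hx, by simpa using h⟩

theorem mem_ringLat_lvl {k : ℕ} {x : PadicAlgCl q} :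
    x ∈ (ringLat E).lvl k ↔ x ∈ E ∧ ‖x‖ ≤ ‖(q : PadicAlgCl q)‖ ^ k :=
  ⟨fun h => ⟨(ringLat E).mem_field_of_mem_lvl h, (ringLat E).norm_le_of_mem_lvl h⟩,
    fun h => (ringLat E).mem_lvl_of_norm h.1 (by simpa [ringLat] using h.2)⟩

theorem exists_unit_scale (b : PadicAlgCl q) : ∃ m : ℕ, ‖(q : PadicAlgCl q) ^ m * b‖ ≤ 1 := by
  have : Tendsto (fun m : ℕ => ‖(q : PadicAlgCl q)‖ ^ m * ‖b‖) atTop (𝓝 (0 * ‖b‖)) :=
    tendsto_norm_qpow.mul_const _
  rw [zero_mul] at this
  obtain ⟨m, hm⟩ := (this.eventually (eventually_le_nhds zero_lt_one)).exists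
  exact ⟨m, by rwa [norm_mul, norm_qpow]⟩

/-- The residue ring modulo `q` has order `q ^ d`. -/
theorem ringLat_index : ((ringLat E).lvl 1).relIndex (ringLat E).carrier
    = q ^ Module.finrank ℚ_[q] E := by
  classical
  set d := Module.finrank ℚ_[q] E with hd
  let b := Module.finBasis ℚ_[q] E
  choose m hm using fun i => exists_unit_scale ((b i : E) : PadicAlgCl q)
  set M := Finset.univ.sup m
  have hMb : ∀ i, ‖(q : PadicAlgCl q) ^ M * (b i : E)‖ ≤ 1 := fun i => by
    refine le_trans ?_ (hm i)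
    rw [norm_mul, norm_mul, norm_qpow, norm_qpow]
    exact mul_le_mul_of_nonneg_right (pow_le_pow_of_le_one (norm_nonneg _) norm_q_lt_one.le
      (Finset.le_sup (Finset.mem_univ i))) (norm_nonneg _)
  let Φ : (Fin d → ℤ_[q]) →+ PadicAlgCl q :=
    AddMonoidHom.mk' (fun c => ∑ i, algebraMap ℚ_[q] (PadicAlgCl q) (c i)
      * ((q : PadicAlgCl q) ^ M * (b i : E))) fun c c' => by
      rw [← Finset.sum_add_distrib]
      refine Finset.sum_congr rfl fun i _ => ?_
      rw [Pi.add_apply, PadicInt.coe_add, map_add, add_mul]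
  have hΦE : ∀ c, Φ c ∈ E := fun c => by
    show ∑ i, algebraMap ℚ_[q] (PadicAlgCl q) (c i) * _ ∈ E
    exact sum_mem fun i _ =>
      mul_mem (IntermediateField.algebraMap_mem E _) (mul_mem (natCast_qpow_mem E M) (b i).2)
  have hΦ1 : ∀ c, ‖Φ c‖ ≤ 1 := fun c => by
    show ‖∑ i, algebraMap ℚ_[q] (PadicAlgCl q) (c i) * _‖ ≤ 1
    refine IsUltrametricDist.norm_sum_le_of_forall_le_of_nonneg zero_le_one fun i _ => ?_
    rw [norm_mul, norm_algebraMap']
    exact mul_le_one₀ (c i).2 (norm_nonneg _) (hMb i)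
  -- continuity of the coordinates
  let V := Subalgebra.toSubmodule E.toSubalgebra
  let bV : Module.Basis (Fin d) ℚ_[q] V := b.map (LinearEquiv.refl ℚ_[q] E)
  have hC : ∀ i, ∃ C : ℝ, ∀ x : V, ‖bV.coord i x‖ ≤ C * ‖x‖ := fun i => by
    have : FiniteDimensional ℚ_[q] V := inferInstanceAs (FiniteDimensional ℚ_[q] E)
    exact ⟨_, (LinearMap.toContinuousLinearMap (bV.coord i)).le_opNorm⟩
  choose C hC using hC
  obtain ⟨a, ha⟩ : ∃ a : ℕ, ∀ i, C i * ‖(q : PadicAlgCl q)‖ ^ a ≤ ‖(q : PadicAlgCl q)‖ ^ M := by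
    have h : ∀ i, ∀ᶠ a : ℕ in atTop,
        C i * ‖(q : PadicAlgCl q)‖ ^ a ≤ ‖(q : PadicAlgCl q)‖ ^ M := fun i => by
      have := (tendsto_norm_qpow (q := q)).const_mul (C i)
      rw [mul_zero] at this
      exact this.eventually (eventually_le_nhds (pow_pos norm_q_pos M))
    exact (Filter.eventually_all.2 h).exists
  let Λ : Lat E :=
    { carrier := Φ.range
      le_field := fun x ⟨c, hc⟩ => hc ▸ hΦE c
      le_one := fun x ⟨c, hc⟩ => hc ▸ hΦ1 c
      a := a
      ball := fun x hx hn => by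
        have hb : ∀ i, ‖(q : ℚ_[q]) ^ (-(M : ℤ)) * bV.coord i ⟨x, hx⟩‖ ≤ 1 := fun i => by
          have h1 := hC i ⟨x, hx⟩
          rw [norm_mul, norm_zpow, Padic.norm_p, zpow_neg, inv_zpow, inv_inv, zpow_natCast]
          by_cases hCi : 0 ≤ C i
          · have h2 : ‖bV.coord i ⟨x, hx⟩‖ ≤ ((q : ℝ)⁻¹) ^ M :=
              h1.trans ((mul_le_mul_of_nonneg_left hn hCi).trans (by
                simpa [norm_q] using ha i))
            rw [inv_pow] at h2
            calc (q : ℝ) ^ M * ‖bV.coord i ⟨x, hx⟩‖ ≤ (q : ℝ) ^ M * ((q : ℝ) ^ M)⁻¹ :=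
                  mul_le_mul_of_nonneg_left h2 (by positivity)
              _ = 1 := mul_inv_cancel₀ (pow_ne_zero _ (Nat.cast_ne_zero.2 hq.out.ne_zero))
          · have h0 : ‖bV.coord i ⟨x, hx⟩‖ = 0 :=
              le_antisymm (h1.trans (mul_nonpos_of_nonpos_of_nonneg (le_of_lt (not_le.1 hCi))
                (norm_nonneg _))) (norm_nonneg _)
            rw [h0, mul_zero]; exact zero_le_one
        refine ⟨fun i => ⟨_, hb i⟩, ?_⟩
        conv_rhs => rw [show x = (((⟨x, hx⟩ : V) : V) : PadicAlgCl q) from rfl,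
          ← bV.sum_repr ⟨x, hx⟩]
        rw [Submodule.coe_sum]
        show ∑ i : Fin d, _ = _
        refine Finset.sum_congr rfl fun i _ => ?_
        rw [Submodule.coe_smul, Algebra.smul_def, map_mul, map_zpow₀, map_natCast, mul_assoc,
          mul_left_comm, ← mul_assoc ((q : PadicAlgCl q) ^ (-(M : ℤ))), zpow_neg, zpow_natCast,
          inv_mul_cancel₀ (pow_ne_zero _ q_ne_zero), one_mul]
        rfl }
  have hinj : Function.Injective Φ := (injective_iff_map_eq_zero Φ).2 fun c hc => by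
    have h0 : ∑ i, ((c i : ℚ_[q]) * (q : ℚ_[q]) ^ M) • b i = 0 := Subtype.ext (by
      show Subtype.val _ = (0 : PadicAlgCl q)
      rw [← hc, IntermediateField.coe_sum]
      show _ = ∑ i : Fin d, _
      refine Finset.sum_congr rfl fun i _ => ?_
      rw [IntermediateField.coe_smul, Algebra.smul_def, map_mul, map_pow, map_natCast, mul_assoc])
    funext i
    have := Fintype.linearIndependent_iff.1 b.linearIndependent _ h0 i
    rcases mul_eq_zero.1 this with h | h
    · exact PadicInt.coe_eq_zero.1 h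
    · exact absurd h (pow_ne_zero _ (Nat.cast_ne_zero.2 hq.out.ne_zero))
  have hmul : Function.Injective (AddMonoidHom.mulLeft ((q : PadicAlgCl q) ^ 1)) :=
    mul_right_injective₀ (pow_ne_zero _ q_ne_zero)
  have hsub : ∀ Λ' : Lat E, Λ'.lvl 1 ≤ Λ'.carrier := fun Λ' x hx => by
    have := nsmul_mem (Λ'.mem_lvl.1 hx) q
    rwa [nsmul_eq_mul, pow_one, mul_div_cancel₀ _ q_ne_zero] at this
  have hle : Λ.carrier ≤ (ringLat E).carrier := fun x hx => ⟨Λ.le_field x hx, Λ.le_one x hx⟩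
  have hfin : Λ.carrier.relIndex (ringLat E).carrier ≠ 0 := by
    intro h0
    have := AddSubgroup.relIndex_mul_relIndex _ _ _ (hsub Λ) hle
    rw [h0, mul_zero] at this
    exact Λ.relIndex_ne_zero (fun x hx => hx) 1 this.symm
  refine (relIndex_map_eq_of_injective (AddMonoidHom.mulLeft ((q : PadicAlgCl q) ^ 1)) hmul hle
    (hsub (ringLat E)) (hsub Λ) hfin).trans ?_
  have hr : Λ.carrier.map (AddMonoidHom.mulLeft ((q : PadicAlgCl q) ^ 1))
      = ((nsmulAddMonoidHom q : (Fin d → ℤ_[q]) →+ _).range).map Φ := by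
    show Φ.range.map _ = _
    rw [AddMonoidHom.map_range, AddMonoidHom.map_range]
    congr 1
    ext c
    simp [nsmul_eq_mul]
    rw [← nsmul_eq_mul, ← nsmul_eq_mul, map_nsmul]
  rw [hr]
  show AddSubgroup.relIndex _ Φ.range = _
  rw [AddMonoidHom.range_eq_map Φ, AddSubgroup.relIndex_map_map_of_injective _ _ hinj,
    AddSubgroup.relIndex_top_right]
  let red : (Fin d → ℤ_[q]) →+ (Fin d → ZMod q) :=
    (PadicInt.toZMod (p := q)).toAddMonoidHom.compLeft (Fin d)
  have hker : red.ker = (nsmulAddMonoidHom q : (Fin d → ℤ_[q]) →+ _).range := by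
    ext c
    refine ⟨fun hc => ?_, ?_⟩
    · have hdvd : ∀ i, (q : ℤ_[q]) ∣ c i := fun i => by
        have : c i ∈ RingHom.ker (PadicInt.toZMod (p := q)) := congrFun hc i
        rwa [PadicInt.ker_toZMod, PadicInt.maximalIdeal_eq_span_p, Ideal.mem_span_singleton] at this
      choose e he using hdvd
      exact ⟨e, funext fun i => by simp [he i, nsmul_eq_mul]⟩
    · rintro ⟨e, rfl⟩
      exact funext fun i => by simp [red, nsmul_eq_mul]
  rw [← hker, AddSubgroup.index_ker, AddMonoidHom.range_eq_top.2, AddSubgroup.card_top, Nat.card_fun]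
  · simp
  · intro z
    exact ⟨fun i => ((z i).val : ℤ_[q]), funext fun i => by simp [red]⟩

/-- The units of a field. -/
def unitsOf : AddSubgroup (UM (PadicAlgCl q)) where
  carrier := {m | m.val ∈ E ∧ ‖m.val‖ = 1}
  zero_mem' := ⟨one_mem E, norm_one⟩
  add_mem' {m m'} h h' := ⟨by rw [UM.val_add]; exact mul_mem h.1 h'.1,
    by rw [UM.val_add, norm_mul, h.2, h'.2, one_mul]⟩
  neg_mem' {m} h := ⟨by rw [UM.val_neg]; exact inv_mem h.1, by rw [UM.val_neg, norm_inv, h.2, inv_one]⟩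

theorem mem_unitsOf {m : UM (PadicAlgCl q)} : m ∈ unitsOf E ↔ m.val ∈ E ∧ ‖m.val‖ = 1 := Iff.rfl

variable {E}

theorem unitLvl_le_unitsOf {Λ : Lat E} {k : ℕ} (hk : Λ.a + 1 ≤ k) :
    unitLvl Λ k hk ≤ unitsOf E := fun _ h => ⟨(norm_of_mem_unitLvl h).2, (norm_of_mem_unitLvl h).1⟩

theorem relIndex_unitLvl_ne_zero (Λ : Lat E) {k : ℕ} (hk : Λ.a + 1 ≤ k) :
    (unitLvl Λ k hk).relIndex (unitsOf E) ≠ 0 :=
  relIndex_ne_zero_of_close UM.val (totallyBounded_ball E) (fun a ha => ⟨ha.1, ha.2.le⟩)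
    (pow_pos norm_q_pos (k + Λ.a)) fun a ha b hb h => by
    rw [mem_unitLvl, UM.val_add, UM.val_neg]
    refine Λ.mem_lvl_of_norm (sub_mem (mul_mem (inv_mem ha.1) hb.1) (one_mem E)) ?_
    rw [show (a.val)⁻¹ * b.val - 1 = (a.val)⁻¹ * (b.val - a.val) by
      rw [mul_sub, inv_mul_cancel₀ a.val_ne_zero], norm_mul, norm_inv, ha.2, inv_one, one_mul,
      norm_sub_rev]
    exact h

variable (E)

theorem one_le_ringLat {k : ℕ} (hk : 1 ≤ k) : (ringLat E).a + 1 ≤ k := by simpa [ringLat] using hk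

theorem relIndex_unitLvl_succ {k : ℕ} (hk : 1 ≤ k) :
    (unitLvl (ringLat E) (k + 1) (one_le_ringLat E (Nat.le_succ_of_le hk))).relIndex
      (unitLvl (ringLat E) k (one_le_ringLat E hk)) = q ^ Module.finrank ℚ_[q] E := by
  rw [← ringLat_index E, AddSubgroup.relIndex, AddSubgroup.relIndex]
  let O := (ringLat E).carrier
  let red : unitLvl (ringLat E) k (one_le_ringLat E hk) →+
      O ⧸ ((ringLat E).lvl 1).addSubgroupOf O :=
    AddMonoidHom.mk' (fun u => ((⟨(u.1.val - 1) / (q : PadicAlgCl q) ^ k,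
      (ringLat E).mem_lvl.1 u.2⟩ : O) : _ ⧸ _)) fun u v => by
      rw [← QuotientAddGroup.mk_add, QuotientAddGroup.eq, AddSubgroup.mem_addSubgroupOf,
        mem_ringLat_lvl]
      simp only [AddSubgroup.coe_add, NegMemClass.coe_neg, UM.val_add]
      have hu := (mem_ringLat_lvl E).1 u.2
      have hv := (mem_ringLat_lvl E).1 v.2
      rw [show -((u.1.val * v.1.val - 1) / (q : PadicAlgCl q) ^ k)
          + ((u.1.val - 1) / (q : PadicAlgCl q) ^ k + (v.1.val - 1) / (q : PadicAlgCl q) ^ k)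
          = -((u.1.val - 1) * (v.1.val - 1) / (q : PadicAlgCl q) ^ k) by ring]
      refine ⟨neg_mem (div_mem (mul_mem hu.1 hv.1) (natCast_qpow_mem E k)), ?_⟩
      rw [norm_neg, norm_div, norm_mul, norm_qpow, div_le_iff₀ (pow_pos norm_q_pos k), ← pow_add]
      refine (mul_le_mul hu.2 hv.2 (norm_nonneg _) (pow_nonneg (norm_nonneg _) _)).trans ?_
      rw [← pow_add]
      exact pow_le_pow_of_le_one (norm_nonneg _) norm_q_lt_one.le (by omega)
  have hker : red.ker = (unitLvl (ringLat E) (k + 1) (one_le_ringLat E (Nat.le_succ_of_le hk))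
      ).addSubgroupOf (unitLvl (ringLat E) k (one_le_ringLat E hk)) := by
    ext u
    rw [AddMonoidHom.mem_ker, AddSubgroup.mem_addSubgroupOf, mem_unitLvl]
    show ((⟨_, (ringLat E).mem_lvl.1 u.2⟩ : O) : O ⧸ ((ringLat E).lvl 1).addSubgroupOf O) = 0 ↔ _
    rw [QuotientAddGroup.eq_zero_iff, AddSubgroup.mem_addSubgroupOf]
    show (u.1.val - 1) / (q : PadicAlgCl q) ^ k ∈ (ringLat E).lvl 1 ↔ _
    simp only [Lat.mem_lvl, pow_succ, div_div, pow_zero, one_mul]
  rw [← hker, AddSubgroup.index_ker, AddMonoidHom.range_eq_top.2, AddSubgroup.card_top]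
  · rfl
  · intro z
    obtain ⟨⟨y, hy⟩, rfl⟩ := QuotientAddGroup.mk_surjective z
    have hlt : ‖(q : PadicAlgCl q) ^ k * y‖ < 1 := by
      rw [norm_mul, norm_qpow]
      exact lt_of_le_of_lt (mul_le_of_le_one_right (pow_nonneg (norm_nonneg _) _) hy.2)
        (pow_lt_one₀ (norm_nonneg _) norm_q_lt_one (by omega))
    have hne : 1 + (q : PadicAlgCl q) ^ k * y ≠ 0 := fun h => by
      simpa [h] using norm_one_add hlt
    refine ⟨⟨UM.mk _ hne, ?_⟩, ?_⟩
    · rw [mem_unitLvl, UM.val_mk]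
      rw [add_sub_cancel_left, mem_ringLat_lvl]
      refine ⟨mul_mem (natCast_qpow_mem E k) hy.1, ?_⟩
      rw [norm_mul, norm_qpow]
      exact mul_le_of_le_one_right (pow_nonneg (norm_nonneg _) _) hy.2
    · show ((⟨(1 + (q : PadicAlgCl q) ^ k * y - 1) / (q : PadicAlgCl q) ^ k, _⟩ : O) :
          O ⧸ ((ringLat E).lvl 1).addSubgroupOf O) = _
      refine congrArg _ (Subtype.ext ?_)
      show (1 + (q : PadicAlgCl q) ^ k * y - 1) / _ = y
      rw [add_sub_cancel_left, mul_div_cancel_left₀ _ (pow_ne_zero _ q_ne_zero)]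

theorem pow_estimate {p : ℕ} {u v y : PadicAlgCl q} (hy : v = 1 + y) (hy1 : ‖y‖ ≤ 1) (hv : ‖v‖ = 1)
    (hu : u = 1 + p * y) : ‖u / v ^ p - 1‖ ≤ ‖y‖ ^ 2 := by
  have hv0 : v ≠ 0 := norm_pos_iff.1 (by rw [hv]; exact one_pos)
  rw [show u / v ^ p - 1 = -((1 + y) ^ p - 1 - p * y) / v ^ p by
    rw [div_sub_one (pow_ne_zero _ hv0), hu, hy]; ring, norm_div, norm_pow, hv, one_pow, div_one,
    norm_neg]
  exact norm_pow_expansion hy1 p

theorem unitsOf_pow_index {p : ℕ} [hp : Fact p.Prime] {ζ : PadicAlgCl q} (hζ : IsPrimitiveRoot ζ p)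
    (hζE : ζ ∈ E) :
    ((unitsOf E).map (nsmulAddMonoidHom p)).relIndex (unitsOf E)
      = p * if q = p then p ^ Module.finrank ℚ_[q] E else 1 := by
  classical
  obtain ⟨k, hk2, hkζ⟩ : ∃ k : ℕ, 3 ≤ k ∧ ∀ i ∈ Finset.Ico 1 p,
      ‖(q : PadicAlgCl q)‖ ^ k < ‖ζ ^ i - 1‖ := by
    have h : ∀ i ∈ Finset.Ico 1 p, ∀ᶠ k : ℕ in atTop,
        ‖(q : PadicAlgCl q)‖ ^ k < ‖ζ ^ i - 1‖ := fun i hi => by
      obtain ⟨h1, h2⟩ := Finset.mem_Ico.1 hi
      refine tendsto_norm_qpow.eventually (eventually_lt_nhds (norm_pos_iff.2 (sub_ne_zero.2 ?_)))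
      exact hζ.pow_ne_one_of_pos_of_lt (by omega) h2
    obtain ⟨k, hk⟩ := ((eventually_ge_atTop 3).and
      ((Finset.eventually_all _).2 h)).exists
    exact ⟨k, hk.1, hk.2⟩
  have hk : 1 ≤ k := by omega
  set U := unitsOf E
  set H := unitLvl (ringLat E) k (one_le_ringLat E hk)
  have hHU : H ≤ U := unitLvl_le_unitsOf _
  have hfin : H.relIndex U ≠ 0 := relIndex_unitLvl_ne_zero _ _
  set f : UM (PadicAlgCl q) →+ UM (PadicAlgCl q) := nsmulAddMonoidHom p with hf
  have hfv : ∀ m, (f m).val = m.val ^ p := fun m => UM.val_nsmul p m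
  -- torsion
  have hHk : H ⊓ f.ker = ⊥ := by
    rw [eq_bot_iff]
    rintro m ⟨hm, hmk⟩
    have hmp : m.val ^ p = 1 := by rw [← hfv, AddMonoidHom.mem_ker.1 hmk, UM.val_zero]
    obtain ⟨i, hi, hζi⟩ := hζ.eq_pow_of_pow_eq_one hmp
    refine AddSubgroup.mem_bot.2 (UM.ext ?_)
    rcases Nat.eq_zero_or_pos i with rfl | hpos
    · simpa using hζi.symm
    · have h1 := hkζ i (Finset.mem_Ico.2 ⟨hpos, hi⟩)
      rw [hζi] at h1
      exact absurd ((ringLat E).norm_le_of_mem_lvl hm) (not_le.2 h1)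
  have hUk : (⊥ : AddSubgroup (UM (PadicAlgCl q))).relIndex (U ⊓ f.ker) = p := by
    rw [AddSubgroup.relIndex_bot_left]
    have hζ0 : ζ ≠ 0 := hζ.ne_zero hp.out.ne_zero
    have hmem : ∀ m, m ∈ U ⊓ f.ker ↔ m.val ^ p = 1 := fun m => by
      refine ⟨fun h => by rw [← hfv, AddMonoidHom.mem_ker.1 h.2, UM.val_zero], fun h => ⟨?_, ?_⟩⟩
      · obtain ⟨i, -, hi⟩ := hζ.eq_pow_of_pow_eq_one h
        refine ⟨hi ▸ pow_mem hζE i, ?_⟩
        have := congrArg norm h
        rw [norm_pow, norm_one] at this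
        exact (pow_eq_one_iff_of_nonneg (norm_nonneg _) hp.out.ne_zero).1 this
      · exact UM.ext (by rw [hfv, h, UM.val_zero])
    let e : Fin p → (U ⊓ f.ker : AddSubgroup _) := fun i => ⟨UM.mk (ζ ^ (i : ℕ)) (pow_ne_zero _ hζ0),
      (hmem _).2 (by rw [UM.val_mk, ← pow_mul, mul_comm, pow_mul, hζ.pow_eq_one, one_pow])⟩
    have he : Function.Bijective e := ⟨fun i j h =>
      Fin.ext (hζ.pow_inj i.2 j.2 (congrArg (fun m : ↥(U ⊓ f.ker) => UM.val m.1) h)), fun m => by
      obtain ⟨i, hi, h⟩ := hζ.eq_pow_of_pow_eq_one ((hmem m.1).1 m.2)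
      exact ⟨⟨i, hi⟩, Subtype.ext (UM.ext h)⟩⟩
    rw [← Nat.card_congr (Equiv.ofBijective e he), Nat.card_fin]
  -- the small units
  have hHH : H.map f ≤ H := by
    rintro _ ⟨m, hm, rfl⟩
    exact nsmul_mem hm p
  have hH : (H.map f).relIndex H = if q = p then p ^ Module.finrank ℚ_[q] E else 1 := by
    split_ifs with hqp
    · subst hqp
      have e : H.map f = unitLvl (ringLat E) (k + 1) (one_le_ringLat E (Nat.le_succ_of_le hk)) := by
        refine le_antisymm ?_ ?_
        · rintro _ ⟨m, hm, rfl⟩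
          rw [mem_unitLvl, hfv, mem_ringLat_lvl]
          have hm' := (mem_ringLat_lvl E).1 hm
          set y := m.val - 1 with hy
          have hmy : m.val = 1 + y := by rw [hy]; ring
          refine ⟨sub_mem (pow_mem (by rw [hmy]; exact add_mem (one_mem E) hm'.1) _) (one_mem E), ?_⟩
          rw [hmy, show (1 + y) ^ q - 1 = ((1 + y) ^ q - 1 - q * y) + q * y by ring]
          refine norm_add_le_of_le ((norm_pow_expansion
            (hm'.2.trans (pow_le_one₀ (norm_nonneg _) norm_q_lt_one.le)) q).trans ?_) ?_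
          · refine (pow_le_pow_left₀ (norm_nonneg _) hm'.2 2).trans ?_
            rw [← pow_mul]
            exact pow_le_pow_of_le_one (norm_nonneg _) norm_q_lt_one.le (by omega)
          · rw [norm_mul, pow_succ']
            exact mul_le_mul_of_nonneg_left hm'.2 (norm_nonneg _)
        · refine le_trans (le_inf le_rfl le_top) (unitLvl_le_map (one_le_ringLat E hk) f (· ^ q) hfv
            (fun x _ => (continuous_pow q).continuousAt) ⊤ (k + 1)
            (one_le_ringLat E (Nat.le_succ_of_le hk)) (fun _ _ => trivial) fun j hj u hu _ => ?_)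
          have hu' := (mem_ringLat_lvl E).1 hu
          set y := (u.val - 1) / (q : PadicAlgCl q) with hy
          have hyn : ‖y‖ ≤ ‖(q : PadicAlgCl q)‖ ^ (j - 1) := by
            rw [hy, norm_div, div_le_iff₀ norm_q_pos, ← pow_succ, Nat.sub_add_cancel (by omega)]
            exact hu'.2
          have hylt : ‖y‖ < 1 :=
            lt_of_le_of_lt hyn (pow_lt_one₀ (norm_nonneg _) norm_q_lt_one (by omega))
          have hne : 1 + y ≠ 0 := fun h => by simpa [h] using norm_one_add hylt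
          refine ⟨UM.mk _ hne, ?_, ?_⟩
          · rw [mem_unitLvl, UM.val_mk, add_sub_cancel_left, mem_ringLat_lvl]
            exact ⟨div_mem hu'.1 (natCast_mem E q),
              hyn.trans (pow_le_pow_of_le_one (norm_nonneg _) norm_q_lt_one.le (by omega))⟩
          · have huE : u.val ∈ E := (norm_of_mem_unitLvl hu).2
            rw [mem_unitLvl, mem_ringLat_lvl, UM.val_sub, hfv, UM.val_mk]
            refine ⟨sub_mem (div_mem huE (pow_mem (add_mem (one_mem E)
              (div_mem hu'.1 (natCast_mem E q))) _)) (one_mem E), ?_⟩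
            refine (pow_estimate (p := q) rfl hylt.le (norm_one_add hylt) (by
              rw [hy, mul_div_cancel₀ _ q_ne_zero]; ring)).trans ?_
            refine (pow_le_pow_left₀ (norm_nonneg _) hyn 2).trans ?_
            rw [← pow_mul]
            exact pow_le_pow_of_le_one (norm_nonneg _) norm_q_lt_one.le (by omega)
      rw [e]
      exact relIndex_unitLvl_succ E hk
    · have e : H.map f = H := by
        refine le_antisymm hHH (le_trans (le_inf le_rfl le_top) (unitLvl_le_map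
          (one_le_ringLat E hk) f (· ^ p) hfv (fun x _ => (continuous_pow p).continuousAt) ⊤ k
          (one_le_ringLat E hk) (fun _ _ => trivial) fun j hj u hu _ => ?_))
        have hu' := (mem_ringLat_lvl E).1 hu
        have hp1 : ‖(p : PadicAlgCl q)‖ = 1 := by
          rw [← map_natCast (algebraMap ℚ_[q] (PadicAlgCl q)), norm_algebraMap']
          exact Padic.norm_natCast_eq_one_iff.2 ((Nat.coprime_primes hq.out hp.out).2 hqp)
        have hp0 : (p : PadicAlgCl q) ≠ 0 := norm_pos_iff.1 (by rw [hp1]; exact one_pos)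
        set y := (u.val - 1) / (p : PadicAlgCl q) with hy
        have hyn : ‖y‖ ≤ ‖(q : PadicAlgCl q)‖ ^ j := by
          rw [hy, norm_div, hp1, div_one]; exact hu'.2
        have hylt : ‖y‖ < 1 :=
          lt_of_le_of_lt hyn (pow_lt_one₀ (norm_nonneg _) norm_q_lt_one (by omega))
        have hne : 1 + y ≠ 0 := fun h => by simpa [h] using norm_one_add hylt
        refine ⟨UM.mk _ hne, ?_, ?_⟩
        · rw [mem_unitLvl, UM.val_mk, add_sub_cancel_left, mem_ringLat_lvl]
          exact ⟨div_mem hu'.1 (natCast_mem E p),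
            hyn.trans (pow_le_pow_of_le_one (norm_nonneg _) norm_q_lt_one.le hj)⟩
        · have huE : u.val ∈ E := (norm_of_mem_unitLvl hu).2
          rw [mem_unitLvl, mem_ringLat_lvl, UM.val_sub, hfv, UM.val_mk]
          refine ⟨sub_mem (div_mem huE (pow_mem (add_mem (one_mem E)
            (div_mem hu'.1 (natCast_mem E p))) _)) (one_mem E), ?_⟩
          refine (pow_estimate (p := p) rfl hylt.le (norm_one_add hylt) (by
            rw [hy, mul_div_cancel₀ _ hp0]; ring)).trans ?_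
          refine (pow_le_pow_left₀ (norm_nonneg _) hyn 2).trans ?_
          rw [← pow_mul]
          exact pow_le_pow_of_le_one (norm_nonneg _) norm_q_lt_one.le (by omega)
      rw [e, AddSubgroup.relIndex_self]
  -- the index identity
  have h1 := relIndex_map_ker f hHU
  rw [hHk, hUk] at h1
  have hUU : U.map f ≤ U := by
    rintro _ ⟨m, hm, rfl⟩
    exact nsmul_mem hm p
  have h2 : (H.map f).relIndex U = (H.map f).relIndex (U.map f) * (U.map f).relIndex U :=
    (AddSubgroup.relIndex_mul_relIndex _ _ _ (AddSubgroup.map_mono hHU) hUU).symm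
  have h3 : (H.map f).relIndex U = (H.map f).relIndex H * H.relIndex U :=
    (AddSubgroup.relIndex_mul_relIndex _ _ _ hHH hHU).symm
  rw [h2, hH, ← h1] at h3
  rw [← h1] at hfin
  refine Nat.eq_of_mul_eq_mul_left (Nat.pos_of_ne_zero (left_ne_zero_of_mul hfin)) ?_
  rw [h3]
  ring

end FA.GalCoh
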