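import Fermat.Agent.GalCoh.GlobalPair

/-!
Functoriality of localisation and of unramified classes: equivariant maps, short exact sequences
and connecting maps.
-/

set_option autoImplicit false
set_option linter.unusedSectionVars false

noncomputable section

namespace FA.GalCoh

open Representation

section Res

variable {G : Type} [Group G] {L : Levels G} {G' : Type} [Group G'] {L' : Levels G'}
variable {k : Type} [Field k]
variable {A : Type} [AddCommGroup A] [Module k A]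
variable {B : Type} [AddCommGroup B] [Module k B]
variable {C : Type} [AddCommGroup C] [Module k C]
variable {ρA : Representation k G A} {ρB : Representation k G B} {ρC : Representation k G C}

/-- Restriction of a short exact sequence. -/
def SES.res (E : SES ρA ρB ρC) (f : G' →* G) : SES (ρA.comp f) (ρB.comp f) (ρC.comp f) where
  i := E.i
  q := E.q
  inj := E.inj
  surj := E.surj
  exact := E.exact
  i_equi g a := E.i_equi (f g) a
  q_equi g b := E.q_equi (f g) b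

variable {f : G' →* G} (hf : Compat L L' f) (E : SES ρA ρB ρC)

theorem SES.res_δ1 (hB : Smooth L ρB) (c : H1 L ρC) :
    map2 hf (Equi.res f ρA) (E.δ1 hB c)
      = (E.res f).δ1 (hB.comp hf) (map1 hf (Equi.res f ρC) c) := by
  obtain ⟨c, rfl⟩ := mk1_surjective c
  rw [SES.δ1_mk1, map1_mk1, SES.δ1_mk1, map2_mk2]
  refine congrArg (mk2 L' (ρA.comp f)) (Subtype.ext (funext fun x => ?_))
  refine E.inj ?_
  show E.i (E.δc1 c.1 (f x.1, f x.2))
    = (E.res f).i ((E.res f).δc1 (mapZ1 hf (Equi.res f ρC) c).1 x)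
  rw [congrFun (E.i_δc1 c.2) (f x.1, f x.2),
    congrFun ((E.res f).i_δc1 (mapZ1 hf (Equi.res f ρC) c).2) x]
  show d1 ρB _ (f x.1, f x.2) = d1 (ρB.comp f) _ x
  simp only [d1_apply, ← map_mul]
  rfl

end Res

variable {p : ℕ} [hp : Fact p.Prime]

section Loc

variable {A : Type} [AddCommGroup A] [Module (ZMod p) A]
variable {B : Type} [AddCommGroup B] [Module (ZMod p) B]
variable {q : ℕ} [hq : Fact q.Prime]
variable {ρA : Representation (ZMod p) GQ A} {ρB : Representation (ZMod p) GQ B}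

theorem equi_loc {φ : A →ₗ[ZMod p] B} (hφ : Equi (MonoidHom.id GQ) ρA ρB φ) (q : ℕ)
    [Fact q.Prime] : Equi (MonoidHom.id (LG q)) (ρA.comp (loc q)) (ρB.comp (loc q)) φ :=
  fun τ a => hφ (loc q τ) a

theorem resq1_map {φ : A →ₗ[ZMod p] B} (hφ : Equi (MonoidHom.id GQ) ρA ρB φ) (x : H1 LQ ρA) :
    resq1 q ρB (map1 Compat.id hφ x) = map1 Compat.id (equi_loc hφ q) (resq1 q ρA x) := by
  obtain ⟨f, rfl⟩ := mk1_surjective x
  rfl

theorem resq2_map {φ : A →ₗ[ZMod p] B} (hφ : Equi (MonoidHom.id GQ) ρA ρB φ) (z : H2 LQ ρA) :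
    resq2 q ρB (map2 Compat.id hφ z) = map2 Compat.id (equi_loc hφ q) (resq2 q ρA z) := by
  obtain ⟨f, rfl⟩ := mk2_surjective z
  rfl

variable {σA : Representation (ZMod p) (LG q) A} {σB : Representation (ZMod p) (LG q) B}

theorem map1_mem_unrH1 {φ : A →ₗ[ZMod p] B} (hφ : Equi (MonoidHom.id (LG q)) σA σB φ)
    {y : H1 (LL q) σA} (hy : y ∈ unrH1 σA) : map1 Compat.id hφ y ∈ unrH1 σB := by
  obtain ⟨f, hf, rfl⟩ := hy
  refine ⟨mapZ1 Compat.id hφ f, fun ι hι => ?_, rfl⟩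
  show φ (f.1 ι) = 0
  rw [hf ι hι, map_zero]

theorem mem_unrH1_of_map1 {φ : A →ₗ[ZMod p] B} (hφ : Equi (MonoidHom.id (LG q)) σA σB φ)
    (hinj : Function.Injective φ) (hσ : UnrRep σB) {y : H1 (LL q) σA}
    (hy : map1 Compat.id hφ y ∈ unrH1 σB) : y ∈ unrH1 σA := by
  obtain ⟨f, rfl⟩ := mk1_surjective y
  refine ⟨f, fun ι hι => hinj ?_, rfl⟩
  rw [map_zero]
  exact apply_inertL_eq_zero_of_mem hσ (c := mapZ1 Compat.id hφ f) hy hι

theorem unrRep_of_injective {φ : A →ₗ[ZMod p] B} (hφ : Equi (MonoidHom.id (LG q)) σA σB φ)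
    (hinj : Function.Injective φ) (hσ : UnrRep σB) : UnrRep σA := fun ι hι =>
  LinearMap.ext fun a => hinj (by
    rw [show φ (σA ι a) = σB ι (φ a) from hφ ι a, hσ ι hι]; rfl)

theorem unrRep_of_surjective {φ : A →ₗ[ZMod p] B} (hφ : Equi (MonoidHom.id (LG q)) σA σB φ)
    (hsurj : Function.Surjective φ) (hσ : UnrRep σA) : UnrRep σB := fun ι hι =>
  LinearMap.ext fun b => by
    obtain ⟨a, rfl⟩ := hsurj b
    rw [← show φ (σA ι a) = σB ι (φ a) from hφ ι a, hσ ι hι]; rfl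

/-- Unramified classes lift along surjections. -/
theorem exists_unr_lift {φ : A →ₗ[ZMod p] B} (hφ : Equi (MonoidHom.id (LG q)) σA σB φ)
    (hsurj : Function.Surjective φ) (hσA : UnrRep σA) (hsA : Smooth (LL q) σA)
    (hsB : Smooth (LL q) σB) {y : H1 (LL q) σB} (hy : y ∈ unrH1 σB) :
    ∃ x ∈ unrH1 σA, map1 Compat.id hφ x = y := by
  obtain ⟨f, hf, rfl⟩ := hy
  obtain ⟨n, hn, hA⟩ := UnrRep.exists_period hsA
  obtain ⟨n', hn', hB⟩ := UnrRep.exists_period hsB
  have hAm : σA (frobL q) ^ (n * n') = 1 := by rw [pow_mul, hA, one_pow]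
  have hBm : σB (frobL q) ^ (n * n') = 1 := by rw [mul_comm, pow_mul, hB, one_pow]
  have hm : 0 < n * n' := Nat.mul_pos hn hn'
  have : NeZero (n * n' * p) := ⟨mul_ne_zero hm.ne' hp.out.ne_zero⟩
  obtain ⟨a, ha⟩ := hsurj (f.1 (frobL q))
  set g := powSumZ hσA hsA hAm a with hg
  refine ⟨mk1 (LL q) σA g.1, ⟨g.1, g.2, rfl⟩, ?_⟩
  rw [map1_mk1]
  refine congrArg (mk1 (LL q) σB) (Subtype.ext (funext fun τ => ?_))
  have hg' : mapZ1 Compat.id hφ g.1 ∈ unrZ σB := fun ι hι => by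
    show φ (g.1.1 ι) = 0
    rw [g.2 ι hι, map_zero]
  rw [apply_eq_powSum hg' hBm τ, apply_eq_powSum hf hBm τ]
  show powSum _ (φ (g.1.1 (frobL q))) _ = _
  rw [hg, powSumZ_apply_frobL hσA hsA hm hAm, ha]

end Loc

section Seq

variable {A : Type} [AddCommGroup A] [Module (ZMod p) A]
variable {B : Type} [AddCommGroup B] [Module (ZMod p) B]
variable {C : Type} [AddCommGroup C] [Module (ZMod p) C]
variable {ρA : Representation (ZMod p) GQ A} {ρB : Representation (ZMod p) GQ B}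
  {ρC : Representation (ZMod p) GQ C} (E : SES ρA ρB ρC) (hB : Smooth LQ ρB)

theorem resq1_i1 (q : ℕ) [Fact q.Prime] (x : H1 LQ ρA) :
    resq1 q ρB (E.i1 x) = (E.res (loc q)).i1 (resq1 q ρA x) :=
  resq1_map E.equi_i x

theorem resq1_q1 (q : ℕ) [Fact q.Prime] (x : H1 LQ ρB) :
    resq1 q ρC (E.q1 x) = (E.res (loc q)).q1 (resq1 q ρB x) :=
  resq1_map E.equi_q x

theorem resq2_i2 (q : ℕ) [Fact q.Prime] (z : H2 LQ ρA) :
    resq2 q ρB (E.i2 z) = (E.res (loc q)).i2 (resq2 q ρA z) :=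
  resq2_map E.equi_i z

theorem resq2_q2 (q : ℕ) [Fact q.Prime] (z : H2 LQ ρB) :
    resq2 q ρC (E.q2 z) = (E.res (loc q)).q2 (resq2 q ρB z) :=
  resq2_map E.equi_q z

theorem resq2_δ1 (q : ℕ) [Fact q.Prime] (c : H1 LQ ρC) :
    resq2 q ρA (E.δ1 hB c)
      = (E.res (loc q)).δ1 (hB.comp compat_loc) (resq1 q ρC c) :=
  E.res_δ1 compat_loc hB c

/-- The invariants of the quotient, locally. -/
theorem resq1_δ0 (q : ℕ) [Fact q.Prime] (n : ↥ρC.invariants) :
    resq1 q ρA (E.δ0 hB n)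
      = (E.res (loc q)).δ0 (hB.comp compat_loc) (resInv ρC q n) := by
  rfl

theorem δ0_mem_unrOutside {S : Finset Nat.Primes}
    (hunr : ∀ q : Nat.Primes, q ∉ S → UnrRep (ρB.comp (loc (q : ℕ)))) (n : ↥ρC.invariants) :
    E.δ0 hB n ∈ unrOutside S ρA := by
  refine mem_unrOutside.2 fun q hq => ⟨mapZ1 compat_loc (Equi.res (loc (q : ℕ)) ρA)
    ⟨E.δc0 n.1, E.δc0_mem hB n.2⟩, fun ι hι => ?_, rfl⟩
  show E.δc0 n.1 (loc (q : ℕ) ι) = 0
  rw [SES.δc0_apply, d0_apply, show ρB (loc (q : ℕ) ι) = 1 from hunr q hq ι hι,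
    Module.End.one_apply, sub_self, map_zero]

theorem i1_mem_unrOutside {S : Finset Nat.Primes} {x : H1 LQ ρA} (hx : x ∈ unrOutside S ρA) :
    E.i1 x ∈ unrOutside S ρB :=
  mem_unrOutside.2 fun q hq => by
    rw [resq1_i1]; exact map1_mem_unrH1 _ (mem_unrOutside.1 hx q hq)

theorem q1_mem_unrOutside {S : Finset Nat.Primes} {x : H1 LQ ρB} (hx : x ∈ unrOutside S ρB) :
    E.q1 x ∈ unrOutside S ρC :=
  mem_unrOutside.2 fun q hq => by
    rw [resq1_q1]; exact map1_mem_unrH1 _ (mem_unrOutside.1 hx q hq)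

/-- The connecting map kills unramified classes. -/
theorem δ1_res_eq_zero_of_unr {q : ℕ} [Fact q.Prime] (hunr : UnrRep (ρB.comp (loc q)))
    {y : H1 (LL q) (ρC.comp (loc q))} (hy : y ∈ unrH1 (ρC.comp (loc q))) :
    (E.res (loc q)).δ1 (hB.comp compat_loc) y = 0 := by
  obtain ⟨x, -, rfl⟩ := exists_unr_lift (E.res (loc q)).equi_q E.surj hunr (hB.comp compat_loc)
    ((E.smooth_snd hB).comp compat_loc) hy
  exact (E.res (loc q)).δ1_q1 (hB.comp compat_loc) x

end Seq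

end FA.GalCoh
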