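import Fermat.Agent.GalCoh.Kummer

/-!
Norm subgroups and the line spanned by the symbols, and corestriction of symbols.
-/

set_option autoImplicit false
set_option linter.unusedSectionVars false

noncomputable section

namespace FA.GalCoh

open Representation

section Linear

variable {k : Type} [Field k] {V U : Type} [AddCommGroup V] [Module k V] [AddCommGroup U] [Module k U]

theorem exists_apply_ne_zero_both (f f' : V →ₗ[k] U) (hf : f ≠ 0) (hf' : f' ≠ 0) :
    ∃ v, f v ≠ 0 ∧ f' v ≠ 0 := by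
  obtain ⟨v, hv⟩ := DFunLike.ne_iff.1 hf
  obtain ⟨w, hw⟩ := DFunLike.ne_iff.1 hf'
  rw [LinearMap.zero_apply] at hv hw
  by_cases h1 : f' v = 0
  · by_cases h2 : f w = 0
    · exact ⟨v + w, by rw [map_add, h2, add_zero]; exact hv, by rw [map_add, h1, zero_add]; exact hw⟩
    · exact ⟨w, h2, hw⟩
  · exact ⟨v, hv, h1⟩

/-- A skew pairing with partial maps of rank one takes its values in one line. -/
theorem exists_line (β : V →ₗ[k] V →ₗ[k] U) (hskew : ∀ x y, β y x = -β x y)
    (hrank : ∀ x, x ≠ 0 → ∃ u, u ≠ 0 ∧ LinearMap.range (β x) = Submodule.span k {u})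
    [Nontrivial V] :
    ∃ u, u ≠ 0 ∧ (∀ x y, β x y ∈ Submodule.span k {u}) ∧ ∀ x, x ≠ 0 → ∃ y, β x y ≠ 0 := by
  have hne : ∀ x, x ≠ 0 → β x ≠ 0 := fun x hx h => by
    obtain ⟨u, hu, hr⟩ := hrank x hx
    rw [h, LinearMap.range_zero, eq_comm, Submodule.span_singleton_eq_bot] at hr
    exact hu hr
  obtain ⟨x₀, hx₀⟩ := exists_ne (0 : V)
  obtain ⟨u, hu, hr⟩ := hrank x₀ hx₀
  refine ⟨u, hu, fun x y => ?_, fun x hx => by
    obtain ⟨y, hy⟩ := DFunLike.ne_iff.1 (hne x hx)
    exact ⟨y, hy⟩⟩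
  by_cases hx : x = 0
  · simp [hx]
  obtain ⟨a, ha₀, ha⟩ := exists_apply_ne_zero_both (β x₀) (β x) (hne x₀ hx₀) (hne x hx)
  have ha0 : a ≠ 0 := fun h => ha₀ (by rw [h, map_zero])
  obtain ⟨ua, hua, hra⟩ := hrank a ha0
  have key : ∀ x, x ≠ 0 → β x a ≠ 0 → LinearMap.range (β x) = LinearMap.range (β a) := by
    intro x hx hxa
    obtain ⟨ux, hux, hrx⟩ := hrank x hx
    have h1 : β x a ∈ LinearMap.range (β a) := ⟨-x, by rw [map_neg, hskew a x]⟩
    have h2 : β x a ∈ LinearMap.range (β x) := LinearMap.mem_range_self _ _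
    rw [hra] at h1 ⊢
    rw [hrx] at h2 ⊢
    obtain ⟨c, hc⟩ := Submodule.mem_span_singleton.1 h1
    obtain ⟨d, hd⟩ := Submodule.mem_span_singleton.1 h2
    have hc0 : IsUnit c := isUnit_iff_ne_zero.2 fun h => hxa (by rw [← hc, h, zero_smul])
    have hd0 : IsUnit d := isUnit_iff_ne_zero.2 fun h => hxa (by rw [← hd, h, zero_smul])
    rw [← Submodule.span_singleton_smul_eq hd0 ux, ← Submodule.span_singleton_smul_eq hc0 ua, hc, hd]
  rw [← hr, key x₀ hx₀ ha₀, ← key x hx ha]
  exact LinearMap.mem_range_self _ _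

end Linear

variable {G : Type} [Group G] {L : Levels G} {Ω : Type} [Field Ω] [MulSemiringAction G Ω]
variable {p : ℕ} [hp : Fact p.Prime]

theorem exists_cycData {x : H1 L (triv G p)} (hx : x ≠ 0) :
    ∃ (χ : G → ZMod p) (C : CycData L χ), C.cls = x := by
  obtain ⟨f, rfl⟩ := mk1_surjective x
  have hne : f.1 ≠ 0 := fun h => hx (by rw [show f = 0 from Subtype.ext h, map_zero])
  have hhom : ∀ g h, f.1 (g * h) = f.1 g + f.1 h := fun g h => by
    rw [f.2.2 g h, add_comm]; rfl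
  obtain ⟨g, hg⟩ := Function.ne_iff.1 hne
  have hpow : ∀ n : ℕ, f.1 (g ^ n) = n * f.1 g := fun n => by
    induction n with
    | zero => simpa using Z1.map_one f
    | succ n ih => rw [pow_succ, hhom, ih, Nat.cast_succ]; ring
  refine ⟨f.1, ⟨hhom, f.2.1, g ^ ((f.1 g)⁻¹).val, ?_⟩, rfl⟩
  rw [hpow, ZMod.natCast_zmod_val, inv_mul_cancel₀ hg]

section Nrm

variable {X : Type} [Fintype X] [MulAction G X] (T : Trans L X)

/-- The norm from the stabiliser. -/
def Trans.nrm (a : fixUM T.H Ω) : fixUM G Ω :=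
  ⟨∑ x, T.t x • a.1, fun g => by
    rw [Finset.smul_sum]
    refine (Fintype.sum_equiv (MulAction.toPerm g⁻¹) _ _ fun x => ?_).symm
    show T.t x • a.1 = g • T.t (g⁻¹ • x) • a.1
    rw [← mul_smul, ← T.t_mul_h g x, mul_smul]
    exact congrArg _ (a.2 (T.h g x)).symm⟩

end Nrm

namespace KumData

variable (K : KumData L Ω p) {χ : G → ZMod p} (C : CycData L χ)
include K

/-- The symbol with a fixed character, as a function of the Kummer argument. -/
def symbHom : fixUM G Ω →+ H2 L (triv G p) :=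
  AddMonoidHom.mk' (fun a => symb (K.kum a) C.cls) fun a b => by
    rw [map_add, map_add, LinearMap.add_apply]

/-- The norms from the cyclic extension. -/
def norms : AddSubgroup (fixUM G Ω) := (K.symbHom C).ker

theorem mem_norms (a : fixUM G Ω) : a ∈ K.norms C ↔
    ∃ x : UM Ω, (∀ n, χ n = 0 → n • x = x) ∧ a.1 = ∑ i ∈ Finset.range p, C.σ ^ i • x := by
  rw [← K.symb_eq_zero_iff C a]; rfl

theorem range_symb_cls (h : (K.norms C).index = p) :
    ∃ u : H2 L (triv G p), u ≠ 0 ∧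
      LinearMap.range (symb (L := L) C.cls) = Submodule.span (ZMod p) {u} := by
  classical
  have hex : ∃ a, a ∉ K.norms C := by
    by_contra! hall
    rw [AddSubgroup.eq_top_iff' (K.norms C) |>.2 hall, AddSubgroup.index_top] at h
    exact hp.out.one_lt.ne h
  obtain ⟨a, ha⟩ := hex
  have hcard : Nat.card (fixUM G Ω ⧸ K.norms C) = p := h
  have hgen : ∀ b : fixUM G Ω, ∃ n : ℤ, b - n • a ∈ K.norms C := fun b => by
    have hq : ((a : fixUM G Ω) : fixUM G Ω ⧸ K.norms C) ≠ 0 := fun h' =>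
      ha ((QuotientAddGroup.eq_zero_iff a).1 h')
    obtain ⟨n, hn⟩ := AddSubgroup.mem_zmultiples_iff.1
      (mem_zmultiples_of_prime_card hcard hq (g' := (b : fixUM G Ω ⧸ K.norms C)))
    refine ⟨n, (QuotientAddGroup.eq_zero_iff _).1 ?_⟩
    rw [QuotientAddGroup.mk_sub, QuotientAddGroup.mk_zsmul, hn, sub_self]
  refine ⟨symb C.cls (K.kum a), fun h0 => ha ?_, le_antisymm ?_
    ((Submodule.span_singleton_le_iff_mem _ _).2 ⟨K.kum a, rfl⟩)⟩
  · show K.symbHom C a = 0
    show symb (K.kum a) C.cls = 0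
    rw [symb_comm, h0, neg_zero]
  · rintro _ ⟨y, rfl⟩
    obtain ⟨b, rfl⟩ := K.kum_surjective y
    obtain ⟨n, hn⟩ := hgen b
    have h0 : symb (K.kum (b - n • a)) C.cls = 0 := hn
    rw [symb_comm, neg_eq_zero, map_sub, map_sub, sub_eq_zero, map_zsmul, map_zsmul] at h0
    rw [h0]
    exact zsmul_mem (Submodule.mem_span_singleton_self _) n

/-- The symbols fill one line and the pairing is nondegenerate. -/
theorem exists_symb_line (hnorm : ∀ (χ : G → ZMod p) (C : CycData L χ), (K.norms C).index = p)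
    [Nontrivial (H1 L (triv G p))] :
    ∃ u : H2 L (triv G p), u ≠ 0 ∧ (∀ x y, symb x y ∈ Submodule.span (ZMod p) {u}) ∧
      ∀ x : H1 L (triv G p), x ≠ 0 → ∃ y, symb x y ≠ 0 :=
  exists_line (symb (L := L) (p := p)) symb_comm fun x hx => by
    obtain ⟨χ, C, rfl⟩ := exists_cycData hx
    exact K.range_symb_cls C (hnorm χ C)

variable {X : Type} [Fintype X] [MulAction G X] (T : Trans L X)

/-- The data restricted to the stabiliser. -/
def sub : KumData (L.sub T.H) Ω p where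
  gal := K.gal.sub T.H
  ζ := K.ζ
  prim := K.prim
  fixζ g := K.fixζ g.1
  root := K.root

/-- Corestriction of a Kummer class is the Kummer class of the norm. -/
theorem cor1_kum (a : fixUM T.H Ω) :
    T.cor1 (triv G p) ((K.sub T).kum a) = K.kum (T.nrm a) := by
  have hsh : (K.sub T).kum a = T.sh1 (triv T.H p)
      (mk1 L (T.coind (triv T.H p)) ⟨_, T.ci1_mem ((K.sub T).kc_mem a)⟩) :=
    congrArg (mk1 (L.sub T.H) (triv T.H p)) (Subtype.ext (funext fun s =>
      (T.ev_ci1 (k := ZMod p) _ s).symm))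
  rw [hsh]
  refine (T.cor1_sh1 (triv G p) _).trans ?_
  refine congrArg (mk1 L (triv G p)) (Subtype.ext (funext fun g => K.eps_injective ?_))
  show K.eps (T.aug (triv G p) (T.ci1 ((K.sub T).kc a) g)) = K.eps (K.kc (T.nrm a) g)
  rw [T.aug_apply, map_sum]
  have hA := (K.sub T).nsmul_kroot a.1
  set A := (K.sub T).kroot a.1
  rw [K.eps_kc (T.nrm a) (A := ∑ x, T.t x • A) (by
    show p • ∑ x, T.t x • A = ∑ x, T.t x • a.1
    rw [Finset.smul_sum]
    exact Finset.sum_congr rfl fun x _ => by rw [smul_comm, hA])]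
  have hterm : ∀ x, K.eps (triv G p (T.t x) (T.ci1 ((K.sub T).kc a) g x))
      = g • T.t (g⁻¹ • x) • A - T.t x • A := fun x => by
    have h1 : K.eps ((K.sub T).kc a (T.h g x)) = (T.h g x : G) • A - A :=
      (K.sub T).eps_kc a hA (T.h g x)
    show K.eps ((K.sub T).kc a (T.h g x)) = _
    rw [← K.smul_eps (T.t x), h1, smul_sub, ← mul_smul, T.t_mul_h, mul_smul]
  rw [Finset.sum_congr rfl fun x _ => hterm x, Finset.sum_sub_distrib, Finset.smul_sum]
  congr 1
  exact Fintype.sum_equiv (MulAction.toPerm g⁻¹) _ _ fun x => rfl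

end KumData

variable {X : Type} [Fintype X] [MulAction G X] (T : Trans L X)

/-- The restriction of classes to the stabiliser. -/
abbrev Trans.res1 : H1 L (triv G p) →ₗ[ZMod p] H1 (L.sub T.H) (triv T.H p) :=
  map1 (L.sub_compat T.H) (Equi.res T.H.subtype (triv G p))

/-- The projection formula. -/
theorem Trans.cor2_symb (b : H1 L (triv G p)) (y : H1 (L.sub T.H) (triv T.H p)) :
    T.cor2 (triv G p) (symb (T.res1 b) y) = symb b (T.cor1 (triv G p) y) := by
  obtain ⟨b, rfl⟩ := mk1_surjective b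
  obtain ⟨y, rfl⟩ := T.sh1_surjective y
  obtain ⟨y, rfl⟩ := mk1_surjective y
  have hdia : T.res1 (mk1 L (triv G p) b)
      = T.sh1 (triv T.H p) (map1 Compat.id (T.equi_dia (triv G p)) (mk1 L (triv G p) b)) :=
    congrArg (mk1 (L.sub T.H) (triv T.H p)) (Subtype.ext (funext fun s => rfl))
  rw [hdia, symb, ← T.sh2_cup bil_triv smooth_triv]
  refine (T.cor2_sh2 (triv G p) _).trans ?_
  refine Eq.trans ?_ (congrArg (symb _) (T.cor1_sh1 (triv G p) _).symm)
  refine congrArg (mk2 L (triv G p)) (Subtype.ext (funext fun z => ?_))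
  show T.aug (triv G p) (fun x => b.1 z.1 * y.1 (z.2) (z.1⁻¹ • x))
    = b.1 z.1 * T.aug (triv G p) (y.1 z.2)
  rw [T.aug_apply, T.aug_apply, Finset.mul_sum]
  exact Fintype.sum_equiv (MulAction.toPerm z.1⁻¹) _ _ fun x => rfl

end FA.GalCoh
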