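import Fermat.Agent.GalCoh.LocalIndex
import Fermat.Agent.GalCoh.KummerBasis
import Fermat.Agent.GalCoh.Symbols

/-!
The first cohomology of a local field containing the roots of unity and the index of the norms from
a cyclic extension of prime degree.
-/

set_option autoImplicit false
set_option linter.unusedSectionVars false

noncomputable section

namespace FA.GalCoh

open Filter Topology

variable {q : ℕ} [hq : Fact q.Prime] {p : ℕ} [hp : Fact p.Prime]

/-- The local Galois group. -/
abbrev LG (q : ℕ) [Fact q.Prime] : Type := PadicAlgCl q ≃ₐ[ℚ_[q]] PadicAlgCl q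

/-- Its levels. -/
abbrev LL (q : ℕ) [Fact q.Prime] : Levels (LG q) := fieldLevels ℚ_[q] (PadicAlgCl q)

section Generic

variable {M : Type} [AddCommGroup M]

theorem eq_zero_of_zsmul_mem {U : AddSubgroup M} {x : M} (hfree : ∀ n : ℤ, n • x ∈ U → n = 0)
    {n : ℤ} {u : M} (hu : u ∈ U) {v : M} (hv : v ∈ U) (h : n • x + u = v) : n = 0 :=
  hfree n (by rw [eq_sub_of_add_eq h]; exact sub_mem hv hu)

/-- The index of a subgroup cut along a free generator. -/
theorem relIndex_sup_zmultiples {U B : AddSubgroup M} (hBU : B ≤ U) {x y u₀ : M}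
    (hfree : ∀ n : ℤ, n • x ∈ U → n = 0) (hu₀ : u₀ ∈ U) {d : ℤ} (hd : d ≠ 0)
    (hy : y = d • x + u₀) :
    (B ⊔ AddSubgroup.zmultiples y).relIndex (U ⊔ AddSubgroup.zmultiples x)
      = d.natAbs * B.relIndex U := by
  have hy' : U ⊔ AddSubgroup.zmultiples y = U ⊔ AddSubgroup.zmultiples (d • x) := by
    refine le_antisymm (sup_le le_sup_left ?_) (sup_le le_sup_left ?_)
    · rw [AddSubgroup.zmultiples_le, hy]
      exact add_mem (AddSubgroup.mem_sup_right (AddSubgroup.mem_zmultiples _))
        (AddSubgroup.mem_sup_left hu₀)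
    · rw [AddSubgroup.zmultiples_le, show d • x = y - u₀ by rw [hy, add_sub_cancel_right]]
      exact sub_mem (AddSubgroup.mem_sup_right (AddSubgroup.mem_zmultiples _))
        (AddSubgroup.mem_sup_left hu₀)
  have h1 : B ⊔ AddSubgroup.zmultiples y ≤ U ⊔ AddSubgroup.zmultiples y := sup_le_sup_right hBU _
  have hdx : AddSubgroup.zmultiples (d • x) ≤ AddSubgroup.zmultiples x :=
    AddSubgroup.zmultiples_le.2 (AddSubgroup.zsmul_mem_zmultiples x d)
  have h2 : U ⊔ AddSubgroup.zmultiples y ≤ U ⊔ AddSubgroup.zmultiples x :=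
    hy'.le.trans (sup_le_sup_left hdx _)
  rw [← AddSubgroup.relIndex_mul_relIndex _ _ _ h1 h2, mul_comm]
  congr 1
  · rw [hy', show U ⊔ AddSubgroup.zmultiples x
        = AddSubgroup.zmultiples x ⊔ (U ⊔ AddSubgroup.zmultiples (d • x)) by
      rw [sup_comm U (AddSubgroup.zmultiples (d • x)), ← sup_assoc, sup_eq_left.2 hdx, sup_comm],
      AddSubgroup.relIndex_sup_right, ← AddSubgroup.inf_relIndex_right]
    have hi : (U ⊔ AddSubgroup.zmultiples (d • x)) ⊓ AddSubgroup.zmultiples x
        = AddSubgroup.zmultiples (d • x) := by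
      refine le_antisymm ?_ (le_inf le_sup_right hdx)
      rintro _ ⟨hz, n, rfl⟩
      obtain ⟨u, hu, _, ⟨m, rfl⟩, h⟩ := AddSubgroup.mem_sup.1 hz
      have hn : n - m * d = 0 := hfree _ (by
        have : (n - m * d) • x = u := by
          rw [sub_smul, mul_smul, sub_eq_iff_eq_add]
          exact h.symm
        rwa [this])
      refine ⟨m, ?_⟩
      show m • d • x = n • x
      rw [← mul_smul, sub_eq_zero.1 hn]
    rw [hi]
    have hinj : Function.Injective (zmultiplesHom M x) :=
      (injective_iff_map_eq_zero _).2 fun n hn => hfree n (by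
        have : n • x = 0 := hn
        rw [this]; exact zero_mem U)
    have e1 : AddSubgroup.zmultiples (d • x)
        = (AddSubgroup.zmultiples d).map (zmultiplesHom M x) := by
      rw [AddMonoidHom.map_zmultiples]; rfl
    have e2 : AddSubgroup.zmultiples x = (⊤ : AddSubgroup ℤ).map (zmultiplesHom M x) := by
      rw [← AddMonoidHom.range_eq_map, AddSubgroup.range_zmultiplesHom]
    rw [e1, e2, AddSubgroup.relIndex_map_map_of_injective _ _ hinj, AddSubgroup.relIndex_top_right,
      Int.index_zmultiples]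
  · rw [show U ⊔ AddSubgroup.zmultiples y = U ⊔ (B ⊔ AddSubgroup.zmultiples y) by
      rw [← sup_assoc, sup_eq_left.2 hBU], AddSubgroup.relIndex_sup_right,
      ← AddSubgroup.inf_relIndex_right]
    congr 1
    refine le_antisymm ?_ (le_inf le_sup_left hBU)
    rintro _ ⟨hz, hzU⟩
    obtain ⟨b, hb, _, ⟨m, rfl⟩, rfl⟩ := AddSubgroup.mem_sup.1 hz
    have hm : m * d = 0 := eq_zero_of_zsmul_mem hfree
      (add_mem (hBU hb) (zsmul_mem hu₀ m)) hzU (by
        show (m * d) • x + (b + m • u₀) = b + m • y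
        rw [hy, smul_add, mul_smul]; abel)
    rcases mul_eq_zero.1 hm with h | h
    · simpa [h] using hb
    · exact absurd h hd

end Generic

section Field

variable (E : IntermediateField ℚ_[q] (PadicAlgCl q))

/-- The nonzero elements of a field. -/
def fieldUM : AddSubgroup (UM (PadicAlgCl q)) where
  carrier := {m | m.val ∈ E}
  zero_mem' := one_mem E
  add_mem' {m m'} h h' := by
    show (m + m').val ∈ E
    rw [UM.val_add]; exact mul_mem h h'
  neg_mem' {m} h := by
    show (-m).val ∈ E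
    rw [UM.val_neg]; exact inv_mem h

theorem mem_fieldUM {m : UM (PadicAlgCl q)} : m ∈ fieldUM E ↔ m.val ∈ E := Iff.rfl

theorem UM.norm_zsmul (n : ℤ) (m : UM (PadicAlgCl q)) : ‖(n • m).val‖ = ‖m.val‖ ^ n := by
  rcases Int.eq_nat_or_neg n with ⟨k, rfl | rfl⟩
  · rw [natCast_zsmul, UM.val_nsmul, norm_pow, zpow_natCast]
  · rw [neg_zsmul, natCast_zsmul, UM.val_neg, norm_inv, UM.val_nsmul, norm_pow, zpow_neg,
      zpow_natCast]

variable [FiniteDimensional ℚ_[q] E]

/-- A uniformiser, as an element of the multiplicative module. -/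
theorem exists_unifUM : ∃ π ∈ fieldUM E, 0 < ‖π.val‖ ∧ ‖π.val‖ < 1 ∧
    fieldUM E = unitsOf E ⊔ AddSubgroup.zmultiples π := by
  obtain ⟨π, hπ, h0, h1, hall⟩ := exists_uniformizer E
  have hπ0 : π ≠ 0 := norm_pos_iff.1 h0
  refine ⟨UM.mk π hπ0, hπ, h0, h1, le_antisymm (fun m hm => ?_) (sup_le (fun m hm => hm.1) ?_)⟩
  · obtain ⟨n, hn⟩ := hall _ hm m.val_ne_zero
    refine AddSubgroup.mem_sup.2 ⟨m - n • UM.mk π hπ0, ⟨sub_mem hm (zsmul_mem (show UM.mk π hπ0 ∈ fieldUM E from hπ) n), ?_⟩,
      _, ⟨n, rfl⟩, sub_add_cancel _ _⟩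
    rw [UM.val_sub, norm_div, UM.norm_zsmul, UM.val_mk, hn,
      div_self (zpow_ne_zero _ h0.ne')]
  · rw [AddSubgroup.zmultiples_le]; exact hπ

theorem free_of_norm {π : UM (PadicAlgCl q)} (h0 : 0 < ‖π.val‖) (h1 : ‖π.val‖ < 1) (n : ℤ)
    (hn : n • π ∈ unitsOf E) : n = 0 := by
  have := hn.2
  rwa [UM.norm_zsmul, zpow_eq_one_iff_right₀ h0.le h1.ne] at this

theorem fieldUM_pow_index {ζ : PadicAlgCl q} (hζ : IsPrimitiveRoot ζ p) (hζE : ζ ∈ E) :
    ((fieldUM E).map (nsmulAddMonoidHom p)).relIndex (fieldUM E)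
      = p ^ (2 + if q = p then Module.finrank ℚ_[q] E else 0) := by
  obtain ⟨π, hπ, h0, h1, hF⟩ := exists_unifUM E
  rw [hF, AddSubgroup.map_sup, AddMonoidHom.map_zmultiples,
    relIndex_sup_zmultiples (U := unitsOf E) ?_ (free_of_norm E h0 h1) (zero_mem _)
      (d := p) (Nat.cast_ne_zero.2 hp.out.ne_zero) (by simp), unitsOf_pow_index E hζ hζE,
    Int.natAbs_natCast]
  · split_ifs <;> ring
  · rintro _ ⟨m, hm, rfl⟩
    exact nsmul_mem hm p

end Field

variable {H : Subgroup (LG q)} (hH : H ∈ (LL q).carrier)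

theorem fixUM_eq : fixUM H (PadicAlgCl q) = fieldUM (IntermediateField.fixedField H) := by
  ext m
  rw [mem_fieldUM, IntermediateField.mem_fixedField_iff]
  exact ⟨fun h g hg => congrArg UM.val (h ⟨g, hg⟩), fun h g => UM.ext (h g.1 g.2)⟩

variable (K : KumData ((LL q).sub H) (PadicAlgCl q) p)

include hH K in
/-- The first cohomology of a local field has the expected order. -/
theorem natCard_H1 :
    Nat.card (H1 ((LL q).sub H) (triv H p))
      = p ^ (2 + if q = p then Module.finrank ℚ_[q] (IntermediateField.fixedField H) else 0) := by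
  have := finiteDimensional_fixedField hH
  have hζE : K.ζ ∈ IntermediateField.fixedField H :=
    (IntermediateField.mem_fixedField_iff _ _).2 fun g hg => K.fixζ ⟨g, hg⟩
  rw [← fieldUM_pow_index _ K.prim hζE, ← fixUM_eq]
  have hker : K.kum.ker = ((fixUM H (PadicAlgCl q)).map (nsmulAddMonoidHom p)).addSubgroupOf
      (fixUM H (PadicAlgCl q)) := by
    ext a
    rw [AddMonoidHom.mem_ker, K.kum_eq_zero_iff, AddSubgroup.mem_addSubgroupOf]
    exact ⟨fun ⟨b, hb⟩ => ⟨b.1, b.2, congrArg Subtype.val hb⟩,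
      fun ⟨b, hb, h⟩ => ⟨⟨b, hb⟩, Subtype.ext h⟩⟩
  rw [AddSubgroup.relIndex, ← hker, AddSubgroup.index_ker,
    AddMonoidHom.range_eq_top.2 K.kum_surjective, AddSubgroup.card_top]

variable {χ : H → ZMod p} (C : CycData ((LL q).sub H) χ)

/-- The kernel of a character as a subgroup of the local group. -/
def kerSub : Subgroup (LG q) := C.ker.map H.subtype

include hH in
theorem kerSub_mem : kerSub C ∈ (LL q).carrier := by
  obtain ⟨_, ⟨N, hN, rfl⟩, h⟩ := C.lc
  obtain ⟨F, hF, hle⟩ := (LL q).inf_mem hN hH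
  refine ⟨F, hF, fun g hg => ⟨⟨g, (hle hg).2⟩, ?_, rfl⟩⟩
  show χ _ = 0
  have := h 1 ⟨g, (hle hg).2⟩ (hle hg).1
  rwa [one_mul, C.map_one] at this

theorem mem_fixedField_kerSub {x : PadicAlgCl q} :
    x ∈ IntermediateField.fixedField (kerSub C) ↔ x ∈ C.upper (PadicAlgCl q) := by
  rw [IntermediateField.mem_fixedField_iff]
  exact ⟨fun h n hn => h n.1 ⟨n, hn, rfl⟩, by rintro h _ ⟨n, hn, rfl⟩; exact h n hn⟩

theorem fixedField_le_kerSub :
    IntermediateField.fixedField H ≤ IntermediateField.fixedField (kerSub C) :=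
  IntermediateField.fixedField_antitone (Subgroup.map_subtype_le _)

/-- The difference map. -/
def deltaHom : UM (PadicAlgCl q) →+ UM (PadicAlgCl q) :=
  DistribSMul.toAddMonoidHom _ C.σ - AddMonoidHom.id _

theorem deltaHom_apply (m : UM (PadicAlgCl q)) : deltaHom C m = C.σ • m - m := rfl

/-- The norm map. -/
def normHom : UM (PadicAlgCl q) →+ UM (PadicAlgCl q) :=
  ∑ i ∈ Finset.range p, DistribSMul.toAddMonoidHom _ (C.σ ^ i)

theorem normHom_apply (m : UM (PadicAlgCl q)) :
    normHom C m = ∑ i ∈ Finset.range p, C.σ ^ i • m := by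
  simp [normHom]

theorem norm_smulH (g : H) (x : PadicAlgCl q) : ‖g • x‖ = ‖x‖ := norm_smul_eq (g : LG q) x

theorem continuous_smulH (g : H) : Continuous fun x : PadicAlgCl q => g • x :=
  continuous_algEquiv (g : LG q)

theorem smul_natCast' {G : Type} [Group G] {Ω : Type} [Field Ω] [MulSemiringAction G Ω]
    (g : G) (n : ℕ) : g • (n : Ω) = n :=
  map_natCast (MulSemiringAction.toRingHom G Ω g) n

theorem norm_prod_expansion {ι : Type} (s : Finset ι) (y : ι → PadicAlgCl q) {c : ℝ} (hc : c ≤ 1)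
    (hc0 : 0 ≤ c) (hy : ∀ i ∈ s, ‖y i‖ ≤ c) :
    ‖∏ i ∈ s, (1 + y i) - 1 - ∑ i ∈ s, y i‖ ≤ c ^ 2 := by
  classical
  induction s using Finset.induction_on with
  | empty => simp [sq_nonneg]
  | @insert i s hi ih =>
    have ih := ih fun j hj => hy j (Finset.mem_insert_of_mem hj)
    have hyi := hy i (Finset.mem_insert_self i s)
    have e : ∏ j ∈ insert i s, (1 + y j) - 1 - ∑ j ∈ insert i s, y j
        = (∏ j ∈ s, (1 + y j) - 1 - ∑ j ∈ s, y j) * (1 + y i) + y i * ∑ j ∈ s, y j := by
      rw [Finset.prod_insert hi, Finset.sum_insert hi]; ring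
    rw [e]
    refine norm_add_le_of_le ?_ ?_
    · rw [norm_mul]
      exact (mul_le_of_le_one_right (norm_nonneg _)
        (norm_add_le_of_le norm_one.le (hyi.trans hc))).trans ih
    · rw [norm_mul, sq]
      exact mul_le_mul hyi (IsUltrametricDist.norm_sum_le_of_forall_le_of_nonneg hc0
        fun j hj => hy j (Finset.mem_insert_of_mem hj)) (norm_nonneg _) hc0

include hH K in
/-- A lattice of the cyclic extension, free over the group ring, gives a group of units whose two
cohomology groups vanish. -/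
theorem exists_free_units :
    ∃ B ≤ unitsOf (IntermediateField.fixedField (kerSub C)),
      B.relIndex (unitsOf (IntermediateField.fixedField (kerSub C))) ≠ 0 ∧
      B.map (deltaHom C) = B ⊓ (normHom C).ker ∧ B.map (normHom C) = B ⊓ (deltaHom C).ker := by
  classical
  have := finiteDimensional_fixedField hH
  have := finiteDimensional_fixedField (kerSub_mem hH C)
  set F := IntermediateField.fixedField H with hFdef
  set E := IntermediateField.fixedField (kerSub C) with hEdef
  have hFE : F ≤ E := fixedField_le_kerSub C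
  obtain ⟨A, hA⟩ := K.exists_kummer_gen C
  have hpΩ : (p : PadicAlgCl q) ≠ 0 := Nat.cast_ne_zero.2 hp.out.ne_zero
  -- scaling
  obtain ⟨s, hs⟩ : ∃ s : ℕ, ∀ i : ZMod p,
      ‖(q : PadicAlgCl q) ^ s * C.T i (kTheta p A)‖ ≤ 1 := by
    choose m hm using fun i : ZMod p => exists_unit_scale (q := q) (C.T i (kTheta p A))
    refine ⟨Finset.univ.sup m, fun i => le_trans ?_ (hm i)⟩
    rw [norm_mul, norm_mul, norm_qpow, norm_qpow]
    exact mul_le_mul_of_nonneg_right (pow_le_pow_of_le_one (norm_nonneg _) norm_q_lt_one.le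
      (Finset.le_sup (Finset.mem_univ i))) (norm_nonneg _)
  set c₀ := (q : PadicAlgCl q) ^ s with hc₀
  have hc₀0 : c₀ ≠ 0 := pow_ne_zero _ q_ne_zero
  have hc₀F : c₀ ∈ F := natCast_qpow_mem F s
  have hfixF : ∀ {x : PadicAlgCl q}, x ∈ F → ∀ g : H, g • x = x := fun hx g =>
    (IntermediateField.mem_fixedField_iff _ _).1 hx g.1 g.2
  have hupper : ∀ {x : PadicAlgCl q}, x ∈ E → x ∈ C.upper (PadicAlgCl q) := fun hx =>
    (mem_fixedField_kerSub C).1 hx
  -- coefficients
  set cf : ZMod p → PadicAlgCl q → PadicAlgCl q := fun i x => K.coef C A i x / c₀ with hcf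
  have hcfF : ∀ {x : PadicAlgCl q}, x ∈ E → ∀ i, cf i x ∈ F := fun hx i => by
    refine div_mem ?_ hc₀F
    rw [hFdef, IntermediateField.mem_fixedField_iff]
    exact fun g hg => K.coef_smul C A hA (hupper hx) ⟨g, hg⟩ i
  have hrec : ∀ x, ∑ i, cf i x * (c₀ * C.T i (kTheta p A)) = x := fun x => by
    conv_rhs => rw [← K.sum_coef C A hA hpΩ x]
    exact Finset.sum_congr rfl fun i _ => by simp only [cf]; field_simp
  have hcomb : ∀ d : ZMod p → PadicAlgCl q, (∀ i, d i ∈ F) → ∀ k,
      cf k (∑ i, d i * (c₀ * C.T i (kTheta p A))) = d k := fun d hd k => by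
    simp only [cf]
    rw [show (∑ i, d i * (c₀ * C.T i (kTheta p A))) = ∑ i, (d i * c₀) * C.T i (kTheta p A) from
        Finset.sum_congr rfl fun i _ => by ring,
      K.coef_sum C A hA hpΩ _ (fun g i => hfixF (mul_mem (hd i) hc₀F) g),
      mul_div_assoc, div_self hc₀0, mul_one]
  have hθE : ∀ i, C.T i (kTheta p A) ∈ E := fun i =>
    (mem_fixedField_kerSub C).2 (C.T_mem_upper (K.theta_mem C A hA) i)
  -- bound on coefficients
  obtain ⟨R, hR⟩ : ∃ R : ℝ, ∀ i, ∀ x, ‖cf i x‖ ≤ R * ‖x‖ := by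
    refine ⟨‖(p : PadicAlgCl q)⁻¹‖ * (‖(p : PadicAlgCl q)⁻¹‖ *
      ∑ j : ZMod p, ‖(A ^ j.val)⁻¹‖) / ‖c₀‖, fun i x => ?_⟩
    have hψ : ∀ j, ‖K.ψ j‖ = 1 := fun j => by
      have hz : ‖K.ζ‖ = 1 := by
        have := congrArg norm K.prim.pow_eq_one
        rw [norm_pow, norm_one] at this
        exact (pow_eq_one_iff_of_nonneg (norm_nonneg _) hp.out.ne_zero).1 this
      rw [KumData.ψ, norm_pow, hz, one_pow]
    simp only [cf]
    rw [norm_div, div_mul_eq_mul_div, KumData.coef, norm_mul]
    refine div_le_div_of_nonneg_right ?_ (norm_nonneg _)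
    rw [mul_assoc]
    refine mul_le_mul_of_nonneg_left ?_ (norm_nonneg _)
    refine IsUltrametricDist.norm_sum_le_of_forall_le_of_nonneg (by positivity) fun j _ => ?_
    rw [norm_mul, hψ, one_mul, KumData.eigen, norm_mul, mul_assoc]
    refine mul_le_mul_of_nonneg_left ?_ (norm_nonneg _)
    refine IsUltrametricDist.norm_sum_le_of_forall_le_of_nonneg (by positivity) fun l _ => ?_
    rw [norm_mul, norm_mul, hψ, one_mul, CycData.T, norm_smulH, mul_comm]
    exact mul_le_mul_of_nonneg_right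
      (Finset.single_le_sum (f := fun j : ZMod p => ‖(A ^ j.val)⁻¹‖) (fun j _ => norm_nonneg _)
        (Finset.mem_univ j)) (norm_nonneg _)
  have hR0 : 0 ≤ R := by
    have := (norm_nonneg _).trans (hR 0 1)
    rwa [norm_one, mul_one] at this
  obtain ⟨a, ha⟩ : ∃ a : ℕ, R * ‖(q : PadicAlgCl q)‖ ^ a ≤ 1 := by
    have := (tendsto_norm_qpow (q := q)).const_mul R
    rw [mul_zero] at this
    exact (this.eventually (eventually_le_nhds zero_lt_one)).exists
  have hcf_add : ∀ i x y, cf i (x + y) = cf i x + cf i y := fun i x y => by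
    simp only [cf, K.coef_add, add_div]
  have hcf_zero : ∀ i, cf i 0 = 0 := fun i => by
    have := hcf_add i 0 0
    rw [add_zero] at this
    exact add_eq_left.1 this.symm
  let Λ : Lat E :=
    { carrier :=
        { carrier := {x | x ∈ E ∧ ∀ i, ‖cf i x‖ ≤ 1}
          zero_mem' := ⟨zero_mem E, fun i => by rw [hcf_zero, norm_zero]; exact zero_le_one⟩
          add_mem' := fun h h' => ⟨add_mem h.1 h'.1, fun i => by
            rw [hcf_add]; exact norm_add_le_of_le (h.2 i) (h'.2 i)⟩
          neg_mem' := fun {x} h => ⟨neg_mem h.1, fun i => by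
            have := hcf_add i x (-x)
            rw [add_neg_cancel, hcf_zero] at this
            rw [eq_neg_of_add_eq_zero_right this.symm, norm_neg]
            exact h.2 i⟩ }
      le_field := fun x h => h.1
      le_one := fun x h => by
        rw [← hrec x]
        refine IsUltrametricDist.norm_sum_le_of_forall_le_of_nonneg zero_le_one fun i _ => ?_
        rw [norm_mul]
        exact mul_le_one₀ (h.2 i) (norm_nonneg _) (hs i)
      a := a
      ball := fun x hx hn => ⟨hx, fun i => (hR i x).trans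
        ((mul_le_mul_of_nonneg_left hn hR0).trans ha)⟩ }
  obtain ⟨e, he⟩ : ∃ e : ℕ, ‖(q : PadicAlgCl q)‖ ^ e ≤ ‖(p : PadicAlgCl q) * c₀‖ :=
    (tendsto_norm_qpow.eventually (eventually_le_nhds
      (norm_pos_iff.2 (mul_ne_zero hpΩ hc₀0)))).exists
  set k := a + 2 + e with hk
  have hka : Λ.a + 1 ≤ k := by show a + 1 ≤ k; omega
  have hsmul : ∀ (g : H) (x : PadicAlgCl q), x ∈ Λ.carrier → g • x ∈ Λ.carrier := by
    intro g x hx
    have hxu := hupper hx.1
    refine ⟨(mem_fixedField_kerSub C).2 (C.smul_mem_upper hxu g), fun i => ?_⟩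
    have he' : g • x = ∑ i, cf (i - χ g) x * (c₀ * C.T i (kTheta p A)) := by
      conv_lhs => rw [← hrec x]
      rw [Finset.smul_sum]
      refine Fintype.sum_equiv (Equiv.addRight (χ g)) _ _ fun i => ?_
      rw [smul_mul', smul_mul', hfixF (hcfF hx.1 i), hfixF hc₀F,
        C.smul_eq_T (C.T_mem_upper (K.theta_mem C A hA) i), C.T_T (K.theta_mem C A hA)]
      simp [add_comm]
    rw [he', hcomb _ (fun i => hcfF hx.1 _)]
    exact hx.2 _
  have hlsmul : ∀ (g : H) {j : ℕ} {x : PadicAlgCl q}, x ∈ Λ.lvl j → g • x ∈ Λ.lvl j := by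
    intro g j x hx
    rw [Lat.mem_lvl] at hx ⊢
    have := hsmul g _ hx
    rwa [smul_div₀', smul_pow', smul_natCast'] at this
  set B := unitLvl Λ k hka with hBdef
  have hBE : ∀ {m}, m ∈ B → m.val ∈ E := fun hm => (norm_of_mem_unitLvl hm).2
  have hBsmul : ∀ (g : H) {m}, m ∈ B → g • m ∈ B := by
    intro g m hm
    rw [hBdef, mem_unitLvl] at hm ⊢
    have := hlsmul g hm
    rwa [smul_sub, smul_one] at this
  have hσp : ∀ {m : UM (PadicAlgCl q)}, m.val ∈ E → C.σ ^ p • m = m := fun hm =>
    UM.ext (hupper hm _ (by rw [C.map_pow_σ, ZMod.natCast_self]))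
  have hsumT : ∀ d : PadicAlgCl q, d ∈ F →
      ∑ i ∈ Finset.range p, C.σ ^ i • (d * (c₀ * kTheta p A)) = d * c₀ * p := fun d hd => by
    simp only [smul_mul', hfixF hd, hfixF hc₀F]
    rw [← Finset.mul_sum, ← Finset.mul_sum, mul_assoc]
    congr 2
    have h1 : ∑ i ∈ Finset.range p, C.σ ^ i • kTheta p A = ∑ i : ZMod p, C.T i (kTheta p A) := by
      refine Finset.sum_bij (fun i _ => (i : ZMod p)) (fun _ _ => Finset.mem_univ _)
        (fun i hi j hj h => ?_) (fun i _ => ⟨i.val, Finset.mem_range.2 (ZMod.val_lt i),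
          ZMod.natCast_zmod_val i⟩) (fun i hi => ?_)
      · have := congrArg ZMod.val h
        rwa [ZMod.val_natCast_of_lt (Finset.mem_range.1 hi),
          ZMod.val_natCast_of_lt (Finset.mem_range.1 hj)] at this
      · rw [CycData.T, ZMod.val_natCast_of_lt (Finset.mem_range.1 hi)]
    rw [h1, Finset.sum_congr rfl fun i _ => K.T_theta C A hA i, Finset.sum_comm]
    simp_rw [← Finset.sum_mul, K.sum_ψ, ite_mul, zero_mul]
    rw [Finset.sum_ite_eq', if_pos (Finset.mem_univ _)]
    simp
  refine ⟨B, unitLvl_le_unitsOf hka, relIndex_unitLvl_ne_zero Λ hka, ?_, ?_⟩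
  · -- image of the difference map
    have htel : ∀ m ∈ B, deltaHom C m ∈ B ⊓ (normHom C).ker := fun m hm => by
      refine AddSubgroup.mem_inf.2 ⟨sub_mem (hBsmul _ hm) hm, ?_⟩
      rw [AddMonoidHom.mem_ker, normHom_apply, deltaHom_apply]
      simp only [smul_sub, ← mul_smul, ← pow_succ]
      rw [Finset.sum_range_sub (fun i => C.σ ^ i • m), hσp (hBE hm), pow_zero, one_smul, sub_self]
    refine le_antisymm (by rintro _ ⟨m, hm, rfl⟩; exact htel m hm) ?_
    refine unitLvl_le_map hka (deltaHom C) (fun x => C.σ • x / x)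
      (fun m => by rw [deltaHom_apply, UM.val_sub, UM.val_smul])
      (fun x hx => (continuous_smulH C.σ).continuousAt.div continuousAt_id hx)
      (normHom C).ker k hka (fun v hv => (htel v hv).2) fun j hj u hu huP => ?_
    set x := u.val - 1 with hx
    have hxE : x ∈ E := Λ.mem_field_of_mem_lvl hu
    have hxn := Λ.norm_le_of_mem_lvl hu
    set l := x / (q : PadicAlgCl q) ^ j with hl
    have hlΛ : l ∈ Λ.carrier := Λ.mem_lvl.1 hu
    set S := ∑ i, cf i l with hS
    -- the trace
    have htr : ∑ i ∈ Finset.range p, C.σ ^ i • x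
        = (q : PadicAlgCl q) ^ j * (S * c₀ * p) := by
      have hl' : l = ∑ i, cf i l * (c₀ * C.T i (kTheta p A)) := (hrec l).symm
      rw [show x = (q : PadicAlgCl q) ^ j * l by rw [hl, mul_div_cancel₀ _ (pow_ne_zero j q_ne_zero)]]
      simp only [smul_mul', smul_pow', smul_natCast']
      rw [← Finset.mul_sum]
      congr 1
      conv_lhs => rw [hl']
      simp only [Finset.smul_sum]
      rw [Finset.sum_comm, hS, Finset.sum_mul, Finset.sum_mul]
      refine Finset.sum_congr rfl fun i _ => ?_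
      rw [← hsumT (cf i l) (hcfF hlΛ.1 i)]
      have hper : ∑ n ∈ Finset.range p, C.σ ^ n • C.T i (kTheta p A)
          = ∑ n ∈ Finset.range p, C.σ ^ n • kTheta p A := by
        have hfix : ∀ g : H, g • (∑ n ∈ Finset.range p, C.σ ^ n • kTheta p A)
            = ∑ n ∈ Finset.range p, C.σ ^ n • kTheta p A := by
          have e1 := hsumT 1 (one_mem F)
          simp only [one_mul, smul_mul', hfixF hc₀F, ← Finset.mul_sum] at e1
          rw [mul_right_injective₀ hc₀0 |>.eq_iff] at e1
          intro g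
          rw [e1, smul_natCast']
        have : ∀ n, C.σ ^ n • C.T i (kTheta p A) = C.σ ^ i.val • C.σ ^ n • kTheta p A := fun n => by
          rw [CycData.T, ← mul_smul, ← mul_smul, ← pow_add, ← pow_add, add_comm]
        rw [Finset.sum_congr rfl fun n _ => this n, ← Finset.smul_sum, hfix]
      simp only [smul_mul', hfixF (hcfF hlΛ.1 i), hfixF hc₀F, ← Finset.mul_sum, hper]
    have hSn : ‖S‖ ≤ ‖(q : PadicAlgCl q)‖ := by
      have hprod : ∏ i ∈ Finset.range p, (1 + C.σ ^ i • x) = 1 := by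
        have := congrArg UM.val (AddMonoidHom.mem_ker.1 huP)
        rw [normHom_apply, UM.val_sum, UM.val_zero] at this
        refine Eq.trans ?_ this
        refine Finset.prod_congr rfl fun i _ => ?_
        rw [UM.val_smul, hx, smul_sub, smul_one]; ring
      have h := norm_prod_expansion (Finset.range p) (fun i => C.σ ^ i • x)
        (c := ‖(q : PadicAlgCl q)‖ ^ j) (pow_le_one₀ (norm_nonneg _) norm_q_lt_one.le)
        (pow_nonneg (norm_nonneg _) _) fun i _ => by rw [norm_smulH]; exact hxn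
      rw [hprod, sub_self, zero_sub, norm_neg, htr, norm_mul, norm_qpow, sq,
        mul_le_mul_iff_right₀ (pow_pos norm_q_pos j), mul_assoc, norm_mul,
        mul_comm c₀ (p : PadicAlgCl q)] at h
      have h2 : ‖S‖ * ‖(q : PadicAlgCl q)‖ ^ e ≤ ‖(q : PadicAlgCl q)‖ ^ j :=
        (mul_le_mul_of_nonneg_left he (norm_nonneg _)).trans h
      refine le_of_mul_le_mul_right ?_ (pow_pos (norm_q_pos (q := q)) e)
      refine h2.trans ?_
      rw [← pow_succ']
      exact pow_le_pow_of_le_one (norm_nonneg _) norm_q_lt_one.le (by omega)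
    -- the preimage
    set μ := ∑ i, cf i l * ∑ n ∈ Finset.range i.val, C.T (n : ZMod p) (c₀ * kTheta p A) with hμ
    have hTθ : ∀ i, C.T i (c₀ * kTheta p A) = c₀ * C.T i (kTheta p A) := fun i => by
      rw [CycData.T, CycData.T, smul_mul', hfixF hc₀F]
    have hθΛ : ∀ i, C.T i (c₀ * kTheta p A) ∈ Λ.carrier := fun i => by
      refine ⟨by rw [hTθ]; exact mul_mem (hFE hc₀F) (hθE i), fun n => ?_⟩
      have : C.T i (c₀ * kTheta p A)
          = ∑ m, (if m = i then (1 : PadicAlgCl q) else 0) * (c₀ * C.T m (kTheta p A)) := by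
        simp [hTθ]
      rw [this, hcomb _ (fun m => by split_ifs; exacts [one_mem F, zero_mem F])]
      split_ifs <;> simp
    have hFΛ : ∀ d ∈ F, ‖d‖ ≤ 1 → ∀ w ∈ Λ.carrier, d * w ∈ Λ.carrier := fun d hd hd1 w hw => by
      refine ⟨mul_mem (hFE hd) hw.1, fun i => ?_⟩
      rw [show d * w = ∑ m, (d * cf m w) * (c₀ * C.T m (kTheta p A)) by
        conv_lhs => rw [← hrec w]
        rw [Finset.mul_sum]
        exact Finset.sum_congr rfl fun m _ => by ring,
        hcomb _ (fun m => mul_mem hd (hcfF hw.1 m)), norm_mul]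
      exact mul_le_one₀ hd1 (norm_nonneg _) (hw.2 i)
    have hμΛ : μ ∈ Λ.carrier := sum_mem fun i _ =>
      hFΛ _ (hcfF hlΛ.1 i) (hlΛ.2 i) _ (sum_mem fun n _ => hθΛ _)
    have hrel : C.σ • μ - μ = l - S * (c₀ * kTheta p A) := by
      rw [hμ, Finset.smul_sum, ← Finset.sum_sub_distrib]
      conv_rhs => rw [← hrec l, hS, Finset.sum_mul, ← Finset.sum_sub_distrib]
      refine Finset.sum_congr rfl fun i _ => ?_
      rw [smul_mul', hfixF (hcfF hlΛ.1 i), ← mul_sub, ← mul_sub, Finset.smul_sum,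
        ← Finset.sum_sub_distrib]
      congr 1
      have hst : ∀ n : ℕ, C.σ • C.T (n : ZMod p) (c₀ * kTheta p A)
          = C.T ((n + 1 : ℕ) : ZMod p) (c₀ * kTheta p A) := fun n => by
        have hmem : c₀ * kTheta p A ∈ C.upper (PadicAlgCl q) :=
          mul_mem (hupper (hFE hc₀F)) (K.theta_mem C A hA)
        rw [C.smul_eq_T (C.T_mem_upper hmem _), C.T_T hmem, C.map_σ]
        push_cast; rw [add_comm]
      rw [Finset.sum_congr rfl fun n _ => by rw [hst n],
        Finset.sum_range_sub (fun n : ℕ => C.T (n : ZMod p) (c₀ * kTheta p A)), Nat.cast_zero,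
        C.T_zero, ZMod.natCast_zmod_val, hTθ]
    set y := (q : PadicAlgCl q) ^ j * μ with hy
    have hyL : y ∈ Λ.lvl j := Λ.mem_lvl.2 (by
      rwa [hy, mul_div_cancel_left₀ _ (pow_ne_zero j q_ne_zero)])
    have hylt : ‖y‖ < 1 := lt_of_le_of_lt (Λ.norm_le_of_mem_lvl hyL)
      (pow_lt_one₀ (norm_nonneg _) norm_q_lt_one (by omega))
    have hne : 1 + y ≠ 0 := fun h => by simpa [h] using norm_one_add hylt
    refine ⟨UM.mk _ hne, ?_, ?_⟩
    · rw [mem_unitLvl, UM.val_mk, add_sub_cancel_left]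
      exact Λ.lvl_antitone hj hyL
    · rw [mem_unitLvl, UM.val_sub, deltaHom_apply, UM.val_sub, UM.val_smul, UM.val_mk]
      set w := C.σ • y with hw
      have hwL : w ∈ Λ.lvl j := hlsmul _ hyL
      have hwlt : ‖w‖ < 1 := by rw [hw, norm_smulH]; exact hylt
      have hw0 : 1 + w ≠ 0 := fun h => by simpa [h] using norm_one_add hwlt
      have hz : x + y - w = (q : PadicAlgCl q) ^ j * (S * (c₀ * kTheta p A)) := by
        rw [hw, hy, smul_mul', smul_pow', smul_natCast', show
          x = (q : PadicAlgCl q) ^ j * l by rw [hl, mul_div_cancel₀ _ (pow_ne_zero j q_ne_zero)]]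
        linear_combination (-(q : PadicAlgCl q) ^ j) * hrel
      rw [smul_add, smul_one, ← hw, show u.val = 1 + x by rw [hx]; ring,
        show (1 + x) / ((1 + w) / (1 + y)) - 1
          = (x + y - w) + ((x * y - (x + y - w) * w) / (1 + w)) by field_simp; ring]
      refine add_mem ?_ ?_
      · rw [hz, Lat.mem_lvl, show (q : PadicAlgCl q) ^ j * (S * (c₀ * kTheta p A))
            / (q : PadicAlgCl q) ^ (j + 1) = (S / q) * C.T 0 (c₀ * kTheta p A) by
          rw [C.T_zero, pow_succ, mul_div_mul_left _ _ (pow_ne_zero j q_ne_zero),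
            mul_div_right_comm]]
        refine hFΛ _ (div_mem (hS ▸ sum_mem fun i _ => hcfF hlΛ.1 i) (natCast_mem F q)) ?_ _
          (hθΛ 0)
        rw [norm_div, div_le_one norm_q_pos]
        exact hSn
      · have hyE := Λ.mem_field_of_mem_lvl hyL
        have hwE := Λ.mem_field_of_mem_lvl hwL
        refine Λ.mem_lvl_of_norm' (m := j + j) (div_mem (sub_mem (mul_mem hxE hyE)
          (mul_mem (sub_mem (add_mem hxE hyE) hwE) hwE)) (add_mem (one_mem E) hwE)) ?_
          (by show j + 1 + a ≤ j + j; omega)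
        rw [norm_div, norm_one_add hwlt, div_one, pow_add, sub_eq_add_neg]
        refine norm_add_le_of_le ?_ ?_
        · rw [norm_mul]
          exact mul_le_mul hxn (Λ.norm_le_of_mem_lvl hyL) (norm_nonneg _)
            (pow_nonneg (norm_nonneg _) _)
        · rw [norm_neg, norm_mul]
          refine mul_le_mul ?_ (Λ.norm_le_of_mem_lvl hwL) (norm_nonneg _)
            (pow_nonneg (norm_nonneg _) _)
          rw [sub_eq_add_neg]
          exact norm_add_le_of_le (norm_add_le_of_le hxn (Λ.norm_le_of_mem_lvl hyL))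
            (by rw [norm_neg]; exact Λ.norm_le_of_mem_lvl hwL)
  · -- image of the norm
    have htel : ∀ m ∈ B, normHom C m ∈ B ⊓ (deltaHom C).ker := fun m hm => by
      refine AddSubgroup.mem_inf.2 ⟨?_, ?_⟩
      · rw [normHom_apply]; exact sum_mem fun i _ => hBsmul _ hm
      rw [AddMonoidHom.mem_ker, deltaHom_apply, normHom_apply, Finset.smul_sum,
        ← Finset.sum_sub_distrib]
      simp only [← mul_smul, ← pow_succ']
      rw [Finset.sum_range_sub (fun i => C.σ ^ i • m), hσp (hBE hm), pow_zero, one_smul, sub_self]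
    refine le_antisymm (by rintro _ ⟨m, hm, rfl⟩; exact htel m hm) ?_
    refine unitLvl_le_map hka (normHom C) (fun x => ∏ i ∈ Finset.range p, C.σ ^ i • x)
      (fun m => by rw [normHom_apply, UM.val_sum]; rfl)
      (fun x _ => (continuous_finsetProd _ fun i _ => continuous_smulH _).continuousAt)
      (deltaHom C).ker k hka (fun v hv => (htel v hv).2) fun j hj u hu huP => ?_
    set x := u.val - 1 with hx
    have hxE : x ∈ E := Λ.mem_field_of_mem_lvl hu
    have hxF : x ∈ F := by
      rw [hFdef, IntermediateField.mem_fixedField_iff]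
      intro g hg
      have hσ : C.σ • x = x := by
        have := congrArg UM.val (AddMonoidHom.mem_ker.1 huP)
        rw [deltaHom_apply, UM.val_sub, UM.val_smul, UM.val_zero,
          div_eq_one_iff_eq u.val_ne_zero] at this
        rw [hx, smul_sub, this, smul_one]
      have hn : ∀ n : ℕ, C.σ ^ n • x = x := fun n => by
        induction n with
        | zero => rw [pow_zero, one_smul]
        | succ n ih => rw [pow_succ, mul_smul, hσ, ih]
      exact (C.smul_eq_T (hupper hxE) ⟨g, hg⟩).trans (hn _)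
    set l := x / (q : PadicAlgCl q) ^ j with hl
    have hlΛ : l ∈ Λ.carrier := Λ.mem_lvl.1 hu
    have hlF : l ∈ F := div_mem hxF (natCast_qpow_mem F j)
    set d := l / (c₀ * p) with hd
    have hdF : d ∈ F := div_mem hlF (mul_mem hc₀F (natCast_mem F p))
    have hd1 : ‖d‖ ≤ 1 := by
      have hld : l = ∑ m, d * (c₀ * C.T m (kTheta p A)) := by
        rw [← Finset.mul_sum, ← Finset.mul_sum,
          Finset.sum_congr rfl fun i _ => K.T_theta C A hA i, Finset.sum_comm]
        simp_rw [← Finset.sum_mul, K.sum_ψ, ite_mul, zero_mul]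
        rw [Finset.sum_ite_eq', if_pos (Finset.mem_univ _), hd]
        simp only [ZMod.val_zero, pow_zero]
        field_simp
      have := hlΛ.2 0
      rwa [hld, hcomb _ fun _ => hdF] at this
    set y := (q : PadicAlgCl q) ^ j * (d * (c₀ * kTheta p A)) with hy
    have hyL : y ∈ Λ.lvl j := by
      refine Λ.mem_lvl.2 ?_
      rw [hy, mul_div_cancel_left₀ _ (pow_ne_zero j q_ne_zero)]
      refine ⟨mul_mem (hFE hdF) (mul_mem (hFE hc₀F) (by simpa [C.T_zero] using hθE 0)), fun i => ?_⟩
      rw [show d * (c₀ * kTheta p A) = ∑ m, (if m = 0 then d else 0) * (c₀ * C.T m (kTheta p A)) by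
        simp [C.T_zero], hcomb _ (fun m => by split_ifs; exacts [hdF, zero_mem F])]
      split_ifs <;> simp [hd1]
    have hylt : ‖y‖ < 1 := lt_of_le_of_lt (Λ.norm_le_of_mem_lvl hyL)
      (pow_lt_one₀ (norm_nonneg _) norm_q_lt_one (by omega))
    have hne : 1 + y ≠ 0 := fun h => by simpa [h] using norm_one_add hylt
    refine ⟨UM.mk _ hne, ?_, ?_⟩
    · rw [mem_unitLvl, UM.val_mk, add_sub_cancel_left]
      exact Λ.lvl_antitone hj hyL
    · have htry : ∑ i ∈ Finset.range p, C.σ ^ i • y = x := by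
        rw [hy]
        simp only [smul_mul' _ ((q : PadicAlgCl q) ^ j), smul_pow', smul_natCast']
        rw [← Finset.mul_sum, hsumT d hdF, hd, mul_assoc, div_mul_cancel₀ _ (mul_ne_zero hc₀0 hpΩ),
          hl, mul_div_cancel₀ _ (pow_ne_zero j q_ne_zero)]
      have hexp := norm_prod_expansion (Finset.range p) (fun i => C.σ ^ i • y)
        (c := ‖(q : PadicAlgCl q)‖ ^ j) (pow_le_one₀ (norm_nonneg _) norm_q_lt_one.le)
        (pow_nonneg (norm_nonneg _) _) fun i _ => by
          rw [norm_smulH]; exact Λ.norm_le_of_mem_lvl hyL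
      rw [htry] at hexp
      rw [mem_unitLvl, UM.val_sub, normHom_apply, UM.val_sum]
      simp only [UM.val_smul, UM.val_mk, smul_add, smul_one]
      set P := ∏ i ∈ Finset.range p, (1 + C.σ ^ i • y) with hP
      have hP1 : ‖P‖ = 1 := by
        rw [hP, norm_prod]
        exact Finset.prod_eq_one fun i _ => norm_one_add (by rw [norm_smulH]; exact hylt)
      have hP0 : P ≠ 0 := norm_pos_iff.1 (by rw [hP1]; exact one_pos)
      rw [show u.val / P - 1 = -(P - 1 - x) / P by
        rw [show u.val = 1 + x by rw [hx]; ring]; field_simp; ring]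
      have hPE : P ∈ E := prod_mem fun i _ => add_mem (one_mem E)
        (Λ.mem_field_of_mem_lvl (hlsmul _ hyL))
      refine Λ.mem_lvl_of_norm' (m := j + j)
        (div_mem (neg_mem (sub_mem (sub_mem hPE (one_mem E)) hxE)) hPE) ?_
        (by show j + 1 + a ≤ j + j; omega)
      rw [norm_div, norm_neg, hP1, div_one, pow_add, ← sq]
      exact hexp

include hH K in
/-- The norms from a cyclic extension of degree `p` form a subgroup of index `p`. -/
theorem norms_index : (K.norms C).index = p := by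
  have := finiteDimensional_fixedField hH
  have := finiteDimensional_fixedField (kerSub_mem hH C)
  set F := IntermediateField.fixedField H
  set E := IntermediateField.fixedField (kerSub C) with hEdef
  have hFE : F ≤ E := fixedField_le_kerSub C
  have hup : ∀ {m : UM (PadicAlgCl q)}, m ∈ fieldUM E → ∀ n, χ n = 0 → n • m = m :=
    fun hm n hn => UM.ext ((mem_fixedField_kerSub C).1 hm n hn)
  have hnorms : K.norms C = ((fieldUM E).map (normHom C)).addSubgroupOf
      (fixUM H (PadicAlgCl q)) := by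
    ext a
    rw [K.mem_norms, AddSubgroup.mem_addSubgroupOf]
    refine ⟨fun ⟨x, hx, h⟩ => ⟨x, (mem_fixedField_kerSub C).2
      (fun n hn => congrArg UM.val (hx n hn)), by rw [normHom_apply, h]⟩, ?_⟩
    rintro ⟨x, hx, h⟩
    exact ⟨x, hup hx, by rw [← h, normHom_apply]⟩
  rw [hnorms, ← AddSubgroup.relIndex, fixUM_eq]
  set f := deltaHom C with hf
  set g := normHom C with hg
  set A := unitsOf E with hA
  set U := unitsOf F with hU
  have hsE : ∀ {m : UM (PadicAlgCl q)}, m ∈ fieldUM E → ∀ σ : H, σ • m ∈ fieldUM E := fun hm σ =>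
    (mem_fixedField_kerSub C).2 (C.smul_mem_upper ((mem_fixedField_kerSub C).1 hm) σ)
  have hsA : ∀ {m : UM (PadicAlgCl q)}, m ∈ A → ∀ σ : H, σ • m ∈ A := fun hm σ =>
    ⟨hsE hm.1 σ, by rw [UM.val_smul, norm_smulH]; exact hm.2⟩
  have hgF : ∀ {m : UM (PadicAlgCl q)}, m ∈ fieldUM E → g m ∈ fieldUM F := by
    intro m hm
    rw [← fixUM_eq]
    have hσp : C.σ ^ p • m = m := hup hm _ (by rw [C.map_pow_σ, ZMod.natCast_self])
    intro h
    have hσ : C.σ • g m = g m := by
      rw [← sub_eq_zero, hg, normHom_apply, Finset.smul_sum, ← Finset.sum_sub_distrib]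
      simp only [← mul_smul, ← pow_succ']
      rw [Finset.sum_range_sub (fun i => C.σ ^ i • m), hσp, pow_zero, one_smul, sub_self]
    have hn : ∀ n : ℕ, C.σ ^ n • g m = g m := fun n => by
      induction n with
      | zero => rw [pow_zero, one_smul]
      | succ n ih => rw [pow_succ, mul_smul, hσ, ih]
    have hgm : (g m).val ∈ C.upper (PadicAlgCl q) := by
      rw [hg, normHom_apply, UM.val_sum]
      exact prod_mem fun i _ => C.smul_mem_upper ((mem_fixedField_kerSub C).1 hm) _
    refine UM.ext ?_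
    rw [UM.val_smul, C.smul_eq_T hgm h]
    exact congrArg UM.val (hn _)
  have hfker : ∀ {m : UM (PadicAlgCl q)}, m ∈ fieldUM E → f m = 0 → m ∈ fieldUM F := by
    intro m hm h
    rw [← fixUM_eq]
    rw [hf, deltaHom_apply, sub_eq_zero] at h
    have hn : ∀ n : ℕ, C.σ ^ n • m = m := fun n => by
      induction n with
      | zero => rw [pow_zero, one_smul]
      | succ n ih => rw [pow_succ, mul_smul, h, ih]
    intro σ
    refine UM.ext ?_
    rw [UM.val_smul, C.smul_eq_T ((mem_fixedField_kerSub C).1 hm) σ]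
    exact congrArg UM.val (hn _)
  have hFf : ∀ {m : UM (PadicAlgCl q)}, m ∈ fieldUM F → f m = 0 := fun hm => by
    rw [← fixUM_eq] at hm
    rw [hf, deltaHom_apply, hm, sub_self]
  have hgk : ∀ {m : UM (PadicAlgCl q)}, m ∈ fieldUM E → f m ∈ g.ker := fun hm => by
    rw [AddMonoidHom.mem_ker, hg, hf, normHom_apply, deltaHom_apply]
    simp only [smul_sub, ← mul_smul, ← pow_succ]
    rw [Finset.sum_range_sub (fun i => C.σ ^ i • _),
      hup hm _ (by rw [C.map_pow_σ, ZMod.natCast_self]), pow_zero, one_smul, sub_self]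
  -- the units
  obtain ⟨B, hBA, hfin, hBf, hBg⟩ := exists_free_units hH K C
  have hAf : A ⊓ f.ker = U := le_antisymm
    (fun m hm => ⟨hfker hm.1.1 hm.2, hm.1.2⟩)
    (fun m hm => ⟨⟨hFE hm.1, hm.2⟩, hFf hm.1⟩)
  obtain ⟨hher, -⟩ := herbrand_eq f g hBA hfin
    (by rintro _ ⟨m, hm, rfl⟩; exact AddSubgroup.mem_inf.2 ⟨sub_mem (hsA hm _) hm, hgk hm.1⟩)
    (by
      rintro _ ⟨m, hm, rfl⟩
      refine ⟨?_, hFf (hgF hm.1)⟩
      rw [hg, normHom_apply]
      exact sum_mem fun i _ => hsA hm _) hBf hBg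
  rw [hAf] at hher
  obtain ⟨π', hπ', h0', h1', hE'⟩ := exists_unifUM E
  obtain ⟨π, hπ, h0, h1, hF'⟩ := exists_unifUM F
  have hdec : ∀ {m : UM (PadicAlgCl q)} {P : UM (PadicAlgCl q)}
      {F₀ : IntermediateField ℚ_[q] (PadicAlgCl q)},
      fieldUM F₀ = unitsOf F₀ ⊔ AddSubgroup.zmultiples P → m ∈ fieldUM F₀ →
      ∃ u ∈ unitsOf F₀, ∃ n : ℤ, m = n • P + u := by
    intro m P F₀ h hm
    rw [h] at hm
    obtain ⟨u, hu, _, ⟨n, rfl⟩, rfl⟩ := AddSubgroup.mem_sup.1 hm
    exact ⟨u, hu, n, add_comm _ _⟩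
  -- ramification index and residue degree
  obtain ⟨ue, hue, e, hπe⟩ := hdec hE' (show π ∈ fieldUM E from hFE hπ)
  obtain ⟨uf, huf, d, hπd⟩ := hdec hF' (hgF hπ')
  have hne : ∀ a b : ℤ, ‖π'.val‖ ^ a = ‖π'.val‖ ^ b → a = b := fun a b h =>
    zpow_right_injective₀ h0' h1'.ne h
  have hπn : ‖π.val‖ = ‖π'.val‖ ^ e := by
    rw [hπe, UM.val_add, norm_mul, UM.norm_zsmul, hue.2, mul_one]
  have hed : e * d = p := by
    refine hne _ _ ?_
    have : ‖(g π').val‖ = ‖π'.val‖ ^ (p : ℤ) := by
      rw [hg, normHom_apply, UM.val_sum, norm_prod, zpow_natCast]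
      simp only [UM.val_smul, norm_smulH, Finset.prod_const, Finset.card_range]
    rw [← this, hπd, UM.val_add, norm_mul, UM.norm_zsmul, huf.2, mul_one, hπn, zpow_mul]
  have hd0 : d ≠ 0 := fun h => hp.out.ne_zero (by exact_mod_cast (show (p : ℤ) = 0 by simp [← hed, h]))
  have he0 : 0 < e := by
    by_contra! hle
    have : (1 : ℝ) ≤ ‖π'.val‖ ^ e := one_le_zpow_of_nonpos₀ h0' h1'.le hle
    rw [← hπn] at this
    exact absurd this (not_le.2 h1)
  -- the image of the norm
  rw [hE', AddSubgroup.map_sup, AddMonoidHom.map_zmultiples, hF',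
    relIndex_sup_zmultiples (U := U) (by
      rintro _ ⟨m, hm, rfl⟩
      refine ⟨hgF hm.1, ?_⟩
      rw [hg, normHom_apply, UM.val_sum, norm_prod]
      exact Finset.prod_eq_one fun i _ => by rw [UM.val_smul, norm_smulH]; exact hm.2)
      (free_of_norm F h0 h1) huf hd0 hπd, hher]
  -- the kernel of the norm
  have hgen : A ⊓ g.ker = AddSubgroup.zmultiples (f π') ⊔ A.map f := by
    refine le_antisymm (fun m hm => ?_) (sup_le ?_ ?_)
    · obtain ⟨ec, hec, hecσ, hecn, hdM⟩ := C.carry_split_of_norm (x := m) (hup hm.1.1)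
      have hzero : ∑ i ∈ Finset.range p, C.σ ^ i • m = 0 := by
        rw [← normHom_apply]; exact hm.2
      obtain ⟨w, hw⟩ := K.gal.hilbert90 hec fun s t => by
        have := hdM s t
        rw [hzero, smul_zero, dM_apply] at this
        linear_combination (norm := abel) -this
      have hwE : w ∈ fieldUM E := (mem_fixedField_kerSub C).2 fun n hn => by
        have := hw n
        rw [hecn n hn, eq_comm, sub_eq_zero] at this
        exact congrArg UM.val this
      obtain ⟨u, hu, n, hwn⟩ := hdec hE' hwE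
      have hm' : m = f w := by rw [← hecσ, hw, hf, deltaHom_apply]
      rw [hm', hwn, map_add, map_zsmul]
      exact add_mem (AddSubgroup.mem_sup_left (AddSubgroup.zsmul_mem_zmultiples _ n))
        (AddSubgroup.mem_sup_right ⟨u, hu, rfl⟩)
    · rw [AddSubgroup.zmultiples_le]
      refine ⟨⟨sub_mem (hsE hπ' _) hπ', ?_⟩, hgk hπ'⟩
      rw [hf, deltaHom_apply, UM.val_sub, norm_div, UM.val_smul, norm_smulH, div_self h0'.ne']
    · rintro _ ⟨m, hm, rfl⟩
      exact AddSubgroup.mem_inf.2 ⟨sub_mem (hsA hm _) hm, hgk hm.1⟩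
  have hep : e • f π' ∈ A.map f := by
    refine ⟨-ue, neg_mem hue, ?_⟩
    have := hFf hπ
    rw [hπe, map_add, map_zsmul, add_eq_zero_iff_eq_neg] at this
    rw [map_neg, this]
  rw [hgen, AddSubgroup.relIndex_sup_right, ← AddSubgroup.range_zmultiplesHom,
    AddMonoidHom.range_eq_map, ← AddSubgroup.relIndex_comap, AddSubgroup.relIndex_top_right]
  set I := (A.map f).comap (zmultiplesHom _ (f π')) with hI
  have heI : e ∈ I := hep
  rcases (Nat.dvd_prime hp.out).1 (Int.natAbs_dvd_natAbs.2 (Dvd.intro d hed) :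
      e.natAbs ∣ (p : ℤ).natAbs) with he1 | hep'
  · have he1' : e = 1 := by omega
    have : I = ⊤ := (AddSubgroup.eq_top_iff' I).2 fun z => by
      have := zsmul_mem heI z
      rwa [he1', smul_eq_mul, mul_one] at this
    rw [this, AddSubgroup.index_top, mul_one]
    rw [he1', one_mul] at hed
    rw [hed, Int.natAbs_natCast]
  · have he' : e = p := by omega
    have hd1 : d = 1 := by
      rw [he'] at hed
      exact mul_left_cancel₀ (Nat.cast_ne_zero.2 hp.out.ne_zero) (hed.trans (mul_one _).symm)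
    rw [hd1, Int.natAbs_one, one_mul]
    have hle : AddSubgroup.zmultiples (p : ℤ) ≤ I := AddSubgroup.zmultiples_le.2 (he' ▸ heI)
    have hdiv := AddSubgroup.index_dvd_of_le hle
    rw [Int.index_zmultiples, Int.natAbs_natCast] at hdiv
    rcases (Nat.dvd_prime hp.out).1 hdiv with h | h
    · exfalso
      rw [AddSubgroup.index_eq_one] at h
      obtain ⟨u, hu, huf'⟩ : f π' ∈ A.map f := by
        have : (1 : ℤ) ∈ I := h ▸ AddSubgroup.mem_top _
        simpa [hI] using this
      have hker : π' - u ∈ fieldUM F :=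
        hfker (sub_mem hπ' hu.1) (by rw [map_sub, huf', sub_self])
      obtain ⟨u', hu', n, hn⟩ := hdec hF' hker
      have h3 : ‖π'.val‖ ^ (1 : ℤ) = ‖π'.val‖ ^ (e * n) := by
        rw [zpow_mul, ← hπn, zpow_one]
        have := congrArg (fun m => ‖UM.val m‖) hn
        simp only [UM.val_sub, norm_div, hu.2, div_one, UM.val_add, norm_mul, UM.norm_zsmul, hu'.2,
          mul_one] at this
        exact this
      have h4 := hne _ _ h3
      rw [he'] at h4
      have := Int.eq_one_of_mul_eq_one_right (Nat.cast_nonneg p) h4.symm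
      exact hp.out.one_lt.ne' (by exact_mod_cast this)
    · exact h

end FA.GalCoh
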