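import Fermat.Agent.GalCoh.LocalDuality

/-!
Symbols of units over a local field of residue characteristic different from `p`.
-/

set_option autoImplicit false
set_option linter.unusedSectionVars false

noncomputable section

namespace FA.GalCoh

section Steinberg

variable {G : Type} [Group G] {L : Levels G} {Ω : Type} [Field Ω] [MulSemiringAction G Ω]
variable {p : ℕ} [hp : Fact p.Prime]

/-- For `p = 2` the negative of an element pairs trivially with it. -/
theorem KumData.symb_neg_self (K : KumData L Ω p) (hp2 : p = 2) {a b : fixUM G Ω}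
    (h : b.1.val = -a.1.val) : symb (K.kum b) (K.kum a) = 0 := by
  subst hp2
  rcases eq_or_ne (K.kum a) 0 with h0 | h0
  · rw [h0, map_zero]
  obtain ⟨χ, C, hC⟩ := exists_cycData h0
  have hχ : ∀ g, χ g = K.kc a g := by
    have h := mk1_triv_injective (hC.trans (K.kum_apply a))
    exact fun g => congrFun (congrArg Subtype.val h) g
  have hA : (2 : ℕ) • K.kroot a.1 = a.1 := K.nsmul_kroot a.1
  rw [← hC, K.symb_eq_zero_iff C]
  refine ⟨K.kroot a.1, fun n hn => ?_, UM.ext ?_⟩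
  · have h' := K.eps_kc a hA n
    rw [← hχ, hn, map_zero, eq_comm, sub_eq_zero] at h'
    exact h'
  · have hσ := K.eps_kc a hA C.σ
    rw [← hχ, C.map_σ] at hσ
    have hσ' := congrArg UM.val hσ
    rw [K.eps_val, UM.val_sub, UM.val_smul, show ((1 : ZMod 2)).val = 1 from rfl, pow_one,
      K.prim.eq_neg_one_of_two_right, eq_div_iff (UM.val_ne_zero _)] at hσ'
    rw [Finset.sum_range_succ, Finset.sum_range_succ, Finset.sum_range_zero, zero_add, pow_zero,
      one_smul, pow_one, UM.val_add, UM.val_smul, ← hσ', h, ← congrArg UM.val hA, UM.val_nsmul]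
    ring

end Steinberg

variable {q : ℕ} [hq : Fact q.Prime] {p : ℕ} [hp : Fact p.Prime]

theorem norm_natCast_prime (h : q ≠ p) : ‖(p : PadicAlgCl q)‖ = 1 := by
  rw [← map_natCast (algebraMap ℚ_[q] (PadicAlgCl q)), norm_algebraMap']
  exact Padic.norm_natCast_eq_one_iff.2
    (hq.out.coprime_iff_not_dvd.2 fun h' => h ((Nat.prime_dvd_prime_iff_eq hq.out hp.out).1 h'))

/-- A rational integer congruent to one modulo an odd prime is a square in the local field. -/
theorem exists_sq_eq_intCast (hq2 : q ≠ 2) {n : ℤ} (hn : (n : ZMod q) = 1) :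
    ∃ x : PadicAlgCl q, (∀ g : LG q, g x = x) ∧ x ^ 2 = (n : PadicAlgCl q) := by
  have hd : (q : ℤ) ∣ 1 - n := by
    rw [← ZMod.intCast_zmod_eq_zero_iff_dvd]; push_cast; rw [hn, sub_self]
  have h2 : ‖(2 : ℤ_[q])‖ = 1 := by
    rw [← Nat.cast_ofNat (n := 2), PadicInt.norm_def, PadicInt.coe_natCast,
      Padic.norm_natCast_eq_one_iff]
    exact hq.out.coprime_iff_not_dvd.2 fun h =>
      hq2 ((Nat.prime_dvd_prime_iff_eq hq.out Nat.prime_two).1 h)
  have hlt : ‖(Polynomial.X ^ 2 - Polynomial.C (n : ℤ_[q])).aeval (1 : ℤ_[q])‖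
      < ‖(Polynomial.derivative (Polynomial.X ^ 2 - Polynomial.C (n : ℤ_[q]))).aeval
        (1 : ℤ_[q])‖ ^ 2 := by
    simp only [map_sub, map_pow, Polynomial.aeval_X, Polynomial.aeval_C, one_pow,
      Polynomial.derivative_X_pow, Polynomial.derivative_C, sub_zero, map_mul, mul_one]
    rw [show ((algebraMap ℤ_[q] ℤ_[q]) (n : ℤ_[q])) = ((n : ℤ) : ℤ_[q]) from rfl,
      Nat.cast_ofNat, map_ofNat, h2, one_pow, ← Int.cast_one, ← Int.cast_sub]
    exact (PadicInt.norm_int_lt_one_iff_dvd _).2 hd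
  obtain ⟨z, hz, -⟩ := hensels_lemma hlt
  simp only [map_sub, map_pow, Polynomial.aeval_X, Polynomial.aeval_C, sub_eq_zero] at hz
  refine ⟨algebraMap ℚ_[q] (PadicAlgCl q) (z : ℚ_[q]), fun g => g.commutes _, ?_⟩
  rw [← map_pow, ← PadicInt.coe_pow, hz]
  simp

variable {H : Subgroup (LG q)} (hH : H ∈ (LL q).carrier)
  (K : KumData ((LL q).sub H) (PadicAlgCl q) p)

/-- A rational integer prime to `q` as an element of the local field. -/
def natUM (n : ℕ) (hn : (n : PadicAlgCl q) ≠ 0) : fixUM H (PadicAlgCl q) :=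
  ⟨UM.mk (n : PadicAlgCl q) hn, fun g => UM.ext (smul_natCast' g n)⟩

include hH in
theorem exists_kum_eq_smul (hqp : q ≠ p) {u a : fixUM H (PadicAlgCl q)} (hu : ‖u.1.val‖ = 1)
    (hu0 : K.kum u ≠ 0) (ha : ‖a.1.val‖ = 1) : ∃ i : ZMod p, K.kum a = i • K.kum u := by
  have := finiteDimensional_fixedField hH
  set E := IntermediateField.fixedField H
  have hζE : K.ζ ∈ E :=
    (IntermediateField.mem_fixedField_iff _ _).2 fun g hg => K.fixζ ⟨g, hg⟩
  have hidx := unitsOf_pow_index E K.prim hζE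
  rw [if_neg hqp, mul_one, AddSubgroup.relIndex] at hidx
  have hmem : ∀ {b : fixUM H (PadicAlgCl q)}, ‖b.1.val‖ = 1 → b.1 ∈ unitsOf E := fun {b} hb =>
    ⟨(IntermediateField.mem_fixedField_iff _ _).2 fun g hg => congrArg UM.val (b.2 ⟨g, hg⟩), hb⟩
  set M := ((unitsOf E).map (nsmulAddMonoidHom p)).addSubgroupOf (unitsOf E)
  have hzero : ∀ {b : fixUM H (PadicAlgCl q)} (hb : ‖b.1.val‖ = 1),
      ((⟨b.1, hmem hb⟩ : unitsOf E) : unitsOf E ⧸ M) = 0 → K.kum b = 0 := fun {b} hb h => by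
    obtain ⟨c, hc, hcb⟩ := AddSubgroup.mem_addSubgroupOf.1 ((QuotientAddGroup.eq_zero_iff _).1 h)
    have hcf : c ∈ fixUM H (PadicAlgCl q) := fun g => UM.ext
      ((IntermediateField.mem_fixedField_iff _ _).1 hc.1 g.1 g.2)
    exact (K.kum_eq_zero_iff b).2 ⟨⟨c, hcf⟩, Subtype.ext hcb⟩
  have hcard : Nat.card (unitsOf E ⧸ M) = p := hidx
  have hgen := mem_zmultiples_of_prime_card hcard
    (g := ((⟨u.1, hmem hu⟩ : unitsOf E) : unitsOf E ⧸ M)) (fun h => hu0 (hzero hu h))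
    (g' := ((⟨a.1, hmem ha⟩ : unitsOf E) : unitsOf E ⧸ M))
  obtain ⟨n, hn⟩ := AddSubgroup.mem_zmultiples_iff.1 hgen
  rw [← QuotientAddGroup.mk_zsmul, QuotientAddGroup.eq] at hn
  have hval : ‖(-(n • u) + a).1.val‖ = 1 := by
    rw [AddSubgroup.coe_add, NegMemClass.coe_neg, AddSubgroupClass.coe_zsmul, UM.val_add,
      UM.val_neg, norm_mul, norm_inv, UM.norm_zsmul, hu, ha, one_zpow, inv_one, one_mul]
  have h0 := hzero hval ((QuotientAddGroup.eq_zero_iff _).2 hn)
  rw [map_add, map_neg, map_zsmul, neg_add_eq_zero] at h0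
  exact ⟨n, by rw [← h0, Int.cast_smul_eq_zsmul]⟩

include hH in
theorem symb_neg_one_self (hp2 : p = 2) (hq2 : q ≠ 2) {m : fixUM H (PadicAlgCl q)}
    (hm : m.1.val = -1) : symb (K.kum m) (K.kum m) = 0 := by
  subst hp2
  obtain ⟨a, b, hab⟩ := ZMod.sq_add_sq q (-1 : ZMod q)
  set n := a.val ^ 2 + b.val ^ 2
  have hn : ((n : ℕ) : ZMod q) = -1 := by
    simp [n, hab]
  have hn0 : (n : PadicAlgCl q) ≠ 0 := Nat.cast_ne_zero.2 fun h => by
    rw [h, Nat.cast_zero, zero_eq_neg] at hn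
    exact one_ne_zero hn
  -- `-n` is a square
  obtain ⟨w, hw, hw2⟩ := exists_sq_eq_intCast (q := q) hq2 (n := -(n : ℤ)) (by simp [hn])
  have hw0 : w ≠ 0 := fun h => by
    rw [h, zero_pow two_ne_zero, Int.cast_neg, Int.cast_natCast, zero_eq_neg] at hw2
    exact hn0 hw2
  let W : fixUM H (PadicAlgCl q) := ⟨UM.mk w hw0, fun g => UM.ext (hw g.1)⟩
  have hkn : K.kum (natUM n hn0) = K.kum m := by
    have : natUM n hn0 = m + 2 • W := Subtype.ext (UM.ext (by
      rw [AddSubgroup.coe_add, AddSubgroupClass.coe_nsmul, UM.val_add, UM.val_nsmul, hm]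
      show (n : PadicAlgCl q) = -1 * w ^ 2
      rw [hw2, Int.cast_neg, Int.cast_natCast, neg_one_mul, neg_neg]))
    rw [this, map_add, (K.kum_eq_zero_iff _).2 ⟨W, rfl⟩, add_zero]
  rcases eq_or_ne (K.kum m) 0 with h0 | h0
  · rw [h0, map_zero]
  obtain ⟨χ, C, hC⟩ := exists_cycData h0
  have hχ : ∀ g, χ g = K.kc m g := by
    have h := mk1_triv_injective (hC.trans (K.kum_apply m))
    exact fun g => congrFun (congrArg Subtype.val h) g
  have hA : (2 : ℕ) • K.kroot m.1 = m.1 := K.nsmul_kroot m.1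
  set i := (K.kroot m.1).val
  have hi2 : i ^ 2 = -1 := by
    have := congrArg UM.val hA
    rwa [UM.val_nsmul, hm] at this
  have hσ : C.σ • i = -i := by
    have hσ := K.eps_kc m hA C.σ
    rw [← hχ, C.map_σ] at hσ
    have hσ' := congrArg UM.val hσ
    rw [K.eps_val, UM.val_sub, UM.val_smul, show ((1 : ZMod 2)).val = 1 from rfl, pow_one,
      K.prim.eq_neg_one_of_two_right, eq_div_iff (UM.val_ne_zero _)] at hσ'
    rw [← hσ']; ring
  have hfix : ∀ g : H, χ g = 0 → g • i = i := fun g hg => by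
    have h' := K.eps_kc m hA g
    rw [← hχ, hg, map_zero, eq_comm, sub_eq_zero] at h'
    exact congrArg UM.val h'
  set x := (a.val : PadicAlgCl q) + (b.val : PadicAlgCl q) * i with hx
  have hxn : x * (C.σ • x) = (n : PadicAlgCl q) := by
    rw [hx, smul_add, smul_mul', smul_natCast', smul_natCast', hσ]
    push_cast [n]
    linear_combination (-(b.val : PadicAlgCl q) ^ 2) * hi2
  have hx0 : x ≠ 0 := fun h => by
    rw [h, zero_mul] at hxn
    exact hn0 hxn.symm
  suffices symb (K.kum (natUM n hn0)) C.cls = 0 by rwa [hkn, hC] at this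
  refine (K.symb_eq_zero_iff C _).2 ⟨UM.mk x hx0, fun g hg => UM.ext ?_, UM.ext ?_⟩
  · rw [UM.val_smul, UM.val_mk, hx, smul_add, smul_mul', smul_natCast', smul_natCast', hfix g hg]
  · rw [Finset.sum_range_succ, Finset.sum_range_succ, Finset.sum_range_zero, zero_add, pow_zero,
      one_smul, pow_one, UM.val_add, UM.val_smul, UM.val_mk, hxn]
    rfl

include hH in
/-- Units pair trivially away from `p`. -/
theorem symb_units_eq_zero (hqp : q ≠ p) {a b : fixUM H (PadicAlgCl q)}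
    (ha : ‖a.1.val‖ = 1) (hb : ‖b.1.val‖ = 1) : symb (K.kum a) (K.kum b) = 0 := by
  by_cases hall : ∀ u : fixUM H (PadicAlgCl q), ‖u.1.val‖ = 1 → K.kum u = 0
  · rw [hall a ha, map_zero, LinearMap.zero_apply]
  push Not at hall
  obtain ⟨u₁, hu₁, hu₁0⟩ := hall
  obtain ⟨u, hu, hu0, huu⟩ : ∃ u : fixUM H (PadicAlgCl q),
      ‖u.1.val‖ = 1 ∧ K.kum u ≠ 0 ∧ symb (K.kum u) (K.kum u) = 0 := by
    by_cases hp2 : p = 2
    · let m : fixUM H (PadicAlgCl q) :=
        ⟨UM.mk (-1 : PadicAlgCl q) (neg_ne_zero.2 one_ne_zero), fun g => UM.ext (by simp)⟩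
      have hm : m.1.val = -1 := rfl
      by_cases hm0 : K.kum m = 0
      · refine ⟨u₁, hu₁, hu₁0, ?_⟩
        have := K.symb_neg_self hp2 (a := u₁) (b := u₁ + m) (by
          rw [AddSubgroup.coe_add, UM.val_add, hm, mul_neg_one])
        rwa [map_add, hm0, add_zero] at this
      · exact ⟨m, by rw [hm, norm_neg, norm_one], hm0,
          symb_neg_one_self hH K hp2 (hp2 ▸ hqp) hm⟩
    · refine ⟨u₁, hu₁, hu₁0, ?_⟩
      have h2 : (2 : ZMod p) ≠ 0 := fun h2 => hp2
        ((Nat.prime_dvd_prime_iff_eq hp.out Nat.prime_two).1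
          ((ZMod.natCast_eq_zero_iff 2 p).1 (by exact_mod_cast h2)))
      have h : symb (K.kum u₁) (K.kum u₁) + symb (K.kum u₁) (K.kum u₁) = 0 :=
        add_eq_zero_iff_eq_neg.2 (symb_comm (K.kum u₁) (K.kum u₁))
      rw [← two_smul (ZMod p)] at h
      exact (smul_eq_zero.1 h).resolve_left h2
  obtain ⟨i, hi⟩ := exists_kum_eq_smul hH K hqp hu hu0 ha
  obtain ⟨j, hj⟩ := exists_kum_eq_smul hH K hqp hu hu0 hb
  simp only [hi, hj, map_smul, LinearMap.smul_apply, huu, smul_zero]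

variable {π : fixUM H (PadicAlgCl q)}

include hH in
/-- A class of a unit and a class of a uniformiser pair nontrivially, and the unit classes are
their own orthogonal complement. -/
theorem symb_unit_unif_ne_zero (hqp : q ≠ p)
    (hval : ∀ a : fixUM H (PadicAlgCl q), ∃ n : ℤ, ‖a.1.val‖ = ‖π.1.val‖ ^ n)
    {u : fixUM H (PadicAlgCl q)} (hu : ‖u.1.val‖ = 1) (hu0 : K.kum u ≠ 0) :
    symb (K.kum u) (K.kum π) ≠ 0 := by
  intro h
  obtain ⟨-, -, -, hnd⟩ := exists_generator_H2 hH K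
  obtain ⟨z, hz⟩ := hnd _ hu0
  obtain ⟨c, rfl⟩ := K.kum_surjective z
  obtain ⟨n, hn⟩ := hval c
  have hc : ‖(c - n • π).1.val‖ = 1 := by
    rw [AddSubgroupClass.coe_sub, AddSubgroupClass.coe_zsmul, UM.val_sub, norm_div, UM.norm_zsmul,
      hn, div_self (zpow_ne_zero _ (norm_ne_zero_iff.2 (UM.val_ne_zero _)))]
  refine hz ?_
  rw [show c = (c - n • π) + n • π by abel, map_add, map_add, symb_units_eq_zero hH K hqp hu hc,
    map_zsmul, map_zsmul, h, zsmul_zero, add_zero]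

include hH in
/-- A class outside the unit classes pairs nontrivially with every nonzero unit class. -/
theorem symb_unit_ne_zero_of_not_unit (hqp : q ≠ p)
    (hval : ∀ a : fixUM H (PadicAlgCl q), ∃ n : ℤ, ‖a.1.val‖ = ‖π.1.val‖ ^ n)
    {u x : fixUM H (PadicAlgCl q)} (hu : ‖u.1.val‖ = 1) (hu0 : K.kum u ≠ 0)
    (hx : ¬ ∃ w : fixUM H (PadicAlgCl q), ‖w.1.val‖ = 1 ∧ K.kum x = K.kum w) :
    symb (K.kum u) (K.kum x) ≠ 0 := by
  obtain ⟨n, hn⟩ := hval x
  have hc : ‖(x - n • π).1.val‖ = 1 := by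
    rw [AddSubgroupClass.coe_sub, AddSubgroupClass.coe_zsmul, UM.val_sub, norm_div, UM.norm_zsmul,
      hn, div_self (zpow_ne_zero _ (norm_ne_zero_iff.2 (UM.val_ne_zero _)))]
  have hn0 : (n : ZMod p) ≠ 0 := fun h => hx ⟨x - n • π, hc, by
    rw [map_sub, map_zsmul, ← Int.cast_smul_eq_zsmul (ZMod p), h, zero_smul, sub_zero]⟩
  rw [show x = (x - n • π) + n • π by abel, map_add, map_add, symb_units_eq_zero hH K hqp hu hc,
    map_zsmul, map_zsmul, zero_add, ← Int.cast_smul_eq_zsmul (ZMod p)]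
  exact smul_ne_zero hn0 (symb_unit_unif_ne_zero hH K hqp hval hu hu0)

end FA.GalCoh
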