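import Fermat.Agent.GalCoh.LocalUnits
import Fermat.Agent.GalCoh.Herbrand
import Fermat.Prelude.Def_GaloisRep_ComplexConjugation

/-!
Localisation of classes at the places of a number field, splitting of a cyclic extension and the
places of the extension.
-/

set_option autoImplicit false
set_option linter.unusedSectionVars false

noncomputable section

namespace FA.GalCoh

open IntermediateField

/-! ### Totally imaginary fields -/

/-- No conjugate of complex conjugation fixes the field. -/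
def TC (H : Subgroup GQ) : Prop := ∀ g : GQ, g * complexConjugation * g⁻¹ ∉ H

theorem TC.mono {H H' : Subgroup GQ} (h : TC H) (hle : H' ≤ H) : TC H' :=
  fun g hg => h g (hle hg)

theorem isTotallyComplex_of_tc {H : Subgroup GQ} (hH : H ∈ LQ.carrier) (hT : TC H)
    [NumberField (fixedField H)] : NumberField.IsTotallyComplex (fixedField H) := by
  refine ⟨fun w => NumberField.InfinitePlace.isComplex_iff.2 fun hreal => ?_⟩
  set φ := w.embedding
  obtain ⟨ψ, hψ⟩ : ∃ ψ : AlgebraicClosure ℚ →ₐ[ℚ] ℂ, ∀ a : fixedField H, ψ a = φ a := by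
    let _ : Algebra (fixedField H) ℂ := φ.toAlgebra
    have : Algebra.IsAlgebraic (fixedField H) (AlgebraicClosure ℚ) :=
      Algebra.IsAlgebraic.tower_top (K := ℚ) (fixedField H)
    let ψ : AlgebraicClosure ℚ →ₐ[fixedField H] ℂ := IsAlgClosed.lift
    exact ⟨ψ.toRingHom.toRatAlgHom, fun a => ψ.commutes a⟩
  -- every embedding of `ℚ̄` is the standard one after an automorphism
  obtain ⟨e, he⟩ : ∃ g : GQ, ∀ x, ψ x = complexEmbedding (g x) := by
    let _ : Algebra (AlgebraicClosure ℚ) ℂ := complexEmbedding.toRingHom.toAlgebra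
    have : IsScalarTower ℚ (AlgebraicClosure ℚ) ℂ :=
      IsScalarTower.of_algebraMap_eq' (Subsingleton.elim _ _)
    refine ⟨AlgEquiv.ofBijective (ψ.restrictNormal' (AlgebraicClosure ℚ) : _ ≃ₐ[ℚ] _).toAlgHom
      (AlgEquiv.bijective _), fun x => ?_⟩
    exact (AlgHom.restrictNormal_commutes ψ (AlgebraicClosure ℚ) x).symm
  refine hT e⁻¹ ?_
  rw [← fixingSubgroup_fixedField_LQ hH, IntermediateField.mem_fixingSubgroup_iff]
  intro a ha
  have h := RingHom.congr_fun (NumberField.ComplexEmbedding.isReal_iff.1 hreal) ⟨a, ha⟩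
  rw [NumberField.ComplexEmbedding.conjugate_coe_eq, ← hψ, he] at h
  rw [inv_inv, AlgEquiv.mul_apply, AlgEquiv.mul_apply, AlgEquiv.aut_inv, AlgEquiv.symm_apply_eq]
  refine complexEmbedding.injective ?_
  show complexEmbedding (complexConjugation (e a)) = complexEmbedding (e a)
  rw [complexEmbedding_complexConjugation]
  exact h

theorem two_dvd_index_of_tc {H : Subgroup GQ} (hH : H ∈ LQ.carrier) (hT : TC H) :
    ∃ r, H.index = 2 * r := by
  have := finiteDimensional_fixedField hH
  have : NumberField (fixedField H) := { }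
  have := isTotallyComplex_of_tc hH hT
  refine ⟨NumberField.InfinitePlace.nrComplexPlaces (fixedField H), ?_⟩
  have h := NumberField.IsTotallyComplex.finrank (fixedField H)
  rwa [IntermediateField.finrank_eq_fixingSubgroup_index, fixingSubgroup_fixedField_LQ hH] at h

/-! ### Localisation -/

section Loc

variable {H : Subgroup GQ} {p : ℕ} [hp : Fact p.Prime]

/-- The fixed elements mapped into a local field. -/
def locEl (H : Subgroup GQ) (q : ℕ) [Fact q.Prime] (g : GQ) :
    fixUM H (AlgebraicClosure ℚ) →+ fixUM (hloc H q g) (PadicAlgCl q) :=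
  AddMonoidHom.mk' (fun a => ⟨UM.mk (emb q g a.1.val)
      ((_root_.map_ne_zero _).2 a.1.val_ne_zero), fun τ => UM.ext (by
      show (τ : LG q) (emb q g a.1.val) = emb q g a.1.val
      rw [← emb_locTo H g τ]
      exact congrArg _ (congrArg UM.val (a.2 (locTo H q g τ))))⟩)
    fun a b => Subtype.ext (UM.ext (by
      rw [UM.val_mk, AddSubgroup.coe_add, AddSubgroup.coe_add, UM.val_add, map_mul, UM.val_add]
      rfl))

theorem val_locEl (q : ℕ) [Fact q.Prime] (g : GQ) (a : fixUM H (AlgebraicClosure ℚ)) :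
    (locEl H q g a).1.val = emb q g a.1.val := rfl

/-- The Kummer data of a completion. -/
def locKum (K : KumData (LQ.sub H) (AlgebraicClosure ℚ) p) (q : ℕ) [Fact q.Prime] (g : GQ) :
    KumData ((LL q).sub (hloc H q g)) (PadicAlgCl q) p where
  gal := galAct_fieldLevels.sub (hloc H q g)
  ζ := emb q g K.ζ
  prim := K.prim.map_of_injective (emb q g).toRingHom.injective
  fixζ τ := by
    show (τ : LG q) (emb q g K.ζ) = emb q g K.ζ
    rw [← emb_locTo H g τ]
    exact congrArg _ (K.fixζ (locTo H q g τ))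
  root x := IsAlgClosed.exists_pow_nat_eq x hp.out.pos

variable (H) in
/-- Localisation in degree one. -/
abbrev locH1 (q : ℕ) [Fact q.Prime] (g : GQ) :
    H1 (LQ.sub H) (triv H p) →ₗ[ZMod p] H1 ((LL q).sub (hloc H q g)) (triv (hloc H q g) p) :=
  res1t (compat_locTo g)

variable (H) in
/-- Localisation in degree two. -/
abbrev locH2 (q : ℕ) [Fact q.Prime] (g : GQ) :
    H2 (LQ.sub H) (triv H p) →ₗ[ZMod p] H2 ((LL q).sub (hloc H q g)) (triv (hloc H q g) p) :=
  res2t (compat_locTo g)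

theorem locH1_kum (K : KumData (LQ.sub H) (AlgebraicClosure ℚ) p) (q : ℕ) [Fact q.Prime] (g : GQ)
    (a : fixUM H (AlgebraicClosure ℚ)) :
    locH1 H q g (K.kum a) = (locKum K q g).kum (locEl H q g a) := by
  rw [KumData.kum_apply, KumData.kum_apply]
  refine congrArg (mk1 _ (triv (hloc H q g) p))
    (Subtype.ext (funext fun τ => (locKum K q g).eps_injective (UM.ext ?_)))
  let A : UM (PadicAlgCl q) := UM.mk (emb q g (K.kroot a.1).val)
    ((_root_.map_ne_zero _).2 (K.kroot a.1).val_ne_zero)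
  have hA : p • A = (locEl H q g a).1 := UM.ext (by
    rw [UM.val_nsmul, UM.val_mk, ← map_pow, val_locEl, ← UM.val_nsmul, K.nsmul_kroot])
  rw [(locKum K q g).eps_kc _ hA τ, (locKum K q g).eps_val, UM.val_sub, UM.val_smul, UM.val_mk]
  show emb q g K.ζ ^ (K.kc a (locTo H q g τ)).val
    = (τ : LG q) (emb q g (K.kroot a.1).val) / emb q g (K.kroot a.1).val
  rw [← emb_locTo H g τ, ← map_pow, ← map_div₀, ← K.eps_val,
    K.eps_kc a (K.nsmul_kroot a.1), UM.val_sub, UM.val_smul]
  rfl

end Loc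

/-! ### Cyclic extensions -/

section Ext

variable {H : Subgroup GQ} {p : ℕ} [hp : Fact p.Prime] {χ : H → ZMod p}
variable (C : CycData (LQ.sub H) χ)

theorem group_aux₁ {G : Type} [Group G] {w a a' b c d : G} (e : w = a⁻¹ * b * c) (ha : a' = a⁻¹) :
    w = a' * (b * d) * (d⁻¹ * c) := by rw [e, ha]; group

theorem group_aux₂ {G : Type} [Group G] (t g a b : G) :
    g * a = t * (g * b) * (b⁻¹ * (g⁻¹ * t * g)⁻¹ * a) := by group

/-- The subgroup of the cyclic extension. -/
def extSub : Subgroup GQ := C.ker.map H.subtype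

theorem mem_extSub {g : GQ} : g ∈ extSub C ↔ ∃ h : g ∈ H, χ ⟨g, h⟩ = 0 :=
  ⟨fun ⟨⟨_, h⟩, hn, e⟩ => by subst e; exact ⟨h, hn⟩, fun ⟨h, hn⟩ => ⟨⟨g, h⟩, hn, rfl⟩⟩

theorem extSub_le : extSub C ≤ H := Subgroup.map_subtype_le _

theorem extSub_mem (hH : H ∈ LQ.carrier) : extSub C ∈ LQ.carrier := by
  obtain ⟨_, ⟨N, hN, rfl⟩, h⟩ := C.lc
  obtain ⟨E, hE, hle⟩ := LQ.inf_mem hN hH
  refine ⟨E, hE, fun g hg => (mem_extSub C).2 ⟨(hle hg).2, ?_⟩⟩
  have := h 1 ⟨g, (hle hg).2⟩ (hle hg).1
  rwa [one_mul, C.map_one] at this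

theorem index_extSub : (extSub C).index = p * H.index := by
  rw [extSub, ← Subgroup.relIndex_mul_index (Subgroup.map_subtype_le C.ker), Subgroup.relIndex,
    show (C.ker.map H.subtype).subgroupOf H = C.ker from
      Subgroup.comap_map_eq_self_of_injective H.subtype_injective _]
  congr 1
  let φ : H →* Multiplicative (ZMod p) :=
    MonoidHom.mk' (fun g => Multiplicative.ofAdd (χ g)) fun g h => by rw [C.hom, ofAdd_add]
  have hφ : φ.ker = C.ker := by
    ext g
    exact Iff.rfl
  rw [← hφ, Subgroup.index_ker, MonoidHom.range_eq_top.2, Subgroup.card_top]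
  · simp
  · intro z
    refine ⟨C.σ ^ (Multiplicative.toAdd z).val, ?_⟩
    show Multiplicative.ofAdd (χ _) = z
    rw [C.map_pow_σ, ZMod.natCast_zmod_val]; rfl

/-- A place splits in the cyclic extension. -/
def Split (v : Place H) : Prop := locH1 (p := p) H v.1 v.rep C.cls = 0

theorem split_iff (v : Place H) :
    Split C v ↔ ∀ τ : v.sub, χ (locTo H v.1 v.rep τ) = 0 := by
  constructor
  · intro h τ
    have h' := mk1_triv_injective (h.trans (map_zero _).symm)
    exact congrFun (congrArg Subtype.val h') τ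
  · intro h
    rw [Split, ← map_zero (mk1 _ (triv v.sub p))]
    exact congrArg (mk1 _ (triv v.sub p)) (Subtype.ext (funext h))

/-- The place below. -/
def below (w : Place (extSub C)) : Place H := placeOf w.1 w.rep

/-- The places above a place. -/
def lift (v : Place H) (i : ZMod p) : Place (extSub C) :=
  placeOf v.1 (v.rep * ((C.σ ^ i.val : H) : GQ))

theorem below_placeOf (q : Nat.Primes) (g : GQ) :
    below C (placeOf q g) = placeOf (H := H) q g := by
  obtain ⟨τ, h, hh, e⟩ := placeOf_eq_iff.1 (placeOf_rep (placeOf (H := extSub C) q g))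
  exact placeOf_eq_iff.2 ⟨τ, h, extSub_le C hh, e⟩

theorem below_lift (v : Place H) (i : ZMod p) : below C (lift C v i) = v := by
  rw [lift, below_placeOf]
  conv_rhs => rw [← placeOf_rep v]
  exact placeOf_eq_iff.2 ⟨1, _, (C.σ ^ i.val : H).2, by rw [map_one, one_mul]⟩

theorem exists_lift (w : Place (extSub C)) : ∃ i, w = lift C (below C w) i := by
  obtain ⟨τ, h, hh, e⟩ := placeOf_eq_iff.1 (placeOf_rep (below C w))
  have e' : w.rep = (loc _ τ)⁻¹ * (below C w).rep * h⁻¹ := by
    show w.rep = (loc _ τ)⁻¹ * (below C w).rep * h⁻¹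
    rw [show (below C w).rep = loc _ τ * w.rep * h from e]
    group
  refine ⟨χ ⟨h⁻¹, inv_mem hh⟩, ?_⟩
  conv_lhs => rw [← placeOf_rep w]
  refine placeOf_eq_iff.2 ⟨τ⁻¹,
    ((C.σ ^ (χ ⟨h⁻¹, inv_mem hh⟩).val : H) : GQ)⁻¹ * h⁻¹, ?_, ?_⟩
  · refine (mem_extSub C).2 ⟨mul_mem (inv_mem (C.σ ^ _ : H).2) (inv_mem hh), ?_⟩
    show χ ((C.σ ^ _)⁻¹ * ⟨h⁻¹, inv_mem hh⟩) = 0
    rw [C.hom, C.map_inv, C.map_pow_σ, ZMod.natCast_zmod_val, neg_add_cancel]
  · exact group_aux₁ e' (map_inv _ τ)

theorem lift_eq_iff (v : Place H) (i j : ZMod p) :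
    lift C v i = lift C v j ↔ ∃ τ : v.sub, χ (locTo H v.1 v.rep τ) = i - j := by
  constructor
  · intro h
    obtain ⟨τ, s, hs, e⟩ := placeOf_eq_iff.1 h
    obtain ⟨hsH, hs0⟩ := (mem_extSub C).1 hs
    have e' : v.rep⁻¹ * loc _ τ * v.rep
        = ((C.σ ^ i.val * ⟨s, hsH⟩⁻¹ * (C.σ ^ j.val)⁻¹ : H) : GQ) := by
      rw [Subgroup.coe_mul, Subgroup.coe_mul, Subgroup.coe_inv, Subgroup.coe_inv,
        show ((C.σ ^ i.val : H) : GQ) = v.rep⁻¹ * (v.rep * ((C.σ ^ i.val : H) : GQ)) by group, e]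
      group
    refine ⟨⟨τ, (mem_hloc H).2 (by rw [e']; exact SetLike.coe_mem _)⟩, ?_⟩
    rw [show locTo H v.1 v.rep ⟨τ, _⟩ = C.σ ^ i.val * ⟨s, hsH⟩⁻¹ * (C.σ ^ j.val)⁻¹ from
      Subtype.ext e', C.hom, C.hom, C.map_inv, C.map_inv, C.map_pow_σ, C.map_pow_σ, hs0,
      ZMod.natCast_zmod_val, ZMod.natCast_zmod_val, neg_zero, add_zero, ← sub_eq_add_neg]
  · rintro ⟨τ, hτ⟩
    set h := locTo H v.1 v.rep τ with hh
    refine placeOf_eq_iff.2 ⟨τ, (((C.σ ^ j.val)⁻¹ * h⁻¹ * C.σ ^ i.val : H) : GQ),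
      (mem_extSub C).2 ⟨SetLike.coe_mem _, ?_⟩, ?_⟩
    · show χ ((C.σ ^ j.val)⁻¹ * h⁻¹ * C.σ ^ i.val) = 0
      rw [C.hom, C.hom, C.map_inv, C.map_inv, C.map_pow_σ, C.map_pow_σ, hτ,
        ZMod.natCast_zmod_val, ZMod.natCast_zmod_val]
      ring
    · exact group_aux₂ _ _ _ _

theorem absv_lift (v : Place H) (i : ZMod p) {a : AlgebraicClosure ℚ} (ha : a ∈ fixedField H) :
    (lift C v i).absv a = v.absv a := by
  have hfix := (mem_fixedField_iff _ _).1 ha
  rw [lift, absv_placeOf _ fun h hh => hfix h (extSub_le C hh), emb_mul,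
    hfix _ (C.σ ^ i.val : H).2]
  rfl

open Classical in
/-- The set of places above. -/
def placesAbove (T : Finset (Place H)) : Finset (Place (extSub C)) :=
  T.biUnion fun v => Finset.univ.image (lift C v)

theorem mem_placesAbove {T : Finset (Place H)} {w : Place (extSub C)} :
    w ∈ placesAbove C T ↔ below C w ∈ T := by
  classical
  rw [placesAbove, Finset.mem_biUnion]
  constructor
  · rintro ⟨v, hv, hw⟩
    obtain ⟨i, -, rfl⟩ := Finset.mem_image.1 hw
    rwa [below_lift]
  · intro h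
    obtain ⟨i, hi⟩ := exists_lift C w
    exact ⟨_, h, Finset.mem_image.2 ⟨i, Finset.mem_univ _, hi.symm⟩⟩

open Classical in
/-- The number of places above. -/
theorem card_placesAbove (T : Finset (Place H)) :
    (placesAbove C T).card + (p - 1) * (T.filter fun v => ¬ Split C v).card = p * T.card := by
  have hfib : ∀ v : Place H,
      (Finset.univ.image (lift C v)).card = if Split C v then p else 1 := by
    intro v
    by_cases hs : Split C v
    · rw [if_pos hs, Finset.card_image_of_injective, Finset.card_univ, ZMod.card]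
      intro i j hij
      obtain ⟨τ, hτ⟩ := (lift_eq_iff C v i j).1 hij
      rw [(split_iff C v).1 hs τ, eq_comm, sub_eq_zero] at hτ
      exact hτ
    · rw [if_neg hs, Finset.card_eq_one]
      rw [split_iff] at hs
      push Not at hs
      obtain ⟨τ, hτ⟩ := hs
      refine ⟨lift C v 0, Finset.eq_singleton_iff_unique_mem.2
        ⟨Finset.mem_image.2 ⟨0, Finset.mem_univ _, rfl⟩, fun w hw => ?_⟩⟩
      obtain ⟨i, -, rfl⟩ := Finset.mem_image.1 hw
      refine (lift_eq_iff C v i 0).2 ⟨τ ^ (i * (χ (locTo H v.1 v.rep τ))⁻¹).val, ?_⟩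
      have hpow : ∀ n : ℕ, χ (locTo H v.1 v.rep (τ ^ n))
          = n * χ (locTo H v.1 v.rep τ) := fun n => by
        induction n with
        | zero => simp [C.map_one]
        | succ n ih => rw [pow_succ, map_mul, C.hom, ih, Nat.cast_succ]; ring
      rw [hpow, ZMod.natCast_zmod_val, mul_assoc, inv_mul_cancel₀ hτ, mul_one, sub_zero]
  rw [placesAbove, Finset.card_biUnion, Finset.sum_congr rfl fun v _ => hfib v,
    Finset.sum_ite, Finset.sum_const, Finset.sum_const, smul_eq_mul, smul_eq_mul, mul_one,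
    ← Finset.card_filter_add_card_filter_not (s := T) (p := fun v => Split C v)]
  · generalize (T.filter fun v => Split C v).card = a
    generalize (T.filter fun v => ¬ Split C v).card = b
    obtain ⟨k, hk⟩ : ∃ k, p = k + 1 := ⟨p - 1, by have := hp.out.pos; omega⟩
    rw [hk, Nat.add_sub_cancel]
    ring
  · intro v _ v' _ hne
    rw [Function.onFun, Finset.disjoint_left]
    intro w hw hw'
    obtain ⟨i, -, rfl⟩ := Finset.mem_image.1 hw
    obtain ⟨j, -, hj⟩ := Finset.mem_image.1 hw'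
    exact hne (by rw [← below_lift C v i, ← hj, below_lift])

end Ext

end FA.GalCoh
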