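import Fermat.Agent.GalCoh.Places
import Fermat.Agent.Density.Frobenius

/-!
Ramification outside a finite set of primes, the finiteness of the class group in terms of places
and the groups of units outside a finite set of places.
-/

set_option autoImplicit false
set_option linter.unusedSectionVars false

noncomputable section

namespace FA.GalCoh

open IntermediateField NumberField
open scoped Pointwise nonZeroDivisors

/-! ### The prime ideal of an embedding -/

section Prime

variable (K : IntermediateField ℚ (AlgebraicClosure ℚ)) (q : ℕ) [hq : Fact q.Prime] (g : GQ)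

theorem isIntegral_ringOfIntegers (x : 𝓞 K) :
    IsIntegral ℤ (((x : K) : AlgebraicClosure ℚ)) :=
  map_isIntegral_int (algebraMap K (AlgebraicClosure ℚ)) (RingOfIntegers.isIntegral_coe x)

theorem coe_natCast_int (K : IntermediateField ℚ (AlgebraicClosure ℚ)) (n : ℕ) :
    (((n : 𝓞 K) : K) : AlgebraicClosure ℚ) = (n : AlgebraicClosure ℚ) := by simp

/-- The embedding of the integers into the integral ring. -/
def intHom : 𝓞 K →+* intRing q :=
  (((emb q g).toRingHom.comp (algebraMap K (AlgebraicClosure ℚ))).comp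
    (algebraMap (𝓞 K) K)).codRestrict (intRing q) fun x =>
      norm_emb_le_one_of_isIntegral g (isIntegral_ringOfIntegers K x)

/-- The prime ideal of an embedding. -/
def pid : Ideal (𝓞 K) := (intIdeal q).comap (intHom K q g)

theorem mem_pid {x : 𝓞 K} : x ∈ pid K q g ↔ ‖emb q g ((x : K) : AlgebraicClosure ℚ)‖ < 1 := Iff.rfl

instance isPrime_pid : (pid K q g).IsPrime := Ideal.comap_isPrime _ _

theorem natCast_mem_pid : (q : 𝓞 K) ∈ pid K q g := by
  rw [mem_pid, coe_natCast_int, map_natCast]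
  exact norm_q_lt_one

theorem pid_ne_bot : pid K q g ≠ ⊥ := fun h => by
  have := natCast_mem_pid K q g
  rw [h, Ideal.mem_bot] at this
  exact hq.out.ne_zero (Nat.cast_eq_zero.1 this)

instance isMaximal_pid [NumberField K] : (pid K q g).IsMaximal :=
  (isPrime_pid K q g).isMaximal (pid_ne_bot K q g)

end Prime

/-! ### Ramification -/

/-- Outside `S`, the absolute values on the fixed field of `H` take values in the powers of the
prime. -/
def Good (H : Subgroup GQ) (S : Finset Nat.Primes) : Prop :=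
  ∀ q ∉ S, ∀ (g : GQ), ∀ a ∈ fixedField H, a ≠ 0 →
    ∃ m : ℤ, ‖emb q g a‖ = ‖((q : ℕ) : PadicAlgCl q)‖ ^ m

theorem Good.mono {H : Subgroup GQ} {S S' : Finset Nat.Primes} (h : Good H S) (hS : S ⊆ S') :
    Good H S' := fun q hq => h q fun hq' => hq (hS hq')

theorem Good.of_le {H H' : Subgroup GQ} {S : Finset Nat.Primes} (h : Good H S) (hle : H ≤ H') :
    Good H' S := fun q hq g a ha => h q hq g a (fixedField_antitone hle ha)

theorem exists_inv_mul_of_unramified (F : IntermediateField ℚ (AlgebraicClosure ℚ))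
    [NumberField F] [IsGalois ℚ F] (q : ℕ) [hq : Fact q.Prime] (g : GQ)
    (hinert : ∀ σ : F ≃ₐ[ℚ] F, (∀ y : 𝓞 F, σ • y - y ∈ pid F q g) → σ = 1)
    {x : 𝓞 F} (hx : x ∈ pid F q g) : ∃ s y : 𝓞 F, s ∉ pid F q g ∧ s * x = (q : 𝓞 F) * y := by
  set P := pid F q g
  have : IsFractionRing (𝓞 F) F :=
    IsIntegralClosure.isFractionRing_of_finite_extension ℤ ℚ F (𝓞 F)
  have : Module.Finite ℤ (𝓞 F) := IsIntegralClosure.finite ℤ ℚ F (𝓞 F)
  have := IsGaloisGroup.of_isFractionRing (F ≃ₐ[ℚ] F) ℤ (𝓞 F) ℚ F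
  let pI : Ideal ℤ := Ideal.span {(q : ℤ)}
  have hpI : pI.IsMaximal := PrincipalIdealRing.isMaximal_of_irreducible
    (Nat.prime_iff_prime_int.mp hq.out).irreducible
  have hover : P.LiesOver pI := by
    refine ⟨hpI.eq_of_le (Ideal.IsPrime.ne_top') ?_⟩
    rw [Ideal.span_le, Set.singleton_subset_iff, SetLike.mem_coe, Ideal.mem_comap]
    simpa using natCast_mem_pid F q g
  have : Finite pI.ResidueField := by
    have : Finite (ℤ ⧸ pI) := by
      have : NeZero q := ⟨hq.out.ne_zero⟩
      exact Finite.of_equiv (ZMod q) (Int.quotientSpanNatEquivZMod q).symm.toEquiv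
    exact Finite.of_surjective _ pI.bijective_algebraMap_quotient_residueField.2
  have hcard : Nat.card (P.inertia (F ≃ₐ[ℚ] F)) = 1 := by
    rw [(Subgroup.eq_bot_iff_forall _).mpr fun σ (hσ : σ ∈ P.inertia (F ≃ₐ[ℚ] F)) => hinert σ hσ,
      Subgroup.card_bot]
  have hunr : Algebra.IsUnramifiedAt ℤ P := by
    rwa [Ideal.card_inertia_eq_ramificationIdxIn pI P,
      Ideal.ramificationIdxIn_eq_ramificationIdx pI P (F ≃ₐ[ℚ] F),
      Ideal.ramificationIdx_eq_one_iff] at hcard
  let _ := Localization.AtPrime.algebraOfLiesOver pI P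
  have hmap := ((Algebra.isUnramifiedAt_iff_map_eq ℤ pI P).1 hunr).2
  have hxm : algebraMap (𝓞 F) (Localization.AtPrime P) x ∈
      IsLocalRing.maximalIdeal (Localization.AtPrime P) :=
    (IsLocalization.AtPrime.to_map_mem_maximal_iff _ P x).2 hx
  rw [← hmap, Ideal.map_span, Set.image_singleton, Ideal.mem_span_singleton'] at hxm
  obtain ⟨z, hz⟩ := hxm
  obtain ⟨y, s, rfl⟩ := IsLocalization.exists_mk'_eq P.primeCompl z
  rw [IsScalarTower.algebraMap_apply ℤ (𝓞 F) (Localization.AtPrime P), mul_comm,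
    IsLocalization.mul_mk'_eq_mk'_of_mul, IsLocalization.mk'_eq_iff_eq_mul, ← map_mul,
    IsLocalization.eq_iff_exists P.primeCompl] at hz
  obtain ⟨t, ht⟩ := hz
  refine ⟨t * s, t * y, fun h => ?_, ?_⟩
  · exact (isPrime_pid F q g).mem_or_mem h |>.elim t.2 s.2
  · rw [eq_intCast] at ht
    push_cast at ht
    linear_combination -ht

/-- Almost all primes are unramified. -/
theorem exists_good {H : Subgroup GQ} (hH : H ∈ LQ.carrier) : ∃ S, Good H S := by
  classical
  obtain ⟨N, hN, hle, hn⟩ := LQ.exists_normal hH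
  set F := fixedField N
  have := finiteDimensional_fixedField hN
  have : NumberField F := { }
  have hFn : F.fixingSubgroup.Normal := by
    rw [fixingSubgroup_fixedField_LQ hN]; exact hn
  have : IsGalois ℚ F := (InfiniteGalois.normal_iff_isGalois F).mp hFn
  obtain ⟨m, hm, hunr⟩ := FA.Density.exists_unramified F
  refine ⟨(m.divisors.filter Nat.Prime).attach.image fun x => ⟨x.1, (Finset.mem_filter.1 x.2).2⟩,
    Good.of_le (fun q hq g a ha ha0 => ?_) hle⟩
  have hqm : ¬ (q : ℕ) ∣ m := fun hd => hq (Finset.mem_image.2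
    ⟨⟨q.1, Finset.mem_filter.2 ⟨Nat.mem_divisors.2 ⟨hd, hm⟩, q.2⟩⟩, Finset.mem_attach _ _, rfl⟩)
  have hinert : ∀ σ : F ≃ₐ[ℚ] F, (∀ y : 𝓞 F, σ • y - y ∈ pid F q g) → σ = 1 :=
    hunr q _ q.2 inferInstance (natCast_mem_pid F q g) hqm
  set c := ‖((q : ℕ) : PadicAlgCl q)‖
  have hc0 : 0 < c := norm_q_pos
  have key : ∀ k : ℕ, ∀ x : 𝓞 F, c ^ k < ‖emb q g ((x : F) : AlgebraicClosure ℚ)‖ →
      ∃ m : ℤ, ‖emb q g ((x : F) : AlgebraicClosure ℚ)‖ = c ^ m := by
    intro k
    induction k with
    | zero =>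
      intro x hx
      exact absurd (norm_emb_le_one_of_isIntegral g (isIntegral_ringOfIntegers F x))
        (not_le.2 (by simpa using hx))
    | succ k ih =>
      intro x hx
      by_cases hxP : x ∈ pid F q g
      · obtain ⟨s, y, hs, hsy⟩ := exists_inv_mul_of_unramified F q g hinert hxP
        have hs1 : ‖emb q g ((s : F) : AlgebraicClosure ℚ)‖ = 1 :=
          le_antisymm (norm_emb_le_one_of_isIntegral g (isIntegral_ringOfIntegers F s))
            (not_lt.1 hs)
        have e := congrArg (fun z : 𝓞 F => ‖emb q g ((z : F) : AlgebraicClosure ℚ)‖) hsy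
        simp only [map_mul, IntermediateField.coe_mul, norm_mul, hs1, one_mul, coe_natCast_int] at e
        rw [norm_emb_natCast] at e
        obtain ⟨m, hm⟩ := ih y (by
          rw [e] at hx
          rw [pow_succ'] at hx
          exact lt_of_mul_lt_mul_left hx hc0.le)
        exact ⟨m + 1, by rw [e, hm, zpow_add_one₀ hc0.ne', mul_comm]⟩
      · exact ⟨0, le_antisymm ((norm_emb_le_one_of_isIntegral g
          (isIntegral_ringOfIntegers F x)).trans_eq (zpow_zero c).symm)
          ((zpow_zero c).trans_le (not_lt.1 hxP))⟩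
  obtain ⟨n, hn0, hna⟩ := exists_nat_mul_isIntegral a
  have key' : ∀ b ∈ F, b ≠ 0 → IsIntegral ℤ b → ∃ m : ℤ, ‖emb q g b‖ = c ^ m := by
    intro b hb hb0 hbi
    let x : 𝓞 F := ⟨⟨b, hb⟩, (isIntegral_algebraMap_iff
      (B := AlgebraicClosure ℚ) (algebraMap F _).injective).1 hbi⟩
    obtain ⟨k, hk⟩ := exists_pow_lt_of_lt_one
      (norm_pos_iff.2 ((_root_.map_ne_zero (emb q g)).2 hb0)) (norm_q_lt_one (q := (q : ℕ)))
    exact key k x hk
  obtain ⟨m₁, hm₁⟩ := key' _ (mul_mem (IntermediateField.natCast_mem F n) ha)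
    (mul_ne_zero (Nat.cast_ne_zero.2 hn0) ha0) hna
  obtain ⟨m₂, hm₂⟩ := key' (n : AlgebraicClosure ℚ) (IntermediateField.natCast_mem F n)
    (Nat.cast_ne_zero.2 hn0) (isIntegral_algebraMap (R := ℤ) (x := (n : ℤ)) |> fun h => by simpa using h)
  refine ⟨m₁ - m₂, ?_⟩
  rw [map_mul, norm_mul, hm₂] at hm₁
  rw [zpow_sub₀ hc0.ne', eq_div_iff (zpow_ne_zero _ hc0.ne'), mul_comm, hm₁]

/-! ### Classes -/

section Classes

variable {H : Subgroup GQ} (hH : H ∈ LQ.carrier)

theorem finite_placeOver (hH : H ∈ LQ.carrier) (q : ℕ) [Fact q.Prime] : Finite (PlaceOver H q) := by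
  have := LQ.finiteIndex hH
  infer_instance

theorem absv_natCast (v : Place H) (n : ℕ) :
    v.absv (n : AlgebraicClosure ℚ) = ‖(n : PadicAlgCl v.1)‖ := by
  simp [Place.absv]

theorem absv_q_lt_one (v : Place H) : v.absv ((v.1 : ℕ) : AlgebraicClosure ℚ) < 1 := by
  rw [absv_natCast]; exact norm_q_lt_one

theorem absv_natCast_of_ne (v : Place H) {q : Nat.Primes} (h : v.1 ≠ q) :
    v.absv ((q : ℕ) : AlgebraicClosure ℚ) = 1 := by
  rw [absv_natCast]
  exact norm_natCast_eq_one fun hd => h (Subtype.ext ((Nat.prime_dvd_prime_iff_eq v.1.2 q.2).1 hd))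

theorem absv_pow (v : Place H) (a : AlgebraicClosure ℚ) (n : ℕ) : v.absv (a ^ n) = v.absv a ^ n := by
  simp [Place.absv]

theorem absv_le_one (v : Place H) (x : 𝓞 (fixedField H)) :
    v.absv ((x : fixedField H) : AlgebraicClosure ℚ) ≤ 1 :=
  norm_emb_le_one_of_isIntegral _ (isIntegral_ringOfIntegers _ x)

/-- The prime ideal of a place. -/
abbrev Place.ideal (v : Place H) : Ideal (𝓞 (fixedField H)) := pid (fixedField H) v.1 v.rep

theorem mem_placeIdeal {v : Place H} {x : 𝓞 (fixedField H)} :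
    x ∈ v.ideal ↔ v.absv ((x : fixedField H) : AlgebraicClosure ℚ) < 1 := Iff.rfl

include hH in
/-- An element of the prime of a place which is a unit at a given other place. -/
theorem exists_mem_ideal_unit {v w : Place H} (h : w ≠ v) :
    ∃ a ∈ v.ideal, w.absv ((a : fixedField H) : AlgebraicClosure ℚ) = 1 := by
  by_cases hq : w.1 = v.1
  · obtain ⟨q, c⟩ := v
    obtain ⟨q', c'⟩ := w
    obtain rfl : q' = q := hq
    obtain ⟨a, ha, hai, h1, hlt⟩ := exists_separating hH (q := (q' : ℕ)) (repQ c')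
    refine ⟨⟨⟨a, ha⟩, (isIntegral_algebraMap_iff (B := AlgebraicClosure ℚ)
      (algebraMap (fixedField H) _).injective).1 hai⟩, ?_, h1⟩
    refine hlt (repQ c) fun he => h ?_
    rw [placeQ_repQ, placeQ_repQ] at he
    rw [he]
  · refine ⟨((v.1 : ℕ) : 𝓞 (fixedField H)), natCast_mem_pid _ _ _, ?_⟩
    show w.absv (((((v.1 : ℕ) : 𝓞 (fixedField H)) : fixedField H) : AlgebraicClosure ℚ)) = 1
    rw [coe_natCast_int]
    exact absv_natCast_of_ne w hq

include hH in
/-- Every place has an element which is a unit at all other places. -/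
theorem exists_supported (v : Place H) :
    ∃ y ∈ fixedField H, y ≠ 0 ∧ v.absv y < 1 ∧ ∀ w, w ≠ v → w.absv y = 1 := by
  classical
  have := finiteDimensional_fixedField hH
  have : NumberField (fixedField H) := { }
  have : IsDedekindDomain (𝓞 (fixedField H)) := inferInstance
  set P : (Ideal (𝓞 (fixedField H)))⁰ :=
    ⟨v.ideal, mem_nonZeroDivisors_of_ne_zero (pid_ne_bot _ _ _)⟩ with hP
  set n := Fintype.card (ClassGroup (𝓞 (fixedField H)))
  have hn : 0 < n := Fintype.card_pos
  have h1 : ClassGroup.mk0 (P ^ n) = 1 := by rw [map_pow, pow_card_eq_one]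
  rw [ClassGroup.mk0_eq_one_iff] at h1
  obtain ⟨y, hy⟩ := h1
  rw [SubmonoidClass.coe_pow, Ideal.submodule_span_eq] at hy
  change v.ideal ^ n = Ideal.span {y} at hy
  have hyP : y ∈ v.ideal ^ n := hy ▸ Ideal.mem_span_singleton_self y
  have hy0 : y ≠ 0 := fun h => pow_ne_zero n (pid_ne_bot (fixedField H) v.1 v.rep) (by
    rw [show v.ideal = pid (fixedField H) v.1 v.rep from rfl] at hy
    rw [hy, h, Ideal.span_singleton_zero]
    rfl)
  refine ⟨((y : fixedField H) : AlgebraicClosure ℚ), SetLike.coe_mem _, ?_,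
    Ideal.pow_le_self hn.ne' hyP, fun w hw => le_antisymm (absv_le_one w y) ?_⟩
  · simpa using hy0
  obtain ⟨a, ha, haw⟩ := exists_mem_ideal_unit hH hw
  have : a ^ n ∈ Ideal.span {y} := hy ▸ Ideal.pow_mem_pow ha n
  obtain ⟨z, hz⟩ := Ideal.mem_span_singleton'.1 this
  have e := congrArg (fun t : 𝓞 (fixedField H) =>
    w.absv ((t : fixedField H) : AlgebraicClosure ℚ)) hz
  simp only [map_mul, map_pow, IntermediateField.coe_mul, IntermediateField.coe_pow, absv_mul,
    absv_pow, haw, one_pow] at e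
  rw [← e]
  exact mul_le_of_le_one_left (norm_nonneg _) (absv_le_one w z)

include hH in
/-- Outside a finite set of primes every place has an adapted uniformiser. -/
theorem exists_adapted : ∃ S : Finset Nat.Primes, Good H S ∧ ∀ v : Place H, v.1 ∉ S →
    ∃ y ∈ fixedField H, y ≠ 0 ∧ v.absv y = ‖((v.1 : ℕ) : PadicAlgCl v.1)‖ ∧
      ∀ w : Place H, w.1 ∉ S → w ≠ v → w.absv y = 1 := by
  classical
  obtain ⟨S₁, hS₁⟩ := exists_good hH
  have := finiteDimensional_fixedField hH
  have : NumberField (fixedField H) := { }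
  have hsur := ClassGroup.mk0_surjective (R := 𝓞 (fixedField H))
  choose J hJ using hsur
  set N := ∏ c, Ideal.absNorm (J c : Ideal (𝓞 (fixedField H)))
  have hN0 : N ≠ 0 := Finset.prod_ne_zero_iff.2 fun c _ h =>
    nonZeroDivisors.ne_zero (J c).2 (Ideal.absNorm_eq_zero_iff.1 h)
  refine ⟨S₁ ∪ (N.divisors.filter Nat.Prime).attach.image
      (fun x => ⟨x.1, (Finset.mem_filter.1 x.2).2⟩),
    hS₁.mono Finset.subset_union_left, fun v hv => ?_⟩
  set P : (Ideal (𝓞 (fixedField H)))⁰ :=
    ⟨v.ideal, mem_nonZeroDivisors_of_ne_zero (pid_ne_bot _ _ _)⟩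
  set c := ClassGroup.mk0 P
  obtain ⟨x, y, hx, hy, hxy⟩ := ClassGroup.mk0_eq_mk0_iff.1 (hJ c)
  -- `x • J = y • P`
  set n := Ideal.absNorm (J c : Ideal (𝓞 (fixedField H)))
  have hnJ : (n : 𝓞 (fixedField H)) ∈ (J c : Ideal (𝓞 (fixedField H))) := Ideal.absNorm_mem _
  have hnone : ∀ w : Place H, w.1 ∉ S₁ ∪ (N.divisors.filter Nat.Prime).attach.image
      (fun x => (⟨x.1, (Finset.mem_filter.1 x.2).2⟩ : Nat.Primes)) →
      w.absv ((n : fixedField H) : AlgebraicClosure ℚ) = 1 := by
    intro w hw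
    rw [show ((n : fixedField H) : AlgebraicClosure ℚ) = (n : AlgebraicClosure ℚ) by push_cast; rfl,
      absv_natCast]
    refine norm_natCast_eq_one fun hd => hw (Finset.mem_union_right _ (Finset.mem_image.2
      ⟨⟨w.1.1, Finset.mem_filter.2 ⟨Nat.mem_divisors.2 ⟨hd.trans
        (Finset.dvd_prod_of_mem _ (Finset.mem_univ c)), hN0⟩, w.1.2⟩⟩, Finset.mem_attach _ _, rfl⟩))
  set X := ((x : fixedField H) : AlgebraicClosure ℚ) with hX
  set Y := ((y : fixedField H) : AlgebraicClosure ℚ) with hY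
  have hY0 : Y ≠ 0 := by simpa [hY] using hy
  have hsupJ : ∀ w : Place H, w.1 ∉ S₁ ∪ (N.divisors.filter Nat.Prime).attach.image
      (fun x => (⟨x.1, (Finset.mem_filter.1 x.2).2⟩ : Nat.Primes)) →
      ∀ b : ℝ, (∀ t ∈ v.ideal, w.absv ((t : fixedField H) : AlgebraicClosure ℚ) ≤ b) →
      w.absv X ≤ w.absv Y * b := by
    intro w hw b hb
    have hmem : x * (n : 𝓞 (fixedField H)) ∈ Ideal.span {y} * v.ideal :=
      hxy ▸ Ideal.mul_mem_mul (Ideal.mem_span_singleton_self x) hnJ
    obtain ⟨t, ht, hteq⟩ := Ideal.mem_span_singleton_mul.1 hmem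
    have e := congrArg (fun t : 𝓞 (fixedField H) =>
      w.absv ((t : fixedField H) : AlgebraicClosure ℚ)) hteq
    simp only [map_mul, map_natCast, IntermediateField.coe_mul, absv_mul, hnone w hw, mul_one] at e
    rw [← e]
    exact mul_le_mul_of_nonneg_left (hb t ht) (norm_nonneg _)
  have hle : ∀ w : Place H, ∀ t ∈ v.ideal,
      w.absv Y * w.absv ((t : fixedField H) : AlgebraicClosure ℚ) ≤ w.absv X := by
    intro w t ht
    have hmem : y * t ∈ Ideal.span {x} * (J c : Ideal (𝓞 (fixedField H))) :=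
      hxy.symm ▸ Ideal.mul_mem_mul (Ideal.mem_span_singleton_self y) ht
    obtain ⟨j, -, hjeq⟩ := Ideal.mem_span_singleton_mul.1 hmem
    have e := congrArg (fun t : 𝓞 (fixedField H) =>
      w.absv ((t : fixedField H) : AlgebraicClosure ℚ)) hjeq
    simp only [map_mul, IntermediateField.coe_mul, absv_mul] at e
    rw [← e]
    exact mul_le_of_le_one_right (norm_nonneg _) (absv_le_one w j)
  have hX0 : X ≠ 0 := by simpa [hX] using hx
  refine ⟨X / Y, div_mem (SetLike.coe_mem _) (SetLike.coe_mem _), div_ne_zero hX0 hY0, ?_,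
    fun w hw hwv => ?_⟩
  · have hb : ∀ t ∈ v.ideal, v.absv ((t : fixedField H) : AlgebraicClosure ℚ)
        ≤ ‖((v.1 : ℕ) : PadicAlgCl v.1)‖ := by
      intro t ht
      by_cases ht0 : t = 0
      · rw [ht0]; simp [Place.absv]
      obtain ⟨m, hm⟩ := hS₁ v.1 (fun h => hv (Finset.mem_union_left _ h)) v.rep _
        (SetLike.coe_mem (t : fixedField H)) (by simpa using ht0)
      have h1 : v.absv ((t : fixedField H) : AlgebraicClosure ℚ) < 1 := ht
      rw [Place.absv, hm] at h1 ⊢
      have : (0 : ℤ) < m :=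
        (zpow_lt_one_iff_right_of_lt_one₀ norm_q_pos norm_q_lt_one).1 h1
      conv_rhs => rw [← zpow_one ‖((v.1 : ℕ) : PadicAlgCl v.1)‖]
      exact zpow_le_zpow_right_of_le_one₀ norm_q_pos norm_q_lt_one.le (by omega)
    have h2 := hle v _ (natCast_mem_pid (fixedField H) v.1 v.rep)
    rw [coe_natCast_int] at h2
    rw [absv_natCast] at h2
    have h3 := hsupJ v hv _ hb
    rw [Place.absv, map_div₀, norm_div, div_eq_iff (norm_ne_zero_iff.2 ((_root_.map_ne_zero _).2 hY0)),
      mul_comm]
    exact le_antisymm h3 h2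
  · obtain ⟨t, ht, htw⟩ := exists_mem_ideal_unit hH hwv
    have h2 := hle w t ht
    rw [htw, mul_one] at h2
    have h3 := hsupJ w hw 1 fun t _ => absv_le_one w t
    rw [mul_one] at h3
    rw [Place.absv, map_div₀, norm_div]
    exact (div_eq_one_iff_eq (norm_ne_zero_iff.2 ((_root_.map_ne_zero _).2 hY0))).2
      (le_antisymm h3 h2)

end Classes

/-! ### Units outside a finite set of places -/

section Units

variable (H : Subgroup GQ)

/-- The units outside a set of places. -/
def tUnits (T : Finset (Place H)) : AddSubgroup (fixUM H (AlgebraicClosure ℚ)) where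
  carrier := {a | ∀ v ∉ T, v.absv a.1.val = 1}
  zero_mem' v _ := by simp [Place.absv]
  add_mem' {a b} ha hb v hv := by
    rw [AddSubgroup.coe_add, UM.val_add, absv_mul, ha v hv, hb v hv, one_mul]
  neg_mem' {a} ha v hv := by
    rw [NegMemClass.coe_neg, UM.val_neg, Place.absv, map_inv₀, norm_inv]
    exact inv_eq_one.2 (ha v hv)

theorem tUnits_mono {T T' : Finset (Place H)} (h : T ⊆ T') : tUnits H T ≤ tUnits H T' :=
  fun _ ha v hv => ha v fun hvT => hv (h hvT)

variable {H}

theorem mem_fixedField_of_fixUM (a : fixUM H (AlgebraicClosure ℚ)) : a.1.val ∈ fixedField H :=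
  (mem_fixedField_iff _ _).2 fun g hg => congrArg UM.val (a.2 ⟨g, hg⟩)

/-- An element of the fixed field as a fixed element. -/
def mkFix {a : AlgebraicClosure ℚ} (ha : a ∈ fixedField H) (h0 : a ≠ 0) :
    fixUM H (AlgebraicClosure ℚ) :=
  ⟨UM.mk a h0, fun g => UM.ext ((mem_fixedField_iff _ _).1 ha g.1 g.2)⟩

@[simp] theorem val_mkFix {a : AlgebraicClosure ℚ} (ha : a ∈ fixedField H) (h0 : a ≠ 0) :
    (mkFix ha h0).1.val = a := rfl

theorem absv_val_nsmul (v : Place H) (n : ℕ) (a : fixUM H (AlgebraicClosure ℚ)) :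
    v.absv (n • a).1.val = v.absv a.1.val ^ n := by
  rw [AddSubgroupClass.coe_nsmul, UM.val_nsmul, absv_pow]

variable (hH : H ∈ LQ.carrier)

include hH in
theorem exists_finset_support (a : fixUM H (AlgebraicClosure ℚ)) :
    ∃ T : Finset (Place H), a ∈ tUnits H T := by
  classical
  obtain ⟨S, hS⟩ := exists_finset_norm_emb_eq_one a.1.val_ne_zero
  have := fun q : Nat.Primes => finite_placeOver hH (q : ℕ)
  let T : Finset (Place H) := S.sigma fun q => @Finset.univ (PlaceOver H (q : ℕ)) (Fintype.ofFinite _)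
  refine ⟨T, fun v hv => hS v.1 (fun h => hv ?_) v.rep⟩
  exact Finset.mem_sigma.2 ⟨h, @Finset.mem_univ _ (Fintype.ofFinite _) _⟩

/-- The places above a finite set of primes. -/
def placesOver (hH : H ∈ LQ.carrier) (S : Finset Nat.Primes) : Finset (Place H) :=
  haveI := fun q : Nat.Primes => finite_placeOver hH (q : ℕ)
  S.sigma fun q => @Finset.univ (PlaceOver H (q : ℕ)) (Fintype.ofFinite _)

theorem mem_placesOver {S : Finset Nat.Primes} {v : Place H} :
    v ∈ placesOver hH S ↔ v.1 ∈ S := by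
  have := fun q : Nat.Primes => finite_placeOver hH (q : ℕ)
  exact ⟨fun h => (Finset.mem_sigma.1 h).1, fun h => Finset.mem_sigma.2 ⟨h, @Finset.mem_univ _ (Fintype.ofFinite _) _⟩⟩

/-- The integral exponent of an element at a place. -/
theorem exists_ord (hH : H ∈ LQ.carrier) (v : Place H) (a : fixUM H (AlgebraicClosure ℚ)) :
    ∃ m : ℤ, v.absv a.1.val ^ Module.finrank ℚ_[(v.1 : ℕ)] (fixedField v.sub)
      = ((v.1 : ℕ) : ℝ) ^ m := by
  have := finiteDimensional_fixedField (hloc_mem (q := (v.1 : ℕ)) hH v.rep)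
  refine norm_pow_finrank (fixedField v.sub) _ ((mem_fixedField_iff _ _).2 fun τ hτ => ?_)
    ((_root_.map_ne_zero _).2 a.1.val_ne_zero)
  rw [← emb_locTo H v.rep ⟨τ, hτ⟩]
  exact congrArg _ (congrArg UM.val (a.2 (locTo H (v.1 : ℕ) v.rep ⟨τ, hτ⟩)))

/-- The exponent of an element at a place. -/
def ordV (hH : H ∈ LQ.carrier) (v : Place H) (a : fixUM H (AlgebraicClosure ℚ)) : ℤ :=
  (exists_ord hH v a).choose

theorem ordV_spec (v : Place H) (a : fixUM H (AlgebraicClosure ℚ)) :
    v.absv a.1.val ^ Module.finrank ℚ_[(v.1 : ℕ)] (fixedField v.sub)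
      = ((v.1 : ℕ) : ℝ) ^ ordV hH v a := (exists_ord hH v a).choose_spec

theorem ordV_unique (v : Place H) (a : fixUM H (AlgebraicClosure ℚ)) {m : ℤ}
    (h : v.absv a.1.val ^ Module.finrank ℚ_[(v.1 : ℕ)] (fixedField v.sub) = ((v.1 : ℕ) : ℝ) ^ m) :
    ordV hH v a = m := by
  have hq1 : (1 : ℝ) < ((v.1 : ℕ) : ℝ) := Nat.one_lt_cast.2 v.1.2.one_lt
  exact zpow_right_injective₀ (zero_lt_one.trans hq1) hq1.ne' ((ordV_spec hH v a).symm.trans h)

theorem ordV_add (v : Place H) (a b : fixUM H (AlgebraicClosure ℚ)) :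
    ordV hH v (a + b) = ordV hH v a + ordV hH v b := by
  refine ordV_unique hH v _ ?_
  have hq0 : ((v.1 : ℕ) : ℝ) ≠ 0 := Nat.cast_ne_zero.2 v.1.2.ne_zero
  rw [AddSubgroup.coe_add, UM.val_add, absv_mul, mul_pow, ordV_spec hH v a, ordV_spec hH v b,
    zpow_add₀ hq0]

theorem ordV_eq_zero_iff (v : Place H) (a : fixUM H (AlgebraicClosure ℚ)) :
    ordV hH v a = 0 ↔ v.absv a.1.val = 1 := by
  have := finiteDimensional_fixedField (hloc_mem (q := (v.1 : ℕ)) hH v.rep)
  constructor
  · intro h
    have e := ordV_spec hH v a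
    rw [h, zpow_zero] at e
    exact (pow_eq_one_iff_of_nonneg (norm_nonneg _) Module.finrank_pos.ne').1 e
  · intro h
    exact ordV_unique hH v a (by rw [h, one_pow, zpow_zero])

/-- The exponents at the places of `T`. -/
def ordMap (T : Finset (Place H)) : (tUnits H T : Type) →ₗ[ℤ] (T → ℤ) :=
  let f : (tUnits H T : Type) →+ (T → ℤ) :=
    AddMonoidHom.mk' (fun a v => ordV hH v.1 a.1) fun a b => funext fun v => by
      exact ordV_add hH v.1 a.1 b.1
  f.toIntLinearMap

theorem ordMap_eq_iff (T : Finset (Place H)) (a : tUnits H T) (v : T) :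
    ordMap hH T a v = 0 ↔ v.1.absv a.1.1.val = 1 := ordV_eq_zero_iff hH v.1 a.1

include hH in
theorem isIntegral_of_mem_tUnits_empty {a : fixUM H (AlgebraicClosure ℚ)}
    (ha : a ∈ tUnits H ∅) : IsIntegral ℤ a.1.val :=
  isIntegral_of_forall_norm_emb fun q g => by
    rw [← absv_placeOf g ((mem_fixedField_iff _ _).1 (mem_fixedField_of_fixUM a)),
      ha _ (Finset.notMem_empty _)]

/-- The units of the ring of integers. -/
def unitsEquiv : tUnits H ∅ ≃+ Additive (𝓞 (fixedField H))ˣ where
  toFun a := Additive.ofMul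
    { val := ⟨⟨a.1.1.val, mem_fixedField_of_fixUM a.1⟩, (isIntegral_algebraMap_iff
        (B := AlgebraicClosure ℚ) (algebraMap (fixedField H) _).injective).1
        (isIntegral_of_mem_tUnits_empty hH a.2)⟩
      inv := ⟨⟨(-a : tUnits H ∅).1.1.val, mem_fixedField_of_fixUM (-a : tUnits H ∅).1⟩,
        (isIntegral_algebraMap_iff (B := AlgebraicClosure ℚ)
        (algebraMap (fixedField H) _).injective).1 (isIntegral_of_mem_tUnits_empty hH (-a).2)⟩
      val_inv := RingOfIntegers.ext (Subtype.ext (by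
        show a.1.1.val * (-a : tUnits H ∅).1.1.val = 1
        rw [NegMemClass.coe_neg, NegMemClass.coe_neg, UM.val_neg]
        exact mul_inv_cancel₀ a.1.1.val_ne_zero))
      inv_val := RingOfIntegers.ext (Subtype.ext (by
        show (-a : tUnits H ∅).1.1.val * a.1.1.val = 1
        rw [NegMemClass.coe_neg, NegMemClass.coe_neg, UM.val_neg]
        exact inv_mul_cancel₀ a.1.1.val_ne_zero)) }
  invFun u := ⟨mkFix (SetLike.coe_mem ((Additive.toMul u).1 : fixedField H)) (by simp),
    fun v _ => le_antisymm (absv_le_one v _) (by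
      have h := congrArg (fun t : 𝓞 (fixedField H) =>
        v.absv ((t : fixedField H) : AlgebraicClosure ℚ)) (Additive.toMul u).val_inv
      simp only [map_mul, IntermediateField.coe_mul, absv_mul] at h
      rw [val_mkFix]
      calc (1 : ℝ) = _ := by rw [← show v.absv ((1 : 𝓞 (fixedField H)) : fixedField H) = 1 by
              simp [Place.absv]]
        _ = _ := h.symm
        _ ≤ _ := mul_le_of_le_one_right (norm_nonneg _) (absv_le_one v _))⟩
  left_inv a := Subtype.ext (Subtype.ext (UM.ext rfl))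
  right_inv u := by
    refine Additive.toMul.injective (Units.ext ?_)
    rfl
  map_add' a b := by
    refine Additive.toMul.injective (Units.ext (RingOfIntegers.ext (Subtype.ext ?_)))
    show (a + b).1.1.val = a.1.1.val * b.1.1.val
    rw [AddSubgroup.coe_add, AddSubgroup.coe_add, UM.val_add]

/-- The kernel of the exponent map. -/
def kerOrdEquiv (T : Finset (Place H)) :
    LinearMap.ker (ordMap hH T) ≃ₗ[ℤ] tUnits H ∅ :=
  AddEquiv.toIntLinearEquiv
    { toFun := fun a => ⟨a.1.1, fun v _ => by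
        by_cases hv : v ∈ T
        · exact (ordMap_eq_iff hH T a.1 ⟨v, hv⟩).1 (congrFun (LinearMap.mem_ker.1 a.2) _)
        · exact a.1.2 v hv⟩
      invFun := fun a => ⟨⟨a.1, fun v _ => a.2 v (Finset.notMem_empty v)⟩,
        LinearMap.mem_ker.2 (funext fun v =>
          (ordMap_eq_iff hH T _ v).2 (a.2 v.1 (Finset.notMem_empty _)))⟩
      left_inv := fun a => rfl
      right_inv := fun a => rfl
      map_add' := fun a b => rfl }

include hH in
/-- Units outside finitely many places form a finitely generated group. -/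
theorem finite_tUnits (T : Finset (Place H)) : Module.Finite ℤ (tUnits H T) := by
  have := finiteDimensional_fixedField hH
  have : NumberField (fixedField H) := { }
  have hK : Module.Finite ℤ (LinearMap.ker (ordMap hH T)) :=
    Module.Finite.equiv (((unitsEquiv hH).toIntLinearEquiv.symm).trans (kerOrdEquiv hH T).symm)
  have : Module.Finite ℤ (tUnits H T ⧸ LinearMap.ker (ordMap hH T)) :=
    Module.Finite.equiv (ordMap hH T).quotKerEquivRange.symm
  exact Module.Finite.of_submodule_quotient (LinearMap.ker (ordMap hH T))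

include hH in
theorem finrank_range_ordMap (T : Finset (Place H)) :
    Module.finrank ℤ (LinearMap.range (ordMap hH T)) = T.card := by
  classical
  refine le_antisymm ((Submodule.finrank_le _).trans (by simp)) ?_
  choose y hy hy0 hylt hyone using fun v : T => exists_supported hH v.1
  have hex : ∀ v : T, ∃ a : tUnits H T, a.1.1.val = y v := fun v =>
    ⟨⟨mkFix (hy v) (hy0 v), fun w hw => by
      rw [val_mkFix]; exact hyone v w fun h => hw (h ▸ v.2)⟩, val_mkFix (hy v) (hy0 v)⟩
  choose u hu using hex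
  have hzero : ∀ v w : T, w ≠ v → ordMap hH T (u v) w = 0 := fun v w h =>
    (ordMap_eq_iff hH T _ w).2 (by rw [hu v]; exact hyone v w.1 fun h' => h (Subtype.ext h'))
  have hne : ∀ v : T, ordMap hH T (u v) v ≠ 0 := fun v h => by
    have := (ordMap_eq_iff hH T _ v).1 h
    rw [hu v] at this
    exact (hylt v).ne this
  have hli : LinearIndependent ℤ fun v : T => ordMap hH T (u v) := by
    refine Fintype.linearIndependent_iff.2 fun c hc w => ?_
    have := congrFun hc w
    simp only [Finset.sum_apply, Pi.smul_apply, Pi.zero_apply] at this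
    rw [Finset.sum_eq_single w (fun v _ hv => by rw [hzero v w hv.symm, smul_zero])
      (fun h => absurd (Finset.mem_univ _) h)] at this
    exact (smul_eq_zero.1 this).resolve_right (hne w)
  have hspan : Submodule.span ℤ (Set.range fun v : T => ordMap hH T (u v))
      ≤ LinearMap.range (ordMap hH T) := Submodule.span_le.2 (by
    rintro _ ⟨v, rfl⟩
    exact LinearMap.mem_range_self _ _)
  have h := finrank_span_eq_card hli
  rw [Fintype.card_coe] at h
  exact h ▸ Submodule.finrank_mono hspan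

include hH in
theorem finrank_ker_ordMap (T : Finset (Place H)) [NumberField (fixedField H)] :
    Module.finrank ℤ (LinearMap.ker (ordMap hH T)) = NumberField.Units.rank (fixedField H) := by
  rw [(kerOrdEquiv hH T).finrank_eq, (unitsEquiv hH).toIntLinearEquiv.finrank_eq,
    NumberField.Units.finrank_eq]

include hH in
theorem rank_add_one [NumberField (fixedField H)] [NumberField.IsTotallyComplex (fixedField H)]
    {r : ℕ} (hr : H.index = 2 * r) : NumberField.Units.rank (fixedField H) + 1 = r := by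
  classical
  rw [NumberField.Units.rank]
  have hcard : Fintype.card (InfinitePlace (fixedField H)) = r := by
    rw [InfinitePlace.card_eq_nrRealPlaces_add_nrComplexPlaces,
      NumberField.IsTotallyComplex.nrRealPlaces_eq_zero, zero_add]
    have h := NumberField.IsTotallyComplex.finrank (fixedField H)
    rw [IntermediateField.finrank_eq_fixingSubgroup_index, fixingSubgroup_fixedField_LQ hH] at h
    omega
  have : 0 < Fintype.card (InfinitePlace (fixedField H)) := Fintype.card_pos
  omega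

include hH in
/-- The rank of the group of units outside finitely many places. -/
theorem finrank_tUnits (T : Finset (Place H)) [NumberField (fixedField H)]
    [NumberField.IsTotallyComplex (fixedField H)] {r : ℕ} (hr : H.index = 2 * r) :
    Module.finrank ℤ (tUnits H T) + 1 = r + T.card := by
  have := finite_tUnits hH T
  have h1 := Submodule.finrank_quotient_add_finrank (LinearMap.ker (ordMap hH T))
  have h2 := (ordMap hH T).quotKerEquivRange.finrank_eq
  rw [finrank_range_ordMap hH T] at h2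
  rw [h2, finrank_ker_ordMap hH T] at h1
  have h3 := rank_add_one hH hr
  omega

/-- The index of the multiples of `p` in a finitely generated abelian group. -/
theorem index_nsmul_range_fg {M : Type} [AddCommGroup M] [Module.Finite ℤ M] {p : ℕ} (hp : p ≠ 0) :
    (nsmulAddMonoidHom (α := M) p).range.index
      = p ^ Module.finrank ℤ M * Nat.card (nsmulAddMonoidHom (α := M) p).ker := by
  classical
  obtain ⟨n, hn, hkill⟩ : ∃ n : ℕ, n ≠ 0 ∧ ∀ x ∈ Submodule.torsion ℤ M, n • x = 0 := by
    have : Module.Finite ℤ (Submodule.torsion ℤ M) := inferInstance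
    have : Finite (Submodule.torsion ℤ M) := Module.finite_of_fg_torsion _ Submodule.torsion_isTorsion
    refine ⟨Nat.card (Submodule.torsion ℤ M), Nat.card_pos.ne', fun x hx => ?_⟩
    exact congrArg Subtype.val (card_nsmul_eq_zero' (x := (⟨x, hx⟩ : Submodule.torsion ℤ M)))
  set B := (nsmulAddMonoidHom (α := M) n).range
  have htf : Module.IsTorsionFree ℤ B.toIntSubmodule := by
    rw [Submodule.isTorsionFree_iff_torsion_eq_bot, Submodule.eq_bot_iff]
    rintro ⟨_, m, rfl⟩ hx
    obtain ⟨c, hc⟩ := (Submodule.mem_torsion_iff _).1 hx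
    refine Subtype.ext (hkill m ((Submodule.mem_torsion_iff _).2
      ⟨⟨(c : ℤ) * n, mem_nonZeroDivisors_of_ne_zero
        (mul_ne_zero (nonZeroDivisors.ne_zero c.2) (Nat.cast_ne_zero.2 hn))⟩, ?_⟩))
    show ((c : ℤ) * n) • m = 0
    rw [mul_smul, natCast_zsmul]
    exact congrArg Subtype.val hc
  have : Module.Free ℤ B.toIntSubmodule := Module.free_of_finite_type_torsion_free'
  have hBker : B ⊓ (nsmulAddMonoidHom (α := M) p).ker = ⊥ := by
    refine (AddSubgroup.eq_bot_iff_forall _).2 fun x hx => ?_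
    have h : (p : ℤ) • (⟨x, hx.1⟩ : B.toIntSubmodule) = 0 :=
      Subtype.ext (show (p : ℤ) • x = 0 by rw [natCast_zsmul]; exact hx.2)
    exact congrArg Subtype.val ((smul_eq_zero.1 h).resolve_left (Nat.cast_ne_zero.2 hp))
  have hidx : B.index ≠ 0 := by
    have : Finite (M ⧸ B.toIntSubmodule) := by
      refine Module.finite_of_fg_torsion _ fun {x} => ?_
      obtain ⟨x, rfl⟩ := Submodule.Quotient.mk_surjective _ x
      refine ⟨⟨n, mem_nonZeroDivisors_of_ne_zero (Nat.cast_ne_zero.2 hn)⟩, ?_⟩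
      rw [Submonoid.smul_def, ← Submodule.Quotient.mk_smul]
      refine (Submodule.Quotient.mk_eq_zero _).2 ⟨x, ?_⟩
      simp
    have : Finite (M ⧸ B) := ‹Finite (M ⧸ B.toIntSubmodule)›
    exact AddSubgroup.index_ne_zero_of_finite (H := B)
  have hrank : Module.finrank ℤ B.toIntSubmodule = Module.finrank ℤ M := by
    have h := Submodule.finrank_quotient_add_finrank B.toIntSubmodule
    rw [← h, eq_comm, Nat.add_eq_right]
    refine Module.finrank_eq_zero_iff.2 fun x => ⟨n, Nat.cast_ne_zero.2 hn, ?_⟩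
    obtain ⟨x, rfl⟩ := Submodule.Quotient.mk_surjective _ x
    rw [← Submodule.Quotient.mk_smul]
    exact (Submodule.Quotient.mk_eq_zero _).2 ⟨x, by simp⟩
  have h1 := relIndex_map_ker (nsmulAddMonoidHom (α := M) p) (le_top : B ≤ ⊤)
  rw [hBker, top_inf_eq, AddSubgroup.relIndex_bot_left, ← AddMonoidHom.range_eq_map,
    AddSubgroup.relIndex_top_right] at h1
  set f := nsmulAddMonoidHom (α := M) p
  have h2 := AddSubgroup.relIndex_mul_relIndex (B.map f) B ⊤
    (fun x hx => by obtain ⟨y, hy, rfl⟩ := hx; exact nsmul_mem hy p) le_top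
  have h3 := AddSubgroup.relIndex_mul_relIndex (B.map f) f.range ⊤ (AddSubgroup.map_le_range _ _) le_top
  rw [AddSubgroup.relIndex_map_nsmul, AddSubgroup.relIndex_top_right,
    AddSubgroup.relIndex_top_right] at h2
  rw [AddSubgroup.relIndex_top_right, AddSubgroup.relIndex_top_right, ← h2] at h3
  have hp' : (B.map f).relIndex f.range * Nat.card f.ker = B.index := h1
  have hpos : 0 < (B.map f).relIndex f.range := Nat.pos_of_ne_zero fun h => by
    rw [h, zero_mul] at hp'; exact hidx hp'.symm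
  refine Nat.eq_of_mul_eq_mul_left hpos ?_
  rw [h3, ← hp', ← hrank]
  rw [show Module.finrank ℤ B = Module.finrank ℤ B.toIntSubmodule from rfl]
  ring

end Units

end FA.GalCoh
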