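import Fermat.Agent.GalCoh.PermLocal

/-!
The image theorem for the second cohomology of permutation modules of totally imaginary fields
with the roots of unity: local classes orthogonal to the constants come from global classes.
-/

set_option autoImplicit false
set_option linter.unusedSectionVars false

noncomputable section

namespace FA.GalCoh

open Representation

variable {p : ℕ} [hp : Fact p.Prime]

theorem natCard_eq_pow {U : Type} [AddCommGroup U] [Module (ZMod p) U] [Finite U] :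
    Nat.card U = p ^ Module.finrank (ZMod p) U := by
  have := Module.Finite.of_finite (R := ZMod p) (M := U)
  rw [Module.natCard_eq_pow_finrank (K := ZMod p) (V := U), Nat.card_zmod]

/-- An isotropic subspace of at least half the dimension is its own orthogonal complement. -/
theorem mem_of_orth {k W : Type} [Field k] [AddCommGroup W] [Module k W] [FiniteDimensional k W]
    (B : W →ₗ[k] Module.Dual k W) (hB : Function.Injective B) (U : Submodule k W)
    (hiso : ∀ a ∈ U, ∀ b ∈ U, B a b = 0)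
    (hdim : Module.finrank k W ≤ 2 * Module.finrank k U) {y : W} (hy : ∀ a ∈ U, B a y = 0) :
    y ∈ U := by
  set A := U.map B
  have hA : Module.finrank k A = Module.finrank k U :=
    (Submodule.equivMapOfInjective B hB U).finrank_eq.symm
  have hsub : U ≤ A.dualCoannihilator := fun b hb => by
    rw [Submodule.mem_dualCoannihilator]
    rintro _ ⟨a, ha, rfl⟩
    exact hiso a ha b hb
  have hann := Subspace.finrank_add_finrank_dualCoannihilator_eq A
  have hle : Module.finrank k A.dualCoannihilator ≤ Module.finrank k U := by omega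
  rw [Submodule.eq_of_le_of_finrank_le hsub hle, Submodule.mem_dualCoannihilator]
  rintro _ ⟨a, ha, rfl⟩
  exact hy a ha

namespace Trans

variable {X : Type} [Fintype X] [MulAction GQ X] (T : Trans LQ X)
variable (hμ : ∀ s ∈ T.H, ExtCitation.cycloChar p s = 1) {S : Finset Nat.Primes}

/-- The components of local classes at the places above `S`. -/
def compS (S : Finset Nat.Primes) : LocH1 S (T.perm p) →ₗ[ZMod p]
    ∀ v : {v // v ∈ placesOver T.mem_LQ S},
      H1 ((LL (v.1.1 : ℕ)).sub v.1.sub) (triv v.1.sub p) :=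
  LinearMap.pi fun v => T.locSh (v.1.1 : ℕ) v.1.rep ∘ₗ
    LinearMap.proj (⟨v.1.1, (mem_placesOver T.mem_LQ).1 v.2⟩ : {q : Nat.Primes // q ∈ S})

theorem compS_injective : Function.Injective (T.compS (p := p) S) := by
  refine (injective_iff_map_eq_zero _).2 fun y hy => funext fun q => ?_
  refine T.eq_zero_of_locSh_rep fun c => ?_
  exact congrFun hy ⟨(⟨q.1, c⟩ : Place T.H), (mem_placesOver T.mem_LQ).2 q.2⟩

section Count

variable (hT : TC T.H) (hpS : (⟨p, hp.out⟩ : Nat.Primes) ∈ S)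
variable (hgood : FA.GalCoh.Good T.H S) (had : Adapted T.H S)
variable (hunr : ∀ q : Nat.Primes, q ∉ S → UnrRep ((T.perm p).comp (loc (q : ℕ))))

include hμ hpS in
theorem finrank_LocH1_le : Finite (LocH1 S (T.perm p)) ∧
    Module.finrank (ZMod p) (LocH1 S (T.perm p))
      ≤ 2 * (placesOver T.mem_LQ S).card + T.H.index := by
  have hcard := natCard_pi_H1 T.mem_LQ (T.kum hμ) hpS
  have hfin : Finite (∀ v : {v // v ∈ placesOver T.mem_LQ S},
      H1 ((LL (v.1.1 : ℕ)).sub v.1.sub) (triv v.1.sub p)) :=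
    Nat.finite_of_card_ne_zero (by rw [hcard]; exact pow_ne_zero _ hp.out.ne_zero)
  have := Finite.of_injective _ (T.compS_injective (p := p) (S := S))
  refine ⟨this, ?_⟩
  have hle := Nat.card_le_card_of_injective _ (T.compS_injective (p := p) (S := S))
  rw [hcard, natCard_eq_pow (p := p)] at hle
  exact (Nat.pow_le_pow_iff_right hp.out.one_lt).1 hle

include hμ hT hpS hgood had hunr in
theorem locS_injOn {x : H1 LQ (T.perm p)} (hx : x ∈ unrOutside S (T.perm p))
    (h : locS S (T.perm p) x = 0) : x = 0 := by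
  classical
  obtain ⟨u, hu, hux⟩ := T.exists_unit_kum hμ had hunr hx
  have h0 : (T.kum hμ).kum u = 0 := by
    refine kum_eq_zero_of_loc (T.kum hμ) T.mem_LQ hT hpS hgood had (T' := ∅)
      (fun v hv => absurd hv (Finset.notMem_empty v)) (by rwa [Finset.union_empty]) fun v hv => ?_
    have h' : resq1 (v.1 : ℕ) (T.perm p) x = 0 :=
      congrFun h ⟨v.1, (mem_placesOver T.mem_LQ).1 hv⟩
    rw [hux, T.locH1_eq_locSh, h', map_zero]
  exact T.sh1_injective (σ := triv T.H p) (hux.symm.trans (h0.trans (map_zero _).symm))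

include hμ hT hpS hgood had hunr in
theorem natCard_unrOutside {r : ℕ} (hr : T.H.index = 2 * r) :
    Nat.card (unrOutside S (T.perm p)) = p ^ (r + (placesOver T.mem_LQ S).card) := by
  rw [← natCard_range_kumUnits T.mem_LQ hT (T.kum hμ) (placesOver T.mem_LQ S) hr]
  refine Nat.card_congr (Equiv.ofBijective
    (fun x => (⟨T.sh1 (triv T.H p) x.1, by
      obtain ⟨u, hu, hux⟩ := T.exists_unit_kum hμ had hunr x.2
      exact ⟨⟨u, hu⟩, hux⟩⟩ : (kumUnits (T.kum hμ) (placesOver T.mem_LQ S)).range))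
    ⟨fun x y h => Subtype.ext (T.sh1_injective (σ := triv T.H p) (congrArg Subtype.val h)), ?_⟩)
  rintro ⟨_, u, rfl⟩
  obtain ⟨x, hx⟩ := T.sh1_surjective (σ := triv T.H p) ((T.kum hμ).kum u.1)
  exact ⟨⟨x, T.kum_mem_unrOutside hμ hpS hunr u.2 hx⟩, Subtype.ext hx⟩

include hμ hT hpS hgood had hunr in
theorem finite_unrOutside : Finite (unrOutside S (T.perm p)) := by
  obtain ⟨r, hr⟩ := two_dvd_index_of_tc T.mem_LQ hT
  exact Nat.finite_of_card_ne_zero (by
    rw [T.natCard_unrOutside hμ hT hpS hgood had hunr hr]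
    exact pow_ne_zero _ hp.out.ne_zero)

set_option maxHeartbeats 800000 in
-- the instances on the local groups are slow to find
include hμ hT hpS hgood had hunr in
/-- The global classes are their own orthogonal complement. -/
theorem exists_global_of_orth (y : LocH1 S (T.perm p))
    (hy : ∀ x ∈ unrOutside S (T.perm p),
      ∑ q : {q // q ∈ S}, pair11Q (q.1 : ℕ) (T.permPair hμ) (resq1 (q.1 : ℕ) (T.perm p) x) (y q)
        = 0) :
    ∃ x ∈ unrOutside S (T.perm p), locS S (T.perm p) x = y := by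
  classical
  obtain ⟨r, hr⟩ := two_dvd_index_of_tc T.mem_LQ hT
  obtain ⟨hfinW, hleW⟩ := T.finrank_LocH1_le hμ hpS
  have := Module.Finite.of_finite (R := ZMod p) (M := LocH1 S (T.perm p))
  let B : LocH1 S (T.perm p) →ₗ[ZMod p] Module.Dual (ZMod p) (LocH1 S (T.perm p)) :=
    ∑ q : {q // q ∈ S}, (LinearMap.proj q).dualMap ∘ₗ
      pair11Q (q.1 : ℕ) (T.permPair hμ) ∘ₗ LinearMap.proj q
  have hB : ∀ a b, B a b
      = ∑ q : {q // q ∈ S}, pair11Q (q.1 : ℕ) (T.permPair hμ) (a q) (b q) := fun a b => by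
    simp [B, LinearMap.sum_apply]
  have hBinj : Function.Injective B := (injective_iff_map_eq_zero _).2 fun a ha => funext fun q =>
    (perfectQ (q.1 : ℕ) (T.permPair hμ)).bij11.1 (by
      refine LinearMap.ext fun b => ?_
      have h := LinearMap.congr_fun ha (Pi.single q b)
      rw [hB, LinearMap.zero_apply, Finset.sum_eq_single q
        (fun j _ hj => by rw [Pi.single_eq_of_ne hj, map_zero])
        (fun h => absurd (Finset.mem_univ _) h), Pi.single_eq_same] at h
      rw [h, Pi.zero_apply, map_zero, LinearMap.zero_apply])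
  set I := unrOutside S (T.perm p)
  have := T.finite_unrOutside hμ hT hpS hgood had hunr
  set U : Submodule (ZMod p) (LocH1 S (T.perm p)) := LinearMap.range ((locS S (T.perm p)).domRestrict I)
  have hUdim : Module.finrank (ZMod p) U = r + (placesOver T.mem_LQ S).card := by
    have hinj : Function.Injective ((locS S (T.perm p)).domRestrict I) :=
      (injective_iff_map_eq_zero _).2 fun x hx =>
        Subtype.ext (T.locS_injOn hμ hT hpS hgood had hunr x.2 (by
          rw [LinearMap.domRestrict_apply] at hx; exact hx))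
    rw [LinearMap.finrank_range_of_inj hinj]
    refine Nat.pow_right_injective hp.out.two_le ?_
    show p ^ Module.finrank (ZMod p) I = _
    rw [← natCard_eq_pow, T.natCard_unrOutside hμ hT hpS hgood had hunr hr]
  have hdim : Module.finrank (ZMod p) (LocH1 S (T.perm p)) ≤ 2 * Module.finrank (ZMod p) U := by
    omega
  obtain ⟨x, hx⟩ : y ∈ U := by
    refine mem_of_orth (k := ZMod p) (W := LocH1 S (T.perm p)) B hBinj U ?_ hdim ?_
    · rintro _ ⟨x, rfl⟩ _ ⟨z, rfl⟩
      rw [hB]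
      exact sum_pair11Q_eq_zero (T.permPair hμ) hpS hunr (fun _ => T.realAcyclic_perm hT) x.2 z.2
    · rintro _ ⟨x, rfl⟩
      rw [hB]
      exact hy x.1 x.2
  exact ⟨x.1, x.2, hx⟩

end Count

/-! ### The image theorem -/

section Image

/-- The product of two global classes. -/
def prod2 (a b : H1 LQ (T.perm p)) : H2 LQ (T.perm p) :=
  (T.bil_pmul (bil_triv (G := T.H) (p := p))).cup T.smooth_perm a b

theorem resq2_prod2 (q : ℕ) [Fact q.Prime] (a b : H1 LQ (T.perm p)) :
    resq2 q (T.perm p) (T.prod2 a b)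
      = ((T.bil_pmul (bil_triv (G := T.H) (p := p))).res (loc q)).cup
          (T.smooth_perm.comp compat_loc) (resq1 q (T.perm p) a) (resq1 q (T.perm p) b) := by
  obtain ⟨f, rfl⟩ := mk1_surjective a
  obtain ⟨f', rfl⟩ := mk1_surjective b
  rfl

theorem resq2_prod2_eq_zero {q : Nat.Primes} (hq : q ∉ S)
    (hunr : UnrRep ((T.perm p).comp (loc (q : ℕ)))) {a b : H1 LQ (T.perm p)}
    (ha : a ∈ unrOutside S (T.perm p)) (hb : b ∈ unrOutside S (T.perm p)) :
    resq2 (q : ℕ) (T.perm p) (T.prod2 a b) = 0 := by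
  rw [resq2_prod2]
  exact cupc_eq_zero_of_unr _ hunr hunr (T.smooth_perm.comp compat_loc)
    (T.smooth_perm.comp compat_loc) (T.smooth_perm.comp compat_loc)
    (mem_unrOutside.1 ha q hq) (mem_unrOutside.1 hb q hq)

theorem pair20Q_prod2 (q : ℕ) [Fact q.Prime] (a b : H1 LQ (T.perm p))
    (l : ↥(Representation.invariants ((T.perm p).comp (loc q)))) :
    pair20Q q (T.permPair hμ) (resq2 q (T.perm p) (T.prod2 a b)) l
      = pair11Q q (T.permPair hμ) (resq1 q (T.perm p) a) (T.mulInv l.2 (resq1 q (T.perm p) b)) := by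
  obtain ⟨f, rfl⟩ := mk1_surjective a
  obtain ⟨f', rfl⟩ := mk1_surjective b
  refine congrArg (localInv (cycL p q)) (congrArg (mk2 (LL q) (chr (cycL p q).χ))
    (Subtype.ext (funext fun x => ?_)))
  show (T.permPair hμ).β (fun y => f.1 (loc q x.1) y * T.perm p (loc q x.1) (f'.1 (loc q x.2)) y) l.1
    = (T.permPair hμ).β (f.1 (loc q x.1))
        (T.perm p (loc q x.1) (fun y => l.1 y * f'.1 (loc q x.2) y))
  have hl : ∀ y, l.1 ((loc q x.1)⁻¹ • y) = l.1 y := fun y => congrFun (l.2 x.1) y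
  rw [permPair_apply, permPair_apply]
  refine Finset.sum_congr rfl fun y _ => ?_
  rw [T.perm_apply, T.perm_apply]
  simp only [hl]
  ring

/-- A finite set of primes adapted to the permutation module. -/
structure AdSet (S : Finset Nat.Primes) : Prop where
  pmem : (⟨p, hp.out⟩ : Nat.Primes) ∈ S
  good : FA.GalCoh.Good T.H S
  adapted : Adapted T.H S
  unr : ∀ q : Nat.Primes, q ∉ S → UnrRep ((T.perm p).comp (loc (q : ℕ)))

theorem AdSet.mono {S S' : Finset Nat.Primes} (h : T.AdSet (p := p) S) (hS : S ⊆ S') :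
    T.AdSet (p := p) S' :=
  ⟨hS h.pmem, h.good.mono hS, h.adapted.mono hS, fun q hq => h.unr q fun h' => hq (hS h')⟩

theorem exists_adSet : ∃ S, T.AdSet (p := p) S := by
  classical
  obtain ⟨S₁, hg, ha⟩ := exists_adapted T.mem_LQ
  obtain ⟨S₂, hu⟩ := exists_unrRep (p := p) T.smooth_perm
  exact ⟨insert ⟨p, hp.out⟩ (S₁ ∪ S₂), Finset.mem_insert_self _ _,
    hg.mono fun q hq => Finset.mem_insert_of_mem (Finset.mem_union_left _ hq),
    Adapted.mono ha fun q hq => Finset.mem_insert_of_mem (Finset.mem_union_left _ hq),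
    fun q hq => hu q fun h => hq (Finset.mem_insert_of_mem (Finset.mem_union_right _ h))⟩

include hμ in
/-- A global class which is nonzero at a given place. -/
theorem exists_class_ne_zero (q : Nat.Primes) (g : GQ) :
    ∃ x : H1 LQ (T.perm p), T.locSh (q : ℕ) g (resq1 (q : ℕ) (T.perm p) x) ≠ 0 := by
  have hHl := hloc_mem (q := (q : ℕ)) T.mem_LQ g
  have := finiteDimensional_fixedField hHl
  obtain ⟨π, hπE, hπ0, hπ1, hπn⟩ :=
    exists_uniformizer (IntermediateField.fixedField (hloc T.H (q : ℕ) g))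
  let b : fixUM (hloc T.H (q : ℕ) g) (PadicAlgCl (q : ℕ)) := ⟨UM.mk π (norm_pos_iff.1 hπ0),
    fun τ => UM.ext ((IntermediateField.mem_fixedField_iff _ _).1 hπE τ τ.2)⟩
  obtain ⟨c, hc, hc0, hcn⟩ := exists_norm_eq_emb T.mem_LQ g b
  obtain ⟨x, hx⟩ := T.sh1_surjective (σ := triv T.H p) ((T.kum hμ).kum (mkFix hc hc0))
  refine ⟨x, fun h => ?_⟩
  rw [← T.locH1_eq_locSh, hx, locH1_kum, KumData.kum_eq_zero_iff] at h
  obtain ⟨d, hd⟩ := h
  have hdE : d.1.val ∈ IntermediateField.fixedField (hloc T.H (q : ℕ) g) :=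
    (IntermediateField.mem_fixedField_iff _ _).2 fun τ hτ =>
      congrArg UM.val (d.2 ⟨τ, hτ⟩)
  obtain ⟨n, hn⟩ := hπn _ hdE d.1.val_ne_zero
  have h1 := congrArg (fun z : fixUM (hloc T.H (q : ℕ) g) (PadicAlgCl (q : ℕ)) => ‖z.1.val‖) hd
  simp only [AddSubmonoidClass.coe_nsmul, UM.val_nsmul, norm_pow, val_locEl, val_mkFix, hn, hcn]
    at h1
  change _ = ‖π‖ at h1
  rw [← zpow_natCast, ← zpow_mul] at h1
  have h2 : n * (p : ℤ) = 1 := zpow_right_injective₀ hπ0 hπ1.ne (h1.trans (zpow_one _).symm)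
  have h3 := hp.out.two_le
  rcases Int.eq_one_or_neg_one_of_mul_eq_one' h2 with ⟨-, h4⟩ | ⟨-, h4⟩ <;> omega

set_option maxHeartbeats 1600000 in
-- classes over nested subgroups are slow to unify
include hμ in
/-- Local classes orthogonal to the constants come from a global class. -/
theorem image_H2 (hT : TC T.H) (S₀ : Finset Nat.Primes)
    (w : ∀ q : Nat.Primes, H2 (LL (q : ℕ)) ((T.perm p).comp (loc (q : ℕ))))
    (hw : ∀ q : Nat.Primes, q ∉ S₀ → w q = 0)
    (hsum : ∀ n : ↥(T.perm p).invariants, ∑ q : {q // q ∈ S₀},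
      pair20Q (q.1 : ℕ) (T.permPair hμ) (w q.1) (resInv (T.perm p) (q.1 : ℕ) n) = 0) :
    ∃ z : H2 LQ (T.perm p), ∀ q : Nat.Primes, resq2 (q : ℕ) (T.perm p) z = w q := by
  classical
  -- classes nonzero at the given places
  choose χ hχ using fun v : Place T.H => T.exists_class_ne_zero (p := p) hμ v.1 v.rep
  choose Sχ hSχ using fun v : Place T.H => exists_mem_unrOutside (χ v)
  obtain ⟨Sb, hSb⟩ := T.exists_adSet (p := p)
  set S₁ := Sb ∪ S₀ ∪ (placesOver T.mem_LQ S₀).biUnion Sχ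
  have h₁ : T.AdSet (p := p) S₁ :=
    AdSet.mono T hSb fun q hq => Finset.mem_union_left _ (Finset.mem_union_left _ hq)
  have hχ₁ : ∀ v : Place T.H, v.1 ∈ S₀ → χ v ∈ unrOutside S₁ (T.perm p) := fun v hv =>
    unrOutside_mono (fun q hq => Finset.mem_union_right _ (Finset.mem_biUnion.2
      ⟨v, (mem_placesOver T.mem_LQ).2 hv, hq⟩)) (hSχ v)
  set I := unrOutside S₁ (T.perm p)
  have := T.finite_unrOutside hμ hT h₁.pmem h₁.good h₁.adapted h₁.unr
  let _ : Fintype I := Fintype.ofFinite _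
  -- detecting split places
  let sh : H1 LQ (T.perm p) → H1 (LQ.sub T.H) (triv T.H p) := T.sh1 (triv T.H p)
  let P : I × I → Prop := fun ax =>
    ax.1.1 ≠ 0 ∧ sh ax.2.1 ∉ Submodule.span (ZMod p) {sh ax.1.1}
  have hdet : ∀ ax : {ax : I × I // P ax}, ∃ v : Place T.H,
      locH1 T.H v.1 v.rep (sh ax.1.1.1) = 0 ∧ locH1 T.H v.1 v.rep (sh ax.1.2.1) ≠ 0 := by
    rintro ⟨⟨a, x⟩, ha, hax⟩
    obtain ⟨α, hαS, hα⟩ := T.exists_unit_kum hμ h₁.adapted h₁.unr a.2
    obtain ⟨u, huS, hu⟩ := T.exists_unit_kum hμ h₁.adapted h₁.unr x.2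
    obtain ⟨ψ, C, hC⟩ := exists_cycData (x := sh a.1)
      fun h => ha (T.sh1_injective (σ := triv T.H p) (h.trans (map_zero _).symm))
    obtain ⟨v, -, hsplit, hne⟩ := exists_split_place (T.kum hμ) C T.mem_LQ h₁.pmem
      (hα.trans hC.symm) hαS huS (by rw [hu, hC]; exact hax)
    exact ⟨v, by rw [← hC]; exact hsplit, by show locH1 T.H v.1 v.rep (T.sh1 (triv T.H p) x.1) ≠ 0; rwa [← hu]⟩
  choose det hdet0 hdet1 using hdet
  set S := S₁ ∪ Finset.univ.image fun ax => (det ax).1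
  have hS₁ : S₁ ⊆ S := Finset.subset_union_left
  have hS : T.AdSet (p := p) S := AdSet.mono T h₁ hS₁
  have hS₀ : S₀ ⊆ S := fun q hq =>
    hS₁ (Finset.mem_union_left _ (Finset.mem_union_right _ hq))
  -- the classes built from products
  set J := unrOutside S (T.perm p)
  let R : Submodule (ZMod p) (H2 LQ (T.perm p)) :=
    Submodule.span (ZMod p) (Set.range fun ab : J × J => T.prod2 ab.1.1 ab.2.1)
  let Rs : H2 LQ (T.perm p) →ₗ[ZMod p] LocH2 S (T.perm p) :=
    LinearMap.pi fun q => resq2 (q.1 : ℕ) (T.perm p)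
  have hRout : ∀ z ∈ R, ∀ q : Nat.Primes, q ∉ S → resq2 (q : ℕ) (T.perm p) z = 0 := by
    intro z hz q hq
    have hle : R ≤ LinearMap.ker (resq2 (q : ℕ) (T.perm p)) := by
      refine Submodule.span_le.2 ?_
      rintro _ ⟨⟨a, b⟩, rfl⟩
      exact T.resq2_prod2_eq_zero hq (hS.unr q hq) a.2 b.2
    exact LinearMap.mem_ker.1 (hle hz)
  suffices hmem : ((fun q => w q.1) : LocH2 S (T.perm p)) ∈ R.map Rs by
    obtain ⟨z, hz, hzw⟩ := hmem
    refine ⟨z, fun q => ?_⟩
    by_cases hq : q ∈ S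
    · exact congrFun hzw ⟨q, hq⟩
    · rw [hRout z hz q hq, hw q fun h => hq (hS₀ h)]
  by_contra hnot
  obtain ⟨f, hfw, hfR⟩ := Submodule.exists_dual_map_eq_bot_of_notMem (R := ZMod p)
    (M := LocH2 S (T.perm p)) hnot (@Module.Projective.of_free _ _ _ _ _
      (Module.Free.of_divisionRing (ZMod p) _))
  have hl : ∀ q : {q // q ∈ S},
      ∃ l, (pair20Q (q.1 : ℕ) (T.permPair hμ)).flip l = f ∘ₗ LinearMap.single (ZMod p)
        (fun q : {q // q ∈ S} => H2 (LL (q.1 : ℕ)) ((T.perm p).comp (loc (q.1 : ℕ)))) q :=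
    fun q => (pair20_flip_bijective (localInv (cycL p (q.1 : ℕ)))
      (perfectQ (q.1 : ℕ) (T.permPair hμ)).bij20).2 _
  choose l hl using hl
  have hf : ∀ v, f v = ∑ q : {q // q ∈ S}, pair20Q (q.1 : ℕ) (T.permPair hμ) (v q) (l q) := by
    intro v
    conv_lhs => rw [← Finset.univ_sum_single v]
    rw [map_sum]
    refine Finset.sum_congr rfl fun q _ => ?_
    exact (LinearMap.congr_fun (hl q) (v q)).symm
  have hkill : ∀ a b : H1 LQ (T.perm p), a ∈ J → b ∈ J → ∑ q : {q // q ∈ S},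
      pair11Q (q.1 : ℕ) (T.permPair hμ) (resq1 (q.1 : ℕ) (T.perm p) a)
        (T.mulInv (l q).2 (resq1 (q.1 : ℕ) (T.perm p) b)) = 0 := by
    intro a b ha hb
    have h : f (Rs (T.prod2 a b)) = 0 := (Submodule.eq_bot_iff _).1 hfR _
      (Submodule.mem_map_of_mem (Submodule.mem_map_of_mem
        (Submodule.subset_span ⟨(⟨a, ha⟩, ⟨b, hb⟩), rfl⟩)))
    rw [hf] at h
    rw [← h]
    exact Finset.sum_congr rfl fun q _ => (T.pair20Q_prod2 hμ _ a b (l q)).symm
  -- the multipliers act by a scalar on each class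
  have hscal : ∀ a : I, a.1 ≠ 0 → ∃ c : ZMod p, ∀ (q : Nat.Primes) (hq : q ∈ S) (g : GQ),
      T.locSh (q : ℕ) g (resq1 (q : ℕ) (T.perm p) a.1) ≠ 0 →
        (l ⟨q, hq⟩).1 (g • T.x0) = c := by
    intro a ha
    obtain ⟨y, hyJ, hy⟩ := T.exists_global_of_orth hμ hT hS.pmem hS.good hS.adapted hS.unr
      (fun q => T.mulInv (l q).2 (resq1 (q.1 : ℕ) (T.perm p) a.1))
      (fun x hx => hkill x a.1 hx (unrOutside_mono hS₁ a.2))
    have hy₁ : y ∈ I := mem_unrOutside.2 fun q hq => by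
      by_cases hqS : q ∈ S
      · have h : resq1 (q : ℕ) (T.perm p) y
            = T.mulInv (l ⟨q, hqS⟩).2 (resq1 (q : ℕ) (T.perm p) a.1) := congrFun hy ⟨q, hqS⟩
        rw [h]
        exact T.mulInv_mem_unrH1 _ (mem_unrOutside.1 a.2 q hq)
      · exact mem_unrOutside.1 hyJ q hqS
    have hcomp : ∀ (q : Nat.Primes) (hq : q ∈ S) (g : GQ),
        locH1 T.H (q : ℕ) g (sh y) = (l ⟨q, hq⟩).1 (g • T.x0) • locH1 T.H (q : ℕ) g (sh a.1) := by
      intro q hq g
      have h : resq1 (q : ℕ) (T.perm p) y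
          = T.mulInv (l ⟨q, hq⟩).2 (resq1 (q : ℕ) (T.perm p) a.1) := congrFun hy ⟨q, hq⟩
      show locH1 T.H (q : ℕ) g (T.sh1 (triv T.H p) y) = _ • locH1 T.H (q : ℕ) g (T.sh1 (triv T.H p) a.1)
      rw [T.locH1_eq_locSh, T.locH1_eq_locSh, h, T.locSh_mulInv]
    have hspan : sh y ∈ Submodule.span (ZMod p) {sh a.1} := by
      by_contra hne
      let ax : {ax : I × I // P ax} := ⟨(a, ⟨y, hy₁⟩), ha, hne⟩
      have hmem : (det ax).1 ∈ S :=
        Finset.mem_union_right _ (Finset.mem_image_of_mem _ (Finset.mem_univ ax))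
      refine hdet1 ax ?_
      show locH1 T.H ((det ax).1 : ℕ) (det ax).rep (sh y) = 0
      rw [hcomp _ hmem (det ax).rep,
        show locH1 T.H ((det ax).1 : ℕ) (det ax).rep (sh a.1) = 0 from hdet0 ax, smul_zero]
    obtain ⟨c, hc⟩ := Submodule.mem_span_singleton.1 hspan
    refine ⟨c, fun q hq g hne => ?_⟩
    have h := hcomp q hq g
    rw [← hc, map_smul] at h
    change c • locH1 T.H (q : ℕ) g (T.sh1 (triv T.H p) a.1) = _ • locH1 T.H (q : ℕ) g (T.sh1 (triv T.H p) a.1) at h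
    rw [T.locH1_eq_locSh, ← sub_eq_zero, ← sub_smul, smul_eq_zero, sub_eq_zero] at h
    exact (h.resolve_right hne).symm
  -- hence they are one constant on the given places
  have hv : ∀ v w : Place T.H, ∀ (hv : v.1 ∈ S₀) (hw : w.1 ∈ S₀),
      (l ⟨v.1, hS₀ hv⟩).1 (v.rep • T.x0) = (l ⟨w.1, hS₀ hw⟩).1 (w.rep • T.x0) := by
    intro v w hv hw
    let lv : H1 LQ (T.perm p) →ₗ[ZMod p] _ :=
      T.locSh (v.1 : ℕ) v.rep ∘ₗ resq1 (v.1 : ℕ) (T.perm p)
    let lw : H1 LQ (T.perm p) →ₗ[ZMod p] _ :=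
      T.locSh (w.1 : ℕ) w.rep ∘ₗ resq1 (w.1 : ℕ) (T.perm p)
    obtain ⟨a, hav, haw⟩ : ∃ a : I, lv a.1 ≠ 0 ∧ lw a.1 ≠ 0 := by
      have hv1 : lv (χ v) ≠ 0 := hχ v
      have hw1 : lw (χ w) ≠ 0 := hχ w
      by_cases h1 : lw (χ v) = 0
      · by_cases h2 : lv (χ w) = 0
        · exact ⟨⟨χ v + χ w, add_mem (hχ₁ v hv) (hχ₁ w hw)⟩,
            by rw [map_add, h2, add_zero]; exact hv1, by rw [map_add, h1, zero_add]; exact hw1⟩
        · exact ⟨⟨χ w, hχ₁ w hw⟩, h2, hw1⟩
      · exact ⟨⟨χ v, hχ₁ v hv⟩, hv1, h1⟩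
    obtain ⟨c, hc⟩ := hscal a fun h => hav (by rw [h, map_zero])
    rw [hc v.1 (hS₀ hv) v.rep hav, hc w.1 (hS₀ hw) w.rep haw]
  have hall : ∃ c : ZMod p, ∀ (q : Nat.Primes) (hq : q ∈ S₀) (x : X),
      (l ⟨q, hS₀ hq⟩).1 x = c := by
    rcases S₀.eq_empty_or_nonempty with h | ⟨q₁, hq₁⟩
    · exact ⟨0, fun q hq => absurd hq (by rw [h]; exact Finset.notMem_empty q)⟩
    refine ⟨(l ⟨q₁, hS₀ hq₁⟩).1 ((placeOf (H := T.H) q₁ 1).rep • T.x0), fun q hq x => ?_⟩
    refine Eq.trans ?_ (hv (placeOf (H := T.H) q (T.t x)) (placeOf (H := T.H) q₁ 1) hq hq₁)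
    obtain ⟨τ, s, hs, e⟩ :=
      placeQ_eq_iff.1 (placeQ_repQ (placeQ (H := T.H) (q := (q : ℕ)) (T.t x)))
    show (l ⟨q, hS₀ hq⟩).1 x
      = (l ⟨q, hS₀ hq⟩).1 (repQ (placeQ (H := T.H) (q := (q : ℕ)) (T.t x)) • T.x0)
    rw [e, mul_smul, mul_smul, MulAction.mem_stabilizer_iff.1 hs, T.t_smul]
    have hinv := congrFun ((l ⟨q, hS₀ hq⟩).2 τ⁻¹) x
    rw [MonoidHom.comp_apply, T.perm_apply, map_inv, inv_inv] at hinv
    exact hinv.symm
  obtain ⟨c, hc⟩ := hall
  refine hfw ?_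
  rw [hf]
  let n : ↥(T.perm p).invariants := ⟨fun _ => c, fun _ => rfl⟩
  rw [← hsum n]
  symm
  refine Finset.sum_bij_ne_zero (fun q _ _ => ⟨q.1, hS₀ q.2⟩) (fun _ _ _ => Finset.mem_univ _)
    (fun a _ _ b _ _ h => Subtype.ext (congrArg (fun q : {q // q ∈ S} => q.1) h))
    (fun q _ hq => ?_) fun q _ _ => ?_
  · have hq0 : q.1 ∈ S₀ := by
      by_contra h
      exact hq (by rw [hw q.1 h, map_zero, LinearMap.zero_apply])
    refine ⟨⟨q.1, hq0⟩, Finset.mem_univ _, ?_, rfl⟩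
    rwa [show resInv (T.perm p) (q.1 : ℕ) n = l q from
      Subtype.ext (funext fun x => (hc q.1 hq0 x).symm)]
  · exact congrArg _ (Subtype.ext (funext fun x => (hc q.1 q.2 x).symm))

end Image

end Trans

end FA.GalCoh
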