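import Fermat.Agent.GalCoh.GlobalPair
import Fermat.Agent.GalCoh.KummerUnits
import Fermat.Agent.GalCoh.PermModule

/-!
Permutation modules of fields with the roots of unity: the local cohomology as a product over the
places, classes unramified outside a finite set as units, and the global classes as a maximal
isotropic subspace.
-/

set_option autoImplicit false
set_option linter.unusedSectionVars false

noncomputable section

namespace FA.GalCoh

open Representation

variable {p : ℕ} [hp : Fact p.Prime]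

section LocS

variable {V : Type} [AddCommGroup V] [Module (ZMod p) V]

/-- The local first cohomology groups at the primes of `S`. -/
abbrev LocH1 (S : Finset Nat.Primes) (ρ : Representation (ZMod p) GQ V) : Type :=
  ∀ q : {q : Nat.Primes // q ∈ S}, H1 (LL (q.1 : ℕ)) (ρ.comp (loc (q.1 : ℕ)))

instance moduleLocH1 (S : Finset Nat.Primes) (ρ : Representation (ZMod p) GQ V) :
    Module (ZMod p) (LocH1 S ρ) := inferInstance

/-- The local second cohomology groups at the primes of `S`. -/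
abbrev LocH2 (S : Finset Nat.Primes) (ρ : Representation (ZMod p) GQ V) : Type :=
  ∀ q : {q : Nat.Primes // q ∈ S}, H2 (LL (q.1 : ℕ)) (ρ.comp (loc (q.1 : ℕ)))

instance moduleLocH2 (S : Finset Nat.Primes) (ρ : Representation (ZMod p) GQ V) :
    Module (ZMod p) (LocH2 S ρ) := inferInstance

/-- Localisation at the primes of `S`. -/
def locS (S : Finset Nat.Primes) (ρ : Representation (ZMod p) GQ V) :
    H1 LQ ρ →ₗ[ZMod p] LocH1 S ρ :=
  LinearMap.pi fun q => resq1 (q.1 : ℕ) ρ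

@[simp] theorem locS_apply (S : Finset Nat.Primes) (ρ : Representation (ZMod p) GQ V)
    (x : H1 LQ ρ) (q : {q : Nat.Primes // q ∈ S}) : locS S ρ x q = resq1 (q.1 : ℕ) ρ x := rfl

end LocS

namespace Trans

variable {X : Type} [Fintype X] [MulAction GQ X] (T : Trans LQ X)

variable (p) in
/-- The permutation module. -/
abbrev perm : Representation (ZMod p) GQ (X → ZMod p) := T.coind (triv T.H p)

theorem perm_apply (g : GQ) (f : X → ZMod p) (x : X) : T.perm p g f x = f (g⁻¹ • x) := rfl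

theorem smooth_perm : Smooth LQ (T.perm p) := T.smooth_coind _ smooth_triv

/-- The trivial modules, paired by multiplication. -/
def trivPair (hμ : ∀ s ∈ T.H, ExtCitation.cycloChar p s = 1) :
    DPair (LQ.sub T.H) (T.resχ (cycQ p).χ) (triv T.H p) (triv T.H p) where
  β := LinearMap.mul (ZMod p) (ZMod p)
  bil s v w := by
    rw [chr_eq_triv (η := T.resχ (cycQ p).χ) fun s => hμ s.1 s.2]
    rfl
  inj_left v w h := by simpa using LinearMap.congr_fun h 1
  inj_right v w h := by simpa using LinearMap.congr_fun h 1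
  fin_left := inferInstance
  fin_right := inferInstance
  smooth_left := smooth_triv
  smooth_right := smooth_triv

/-- The permutation module paired with itself. -/
def permPair (hμ : ∀ s ∈ T.H, ExtCitation.cycloChar p s = 1) :
    DPair LQ (cycQ p).χ (T.perm p) (T.perm p) :=
  T.coindPair (T.trivPair hμ)

theorem permPair_apply (hμ : ∀ s ∈ T.H, ExtCitation.cycloChar p s = 1) (f f' : X → ZMod p) :
    (T.permPair hμ).β f f' = ∑ x, ((cycQ p).χ (T.t x) : ZMod p) * (f x * f' x) :=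
  T.coindβ_apply _ f f'

/-- For a totally imaginary field complex conjugation acts freely. -/
theorem realAcyclic_perm (hT : TC T.H) : RealAcyclic (T.perm p) := by
  intro m hm
  set c := complexConjugation
  have hne : ∀ x : X, c • x ≠ x := fun x hx => hT (T.t x)⁻¹ (by
    rw [MulAction.mem_stabilizer_iff, inv_inv, mul_smul, mul_smul, T.t_smul, hx, T.inv_t_smul])
  have hcc : ∀ x : X, c • c • x = x := fun x => by
    rw [← mul_smul, complexConjugation_mul_self, one_smul]
  have hcm : ∀ x, m (c • x) = -m x := fun x => by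
    have h := congrFun hm x
    rw [Pi.add_apply, perm_apply, complexConjugation_inv, Pi.zero_apply] at h
    exact eq_neg_of_add_eq_zero_left h
  refine ⟨fun x => if Fintype.equivFin X x < Fintype.equivFin X (c • x) then 0 else m (c • x),
    funext fun x => ?_⟩
  rw [Pi.sub_apply, perm_apply, complexConjugation_inv, hcc x]
  rcases lt_or_gt_of_ne (fun h => hne x ((Fintype.equivFin X).injective h).symm) with h | h
  · rw [if_pos h, if_neg h.not_gt, sub_zero]
  · rw [if_neg h.not_gt, if_pos h, zero_sub, hcm, neg_neg]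

section Local

variable {q : ℕ} [hq : Fact q.Prime]

theorem smul_eq_of_mem_hloc {g : GQ} {τ : LG q} (h : τ ∈ hloc T.H q g) :
    loc q τ • g • T.x0 = g • T.x0 := by
  have h' := MulAction.mem_stabilizer_iff.1 ((mem_hloc _).1 h)
  rwa [mul_smul, mul_smul, inv_smul_eq_iff] at h'

theorem mem_hloc_of_smul {g : GQ} {τ : LG q} (h : loc q τ • g • T.x0 = g • T.x0) :
    τ ∈ hloc T.H q g := by
  rw [mem_hloc, MulAction.mem_stabilizer_iff, mul_smul, mul_smul, inv_smul_eq_iff, h]

theorem equi_evAt (g : GQ) :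
    Equi (hloc T.H q g).subtype ((T.perm p).comp (loc q)) (triv (hloc T.H q g) p)
      (LinearMap.proj (g • T.x0)) := fun τ f => by
  show f ((loc q τ)⁻¹ • g • T.x0) = f (g • T.x0)
  rw [inv_smul_eq_iff.2 (T.smul_eq_of_mem_hloc τ.2).symm]

variable (q) in
/-- The component at the place of `g`. -/
def locSh (g : GQ) : H1 (LL q) ((T.perm p).comp (loc q)) →ₗ[ZMod p]
    H1 ((LL q).sub (hloc T.H q g)) (triv (hloc T.H q g) p) :=
  map1 ((LL q).sub_compat _) (T.equi_evAt g)

theorem locSh_eq_zero_iff (g : GQ) (f : ↥(Z1 (LL q) ((T.perm p).comp (loc q)))) :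
    T.locSh q g (mk1 (LL q) ((T.perm p).comp (loc q)) f) = 0 ↔ ∀ τ : hloc T.H q g, f.1 τ (g • T.x0) = 0 := by
  constructor
  · intro h τ
    exact congrFun (congrArg Subtype.val (mk1_triv_injective (h.trans (map_zero _).symm))) τ
  · intro h
    rw [← map_zero (mk1 ((LL q).sub (hloc T.H q g)) (triv (hloc T.H q g) p))]
    exact congrArg (mk1 ((LL q).sub (hloc T.H q g)) (triv (hloc T.H q g) p))
      (Subtype.ext (funext fun τ => h τ))

theorem locH1_eq_locSh (g : GQ) (x : H1 LQ (T.perm p)) :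
    locH1 T.H q g (T.sh1 (triv T.H p) x) = T.locSh q g (resq1 q (T.perm p) x) := by
  obtain ⟨f, rfl⟩ := mk1_surjective x
  refine congrArg (mk1 _ (triv (hloc T.H q g) p)) (Subtype.ext (funext fun τ => ?_))
  show f.1 (g⁻¹ * loc q τ * g) T.x0 = f.1 (loc q τ) (g • T.x0)
  rw [f.2.2 (g⁻¹ * loc q τ) g, f.2.2 g⁻¹ (loc q τ),
    eq_neg_of_add_eq_zero_right (by rw [← f.2.2 g⁻¹ g, inv_mul_cancel, Z1.map_one] :
      T.coind (triv T.H p) g⁻¹ (f.1 g) + f.1 g⁻¹ = 0), map_mul, Module.End.mul_apply,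
    Pi.add_apply, Pi.add_apply, Pi.neg_apply]
  simp only [perm_apply, inv_inv]
  rw [inv_smul_eq_iff.2 (T.smul_eq_of_mem_hloc τ.2).symm]
  ring

/-- The components do not depend on the representative. -/
theorem locSh_congr {g g' : GQ} (h : placeQ (H := T.H) (q := q) g = placeQ g')
    {y : H1 (LL q) ((T.perm p).comp (loc q))} (hy : T.locSh q g' y = 0) : T.locSh q g y = 0 := by
  obtain ⟨f, rfl⟩ := mk1_surjective y
  obtain ⟨σ, s, hs, e⟩ := placeQ_eq_iff.1 h
  rw [locSh_eq_zero_iff] at hy ⊢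
  have hx : g • T.x0 = loc q σ • g' • T.x0 := by
    rw [e, mul_smul, mul_smul, MulAction.mem_stabilizer_iff.1 hs]
  intro τ
  have hτ := T.smul_eq_of_mem_hloc τ.2
  rw [hx] at hτ ⊢
  have hmem : σ⁻¹ * (τ : LG q) * σ ∈ hloc T.H q g' := T.mem_hloc_of_smul (by
    rw [map_mul, map_mul, map_inv, mul_smul, mul_smul, hτ, inv_smul_smul])
  have h0 := hy ⟨_, hmem⟩
  change f.1 (σ⁻¹ * (τ : LG q) * σ) (g' • T.x0) = 0 at h0
  have h1 : f.1 (σ⁻¹ * (τ : LG q) * σ) (g' • T.x0)
      = f.1 σ (loc q σ • g' • T.x0) + f.1 τ (loc q σ • g' • T.x0) + f.1 σ⁻¹ (g' • T.x0) := by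
    rw [f.2.2 (σ⁻¹ * τ) σ, f.2.2 σ⁻¹ τ]
    simp only [Pi.add_apply, MonoidHom.comp_apply, perm_apply]
    rw [map_mul, mul_inv_rev, mul_smul, map_inv, inv_inv, inv_smul_eq_iff.2 hτ.symm]
    ring
  have h2 : f.1 σ (loc q σ • g' • T.x0) + f.1 σ⁻¹ (g' • T.x0) = 0 := by
    have h3 := congrFun (f.2.2 σ⁻¹ σ) (g' • T.x0)
    rw [inv_mul_cancel, Z1.map_one] at h3
    simp only [Pi.add_apply, Pi.zero_apply, MonoidHom.comp_apply, perm_apply, map_inv, inv_inv]
      at h3
    exact h3.symm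
  rw [h1] at h0
  linear_combination h0 - h2

/-- A local class with all components zero vanishes. -/
theorem eq_zero_of_locSh {y : H1 (LL q) ((T.perm p).comp (loc q))}
    (h : ∀ g : GQ, T.locSh q g y = 0) : y = 0 := by
  obtain ⟨f, rfl⟩ := mk1_surjective y
  let _ : MulAction (LG q) X := MulAction.compHom X (loc q)
  let r : X → X := fun x =>
    (Quotient.mk (MulAction.orbitRel (LG q) X) x).out
  have hr : ∀ x, ∃ t : LG q, loc q t • r x = x := fun x => by
    have h' : (MulAction.orbitRel (LG q) X).r (r x) x :=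
      Quotient.exact (Quotient.out_eq (Quotient.mk (MulAction.orbitRel (LG q) X) x))
    obtain ⟨t, ht⟩ := h'
    exact ⟨t⁻¹, by
      show loc q t⁻¹ • r x = x
      rw [map_inv, inv_smul_eq_iff]
      exact ht.symm⟩
  choose t ht using hr
  have hrr : ∀ (τ : LG q) x, r ((loc q τ)⁻¹ • x) = r x := fun τ x => by
    refine congrArg Quotient.out (Quotient.sound (⟨τ⁻¹, ?_⟩))
    show loc q τ⁻¹ • x = (loc q τ)⁻¹ • x
    rw [map_inv]
  refine (mk1_eq_zero _ _ _).2 ⟨fun x => -f.1 (t x) x, funext fun τ => funext fun x => ?_⟩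
  show -f.1 (t ((loc q τ)⁻¹ • x)) ((loc q τ)⁻¹ • x) - -f.1 (t x) x = f.1 τ x
  set y := (loc q τ)⁻¹ • x with hy
  have hty : loc q (t y) • r x = y := by
    have := ht y
    rwa [hy, hrr] at this
  have hs : loc q ((t x)⁻¹ * (τ * t y)) • r x = r x := by
    rw [map_mul, map_mul, map_inv, mul_smul, mul_smul, hty, hy, smul_inv_smul, inv_smul_eq_iff,
      ht]
  have key : ∀ g : GQ, g • T.x0 = r x → f.1 ((t x)⁻¹ * (τ * t y)) (r x) = 0 := fun g hg => by
    rw [← hg]
    exact (T.locSh_eq_zero_iff g f).1 (h g)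
      ⟨_, T.mem_hloc_of_smul (q := q) (g := g) (by rw [hg, hs])⟩
  have h1 := key _ (T.t_smul (r x))
  change f.1 ((t x)⁻¹ * (τ * t y)) (r x) = 0 at h1
  have e1 := congrFun (f.2.2 (t x) ((t x)⁻¹ * (τ * t y))) x
  have e2 := congrFun (f.2.2 τ (t y)) x
  rw [mul_inv_cancel_left] at e1
  simp only [Pi.add_apply, MonoidHom.comp_apply, perm_apply, ← hy,
    inv_smul_eq_iff.2 (ht x).symm, h1, zero_add] at e1 e2
  linear_combination e2 - e1

theorem eq_zero_of_locSh_rep {y : H1 (LL q) ((T.perm p).comp (loc q))}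
    (h : ∀ c : PlaceOver T.H q, T.locSh q (repQ c) y = 0) : y = 0 :=
  T.eq_zero_of_locSh fun g =>
    T.locSh_congr (g' := repQ (placeQ (H := T.H) (q := q) g)) (placeQ_repQ _).symm (h _)

/-- Multiplication by a fixed function. -/
theorem equi_mulInv {l : X → ZMod p}
    (hl : l ∈ Representation.invariants ((T.perm p).comp (loc q))) :
    Equi (MonoidHom.id (LG q)) ((T.perm p).comp (loc q)) ((T.perm p).comp (loc q))
      (pmul (X := X) (LinearMap.mul (ZMod p) (ZMod p)) l) :=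
  ((T.bil_pmul (bil_triv (G := T.H) (p := p))).res (loc q)).equi_left hl

/-- Multiplication of classes by a fixed function. -/
def mulInv {l : X → ZMod p} (hl : l ∈ Representation.invariants ((T.perm p).comp (loc q))) :
    H1 (LL q) ((T.perm p).comp (loc q)) →ₗ[ZMod p] H1 (LL q) ((T.perm p).comp (loc q)) :=
  map1 Compat.id (T.equi_mulInv hl)

theorem locSh_mulInv {l : X → ZMod p}
    (hl : l ∈ Representation.invariants ((T.perm p).comp (loc q))) (g : GQ)
    (y : H1 (LL q) ((T.perm p).comp (loc q))) :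
    T.locSh q g (T.mulInv hl y) = l (g • T.x0) • T.locSh q g y := by
  obtain ⟨f, rfl⟩ := mk1_surjective y
  rfl

theorem mulInv_mem_unrH1 {l : X → ZMod p}
    (hl : l ∈ Representation.invariants ((T.perm p).comp (loc q)))
    {y : H1 (LL q) ((T.perm p).comp (loc q))}
    (hy : y ∈ unrH1 ((T.perm p).comp (loc q))) :
    T.mulInv hl y ∈ unrH1 ((T.perm p).comp (loc q)) := by
  obtain ⟨f, hf, rfl⟩ := hy
  refine ⟨mapZ1 Compat.id (T.equi_mulInv hl) f, fun ι hι => ?_, rfl⟩
  show pmul (X := X) (LinearMap.mul (ZMod p) (ZMod p)) l (f.1 ι) = 0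
  rw [hf ι hι, map_zero]

theorem smul_of_unrRep (h : UnrRep ((T.perm p).comp (loc q))) {ι : LG q} (hι : ι ∈ inertL q)
    (x : X) : loc q ι • x = x := by
  classical
  have h' := congrFun (LinearMap.congr_fun (h ι hι) (Pi.single x (1 : ZMod p))) (loc q ι • x)
  rw [MonoidHom.comp_apply, perm_apply, inv_smul_smul, Pi.single_eq_same,
    Module.End.one_apply] at h'
  by_contra hne
  rw [Pi.single_eq_of_ne hne] at h'
  exact one_ne_zero h'

end Local

/-! ### Units -/

section Units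

variable (hμ : ∀ s ∈ T.H, ExtCitation.cycloChar p s = 1)

/-- The Kummer data of the field. -/
abbrev kum : KumData (LQ.sub T.H) (AlgebraicClosure ℚ) p := (cycQ p).kumData T.H hμ

theorem kum_mem_unrOutside {S : Finset Nat.Primes} (hpS : (⟨p, hp.out⟩ : Nat.Primes) ∈ S)
    (hunr : ∀ q : Nat.Primes, q ∉ S → UnrRep ((T.perm p).comp (loc (q : ℕ))))
    {a : fixUM T.H (AlgebraicClosure ℚ)} (ha : a ∈ tUnits T.H (placesOver T.mem_LQ S))
    {x : H1 LQ (T.perm p)} (hx : T.sh1 (triv T.H p) x = (T.kum hμ).kum a) :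
    x ∈ unrOutside S (T.perm p) := by
  refine mem_unrOutside.2 fun q hq => ?_
  obtain ⟨f, hf⟩ := mk1_surjective (resq1 (q : ℕ) (T.perm p) x)
  refine ⟨f, fun ι hι => funext fun y => ?_, hf⟩
  obtain ⟨g, rfl⟩ : ∃ g : GQ, g • T.x0 = y := ⟨T.t y, T.t_smul y⟩
  have hmem : ι ∈ hloc T.H (q : ℕ) g :=
    T.mem_hloc_of_smul (T.smul_of_unrRep (hunr q hq) hι _)
  have h1 := T.locH1_eq_locSh (p := p) (q := (q : ℕ)) g x
  rw [hx, ← hf] at h1
  have h2 := congrFun (congrArg Subtype.val (mk1_triv_injective h1)) ⟨ι, hmem⟩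
  change (T.kum hμ).kc a (locTo T.H (q : ℕ) g ⟨ι, hmem⟩) = f.1 ι (g • T.x0) at h2
  show f.1 ι (g • T.x0) = (0 : ZMod p)
  rw [← h2]
  set A := (T.kum hμ).kroot a.1
  set yA := emb (q : ℕ) g A.val
  set i := (T.kum hμ).kc a (locTo T.H (q : ℕ) g ⟨ι, hmem⟩)
  have hqp : (q : ℕ) ≠ p := fun h => hq (by
    rwa [show q = (⟨p, hp.out⟩ : Nat.Primes) from Subtype.ext h])
  have hyA : ‖yA‖ = 1 := by
    refine (pow_eq_one_iff_of_nonneg (norm_nonneg _) hp.out.ne_zero).1 ?_
    rw [← norm_pow, ← map_pow, ← UM.val_nsmul, (T.kum hμ).nsmul_kroot,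
      ← absv_placeOf (q := q) g fun h hh => congrArg UM.val (a.2 ⟨h, hh⟩)]
    exact ha _ fun h => hq ((mem_placesOver T.mem_LQ).1 h)
  have hval : emb (q : ℕ) g (T.kum hμ).ζ ^ i.val = ι yA / yA := by
    rw [← emb_locTo T.H g ⟨ι, hmem⟩, ← map_pow, ← map_div₀, ← (T.kum hμ).eps_val,
      (T.kum hμ).eps_kc a ((T.kum hμ).nsmul_kroot a.1), UM.val_sub, UM.val_smul]
    rfl
  have hprim := (T.kum hμ).prim.map_of_injective (emb (q : ℕ) g).toRingHom.injective
  have hroot : emb (q : ℕ) g (T.kum hμ).ζ ^ i.val = 1 := by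
    refine root_eq_of_close (m := p)
      (fun h => hqp ((Nat.prime_dvd_prime_iff_eq q.2 hp.out).1 h)) ?_ (one_pow _) ?_
    · rw [← pow_mul, mul_comm, pow_mul]
      exact (congrArg (· ^ i.val) hprim.pow_eq_one).trans (one_pow _)
    · have h0 : yA ≠ 0 := norm_pos_iff.1 (hyA ▸ one_pos)
      rw [hval, div_sub_one h0, norm_div, hyA, div_one]
      exact sub_lt_of_mem_inertL' hι hyA.le
  have h0 := hprim.pow_inj (ZMod.val_lt i) hp.out.pos (hroot.trans (pow_zero _).symm)
  rwa [ZMod.val_eq_zero] at h0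

/-- Unramified classes come from units. -/
theorem exists_unit_kum {S : Finset Nat.Primes} (had : Adapted T.H S)
    (hunr : ∀ q : Nat.Primes, q ∉ S → UnrRep ((T.perm p).comp (loc (q : ℕ))))
    {x : H1 LQ (T.perm p)} (hx : x ∈ unrOutside S (T.perm p)) :
    ∃ u : fixUM T.H (AlgebraicClosure ℚ), u ∈ tUnits T.H (placesOver T.mem_LQ S) ∧
      (T.kum hμ).kum u = T.sh1 (triv T.H p) x := by
  classical
  obtain ⟨a, ha⟩ := (T.kum hμ).kum_surjective (T.sh1 (triv T.H p) x)
  obtain ⟨T₀, hT₀⟩ := exists_finset_support T.mem_LQ a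
  have hdiv : ∀ v : Place T.H, v.1 ∉ S → ∃ k : ℤ,
      v.absv a.1.val = (‖((v.1 : ℕ) : PadicAlgCl (v.1 : ℕ))‖ ^ k) ^ p := by
    intro v hv
    set A := (T.kum hμ).kroot a.1
    obtain ⟨k, hk⟩ := exists_zpow_norm_of_kur (q := (v.1 : ℕ)) (x := v.rep A.val) (fun ι hι => by
      have hmem : ι ∈ hloc T.H (v.1 : ℕ) v.rep :=
        T.mem_hloc_of_smul (T.smul_of_unrRep (hunr v.1 hv) hι _)
      have h1 := T.locH1_eq_locSh (p := p) (q := (v.1 : ℕ)) v.rep x
      rw [← ha] at h1
      obtain ⟨f, hf⟩ := mk1_surjective (resq1 (v.1 : ℕ) (T.perm p) x)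
      rw [← hf] at h1
      have h2 := congrFun (congrArg Subtype.val (mk1_triv_injective h1)) ⟨ι, hmem⟩
      change (T.kum hμ).kc a (locTo T.H (v.1 : ℕ) v.rep ⟨ι, hmem⟩) = f.1 ι (v.rep • T.x0) at h2
      have h3 : f.1 ι = 0 := apply_inertL_eq_zero_of_mem (hunr v.1 hv)
        (hf ▸ mem_unrOutside.1 hx v.1 hv) hι
      rw [h3, Pi.zero_apply] at h2
      have h4 := (T.kum hμ).eps_kc a ((T.kum hμ).nsmul_kroot a.1)
        (locTo T.H (v.1 : ℕ) v.rep ⟨ι, hmem⟩)
      rw [h2, map_zero, eq_comm, sub_eq_zero] at h4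
      refine (padicEmbedding (v.1 : ℕ)).injective (?_ : padicEmbedding (v.1 : ℕ) _
        = padicEmbedding (v.1 : ℕ) _)
      rw [iota_loc, ← emb_apply, ← emb_locTo T.H v.rep ⟨ι, hmem⟩]
      exact congrArg _ (congrArg UM.val h4))
      ((_root_.map_ne_zero _).2 A.val_ne_zero)
    refine ⟨k, ?_⟩
    rw [← hk]
    show v.absv a.1.val = v.absv A.val ^ p
    rw [← absv_pow, ← UM.val_nsmul, (T.kum hμ).nsmul_kroot]
  choose! k hk using hdiv
  choose! y hy hy0 hyv hyo using had
  let T₁ := T₀.filter fun v => v.1 ∉ S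
  have hT₁ : ∀ w ∈ T₁, w.1 ∉ S := fun w hw => (Finset.mem_filter.1 hw).2
  let b : fixUM T.H (AlgebraicClosure ℚ) :=
    ∑ w : T₁, k w.1 • mkFix (hy w.1 (hT₁ w.1 w.2)) (hy0 w.1 (hT₁ w.1 w.2))
  refine ⟨a - p • b, fun v hv => ?_, ?_⟩
  · have hvS : v.1 ∉ S := fun h => hv ((mem_placesOver T.mem_LQ).2 h)
    have hb : v.absv b.1.val
        = if v ∈ T₁ then ‖((v.1 : ℕ) : PadicAlgCl (v.1 : ℕ))‖ ^ k v else 1 := by
      show ‖(locEl T.H (v.1 : ℕ) v.rep b).1.val‖ = _
      rw [map_sum, AddSubgroup.val_finsetSum, UM.val_sum, norm_prod]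
      have hterm : ∀ w : T₁, ‖(locEl T.H (v.1 : ℕ) v.rep
          (k w.1 • mkFix (hy w.1 (hT₁ w.1 w.2)) (hy0 w.1 (hT₁ w.1 w.2)))).1.val‖
          = if w.1 = v then ‖((v.1 : ℕ) : PadicAlgCl (v.1 : ℕ))‖ ^ k v else 1 := by
        intro w
        rw [map_zsmul, AddSubgroup.coe_zsmul, UM.norm_zsmul, val_locEl, val_mkFix]
        show v.absv (y w.1) ^ k w.1 = _
        by_cases h : w.1 = v
        · rw [if_pos h]
          obtain ⟨w, hw⟩ := w
          subst h
          rw [hyv w (hT₁ w hw)]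
        · rw [if_neg h, hyo w.1 (hT₁ w.1 w.2) v hvS (fun h' => h h'.symm), one_zpow]
      rw [Finset.prod_congr rfl fun w _ => hterm w]
      split_ifs with h
      · rw [Finset.prod_eq_single (⟨v, h⟩ : T₁) (fun w _ hw => if_neg fun e => hw (Subtype.ext e))
          (fun h => absurd (Finset.mem_univ _) h), if_pos rfl]
      · exact Finset.prod_eq_one fun w _ => if_neg fun e : w.1 = v => h (by rw [← e]; exact w.2)
    rw [AddSubgroup.coe_sub, UM.val_sub, Place.absv, map_div₀, norm_div,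
      div_eq_one_iff_eq (norm_ne_zero_iff.2 ((_root_.map_ne_zero _).2 (UM.val_ne_zero _))),
      AddSubmonoidClass.coe_nsmul, UM.val_nsmul, map_pow, norm_pow]
    show v.absv a.1.val = v.absv b.1.val ^ p
    rw [hb]
    split_ifs with h
    · exact hk v hvS
    · rw [one_pow]
      exact hT₀ v fun hvT => h (Finset.mem_filter.2 ⟨hvT, hvS⟩)
  · rw [map_sub, map_nsmul, ← Nat.cast_smul_eq_nsmul (ZMod p), ZMod.natCast_self, zero_smul,
      sub_zero, ha]

end Units

end Trans

end FA.GalCoh
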