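import Fermat.Agent.GalCoh.PermImage
import Fermat.Agent.GalCoh.LocalMaps

/-!
Sums of copies of a permutation module: Hasse principle, the image theorem, finiteness, and
classes with prescribed ramification.
-/

set_option autoImplicit false
set_option linter.unusedSectionVars false

noncomputable section

namespace FA.GalCoh

open Representation

variable {p : ℕ} [hp : Fact p.Prime]

/-- An odd prime: a field with the roots of unity is totally imaginary. -/
theorem tc_of_cyclo (hp2 : p ≠ 2) {H : Subgroup GQ}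
    (hμ : ∀ s ∈ H, ExtCitation.cycloChar p s = 1) : TC H := fun g hg => by
  have h1' : ExtCitation.cycloChar p complexConjugation = 1 := by
    have h := hμ _ hg
    rwa [map_mul, map_mul, map_inv, mul_right_comm, mul_inv_cancel, one_mul] at h
  have hζ : IsPrimitiveRoot (complexEmbedding (zetaQ p)) p :=
    zetaQ_spec.map_of_injective complexEmbedding.injective
  have hc := congrArg complexEmbedding (apply_zetaQ (p := p) complexConjugation)
  rw [complexEmbedding_complexConjugation, ← Complex.inv_eq_conj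
    (hζ.norm'_eq_one hp.out.ne_zero), h1', Units.val_one, ZMod.val_one, pow_one] at hc
  have hsq : complexEmbedding (zetaQ p) ^ 2 = 1 := by
    rw [sq]
    conv_lhs => arg 2; rw [← hc]
    exact mul_inv_cancel₀ (hζ.ne_zero hp.out.ne_zero)
  exact hp2 ((Nat.prime_dvd_prime_iff_eq hp.out Nat.prime_two).1
    ((hζ.pow_eq_one_iff_dvd 2).1 hsq))

namespace Trans

variable {X : Type} [Fintype X] [MulAction GQ X] (T : Trans LQ X)
variable {V : Type} [AddCommGroup V] [Module (ZMod p) V] [FiniteDimensional (ZMod p) V]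
variable {σ : Representation (ZMod p) T.H V} (hσ : ∀ s, σ s = 1)

include hσ in
theorem equi_coord (φ : V →ₗ[ZMod p] ZMod p) :
    Equi (MonoidHom.id GQ) (T.coind σ) (T.perm p) (φ.compLeft X) := fun g f => funext fun x => by
  show φ (σ (T.h g x) (f (g⁻¹ • x))) = φ (f (g⁻¹ • x))
  rw [hσ]; rfl

include hσ in
theorem equi_emb (v : V) : Equi (MonoidHom.id GQ) (T.perm p) (T.coind σ)
    ((LinearMap.toSpanSingleton (ZMod p) V v).compLeft X) := fun g f => funext fun x => by
  show f (g⁻¹ • x) • v = σ (T.h g x) (f (g⁻¹ • x) • v)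
  rw [hσ]; rfl

variable (b : Module.Basis (Fin (Module.finrank (ZMod p) V)) (ZMod p) V)

theorem sum_coord (f : X → V) :
    ∑ i, (LinearMap.toSpanSingleton (ZMod p) V (b i)).compLeft X ((b.coord i).compLeft X f) = f :=
  funext fun x => by
    rw [Finset.sum_apply]
    exact b.sum_repr (f x)

theorem sum_map1_coord (x : H1 LQ (T.coind σ)) :
    ∑ i, map1 Compat.id (T.equi_emb hσ (b i)) (map1 Compat.id (T.equi_coord hσ (b.coord i)) x)
      = x := by
  obtain ⟨f, rfl⟩ := mk1_surjective x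
  simp only [map1_mk1]
  rw [← map_sum]
  refine congrArg (mk1 LQ (T.coind σ)) (Subtype.ext (funext fun g => ?_))
  rw [AddSubmonoidClass.coe_finsetSum, Finset.sum_apply]
  exact sum_coord b (f.1 g)

theorem sum_map2_coord {G : Type} [Group G] {L : Levels G}
    {τ : Representation (ZMod p) G (X → V)} {π : Representation (ZMod p) G (X → ZMod p)}
    (h1 : ∀ i, Equi (MonoidHom.id G) τ π ((b.coord i).compLeft X))
    (h2 : ∀ i, Equi (MonoidHom.id G) π τ ((LinearMap.toSpanSingleton (ZMod p) V (b i)).compLeft X))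
    (z : H2 L τ) :
    ∑ i, map2 Compat.id (h2 i) (map2 Compat.id (h1 i) z) = z := by
  obtain ⟨f, rfl⟩ := mk2_surjective z
  simp only [map2_mk2]
  rw [← map_sum]
  refine congrArg (mk2 L τ) (Subtype.ext (funext fun g => ?_))
  rw [AddSubmonoidClass.coe_finsetSum, Finset.sum_apply]
  exact sum_coord b (f.1 g)

include hσ in
theorem smooth_coindV : Smooth LQ (T.coind σ) :=
  T.smooth_coind σ ⟨⊤, (LQ.sub T.H).top_mem, fun s _ => hσ s⟩

include hσ in
theorem unrRep_coindV {q : ℕ} [Fact q.Prime] (h : UnrRep ((T.perm p).comp (loc q))) :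
    UnrRep ((T.coind σ).comp (loc q)) := fun ι hι => LinearMap.ext fun f => funext fun x => by
  show σ (T.h (loc q ι) x) (f ((loc q ι)⁻¹ • x)) = f x
  rw [hσ, Module.End.one_apply, inv_smul_eq_iff.2 (T.smul_of_unrRep h hι x).symm]

variable (hμ : ∀ s ∈ T.H, ExtCitation.cycloChar p s = 1)

include hσ hμ in
/-- The Hasse principle in degree two. -/
theorem coindV_eq_zero_of_resq2 (hT : TC T.H) {z : H2 LQ (T.coind σ)}
    (hz : ∀ q : Nat.Primes, resq2 (q : ℕ) (T.coind σ) z = 0) : z = 0 := by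
  let b := Module.finBasis (ZMod p) V
  rw [← sum_map2_coord b (fun i => T.equi_coord hσ (b.coord i))
    (fun i => T.equi_emb hσ (b i)) z]
  refine Finset.sum_eq_zero fun i _ => ?_
  rw [T.eq_zero_of_resq2 hT hμ (z := map2 Compat.id (T.equi_coord hσ (b.coord i)) z) fun q => by
    rw [resq2_map, hz, map_zero], map_zero]

include hσ in
/-- A class trivial at almost all primes is trivial. -/
theorem coindV_eq_zero_of_resq1 (S : Finset Nat.Primes) {x : H1 LQ (T.coind σ)}
    (hx : ∀ q : Nat.Primes, q ∉ S → resq1 (q : ℕ) (T.coind σ) x = 0) : x = 0 := by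
  let b := Module.finBasis (ZMod p) V
  rw [← T.sum_map1_coord hσ b x]
  refine Finset.sum_eq_zero fun i _ => ?_
  rw [T.eq_zero_of_resq1 S (x := map1 Compat.id (T.equi_coord hσ (b.coord i)) x) fun q hq => by
    rw [resq1_map, hx q hq, map_zero], map_zero]

variable {S : Finset Nat.Primes} (hS : T.AdSet (p := p) S)

include hσ hμ hS in
theorem coindV_locS_injOn (hT : TC T.H) {x : H1 LQ (T.coind σ)}
    (hx : x ∈ unrOutside S (T.coind σ)) (h : locS S (T.coind σ) x = 0) : x = 0 := by
  let b := Module.finBasis (ZMod p) V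
  rw [← T.sum_map1_coord hσ b x]
  refine Finset.sum_eq_zero fun i _ => ?_
  rw [T.locS_injOn hμ hT hS.pmem hS.good hS.adapted hS.unr
    (x := map1 Compat.id (T.equi_coord hσ (b.coord i)) x)
    (mem_unrOutside.2 fun q hq => by
      rw [resq1_map]; exact map1_mem_unrH1 _ (mem_unrOutside.1 hx q hq))
    (funext fun q => by
      rw [locS_apply, resq1_map, show resq1 (q.1 : ℕ) (T.coind σ) x = 0 from congrFun h q,
        map_zero]; rfl), map_zero]

include hσ hμ hS in
theorem coindV_finite_unrOutside (hT : TC T.H) : Finite (unrOutside S (T.coind σ)) := by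
  let b := Module.finBasis (ZMod p) V
  have := T.finite_unrOutside hμ hT hS.pmem hS.good hS.adapted hS.unr
  refine Finite.of_injective
    (fun x (i : Fin (Module.finrank (ZMod p) V)) =>
      (⟨map1 Compat.id (T.equi_coord hσ (b.coord i)) x.1, mem_unrOutside.2 fun q hq => by
        rw [resq1_map]; exact map1_mem_unrH1 _ (mem_unrOutside.1 x.2 q hq)⟩ :
        unrOutside S (T.perm p))) fun x y h => Subtype.ext ?_
  rw [← T.sum_map1_coord hσ b x.1, ← T.sum_map1_coord hσ b y.1]
  refine Finset.sum_congr rfl fun i _ => ?_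
  rw [show map1 Compat.id (T.equi_coord hσ (b.coord i)) x.1
      = map1 Compat.id (T.equi_coord hσ (b.coord i)) y.1 from congrArg Subtype.val (congrFun h i)]

variable {W : Type} [AddCommGroup W] [Module (ZMod p) W]
variable {τ : Representation (ZMod p) GQ W}

include hσ hμ in
/-- Local classes orthogonal to the global invariants come from a global class. -/
theorem coindV_image_H2 (hT : TC T.H) (P : DPair LQ (cycQ p).χ (T.coind σ) τ)
    (S₀ : Finset Nat.Primes)
    (w : ∀ q : Nat.Primes, H2 (LL (q : ℕ)) ((T.coind σ).comp (loc (q : ℕ))))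
    (hw : ∀ q : Nat.Primes, q ∉ S₀ → w q = 0)
    (hsum : ∀ n : ↥τ.invariants, ∑ q : {q // q ∈ S₀},
      pair20Q (q.1 : ℕ) P (w q.1) (resInv τ (q.1 : ℕ) n) = 0) :
    ∃ z : H2 LQ (T.coind σ), ∀ q : Nat.Primes, resq2 (q : ℕ) (T.coind σ) z = w q := by
  let b := Module.finBasis (ZMod p) V
  have key : ∀ i, ∃ z : H2 LQ (T.perm p), ∀ q : Nat.Primes, resq2 (q : ℕ) (T.perm p) z
      = map2 Compat.id (equi_loc (T.equi_coord hσ (b.coord i)) (q : ℕ)) (w q) := by
    intro i
    refine T.image_H2 hμ hT S₀ (fun q => map2 Compat.id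
      (equi_loc (T.equi_coord hσ (b.coord i)) (q : ℕ)) (w q))
      (fun q hq => by rw [hw q hq, map_zero]) fun n => ?_
    have hψ := P.equi_adj (T.permPair hμ) (T.equi_coord hσ (b.coord i))
    let n' : ↥τ.invariants := ⟨P.adj (T.permPair hμ) ((b.coord i).compLeft X) n.1, fun g => by
      rw [← show P.adj (T.permPair hμ) ((b.coord i).compLeft X) (T.perm p g n.1)
        = τ g (P.adj (T.permPair hμ) ((b.coord i).compLeft X) n.1) from hψ g n.1, n.2 g]⟩
    rw [← hsum n']
    refine Finset.sum_congr rfl fun q _ => ?_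
    exact pair20_adjoint (localInv (cycL p (q.1 : ℕ))) (locPair (q.1 : ℕ) P)
      (locPair (q.1 : ℕ) (T.permPair hμ)) (equi_loc (T.equi_coord hσ (b.coord i)) (q.1 : ℕ))
      (equi_loc hψ (q.1 : ℕ)) (fun v w => (P.β_adj _ _ v w).symm) (w q.1)
      (resInv (T.perm p) (q.1 : ℕ) n)
  choose z hz using key
  refine ⟨∑ i, map2 Compat.id (T.equi_emb hσ (b i)) (z i), fun q => ?_⟩
  rw [map_sum]
  simp only [resq2_map, hz]
  exact sum_map2_coord b (fun i => equi_loc (T.equi_coord hσ (b.coord i)) (q : ℕ))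
    (fun i => equi_loc (T.equi_emb hσ (b i)) (q : ℕ)) (w q)

/-! ### Classes with prescribed ramification -/

include hS hμ in
/-- Ramification outside `S` can be prescribed for the permutation module. -/
theorem exists_ram (hT : TC T.H) {S₁ : Finset Nat.Primes} (hdis : Disjoint S S₁)
    (y : ∀ q : Nat.Primes, H1 (LL (q : ℕ)) ((T.perm p).comp (loc (q : ℕ)))) :
    ∃ x ∈ unrOutside (S ∪ S₁) (T.perm p), ∀ q ∈ S₁,
      resq1 (q : ℕ) (T.perm p) x - y q ∈ unrH1 ((T.perm p).comp (loc (q : ℕ))) := by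
  classical
  set J := unrOutside (S ∪ S₁) (T.perm p)
  let U : Submodule (ZMod p) (LocH1 S₁ (T.perm p)) :=
    J.map (locS S₁ (T.perm p)) ⊔
      Submodule.pi Set.univ fun q => unrH1 ((T.perm p).comp (loc (q.1 : ℕ)))
  suffices hmem : ((fun q => y q.1) : LocH1 S₁ (T.perm p)) ∈ U by
    obtain ⟨a, ⟨x, hx, rfl⟩, c, hc, e⟩ := Submodule.mem_sup.1 hmem
    refine ⟨x, hx, fun q hq => ?_⟩
    have e' : resq1 (q : ℕ) (T.perm p) x + c ⟨q, hq⟩ = y q := congrFun e ⟨q, hq⟩
    rw [← e', sub_add_cancel_left]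
    exact neg_mem ((Submodule.mem_pi.1 hc) ⟨q, hq⟩ (Set.mem_univ _))
  by_contra hnot
  obtain ⟨f, hfy, hfU⟩ := Submodule.exists_dual_map_eq_bot_of_notMem (R := ZMod p)
    (M := LocH1 S₁ (T.perm p)) hnot (@Module.Projective.of_free _ _ _ _ _
      (Module.Free.of_divisionRing (ZMod p) _))
  have hfU' : ∀ v ∈ U, f v = 0 := fun v hv =>
    (Submodule.eq_bot_iff _).1 hfU _ (Submodule.mem_map_of_mem hv)
  have hu : ∀ q : {q // q ∈ S₁}, ∃ u, ∀ v,
      pair11Q (q.1 : ℕ) (T.permPair hμ) v u = f (Pi.single q v) := by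
    intro q
    obtain ⟨u, hu⟩ := ((perfectQ (q.1 : ℕ) (T.permPair hμ)).bij11_flip
      (localInv (cycL p (q.1 : ℕ)))).2 (-(f ∘ₗ LinearMap.single (ZMod p)
        (fun q : {q // q ∈ S₁} => H1 (LL (q.1 : ℕ)) ((T.perm p).comp (loc (q.1 : ℕ)))) q))
    refine ⟨u, fun v => ?_⟩
    have h := LinearMap.congr_fun hu v
    rw [pair11_flip, LinearMap.neg_apply, neg_inj] at h
    exact h
  choose u hu using hu
  have hqp : ∀ q : {q // q ∈ S₁}, (q.1 : ℕ) ≠ p := fun q h =>
    Finset.disjoint_left.1 hdis hS.pmem (by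
      rw [← show q.1 = (⟨p, hp.out⟩ : Nat.Primes) from Subtype.ext h]; exact q.2)
  have hunr : ∀ q : {q // q ∈ S₁}, UnrRep ((T.perm p).comp (loc (q.1 : ℕ))) := fun q =>
    hS.unr q.1 fun h => Finset.disjoint_left.1 hdis h q.2
  have hu_unr : ∀ q : {q // q ∈ S₁}, u q ∈ unrH1 ((T.perm p).comp (loc (q.1 : ℕ))) := by
    intro q
    refine ((unr_dual (locPair (q.1 : ℕ) (T.permPair hμ)) (hqp q) T.smooth_perm (hunr q)
      (hunr q)).2 (u q)).2 fun v hv => ?_
    show pair11Q (q.1 : ℕ) (T.permPair hμ) v (u q) = 0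
    rw [hu]
    refine hfU' _ (Submodule.mem_sup_right (Submodule.mem_pi.2 fun j _ => ?_))
    by_cases hj : j = q
    · subst hj; rw [Pi.single_eq_same]; exact hv
    · rw [Pi.single_eq_of_ne hj]; exact zero_mem _
  set S' := S ∪ S₁
  have hS' : T.AdSet (p := p) S' := AdSet.mono T hS Finset.subset_union_left
  let Y : LocH1 S' (T.perm p) := fun q => if h : q.1 ∈ S₁ then u ⟨q.1, h⟩ else 0
  obtain ⟨x, hxJ, hx⟩ := T.exists_global_of_orth hμ hT hS'.pmem hS'.good hS'.adapted hS'.unr Y
    fun a ha => by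
      have h0 := hfU' _ (Submodule.mem_sup_left (Submodule.mem_map_of_mem ha))
      rw [← Finset.univ_sum_single (locS S₁ (T.perm p) a), map_sum] at h0
      rw [← h0]
      symm
      refine Finset.sum_bij_ne_zero (fun q _ _ => ⟨q.1, Finset.mem_union_right _ q.2⟩)
        (fun _ _ _ => Finset.mem_univ _)
        (fun a _ _ b _ _ h => Subtype.ext (congrArg (fun q : {q // q ∈ S'} => q.1) h))
        (fun q _ hq => ?_) fun q _ _ => ?_
      · have hq1 : q.1 ∈ S₁ := by
          by_contra h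
          exact hq (by simp only [Y, dif_neg h, map_zero])
        refine ⟨⟨q.1, hq1⟩, Finset.mem_univ _, ?_, rfl⟩
        rw [← hu ⟨q.1, hq1⟩, locS_apply]
        simp only [Y, dif_pos hq1] at hq
        exact hq
      · rw [← hu q, locS_apply]
        simp only [Y, dif_pos q.2]
  have hxI : x ∈ unrOutside S (T.perm p) := mem_unrOutside.2 fun q hq => by
    by_cases hq' : q ∈ S₁
    · have h : resq1 (q : ℕ) (T.perm p) x = Y ⟨q, Finset.mem_union_right _ hq'⟩ :=
        congrFun hx ⟨q, Finset.mem_union_right _ hq'⟩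
      rw [h]
      simp only [Y, dif_pos hq']
      exact hu_unr ⟨q, hq'⟩
    · exact mem_unrOutside.1 hxJ q fun h => (Finset.mem_union.1 h).elim hq hq'
  have hx0 : x = 0 := T.locS_injOn hμ hT hS.pmem hS.good hS.adapted hS.unr hxI (funext fun q => by
    have h : resq1 (q.1 : ℕ) (T.perm p) x = Y ⟨q.1, Finset.mem_union_left _ q.2⟩ :=
      congrFun hx ⟨q.1, Finset.mem_union_left _ q.2⟩
    rw [locS_apply, h]
    simp only [Y, dif_neg (Finset.disjoint_left.1 hdis q.2)]
    rfl)
  refine hfy ?_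
  rw [← Finset.univ_sum_single ((fun q => y q.1) : LocH1 S₁ (T.perm p)), map_sum]
  refine Finset.sum_eq_zero fun q _ => ?_
  have h : resq1 (q.1 : ℕ) (T.perm p) x = Y ⟨q.1, Finset.mem_union_right _ q.2⟩ :=
    congrFun hx ⟨q.1, Finset.mem_union_right _ q.2⟩
  simp only [Y, dif_pos q.2, hx0, map_zero] at h
  rw [← hu q, ← h, map_zero]

include hσ hμ hS in
/-- Ramification outside `S` can be prescribed for sums of permutation modules. -/
theorem coindV_exists_ram (hT : TC T.H) {S₁ : Finset Nat.Primes} (hdis : Disjoint S S₁)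
    (y : ∀ q : Nat.Primes, H1 (LL (q : ℕ)) ((T.coind σ).comp (loc (q : ℕ)))) :
    ∃ x ∈ unrOutside (S ∪ S₁) (T.coind σ), ∀ q ∈ S₁,
      resq1 (q : ℕ) (T.coind σ) x - y q ∈ unrH1 ((T.coind σ).comp (loc (q : ℕ))) := by
  let b := Module.finBasis (ZMod p) V
  choose x hxJ hx using fun i => T.exists_ram hμ hS hT hdis
    fun q => map1 Compat.id (equi_loc (T.equi_coord hσ (b.coord i)) (q : ℕ)) (y q)
  refine ⟨∑ i, map1 Compat.id (T.equi_emb hσ (b i)) (x i),
    sum_mem fun i _ => mem_unrOutside.2 fun q hq => by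
      rw [resq1_map]; exact map1_mem_unrH1 _ (mem_unrOutside.1 (hxJ i) q hq), fun q hq => ?_⟩
  have hy : y q = ∑ i, map1 Compat.id (equi_loc (T.equi_emb hσ (b i)) (q : ℕ))
      (map1 Compat.id (equi_loc (T.equi_coord hσ (b.coord i)) (q : ℕ)) (y q)) := by
    obtain ⟨f, hf⟩ := mk1_surjective (y q)
    rw [← hf]
    simp only [map1_mk1]
    rw [← map_sum]
    refine congrArg (mk1 (LL (q : ℕ)) ((T.coind σ).comp (loc (q : ℕ))))
      (Subtype.ext (funext fun g => ?_))
    rw [AddSubmonoidClass.coe_finsetSum, Finset.sum_apply]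
    exact (sum_coord b (f.1 g)).symm
  rw [hy, map_sum, ← Finset.sum_sub_distrib]
  refine sum_mem fun i _ => ?_
  rw [resq1_map, ← map_sub]
  exact map1_mem_unrH1 _ (hx i q hq)

end Trans

end FA.GalCoh
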