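import Fermat.Agent.GalCoh.Bridge
import Fermat.Prelude.Def_ExtCitation_KummerBridge

/-!
Places of a finite extension `K` of `ℚ` inside `ℚ̄`, given by a level `H`, as orbits of the
decomposition groups on the cosets of `H`, with their local subgroups and absolute values.
-/

set_option autoImplicit false
set_option linter.unusedSectionVars false

noncomputable section

namespace FA.GalCoh

open Polynomial IntermediateField
open scoped Pointwise

instance fact_prime_natPrimes (q : Nat.Primes) : Fact ((q : ℕ)).Prime := ⟨q.2⟩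

/-- The decomposition group at `q`. -/
abbrev DQ (q : ℕ) [Fact q.Prime] : Subgroup GQ := (loc q).range

section Emb

variable {q : ℕ} [hq : Fact q.Prime]

variable (q) in
/-- The embedding attached to `g`. -/
def emb (g : GQ) : AlgebraicClosure ℚ →ₐ[ℚ] PadicAlgCl q :=
  (padicEmbedding q).comp (g : AlgebraicClosure ℚ →ₐ[ℚ] AlgebraicClosure ℚ)

theorem emb_apply (g : GQ) (a : AlgebraicClosure ℚ) : emb q g a = padicEmbedding q (g a) := rfl

theorem emb_loc_mul (τ : LG q) (g : GQ) (a : AlgebraicClosure ℚ) :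
    emb q (loc q τ * g) a = τ (emb q g a) := by
  rw [emb_apply, AlgEquiv.mul_apply, iota_loc]; rfl

theorem emb_mul (g h : GQ) (a : AlgebraicClosure ℚ) : emb q (g * h) a = emb q g (h a) := rfl

theorem norm_emb_loc_mul (τ : LG q) (g : GQ) (a : AlgebraicClosure ℚ) :
    ‖emb q (loc q τ * g) a‖ = ‖emb q g a‖ := by rw [emb_loc_mul, norm_algEquiv]

theorem norm_emb_natCast (g : GQ) (n : ℕ) :
    ‖emb q g (n : AlgebraicClosure ℚ)‖ = ‖(n : PadicAlgCl q)‖ := by rw [map_natCast]

theorem norm_natCast_eq_one {n : ℕ} (h : ¬ q ∣ n) : ‖(n : PadicAlgCl q)‖ = 1 := by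
  rw [← map_natCast (algebraMap ℚ_[q] (PadicAlgCl q)), norm_algebraMap']
  exact Padic.norm_natCast_eq_one_iff.2 (hq.out.coprime_iff_not_dvd.2 h)

theorem norm_emb_le_one_of_isIntegral (g : GQ) {a : AlgebraicClosure ℚ} (h : IsIntegral ℤ a) :
    ‖emb q g a‖ ≤ 1 := by
  obtain ⟨P, hP, hPa⟩ := h.map (emb q g).toRingHom.toIntAlgHom
  change (P.eval₂ _ (emb q g a)) = 0 at hPa
  by_contra! hlt
  rw [eval₂_eq_sum_range, Finset.sum_range_succ, hP.coeff_natDegree, map_one, one_mul,
    add_eq_zero_iff_eq_neg'] at hPa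
  have hpow := congrArg norm hPa
  rw [norm_neg, norm_pow] at hpow
  rcases Nat.eq_zero_or_pos P.natDegree with h0 | h0
  · simp [h0] at hpow
  have hlt' : ‖∑ i ∈ Finset.range P.natDegree, algebraMap ℤ (PadicAlgCl q) (P.coeff i) *
      (emb q g a) ^ i‖ ≤ ‖emb q g a‖ ^ (P.natDegree - 1) := by
    refine IsUltrametricDist.norm_sum_le_of_forall_le_of_nonneg (by positivity) fun i hi => ?_
    rw [norm_mul, norm_pow]
    refine (mul_le_of_le_one_left (by positivity) (IsUltrametricDist.norm_intCast_le_one _ _)).trans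
      (pow_le_pow_right₀ hlt.le (by have := Finset.mem_range.1 hi; omega))
  rw [← hpow] at hlt'
  exact absurd hlt' (not_le.2 (pow_lt_pow_right₀ hlt (by omega)))

end Emb

/-- An element is integral as soon as all its local absolute values are at most one. -/
theorem isIntegral_of_forall_norm_emb {a : AlgebraicClosure ℚ}
    (h : ∀ (q : Nat.Primes) (g : GQ), ‖emb q g a‖ ≤ 1) : IsIntegral ℤ a := by
  have ha : IsIntegral ℚ a := (Algebra.IsAlgebraic.isAlgebraic a).isIntegral
  set P := minpoly ℚ a with hP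
  have hcoeff : ∀ i, ((P.coeff i).den) = 1 := by
    intro i
    by_contra hne
    obtain ⟨q, hq, hqd⟩ := Nat.exists_prime_and_dvd hne
    have : Fact q.Prime := ⟨hq⟩
    have hle : ‖(P.coeff i : ℚ_[q])‖ ≤ 1 := by
      let R : Subring (PadicAlgCl q) :=
        { carrier := {x | ‖x‖ ≤ 1}
          mul_mem' := fun {x y} hx hy => by
            show ‖x * y‖ ≤ 1
            rw [norm_mul]
            exact mul_le_one₀ hx (norm_nonneg _) hy
          one_mem' := norm_one.le
          add_mem' := fun hx hy => norm_add_le_of_le hx hy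
          zero_mem' := norm_zero.trans_le zero_le_one
          neg_mem' := fun {x} hx => by show ‖-x‖ ≤ 1; rw [norm_neg]; exact hx }
      have hsplit := IsAlgClosed.splits (P.map (algebraMap ℚ (PadicAlgCl q)))
      have hmon : (P.map (algebraMap ℚ (PadicAlgCl q))).Monic := (minpoly.monic ha).map _
      have hroots : ∀ r ∈ (P.map (algebraMap ℚ (PadicAlgCl q))).roots, r ∈ R := by
        intro r hr
        rw [← (padicEmbedding q).comp_algebraMap, ← Polynomial.map_map,
          (IsAlgClosed.splits _).roots_map, Multiset.mem_map] at hr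
        obtain ⟨b, hb, rfl⟩ := hr
        have hconj : IsConjRoot ℚ a b := by
          rw [isConjRoot_iff_mem_minpoly_rootSet ha, rootSet_def, Finset.mem_coe,
            Multiset.mem_toFinset]
          exact hb
        obtain ⟨g, hg⟩ := isConjRoot_iff_exists_algEquiv.1 hconj
        show ‖padicEmbedding q b‖ ≤ 1
        rw [← (show g.symm a = b by rw [← hg, AlgEquiv.symm_apply_apply])]
        exact h ⟨q, hq⟩ g.symm
      have hmem : (P.map (algebraMap ℚ (PadicAlgCl q))).coeff i ∈ R := by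
        rw [hsplit.eq_prod_roots_of_monic hmon]
        set s := (P.map (algebraMap ℚ (PadicAlgCl q))).roots
        let lift : Multiset R[X] := s.attach.map fun r => X - C ⟨r.1, hroots r.1 r.2⟩
        have hl : (s.map fun r => X - C r).prod = lift.prod.map R.subtype := by
          rw [Polynomial.map_multiset_prod, Multiset.map_map]
          conv_lhs => rw [← Multiset.attach_map_val s, Multiset.map_map]
          refine congrArg Multiset.prod (Multiset.map_congr rfl fun r _ => ?_)
          simp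
        rw [hl, coeff_map]
        exact Subtype.coe_prop _
      rw [coeff_map, IsScalarTower.algebraMap_apply ℚ ℚ_[q] (PadicAlgCl q)] at hmem
      have hmem' : ‖algebraMap ℚ_[q] (PadicAlgCl q) (algebraMap ℚ ℚ_[q] (P.coeff i))‖ ≤ 1 := hmem
      rwa [norm_algebraMap', eq_ratCast] at hmem'
    have hu : IsUnit ((P.coeff i).den : ℤ_[q]) := PadicInt.isUnit_den _ hle
    rw [PadicInt.isUnit_iff, PadicInt.norm_def, PadicInt.coe_natCast,
      Padic.norm_natCast_eq_one_iff] at hu
    exact hq.coprime_iff_not_dvd.1 hu hqd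
  refine ⟨∑ i ∈ Finset.range (P.natDegree + 1), C (P.coeff i).num * X ^ i, ?_, ?_⟩
  · refine monic_of_natDegree_le_of_coeff_eq_one P.natDegree ?_ ?_
    · exact natDegree_sum_le_of_forall_le _ _ fun i hi =>
        (natDegree_C_mul_X_pow_le _ _).trans (Nat.lt_succ_iff.1 (Finset.mem_range.1 hi))
    · simp [finsetSum_coeff, (minpoly.monic ha).coeff_natDegree, hP]
  · rw [eval₂_finsetSum]
    calc ∑ i ∈ Finset.range (P.natDegree + 1),
          eval₂ (algebraMap ℤ (AlgebraicClosure ℚ)) a (C (P.coeff i).num * X ^ i)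
        = ∑ i ∈ Finset.range (P.natDegree + 1), P.coeff i • a ^ i := by
          refine Finset.sum_congr rfl fun i _ => ?_
          rw [eval₂_mul, eval₂_C, eval₂_X_pow, Algebra.smul_def, eq_intCast, eq_ratCast]
          congr 1
          conv_rhs => rw [← Rat.num_div_den (P.coeff i), hcoeff i, Nat.cast_one, div_one,
            Rat.cast_intCast]
      _ = 0 := by rw [← aeval_eq_sum_range, hP, minpoly.aeval]

theorem exists_nat_mul_isIntegral (a : AlgebraicClosure ℚ) :
    ∃ n : ℕ, n ≠ 0 ∧ IsIntegral ℤ ((n : AlgebraicClosure ℚ) * a) := by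
  have halg : IsAlgebraic ℤ a :=
    (IsFractionRing.isAlgebraic_iff ℤ ℚ (AlgebraicClosure ℚ)).2 (Algebra.IsAlgebraic.isAlgebraic a)
  obtain ⟨y, hy, hya⟩ := halg.exists_integral_multiple
  refine ⟨y.natAbs, Int.natAbs_ne_zero.2 hy, ?_⟩
  rw [zsmul_eq_mul] at hya
  rcases Int.natAbs_eq y with h | h <;> rw [h] at hya
  · rwa [Int.cast_natCast] at hya
  · rw [Int.cast_neg, Int.cast_natCast, neg_mul] at hya
    simpa using hya.neg

/-- A nonzero element has absolute value one almost everywhere. -/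
theorem exists_finset_norm_emb_eq_one {a : AlgebraicClosure ℚ} (ha : a ≠ 0) :
    ∃ S : Finset Nat.Primes, ∀ q ∉ S, ∀ g : GQ, ‖emb q g a‖ = 1 := by
  classical
  obtain ⟨n, hn, hna⟩ := exists_nat_mul_isIntegral a
  obtain ⟨m, hm, hmb⟩ := exists_nat_mul_isIntegral ((n : AlgebraicClosure ℚ) * a)⁻¹
  refine ⟨((n * m).divisors.filter Nat.Prime).attach.image
    (fun x => ⟨x.1, (Finset.mem_filter.1 x.2).2⟩), fun q hq g => ?_⟩
  have hnd : ¬ (q : ℕ) ∣ n * m := fun hd => hq (Finset.mem_image.2 ⟨⟨q.1, by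
    simpa [Finset.mem_filter] using ⟨⟨hd, hn, hm⟩, q.2⟩⟩, Finset.mem_attach _ _, rfl⟩)
  have hqn := norm_natCast_eq_one (q := (q : ℕ)) fun h => hnd (h.mul_right m)
  have hqm := norm_natCast_eq_one (q := (q : ℕ)) fun h => hnd (h.mul_left n)
  have h1 := norm_emb_le_one_of_isIntegral (q := (q : ℕ)) g hna
  have h2 := norm_emb_le_one_of_isIntegral (q := (q : ℕ)) g hmb
  rw [map_mul, norm_mul, norm_emb_natCast, hqn, one_mul] at h1
  rw [map_mul, norm_mul, norm_emb_natCast, hqm, one_mul, map_inv₀, norm_inv, map_mul, norm_mul,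
    norm_emb_natCast, hqn, one_mul] at h2
  refine le_antisymm h1 ?_
  rwa [inv_le_one₀ (norm_pos_iff.2 ((_root_.map_ne_zero _).2 ha))] at h2

/-! ### The local subgroups -/

section Local

variable (H : Subgroup GQ) {q : ℕ} [hq : Fact q.Prime]

variable (q) in
/-- The local subgroup of the place of `g`. -/
def hloc (g : GQ) : Subgroup (LG q) := (H.map (MulAut.conj g).toMonoidHom).comap (loc q)

theorem mem_hloc {g : GQ} {τ : LG q} : τ ∈ hloc H q g ↔ g⁻¹ * loc q τ * g ∈ H := by
  rw [hloc, Subgroup.mem_comap, Subgroup.mem_map_equiv]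
  simp [MulAut.conj_symm_apply]

variable (q) in
/-- The map from a local subgroup. -/
def locTo (g : GQ) : hloc H q g →* H where
  toFun τ := ⟨g⁻¹ * loc q τ * g, (mem_hloc H).1 τ.2⟩
  map_one' := Subtype.ext (by simp)
  map_mul' a b := Subtype.ext (by simp [map_mul, mul_assoc])

theorem emb_locTo (g : GQ) (τ : hloc H q g) (a : AlgebraicClosure ℚ) :
    emb q g ((locTo H q g τ : GQ) a) = (τ : LG q) (emb q g a) := by
  rw [← emb_mul, show g * (locTo H q g τ : GQ) = loc q τ * g by simp [locTo, mul_assoc],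
    emb_loc_mul]

theorem map_conj_mem {H : Subgroup GQ} (hH : H ∈ LQ.carrier) (g : GQ) :
    H.map (MulAut.conj g).toMonoidHom ∈ LQ.carrier := by
  obtain ⟨N, ⟨E, hE, hEN⟩, hle, hn⟩ := LQ.exists_normal hH
  refine ⟨E, hE, fun s hs => ?_⟩
  rw [Subgroup.mem_map_equiv, MulAut.conj_symm_apply]
  exact hle (hn.conj_mem' s (hEN hs) g)

variable {H} (hH : H ∈ LQ.carrier)

include hH in
theorem hloc_mem (g : GQ) : hloc H q g ∈ (LL q).carrier := by
  obtain ⟨N, ⟨E, hE, hEN⟩, hle⟩ := compat_loc (q := q) _ (map_conj_mem hH g)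
  exact ⟨E, hE, fun τ hτ => hle (hEN hτ)⟩

theorem compat_locTo (g : GQ) : Compat (LQ.sub H) ((LL q).sub (hloc H q g)) (locTo H q g) := by
  rintro _ ⟨N, hN, rfl⟩
  obtain ⟨N', hN', hle⟩ := compat_loc (q := q) _ (map_conj_mem hN g)
  refine ⟨_, ⟨N', hN', rfl⟩, fun τ hτ => ?_⟩
  have := hle hτ
  rw [Subgroup.mem_comap, Subgroup.mem_map_equiv, MulAut.conj_symm_apply] at this
  exact this

include hH in
theorem finrank_hloc (g : GQ) :
    Module.finrank ℚ_[q] (fixedField (hloc H q g)) = (hloc H q g).index := by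
  rw [IntermediateField.finrank_eq_fixingSubgroup_index]
  congr 1
  refine InfiniteGalois.fixingSubgroup_fixedField ⟨hloc H q g, ?_⟩
  obtain ⟨E, hE, hle⟩ := hloc_mem (q := q) hH g
  exact Subgroup.isClosed_of_isOpen _ (Subgroup.isOpen_mono hle E.fixingSubgroup_isOpen)

end Local

/-! ### Places -/

section Place

variable (H : Subgroup GQ)

/-- The places of the fixed field of `H` above `q`. -/
abbrev PlaceOver (q : ℕ) [Fact q.Prime] : Type :=
  MulAction.orbitRel.Quotient (DQ q) (GQ ⧸ H)

/-- The places of the fixed field of `H`. -/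
abbrev Place : Type := Σ q : Nat.Primes, PlaceOver H q

variable {H}

theorem smulQ_mk {q : ℕ} [Fact q.Prime] (d : DQ q) (g : GQ) :
    d • (g : GQ ⧸ H) = (((d : GQ) * g : GQ) : GQ ⧸ H) := rfl

/-- The place above `q` of an embedding. -/
def placeQ {q : ℕ} [Fact q.Prime] (g : GQ) : PlaceOver H q := Quotient.mk'' (g : GQ ⧸ H)

/-- The place of an embedding. -/
def placeOf (q : Nat.Primes) (g : GQ) : Place H := ⟨q, placeQ g⟩

/-- A representative of a place above `q`. -/
def repQ {q : ℕ} [Fact q.Prime] (c : PlaceOver H q) : GQ := (Quotient.out c).out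

theorem placeQ_repQ {q : ℕ} [Fact q.Prime] (c : PlaceOver H q) : placeQ (repQ c) = c := by
  unfold placeQ repQ
  rw [QuotientGroup.out_eq', Quotient.mk''_eq_mk]
  exact Quotient.out_eq c

theorem placeQ_eq_iff {q : ℕ} [Fact q.Prime] {g g' : GQ} :
    placeQ (H := H) (q := q) g = placeQ g' ↔ ∃ τ : LG q, ∃ h ∈ H, g = loc q τ * g' * h := by
  constructor
  · intro h'
    rw [placeQ, placeQ, Quotient.eq'', MulAction.orbitRel_apply, MulAction.mem_orbit_iff] at h'
    obtain ⟨⟨_, τ, rfl⟩, hτ⟩ := h'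
    rw [smulQ_mk, QuotientGroup.eq] at hτ
    exact ⟨τ, _, hτ, by simp [mul_assoc]⟩
  · rintro ⟨τ, h, hh, rfl⟩
    refine Quotient.eq''.2 ?_
    rw [MulAction.orbitRel_apply, MulAction.mem_orbit_iff]
    refine ⟨⟨loc q τ, τ, rfl⟩, ?_⟩
    rw [smulQ_mk, QuotientGroup.eq]
    rwa [← mul_assoc (loc q τ * g')⁻¹, inv_mul_cancel, one_mul]

/-- A representative of a place. -/
def Place.rep (v : Place H) : GQ := repQ v.2

theorem placeOf_rep (v : Place H) : placeOf v.1 v.rep = v :=
  congrArg (Sigma.mk v.1) (placeQ_repQ v.2)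

theorem placeOf_eq_iff {q : Nat.Primes} {g g' : GQ} :
    placeOf (H := H) q g = placeOf q g' ↔ ∃ τ : LG q, ∃ h ∈ H, g = loc q τ * g' * h :=
  ⟨fun h => placeQ_eq_iff.1 (eq_of_heq (Sigma.mk.inj h).2),
    fun h => congrArg (Sigma.mk q) (placeQ_eq_iff.2 h)⟩

/-- The absolute value of an element at a place. -/
def Place.absv (v : Place H) (a : AlgebraicClosure ℚ) : ℝ := ‖emb v.1 v.rep a‖

theorem norm_emb_repQ {q : ℕ} [Fact q.Prime] (g : GQ) {a : AlgebraicClosure ℚ}
    (ha : ∀ h ∈ H, h a = a) : ‖emb q (repQ (placeQ (H := H) (q := q) g)) a‖ = ‖emb q g a‖ := by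
  obtain ⟨τ, h, hh, e⟩ := placeQ_eq_iff.1 (placeQ_repQ (placeQ (H := H) (q := q) g))
  rw [e, emb_mul, ha h hh, norm_emb_loc_mul]

theorem absv_placeOf {q : Nat.Primes} (g : GQ) {a : AlgebraicClosure ℚ}
    (ha : ∀ h ∈ H, h a = a) : (placeOf (H := H) q g).absv a = ‖emb q g a‖ :=
  norm_emb_repQ g ha

theorem absv_mul (v : Place H) (a b : AlgebraicClosure ℚ) :
    v.absv (a * b) = v.absv a * v.absv b := by simp [Place.absv]

theorem absv_pos (v : Place H) {a : AlgebraicClosure ℚ} (ha : a ≠ 0) : 0 < v.absv a :=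
  norm_pos_iff.2 ((_root_.map_ne_zero _).2 ha)

/-- The local subgroup of a place. -/
abbrev Place.sub (v : Place H) : Subgroup (LG v.1) := hloc H v.1 v.rep

theorem isOpen_of_mem_LQ {H : Subgroup GQ} (hH : H ∈ LQ.carrier) : IsOpen (H : Set GQ) :=
  mem_LQ_iff_isOpen.1 hH

theorem fixingSubgroup_fixedField_LQ {H : Subgroup GQ} (hH : H ∈ LQ.carrier) :
    (fixedField H).fixingSubgroup = H :=
  InfiniteGalois.fixingSubgroup_fixedField
    ⟨H, Subgroup.isClosed_of_isOpen _ (isOpen_of_mem_LQ hH)⟩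

/-- The local degrees add up to the global degree. -/
theorem sum_index_sub (hH : H ∈ LQ.carrier) {q : ℕ} [Fact q.Prime] [Fintype (PlaceOver H q)] :
    ∑ c : PlaceOver H q, (hloc H q (repQ c)).index = H.index := by
  classical
  have := LQ.finiteIndex hH
  have : Fintype (GQ ⧸ H) := Fintype.ofFinite _
  rw [Subgroup.index_eq_card, Nat.card_congr (MulAction.selfEquivSigmaOrbits (DQ q) (GQ ⧸ H)),
    Nat.card_sigma]
  refine Finset.sum_congr rfl fun c _ => ?_
  show ((H.map (MulAut.conj (Quotient.out c).out).toMonoidHom).comap (loc q)).index = _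
  rw [Subgroup.index_comap, Subgroup.relIndex, Subgroup.index_eq_card,
    Nat.card_congr (MulAction.orbitEquivQuotientStabilizer (DQ q) (Quotient.out c))]
  refine Nat.card_congr (Quotient.congrRight fun a b => ?_)
  rw [QuotientGroup.leftRel_apply, QuotientGroup.leftRel_apply, Subgroup.mem_subgroupOf,
    MulAction.mem_stabilizer_iff, Subgroup.mem_map_equiv, MulAut.conj_symm_apply]
  conv_rhs => rw [← QuotientGroup.out_eq' (Quotient.out c), smulQ_mk, eq_comm, QuotientGroup.eq,
    ← mul_assoc]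

/-! ### Separating the places above a prime -/

/-- An element which is a unit at one place above `q` and not at the others. -/
theorem exists_separating (hH : H ∈ LQ.carrier) {q : ℕ} [hq : Fact q.Prime] (g : GQ) :
    ∃ a ∈ fixedField H, IsIntegral ℤ a ∧ ‖emb q g a‖ = 1 ∧
      ∀ g', placeQ (H := H) (q := q) g' ≠ placeQ g → ‖emb q g' a‖ < 1 := by
  classical
  have := finiteDimensional_fixedField hH
  obtain ⟨α, hα⟩ := Field.exists_primitive_element ℚ (fixedField H)
  set A : AlgebraicClosure ℚ := (α : AlgebraicClosure ℚ)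
  have hAi : IsIntegral ℚ A := (Algebra.IsAlgebraic.isAlgebraic A).isIntegral
  set y := emb q g A
  have hy : IsIntegral ℚ_[q] y := (Algebra.IsAlgebraic.isAlgebraic _).isIntegral
  set G := minpoly ℚ_[q] y with hG
  set F := (minpoly ℚ A).map (algebraMap ℚ ℚ_[q]) with hF
  obtain ⟨G', hFG⟩ : G ∣ F := minpoly.dvd _ _ (by
    rw [hF, aeval_map_algebraMap, aeval_algHom_apply, minpoly.aeval, map_zero])
  have hsep : F.Separable := (minpoly.irreducible hAi).separable.map
  obtain ⟨u, w, huw⟩ := (hFG ▸ hsep : (G * G').Separable).isCoprime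
  set e := w * G' with he
  have hey : aeval y e = 1 := by
    have := congrArg (aeval y) huw
    rwa [map_add, map_mul, minpoly.aeval, mul_zero, zero_add, map_one] at this
  have hey' : ∀ g', placeQ (H := H) (q := q) g' ≠ placeQ g → aeval (emb q g' A) e = 0 := by
    intro g' hne
    have h0 : aeval (emb q g' A) F = 0 := by
      rw [hF, aeval_map_algebraMap, aeval_algHom_apply, minpoly.aeval, map_zero]
    rw [hFG, map_mul, mul_eq_zero] at h0
    rcases h0 with h0 | h0
    · exfalso
      obtain ⟨τ, hτ⟩ := minpoly.exists_algEquiv_of_root' (Algebra.IsAlgebraic.isAlgebraic y) h0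
      refine hne (placeQ_eq_iff.2 ⟨τ, (loc q τ * g)⁻¹ * g', ?_, by group⟩)
      have hfixA : ((loc q τ * g)⁻¹ * g') A = A := by
        rw [AlgEquiv.mul_apply, AlgEquiv.aut_inv, AlgEquiv.symm_apply_eq]
        refine (padicEmbedding q).injective (?_ : padicEmbedding q _ = padicEmbedding q _)
        rw [← emb_apply, ← emb_apply, emb_loc_mul]
        exact hτ.symm
      rw [← fixingSubgroup_fixedField_LQ hH, IntermediateField.mem_fixingSubgroup_iff]
      intro x hx
      have key : ∀ z : fixedField H, z ∈ ℚ⟮α⟯ →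
          ((loc q τ * g)⁻¹ * g') (z : AlgebraicClosure ℚ) = (z : AlgebraicClosure ℚ) := by
        intro z hz
        induction hz using adjoin_induction with
        | mem y hy => rw [Set.mem_singleton_iff.1 hy]; exact hfixA
        | algebraMap r => exact AlgEquiv.commutes _ r
        | add x y _ _ hx hy => push_cast; rw [map_add, hx, hy]
        | inv x _ hx => push_cast; rw [map_inv₀, hx]
        | mul x y _ _ hx hy => push_cast; rw [map_mul, hx, hy]
      exact key ⟨x, hx⟩ (by rw [hα]; trivial)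
    · rw [he, map_mul, h0, mul_zero]
  -- approximate by a rational polynomial
  have hd : DenseRange (algebraMap ℚ ℚ_[q]) := by
    rw [show ⇑(algebraMap ℚ ℚ_[q]) = ((↑) : ℚ → ℚ_[q]) from funext fun r => eq_ratCast _ r]
    exact Padic.denseRange_ratCast (p := q)
  have := LQ.finiteIndex hH
  have : Fintype (GQ ⧸ H) := Fintype.ofFinite _
  set B : ℝ := (1 + ∑ c : GQ ⧸ H, ‖emb q c.out A‖) ^ e.natDegree
  have hB : 0 < B := pow_pos (by positivity) _
  choose r hr using fun i => Metric.denseRange_iff.1 hd (e.coeff i) ((2 * B)⁻¹) (by positivity)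
  set e' : ℚ[X] := ∑ i ∈ Finset.range (e.natDegree + 1), Polynomial.C (r i) * Polynomial.X ^ i
  have happrox : ∀ g'' : GQ, ‖emb q g'' (aeval A e') - aeval (emb q g'' A) e‖ < 1 := by
    intro g''
    have hbound : ‖emb q g'' A‖ ≤ 1 + ∑ c : GQ ⧸ H, ‖emb q c.out A‖ := by
      have hh : ‖emb q g'' A‖ = ‖emb q (g'' : GQ ⧸ H).out A‖ := by
        obtain ⟨h, hh⟩ := QuotientGroup.mk_out_eq_mul H g''
        rw [hh, emb_mul, (mem_fixedField_iff _ _).1 α.2 h h.2]
      rw [hh]
      exact (Finset.single_le_sum (f := fun c : GQ ⧸ H => ‖emb q c.out A‖)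
        (fun c _ => norm_nonneg _) (Finset.mem_univ _)).trans (le_add_of_nonneg_left zero_le_one)
    rw [← aeval_algHom_apply, map_sum, aeval_eq_sum_range, ← Finset.sum_sub_distrib]
    refine lt_of_le_of_lt (IsUltrametricDist.norm_sum_le_of_forall_le_of_nonneg (C := 1 / 2)
      (by norm_num) fun i hi => ?_) (by norm_num)
    rw [map_mul, aeval_C, map_pow, aeval_X, Algebra.smul_def,
      IsScalarTower.algebraMap_apply ℚ ℚ_[q] (PadicAlgCl q), ← sub_mul, ← map_sub, norm_mul,
      norm_algebraMap', norm_pow]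
    calc ‖algebraMap ℚ ℚ_[q] (r i) - e.coeff i‖ * ‖emb q g'' A‖ ^ i
        ≤ (2 * B)⁻¹ * B := by
          refine mul_le_mul ?_ ?_ (by positivity) (by positivity)
          · rw [norm_sub_rev, ← dist_eq_norm]; exact (hr i).le
          · refine (pow_le_pow_left₀ (norm_nonneg _) hbound i).trans (pow_le_pow_right₀ ?_ ?_)
            · exact le_add_of_nonneg_right (Finset.sum_nonneg fun c _ => norm_nonneg _)
            · exact Nat.lt_succ_iff.1 (Finset.mem_range.1 hi)
      _ = 1 / 2 := by field_simp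
  set b := aeval A e'
  have hbg : ‖emb q g b‖ = 1 := by
    have h := happrox g
    rw [hey] at h
    rw [show emb q g b = 1 + (emb q g b - 1) by ring, norm_one_add h]
  have hbg' : ∀ g', placeQ (H := H) (q := q) g' ≠ placeQ g → ‖emb q g' b‖ < 1 := fun g' hne => by
    simpa [hey' g' hne] using happrox g'
  have hble : ∀ g'', ‖emb q g'' b‖ ≤ 1 := fun g'' => by
    by_cases h : placeQ (H := H) (q := q) g'' = placeQ g
    · obtain ⟨τ, h', hh', rfl⟩ := placeQ_eq_iff.1 h
      rw [emb_mul, ← aeval_algHom_apply (h' : GQ), (mem_fixedField_iff _ _).1 α.2 h' hh',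
        norm_emb_loc_mul, hbg]
    · exact (hbg' g'' h).le
  have hbK : b ∈ fixedField H := by
    rw [show b = ((aeval α e' : fixedField H) : AlgebraicClosure ℚ) from
      (IntermediateField.coe_val (fixedField H) ▸ aeval_algHom_apply (fixedField H).val α e')]
    exact SetLike.coe_mem _
  obtain ⟨n, hn, hnb⟩ := exists_nat_mul_isIntegral b
  obtain ⟨k, m, hqm, rfl⟩ := Nat.exists_eq_pow_mul_and_not_dvd hn q hq.out.ne_one
  have hm1 := norm_natCast_eq_one (q := (q : ℕ)) hqm
  refine ⟨(m : AlgebraicClosure ℚ) * b, mul_mem (IntermediateField.natCast_mem _ m) hbK,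
    isIntegral_of_forall_norm_emb fun q' g'' => ?_, ?_, fun g' hne => ?_⟩
  · by_cases hqq : (q' : ℕ) = q
    · subst hqq
      rw [map_mul, norm_mul, norm_emb_natCast, hm1, one_mul]
      exact hble g''
    · have := norm_emb_le_one_of_isIntegral (q := (q' : ℕ)) g'' hnb
      have hqk := norm_natCast_eq_one (q := (q' : ℕ)) (n := q ^ k) fun h =>
        hqq ((Nat.prime_dvd_prime_iff_eq q'.2 hq.out).1 (q'.2.dvd_of_dvd_pow h))
      rwa [Nat.cast_mul, mul_assoc, map_mul, norm_mul, norm_emb_natCast, hqk, one_mul] at this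
  · rw [map_mul, norm_mul, norm_emb_natCast, hm1, one_mul]; exact hbg
  · rw [map_mul, norm_mul, norm_emb_natCast, hm1, one_mul]; exact hbg' g' hne

end Place

end FA.GalCoh
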