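import Fermat.Agent.GalCoh.AuxPrime

/-!
The reciprocity law: the local invariants of a global class with values in the roots of unity
add up to zero, the real place entering for `p = 2`.
-/

set_option autoImplicit false
set_option linter.unusedSectionVars false

noncomputable section

namespace FA.GalCoh

variable {p : ℕ} [hp : Fact p.Prime]

variable (p) in
/-- The invariant at a prime. -/
def invQ (q : ℕ) [Fact q.Prime] : H2 LQ (chr (cycQ p).χ) →ₗ[ZMod p] ZMod p :=
  (localInv (cycL p q)).comp (map2 compat_loc (equi_loc_chr q))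

variable (p) in
/-- The value at complex conjugation of a two-cocycle, relevant for `p = 2`. -/
def evInf : ↥(Z2 LQ (chr (cycQ p).χ)) →ₗ[ZMod p] ZMod p where
  toFun Z := (if p = 2 then 1 else 0) *
    (Z.1 (complexConjugation, complexConjugation) - Z.1 (1, 1))
  map_add' Z Z' := by simp only [Submodule.coe_add, Pi.add_apply]; ring
  map_smul' c Z := by
    simp only [Submodule.coe_smul, Pi.smul_apply, smul_eq_mul, RingHom.id_apply]; ring

variable (p) in
/-- The invariant at the real place. -/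
def invInf : H2 LQ (chr (cycQ p).χ) →ₗ[ZMod p] ZMod p :=
  Submodule.liftQ _ (evInf p) fun Z ⟨b, _, hb⟩ => by
    change d1 (chr (cycQ p).χ) b = Z.1 at hb
    rw [LinearMap.mem_ker]
    show (if p = 2 then 1 else 0) * _ = (0 : ZMod p)
    split_ifs with h
    · subst h
      have hχ : ∀ g, ((cycQ 2).χ g : ZMod 2) = 1 := fun g => by
        rw [show (cycQ 2).χ g = 1 from Subsingleton.elim _ _, Units.val_one]
      rw [← hb, d1_apply, d1_apply, chr_apply, chr_apply, hχ, hχ, complexConjugation_mul_self,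
        one_mul, one_mul]
      simp only [one_mul]
      have key : ∀ x : ZMod 2, x + x = 0 := CharTwo.add_self_eq_zero
      linear_combination (norm := abel) key (b complexConjugation) - key (b 1)
    · rw [zero_mul]

theorem invQ_eq_zero_of_resq2 (q : ℕ) [Fact q.Prime] {z : H2 LQ (chr (cycQ p).χ)}
    (h : resq2 q (chr (cycQ p).χ) z = 0) : invQ p q z = 0 := by
  show localInv (cycL p q) (map2 compat_loc (equi_loc_chr q) z) = 0
  refine Eq.trans (congrArg (localInv (cycL p q)) ?_) (map_zero _)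
  exact h

theorem finite_support_invQ (z : H2 LQ (chr (cycQ p).χ)) :
    (Function.support fun q : Nat.Primes => invQ p (q : ℕ) z).Finite := by
  obtain ⟨S, hS⟩ := exists_finset_resq2 (cycQ p).smooth_chr z
  refine S.finite_toSet.subset fun q hq => ?_
  by_contra hqS
  exact hq (invQ_eq_zero_of_resq2 _ (hS q hqS))

variable (p) in
/-- The sum of all the invariants. -/
def invTot : H2 LQ (chr (cycQ p).χ) →ₗ[ZMod p] ZMod p where
  toFun z := (∑ᶠ q : Nat.Primes, invQ p (q : ℕ) z) + invInf p z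
  map_add' z z' := by
    simp only [map_add]
    rw [finsum_add_distrib (finite_support_invQ z) (finite_support_invQ z')]
    abel
  map_smul' c z := by
    simp only [map_smul, smul_eq_mul, RingHom.id_apply]
    rw [← mul_finsum (fun q : Nat.Primes => invQ p (q : ℕ) z) c]
    ring

theorem invTot_apply (z : H2 LQ (chr (cycQ p).χ)) :
    invTot p z = (∑ᶠ q : Nat.Primes, invQ p (q : ℕ) z) + invInf p z := rfl

theorem unrCup_add {q : ℕ} [Fact q.Prime] (a b : fixUM (LG q) (PadicAlgCl q)) :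
    unrCup (cycL p q) (a + b) = unrCup (cycL p q) a + unrCup (cycL p q) b := by
  rw [unrCup, (cycL p q).kum_add, map_add, LinearMap.add_apply]
  rfl

theorem intUM_mul (u v : ℤ) (hu : u ≠ 0) (hv : v ≠ 0) :
    intUM (u * v) (mul_ne_zero hu hv) = intUM u hu + intUM v hv :=
  Subtype.ext (UM.ext (by
    rw [AddSubgroup.coe_add, UM.val_add, val_intUM, val_intUM, val_intUM, Int.cast_mul]))

theorem norm_locUnit_intUM {q : ℕ} [Fact q.Prime] {u : ℤ} (hu : u ≠ 0) (h : ¬ (q : ℤ) ∣ u) :
    ‖(locUnit q (intUM u hu)).1.val‖ = 1 := by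
  rw [val_locUnit, val_intUM, map_intCast, norm_intCast_eq_one h]

theorem locUnit_intUM_self (q : ℕ) [hq : Fact q.Prime] (h : (q : ℤ) ≠ 0) :
    locUnit q (intUM (q : ℤ) h) = qUnit :=
  Subtype.ext (UM.ext (by
    rw [val_locUnit, val_intUM, map_intCast]
    show ((q : ℤ) : PadicAlgCl q) = (q : PadicAlgCl q)
    exact Int.cast_natCast q))

theorem localInv_unrCup_neg (l : ℕ) [hl : Fact l.Prime] :
    localInv (cycL p l) (unrCup (cycL p l) (locUnit l (intUM (-1 * (l : ℤ))
      (mul_ne_zero (neg_ne_zero.2 one_ne_zero) (Int.natCast_ne_zero.2 hl.out.ne_zero))))) = 1 := by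
  rw [intUM_mul _ _ (neg_ne_zero.2 one_ne_zero) (Int.natCast_ne_zero.2 hl.out.ne_zero), map_add,
    unrCup_add, map_add, localInv_unit, locUnit_intUM_self, localInv_unrCup,
    zero_add]
  exact norm_locUnit_intUM _ fun h => hl.out.one_lt.ne'
    (Nat.dvd_one.1 (Int.natCast_dvd_natCast.1 (by rw [Nat.cast_one]; exact dvd_neg.1 h)))

section Cup

variable {l : ℕ} [hl : Fact l.Prime]

theorem map1_loc_cls {q : ℕ} [Fact q.Prime] (hql : q ≠ l) (hlp : p ∣ l - 1)
    (C : CycData LQ (auxChar p l)) :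
    map1 (compat_loc (q := q)) (equi_triv (p := p) (loc q)) C.cls
      = psi0 p l q • unrClass (p := p) := by
  rw [CycData.cls, unrClass, map1_mk1, ← map_smul]
  exact congrArg (mk1 (LL q) (triv (LG q) p))
    (Subtype.ext (funext fun τ => auxChar_loc hlp hql τ))

theorem invQ_cup (q : ℕ) [Fact q.Prime] (C : CycData LQ (auxChar p l))
    (a : fixUM GQ (AlgebraicClosure ℚ)) :
    invQ p q ((bil_chr (cycQ p).χ).cup smooth_triv ((cycQ p).kum a) C.cls)
      = localInv (cycL p q) ((bil_chr (cycL p q).χ).cup smooth_triv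
          ((cycL p q).kum (locUnit q a)) (map1 compat_loc (equi_triv (loc q)) C.cls)) := by
  show localInv (cycL p q) (map2 compat_loc (equi_loc_chr q) _) = _
  rw [Bil.map2_cup (bil_chr (cycQ p).χ) smooth_triv (bil_chr (cycL p q).χ) smooth_triv compat_loc
    (equi_loc_chr q) (equi_triv (loc q)) (equi_loc_chr q) (fun _ _ => rfl), map1_loc_kum]

theorem invQ_cup_of_ne {q : ℕ} [Fact q.Prime] (hql : q ≠ l) (hlp : p ∣ l - 1)
    (C : CycData LQ (auxChar p l)) (a : fixUM GQ (AlgebraicClosure ℚ)) :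
    invQ p q ((bil_chr (cycQ p).χ).cup smooth_triv ((cycQ p).kum a) C.cls)
      = psi0 p l q * localInv (cycL p q) (unrCup (cycL p q) (locUnit q a)) := by
  rw [invQ_cup, map1_loc_cls hql hlp, map_smul, map_smul]
  rfl

theorem invQ_cup_self (hlp : p ∣ l - 1) (C : CycData LQ (auxChar p l)) {u : ℤ} (hu : u ≠ 0)
    (hul : ¬ (l : ℤ) ∣ u) :
    invQ p l ((bil_chr (cycQ p).χ).cup smooth_triv ((cycQ p).kum (intUM u hu)) C.cls)
      = -psi0 p l u := by
  set D := cycL p l
  have h1 := chi_cycL_eq_one (p := p) (l := l) hlp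
  set b := locUnit l (intUM (-1 * (l : ℤ))
    (mul_ne_zero (neg_ne_zero.2 one_ne_zero) (Int.natCast_ne_zero.2 hl.out.ne_zero))) with hb
  obtain ⟨f, hf, hfk⟩ := auxChar_loc_self (p := p) hlp (b := b) (by
    rw [hb, val_locUnit, val_intUM, map_intCast]; push_cast; ring)
  have hy : map1 compat_loc (equi_triv (loc l)) C.cls = (D.kumTop h1).kum b := by
    rw [← D.map1_kum_top h1, hfk, CycData.cls, map1_mk1, map1_mk1]
    exact congrArg (mk1 (LL l) (triv (LG l) p)) (Subtype.ext (funext fun τ => (hf τ).symm))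
  rw [invQ_cup, hy, show (bil_chr D.χ).cup smooth_triv (D.kum (locUnit l (intUM u hu)))
      ((D.kumTop h1).kum b) = -psi0 p l u • unrCup D b from D.map2_top_injective h1 (by
    rw [D.map2_top_cup h1, kum_unit_eq hlp (val_intUM u hu) hul, map_smul, LinearMap.smul_apply,
      map_smul, unrCup, D.map2_top_cup h1, D.map1_kum_top, symb_comm ((D.kumTop h1).kum b),
      neg_smul, smul_neg]),
    map_smul, localInv_unrCup_neg, smul_eq_mul, mul_one]

theorem invQ_cup_prime (hlp : p ∣ l - 1) (C : CycData LQ (auxChar p l)) (h : (l : ℤ) ≠ 0) :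
    invQ p l ((bil_chr (cycQ p).χ).cup smooth_triv ((cycQ p).kum (intUM (l : ℤ) h)) C.cls) = 0 := by
  set D := cycL p l
  have h1 := chi_cycL_eq_one (p := p) (l := l) hlp
  set b := locUnit l (intUM (-1 * (l : ℤ)) (mul_ne_zero (neg_ne_zero.2 one_ne_zero) h)) with hb
  obtain ⟨f, hf, hfk⟩ := auxChar_loc_self (p := p) hlp (b := b) (by
    rw [hb, val_locUnit, val_intUM, map_intCast]; push_cast; ring)
  have hy : map1 compat_loc (equi_triv (loc l)) C.cls = (D.kumTop h1).kum b := by
    rw [← D.map1_kum_top h1, hfk, CycData.cls, map1_mk1, map1_mk1]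
    exact congrArg (mk1 (LL l) (triv (LG l) p)) (Subtype.ext (funext fun τ => (hf τ).symm))
  rw [invQ_cup, hy]
  refine Eq.trans (congrArg (localInv D) (D.map2_top_injective h1 ?_)) (map_zero _)
  rw [D.map2_top_cup h1, D.map1_kum_top, map_zero]
  set x := locUnit l (intUM (l : ℤ) h)
  rcases hp.out.eq_two_or_odd' with h2 | hodd
  · refine KumData.symb_neg_self (D.kumTop h1) h2 ?_
    rw [val_locUnit, val_locUnit, val_intUM, val_intUM, map_intCast, map_intCast]
    push_cast
    ring
  · have hbx : (D.kumTop h1).kum b = (D.kumTop h1).kum x := by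
      rw [hb, intUM_mul _ _ (neg_ne_zero.2 one_ne_zero) h, map_add, map_add]
      · convert zero_add _ using 2
        refine ((D.kumTop h1).kum_eq_zero_iff _).2
          ⟨locUnit l (intUM (-1) (neg_ne_zero.2 one_ne_zero)), Subtype.ext (UM.ext ?_)⟩
        rw [AddSubmonoidClass.coe_nsmul, UM.val_nsmul, val_locUnit, val_intUM, map_intCast,
          Int.cast_neg, Int.cast_one, hodd.neg_one_pow]
    rw [hbx]
    have hs := symb_comm ((D.kumTop h1).kum x) ((D.kumTop h1).kum x)
    rw [eq_neg_iff_add_eq_zero, ← two_smul (ZMod p)] at hs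
    refine (smul_eq_zero.1 hs).resolve_left fun h2 => ?_
    have h2' : ((2 : ℕ) : ZMod p) = 0 := h2
    rw [ZMod.natCast_eq_zero_iff] at h2'
    rw [(Nat.prime_dvd_prime_iff_eq hp.out Nat.prime_two).1 h2'] at hodd
    exact absurd hodd (by decide)

theorem invInf_cup (C : CycData LQ (auxChar p l)) (a : fixUM GQ (AlgebraicClosure ℚ)) :
    invInf p ((bil_chr (cycQ p).χ).cup smooth_triv ((cycQ p).kum a) C.cls)
      = (if p = 2 then 1 else 0) *
        ((cycQ p).kc a complexConjugation * auxChar p l complexConjugation) := by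
  show (if p = 2 then 1 else 0) *
    ((cycQ p).kc a complexConjugation * auxChar p l complexConjugation
      - (cycQ p).kc a 1 * auxChar p l 1) = _
  rw [C.map_one, mul_zero, sub_zero]

end Cup

theorem kc_conj_two (a : fixUM GQ (AlgebraicClosure ℚ)) {u : ℤ} (ha : a.1.val = u) :
    (cycQ 2).kc a complexConjugation = if u < 0 then 1 else 0 := by
  have hu : u ≠ 0 := fun h => a.1.val_ne_zero (by rw [ha, h, Int.cast_zero])
  set z := complexEmbedding ((cycQ 2).kroot a.1).val
  have hz0 : z ≠ 0 := (_root_.map_ne_zero _).2 (UM.val_ne_zero _)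
  have hz : z * z = (u : ℂ) := by
    rw [← map_mul, ← sq, ← UM.val_nsmul, (cycQ 2).nsmul_kroot, ha, map_intCast]
  have hre := congrArg Complex.re hz
  have him := congrArg Complex.im hz
  simp only [Complex.mul_re, Complex.mul_im, Complex.intCast_re, Complex.intCast_im] at hre him
  have hk := congrArg (fun m : UM (AlgebraicClosure ℚ) => complexEmbedding m.val)
    ((cycQ 2).eps_kc a complexConjugation)
  simp only [(cycQ 2).eps_val, map_pow, UM.val_sub, UM.val_smul, map_div₀, AlgEquiv.smul_def,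
    complexEmbedding_complexConjugation] at hk
  have hζ : complexEmbedding (cycQ 2).ζ = -1 := by
    rw [(cycQ 2).prim.eq_neg_one_of_two_right, map_neg, map_one]
  rw [hζ] at hk
  change (-1 : ℂ) ^ _ = (starRingEnd ℂ) z / z at hk
  have h01 : ∀ k : ZMod 2, k = 0 ∨ k = 1 := by decide
  rcases h01 ((cycQ 2).kc a complexConjugation) with h | h <;> rw [h] at hk ⊢ <;>
    rw [eq_div_iff hz0] at hk
  · rw [show (0 : ZMod 2).val = 0 from rfl, pow_zero, one_mul] at hk
    have hzi : z.im = 0 := Complex.conj_eq_iff_im.1 hk.symm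
    rw [if_neg fun hlt => ?_]
    rw [hzi, mul_zero, sub_zero] at hre
    have : (u : ℝ) < 0 := Int.cast_lt_zero.2 hlt
    nlinarith
  · rw [show (1 : ZMod 2).val = 1 from rfl, pow_one, neg_one_mul] at hk
    have hzr : z.re = 0 := by
      have := congrArg Complex.re hk
      simp only [Complex.neg_re, Complex.conj_re] at this
      linarith
    rw [if_pos]
    rw [hzr, mul_zero, zero_sub] at hre
    have hne : z.im ≠ 0 := fun h0 => hz0 (Complex.ext hzr h0)
    have : (u : ℝ) < 0 := by rw [← hre]; nlinarith [mul_self_pos.2 hne]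
    exact_mod_cast this

section Main

variable {l : Nat.Primes} (hlp : p ∣ (l : ℕ) - 1) (C : CycData LQ (auxChar p (l : ℕ)))

/-- The sum of invariants of the products with the auxiliary character. -/
def cupTot : fixUM GQ (AlgebraicClosure ℚ) →+ ZMod p :=
  AddMonoidHom.mk'
    (fun a => invTot p ((bil_chr (cycQ p).χ).cup smooth_triv ((cycQ p).kum a) C.cls))
    fun a b => by
      simp only [(cycQ p).kum_add, map_add, LinearMap.add_apply]

theorem cupTot_apply (a : fixUM GQ (AlgebraicClosure ℚ)) :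
    cupTot C a = invTot p ((bil_chr (cycQ p).χ).cup smooth_triv ((cycQ p).kum a) C.cls) := rfl

include hlp in
theorem cupTot_eq_zero_prime {r : ℕ} (hr : r.Prime) :
    cupTot C (intUM (r : ℤ) (Int.natCast_ne_zero.2 hr.ne_zero)) = 0 := by
  have : Fact r.Prime := ⟨hr⟩
  rw [cupTot_apply, invTot_apply]
  have hinf : invInf p ((bil_chr (cycQ p).χ).cup smooth_triv
      ((cycQ p).kum (intUM (r : ℤ) (Int.natCast_ne_zero.2 hr.ne_zero))) C.cls) = 0 := by
    rw [invInf_cup]
    split_ifs with h2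
    · subst h2
      rw [kc_conj_two _ (val_intUM _ _), if_neg (not_lt.2 (Int.natCast_nonneg r)), zero_mul,
        mul_zero]
    · rw [zero_mul]
  rw [hinf, add_zero]
  set z := (bil_chr (cycQ p).χ).cup smooth_triv
    ((cycQ p).kum (intUM (r : ℤ) (Int.natCast_ne_zero.2 hr.ne_zero))) C.cls with hz
  have hrest : ∀ q : Nat.Primes, (q : ℕ) ≠ r → (q : ℕ) ≠ l → invQ p (q : ℕ) z = 0 := by
    intro q hqr hql
    rw [hz, invQ_cup_of_ne hql hlp, localInv_unit, mul_zero]
    exact norm_locUnit_intUM _ fun h =>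
      hqr ((Nat.prime_dvd_prime_iff_eq q.2 hr).1 (Int.natCast_dvd_natCast.1 h))
  by_cases hrl : r = (l : ℕ)
  · rw [finsum_eq_zero_of_forall_eq_zero]
    intro q
    by_cases hql : q = l
    · subst hql
      subst hrl
      rw [hz]
      exact invQ_cup_prime hlp C _
    · exact hrest q (fun h => hql (Subtype.ext (h.trans hrl))) fun h => hql (Subtype.ext h)
  · classical
    have hne : (⟨r, hr⟩ : Nat.Primes) ≠ l := fun h => hrl (congrArg Subtype.val h)
    rw [finsum_eq_sum_of_support_subset _ (s := {(⟨r, hr⟩ : Nat.Primes), l}) ?_]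
    refine (Finset.sum_pair hne).trans ?_
    swap
    rotate_left
    · show invQ p r z + invQ p (l : ℕ) z = 0
      rw [hz, invQ_cup_of_ne hrl hlp, locUnit_intUM_self, localInv_unrCup, mul_one,
        invQ_cup_self hlp C (Int.natCast_ne_zero.2 hr.ne_zero)
          (fun h => hrl ((Nat.prime_dvd_prime_iff_eq l.2 hr).1 (Int.natCast_dvd_natCast.1 h)).symm),
        add_neg_cancel]
    · intro q hq
      by_contra h
      exact hq (hrest q (fun e => h (Finset.mem_coe.2 (Finset.mem_insert.2 (Or.inl (Subtype.ext e)))))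
        fun e => h (Finset.mem_coe.2 (Finset.mem_insert.2 (Or.inr
          (Finset.mem_singleton.2 (Subtype.ext e))))))

include hlp in
theorem cupTot_eq_zero_neg (hn : p = 2 → psi0 p (l : ℕ) (-1) ≠ 0) :
    cupTot C (intUM (-1) (neg_ne_zero.2 one_ne_zero)) = 0 := by
  have hunit : ∀ q : ℕ, q.Prime → ¬ (q : ℤ) ∣ -1 := fun q hq h => hq.one_lt.ne'
    (Nat.dvd_one.1 (Int.natCast_dvd_natCast.1 (by rw [Nat.cast_one]; exact dvd_neg.1 h)))
  rw [cupTot_apply, invTot_apply, finsum_eq_single _ l fun q hq => by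
    rw [invQ_cup_of_ne (fun h => hq (Subtype.ext h)) hlp, localInv_unit, mul_zero]
    exact norm_locUnit_intUM _ (hunit _ q.2),
    invQ_cup_self hlp C _ (hunit _ l.2), invInf_cup, auxChar_complexConj hlp]
  split_ifs with h2
  · subst h2
    rw [kc_conj_two _ (val_intUM _ _), if_pos (by norm_num), one_mul, one_mul, neg_add_cancel]
  · have h := psi0_mul hlp (hunit _ l.2) (hunit _ l.2)
    rw [neg_one_mul, neg_neg, psi0_one hlp, eq_comm, ← two_smul (ZMod p), smul_eq_zero] at h
    rw [zero_mul, add_zero, neg_eq_zero]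
    refine h.resolve_left fun h' => h2 ?_
    have h'' : ((2 : ℕ) : ZMod p) = 0 := h'
    rw [ZMod.natCast_eq_zero_iff] at h''
    exact (Nat.prime_dvd_prime_iff_eq hp.out Nat.prime_two).1 h''

include hlp in
theorem cupTot_eq_zero (hn : p = 2 → psi0 p (l : ℕ) (-1) ≠ 0)
    (a : fixUM GQ (AlgebraicClosure ℚ)) : cupTot C a = 0 := by
  have hnat : ∀ n : ℕ, ∀ h : (n : ℤ) ≠ 0, cupTot C (intUM (n : ℤ) h) = 0 := by
    intro n
    induction n using Nat.recOnMul with
    | zero => exact fun h => absurd Nat.cast_zero h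
    | one =>
      intro h
      rw [show intUM ((1 : ℕ) : ℤ) h = 0 from Subtype.ext (UM.ext (by
        rw [val_intUM, Nat.cast_one, Int.cast_one, ZeroMemClass.coe_zero, UM.val_zero])), map_zero]
    | prime r hr => exact fun _ => cupTot_eq_zero_prime hlp C hr
    | mul m n hm hn' =>
      intro h
      have h' := h
      rw [Nat.cast_mul] at h'
      rw [show intUM ((m * n : ℕ) : ℤ) h
          = intUM (m : ℤ) (left_ne_zero_of_mul h') + intUM (n : ℤ) (right_ne_zero_of_mul h') from
        Subtype.ext (UM.ext (by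
          rw [AddSubgroup.coe_add, UM.val_add, val_intUM, val_intUM, val_intUM, Nat.cast_mul,
            Int.cast_mul])), map_add, hm, hn', add_zero]
  have hint : ∀ u : ℤ, ∀ h : u ≠ 0, cupTot C (intUM u h) = 0 := by
    intro u
    rcases Int.eq_nat_or_neg u with ⟨n, rfl | rfl⟩
    · exact hnat n
    · intro h
      rw [show intUM (-(n : ℤ)) h = intUM (-1) (neg_ne_zero.2 one_ne_zero)
          + intUM (n : ℤ) (neg_ne_zero.1 h) from Subtype.ext (UM.ext (by
        rw [AddSubgroup.coe_add, UM.val_add, val_intUM, val_intUM, val_intUM]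
        push_cast
        ring)), map_add, cupTot_eq_zero_neg hlp C hn, hnat, add_zero]
  obtain ⟨r, hr0, hr⟩ := exists_rat_of_fixUM a
  rw [show a = intUM r.num (Rat.num_ne_zero.2 hr0)
      - intUM (r.den : ℤ) (Int.natCast_ne_zero.2 r.den_nz) from Subtype.ext (UM.ext (by
    rw [AddSubgroup.coe_sub, UM.val_sub, val_intUM, val_intUM, hr, Rat.cast_def,
      Int.cast_natCast])), map_sub, hint, hint, sub_zero]

end Main

section Descent

variable {G : Type} [Group G] {L : Levels G}

/-- A class which vanishes on the kernel of the coefficient character inside a subgroup vanishes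
on that subgroup. -/
theorem exists_cobound_of_ker (χ : G →* (ZMod p)ˣ) (E : Subgroup G) (Z : ↥(Z2 L (chr χ)))
    {N : Subgroup G} [N.Normal] (hN : N ∈ L.carrier) (hχN : ∀ s ∈ N, χ s = 1) (_hNE : N ≤ E)
    {H : Subgroup G} (hHmem : ∀ s ∈ E, χ s = 1 → s ∈ H) (hH1 : ∀ s ∈ H, χ s = 1)
    (h0 : resTriv (L := L) χ hH1 (mk2 L (chr χ) Z) = 0) :
    ∃ b : E → ZMod p, LC₁ (L.sub E) b ∧
      ∀ n m : E, d1 (chr (χ.comp E.subtype)) b (n, m) = Z.1 ((n : G), (m : G)) := by
  classical
  set χ' : E →* (ZMod p)ˣ := χ.comp E.subtype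
  have hNs : N.subgroupOf E ∈ (L.sub E).carrier := ⟨N, hN, rfl⟩
  have hker : N.subgroupOf E ≤ χ'.ker := fun s hs => hχN _ hs
  have : (N.subgroupOf E).FiniteIndex := (L.sub E).finiteIndex hNs
  have : χ'.ker.FiniteIndex := Subgroup.finiteIndex_of_le hker
  let _ : Fintype (E ⧸ χ'.ker) := Fintype.ofFinite _
  let T := cosetTrans (L.sub E) χ'.ker hNs inferInstance hker
  have hT1 : ∀ s ∈ T.H, χ' s = 1 := fun s hs => (mem_cosetTrans_H hNs inferInstance hker).1 hs
  have hcard : (Fintype.card (E ⧸ χ'.ker) : ZMod p) ≠ 0 := fun h => by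
    rw [ZMod.natCast_eq_zero_iff, Fintype.card_eq_nat_card, ← Subgroup.index_eq_card,
      Subgroup.index_ker] at h
    have := h.trans (Subgroup.card_subgroup_dvd_card χ'.range)
    rw [Nat.card_eq_fintype_card, ZMod.card_units] at this
    have := Nat.le_of_dvd (by have := hp.out.one_lt; omega) this
    have := hp.out.pos
    omega
  let j : T.H →* H := (E.subtype.comp T.H.subtype).codRestrict _ fun s =>
    hHmem _ s.1.2 (hT1 s.1 s.2)
  have hj : Compat (L.sub H) ((L.sub E).sub T.H) j := by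
    rintro _ ⟨M, hM, rfl⟩
    exact ⟨_, ⟨_, ⟨M, hM, rfl⟩, rfl⟩, fun g hg => hg⟩
  have hequi : Equi E.subtype (chr χ) (chr χ') (LinearMap.id : ZMod p →ₗ[ZMod p] ZMod p) :=
    fun _ _ => rfl
  have hE0 : map2 (L.sub_compat E) hequi (mk2 L (chr χ) Z) = 0 := by
    refine resTriv_injective χ' T hT1 hcard (Eq.trans ?_ (map_zero _).symm)
    have := congrArg (res2t (p := p) hj) h0
    rw [map_zero] at this
    exact this
  obtain ⟨b, hb, hdb⟩ := (mk2_eq_zero _ _ _).1 hE0
  exact ⟨b, hb, fun n m => congrFun hdb (n, m)⟩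

end Descent

set_option maxHeartbeats 1600000 in
-- classes over nested subgroups are slow to unify
/-- The reciprocity law. -/
theorem reciprocity (z : H2 LQ (chr (cycQ p).χ)) : invTot p z = 0 := by
  classical
  obtain ⟨Z, rfl⟩ := mk2_surjective z
  obtain ⟨S, hS⟩ := exists_finset_resq2 (cycQ p).smooth_chr (mk2 LQ (chr (cycQ p).χ) Z)
  set P := insert (⟨p, hp.out⟩ : Nat.Primes) S
  obtain ⟨l, hlP, hlp, hψ, hn⟩ := exists_aux_prime (p := p) P
  have hpl : p ≠ (l : ℕ) := fun h => hlP (by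
    rw [show l = (⟨p, hp.out⟩ : Nat.Primes) from Subtype.ext h.symm]
    exact Finset.mem_insert_self _ _)
  have hadd := auxChar_mul (p := p) (l := (l : ℕ)) hlp
  have hone := auxChar_one (p := p) (l := (l : ℕ)) hlp
  have hpow : ∀ (g : GQ) (n : ℕ), auxChar p (l : ℕ) (g ^ n) = n * auxChar p (l : ℕ) g := fun g n => by
    induction n with
    | zero => rw [pow_zero, hone, Nat.cast_zero, zero_mul]
    | succ n ih => rw [pow_succ, hadd, ih, Nat.cast_succ]; ring
  let C : CycData LQ (auxChar p (l : ℕ)) :=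
    { hom := hadd
      lc := auxChar_lc
      σ := loc p (frobL p) ^ ((psi0 p (l : ℕ) (p : ℤ))⁻¹).val
      map_σ := by
        rw [hpow, ZMod.natCast_zmod_val, auxChar_loc hlp hpl, unrChar_frobL, mul_one,
          inv_mul_cancel₀ (hψ _ (Finset.mem_insert_self _ _))] }
  -- the subgroup of the field
  set E : Subgroup GQ := C.ker
  set H : Subgroup GQ := (cycQ p).χ.ker ⊓ E
  obtain ⟨N₁, hN₁, hχ⟩ := (smooth_chr_iff _).1 (cycQ p).smooth_chr
  obtain ⟨N₂, hN₂, hC⟩ := C.lc
  obtain ⟨N, hN, hle, hNn⟩ := LQ.exists_normal (LQ.inf_mem hN₁ hN₂)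
  have hNE : N ≤ E := fun g hg => by
    show auxChar p (l : ℕ) g = 0
    have := hC 1 g (hle hg).2
    rwa [one_mul, hone] at this
  have hχ' : ∀ s ∈ N, (cycQ p).χ s = 1 := fun s hs => hχ s (hle hs).1
  have hNH : N ≤ H := fun g hg => ⟨hχ g (hle hg).1, hNE hg⟩
  have hH : H ∈ LQ.carrier := by
    obtain ⟨F, hF, hFN⟩ := hN
    exact ⟨F, hF, fun g hg => hNH (hFN hg)⟩
  have hTC : TC H := fun g hg => by
    obtain ⟨h1, h2⟩ := hg
    by_cases hp2 : p = 2
    · have h2' : auxChar p (l : ℕ) (g * complexConjugation * g⁻¹) = 0 := h2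
      rw [hadd, hadd, add_comm, ← add_assoc, ← hadd, inv_mul_cancel, hone, zero_add,
        auxChar_complexConj hlp] at h2'
      exact hn hp2 h2'
    · have h1' : (cycQ p).χ complexConjugation = 1 := by
        have h := MonoidHom.mem_ker.1 h1
        rw [map_mul, map_mul, map_inv, mul_right_comm, mul_inv_cancel, one_mul] at h
        exact h
      have hζ : IsPrimitiveRoot (complexEmbedding (zetaQ p)) p :=
        zetaQ_spec.map_of_injective complexEmbedding.injective
      have hc := congrArg complexEmbedding (apply_zetaQ (p := p) complexConjugation)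
      rw [complexEmbedding_complexConjugation, ← Complex.inv_eq_conj
        (hζ.norm'_eq_one hp.out.ne_zero), show ExtCitation.cycloChar p complexConjugation = 1
          from h1', Units.val_one, ZMod.val_one, pow_one] at hc
      have hsq : complexEmbedding (zetaQ p) ^ 2 = 1 := by
        rw [sq]
        conv_lhs => arg 2; rw [← hc]
        exact mul_inv_cancel₀ (hζ.ne_zero hp.out.ne_zero)
      exact hp2 ((Nat.prime_dvd_prime_iff_eq hp.out Nat.prime_two).1
        ((hζ.pow_eq_one_iff_dvd 2).1 hsq))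
  -- the restriction is trivial at all places
  have hloc : LocTriv2 H (resTriv (L := LQ) (cycQ p).χ (H := H) (fun s hs => hs.1)
      (mk2 LQ (chr (cycQ p).χ) Z)) := by
    intro q _ g
    obtain ⟨k, hk, b, hb, hdb⟩ : ∃ k : ZMod p,
        (k ≠ 0 → (⟨q, Fact.out⟩ : Nat.Primes) ∈ S) ∧
        ∃ b, LC₁ (LL q) b ∧ ∀ τ τ' : LG q, Z.1 (loc q τ, loc q τ')
          = k * ((cycL p q).kc qUnit τ * unrChar p τ') + d1 (chr (cycL p q).χ) b (τ, τ') := by
      obtain ⟨k, hk⟩ := Submodule.mem_span_singleton.1 ((unrCup_spec (cycL p q)).2.1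
        (map2 compat_loc (equi_loc_chr q) (mk2 LQ (chr (cycQ p).χ) Z)))
      refine ⟨k, fun hk0 => by_contra fun hq => ?_, ?_⟩
      · rw [show map2 compat_loc (equi_loc_chr q) (mk2 LQ (chr (cycQ p).χ) Z) = 0 from
          hS ⟨q, Fact.out⟩ hq, smul_eq_zero] at hk
        exact (hk.resolve_left hk0 |> (unrCup_spec (cycL p q)).1)
      · rw [unrCup, CycloData.kum, unrClass, Bil.cup_mk1, map2_mk2, ← map_smul, mk2_eq_mk2] at hk
        obtain ⟨b, hb, hdb⟩ := hk
        refine ⟨fun τ => -b τ, hb.comp (- ·), fun τ τ' => ?_⟩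
        have h := congrFun hdb (τ, τ')
        change _ = k * ((cycL p q).kc qUnit τ * unrChar p τ') - Z.1 (loc q τ, loc q τ') at h
        rw [show (fun τ => -b τ) = -b from rfl, map_neg, Pi.neg_apply, h]
        ring
    refine (mk2_eq_zero ((LL q).sub (hloc H q g)) (triv (hloc H q g) p) _).2
      ⟨fun τ => (((cycQ p).χ g)⁻¹ : (ZMod p)ˣ) * (b τ - conjHty g Z.1 (loc q τ)),
        ((hb.map₂ ((conjHty_lc g Z.2.1).precomp compat_loc) (· - ·)).precomp
          ((LL q).sub_compat _)).comp _, funext fun ⟨τ, τ'⟩ => ?_⟩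
    have hmem : ∀ τ : hloc H q g, (cycQ p).χ (loc q τ) = 1 ∧
        auxChar p (l : ℕ) (loc q τ) = 0 := fun τ => by
      obtain ⟨h1, h2⟩ := (mem_hloc _).1 τ.2
      have h1' := MonoidHom.mem_ker.1 h1
      have h2' : auxChar p (l : ℕ) (g⁻¹ * loc q τ * g) = 0 := h2
      rw [map_mul, map_mul, map_inv, mul_right_comm, inv_mul_cancel, one_mul] at h1'
      rw [hadd, hadd, add_comm, ← add_assoc, ← hadd, mul_inv_cancel, hone, zero_add] at h2'
      exact ⟨h1', h2'⟩
    have hunr : k * ((cycL p q).kc qUnit τ * unrChar p (τ' : LG q)) = 0 := by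
      rcases eq_or_ne k 0 with h0 | h0
      · rw [h0, zero_mul]
      · have hqS : (⟨q, Fact.out⟩ : Nat.Primes) ∈ P := Finset.mem_insert_of_mem (hk h0)
        have hql : q ≠ (l : ℕ) := fun h => hlP (by
          rw [show l = (⟨q, Fact.out⟩ : Nat.Primes) from Subtype.ext h.symm]; exact hqS)
        have h := (hmem τ').2
        rw [auxChar_loc hlp hql, mul_eq_zero] at h
        have hne : psi0 p (l : ℕ) (q : ℤ) ≠ 0 := hψ ⟨q, Fact.out⟩ hqS
        rw [h.resolve_left hne, mul_zero, mul_zero]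
    have h1 := d1_conjHty g Z (loc q τ) (loc q τ')
    rw [hdb τ τ', hunr, zero_add, d1_apply, d1_apply, chr_apply, chr_apply, chr_apply] at h1
    rw [d1_apply, MonoidHom.one_apply, Module.End.one_apply]
    show _ = Z.1 (g⁻¹ * loc q τ * g, g⁻¹ * loc q τ' * g)
    have hχτ : ((cycL p q).χ (τ : LG q) : ZMod p) = 1 :=
      congrArg Units.val (hmem τ).1
    have hχτ' : ((cycQ p).χ (loc q τ) : ZMod p) = 1 := congrArg Units.val (hmem τ).1
    rw [hχτ, hχτ', one_mul, one_mul] at h1
    simp only [Subgroup.coe_mul, map_mul] at h1 ⊢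
    rw [← mul_sub, ← mul_add]
    have hg : (((cycQ p).χ g)⁻¹ : (ZMod p)ˣ) * (((cycQ p).χ g : ZMod p) *
        Z.1 (g⁻¹ * loc q τ * g, g⁻¹ * loc q τ' * g))
        = Z.1 (g⁻¹ * loc q τ * g, g⁻¹ * loc q τ' * g) := by
      rw [← mul_assoc, Units.inv_mul, one_mul]
    conv_rhs => rw [← hg]
    congr 1
    linear_combination -h1
  have h0 := hasse_H2 hH hTC ((cycQ p).kumData H fun s hs => hs.1) hloc
  -- descent to the kernel of the auxiliary character
  obtain ⟨b, hb, hdb⟩ := exists_cobound_of_ker (cycQ p).χ E Z hN hχ' hNE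
    (fun s hsE hs => Subgroup.mem_inf.2 ⟨MonoidHom.mem_ker.2 hs, hsE⟩) (fun s hs => MonoidHom.mem_ker.1 (Subgroup.mem_inf.1 hs).1) h0
  obtain ⟨_, ⟨M, hM, rfl⟩, hbM⟩ := hb
  let b' : GQ → ZMod p := fun g => if h : g ∈ E then b ⟨g, h⟩ else 0
  have hb' : LC₁ LQ b' := by
    refine ⟨M ⊓ N, LQ.inf_mem hM hN, fun g s hs => ?_⟩
    by_cases hg : g ∈ E
    · simp only [b', dif_pos hg, dif_pos (mul_mem hg (hNE hs.2))]
      exact hbM ⟨g, hg⟩ ⟨s, hNE hs.2⟩ hs.1
    · have : g * s ∉ E := fun h => hg (by simpa using mul_mem h (inv_mem (hNE hs.2)))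
      simp only [b', dif_neg hg, dif_neg this]
  obtain ⟨a, ha⟩ := (cycQ p).exists_cup_of_res C Z hb' fun n m hn hm => by
    have h := hdb ⟨n, hn⟩ ⟨m, hm⟩
    have hnm : n * m ∈ E := mul_mem (show n ∈ E from hn) hm
    rw [d1_apply]
    simp only [b', dif_pos (show n ∈ E from hn), dif_pos (show m ∈ E from hm), dif_pos hnm]
    exact h.symm
  rw [ha]
  exact cupTot_eq_zero hlp C hn a

end FA.GalCoh
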