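import Fermat.Agent.GalCoh.ShaSDual
import Fermat.Agent.GalCoh.GWBridge
import Fermat.Prelude.Def_GroupCohomology_ContinuousUnramified

/-!
The locally trivial classes of the two descriptions of continuous cohomology unramified outside a
finite set of primes agree.
-/

set_option autoImplicit false
set_option linter.unusedSectionVars false

noncomputable section

namespace FA.GalCoh

open Representation CategoryTheory
open scoped Pointwise

/-! ### Finite groups of invertible order -/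

section Averaging

variable {k G : Type} [Field k] [Group G] [Fintype G] {A : Rep k G}

/-- Averaging a cocycle of degree one writes it as a coboundary. -/
theorem cocycles₁_mem_coboundaries₁_of_card (hn : (Fintype.card G : k) ≠ 0)
    (c : groupCohomology.cocycles₁ A) : ⇑c ∈ groupCohomology.coboundaries₁ A := by
  refine ⟨-((Fintype.card G : k)⁻¹ • ∑ h, c h), funext fun g => ?_⟩
  have hc : ∀ h, A.ρ g (c h) = c (g * h) - c g := fun h =>
    eq_sub_of_add_eq ((groupCohomology.mem_cocycles₁_iff c).1 c.2 g h).symm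
  have hs : ∑ h, c (g * h) = ∑ h, c h := Equiv.sum_comp (Equiv.mulLeft g) fun h => c h
  rw [groupCohomology.d₀₁_hom_apply, map_neg, map_smul, map_sum,
    Finset.sum_congr rfl fun h _ => hc h, Finset.sum_sub_distrib, hs, Finset.sum_const,
    Finset.card_univ, ← Nat.cast_smul_eq_nsmul k, smul_sub, smul_smul, inv_mul_cancel₀ hn,
    one_smul]
  abel

/-- The average of a cocycle of degree two. -/
def avg₂ (f : G × G → A) : G → A := fun g => (Fintype.card G : k)⁻¹ • ∑ h, f (g, h)

/-- Averaging a cocycle of degree two writes it as a coboundary. -/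
theorem d₁₂_avg₂ (hn : (Fintype.card G : k) ≠ 0) {f : G × G → A}
    (hf : f ∈ groupCohomology.cocycles₂ A) : (groupCohomology.d₁₂ A).hom (avg₂ f) = f := by
  refine funext fun ⟨g, h⟩ => ?_
  have hsum : ∑ j, (f (g * h, j) + f (g, h)) = ∑ j, (A.ρ g (f (h, j)) + f (g, h * j)) :=
    Finset.sum_congr rfl fun j _ => (groupCohomology.mem_cocycles₂_iff f).1 hf g h j
  rw [Finset.sum_add_distrib, Finset.sum_add_distrib, Finset.sum_const, Finset.card_univ,
    ← Nat.cast_smul_eq_nsmul k, ← map_sum] at hsum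
  have hs : ∑ j, f (g, h * j) = ∑ j, f (g, j) := Equiv.sum_comp (Equiv.mulLeft h) fun j => f (g, j)
  rw [hs] at hsum
  rw [groupCohomology.d₁₂_hom_apply]
  show A.ρ g ((Fintype.card G : k)⁻¹ • ∑ j, f (h, j)) - (Fintype.card G : k)⁻¹ • ∑ j, f (g * h, j)
    + (Fintype.card G : k)⁻¹ • ∑ j, f (g, j) = f (g, h)
  rw [map_smul, ← smul_sub, ← smul_add]
  rw [show A.ρ g (∑ j, f (h, j)) - ∑ j, f (g * h, j) + ∑ j, f (g, j)
    = (Fintype.card G : k) • f (g, h) by
      rw [sub_add_eq_add_sub, ← hsum]; abel]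
  rw [inv_smul_smul₀ hn]

end Averaging

variable {p : ℕ} [hp : Fact p.Prime]

theorem card_archimedean_ne_zero (hp2 : p ≠ 2) :
    ∃ _ : Fintype ExtCitation.archimedeanDecomposition,
      (Fintype.card ExtCitation.archimedeanDecomposition : ZMod p) ≠ 0 := by
  have hdvd : Nat.card ExtCitation.archimedeanDecomposition ∣ 2 := by
    rw [ExtCitation.archimedeanDecomposition, Nat.card_zpowers]
    exact orderOf_dvd_of_pow_eq_one complexConjugation_sq
  have : Finite ExtCitation.archimedeanDecomposition :=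
    Nat.finite_of_card_ne_zero fun h => by simp [h] at hdvd
  let F := Fintype.ofFinite ExtCitation.archimedeanDecomposition
  refine ⟨F, fun h => ?_⟩
  rw [CharP.cast_eq_zero_iff (ZMod p) p, ← Nat.card_eq_fintype_card] at h
  exact hp2 (((Nat.prime_dvd_prime_iff_eq hp.out Nat.prime_two).1 (h.trans hdvd)))

/-! ### Levels -/

theorem fixingSubgroup_mem_levS {S : Finset Nat.Primes}
    {F : IntermediateField ℚ (AlgebraicClosure ℚ)} (hF : F.IsUnramifiedOutside S) :
    F.fixingSubgroup ∈ (levS S).carrier := by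
  have := hF.1
  refine ⟨fixingSubgroup_mem_fieldLevels F, fun q hq t ht g => hF.2 q hq _ ?_
    (FA.TW.conj_mem_inertia q.2 (liesOverPrime_padicPlace (q : ℕ)) ht g)⟩
  exact FA.Density.liesOverPrime_smul (liesOverPrime_padicPlace (q : ℕ)) g

theorem exists_unramifiedOutside {S : Finset Nat.Primes} {N : Subgroup GQ}
    (hN : N ∈ (levS S).carrier) :
    ∃ F : IntermediateField ℚ (AlgebraicClosure ℚ), F.IsUnramifiedOutside S ∧
      F.fixingSubgroup ≤ N := by
  obtain ⟨E, hE, hle⟩ := hN.1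
  have hfix := fixingSubgroup_fixedField_LQ hN.1
  refine ⟨IntermediateField.fixedField N, ⟨?_, fun q hq A hA s hs => ?_⟩, hfix.le⟩
  · have hsub : IntermediateField.fixedField N ≤ E := by
      rw [← InfiniteGalois.fixedField_fixingSubgroup E]
      exact IntermediateField.fixedField_le hle
    exact FiniteDimensional.of_injective (IntermediateField.inclusion hsub).toLinearMap
      (IntermediateField.inclusion_injective hsub)
  · obtain ⟨τ, t, ht, rfl⟩ := exists_conj_inertL (q := (q : ℕ)) hA hs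
    rw [hfix]
    exact hN.2 q hq t ht τ

theorem lc₁_levS_iff {S : Finset Nat.Primes} {X : Type*} (f : GQ → X) :
    LC₁ (levS S) f ↔ groupCohomology.IsLevelConstantS₁ S f := by
  constructor
  · rintro ⟨N, hN, h⟩
    obtain ⟨F, hF, hle⟩ := exists_unramifiedOutside hN
    exact ⟨F, hF, fun g s hs => h g s (hle hs)⟩
  · rintro ⟨F, hF, h⟩
    exact ⟨F.fixingSubgroup, fixingSubgroup_mem_levS hF, h⟩

theorem lc₂_levS_iff {S : Finset Nat.Primes} {X : Type*} (f : GQ × GQ → X) :
    LC₂ (levS S) f ↔ groupCohomology.IsLevelConstantS₂ S f := by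
  constructor
  · rintro ⟨N, hN, h⟩
    obtain ⟨F, hF, hle⟩ := exists_unramifiedOutside hN
    exact ⟨F, hF, fun g g' s s' hs hs' => h g g' s s' (hle hs) (hle hs')⟩
  · rintro ⟨F, hF, h⟩
    exact ⟨F.fixingSubgroup, fixingSubgroup_mem_levS hF, h⟩

theorem lc₁_LL_iff {q : ℕ} [Fact q.Prime] {X : Type*} (f : LG q → X) :
    LC₁ (LL q) f ↔ groupCohomology.IsLevelConstant₁ (loc q) f := by
  constructor
  · rintro ⟨N, hN, h⟩
    obtain ⟨M, ⟨F, hF, hle⟩, hMN⟩ := exists_comap_loc_le hN
    exact ⟨F, hF, fun g s hs => h g s (hMN (hle hs))⟩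
  · rintro ⟨F, hF, h⟩
    obtain ⟨N, hN, hle⟩ := compat_loc (q := q) F.fixingSubgroup (fixingSubgroup_mem_fieldLevels F)
    exact ⟨N, hN, fun g s hs => h g s (hle hs)⟩

theorem smooth_LQ_of_smooth {V : Type} [AddCommGroup V] [Module (ZMod p) V]
    [FiniteDimensional (ZMod p) V] {ρ : Representation (ZMod p) GQ V}
    (hsm : ∀ m : V, ∃ F : IntermediateField ℚ (AlgebraicClosure ℚ), FiniteDimensional ℚ F ∧
      ∀ s ∈ F.fixingSubgroup, ρ s m = m) : Smooth LQ ρ := by
  let b := Module.finBasis (ZMod p) V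
  choose F hF hfix using fun i => hsm (b i)
  refine ⟨(⨆ i, F i).fixingSubgroup, fixingSubgroup_mem_fieldLevels (⨆ i, F i), fun s hs =>
    b.ext fun i => ?_⟩
  exact hfix i s (IntermediateField.fixingSubgroup_antitone (le_iSup F i) hs)

/-! ### Degree one -/

section One

variable {A : Rep (ZMod p) GQ}

variable (A) in
/-- A cocycle constant on a level as a cocycle. -/
def toCocycles₁ : ↥(Z1 LQ A.ρ) →ₗ[ZMod p] groupCohomology.cocycles₁ A where
  toFun f := ⟨f.1, (groupCohomology.mem_cocycles₁_iff f.1).2 f.2.2⟩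
  map_add' _ _ := rfl
  map_smul' _ _ := rfl

variable (A) in
/-- Continuous classes as classes. -/
def toH1 : H1 LQ A.ρ →ₗ[ZMod p] groupCohomology.H1 A :=
  Submodule.liftQ _ ((groupCohomology.H1π A).hom ∘ₗ toCocycles₁ A) fun f hf => by
    obtain ⟨v, hv⟩ := hf
    refine LinearMap.mem_ker.2 ((groupCohomology.H1π_eq_zero_iff _).2 ⟨v, funext fun g => ?_⟩)
    rw [groupCohomology.d₀₁_hom_apply]
    exact congrFun hv g

theorem toH1_mk1 (f : ↥(Z1 LQ A.ρ)) :
    toH1 A (mk1 LQ A.ρ f) = (groupCohomology.H1π A).hom (toCocycles₁ A f) := rfl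

theorem toH1_injective : Function.Injective (toH1 A) := by
  refine (injective_iff_map_eq_zero _).2 fun x hx => ?_
  obtain ⟨f, rfl⟩ := mk1_surjective x
  rw [toH1_mk1] at hx
  obtain ⟨v, hv⟩ := (groupCohomology.H1π_eq_zero_iff _).1 hx
  refine (mk1_eq_zero LQ A.ρ f).2 ⟨v, funext fun g => ?_⟩
  rw [d0_apply, ← groupCohomology.d₀₁_hom_apply (A := A)]
  exact congrFun hv g

theorem mem_shaS1_toH1 (hp2 : p ≠ 2) {S : Finset Nat.Primes} (hs : Smooth (levS S) A.ρ)
    (y : groupCohomology.H1 A) :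
    y ∈ groupCohomology.sha₁ S A ↔ ∃ x ∈ shaS1 S A.ρ, toH1 A x = y := by
  constructor
  · rintro ⟨h1, h2⟩
    obtain ⟨c, hc, rfl⟩ := (groupCohomology.mem_continuousH1S_iff S A y).1 h1
    let f : ↥(Z1 (levS S) A.ρ) :=
      ⟨⇑c, (lc₁_levS_iff _).2 hc, (groupCohomology.mem_cocycles₁_iff c).1 c.2⟩
    refine ⟨inflS S A.ρ (mk1 (levS S) A.ρ f), mem_shaS1.2 ⟨inflS_mem _, fun q => ?_⟩, rfl⟩
    rw [resq1_inflS]
    have h : (groupCohomology.locRes (ExtCitation.extArithLoc S) A
        (Sum.inr ⟨q.1, q.2⟩ : ExtCitation.extArithIndex S)).hom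
          ((groupCohomology.H1π A).hom c) = 0 := congrFun (LinearMap.mem_ker.1 h2) _
    rw [groupCohomology.locRes, groupCohomology.H1π_comp_map_apply] at h
    obtain ⟨v, hv⟩ := (groupCohomology.H1π_eq_zero_iff _).1 h
    refine (mk1_eq_zero _ _ _).2 ⟨v, funext fun g => ?_⟩
    have hg := congrFun hv g
    rw [groupCohomology.d₀₁_hom_apply] at hg
    exact hg
  · rintro ⟨x, hx, rfl⟩
    obtain ⟨hu, hloc⟩ := mem_shaS1.1 hx
    obtain ⟨x, rfl⟩ := exists_inflS_eq hs hu
    obtain ⟨f, rfl⟩ := mk1_surjective x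
    refine ⟨(groupCohomology.mem_continuousH1S_iff S A _).2 ⟨toCocycles₁ A
      (mapZ1 (compatS S) (φ := LinearMap.id) (fun _ _ => rfl) f),
      (lc₁_levS_iff f.1).1 f.2.1, rfl⟩, LinearMap.mem_ker.2 (funext fun v => ?_)⟩
    show (groupCohomology.locRes (ExtCitation.extArithLoc S) A v).hom
      ((groupCohomology.H1π A).hom (toCocycles₁ A
        (mapZ1 (compatS S) (φ := LinearMap.id) (fun _ _ => rfl) f))) = 0
    rw [groupCohomology.locRes, groupCohomology.H1π_comp_map_apply]
    refine (groupCohomology.H1π_eq_zero_iff _).2 ?_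
    cases v with
    | inl u =>
      obtain ⟨hF, hn⟩ := card_archimedean_ne_zero (p := p) hp2
      let : Fintype (ExtCitation.extArithLocalGroups S (Sum.inl u)) := hF
      exact cocycles₁_mem_coboundaries₁_of_card hn _
    | inr q =>
      have h := hloc ⟨q.1, q.2⟩
      rw [resq1_inflS] at h
      obtain ⟨v, hv⟩ := (mk1_eq_zero _ _ _).1 h
      refine ⟨v, funext fun g => ?_⟩
      rw [groupCohomology.d₀₁_hom_apply]
      exact congrFun hv g

/-- The locally trivial classes of degree one agree. -/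
def shaS1Equiv (hp2 : p ≠ 2) {S : Finset Nat.Primes} (hs : Smooth (levS S) A.ρ) :
    shaS1 S A.ρ ≃ₗ[ZMod p] groupCohomology.sha₁ S A :=
  LinearEquiv.ofBijective
    (((toH1 A).domRestrict (shaS1 S A.ρ)).codRestrict _ fun x =>
      (mem_shaS1_toH1 hp2 hs _).2 ⟨x.1, x.2, rfl⟩)
    ⟨fun x x' h => Subtype.ext (toH1_injective (congrArg Subtype.val h)), fun y => by
      obtain ⟨x, hx, h⟩ := (mem_shaS1_toH1 hp2 hs y.1).1 y.2
      exact ⟨⟨x, hx⟩, Subtype.ext h⟩⟩

end One

/-! ### Degree two -/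

section Two

variable {M : Rep (ZMod p) GQ} {S : Finset Nat.Primes}

theorem Z2_levS_eq : Z2 (levS S) M.ρ = groupCohomology.levelCocyclesS₂ S M :=
  Submodule.ext fun f => by
    rw [mem_Z2, groupCohomology.mem_levelCocyclesS₂_iff, lc₂_levS_iff,
      groupCohomology.mem_cocycles₂_iff, and_comm]

theorem d1_eq_d₁₂ (c : GQ → M) : d1 M.ρ c = (groupCohomology.d₁₂ M).hom c :=
  funext fun x => by rw [d1_apply]; exact (groupCohomology.d₁₂_hom_apply (A := M) c x).symm

variable (M S) in
/-- The two groups of classes of degree two. -/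
def h2SEquiv : H2 (levS S) M.ρ ≃ₗ[ZMod p] groupCohomology.continuousH2S S M :=
  Submodule.Quotient.equiv _ _ (LinearEquiv.ofEq _ _ Z2_levS_eq) (by
    ext f
    simp only [Submodule.mem_map, Submodule.mem_comap, Submodule.subtype_apply, mem_B2,
      groupCohomology.mem_levelCoboundariesS₂_iff]
    constructor
    · rintro ⟨g, ⟨c, hc, hd⟩, rfl⟩
      exact ⟨c, (lc₁_levS_iff c).1 hc, (d1_eq_d₁₂ c).symm.trans hd⟩
    · rintro ⟨c, hc, hd⟩
      exact ⟨(LinearEquiv.ofEq _ _ Z2_levS_eq).symm f, ⟨c, (lc₁_levS_iff c).2 hc,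
        (d1_eq_d₁₂ c).trans hd⟩, LinearEquiv.apply_symm_apply _ f⟩)

theorem mem_sha₂_iff (hp2 : p ≠ 2) (x : H2 (levS S) M.ρ) :
    h2SEquiv M S x ∈ groupCohomology.sha₂ S M ↔ x ∈ shaS2 S M.ρ := by
  obtain ⟨f, rfl⟩ := mk2_surjective x
  rw [show groupCohomology.sha₂ S M = LinearMap.ker (groupCohomology.locTotal₂S S M) from rfl,
    LinearMap.mem_ker, funext_iff, mem_shaS2]
  constructor
  · intro h q
    have hq := (groupCohomology.continuousH2π_eq_zero_iff _ _ _).1
      (show groupCohomology.locRes₂S S M (ExtCitation.extArithLoc S (Sum.inr ⟨q.1, q.2⟩))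
        (h2SEquiv M S (mk2 (levS S) M.ρ f)) = 0 from h (Sum.inr ⟨q.1, q.2⟩))
    obtain ⟨c, hc, hd⟩ := (groupCohomology.mem_levelCoboundaries₂_iff _ _ _).1 hq
    refine (mk2_eq_zero _ _ _).2 ⟨c, (lc₁_LL_iff c).2 hc, funext fun z => ?_⟩
    have hz := congrFun hd z
    rw [groupCohomology.d₁₂_hom_apply] at hz
    exact hz
  · intro h v
    refine (groupCohomology.continuousH2π_eq_zero_iff _ _ _).2
      ((groupCohomology.mem_levelCoboundaries₂_iff _ _ _).2 ?_)
    cases v with
    | inl u =>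
      obtain ⟨hF, hn⟩ := card_archimedean_ne_zero (p := p) hp2
      let : Fintype (ExtCitation.extArithLocalGroups S (Sum.inl u)) := hF
      have key : ∀ g : ↥(groupCohomology.levelCocycles₂ (ExtCitation.extArithLoc S (Sum.inl u))
          (Rep.res (ExtCitation.extArithLoc S (Sum.inl u)) M)), ∃ x,
            groupCohomology.IsLevelConstant₁ (ExtCitation.extArithLoc S (Sum.inl u)) x ∧
              (groupCohomology.d₁₂ _).hom x = g.1 := fun g => by
        obtain ⟨F, hF', hlev⟩ := g.2.2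
        refine ⟨avg₂ g.1, ⟨F, hF', fun a s hs => ?_⟩, d₁₂_avg₂ hn g.2.1⟩
        simp only [avg₂]
        refine congrArg _ (Finset.sum_congr rfl fun b _ => ?_)
        simpa using hlev a b s 1 hs (by simp [one_mem])
      exact key _
    | inr q =>
      obtain ⟨c, hc, hd⟩ := (mk2_eq_zero _ _ _).1 (h ⟨q.1, q.2⟩)
      refine ⟨c, (lc₁_LL_iff c).1 hc, funext fun z => ?_⟩
      rw [groupCohomology.d₁₂_hom_apply]
      exact congrFun hd z

/-- The locally trivial classes of degree two agree. -/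
def shaS2Equiv (hp2 : p ≠ 2) : shaS2 S M.ρ ≃ₗ[ZMod p] groupCohomology.sha₂ S M :=
  (h2SEquiv M S).ofSubmodules _ _ (Submodule.ext fun y => by
    constructor
    · rintro ⟨x, hx, rfl⟩
      exact (mem_sha₂_iff hp2 x).2 hx
    · intro hy
      exact ⟨(h2SEquiv M S).symm y, (mem_sha₂_iff hp2 _).1 (by rwa [LinearEquiv.apply_symm_apply]),
        LinearEquiv.apply_symm_apply _ y⟩)

end Two

/-- Two spaces of the same finite dimension pair perfectly. -/
theorem exists_pairing_of_finrank_eq {k A B : Type*} [Field k] [AddCommGroup A] [Module k A]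
    [AddCommGroup B] [Module k B] [Module.Finite k A] [Module.Finite k B]
    (h : Module.finrank k A = Module.finrank k B) :
    ∃ β : A →ₗ[k] B →ₗ[k] k,
      (∀ y, (∀ x, β y x = 0) → y = 0) ∧ (∀ x, (∀ y, β y x = 0) → x = 0) := by
  let e : A ≃ₗ[k] Module.Dual k B :=
    LinearEquiv.ofFinrankEq _ _ (h.trans (Subspace.dual_finrank_eq (V := B)).symm)
  refine ⟨e.toLinearMap, fun y hy => e.map_eq_zero_iff.1 (LinearMap.ext hy), fun x hx => ?_⟩
  refine (Module.forall_dual_apply_eq_zero_iff k x).1 fun φ => ?_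
  simpa using hx (e.symm φ)

end FA.GalCoh
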