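import Fermat.Agent.GalCoh.CoverSeq

/-!
Poitou-Tate duality of the everywhere locally trivial classes for odd `p`: the two groups are
finite of the same dimension.
-/

set_option autoImplicit false
set_option linter.unusedSectionVars false

noncomputable section

namespace FA.GalCoh

open Representation

variable {p : ℕ} [hp : Fact p.Prime]

section Defs

variable {V : Type} [AddCommGroup V] [Module (ZMod p) V]

/-- The classes of degree one which are trivial at every prime. -/
def shaOne (ρ : Representation (ZMod p) GQ V) : Submodule (ZMod p) (H1 LQ ρ) :=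
  ⨅ q : Nat.Primes, LinearMap.ker (resq1 (q : ℕ) ρ)

/-- The classes of degree two which are trivial at every prime. -/
def shaTwo (ρ : Representation (ZMod p) GQ V) : Submodule (ZMod p) (H2 LQ ρ) :=
  ⨅ q : Nat.Primes, LinearMap.ker (resq2 (q : ℕ) ρ)

theorem mem_shaOne {ρ : Representation (ZMod p) GQ V} {x : H1 LQ ρ} :
    x ∈ shaOne ρ ↔ ∀ q : Nat.Primes, resq1 (q : ℕ) ρ x = 0 := by
  simp only [shaOne, Submodule.mem_iInf, LinearMap.mem_ker]

theorem mem_shaTwo {ρ : Representation (ZMod p) GQ V} {x : H2 LQ ρ} :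
    x ∈ shaTwo ρ ↔ ∀ q : Nat.Primes, resq2 (q : ℕ) ρ x = 0 := by
  simp only [shaTwo, Submodule.mem_iInf, LinearMap.mem_ker]

/-- A linear choice of preimages. -/
theorem exists_preimage {A B : Type} [AddCommGroup A] [Module (ZMod p) A] [AddCommGroup B]
    [Module (ZMod p) B] (f : A →ₗ[ZMod p] B) :
    ∃ s : B →ₗ[ZMod p] A, ∀ y ∈ LinearMap.range f, f (s y) = y := by
  obtain ⟨t, ht⟩ := f.rangeRestrict.exists_rightInverse_of_surjective f.range_rangeRestrict
  obtain ⟨s, hs⟩ := LinearMap.exists_extend t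
  refine ⟨s, fun y hy => ?_⟩
  rw [show s y = t ⟨y, hy⟩ from LinearMap.congr_fun hs ⟨y, hy⟩]
  exact congrArg Subtype.val (LinearMap.congr_fun ht ⟨y, hy⟩)

end Defs

namespace Trans

variable {X : Type} [Fintype X] [MulAction GQ X] (T : Trans LQ X)
variable {V : Type} [AddCommGroup V] [Module (ZMod p) V]
variable {W : Type} [AddCommGroup W] [Module (ZMod p) W]
variable {ρ : Representation (ZMod p) GQ V} {σ : Representation (ZMod p) GQ W}
variable (P : DPair LQ (cycQ p).χ ρ σ)

set_option maxHeartbeats 3200000 in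
-- the instances on local groups are slow to find
include P in
/-- The everywhere locally trivial classes of a module and of its partner. -/
theorem finrank_shaTwo [hn : T.H.Normal] (hp2 : p ≠ 2)
    (hμ : ∀ s ∈ T.H, ExtCitation.cycloChar p s = 1) (hρ : ∀ s ∈ T.H, ρ s = 1) :
    Module.Finite (ZMod p) (shaOne σ) ∧ Module.Finite (ZMod p) (shaTwo ρ) ∧
      Module.finrank (ZMod p) (shaTwo ρ) = Module.finrank (ZMod p) (shaOne σ) := by
  classical
  set E := T.augSES ρ
  set R' := (kerRep (T.equi_aug ρ)).dual.twist (cycQ p).χ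
  set E' : SES σ (T.coind (σ.comp T.H.subtype)) R' := T.dualSES P
  set PB := T.covPair P
  set PR := T.kerPair P
  have hadj := T.cov_adjoint P
  have hT := tc_of_cyclo hp2 hμ
  have := P.fin_left
  have := P.fin_right
  have := PR.fin_right
  have hρ1 : ∀ s : T.H, ρ.comp T.H.subtype s = 1 := fun s => hρ s.1 s.2
  have hσ1 : ∀ s : T.H, σ.comp T.H.subtype s = 1 := fun s => T.eq_one_right P hμ hρ s.2
  have hρR : ∀ s ∈ T.H, kerRep (T.equi_aug ρ) s = 1 := fun s hs =>
    LinearMap.ext fun a => Subtype.ext (by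
      show T.coind (ρ.comp T.H.subtype) s a.1 = a.1
      rw [T.coind_eq_one T le_rfl (ρ.comp T.H.subtype) (fun u _ => hρ1 u) hs]
      rfl)
  have hPB := PB.smooth_left
  have hPB' := PB.smooth_right
  -- the source of the first group
  set Sh0 : Submodule (ZMod p) ↥R'.invariants := (shaOne σ).comap (E'.δ0 hPB')
  let δs : Sh0 →ₗ[ZMod p] shaOne σ :=
    ((E'.δ0 hPB').domRestrict Sh0).codRestrict (shaOne σ) fun n => n.2
  have hδs : Function.Surjective δs := fun a => by
    have h0 : E'.i1 a.1 = 0 := T.coindV_eq_zero_of_resq1 hσ1 ∅ fun q _ => by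
      rw [resq1_i1, mem_shaOne.1 a.2 q, map_zero]
    obtain ⟨n, hn'⟩ := E'.exists_of_i1_eq_zero hPB' h0
    exact ⟨⟨n, by show E'.δ0 hPB' n ∈ shaOne σ; rw [hn']; exact a.2⟩, Subtype.ext hn'⟩
  have hfin1 : Module.Finite (ZMod p) (shaOne σ) := Module.Finite.of_surjective δs hδs
  -- the source of the second group
  set A : Submodule (ZMod p) (H2 LQ (T.coind (ρ.comp T.H.subtype))) := (shaTwo ρ).comap E.q2
  let h : A →ₗ[ZMod p] shaTwo ρ := (E.q2.domRestrict A).codRestrict (shaTwo ρ) fun z => z.2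
  have hh : Function.Surjective h := fun z => by
    obtain ⟨u, hu⟩ := T.augSurj hp2 hμ ρ P.smooth_left hρ z.1
    exact ⟨⟨u, Submodule.mem_comap.2 ((show E.q2 u = z.1 from hu).symm ▸ z.2)⟩, Subtype.ext hu⟩
  -- local preimages
  choose sv hsv using fun q : Nat.Primes =>
    exists_preimage ((E.res (loc (q : ℕ))).i2 (L := LL (q : ℕ)))
  have hloc : ∀ (z : A) (q : Nat.Primes), (E.res (loc (q : ℕ))).i2
      (sv q (resq2 (q : ℕ) (T.coind (ρ.comp T.H.subtype)) z.1)) = resq2 (q : ℕ) (T.coind (ρ.comp T.H.subtype)) z.1 := fun z q => by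
    refine hsv q _ ((E.res (loc (q : ℕ))).exists_of_q2_eq_zero (hPB.comp compat_loc) ?_)
    rw [← resq2_q2]
    exact mem_shaTwo.1 z.2 q
  have hadjL : ∀ q : Nat.Primes, (E.res (loc (q : ℕ))).Adjoint (E'.res (loc (q : ℕ)))
      (locPair (q : ℕ) PR).β (locPair (q : ℕ) PB).β (locPair (q : ℕ) P).β := fun q =>
    ⟨fun a b => hadj.left a b, fun b c => hadj.right b c⟩
  have hind : ∀ (q : Nat.Primes) (r r' : H2 (LL (q : ℕ)) ((kerRep (T.equi_aug ρ)).comp (loc (q : ℕ)))),
      (E.res (loc (q : ℕ))).i2 r = (E.res (loc (q : ℕ))).i2 r' → ∀ n ∈ Sh0,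
      pair20Q (q : ℕ) PR r (resInv R' (q : ℕ) n) = pair20Q (q : ℕ) PR r' (resInv R' (q : ℕ) n) := by
    intro q r r' he n hn'
    obtain ⟨c, hc⟩ := (E.res (loc (q : ℕ))).exists_of_i2_eq_zero (hPB.comp compat_loc)
      (a := r - r') (by rw [map_sub, he, sub_self])
    rw [← sub_eq_zero, ← LinearMap.sub_apply, ← map_sub, ← hc, pair20Q, pair20_apply]
    refine Eq.trans (congrArg (localInv (cycL p (q : ℕ)))
      (SES.δ1_pair (E := E.res (loc (q : ℕ))) (E' := E'.res (loc (q : ℕ)))
        (locPair (q : ℕ) PR).bil (locPair (q : ℕ) PB).bil (locPair (q : ℕ) P).bil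
        (hadjL q) (hPB.comp compat_loc) (hPB'.comp compat_loc)
        (locPair (q : ℕ) P).smooth_right c (resInv _ (q : ℕ) n))) ?_
    rw [show (E'.res (loc (q : ℕ))).δ0 (hPB'.comp compat_loc) (resInv R' (q : ℕ) n) = 0 from
      mem_shaOne.1 hn' q, map_zero, map_zero]
  let term : A → Sh0 → Nat.Primes → ZMod p := fun z n q =>
    pair20Q (q : ℕ) PR (sv q (resq2 (q : ℕ) (T.coind (ρ.comp T.H.subtype)) z.1)) (resInv R' (q : ℕ) n.1)
  have hsupp : ∀ z n, (Function.support (term z n)).Finite := fun z n => by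
    obtain ⟨S, hS⟩ := exists_finset_resq2 hPB z.1
    refine S.finite_toSet.subset fun q hq => ?_
    by_contra hqS
    exact hq (by simp only [term, hS q hqS, map_zero, LinearMap.zero_apply])
  let g : A →ₗ[ZMod p] Module.Dual (ZMod p) Sh0 :=
    LinearMap.mk₂ (ZMod p) (fun z n => ∑ᶠ q : Nat.Primes, term z n q)
      (fun z z' n => by
        rw [← finsum_add_distrib (hsupp z n) (hsupp z' n)]
        exact finsum_congr fun q => by simp [term])
      (fun c z n => by
        rw [smul_eq_mul, mul_finsum (term z n) c]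
        exact finsum_congr fun q => by simp [term])
      (fun z n n' => by
        rw [← finsum_add_distrib (hsupp z n) (hsupp z n')]
        exact finsum_congr fun q => by simp [term])
      (fun c z n => by
        rw [smul_eq_mul, mul_finsum (term z n) c]
        exact finsum_congr fun q => by simp [term])
  have hg : ∀ (z : A) (n : Sh0), g z n = ∑ᶠ q : Nat.Primes, term z n q := fun _ _ => rfl
  -- the invariants coming from the middle
  set Q0 : Submodule (ZMod p) Sh0 := LinearMap.ker δs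
  have hQ0 : ∀ n : Sh0, n ∈ Q0 ↔
      ∃ b : ↥(T.coind (σ.comp T.H.subtype)).invariants, E'.q b.1 = n.1.1 := fun n => by
    refine ⟨fun hn' => E'.exists_of_δ0_eq_zero hPB' (congrArg Subtype.val
      (LinearMap.mem_ker.1 hn')), fun ⟨b, hb⟩ => LinearMap.mem_ker.2 (Subtype.ext ?_)⟩
    show E'.δ0 hPB' n.1 = 0
    rw [show n.1 = ⟨E'.q b.1, hb ▸ n.1.2⟩ from Subtype.ext hb.symm]
    exact E'.δ0_q hPB' b _
  have hadjq : ∀ (q : Nat.Primes) (r : H2 (LL (q : ℕ)) ((kerRep (T.equi_aug ρ)).comp (loc (q : ℕ))))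
      (b : ↥(T.coind (σ.comp T.H.subtype)).invariants) (n : ↥R'.invariants), E'.q b.1 = n.1 →
      pair20Q (q : ℕ) PB ((E.res (loc (q : ℕ))).i2 r) (resInv _ (q : ℕ) b)
        = pair20Q (q : ℕ) PR r (resInv R' (q : ℕ) n) := fun q r b n hb => by
    rw [pair20_adjoint (localInv (cycL p (q : ℕ))) (locPair (q : ℕ) PR) (locPair (q : ℕ) PB)
      (E.res (loc (q : ℕ))).equi_i (E'.res (loc (q : ℕ))).equi_q (fun v w => hadj.left v w) r]
    exact congrArg _ (Subtype.ext hb)
  have hle : LinearMap.range g ≤ Q0.dualAnnihilator := by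
    rintro _ ⟨z, rfl⟩
    rw [Submodule.mem_dualAnnihilator]
    intro n hn'
    obtain ⟨b, hb⟩ := (hQ0 n).1 hn'
    rw [hg, finsum_congr fun q => (hadjq q _ b n.1 hb).symm.trans
      ((by rw [hloc, invQ_equi_right]) : _ = invQ p (q : ℕ) (map2 Compat.id (PB.bil.equi_right b.2) z.1))]
    have hr := reciprocity (map2 Compat.id (PB.bil.equi_right b.2) z.1)
    rwa [invTot_apply, invInf_of_ne_two hp2, add_zero] at hr
  set pp : Nat.Primes := ⟨p, hp.out⟩
  have hge : Q0.dualAnnihilator ≤ LinearMap.range g := by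
    intro f hf
    rw [Submodule.mem_dualAnnihilator] at hf
    obtain ⟨F, hF⟩ := LinearMap.exists_extend f
    obtain ⟨F', hF'⟩ := exists_dual_factor (resInv R' (pp : ℕ)) F fun n hn' => by
      rw [show n = 0 from Subtype.ext
        (show n.1 = 0 from congrArg Subtype.val hn'), map_zero]
    obtain ⟨r, hr⟩ := (perfectQ (pp : ℕ) PR).bij20.2 F'
    let w : ∀ q : Nat.Primes,
        H2 (LL (q : ℕ)) ((T.coind (ρ.comp T.H.subtype)).comp (loc (q : ℕ))) :=
      Function.update (fun _ => 0) pp ((E.res (loc (pp : ℕ))).i2 r)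
    obtain ⟨z, hz⟩ := T.coindV_image_H2 (σ := ρ.comp T.H.subtype) hρ1 hμ hT PB {pp} w
      (fun q hq => Function.update_of_ne (fun h => hq (Finset.mem_singleton.2 h)) _ _) fun b => by
        rw [Finset.sum_coe_sort {pp} fun q => pair20Q (q : ℕ) PB (w q)
          (resInv (T.coind (σ.comp T.H.subtype)) (q : ℕ) b), Finset.sum_singleton]
        simp only [w, Function.update_self]
        have hbn : E'.q b.1 ∈ R'.invariants := fun g => by rw [← E'.q_equi, b.2 g]
        rw [hadjq pp r b ⟨E'.q b.1, hbn⟩ rfl, hr, hF']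
        have hmem : (⟨E'.q b.1, hbn⟩ : ↥R'.invariants) ∈ Sh0 := by
          show E'.δ0 hPB' _ ∈ shaOne σ
          rw [E'.δ0_q hPB' b hbn]; exact zero_mem _
        rw [show F ⟨E'.q b.1, hbn⟩ = f ⟨_, hmem⟩ from LinearMap.congr_fun hF ⟨_, hmem⟩]
        exact hf _ ((hQ0 ⟨_, hmem⟩).2 ⟨b, rfl⟩)
    have hzA : z ∈ A := mem_shaTwo.2 fun q => by
      rw [resq2_q2, hz q]
      by_cases h' : q = pp
      · subst h'
        simp only [w, Function.update_self]
        exact (E.res (loc (pp : ℕ))).q2_i2 r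
      · simp only [w, Function.update_of_ne h', map_zero]
    refine ⟨⟨z, hzA⟩, LinearMap.ext fun n => ?_⟩
    rw [hg, finsum_eq_single _ pp fun q hq => by
      simp only [term, hz q, w, Function.update_of_ne hq, map_zero, LinearMap.zero_apply]]
    simp only [term, hz pp, w, Function.update_self]
    rw [hind pp _ r (hsv pp _ ⟨r, rfl⟩) n.1 n.2, hr, hF']
    exact LinearMap.congr_fun hF n
  have hker : LinearMap.ker g = LinearMap.ker h := by
    ext z
    constructor
    · intro hz
      obtain ⟨S, hS⟩ := exists_finset_resq2 hPB z.1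
      have : Finite ↥R'.invariants := Module.finite_of_finite (ZMod p)
      let _ : Fintype ↥R'.invariants := Fintype.ofFinite _
      have hsep : ∀ n : ↥R'.invariants, ∃ q : Nat.Primes,
          n ∉ Sh0 → resq1 (q : ℕ) σ (E'.δ0 hPB' n) ≠ 0 := fun n => by
        by_cases hn' : n ∈ Sh0
        · exact ⟨pp, fun h => absurd hn' h⟩
        · obtain ⟨q, hq⟩ := not_forall.1 fun hall => hn' (mem_shaOne.2 hall)
          exact ⟨q, fun _ => hq⟩
      choose qn hqn using hsep
      set S' := S ∪ Finset.univ.image qn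
      let lam : ↥R'.invariants →ₗ[ZMod p] ZMod p :=
        ∑ q : {q // q ∈ S'}, (pair20Q (q.1 : ℕ) PR (sv q.1 (resq2 (q.1 : ℕ) (T.coind (ρ.comp T.H.subtype)) z.1))) ∘ₗ
          resInv R' (q.1 : ℕ)
      obtain ⟨G, hG⟩ := exists_dual_factor (k := ZMod p) (B := LocH1 S' σ)
        (locS S' σ ∘ₗ E'.δ0 hPB') lam fun n hn' => by
          have hmem : n ∈ Sh0 := by
            by_contra hne
            exact hqn n hne (congrFun hn'
              ⟨qn n, Finset.mem_union_right _ (Finset.mem_image_of_mem _ (Finset.mem_univ n))⟩)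
          have h0 := LinearMap.congr_fun (LinearMap.mem_ker.1 hz) ⟨n, hmem⟩
          rw [hg, finsum_eq_sum_of_support_subset _ (s := S') fun q hq => by
            by_contra hqS
            exact hq (by simp only [term, hS q fun h => hqS (Finset.mem_union_left _ h), map_zero,
              LinearMap.zero_apply]), ← Finset.sum_coe_sort S'] at h0
          simp only [lam, LinearMap.sum_apply, LinearMap.comp_apply]
          exact h0
      have hc : ∀ q : {q // q ∈ S'}, ∃ c, pair11Q (q.1 : ℕ) P c = G ∘ₗ LinearMap.single (ZMod p)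
          (fun q : {q // q ∈ S'} => H1 (LL (q.1 : ℕ)) (σ.comp (loc (q.1 : ℕ)))) q :=
        fun q => (perfectQ (q.1 : ℕ) P).bij11.2 _
      choose c hc using hc
      let w : ∀ q : Nat.Primes, H2 (LL (q : ℕ)) ((kerRep (T.equi_aug ρ)).comp (loc (q : ℕ))) :=
        fun q => if hq : q ∈ S' then sv q (resq2 (q : ℕ) (T.coind (ρ.comp T.H.subtype)) z.1)
          - (E.res (loc (q : ℕ))).δ1 (hPB.comp compat_loc) (c ⟨q, hq⟩) else 0
      obtain ⟨r, hr⟩ := T.image_gen PR hp2 hμ hρR S' w (fun q hq => dif_neg hq) fun n => by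
        have h1 := hG n
        rw [LinearMap.comp_apply, ← Finset.univ_sum_single (locS S' σ (E'.δ0 hPB' n)),
          map_sum] at h1
        simp only [lam, LinearMap.sum_apply, LinearMap.comp_apply] at h1
        simp only [w, Finset.coe_mem, dite_true, map_sub, LinearMap.sub_apply,
          Finset.sum_sub_distrib]
        rw [sub_eq_zero, ← h1]
        refine Finset.sum_congr rfl fun q _ => ?_
        rw [pair20Q, pair20_apply]
        refine Eq.trans ?_ (congrArg (localInv (cycL p (q.1 : ℕ)))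
          (SES.δ1_pair (E := E.res (loc (q.1 : ℕ))) (E' := E'.res (loc (q.1 : ℕ)))
            (locPair (q.1 : ℕ) PR).bil (locPair (q.1 : ℕ) PB).bil (locPair (q.1 : ℕ) P).bil
            (hadjL q.1) (hPB.comp compat_loc) (hPB'.comp compat_loc)
            (locPair (q.1 : ℕ) P).smooth_right (c q) (resInv _ (q.1 : ℕ) n))).symm
        exact (LinearMap.congr_fun (hc q) _).symm
      have hzi : z.1 - E.i2 r = 0 := T.coindV_eq_zero_of_resq2 hρ1 hμ hT fun q => by
        rw [map_sub, resq2_i2, hr q]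
        simp only [w]
        split_ifs with hq
        · rw [map_sub, hloc, (E.res (loc (q : ℕ))).i2_δ1, sub_zero, sub_self]
        · rw [map_zero, sub_zero, hS q fun h' => hq (Finset.mem_union_left _ h')]
      refine LinearMap.mem_ker.2 (Subtype.ext ?_)
      show E.q2 z.1 = 0
      rw [sub_eq_zero.1 hzi]
      exact E.q2_i2 r
    · intro hz
      obtain ⟨r, hr⟩ := E.exists_of_q2_eq_zero hPB
        (b := z.1) (congrArg Subtype.val (LinearMap.mem_ker.1 hz))
      refine LinearMap.mem_ker.2 (LinearMap.ext fun n => ?_)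
      rw [hg, LinearMap.zero_apply, finsum_congr fun q =>
        ((hind q _ (resq2 (q : ℕ) (kerRep (T.equi_aug ρ)) r) (by rw [hloc, ← resq2_i2, hr]) n.1 n.2).trans
          (invQ_equi_right (q : ℕ) PR r n.1).symm)]
      have hrec := reciprocity (map2 Compat.id (PR.bil.equi_right n.1.2) r)
      rwa [invTot_apply, invInf_of_ne_two hp2, add_zero] at hrec
  have hrange : LinearMap.range g = Q0.dualAnnihilator := le_antisymm hle hge
  have e : shaTwo ρ ≃ₗ[ZMod p] LinearMap.range g :=
    (h.quotKerEquivOfSurjective hh).symm.trans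
      ((Submodule.quotEquivOfEq _ _ hker.symm).trans g.quotKerEquivRange)
  have hfin2 : Module.Finite (ZMod p) (shaTwo ρ) := Module.Finite.equiv e.symm
  refine ⟨hfin1, hfin2, ?_⟩
  have h1 := Subspace.finrank_add_finrank_dualAnnihilator_eq Q0
  have h2 := δs.finrank_range_add_finrank_ker
  rw [LinearMap.range_eq_top.2 hδs, finrank_top] at h2
  have h3 : Module.finrank (ZMod p) Q0 = Module.finrank (ZMod p) (LinearMap.ker δs) := rfl
  rw [e.finrank_eq, hrange]
  omega

end Trans

end FA.GalCoh
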