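import Fermat.Agent.GalCoh.LevelS

/-!
The classes of degree two at the levels outside `S`, trivial at `S` and killed by a splitting
field, counted by those of degree one of the dual module.
-/

set_option autoImplicit false
set_option linter.unusedSectionVars false

noncomputable section

namespace FA.GalCoh

open Representation

/-- The start of the long exact sequence of a short exact sequence, counted. -/
theorem finrank_ses_low {G : Type} [Group G] {L : Levels G} {k : Type} [Field k]
    {A B C : Type} [AddCommGroup A] [Module k A] [AddCommGroup B] [Module k B]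
    [AddCommGroup C] [Module k C] [FiniteDimensional k A] [FiniteDimensional k B]
    [FiniteDimensional k C] {ρA : Representation k G A} {ρB : Representation k G B}
    {ρC : Representation k G C} (E : SES ρA ρB ρC) (hB : Smooth L ρB)
    [FiniteDimensional k (H1 L ρA)] [FiniteDimensional k (H1 L ρB)] :
    Module.finrank k (LinearMap.range (E.δ0 hB)) + Module.finrank k ↥ρB.invariants
        = Module.finrank k ↥ρC.invariants + Module.finrank k ↥ρA.invariants ∧
      Module.finrank k (LinearMap.range (E.q1 (L := L))) + Module.finrank k (H1 L ρA)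
          + Module.finrank k ↥ρB.invariants
        = Module.finrank k (H1 L ρB) + Module.finrank k ↥ρC.invariants
          + Module.finrank k ↥ρA.invariants := by
  let f0 : ↥ρA.invariants →ₗ[k] ↥ρB.invariants :=
    (E.i.domRestrict ρA.invariants).codRestrict ρB.invariants fun a g => by
      show ρB g (E.i a.1) = E.i a.1
      rw [← E.i_equi, a.2 g]
  let g0 : ↥ρB.invariants →ₗ[k] ↥ρC.invariants :=
    (E.q.domRestrict ρB.invariants).codRestrict ρC.invariants fun a g => by
      show ρC g (E.q a.1) = E.q a.1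
      rw [← E.q_equi, a.2 g]
  have x0 : Function.Injective f0 := fun a b h => Subtype.ext (E.inj (congrArg Subtype.val h))
  have e0 : ∀ b, g0 b = 0 ↔ ∃ a, f0 a = b := fun b => by
    refine ⟨fun h => (E.exact_H0 (congrArg Subtype.val h)).imp fun a ha => Subtype.ext ha, ?_⟩
    rintro ⟨a, rfl⟩
    exact Subtype.ext (E.q_i a.1)
  have e0' : ∀ c, E.δ0 hB c = 0 ↔ ∃ b, g0 b = c := fun c => by
    refine ⟨fun h => (E.exists_of_δ0_eq_zero hB h).imp fun b hb => Subtype.ext hb, ?_⟩
    rintro ⟨b, rfl⟩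
    exact E.δ0_q hB b (g0 b).2
  have e1a : ∀ a, E.i1 a = 0 ↔ ∃ n, E.δ0 hB n = a := fun a =>
    ⟨fun h => E.exists_of_i1_eq_zero hB h, by rintro ⟨n, rfl⟩; exact E.i1_δ0 hB n⟩
  have e1b : ∀ b, E.q1 b = 0 ↔ ∃ a, E.i1 (L := L) a = b := fun b =>
    ⟨fun h => E.exists_of_q1_eq_zero hB h, by rintro ⟨a, rfl⟩; exact E.q1_i1 a⟩
  have h0 := finrank_of_exact f0 g0 e0
  have h1 := finrank_of_exact g0 (E.δ0 hB) e0'
  have h2 := finrank_of_exact (E.δ0 hB) (E.i1 (L := L)) e1a
  have h3 := finrank_of_exact (E.i1 (L := L)) (E.q1 (L := L)) e1b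
  rw [LinearMap.finrank_range_of_inj x0] at h0
  constructor <;> omega

variable {p : ℕ} [hp : Fact p.Prime]

/-- The fixed spaces of an involution are additive. -/
theorem finrank_ker_sub_one_of_ses {G : Type} [Group G] {A B C : Type} [AddCommGroup A]
    [Module (ZMod p) A] [AddCommGroup B] [Module (ZMod p) B] [AddCommGroup C] [Module (ZMod p) C]
    [FiniteDimensional (ZMod p) B] {ρA : Representation (ZMod p) G A}
    {ρB : Representation (ZMod p) G B} {ρC : Representation (ZMod p) G C} (E : SES ρA ρB ρC)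
    (hp2 : p ≠ 2) {c : G} (hc : c * c = 1) :
    Module.finrank (ZMod p) (LinearMap.ker (ρB c - 1))
      = Module.finrank (ZMod p) (LinearMap.ker (ρA c - 1))
        + Module.finrank (ZMod p) (LinearMap.ker (ρC c - 1)) := by
  have : FiniteDimensional (ZMod p) A := FiniteDimensional.of_injective E.i E.inj
  have : FiniteDimensional (ZMod p) C := Module.Finite.of_surjective E.q E.surj
  let f : LinearMap.ker (ρA c - 1) →ₗ[ZMod p] LinearMap.ker (ρB c - 1) :=
    (E.i.domRestrict _).codRestrict _ fun a => by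
      rw [LinearMap.mem_ker, LinearMap.domRestrict_apply, LinearMap.sub_apply, Module.End.one_apply,
        ← E.i_equi, ← map_sub, show ρA c a.1 - a.1 = 0 from LinearMap.mem_ker.1 a.2, map_zero]
  let g : LinearMap.ker (ρB c - 1) →ₗ[ZMod p] LinearMap.ker (ρC c - 1) :=
    (E.q.domRestrict _).codRestrict _ fun a => by
      rw [LinearMap.mem_ker, LinearMap.domRestrict_apply, LinearMap.sub_apply, Module.End.one_apply,
        ← E.q_equi, ← map_sub, show ρB c a.1 - a.1 = 0 from LinearMap.mem_ker.1 a.2, map_zero]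
  have hf : Function.Injective f := fun a b h => Subtype.ext (E.inj (congrArg Subtype.val h))
  have hex : ∀ b, g b = 0 ↔ ∃ a, f a = b := fun b => by
    refine ⟨fun h => ?_, ?_⟩
    · obtain ⟨a, ha⟩ := E.exists_of_q_eq_zero (congrArg Subtype.val h)
      refine ⟨⟨a, LinearMap.mem_ker.2 (E.inj ?_)⟩, Subtype.ext ha⟩
      rw [LinearMap.sub_apply, Module.End.one_apply, map_sub, E.i_equi, ha, map_zero]
      exact LinearMap.mem_ker.1 b.2
    · rintro ⟨a, rfl⟩
      exact Subtype.ext (E.q_i a.1)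
  have hsurj : Function.Surjective g := fun x => by
    have hx : ρC c x.1 = x.1 := sub_eq_zero.1 (LinearMap.mem_ker.1 x.2)
    obtain ⟨b, hb⟩ := E.surj x.1
    refine ⟨⟨(2 : ZMod p)⁻¹ • (b + ρB c b), LinearMap.mem_ker.2 ?_⟩, Subtype.ext ?_⟩
    · rw [LinearMap.sub_apply, Module.End.one_apply, map_smul, map_add,
        ← Module.End.mul_apply (ρB c), ← map_mul, hc, map_one, Module.End.one_apply,
        add_comm, sub_self]
    · show E.q ((2 : ZMod p)⁻¹ • (b + ρB c b)) = x.1
      rw [map_smul, map_add, E.q_equi, hb, hx, ← two_smul (ZMod p), smul_smul,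
        inv_mul_cancel₀ (Trans.two_ne_zero_zmod hp2), one_smul]
  have h2 := finrank_of_exact f g hex
  rwa [LinearMap.finrank_range_of_inj hf, LinearMap.range_eq_top.2 hsurj, finrank_top] at h2

variable {V : Type} [AddCommGroup V] [Module (ZMod p) V]
variable {W : Type} [AddCommGroup W] [Module (ZMod p) W]
variable {ρ : Representation (ZMod p) GQ V} {σ : Representation (ZMod p) GQ W}

theorem selS_top_eq (S : Finset Nat.Primes) (ρ : Representation (ZMod p) GQ V) :
    selS S ρ (fun _ => ⊤) = unrOutside S ρ :=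
  le_antisymm (selS_le S _) fun _ hx => mem_selS.2 ⟨hx, fun _ => Submodule.mem_top⟩

/-- The Greenberg-Wiles formula without local conditions. -/
theorem finrank_unrOutside_formula (P : DPair LQ (cycQ p).χ ρ σ) (hp2 : p ≠ 2)
    {S : Finset Nat.Primes} (hpS : (⟨p, hp.out⟩ : Nat.Primes) ∈ S)
    (hunr : ∀ q : Nat.Primes, q ∉ S → UnrRep (ρ.comp (loc (q : ℕ)))) :
    Module.finrank (ZMod p) (unrOutside S ρ) + Module.finrank (ZMod p) ↥σ.invariants
        + Module.finrank (ZMod p) (LinearMap.ker (ρ complexConjugation - 1))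
        + ∑ q : {q // q ∈ S},
            Module.finrank (ZMod p) ↥(Representation.invariants (ρ.comp (loc (q.1 : ℕ))))
      = Module.finrank (ZMod p) (shaS1 S σ) + Module.finrank (ZMod p) ↥ρ.invariants
        + ∑ q : {q // q ∈ S},
            Module.finrank (ZMod p) (H1 (LL (q.1 : ℕ)) (ρ.comp (loc (q.1 : ℕ)))) := by
  have h := finrank_selS_formula P hp2 hpS hunr fun _ => ⊤
  rw [show (fun q : {q // q ∈ S} => orthQ (q.1 : ℕ) P ⊤) = fun q => ⊥ from
    funext fun q => orthQ_top (q.1 : ℕ) P, selS_top_eq] at h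
  simp only [finrank_top] at h
  exact h

theorem finite_shaS1 (P : DPair LQ (cycQ p).χ ρ σ) (hp2 : p ≠ 2) (S : Finset Nat.Primes) :
    Module.Finite (ZMod p) (shaS1 S ρ) :=
  have := finite_unrOutside_of P hp2 S
  have : Finite (shaS1 S ρ) :=
    Finite.of_injective (Submodule.inclusion (selS_le S _)) (Submodule.inclusion_injective _)
  Module.Finite.of_finite

namespace Trans

variable {X : Type} [Fintype X] [MulAction GQ X] (T : Trans LQ X) [hn : T.H.Normal]
variable (P : DPair LQ (cycQ p).χ ρ σ) {S : Finset Nat.Primes}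

/-- A module trivial on the field is smooth at the levels outside `S`. -/
theorem smoothS_of_trivial (hH : T.H ∈ (levS S).carrier) {U : Type} [AddCommGroup U]
    [Module (ZMod p) U] {τ : Representation (ZMod p) GQ U} (h : ∀ s ∈ T.H, τ s = 1) :
    Smooth (levS S) τ := ⟨T.H, hH, h⟩

theorem coind_res_eq_one {U : Type} [AddCommGroup U] [Module (ZMod p) U]
    {τ : Representation (ZMod p) GQ U} (h : ∀ s ∈ T.H, τ s = 1) {s : GQ} (hs : s ∈ T.H) :
    T.coind (τ.comp T.H.subtype) s = 1 :=
  T.coind_eq_one T le_rfl (τ.comp T.H.subtype) (fun u _ => h u.1 u.2) hs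

/-- The classes killed by the field. -/
def killS2 (S : Finset Nat.Primes) : Submodule (ZMod p) (H2 (levS S) ρ) :=
  shaS2 S ρ ⊓ LinearMap.ker ((T.dualSES P.flip).i2 (L := levS S))

/-- Corestriction of the locally trivial classes. -/
def corShaS (σ : Representation (ZMod p) GQ W) (S : Finset Nat.Primes) :
    shaS1 S (T.coind (σ.comp T.H.subtype)) →ₗ[ZMod p] H1 LQ σ :=
  (T.augSES σ).q1.domRestrict _

set_option maxHeartbeats 1600000 in
-- the instances on local groups are slow to find
/-- The classes killed by the field are counted by the dual module. -/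
theorem finrank_killS2 (hp2 : p ≠ 2) (hμ : ∀ s ∈ T.H, ExtCitation.cycloChar p s = 1)
    (hρ : ∀ s ∈ T.H, ρ s = 1) (hpS : (⟨p, hp.out⟩ : Nat.Primes) ∈ S)
    (hH : T.H ∈ (levS S).carrier) :
    Module.Finite (ZMod p) (T.killS2 P S) ∧
      Module.finrank (ZMod p) (T.killS2 P S)
        + Module.finrank (ZMod p) (LinearMap.range (T.corShaS σ S))
      = Module.finrank (ZMod p) (shaS1 S σ) := by
  classical
  have hσ : ∀ s ∈ T.H, σ s = 1 := fun s hs => T.eq_one_right P hμ hρ hs
  have := P.fin_left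
  have := P.fin_right
  let E := T.augSES σ
  let E' := T.dualSES P.flip
  let PK := T.kerPair P.flip
  let PB := T.covPair P.flip
  have hadj := T.cov_adjoint P.flip
  have := PK.fin_left
  have := PK.fin_right
  have hBσ : ∀ s ∈ T.H, T.coind (σ.comp T.H.subtype) s = 1 := fun s hs => T.coind_res_eq_one hσ hs
  have hBρ : ∀ s ∈ T.H, T.coind (ρ.comp T.H.subtype) s = 1 := fun s hs => T.coind_res_eq_one hρ hs
  have hsB : Smooth (levS S) (T.coind (ρ.comp T.H.subtype)) := T.smoothS_of_trivial hH hBρ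
  have hsρ : Smooth (levS S) ρ := T.smoothS_of_trivial hH hρ
  have hsR : Smooth (levS S) ((kerRep (T.equi_aug σ)).dual.twist (cycQ p).χ) :=
    E'.smooth_snd hsB
  have hsBσ : Smooth (levS S) (T.coind (σ.comp T.H.subtype)) := T.smoothS_of_trivial hH hBσ
  have hunrBσ : ∀ q : Nat.Primes, q ∉ S →
      UnrRep ((T.coind (σ.comp T.H.subtype)).comp (loc (q : ℕ))) :=
    fun q hq => unrRep_of_smoothS hsBσ hq
  -- finiteness
  have := finite_H1S (S := S) P hp2
  have := finite_H1S (S := S) PB.flip hp2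
  have := finite_H1S (S := S) PK.flip hp2
  -- classes of degree one of the quotient with trivial image at `S`
  let C : Submodule (ZMod p) (H1 (levS S) ((kerRep (T.equi_aug σ)).dual.twist (cycQ p).χ)) :=
    (shaS2 S ρ).comap (E'.δ1 hsB)
  let Φ := (E'.δ1 hsB).domRestrict C
  have hrange : LinearMap.range Φ = T.killS2 P S := by
    refine le_antisymm ?_ fun z hz => ?_
    · rintro _ ⟨c, rfl⟩
      exact ⟨c.2, LinearMap.mem_ker.2 (E'.i2_δ1 hsB c.1)⟩
    · obtain ⟨c, rfl⟩ := E'.exists_of_i2_eq_zero hsB (LinearMap.mem_ker.1 hz.2)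
      exact ⟨⟨c, hz.1⟩, rfl⟩
  have hle : LinearMap.range (E'.q1 (L := levS S)) ≤ C := by
    rintro _ ⟨b, rfl⟩
    show E'.δ1 hsB (E'.q1 b) ∈ shaS2 S ρ
    rw [E'.δ1_q1 hsB]
    exact zero_mem _
  have hker : Module.finrank (ZMod p) (LinearMap.ker Φ)
      = Module.finrank (ZMod p) (LinearMap.range (E'.q1 (L := levS S))) := by
    have e : LinearMap.ker Φ = (LinearMap.range (E'.q1 (L := levS S))).comap C.subtype := by
      ext c
      refine ⟨fun h => E'.exists_of_δ1_eq_zero hsB (LinearMap.mem_ker.1 h), ?_⟩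
      rintro ⟨b, hb⟩
      refine LinearMap.mem_ker.2 ?_
      show E'.δ1 hsB c.1 = 0
      rw [show c.1 = E'.q1 b from hb.symm, E'.δ1_q1 hsB]
    rw [e]
    exact (Submodule.comapSubtypeEquivOfLe hle).finrank_eq
  have hfin : Module.Finite (ZMod p) (T.killS2 P S) := hrange ▸ inferInstance
  refine ⟨hfin, ?_⟩
  have hC1 := LinearMap.finrank_range_add_finrank_ker Φ
  rw [hrange, hker] at hC1
  obtain ⟨-, hq1⟩ := finrank_ses_low E' hsB
  -- the local conditions
  let Lq : LocCond S ((kerRep (T.equi_aug σ)).dual.twist (cycQ p).χ) :=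
    fun q => LinearMap.range ((E'.res (loc (q.1 : ℕ))).q1 (L := LL (q.1 : ℕ)))
  have hmemC : ∀ c, c ∈ C ↔ ∀ q : {q // q ∈ S}, res1S S (q.1 : ℕ) ((kerRep (T.equi_aug σ)).dual.twist (cycQ p).χ) c ∈ Lq q := fun c => by
    rw [Submodule.mem_comap, mem_shaS2]
    refine forall_congr' fun q => ?_
    have he : res2S S (q.1 : ℕ) ρ (E'.δ1 hsB c) = (E'.res (loc (q.1 : ℕ))).δ1
        (hsB.comp (compatSL S (q.1 : ℕ))) (res1S S (q.1 : ℕ) ((kerRep (T.equi_aug σ)).dual.twist (cycQ p).χ) c) :=
      E'.res_δ1 (compatSL S (q.1 : ℕ)) hsB c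
    rw [he]
    refine ⟨fun h => (E'.res (loc (q.1 : ℕ))).exists_of_δ1_eq_zero _ h, ?_⟩
    rintro ⟨b, hb⟩
    rw [← hb]
    exact (E'.res (loc (q.1 : ℕ))).δ1_q1 _ b
  have hmapC : C.map (inflS S ((kerRep (T.equi_aug σ)).dual.twist (cycQ p).χ))
      = selS S ((kerRep (T.equi_aug σ)).dual.twist (cycQ p).χ) Lq := by
    ext y
    rw [Submodule.mem_map, mem_selS]
    constructor
    · rintro ⟨c, hc, rfl⟩
      exact ⟨inflS_mem c, fun q => by rw [resq1_inflS]; exact (hmemC c).1 hc q⟩
    · rintro ⟨hy, hL⟩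
      obtain ⟨c, rfl⟩ := exists_inflS_eq hsR hy
      exact ⟨c, (hmemC c).2 fun q => by rw [← resq1_inflS]; exact hL q, rfl⟩
  have hdimC : Module.finrank (ZMod p) (selS S ((kerRep (T.equi_aug σ)).dual.twist (cycQ p).χ) Lq)
      = Module.finrank (ZMod p) C := by
    rw [← hmapC]
    exact (Submodule.equivMapOfInjective _ inflS_injective C).finrank_eq.symm
  have hGW := finrank_selS_formula PK.flip hp2 hpS (fun q hq => unrRep_of_smoothS hsR hq) Lq
  have horth : ∀ (q : {q // q ∈ S})
      (y : H1 (LL (q.1 : ℕ)) ((kerRep (T.equi_aug σ)).comp (loc (q.1 : ℕ)))),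
      y ∈ orthQ (q.1 : ℕ) PK.flip (Lq q) ↔ (E.res (loc (q.1 : ℕ))).i1 y = 0 := by
    intro q y
    have hcompat : ∀ b, pair11Q (q.1 : ℕ) PK.flip ((E'.res (loc (q.1 : ℕ))).q1 b) y
        = - pair11Q (q.1 : ℕ) PB ((E.res (loc (q.1 : ℕ))).i1 y) b := fun b => by
      show pair11 _ (locPair (q.1 : ℕ) PK).flip _ y = _
      rw [pair11_flip]
      exact congrArg Neg.neg (pair11_adjoint (localInv (cycL p (q.1 : ℕ)))
        (locPair (q.1 : ℕ) PK) (locPair (q.1 : ℕ) PB) (E.res (loc (q.1 : ℕ))).equi_i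
        (E'.res (loc (q.1 : ℕ))).equi_q (fun v w => hadj.left v w) y b).symm
    rw [mem_orthQ]
    constructor
    · intro h
      refine (perfectQ (q.1 : ℕ) PB).bij11.1 (LinearMap.ext fun b => ?_)
      rw [map_zero, LinearMap.zero_apply]
      exact neg_eq_zero.1 ((hcompat b).symm.trans (h _ ⟨b, rfl⟩))
    · rintro h _ ⟨b, rfl⟩
      rw [hcompat, h, map_zero, LinearMap.zero_apply, neg_zero]
  -- the dual Selmer group
  set Sel' := selS S (kerRep (T.equi_aug σ)) fun q => orthQ (q.1 : ℕ) PK.flip (Lq q)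
  have := finite_unrOutside_of PK hp2 S
  have : FiniteDimensional (ZMod p) (unrOutside S (kerRep (T.equi_aug σ))) := Module.Finite.of_finite
  have : FiniteDimensional (ZMod p) Sel' := Submodule.finiteDimensional_of_le (selS_le S _)
  have := finite_shaS1 PB hp2 S
  let Ψ := (E.i1 (L := LQ)).domRestrict Sel'
  have hΨr : LinearMap.range Ψ
      = (LinearMap.ker (T.corShaS σ S)).map (shaS1 S (T.coind (σ.comp T.H.subtype))).subtype := by
    refine le_antisymm ?_ ?_
    · rintro _ ⟨x, rfl⟩
      have hx := mem_selS.1 x.2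
      refine ⟨⟨E.i1 x.1, mem_shaS1.2 ⟨i1_mem_unrOutside E hx.1, fun q => ?_⟩⟩,
        LinearMap.mem_ker.2 (E.q1_i1 x.1), rfl⟩
      rw [resq1_i1]
      exact (horth q _).1 (hx.2 q)
    · rintro _ ⟨b, hb, rfl⟩
      obtain ⟨a, ha⟩ := E.exists_of_q1_eq_zero PB.smooth_left (LinearMap.mem_ker.1 hb)
      have hb' := mem_shaS1.1 b.2
      refine ⟨⟨a, mem_selS.2 ⟨mem_unrOutside.2 fun q hq => mem_unrH1_of_map1
        (E.res (loc (q : ℕ))).equi_i E.inj (hunrBσ q hq) ?_, fun q => (horth q _).2 ?_⟩⟩, ha⟩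
      · show (E.res (loc (q : ℕ))).i1 (resq1 (q : ℕ) (kerRep (T.equi_aug σ)) a) ∈ _
        rw [← resq1_i1, ha]
        exact mem_unrOutside.1 hb'.1 q hq
      · rw [← resq1_i1, ha]
        exact hb'.2 q
  have hΨk : Module.finrank (ZMod p) (LinearMap.ker Ψ)
      = Module.finrank (ZMod p) (LinearMap.range (E.δ0 PB.smooth_left)) := by
    have hle' : LinearMap.range (E.δ0 PB.smooth_left) ≤ Sel' := by
      rintro _ ⟨n, rfl⟩
      refine mem_selS.2 ⟨δ0_mem_unrOutside E PB.smooth_left hunrBσ n, fun q => (horth q _).2 ?_⟩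
      rw [← resq1_i1, E.i1_δ0 PB.smooth_left, map_zero]
    have e : LinearMap.ker Ψ = (LinearMap.range (E.δ0 PB.smooth_left)).comap Sel'.subtype := by
      ext a
      refine ⟨fun h => E.exists_of_i1_eq_zero PB.smooth_left (LinearMap.mem_ker.1 h), ?_⟩
      rintro ⟨n, hn'⟩
      refine LinearMap.mem_ker.2 ?_
      show E.i1 a.1 = 0
      rw [show a.1 = E.δ0 PB.smooth_left n from hn'.symm, E.i1_δ0 PB.smooth_left]
    rw [e]
    exact (Submodule.comapSubtypeEquivOfLe hle').finrank_eq
  have hΨ := LinearMap.finrank_range_add_finrank_ker Ψ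
  rw [hΨr, Submodule.finrank_map_subtype_eq, hΨk] at hΨ
  have hcor := LinearMap.finrank_range_add_finrank_ker (T.corShaS σ S)
  have hd0 : Module.finrank (ZMod p) (LinearMap.range (E.δ0 PB.smooth_left))
      + Module.finrank (ZMod p) ↥(T.coind (σ.comp T.H.subtype)).invariants
      = Module.finrank (ZMod p) ↥σ.invariants
        + Module.finrank (ZMod p) ↥(kerRep (T.equi_aug σ)).invariants := by
    let f0 : ↥(kerRep (T.equi_aug σ)).invariants →ₗ[ZMod p]
        ↥(T.coind (σ.comp T.H.subtype)).invariants :=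
      (E.i.domRestrict _).codRestrict _ fun a g => by
        show _ = E.i a.1
        rw [LinearMap.domRestrict_apply, ← E.i_equi, a.2 g]
    let g0 : ↥(T.coind (σ.comp T.H.subtype)).invariants →ₗ[ZMod p] ↥σ.invariants :=
      (E.q.domRestrict _).codRestrict _ fun a g => by
        show _ = E.q a.1
        rw [LinearMap.domRestrict_apply, ← E.q_equi, a.2 g]
    have h0 := finrank_of_exact f0 g0 fun b => by
      refine ⟨fun h => (E.exact_H0 (congrArg Subtype.val h)).imp fun a ha => Subtype.ext ha, ?_⟩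
      rintro ⟨a, rfl⟩
      exact Subtype.ext (E.q_i a.1)
    have h1 := finrank_of_exact g0 (E.δ0 PB.smooth_left) fun c => by
      refine ⟨fun h => (E.exists_of_δ0_eq_zero PB.smooth_left h).imp
        fun b hb => Subtype.ext hb, ?_⟩
      rintro ⟨b, rfl⟩
      exact E.δ0_q PB.smooth_left b (g0 b).2
    have x0 : Function.Injective f0 := fun a b h => by
      have h' : E.i a.1 = E.i b.1 :=
        congrArg (fun z : ↥(T.coind (σ.comp T.H.subtype)).invariants => z.1) h
      exact Subtype.ext (E.inj h')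
    rw [LinearMap.finrank_range_of_inj x0] at h0
    omega
  -- the local sums
  have hloc : ∑ q, Module.finrank (ZMod p) (Lq q)
        + ∑ q : {q // q ∈ S}, Module.finrank (ZMod p) (H1 (LL (q.1 : ℕ)) (ρ.comp (loc (q.1 : ℕ))))
        + ∑ q : {q // q ∈ S}, Module.finrank (ZMod p)
            ↥(Representation.invariants ((T.coind (ρ.comp T.H.subtype)).comp (loc (q.1 : ℕ))))
      = ∑ q : {q // q ∈ S}, Module.finrank (ZMod p)
            (H1 (LL (q.1 : ℕ)) ((T.coind (ρ.comp T.H.subtype)).comp (loc (q.1 : ℕ))))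
        + ∑ q : {q // q ∈ S}, Module.finrank (ZMod p) ↥(Representation.invariants
            (((kerRep (T.equi_aug σ)).dual.twist (cycQ p).χ).comp (loc (q.1 : ℕ))))
        + ∑ q : {q // q ∈ S},
            Module.finrank (ZMod p) ↥(Representation.invariants (ρ.comp (loc (q.1 : ℕ)))) := by
    simp only [← Finset.sum_add_distrib]
    refine Finset.sum_congr rfl fun q _ => ?_
    have := (perfectQ (q.1 : ℕ) P).fin1
    have := (perfectQ (q.1 : ℕ) PB.flip).fin1
    exact (finrank_ses_low (E'.res (loc (q.1 : ℕ)))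
      (PB.smooth_right.comp (compat_loc (q := (q.1 : ℕ))))).2
  have hGWB := finrank_unrOutside_formula PB.flip hp2 hpS (fun q hq => unrRep_of_smoothS hsB hq)
  have hGWρ := finrank_unrOutside_formula P hp2 hpS (fun q hq => unrRep_of_smoothS hsρ hq)
  have hh1B := finrank_H1S hsB
  have hh1ρ := finrank_H1S hsρ
  rw [selS_top_eq] at hh1B hh1ρ
  have hkc := finrank_ker_sub_one_of_ses E' hp2 complexConjugation_mul_self
  omega

end Trans

end FA.GalCoh
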