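import Fermat.Agent.GalCoh.CapCor

/-!
Poitou-Tate: the classes of degree two at the levels outside `S` which are trivial at `S` have the
dimension of the classes of degree one of the dual module unramified outside `S` and trivial at `S`.
-/

set_option autoImplicit false
set_option linter.unusedSectionVars false

noncomputable section

namespace FA.GalCoh

open Representation

variable {p : ℕ} [hp : Fact p.Prime]
variable {V : Type} [AddCommGroup V] [Module (ZMod p) V]
variable {W : Type} [AddCommGroup W] [Module (ZMod p) W]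
variable {ρ : Representation (ZMod p) GQ V} {σ : Representation (ZMod p) GQ W}

namespace Trans

variable {X : Type} [Fintype X] [MulAction GQ X] (T : Trans LQ X) [hn : T.H.Normal]

/-- The same transversal at the levels outside `S`. -/
def toS {S : Finset Nat.Primes} (hH : T.H ∈ (levS S).carrier) : Trans (levS S) X where
  x0 := T.x0
  t := T.t
  t_smul := T.t_smul
  t_x0 := T.t_x0
  trivial := ⟨T.H, hH, fun _ hs x => T.smul_of_mem hs x⟩

variable (P : DPair LQ (cycQ p).χ ρ σ)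

/-- A cocycle constant on a level is killed by the field of that level. -/
theorem i2_mk2_eq_zero {S : Finset Nat.Primes} (hH : T.H ∈ (levS S).carrier)
    (hρ : ∀ s ∈ T.H, ρ s = 1) (F : ↥(Z2 (levS S) ρ))
    (hF : ∀ u ∈ T.H, ∀ v ∈ T.H, F.1 (u, v) = F.1 (1, 1)) :
    (T.dualSES P.flip).i2 (L := levS S) (mk2 (levS S) ρ F) = 0 := by
  have hβ : ∀ v, (T.dualSES P.flip).i v = T.dia ρ v := by
    intro v
    refine (T.covPair P.flip).inj_right ?_
    refine LinearMap.ext fun f => ?_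
    have h := (T.cov_adjoint P.flip).right f v
    show (T.covPair P.flip).β f ((T.dualSES P.flip).i v) = (T.covPair P.flip).β f (T.dia ρ v)
    rw [h]
    show P.flip.β (T.aug σ f) v = T.coindβ (cycQ p).χ P.flip.β f (T.dia ρ v)
    rw [T.coindβ_apply, T.aug_apply, map_sum, LinearMap.sum_apply]
    refine Finset.sum_congr rfl fun x _ => ?_
    have hb := P.flip.bil (T.t x) (f x) (ρ (T.t x)⁻¹ v)
    rw [Representation.self_inv_apply] at hb
    exact hb
  let TS := T.toS hH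
  refine TS.sh2_injective (σ := ρ.comp T.H.subtype) (Eq.trans ?_ (map_zero _).symm)
  refine (mk2_eq_zero _ _ _).2 ⟨fun _ => F.1 (1, 1), LC₁.const _, funext fun x => ?_⟩
  show ρ (x.1 : GQ) (F.1 (1, 1)) - F.1 (1, 1) + F.1 (1, 1)
    = (T.dualSES P.flip).i (F.1 ((x.1 : GQ), (x.2 : GQ))) T.x0
  rw [hβ, T.dia_x0, hF _ x.1.2 _ x.2.2, hρ _ x.1.2, Module.End.one_apply, sub_add_cancel]

end Trans

set_option maxHeartbeats 1600000 in
-- the instances on local groups are slow to find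
/-- Poitou-Tate duality for the locally trivial classes at the levels outside `S`. -/
theorem finrank_shaS (P : DPair LQ (cycQ p).χ ρ σ) (hp2 : p ≠ 2) {S : Finset Nat.Primes}
    (hpS : (⟨p, hp.out⟩ : Nat.Primes) ∈ S)
    (hunr : ∀ q : Nat.Primes, q ∉ S → UnrRep (ρ.comp (loc (q : ℕ)))) :
    Module.Finite (ZMod p) (shaS2 S ρ) ∧ Module.Finite (ZMod p) (shaS1 S σ) ∧
      Module.finrank (ZMod p) (shaS2 S ρ) = Module.finrank (ZMod p) (shaS1 S σ) := by
  classical
  have := P.fin_left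
  have := P.fin_right
  have hfin1 := finite_shaS1 P.flip hp2 S
  have hne : ∀ q : Nat.Primes, q ∉ S → (q : ℕ) ≠ p := fun q hq h =>
    hq ((show q = ⟨p, hp.out⟩ from Subtype.ext h) ▸ hpS)
  have hnormK : (kerLevel (p := p) ρ).Normal := by rw [kerLevel]; infer_instance
  have hK : kerLevel (p := p) ρ ∈ (levS S).carrier :=
    ⟨kerLevel_mem P.smooth_left, fun q hq t ht g => hnormK.conj_mem _
      ⟨MonoidHom.mem_ker.2 (hunr q hq t ht),
        MonoidHom.mem_ker.2 (cycloChar_inertL (hne q hq) ht)⟩ g⟩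
  have := LQ.finiteIndex hK.1
  let _ : Fintype (GQ ⧸ kerLevel ρ) := Fintype.ofFinite _
  let T₀ := cosetTrans LQ (kerLevel ρ) hK.1 hnormK le_rfl
  have hH₀ : T₀.H = kerLevel (p := p) ρ :=
    Subgroup.ext fun g => mem_cosetTrans_H hK.1 hnormK le_rfl
  have hn₀ : T₀.H.Normal := by rw [hH₀]; exact hnormK
  have hμ₀ : ∀ s ∈ T₀.H, ExtCitation.cycloChar p s = 1 := fun s hs =>
    MonoidHom.mem_ker.1 ((mem_cosetTrans_H hK.1 hnormK le_rfl).1 hs).2
  have hρ₀ : ∀ s ∈ T₀.H, ρ s = 1 := fun s hs =>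
    MonoidHom.mem_ker.1 ((mem_cosetTrans_H hK.1 hnormK le_rfl).1 hs).1
  obtain ⟨N₁, hN₁, hnN₁, hN₁H, hcor⟩ := T₀.exists_level_corShaS hp2 hμ₀
    (fun s hs => T₀.eq_one_right P hμ₀ hρ₀ hs) hpS (by rw [hH₀]; exact hK)
  -- below every level there is a field with all classes of the expected dimension
  have key : ∀ M ∈ (levS S).carrier, ∃ (D : Submodule (ZMod p) (H2 (levS S) ρ)),
      D ≤ shaS2 S ρ ∧ Module.Finite (ZMod p) D ∧
      Module.finrank (ZMod p) D = Module.finrank (ZMod p) (shaS1 S σ) ∧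
      ∀ F : ↥(Z2 (levS S) ρ), mk2 (levS S) ρ F ∈ shaS2 S ρ →
        (∀ u ∈ M, ∀ v ∈ M, F.1 (u, v) = F.1 (1, 1)) → mk2 (levS S) ρ F ∈ D := by
    intro M hM
    obtain ⟨M', hM', hle, hnM'⟩ := (levS S).exists_normal ((levS S).inf_mem hM hN₁)
    have := LQ.finiteIndex hM'.1
    let _ : Fintype (GQ ⧸ M') := Fintype.ofFinite _
    let T := cosetTrans LQ M' hM'.1 hnM' le_rfl
    have hH : T.H = M' := Subgroup.ext fun g => mem_cosetTrans_H hM'.1 hnM' le_rfl
    have hnT : T.H.Normal := by rw [hH]; exact hnM'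
    have hle' : T.H ≤ N₁ := hH.le.trans (hle.trans inf_le_right)
    have hleK : M' ≤ kerLevel (p := p) ρ := ((hle.trans inf_le_right).trans hN₁H).trans hH₀.le
    have hTS : T.H ∈ (levS S).carrier := by rw [hH]; exact hM'
    have hμ : ∀ s ∈ T.H, ExtCitation.cycloChar p s = 1 := fun s hs => hμ₀ s (hN₁H (hle' hs))
    have hρ : ∀ s ∈ T.H, ρ s = 1 := fun s hs => hρ₀ s (hN₁H (hle' hs))
    obtain ⟨hfinD, hdim⟩ := T.finrank_killS2 P hp2 hμ hρ hpS hTS
    rw [hcor (GQ ⧸ M') T hle' hTS (Subgroup.quotientMapOfLE hleK)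
      (fun g y => QuotientGroup.induction_on y fun a => rfl) rfl, finrank_bot, add_zero] at hdim
    refine ⟨T.killS2 P S, inf_le_left, hfinD, hdim, fun F hF hc => ⟨hF, LinearMap.mem_ker.2
      (T.i2_mk2_eq_zero P hTS hρ F fun u hu v hv => hc u (hle (hH.le hu)).1 v (hle (hH.le hv)).1)⟩⟩
  obtain ⟨D₀, hD₀le, hfin₀, hdim₀, -⟩ := key ⊤ (levS S).top_mem
  have : Finite D₀ := Module.finite_of_finite (ZMod p)
  have hlev : ∀ F : ↥(Z2 (levS S) ρ), ∃ M ∈ (levS S).carrier,
      ∀ u ∈ M, ∀ v ∈ M, F.1 (u, v) = F.1 (1, 1) := fun F => by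
    obtain ⟨M, hM, h⟩ := F.2.1
    exact ⟨M, hM, fun u hu v hv => by simpa using h 1 1 u v hu hv⟩
  choose lev hlevS hlev using hlev
  choose rep hrep using fun d : D₀ => mk2_surjective d.1
  have hall : shaS2 S ρ ≤ D₀ := by
    intro z hz
    obtain ⟨F, rfl⟩ := mk2_surjective z
    obtain ⟨M, hM, -, hMH, hMN⟩ := exists_levS_le (hlevS F) (fun d => lev (rep d))
      fun d => hlevS _
    obtain ⟨D, hDle, hfinD, hdim, hmem⟩ := key M hM
    have hD₀D : D₀ ≤ D := fun d hd => by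
      have hd' := hrep ⟨d, hd⟩
      change mk2 (levS S) ρ (rep ⟨d, hd⟩) = d at hd'
      rw [← hd']
      exact hmem _ (hd'.symm ▸ hD₀le hd) fun u hu v hv =>
        hlev _ u (hMN ⟨d, hd⟩ hu) v (hMN ⟨d, hd⟩ hv)
    rw [Submodule.eq_of_le_of_finrank_le hD₀D (by rw [hdim, hdim₀])]
    exact hmem F hz fun u hu v hv => hlev F u (hMH hu) v (hMH hv)
  have heq : shaS2 S ρ = D₀ := le_antisymm hall hD₀le
  exact ⟨heq ▸ hfin₀, hfin1, heq ▸ hdim₀⟩

end FA.GalCoh
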