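import Fermat.Agent.GalCoh.LocalDuality
import Fermat.Agent.GalCoh.CycloGlobal

/-!
Twisted Kummer classes: additivity, localisation, and classes of degree two split by a cyclic
extension as products of a Kummer class and a character.
-/

set_option autoImplicit false
set_option linter.unusedSectionVars false

noncomputable section

namespace FA.GalCoh

section Generic

variable {G : Type} [Group G] {L : Levels G} {Ω : Type} [Field Ω] [MulSemiringAction G Ω]
variable {p : ℕ} [hp : Fact p.Prime] (D : CycloData L Ω p)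

theorem CycloData.nsmul_eps (i : ZMod p) : p • D.eps i = 0 := by
  rw [← map_nsmul, nsmul_eq_mul, ZMod.natCast_self, zero_mul, map_zero]

theorem CycloData.kum_eq (a : fixUM G Ω) {A : UM Ω} (hA : p • A = a.1)
    (f : ↥(Z1 L (chr D.χ))) (hf : ∀ g, D.eps (f.1 g) = g • A - A) :
    D.kum a = mk1 L (chr D.χ) f := by
  obtain ⟨j, hj⟩ := D.exists_eps (m := D.kroot a.1 - A) (by
    rw [smul_sub, D.nsmul_kroot, hA, sub_self])
  refine (mk1_eq_mk1 L (chr D.χ) _ f).2 ⟨j, funext fun g => D.eps_injective ?_⟩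
  show D.eps ((D.χ g : ZMod p) * j - j) = D.eps (D.kc a g - f.1 g)
  rw [map_sub, map_sub, ← D.smul_eps, hj, D.eps_kc, hf, smul_sub]
  abel

theorem CycloData.kum_add (a b : fixUM G Ω) : D.kum (a + b) = D.kum a + D.kum b := by
  show _ = mk1 L (chr D.χ) _ + mk1 L (chr D.χ) _
  rw [← map_add]
  refine D.kum_eq (a + b) (A := D.kroot a.1 + D.kroot b.1) ?_ _ fun g => ?_
  · rw [smul_add, D.nsmul_kroot, D.nsmul_kroot, AddSubgroup.coe_add]
  · show D.eps (D.kc a g + D.kc b g) = _
    rw [map_add, D.eps_kc, D.eps_kc, smul_add]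
    abel

/-- The twisted Kummer map. -/
def CycloData.kumHom : fixUM G Ω →+ H1 L (chr D.χ) := AddMonoidHom.mk' D.kum D.kum_add

@[simp] theorem CycloData.kumHom_apply (a : fixUM G Ω) : D.kumHom a = D.kum a := rfl

/-- Kummer data when the character is trivial. -/
def CycloData.kumTop (h : ∀ g, D.χ g = 1) : KumData L Ω p where
  gal := D.gal
  ζ := D.ζ
  prim := D.prim
  fixζ g := D.fix_of_ker (h g)
  root := D.root

theorem CycloData.equi_top (h : ∀ g, D.χ g = 1) :
    Equi (MonoidHom.id G) (chr D.χ) (triv G p) (LinearMap.id : ZMod p →ₗ[ZMod p] ZMod p) :=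
  equi_chr_triv D.χ (MonoidHom.id G) h

theorem CycloData.map1_kum_top (h : ∀ g, D.χ g = 1) (a : fixUM G Ω) :
    map1 Compat.id (D.equi_top h) (D.kum a) = (D.kumTop h).kum a := by
  refine congrArg (mk1 L (triv G p)) (Subtype.ext (funext fun g => (D.kumTop h).eps_injective ?_))
  show D.eps (D.kc a g) = (D.kumTop h).eps ((D.kumTop h).kc a g)
  rw [D.eps_kc, (D.kumTop h).eps_kc a (A := D.kroot a.1) (D.nsmul_kroot a.1)]

theorem CycloData.map2_top_cup (h : ∀ g, D.χ g = 1) (x : H1 L (chr D.χ))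
    (y : H1 L (triv G p)) :
    map2 Compat.id (D.equi_top h) ((bil_chr D.χ).cup smooth_triv x y)
      = symb (map1 Compat.id (D.equi_top h) x) y := by
  obtain ⟨a, rfl⟩ := mk1_surjective x
  obtain ⟨b, rfl⟩ := mk1_surjective y
  rfl

theorem CycloData.map2_top_injective (h : ∀ g, D.χ g = 1) :
    Function.Injective (map2 (Compat.id (L := L)) (D.equi_top h)) := by
  refine Function.LeftInverse.injective (g := map2 (Compat.id (L := L))
    (show Equi (MonoidHom.id G) (triv G p) (chr D.χ)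
      (LinearMap.id : ZMod p →ₗ[ZMod p] ZMod p) from fun g v => by
        show v = (D.χ g : ZMod p) * v
        rw [h, Units.val_one, one_mul])) fun z => ?_
  obtain ⟨Z, rfl⟩ := mk2_surjective z
  rfl

variable {ψ : G → ZMod p} (C : CycData L ψ)

include C in
theorem CycloData.twisted_identity (a : fixUM G Ω) (g k : G) :
    D.eps (D.kc a g * ψ k)
      = dM (fun g => (ψ g).val • D.kroot a.1) (g, k) - carry (ψ g) (ψ k) • a.1 := by
  have hA := D.nsmul_kroot a.1
  have hv : D.eps (D.kc a g * ψ k) = (ψ k).val • (g • D.kroot a.1 - D.kroot a.1) := by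
    rw [← D.eps_kc a, ← map_nsmul, nsmul_eq_mul, ZMod.natCast_zmod_val, mul_comm]
  have hc : (ψ g).val + (ψ k).val = (ψ g + ψ k).val + p * carry (ψ g) (ψ k) := by
    rw [ZMod.val_add, carry, Nat.mod_add_div]
  have h2 : ((ψ g).val + (ψ k).val) • D.kroot a.1
      = (ψ g + ψ k).val • D.kroot a.1 + carry (ψ g) (ψ k) • a.1 := by
    rw [hc, add_smul, mul_comm, mul_smul, hA]
  simp only [dM_apply, C.hom, hv, smul_sub, smul_comm g]
  rw [add_smul] at h2
  linear_combination (norm := abel) -h2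

theorem CycloData.mk2_eq_zero_of_split (z : ↥(Z2 L (chr D.χ))) {e : G → UM Ω} (he : LC₁ L e)
    (h : ∀ g k, D.eps (z.1 (g, k)) = dM e (g, k)) : mk2 L (chr D.χ) z = 0 := by
  obtain ⟨w, hw⟩ := D.gal.hilbert90 (e := fun g => p • e g) (he.comp (p • ·)) fun g k => by
    have := congrArg (p • ·) (h g k)
    simp only [D.nsmul_eps, dM_apply, smul_add, smul_sub, smul_comm p g] at this
    linear_combination (norm := abel) this
  obtain ⟨W, hW⟩ := D.exists_root w
  have hp' : ∀ g, ∃ i, D.eps i = e g - (g • W - W) := fun g => D.exists_eps (by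
    rw [smul_sub, smul_sub, smul_comm, hW, hw, sub_self])
  choose c hc using hp'
  refine (mk2_eq_zero L (chr D.χ) z).2 ⟨c, ?_, funext fun ⟨g, k⟩ => D.eps_injective ?_⟩
  · obtain ⟨N, hN, hs⟩ := he
    obtain ⟨N', hN', hs'⟩ := D.gal.smoothAct W
    refine ⟨N ⊓ N', L.inf_mem hN hN', fun g s hs'' => D.eps_injective ?_⟩
    rw [hc, hc, hs g s hs''.1, mul_smul, hs' s hs''.2]
  · rw [h, d1_apply, chr_apply, map_add, map_sub, ← D.smul_eps, hc, hc, hc]
    show _ = dM e (g, k)
    rw [dM_apply, smul_sub, smul_sub, mul_smul]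
    abel

include C in
/-- A class split on the kernel of a character is the product of a Kummer class and the
character. -/
theorem CycloData.exists_cup_of_res (z : ↥(Z2 L (chr D.χ))) {b : G → ZMod p} (hb : LC₁ L b)
    (hzb : ∀ n m, ψ n = 0 → ψ m = 0 → z.1 (n, m) = d1 (chr D.χ) b (n, m)) :
    ∃ a : fixUM G Ω,
      mk2 L (chr D.χ) z = (bil_chr D.χ).cup smooth_triv (D.kum a) C.cls := by
  obtain ⟨e, a, he, ha, hdec⟩ := C.exists_carry D.gal.smoothAct (D.gal.h90 C)
    (z := fun x => D.eps (z.1 x))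
    (fun g h j => by
      have := congrArg D.eps (z.2.2 g h j)
      simp only [map_add, chr_apply] at this
      rw [D.smul_eps]
      exact this.symm)
    (z.2.1.comp D.eps) (b := fun g => D.eps (b g)) (hb.comp D.eps) fun n m hn hm => by
      rw [hzb n m hn hm, d1_apply, dM_apply, D.smul_eps, chr_apply, map_add, map_sub]
  let a' : fixUM G Ω := -⟨a, ha⟩
  have hC : LC₁ L (fun g => (ψ g).val • D.kroot a'.1) := C.lc.comp fun i => i.val • D.kroot a'.1
  refine ⟨a', ?_⟩
  rw [CycloData.kum, Bil.cup_mk1, ← sub_eq_zero, ← map_sub]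
  refine D.mk2_eq_zero_of_split _ (he.map₂ hC (· - ·)) fun g k => ?_
  show D.eps (z.1 (g, k) - D.kc a' g * ψ k) = _
  rw [map_sub, hdec, D.twisted_identity C, show a'.1 = -a from rfl, smul_neg]
  simp only [dM_apply, smul_sub]
  abel

end Generic

/-! ### Localisation -/

variable {p : ℕ} [hp : Fact p.Prime]

/-- A rational element in the local field. -/
def locUnit (q : ℕ) [Fact q.Prime] :
    fixUM GQ (AlgebraicClosure ℚ) →+ fixUM (LG q) (PadicAlgCl q) :=
  AddMonoidHom.mk' (fun a => ⟨UM.mk (padicEmbedding q a.1.val)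
      ((_root_.map_ne_zero _).2 a.1.val_ne_zero), fun τ => UM.ext (by
        show τ (padicEmbedding q a.1.val) = padicEmbedding q a.1.val
        rw [← iota_loc]
        exact congrArg _ (congrArg UM.val (a.2 (loc q τ))))⟩)
    fun a b => Subtype.ext (UM.ext (by
      rw [UM.val_mk, AddSubgroup.coe_add, AddSubgroup.coe_add, UM.val_add, map_mul, UM.val_add]
      rfl))

theorem val_locUnit (q : ℕ) [Fact q.Prime] (a : fixUM GQ (AlgebraicClosure ℚ)) :
    (locUnit q a).1.val = padicEmbedding q a.1.val := rfl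

theorem equi_loc_chr (q : ℕ) [Fact q.Prime] :
    Equi (loc q) (chr (cycQ p).χ) (chr (cycL p q).χ)
      (LinearMap.id : ZMod p →ₗ[ZMod p] ZMod p) := fun _ _ => rfl

theorem map1_loc_kum (q : ℕ) [Fact q.Prime] (a : fixUM GQ (AlgebraicClosure ℚ)) :
    map1 compat_loc (equi_loc_chr q) ((cycQ p).kum a) = (cycL p q).kum (locUnit q a) := by
  symm
  let A : UM (PadicAlgCl q) := UM.mk (padicEmbedding q ((cycQ p).kroot a.1).val)
    ((_root_.map_ne_zero _).2 ((cycQ p).kroot a.1).val_ne_zero)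
  refine (cycL p q).kum_eq _ (A := A) (UM.ext ?_) _ fun τ => UM.ext ?_
  · rw [UM.val_nsmul, UM.val_mk, ← map_pow, val_locUnit, ← UM.val_nsmul, (cycQ p).nsmul_kroot]
  · rw [(cycL p q).eps_val, UM.val_sub, UM.val_smul, UM.val_mk]
    show padicEmbedding q (zetaQ p) ^ ((cycQ p).kc a (loc q τ)).val
      = τ (padicEmbedding q _) / padicEmbedding q _
    rw [← iota_loc, ← map_pow, ← map_div₀]
    congr 1
    show (cycQ p).ζ ^ _ = _
    rw [← (cycQ p).eps_val, (cycQ p).eps_kc, UM.val_sub, UM.val_smul]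
    rfl

end FA.GalCoh
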