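import Fermat.Agent.GalCoh.Cyclic
import Fermat.Agent.GalCoh.Coind

/-!
The multiplicative group of a field with a group action, as a module, and Hilbert's Theorem 90 for
smooth actions.
-/

set_option autoImplicit false
set_option linter.unusedSectionVars false

noncomputable section

namespace FA.GalCoh

/-- The multiplicative group of a field, written additively. -/
def UM (Ω : Type) [Field Ω] : Type := Additive Ωˣ

variable {Ω : Type} [Field Ω]

instance : AddCommGroup (UM Ω) := inferInstanceAs (AddCommGroup (Additive Ωˣ))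

namespace UM

/-- The underlying field element. -/
def val (m : UM Ω) : Ω := ((Additive.toMul (α := Ωˣ) m : Ωˣ) : Ω)

/-- The element given by a nonzero field element. -/
def mk (x : Ω) (h : x ≠ 0) : UM Ω := Additive.ofMul (Units.mk0 x h)

@[simp] theorem val_mk (x : Ω) (h : x ≠ 0) : (mk x h).val = x := rfl

theorem val_ne_zero (m : UM Ω) : m.val ≠ 0 := Units.ne_zero _

theorem ext {m m' : UM Ω} (h : m.val = m'.val) : m = m' :=
  Additive.toMul.injective (Units.ext h)

@[simp] theorem val_zero : (0 : UM Ω).val = 1 := rfl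

@[simp] theorem val_add (m m' : UM Ω) : (m + m').val = m.val * m'.val := Units.val_mul _ _

@[simp] theorem val_neg (m : UM Ω) : (-m).val = (m.val)⁻¹ := Units.val_inv_eq_inv_val _

@[simp] theorem val_sub (m m' : UM Ω) : (m - m').val = m.val / m'.val := by
  rw [sub_eq_add_neg, val_add, val_neg, div_eq_mul_inv]

@[simp] theorem val_nsmul (n : ℕ) (m : UM Ω) : (n • m).val = m.val ^ n := by
  induction n with
  | zero => simp
  | succ n ih => rw [succ_nsmul, val_add, ih, pow_succ]

theorem val_sum {ι : Type} (s : Finset ι) (f : ι → UM Ω) :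
    (∑ i ∈ s, f i).val = ∏ i ∈ s, (f i).val := by
  classical
  induction s using Finset.induction_on with
  | empty => simp
  | @insert i s hi ih => rw [Finset.sum_insert hi, Finset.prod_insert hi, val_add, ih]

variable {G : Type} [Group G] [MulSemiringAction G Ω]

instance : DistribMulAction G (UM Ω) where
  smul g m := mk (g • m.val) (smul_ne_zero_iff_ne g |>.2 m.val_ne_zero)
  one_smul m := ext (one_smul G m.val)
  mul_smul g g' m := ext (mul_smul g g' m.val)
  smul_zero g := ext (smul_one g)
  smul_add g m m' := ext (by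
    show g • (m + m').val = (g • m.val) * (g • m'.val)
    rw [val_add, smul_mul'])

@[simp] theorem val_smul (g : G) (m : UM Ω) : (g • m).val = g • m.val := rfl

end UM

variable {G : Type} [Group G] [MulSemiringAction G Ω]

/-- A smooth action on a field for which levels are cofinally fixing subgroups of fixed fields. -/
structure GalAct (L : Levels G) (Ω : Type) [Field Ω] [MulSemiringAction G Ω] : Prop where
  smooth : ∀ x : Ω, ∃ N ∈ L.carrier, ∀ s ∈ N, s • x = x
  closed : ∀ N ∈ L.carrier, ∃ M ∈ L.carrier, M ≤ N ∧ M.Normal ∧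
    ∀ g : G, (∀ x : Ω, (∀ s ∈ M, s • x = x) → g • x = x) → g ∈ M

namespace GalAct

variable {L : Levels G} (hΩ : GalAct L Ω)
include hΩ

theorem smoothAct : SmoothAct L (UM Ω) := fun m => by
  obtain ⟨N, hN, h⟩ := hΩ.smooth m.val
  exact ⟨N, hN, fun s hs => UM.ext (h s hs)⟩

theorem sub (H : Subgroup G) : GalAct (L.sub H) Ω where
  smooth x := by
    obtain ⟨N, hN, h⟩ := hΩ.smooth x
    exact ⟨N.subgroupOf H, ⟨N, hN, rfl⟩, fun s hs => h s.1 hs⟩
  closed := by
    rintro _ ⟨N, hN, rfl⟩
    obtain ⟨M, hM, hle, hn, hcl⟩ := hΩ.closed N hN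
    refine ⟨M.subgroupOf H, ⟨M, hM, rfl⟩, Subgroup.comap_mono hle, hn.comap _, fun g hg => ?_⟩
    exact hcl g.1 fun x hx => hg x fun s hs => hx s.1 hs

/-- Hilbert's Theorem 90. -/
theorem hilbert90 {e : G → UM Ω} (he : LC₁ L e) (hc : ∀ g h, e (g * h) = g • e h + e g) :
    ∃ w : UM Ω, ∀ g, e g = g • w - w := by
  classical
  obtain ⟨N, hN, hs⟩ := he
  obtain ⟨M, hM, hle, hn, hcl⟩ := hΩ.closed N hN
  have := L.finiteIndex hM
  have : Fintype (G ⧸ M) := Fintype.ofFinite _
  have hs' : ∀ g s, s ∈ M → e (g * s) = e g := fun g s h => hs g s (hle h)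
  let F := FixedPoints.subfield M Ω
  let φ : G ⧸ M → (F →* Ω) := fun q =>
    { toFun := fun x => q.out • (x : Ω)
      map_one' := smul_one _
      map_mul' := fun x y => smul_mul' _ _ _ }
  have hinj : Function.Injective φ := fun q q' h => by
    rw [← q.out_eq', ← q'.out_eq', QuotientGroup.eq]
    refine hcl _ fun x hx => ?_
    have h' := DFunLike.congr_fun h ⟨x, fun s => hx s.1 s.2⟩
    rw [mul_smul, inv_smul_eq_iff]
    exact h'.symm
  have hli := (linearIndependent_monoidHom F Ω).comp φ hinj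
  obtain ⟨x, hx⟩ : ∃ x : F, ∑ q, (e q.out).val * φ q x ≠ 0 := by
    by_contra! h
    refine (e ((1 : G) : G ⧸ M).out).val_ne_zero
      (Fintype.linearIndependent_iff.1 hli (fun q => (e q.out).val) (funext fun x => ?_) _)
    simpa [Finset.sum_apply] using h x
  refine ⟨-UM.mk _ hx, fun g => UM.ext ?_⟩
  set w₀ := ∑ q, (e q.out).val * φ q x with hw₀
  have hmove : ∀ q : G ⧸ M, (g • q).out • (x : Ω) = g • q.out • (x : Ω) ∧
      e (g • q).out = g • e q.out + e g := fun q => by
    obtain ⟨s, hs''⟩ := QuotientGroup.mk_out_eq_mul M (g * q.out)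
    have hq : (g • q) = ((g * q.out : G) : G ⧸ M) := by
      conv_lhs => rw [← q.out_eq']
      rfl
    rw [hq, hs'', hs' _ _ s.2, hc, mul_smul, mul_smul]
    refine ⟨?_, rfl⟩
    congr 2
    exact x.2 s
  have key : g • w₀ = w₀ / (e g).val := by
    rw [eq_div_iff (e g).val_ne_zero, hw₀, Finset.smul_sum, Finset.sum_mul]
    refine Fintype.sum_equiv (MulAction.toPerm g) _ _ fun q => ?_
    show g • ((e q.out).val * q.out • (x : Ω)) * (e g).val
      = (e (g • q).out).val * (g • q).out • (x : Ω)
    rw [(hmove q).1, (hmove q).2, UM.val_add, UM.val_smul, smul_mul']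
    ring
  simp only [UM.val_sub, UM.val_smul, UM.val_neg, UM.val_mk, smul_inv'', ← hw₀]
  rw [key]
  field_simp [hx, (e g).val_ne_zero]

end GalAct

/-- The kernel of a character with values in an additive group. -/
def CycData.ker {p : ℕ} [Fact p.Prime] {L : Levels G} {χ : G → ZMod p} (C : CycData L χ) :
    Subgroup G where
  carrier := {g | χ g = 0}
  one_mem' := C.map_one
  mul_mem' {g g'} h h' := by
    show χ (g * g') = 0
    rw [C.hom, show χ g = 0 from h, show χ g' = 0 from h', add_zero]
  inv_mem' {g} h := by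
    show χ g⁻¹ = 0
    rw [C.map_inv, show χ g = 0 from h, neg_zero]

theorem GalAct.h90 {L : Levels G} (hΩ : GalAct L Ω) {p : ℕ} [Fact p.Prime] {χ : G → ZMod p}
    (C : CycData L χ) (e : G → UM Ω) (he : LC₁ L e)
    (hc : ∀ n m, χ n = 0 → χ m = 0 → e (n * m) = n • e m + e n) :
    ∃ w : UM Ω, ∀ n, χ n = 0 → e n = n • w - w := by
  obtain ⟨w, hw⟩ := (hΩ.sub C.ker).hilbert90 (e := fun n : C.ker => e n)
    (he.precomp (L.sub_compat C.ker)) fun n m => hc n m n.2 m.2
  exact ⟨w, fun n hn => hw ⟨n, hn⟩⟩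

end FA.GalCoh
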