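import Fermat.Agent.GalCoh.Localise

/-!
The index of the norms in the units outside a large set of places, for a cyclic extension of prime
degree of a totally imaginary field containing the roots of unity.
-/

set_option autoImplicit false
set_option linter.unusedSectionVars false

noncomputable section

namespace FA.GalCoh

open IntermediateField

/-- A set of primes outside which every place has an adapted uniformiser. -/
def Adapted (H : Subgroup GQ) (S : Finset Nat.Primes) : Prop :=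
  ∀ v : Place H, v.1 ∉ S → ∃ y ∈ fixedField H, y ≠ 0 ∧
    v.absv y = ‖((v.1 : ℕ) : PadicAlgCl v.1)‖ ∧
      ∀ w : Place H, w.1 ∉ S → w ≠ v → w.absv y = 1

theorem Adapted.mono {H : Subgroup GQ} {S S' : Finset Nat.Primes} (h : Adapted H S) (hS : S ⊆ S') :
    Adapted H S' := fun v hv => by
  obtain ⟨y, hy, hy0, hv', hw⟩ := h v fun h' => hv (hS h')
  exact ⟨y, hy, hy0, hv', fun w hw' => hw w fun h' => hw' (hS h')⟩

variable {H : Subgroup GQ} {p : ℕ} [hp : Fact p.Prime] {χ : H → ZMod p}
variable (C : CycData (LQ.sub H) χ) (T : Finset (Place H))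

theorem smul_mem_fixUM_extSub (g : H) {x : UM (AlgebraicClosure ℚ)}
    (hx : x ∈ fixUM (extSub C) (AlgebraicClosure ℚ)) :
    g • x ∈ fixUM (extSub C) (AlgebraicClosure ℚ) := fun s => by
  obtain ⟨hsH, hs⟩ := (mem_extSub C).1 s.2
  have hmem : ((g⁻¹ * ⟨s, hsH⟩ * g : H) : GQ) ∈ extSub C := (mem_extSub C).2 ⟨SetLike.coe_mem _, by
    show χ (g⁻¹ * ⟨s, hsH⟩ * g) = 0
    rw [C.hom, C.hom, C.map_inv, hs, add_zero, neg_add_cancel]⟩
  have h := hx ⟨_, hmem⟩
  show (⟨s, hsH⟩ : H) • g • x = g • x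
  conv_rhs => rw [← h]
  show _ = g • ((g⁻¹ * ⟨s, hsH⟩ * g : H) • x)
  rw [smul_smul, smul_smul, mul_assoc, mul_inv_cancel_left]

theorem eq_of_fixed_extSub {x : UM (AlgebraicClosure ℚ)}
    (hx : x ∈ fixUM (extSub C) (AlgebraicClosure ℚ)) (hσ : C.σ • x = x) :
    x ∈ fixUM H (AlgebraicClosure ℚ) := fun g => by
  have h0 : χ ((C.σ ^ (χ g).val)⁻¹ * g) = 0 := C.rep_inv_mul g
  have h := hx ⟨(((C.σ ^ (χ g).val)⁻¹ * g : H) : GQ), (mem_extSub C).2 ⟨SetLike.coe_mem _, h0⟩⟩
  have hpow : ∀ n : ℕ, (C.σ ^ n) • x = x := fun n => by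
    induction n with
    | zero => rw [pow_zero, one_smul]
    | succ n ih => rw [pow_succ, mul_smul, hσ, ih]
  conv_rhs => rw [← hpow (χ g).val, ← h]
  show g • x = (C.σ ^ (χ g).val) • (((C.σ ^ (χ g).val)⁻¹ * g : H) • x)
  rw [smul_smul, mul_inv_cancel_left]

theorem absv_smul_eq_one {a : fixUM (extSub C) (AlgebraicClosure ℚ)}
    (ha : ∀ w, w ∉ placesAbove C T → w.absv a.1.val = 1) {w : Place (extSub C)}
    (hw : w ∉ placesAbove C T) (g : H) : w.absv (g • a.1).val = 1 := by
  have hfix := (mem_fixedField_iff _ _).1 (mem_fixedField_of_fixUM a)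
  show ‖emb w.1 w.rep ((g : GQ) a.1.val)‖ = 1
  rw [← emb_mul, ← absv_placeOf (H := extSub C) _ hfix]
  refine ha _ fun h => hw ((mem_placesAbove C).2 ?_)
  rw [mem_placesAbove, below_placeOf] at h
  have e : placeOf (H := H) w.1 (w.rep * g) = below C w := by
    refine placeOf_eq_iff.2 ⟨1, g, g.2, by rw [map_one, one_mul]⟩
  rwa [e] at h

/-- The units of the extension. -/
abbrev extUnits : AddSubgroup (fixUM (extSub C) (AlgebraicClosure ℚ)) :=
  tUnits (extSub C) (placesAbove C T)

/-- The generator acting on the units. -/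
def sigmaU : ↥(extUnits C T) →ₗ[ℤ] extUnits C T :=
  let g : ↥(extUnits C T) → extUnits C T := fun a =>
    ⟨⟨C.σ • a.1.1, smul_mem_fixUM_extSub C C.σ a.1.2⟩,
      fun _ hw => absv_smul_eq_one C T a.2 hw C.σ⟩
  let f : ↥(extUnits C T) →+ extUnits C T :=
    AddMonoidHom.mk' g fun a b => Subtype.ext (Subtype.ext (by
      show C.σ • (a + b).1.1 = C.σ • a.1.1 + C.σ • b.1.1
      rw [AddSubgroup.coe_add, AddSubgroup.coe_add, smul_add]))
  f.toIntLinearMap

theorem sigmaU_apply (a : extUnits C T) : (sigmaU C T a).1.1 = C.σ • a.1.1 := rfl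

theorem sigmaU_pow_apply (i : ℕ) (a : extUnits C T) :
    ((sigmaU C T ^ i) a).1.1 = (C.σ ^ i) • a.1.1 := by
  induction i generalizing a with
  | zero => rw [pow_zero, pow_zero, one_smul]; rfl
  | succ i ih => rw [pow_succ, Module.End.mul_apply, ih, sigmaU_apply, pow_succ, mul_smul]

theorem sigmaU_pow_prime : sigmaU C T ^ p = 1 := by
  refine LinearMap.ext fun a => Subtype.ext (Subtype.ext ?_)
  rw [sigmaU_pow_apply, Module.End.one_apply]
  exact a.1.2 ⟨((C.σ ^ p : H) : GQ), (mem_extSub C).2 ⟨SetLike.coe_mem _, by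
    show χ (C.σ ^ p) = 0
    rw [C.map_pow_σ, ZMod.natCast_self]⟩⟩

theorem nEnd_sigmaU_apply (a : extUnits C T) :
    ((nEnd (sigmaU C T) p) a).1.1 = ∑ i ∈ Finset.range p, (C.σ ^ i) • a.1.1 := by
  rw [nEnd, LinearMap.sum_apply]
  simp only [AddSubgroup.val_finsetSum, sigmaU_pow_apply]

/-- The units of the ground field inside those of the extension. -/
def inclU : ↥(tUnits H T) →+ extUnits C T :=
  AddMonoidHom.mk' (fun a => ⟨⟨a.1.1, fun s => a.1.2 ⟨s.1, extSub_le C s.2⟩⟩, fun w hw => by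
      obtain ⟨i, hi⟩ := exists_lift C w
      rw [hi, absv_lift C _ _ (mem_fixedField_of_fixUM a.1)]
      exact a.2 _ fun h => hw ((mem_placesAbove C).2 h)⟩)
    fun _ _ => rfl

theorem inclU_injective : Function.Injective (inclU C T) := fun _ _ h =>
  Subtype.ext (Subtype.ext (congrArg (fun z : extUnits C T => z.1.1) h))

theorem range_inclU :
    (inclU C T).range = (LinearMap.ker (sigmaU C T - 1)).toAddSubgroup := by
  ext a
  rw [Submodule.mem_toAddSubgroup, LinearMap.mem_ker, LinearMap.sub_apply, Module.End.one_apply,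
    sub_eq_zero]
  constructor
  · rintro ⟨b, rfl⟩
    exact Subtype.ext (Subtype.ext (b.1.2 C.σ))
  · intro h
    have hx := eq_of_fixed_extSub C a.1.2 (congrArg (fun z : extUnits C T => z.1.1) h)
    refine ⟨⟨⟨a.1.1, hx⟩, fun v hv => ?_⟩, rfl⟩
    rw [← absv_lift C v 0 (mem_fixedField_of_fixUM ⟨a.1.1, hx⟩)]
    exact a.2 _ fun h' => hv (by rwa [mem_placesAbove, below_lift] at h')

variable {T}

theorem finrank_ker_sigmaU (hH : H ∈ LQ.carrier) :
    Module.finrank ℤ (LinearMap.ker (sigmaU C T - 1)) = Module.finrank ℤ (tUnits H T) := by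
  have := finite_tUnits hH T
  let e : ↥(tUnits H T) ≃+ (inclU C T).range :=
    AddMonoidHom.ofInjective (inclU_injective C T)
  have h := e.toIntLinearEquiv.finrank_eq
  rw [h]
  exact (AddEquiv.addSubgroupCongr (range_inclU C T)).toIntLinearEquiv.finrank_eq.symm

variable (K : KumData (LQ.sub H) (AlgebraicClosure ℚ) p)

include K in
/-- The first cohomology of the units of the extension vanishes. -/
theorem ker_nEnd_le (hH : H ∈ LQ.carrier) {S : Finset Nat.Primes} (hgood : Good (extSub C) S)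
    (had : Adapted H S) (hST : placesOver hH S ⊆ T) :
    LinearMap.ker (nEnd (sigmaU C T) p) ≤ LinearMap.range (sigmaU C T - 1) := by
  classical
  intro u hu
  have hu0 : ∑ i ∈ Finset.range p, (C.σ ^ i) • u.1.1 = 0 := by
    rw [← nEnd_sigmaU_apply, LinearMap.mem_ker.1 hu]; rfl
  obtain ⟨e, he, heσ, he0, hde⟩ := C.carry_split_of_norm (x := u.1.1) (fun n hn =>
    u.1.2 ⟨(n : GQ), (mem_extSub C).2 ⟨n.2, hn⟩⟩)
  obtain ⟨x, hxe⟩ := K.gal.hilbert90 he fun g h => by
    have h' := hde g h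
    rw [hu0, smul_zero, dM_apply] at h'
    linear_combination (norm := abel) -h'
  have hxfix : x ∈ fixUM (extSub C) (AlgebraicClosure ℚ) := fun s => by
    obtain ⟨hsH, hs⟩ := (mem_extSub C).1 s.2
    have h := hxe ⟨s, hsH⟩
    rw [he0 _ hs] at h
    exact sub_eq_zero.1 h.symm
  have hσx : C.σ • x - x = u.1.1 := by rw [← hxe, heσ]
  -- the exponents outside `T`
  have hvS : ∀ v : Place H, v ∉ T → v.1 ∉ S := fun v hv h => hv (hST ((mem_placesOver hH).2 h))
  have hbelow : ∀ w : Place (extSub C), (below C w).1 = w.1 := fun w => rfl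
  have hexp : ∀ v : Place H, v ∉ T → ∃ m : ℤ, ∀ i,
      (lift C v i).absv x.val = ‖((v.1 : ℕ) : PadicAlgCl v.1)‖ ^ m := by
    intro v hv
    obtain ⟨m, hm⟩ := hgood v.1 (hvS v hv) (v.rep * ((C.σ ^ (0 : ZMod p).val : H) : GQ)) x.val
      (mem_fixedField_of_fixUM ⟨x, hxfix⟩) x.val_ne_zero
    refine ⟨m, fun i => ?_⟩
    have hstep : ∀ n : ℕ, ‖emb v.1 (v.rep * ((C.σ ^ n : H) : GQ)) x.val‖
        = ‖emb v.1 (v.rep * ((C.σ ^ 0 : H) : GQ)) x.val‖ := fun n => by
      induction n with
      | zero => rfl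
      | succ n ih =>
        rw [← ih, pow_succ, Subgroup.coe_mul, ← mul_assoc, emb_mul]
        have hx' : ((C.σ : H) : GQ) x.val = u.1.1.val * x.val := by
          have := congrArg UM.val hσx
          rw [UM.val_sub, div_eq_iff (UM.val_ne_zero x)] at this
          exact this
        have hu1 : ‖emb v.1 (v.rep * ((C.σ ^ n : H) : GQ)) u.1.1.val‖ = 1 := by
          rw [← absv_placeOf (H := extSub C) _ ((mem_fixedField_iff _ _).1
            (mem_fixedField_of_fixUM u.1))]
          refine u.2 _ fun h => hv ?_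
          rw [mem_placesAbove, below_placeOf] at h
          have e' : placeOf (H := H) v.1 (v.rep * ((C.σ ^ n : H) : GQ)) = v := by
            conv_rhs => rw [← placeOf_rep v]
            exact placeOf_eq_iff.2 ⟨1, _, (C.σ ^ n : H).2, by rw [map_one, one_mul]⟩
          rwa [e'] at h
        rw [hx', map_mul, norm_mul, hu1, one_mul]
    rw [ZMod.val_zero] at hm
    rw [← hm, lift, absv_placeOf _ ((mem_fixedField_iff _ _).1
      (mem_fixedField_of_fixUM ⟨x, hxfix⟩))]
    exact hstep _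
  choose! m hm using hexp
  obtain ⟨T₁, hT₁⟩ := exists_finset_support (extSub_mem C hH) ⟨x, hxfix⟩
  set F := (T₁.image (below C)).filter (· ∉ T) with hF
  choose! y hy hy0 hyv hyw using had
  have hmemF : ∀ v ∈ F, v ∉ T := fun v hv => (Finset.mem_filter.1 hv).2
  let c : fixUM H (AlgebraicClosure ℚ) := ∑ v ∈ F.attach,
    m v.1 • mkFix (hy v.1 (hvS _ (hmemF _ v.2))) (hy0 v.1 (hvS _ (hmemF _ v.2)))
  have hc : ∀ w : Place H, w ∉ T → w.absv c.1.val
      = if w ∈ F then ‖((w.1 : ℕ) : PadicAlgCl w.1)‖ ^ m w else 1 := by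
    intro w hw
    show ‖emb w.1 w.rep _‖ = _
    simp only [c, AddSubgroup.val_finsetSum, UM.val_sum, map_prod, norm_prod]
    have hterm : ∀ v : {v // v ∈ F},
        ‖emb w.1 w.rep (m v.1 • mkFix (hy v.1 (hvS _ (hmemF _ v.2)))
          (hy0 v.1 (hvS _ (hmemF _ v.2)))).1.val‖ = w.absv (y v.1) ^ m v.1 := by
      intro v
      rw [AddSubgroupClass.coe_zsmul]
      rcases Int.eq_nat_or_neg (m v.1) with ⟨k, hk | hk⟩
      · rw [hk, natCast_zsmul, UM.val_nsmul, map_pow, norm_pow, val_mkFix, zpow_natCast]; rfl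
      · rw [hk, neg_zsmul, natCast_zsmul, UM.val_neg, UM.val_nsmul, map_inv₀, map_pow, norm_inv,
          norm_pow, val_mkFix, zpow_neg, zpow_natCast]; rfl
    rw [Finset.prod_congr rfl fun v _ => hterm v, Finset.prod_attach F fun v => w.absv (y v) ^ m v]
    split_ifs with hwF
    · rw [Finset.prod_eq_single w (fun v hv hne => by
        rw [hyw v (hvS _ (hmemF _ hv)) w (hvS w hw) hne.symm, one_zpow]) (fun h => absurd hwF h),
        hyv w (hvS w hw)]
    · refine Finset.prod_eq_one fun v hv => ?_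
      rw [hyw v (hvS _ (hmemF _ hv)) w (hvS w hw) (fun h => hwF (h ▸ hv)), one_zpow]
  let c' : fixUM (extSub C) (AlgebraicClosure ℚ) := ⟨c.1, fun s => c.2 ⟨s.1, extSub_le C s.2⟩⟩
  have hmemU : (⟨x, hxfix⟩ - c' : fixUM (extSub C) (AlgebraicClosure ℚ)) ∈ extUnits C T := by
    intro w hw
    have hb : below C w ∉ T := fun h => hw ((mem_placesAbove C).2 h)
    obtain ⟨i, hi⟩ := exists_lift C w
    show ‖emb w.1 w.rep (x - c.1).val‖ = 1
    rw [UM.val_sub, map_div₀, norm_div, div_eq_one_iff_eq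
      (norm_ne_zero_iff.2 ((_root_.map_ne_zero _).2 (UM.val_ne_zero c.1)))]
    show w.absv x.val = w.absv c.1.val
    by_cases hbF : below C w ∈ F
    · rw [hi, hm _ hb i, absv_lift C _ _ (mem_fixedField_of_fixUM c), hc _ hb, if_pos hbF]
    · rw [hi, absv_lift C _ _ (mem_fixedField_of_fixUM c), hc _ hb, if_neg hbF, ← hi]
      refine hT₁ w fun h => hbF ?_
      exact Finset.mem_filter.2 ⟨Finset.mem_image_of_mem _ h, hb⟩
  refine ⟨⟨_, hmemU⟩, Subtype.ext (Subtype.ext ?_)⟩
  show C.σ • (x - c.1) - (x - c.1) = u.1.1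
  rw [smul_sub, c.2 C.σ, ← hσx]
  abel

include K in
open Classical in
/-- The index of norms in the units outside a large set of places. -/
theorem exists_index_units (hH : H ∈ LQ.carrier) (hT : TC H) {S : Finset Nat.Primes}
    (hgood : Good (extSub C) S) (had : Adapted H S) (hST : placesOver hH S ⊆ T) :
    ∃ N : AddSubgroup (tUnits H T), (∀ a ∈ N, a.1 ∈ K.norms C) ∧
      N.index * p = p ^ (T.filter fun v => ¬ Split C v).card := by
  have hE := extSub_mem C hH
  obtain ⟨r, hr⟩ := two_dvd_index_of_tc hH hT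
  have := finiteDimensional_fixedField hH
  have : NumberField (fixedField H) := { }
  have := isTotallyComplex_of_tc hH hT
  have := finiteDimensional_fixedField hE
  have : NumberField (fixedField (extSub C)) := { }
  have := isTotallyComplex_of_tc hE (hT.mono (extSub_le C))
  have hrE : (extSub C).index = 2 * (p * r) := by rw [index_extSub, hr]; ring
  have := finite_tUnits hE (placesAbove C T)
  obtain ⟨k, hk, hidx⟩ := index_range_nEnd (sigmaU C T) (sigmaU_pow_prime C T)
    (ker_nEnd_le C K hH hgood had hST)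
  set N := (LinearMap.range (nEnd (sigmaU C T) p)).toAddSubgroup.comap (inclU C T) with hN
  refine ⟨N, fun a ha => (K.mem_norms C a.1).2 ?_, ?_⟩
  · obtain ⟨z, hz⟩ := AddSubgroup.mem_comap.1 ha
    refine ⟨z.1.1, fun n hn => z.1.2 ⟨(n : GQ), (mem_extSub C).2 ⟨n.2, hn⟩⟩, ?_⟩
    rw [← nEnd_sigmaU_apply, hz]
    rfl
  · rw [hN, AddSubgroup.index_comap, range_inclU C T]
    rw [finrank_ker_sigmaU C hH] at hk hidx
    have hU := finrank_tUnits hH T hr
    have hM := finrank_tUnits hE (placesAbove C T) hrE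
    have hcard := card_placesAbove C T
    set t := T.card
    set s := (T.filter fun v => ¬ Split C v).card with hs
    have hst : s ≤ t := Finset.card_filter_le _ _
    set a := Module.finrank ℤ (tUnits H T)
    set b := Module.finrank ℤ (extUnits C T)
    set x := (placesAbove C T).card
    set I := (LinearMap.range (nEnd (sigmaU C T) p)).toAddSubgroup.relIndex
      (LinearMap.ker (sigmaU C T - 1)).toAddSubgroup
    obtain ⟨j, hj⟩ : ∃ j, p = j + 1 := ⟨p - 1, by have := hp.out.pos; omega⟩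
    have hj0 : 0 < j := by have := hp.out.two_le; omega
    have hpj : p - 1 = j := by omega
    rw [hpj] at hk hcard
    have hks : k + s = r + t := by
      refine Nat.eq_of_mul_eq_mul_right hj0 ?_
      have e1 : k * j + a + 1 = p * r + x := by rw [hk]; exact hM
      have e2 : p * r + x + j * s = p * r + p * t := by rw [add_assoc, hcard]
      subst hj
      nlinarith
    refine Nat.eq_of_mul_eq_mul_right (pow_pos hp.out.pos k) ?_
    rw [mul_right_comm, hidx, ← pow_succ, ← pow_add, hU, Nat.add_comm s k, hks]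

end FA.GalCoh
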