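import Fermat.Agent.GalCoh.EulerAlg
import Fermat.Agent.GalCoh.FiniteOrder

/-!
The Galois structure of a lattice modulo `p` (Herbrand unit theorem, group of order prime to `p`).
-/

set_option autoImplicit false
set_option linter.unusedSectionVars false

noncomputable section

namespace FA.GalCoh.UnitsModP

open Module EulerAlg

variable {p : ℕ} [hp : Fact p.Prime] {C : Type} [Group C]

section Hom

variable {W : Type} [AddCommGroup W] [Module (ZMod p) W]

/-- Equivariant linear maps. -/
def eqHom (ρW : Representation (ZMod p) C W) {V : Type} [AddCommGroup V] [Module (ZMod p) V]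
    (ρ : Representation (ZMod p) C V) : Submodule (ZMod p) (W →ₗ[ZMod p] V) where
  carrier := {f | ∀ g x, f (ρW g x) = ρ g (f x)}
  add_mem' {f f'} hf hf' g x := by simp [hf g x, hf' g x]
  zero_mem' g x := by simp
  smul_mem' c f hf g x := by simp [hf g x]

theorem mem_eqHom (ρW : Representation (ZMod p) C W) {V : Type} [AddCommGroup V]
    [Module (ZMod p) V] {ρ : Representation (ZMod p) C V} {f : W →ₗ[ZMod p] V} :
    f ∈ eqHom ρW ρ ↔ ∀ g x, f (ρW g x) = ρ g (f x) := Iff.rfl

/-- The dimension of the space of equivariant maps, as an invariant. -/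
def homDim (ρW : Representation (ZMod p) C W) : RepFn (ZMod p) C :=
  fun _ _ _ ρ => (finrank (ZMod p) (eqHom ρW ρ) : ℤ)

theorem isAdditive_homDim [FiniteDimensional (ZMod p) W] [Fintype C] (hC : ¬ p ∣ Nat.card C)
    (ρW : Representation (ZMod p) C W) : IsAdditive (homDim ρW) := by
  intro A B Q _ _ _ _ _ _ _ ρA ρB ρC E
  have : FiniteDimensional (ZMod p) A := FiniteDimensional.of_injective E.i E.inj
  have : FiniteDimensional (ZMod p) Q := Module.Finite.of_surjective E.q E.surj
  let push : eqHom ρW ρB →ₗ[ZMod p] eqHom ρW ρC :=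
    { toFun := fun f => ⟨E.q ∘ₗ f.1, fun g x => by simp [f.2 g x, E.q_equi]⟩
      map_add' := fun f f' => by ext x; simp
      map_smul' := fun c f => by ext x; simp }
  let incl : eqHom ρW ρA →ₗ[ZMod p] eqHom ρW ρB :=
    { toFun := fun f => ⟨E.i ∘ₗ f.1, fun g x => by simp [f.2 g x, E.i_equi]⟩
      map_add' := fun f f' => by ext x; simp
      map_smul' := fun c f => by ext x; simp }
  have hincl : Function.Injective incl := fun f f' h => Subtype.ext (LinearMap.ext fun x =>
    E.inj (LinearMap.congr_fun (congrArg Subtype.val h) x))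
  have hker : LinearMap.range incl = LinearMap.ker push := by
    ext f
    constructor
    · rintro ⟨f, rfl⟩
      exact Subtype.ext (LinearMap.ext fun x => E.q_i _)
    · intro hf
      have hq : ∀ x, E.q (f.1 x) = 0 := fun x =>
        LinearMap.congr_fun (congrArg Subtype.val (LinearMap.mem_ker.1 hf)) x
      refine ⟨⟨E.r ∘ₗ f.1, fun g x => E.inj ?_⟩, Subtype.ext (LinearMap.ext fun x => E.i_r (hq x))⟩
      simp only [LinearMap.comp_apply, E.i_equi, f.2 g x]
      rw [E.i_r (hq x), E.i_r (by rw [E.q_equi, hq, map_zero])]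
  have hsurj : Function.Surjective push := by
    intro f
    let u : ZMod p := (Nat.card C : ZMod p)⁻¹
    have hu : u * (Nat.card C : ZMod p) = 1 :=
      inv_mul_cancel₀ fun h => hC ((ZMod.natCast_eq_zero_iff _ _).1 h)
    let f' : W →ₗ[ZMod p] B := u • ∑ g : C, ρB g ∘ₗ E.s ∘ₗ f.1 ∘ₗ ρW g⁻¹
    refine ⟨⟨f', fun h x => ?_⟩, Subtype.ext (LinearMap.ext fun x => ?_)⟩
    · simp only [f', LinearMap.smul_apply, LinearMap.sum_apply, LinearMap.comp_apply, map_smul,
        map_sum]
      refine congrArg (u • ·) (Fintype.sum_equiv (Equiv.mulLeft h⁻¹) _ _ fun g => ?_)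
      simp only [Equiv.coe_mulLeft, map_mul, mul_inv_rev, inv_inv, Module.End.mul_apply]
      rw [← Module.End.mul_apply (ρB h), ← map_mul, mul_inv_cancel, map_one, Module.End.one_apply]
    · show E.q (f' x) = f.1 x
      have h2 : ∀ g : C, E.q (ρB g (E.s (f.1 (ρW g⁻¹ x)))) = f.1 x := fun g => by
        rw [E.q_equi, E.q_s, ← f.2, ← Module.End.mul_apply, ← map_mul, mul_inv_cancel, map_one,
          Module.End.one_apply]
      simp only [f', LinearMap.smul_apply, LinearMap.sum_apply, LinearMap.comp_apply, map_smul,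
        map_sum, h2, Finset.sum_const, Finset.card_univ, ← Nat.cast_smul_eq_nsmul (ZMod p),
        smul_smul]
      rw [← Nat.card_eq_fintype_card, hu, one_smul]
  have h := LinearMap.finrank_range_add_finrank_ker push
  rw [LinearMap.range_eq_top.2 hsurj, finrank_top, ← hker,
    LinearMap.finrank_range_of_inj hincl] at h
  show (finrank _ (eqHom ρW ρB) : ℤ) = (finrank _ (eqHom ρW ρA) : ℤ) + finrank _ (eqHom ρW ρC)
  rw [← h]
  push_cast
  ring

end Hom

section Torsion

/-- `A` with `π` is a model of `M / p M`. -/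
structure ModelQ {M A : Type} [AddCommGroup M] [DistribMulAction C M] [AddCommGroup A]
    [Module (ZMod p) A] (ρA : Representation (ZMod p) C A) (π : M →+ A) : Prop where
  surj : Function.Surjective π
  ker : ∀ m, π m = 0 ↔ ∃ y : M, p • y = m
  equi : ∀ (g : C) m, π (g • m) = ρA g (π m)

/-- `B` with `ι` is a model of the `p`-torsion of `M`. -/
structure ModelT {M B : Type} [AddCommGroup M] [DistribMulAction C M] [AddCommGroup B]
    [Module (ZMod p) B] (ρB : Representation (ZMod p) C B) (ι : B →+ M) : Prop where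
  inj : Function.Injective ι
  range : ∀ m, (∃ b, ι b = m) ↔ p • m = 0
  equi : ∀ (g : C) b, ι (ρB g b) = g • ι b

theorem sub_invariant_range {A B : Type} [AddCommGroup A] [Module (ZMod p) A] [AddCommGroup B]
    [Module (ZMod p) B] {ρA : Representation (ZMod p) C A} {ρB : Representation (ZMod p) C B}
    (j : B →ₗ[ZMod p] A) (hj : ∀ g b, j (ρB g b) = ρA g (j b)) :
    ∀ g, ∀ a ∈ LinearMap.range j, ρA g a ∈ LinearMap.range j := by
  rintro g _ ⟨b, rfl⟩
  exact ⟨ρB g b, hj g b⟩

variable {φ : RepFn (ZMod p) C}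

/-- For finite modules the two models have the same invariant. -/
theorem eq_of_finite (hφ : IsAdditive φ) (N : ℕ) :
    ∀ (M A B : Type) [AddCommGroup M] [Finite M] [DistribMulAction C M] [AddCommGroup A]
      [Module (ZMod p) A] [AddCommGroup B] [Module (ZMod p) B]
      (ρA : Representation (ZMod p) C A) (π : M →+ A) (ρB : Representation (ZMod p) C B)
      (ι : B →+ M), Nat.card M = N → ModelQ ρA π → ModelT ρB ι → φ A ρA = φ B ρB := by
  induction N using Nat.strong_induction_on with
  | _ N ih =>
    intro M A B _ _ _ _ _ _ _ ρA π ρB ι hN hQ hT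
    have : Finite A := Finite.of_surjective π hQ.surj
    have : Finite B := Finite.of_injective ι hT.inj
    have : FiniteDimensional (ZMod p) A := Module.Finite.of_finite
    have : FiniteDimensional (ZMod p) B := Module.Finite.of_finite
    let M' : AddSubgroup M := (nsmulAddMonoidHom (α := M) p).range
    by_cases htop : M' = ⊤
    · have hs : Function.Surjective (fun m : M => p • m) := fun m => by
        have : m ∈ M' := htop ▸ AddSubgroup.mem_top m
        exact this
      have : Subsingleton A := ⟨fun a a' => by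
        obtain ⟨m, rfl⟩ := hQ.surj a
        obtain ⟨m', rfl⟩ := hQ.surj a'
        rw [(hQ.ker m).2 (hs m), (hQ.ker m').2 (hs m')]⟩
      have : Subsingleton B := ⟨fun b b' => hT.inj
        ((Finite.injective_iff_surjective.2 hs)
          (((hT.range _).1 ⟨b, rfl⟩).trans ((hT.range _).1 ⟨b', rfl⟩).symm))⟩
      rw [hφ.subsingleton, hφ.subsingleton]
    have hM' : ∀ (g : C) (m : M), m ∈ M' → g • m ∈ M' := by
      rintro g _ ⟨y, rfl⟩
      exact ⟨g • y, smul_comm p g y⟩
    letI : DistribMulAction C M' :=
      { smul := fun g m => ⟨g • (m : M), hM' g m m.2⟩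
        one_smul := fun m => Subtype.ext (one_smul C (m : M))
        mul_smul := fun g h m => Subtype.ext (mul_smul g h (m : M))
        smul_zero := fun g => Subtype.ext (smul_zero g)
        smul_add := fun g m m' => Subtype.ext (smul_add g (m : M) (m' : M)) }
    have hlt : Nat.card M' < N := by
      rw [← hN]
      refine lt_of_le_of_ne (Nat.card_le_card_of_injective _ Subtype.val_injective) fun h => htop ?_
      exact AddSubgroup.eq_top_of_card_eq M' h
    let j : B →ₗ[ZMod p] A := (π.comp ι).toZModLinearMap p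
    have hj : ∀ g b, j (ρB g b) = ρA g (j b) := fun g b => by
      show π (ι (ρB g b)) = ρA g (π (ι b))
      rw [hT.equi, hQ.equi]
    have hK : ∀ g, ∀ b ∈ LinearMap.ker j, ρB g b ∈ LinearMap.ker j := fun g b hb => by
      rw [LinearMap.mem_ker, hj, LinearMap.mem_ker.1 hb, map_zero]
    let R := LinearMap.range j
    have hR := sub_invariant_range j hj
    let ρK := subRep ρB (LinearMap.ker j) hK
    let ρQ := quotRep ρA R hR
    let ι' : LinearMap.ker j →+ M' :=
      AddMonoidHom.mk' (fun b => ⟨ι b.1, (hQ.ker (ι b.1)).1 (LinearMap.mem_ker.1 b.2)⟩)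
        fun b b' => Subtype.ext (map_add ι b.1 b'.1)
    have hcon : ∀ m : M, p • m = 0 → π m ∈ R := fun m hm => by
      obtain ⟨b, rfl⟩ := (hT.range m).2 hm
      exact ⟨b, rfl⟩
    let pre : M' → M := fun m => m.2.choose
    have hpre : ∀ m : M', p • pre m = (m : M) := fun m => m.2.choose_spec
    have hwell : ∀ (m : M') (y : M), p • y = (m : M) →
        Submodule.Quotient.mk (π (pre m)) = (Submodule.Quotient.mk (π y) : A ⧸ R) := by
      intro m y hy
      rw [Submodule.Quotient.eq, ← map_sub]
      exact hcon _ (by rw [nsmul_sub, hpre, hy, sub_self])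
    let π' : M' →+ A ⧸ R :=
      AddMonoidHom.mk' (fun m => Submodule.Quotient.mk (π (pre m))) fun m m' => by
        rw [hwell (m + m') (pre m + pre m') (by rw [nsmul_add, hpre, hpre]; rfl), map_add,
          Submodule.Quotient.mk_add]
    have hQ' : ModelQ ρQ π' := by
      refine ⟨fun a => ?_, fun m => ?_, fun g m => ?_⟩
      · obtain ⟨a, rfl⟩ := R.mkQ_surjective a
        obtain ⟨y, rfl⟩ := hQ.surj a
        exact ⟨⟨p • y, y, rfl⟩, hwell _ y rfl⟩
      · constructor
        · intro h
          obtain ⟨b, hb⟩ := (Submodule.Quotient.mk_eq_zero R).1 h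
          have hb' : π (pre m - ι b) = 0 := by
            rw [map_sub, show π (ι b) = π (pre m) from hb, sub_self]
          obtain ⟨y, hy⟩ := (hQ.ker _).1 hb'
          refine ⟨⟨p • y, y, rfl⟩, Subtype.ext ?_⟩
          show p • (p • y) = (m : M)
          rw [hy, nsmul_sub, (hT.range _).1 ⟨b, rfl⟩, sub_zero, hpre]
        · rintro ⟨y, rfl⟩
          show Submodule.Quotient.mk (π (pre (p • y))) = 0
          rw [hwell (p • y) (y : M) (by simp), Submodule.Quotient.mk_eq_zero,
            (hQ.ker (y : M)).2 ⟨pre y, hpre y⟩]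
          exact R.zero_mem
      · show Submodule.Quotient.mk (π (pre (g • m))) = ρQ g (Submodule.Quotient.mk (π (pre m)))
        rw [hwell (g • m) (g • pre m) (by rw [smul_comm, hpre]; rfl), hQ.equi]
        rfl
    have hT' : ModelT ρK ι' := by
      refine ⟨fun b b' h => Subtype.ext (hT.inj (congrArg Subtype.val h)), fun m => ?_,
        fun g b => Subtype.ext (hT.equi g b.1)⟩
      constructor
      · rintro ⟨b, rfl⟩
        exact Subtype.ext ((hT.range _).1 ⟨b.1, rfl⟩)
      · intro hm
        obtain ⟨b, hb⟩ := (hT.range (m : M)).2 (congrArg Subtype.val hm)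
        refine ⟨⟨b, ?_⟩, Subtype.ext hb⟩
        show π (ι b) = 0
        rw [hb]
        exact (hQ.ker _).2 m.2
    have hIH : φ (A ⧸ R) ρQ = φ (LinearMap.ker j) ρK :=
      ih _ hlt M' (A ⧸ R) (LinearMap.ker j) ρQ π' ρK ι' rfl hQ' hT'
    have hmid : φ (B ⧸ LinearMap.ker j) (quotRep ρB _ hK) = φ R (subRep ρA R hR) := by
      refine hφ.congr _ _ j.quotKerEquivRange fun g x => ?_
      obtain ⟨b, rfl⟩ := Submodule.mkQ_surjective _ x
      exact Subtype.ext (hj g b)
    rw [hφ _ _ _ _ _ _ (sesSub ρA R hR), hφ _ _ _ _ _ _ (sesSub ρB _ hK), hmid, hIH]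
    exact add_comm _ _

end Torsion

section Trace

/-- The trace of the sum of the powers is `n` times the rank of the fixed module. -/
theorem trace_sum_pow {R V : Type} [CommRing R] [IsDomain R] [AddCommGroup V] [Module R V]
    [Module.Free R V] [Module.Finite R V] {n : ℕ} (h : Module.End R V) (hn : h ^ n = 1)
    [Module.Free R (LinearMap.ker (h - 1))] [Module.Finite R (LinearMap.ker (h - 1))] :
    LinearMap.trace R V (∑ j ∈ Finset.range n, h ^ j) =
      (n * finrank R (LinearMap.ker (h - 1)) : ℕ) := by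
  set S := ∑ j ∈ Finset.range n, h ^ j
  have hS : ∀ v, S v ∈ LinearMap.ker (h - 1) := by
    intro v
    rw [LinearMap.mem_ker, ← Module.End.mul_apply]
    have : (h - 1) * S = 0 := by
      rw [show S = ∑ j ∈ Finset.range n, h ^ j from rfl, mul_geom_sum, hn, sub_self]
    rw [this, LinearMap.zero_apply]
  let e : V →ₗ[R] LinearMap.ker (h - 1) := S.codRestrict _ hS
  have h1 : (LinearMap.ker (h - 1)).subtype ∘ₗ e = S := LinearMap.subtype_comp_codRestrict _ _ _
  have h2 : e ∘ₗ (LinearMap.ker (h - 1)).subtype = (n : R) • LinearMap.id := by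
    ext v
    have hv : h (v : V) = v := by
      have := LinearMap.mem_ker.1 v.2
      rwa [LinearMap.sub_apply, Module.End.one_apply, sub_eq_zero] at this
    have hv' : ∀ j : ℕ, (h ^ j) (v : V) = v := by
      intro j
      induction j with
      | zero => rfl
      | succ j ih => rw [pow_succ', Module.End.mul_apply, ih, hv]
    show (S (v : V) : V) = (n : R) • (v : V)
    simp [S, LinearMap.sum_apply, hv', Nat.cast_smul_eq_nsmul]
  rw [← h1, LinearMap.trace_comp_comm', h2, map_smul, LinearMap.trace_id, smul_eq_mul]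
  push_cast
  ring

end Trace

section PermMatrix

variable {X : Type} [Fintype X] [DecidableEq X]

/-- The integral matrix of a permutation. -/
def permMat (π : Equiv.Perm X) : Matrix X X ℤ :=
  Matrix.of fun i j => if π.symm i = j then 1 else 0

theorem charpoly_permMap_id {K : Type} [Field K] (π : Equiv.Perm X) :
    (permMap π (LinearMap.id : K →ₗ[K] K)).charpoly =
      (permMat π).charpoly.map (Int.castRingHom K) := by
  rw [← LinearMap.charpoly_toMatrix _ (Pi.basisFun K X), ← Matrix.charpoly_map]
  congr 1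
  ext i j
  simp [permMat, LinearMap.toMatrix_apply, Pi.single_apply]

end PermMatrix

section Lattice

variable [Fintype C] {ι : Type} [Fintype ι] [DecidableEq ι]

/-- The rational representation attached to an integral matrix representation. -/
def ratRep (μ : C →* Matrix ι ι ℤ) : Representation ℚ C (ι → ℚ) :=
  (Matrix.toLinAlgEquiv' : Matrix ι ι ℚ ≃ₐ[ℚ] _).toMonoidHom.comp
    ((Int.castRingHom ℚ).mapMatrix.toMonoidHom.comp μ)

theorem ratRep_charpoly (μ : C →* Matrix ι ι ℤ) (g : C) :
    LinearMap.charpoly (ratRep μ g) = (μ g).charpoly.map (Int.castRingHom ℚ) := by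
  show (Matrix.toLin' ((μ g).map (Int.castRingHom ℚ))).charpoly = _
  rw [Matrix.charpoly_toLin', Matrix.charpoly_map]

theorem trace_ratRep (μ : C →* Matrix ι ι ℤ) (g : C) :
    LinearMap.trace ℚ _ (ratRep μ g) = ((μ g).trace : ℚ) := by
  show LinearMap.trace ℚ _ (Matrix.toLin' ((μ g).map (Int.castRingHom ℚ))) = _
  rw [Matrix.trace_toLin'_eq]
  simp [Matrix.trace]

end Lattice

section Main

variable [Fintype C] {φ : RepFn (ZMod p) C}
variable {M : Type} [AddCommGroup M] [Module.Finite ℤ M] [DistribMulAction C M]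
variable {X : Type} [Finite X] [MulAction C X]

/-- The action as a representation over the integers. -/
def intRep : Representation ℤ C M where
  toFun g := (DistribSMul.toAddMonoidHom M g).toIntLinearMap
  map_one' := by ext m; exact one_smul C m
  map_mul' g h := by ext m; exact mul_smul g h m

theorem torsion_invariant (g : C) :
    ∀ m ∈ Submodule.torsion ℤ M, intRep (M := M) g m ∈ Submodule.torsion ℤ M := by
  rintro m ⟨a, ha⟩
  refine ⟨a, ?_⟩
  rw [Submonoid.smul_def] at ha ⊢
  rw [← map_smul, ha, map_zero]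

/-- The action on the lattice quotient. -/
def latticeRep : Representation ℤ C (M ⧸ Submodule.torsion ℤ M) where
  toFun g := (Submodule.torsion ℤ M).mapQ _ (intRep g) (torsion_invariant g)
  map_one' := by
    refine Submodule.linearMap_qext _ (LinearMap.ext fun m => ?_)
    exact congrArg Submodule.Quotient.mk (one_smul C m)
  map_mul' g h := by
    refine Submodule.linearMap_qext _ (LinearMap.ext fun m => ?_)
    exact congrArg Submodule.Quotient.mk (mul_smul g h m)

/-- The matrices of the action on the lattice quotient. -/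
def latticeMat {ι : Type} [Fintype ι] [DecidableEq ι]
    (b : Basis ι ℤ (M ⧸ Submodule.torsion ℤ M)) : C →* Matrix ι ι ℤ :=
  (LinearMap.toMatrixAlgEquiv b).toMonoidHom.comp latticeRep

theorem finrank_fix_lattice (g : C) :
    finrank ℤ (LinearMap.ker (latticeRep (M := M) g - 1)) =
      finrank ℤ (FixedPoints.addSubgroup (Subgroup.zpowers g) M) := by
  let K := LinearMap.ker (intRep (M := M) g - 1)
  have hfix : ∀ m : M, m ∈ K ↔ m ∈ FixedPoints.addSubgroup (Subgroup.zpowers g) M := by
    intro m
    rw [LinearMap.mem_ker, LinearMap.sub_apply, Module.End.one_apply, sub_eq_zero]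
    refine ⟨fun h c => ?_, fun h => h ⟨g, Subgroup.mem_zpowers g⟩⟩
    have hst : g ∈ MulAction.stabilizer C m := MulAction.mem_stabilizer_iff.2 h
    exact MulAction.mem_stabilizer_iff.1 ((Subgroup.zpowers_le.2 hst) c.2)
  let eK : K ≃ₗ[ℤ] FixedPoints.addSubgroup (Subgroup.zpowers g) M :=
    { toFun := fun m => ⟨m.1, (hfix _).1 m.2⟩
      invFun := fun m => ⟨m.1, (hfix _).2 m.2⟩
      left_inv := fun m => rfl
      right_inv := fun m => rfl
      map_add' := fun a b => rfl
      map_smul' := fun a m => Subtype.ext (by simp) }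
  rw [← eK.finrank_eq]
  let L := LinearMap.ker (latticeRep (M := M) g - 1)
  let f : K →ₗ[ℤ] L := ((Submodule.torsion ℤ M).mkQ.comp K.subtype).codRestrict L fun m => by
    have hm : intRep g (m : M) = m := by
      have := m.2
      rwa [LinearMap.mem_ker, LinearMap.sub_apply, Module.End.one_apply, sub_eq_zero] at this
    rw [LinearMap.mem_ker, LinearMap.sub_apply, Module.End.one_apply, sub_eq_zero]
    exact congrArg Submodule.Quotient.mk hm
  have hN : Module.IsTorsion ℤ (LinearMap.ker f) := by
    intro x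
    have : ((x : K) : M) ∈ Submodule.torsion ℤ M := by
      have := congrArg Subtype.val (LinearMap.mem_ker.1 x.2)
      exact (Submodule.Quotient.mk_eq_zero _).1 this
    obtain ⟨a, ha⟩ := this
    exact ⟨a, Subtype.ext (Subtype.ext ha)⟩
  have h0 : finrank ℤ (LinearMap.ker f) = 0 := Module.finrank_eq_zero_iff_isTorsion.2 hN
  have h1 := Submodule.finrank_quotient_add_finrank (LinearMap.ker f)
  rw [h0, add_zero, f.quotKerEquivRange.finrank_eq] at h1
  rw [← h1]
  set n := Nat.card C with hn
  have hnz : (n : ℤ) ≠ 0 := Int.natCast_ne_zero.2 Nat.card_pos.ne'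
  let S : Module.End ℤ M := ∑ j ∈ Finset.range n, intRep g ^ j
  have hS : ∀ m, S m ∈ K := fun m => by
    rw [LinearMap.mem_ker, ← Module.End.mul_apply]
    have : (intRep (M := M) g - 1) * S = 0 := by
      rw [show S = ∑ j ∈ Finset.range n, intRep (M := M) g ^ j from rfl, mul_geom_sum, ← map_pow,
        hn, pow_card_eq_one', map_one, sub_self]
    rw [this, LinearMap.zero_apply]
  let t : L →ₗ[ℤ] LinearMap.range f := ((n : ℤ) • LinearMap.id).codRestrict _ fun l => by
    obtain ⟨m, hm⟩ := (Submodule.torsion ℤ M).mkQ_surjective (l : M ⧸ Submodule.torsion ℤ M)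
    refine ⟨⟨S m, hS m⟩, Subtype.ext ?_⟩
    have hl : latticeRep g (l : M ⧸ Submodule.torsion ℤ M) = l := by
      have := l.2
      rwa [LinearMap.mem_ker, LinearMap.sub_apply, Module.End.one_apply, sub_eq_zero] at this
    have hl' : ∀ j : ℕ, (Submodule.torsion ℤ M).mkQ ((intRep g ^ j) m) = l := by
      intro j
      induction j with
      | zero => simpa using hm
      | succ j ih =>
        rw [pow_succ', Module.End.mul_apply]
        conv_rhs => rw [← hl, ← ih]
        rfl
    show (Submodule.torsion ℤ M).mkQ (S m) = (((n : ℤ) • l : L) : M ⧸ Submodule.torsion ℤ M)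
    rw [LinearMap.sum_apply, map_sum, Finset.sum_congr rfl fun j _ => hl' j, Finset.sum_const,
      Finset.card_range, Submodule.coe_smul_of_tower, natCast_zsmul]
  have ht : Function.Injective t := by
    intro a b hab
    have := congrArg Subtype.val hab
    exact smul_right_injective L hnz this
  exact le_antisymm (LinearMap.finrank_le_finrank_of_injective ht) (Submodule.finrank_le _)

theorem finrank_fix_perm {Y : Type} [Finite Y] [MulAction C Y] (g : C) :
    finrank ℚ (LinearMap.ker (permTensor Y (1 : Representation ℚ C ℚ) g - 1)) =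
      Nat.card (MulAction.orbitRel.Quotient (Subgroup.zpowers g) Y) := by
  classical
  let O := MulAction.orbitRel.Quotient (Subgroup.zpowers g) Y
  have : Fintype O := Fintype.ofFinite O
  let P := permTensor Y (1 : Representation ℚ C ℚ) g
  have hP : ∀ (f : Y → ℚ) y, P f y = f (g⁻¹ • y) := fun f y => rfl
  let e : (O → ℚ) →ₗ[ℚ] (Y → ℚ) := LinearMap.funLeft ℚ ℚ (Quotient.mk'' : Y → O)
  have he : Function.Injective e :=
    LinearMap.funLeft_injective_of_surjective _ _ _ Quotient.mk''_surjective
  have hr : LinearMap.range e = LinearMap.ker (P - 1) := by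
    ext f
    rw [LinearMap.mem_ker, LinearMap.sub_apply, Module.End.one_apply, sub_eq_zero]
    constructor
    · rintro ⟨u, rfl⟩
      funext y
      rw [hP]
      exact congrArg u (Quotient.sound'
        ⟨⟨g⁻¹, Subgroup.inv_mem _ (Subgroup.mem_zpowers g)⟩, rfl⟩)
    · intro hf
      have h1 : ∀ y, f (g⁻¹ • y) = f y := fun y => by
        conv_rhs => rw [← hf]
        exact (hP f y).symm
      let H : Subgroup C :=
        { carrier := {c | ∀ y, f (c • y) = f y}
          mul_mem' := fun {a b} ha hb y => by rw [mul_smul, ha, hb]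
          one_mem' := fun y => by rw [one_smul]
          inv_mem' := fun {a} ha y => by
            conv_rhs => rw [← smul_inv_smul a y]
            exact (ha _).symm }
      have hgH : g ∈ H := by simpa using H.inv_mem (show g⁻¹ ∈ H from h1)
      refine ⟨fun o => Quotient.liftOn' o f fun a b hab => ?_, funext fun y => rfl⟩
      obtain ⟨c, rfl⟩ := hab
      exact (Subgroup.zpowers_le.2 hgH c.2) b
  show finrank ℚ (LinearMap.ker (P - 1)) = _
  rw [← hr, LinearMap.finrank_range_of_inj he, Module.finrank_fintype_fun_eq_card,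
    Nat.card_eq_fintype_card]

theorem charpoly_lattice {ι : Type} [Fintype ι] [DecidableEq ι]
    (b : Basis ι ℤ (M ⧸ Submodule.torsion ℤ M))
    (hrank : ∀ C₁ : Subgroup C, IsCyclic C₁ → finrank ℤ (FixedPoints.addSubgroup C₁ M) + 1 =
      Nat.card (MulAction.orbitRel.Quotient C₁ X)) [Fintype X] [DecidableEq X] (g : C) :
    ((latticeMat (C := C) b : C →* Matrix ι ι ℤ) g).charpoly * (Polynomial.X - Polynomial.C 1) =
      (permMat (MulAction.toPerm g : Equiv.Perm X)).charpoly := by
  set n := Nat.card C with hn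
  let μ : C →* Matrix ι ι ℤ := latticeMat (M := M) b
  have hfixL : ∀ c : C, finrank ℚ (LinearMap.ker (ratRep μ c - 1)) =
      finrank ℤ (LinearMap.ker (latticeRep (M := M) c - 1)) := by
    intro c
    have h1 := trace_sum_pow (n := n) (ratRep μ c)
      (by rw [← map_pow, pow_card_eq_one', map_one])
    have h2 := trace_sum_pow (n := n) (latticeRep (M := M) c)
      (by rw [← map_pow, pow_card_eq_one', map_one])
    simp only [map_sum, ← map_pow, trace_ratRep, LinearMap.trace_eq_matrix_trace ℤ b] at h1 h2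
    have h3 : ((n * finrank ℚ (LinearMap.ker (ratRep μ c - 1)) : ℕ) : ℚ) =
        ((n * finrank ℤ (LinearMap.ker (latticeRep (M := M) c - 1)) : ℕ) : ℚ) := by
      rw [← h1]
      have := congrArg (fun z : ℤ => (z : ℚ)) h2
      simp only [Matrix.trace_sum, Int.cast_sum, Int.cast_natCast] at this
      exact this
    exact Nat.eq_of_mul_eq_mul_left Nat.card_pos (by exact_mod_cast h3)
  let A : Module.End ℚ ((ι → ℚ) × ℚ) := (ratRep μ g).prodMap LinearMap.id
  let B : Module.End ℚ (X → ℚ) := permTensor X (1 : Representation ℚ C ℚ) g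
  have hA : ∀ j : ℕ, A ^ j = (ratRep μ (g ^ j)).prodMap LinearMap.id := by
    intro j
    induction j with
    | zero => ext <;> simp
    | succ j ih => ext <;> simp [pow_succ, ih, A]
  have key : A.charpoly = B.charpoly := by
    refine FiniteOrder.charpoly_eq_of_fixed (Nat.card_pos (α := C)) (finrank ℚ ((ι → ℚ) × ℚ)) A B rfl ?_ ?_
      fun m _ => ?_
    · rw [hA, pow_card_eq_one', map_one]
      ext <;> simp
    · rw [← map_pow, pow_card_eq_one', map_one]
    · have e1 : FiniteOrder.fixSub A m =
          (LinearMap.ker (ratRep μ (g ^ m) - 1)).prod ⊤ := by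
        ext ⟨x, y⟩
        simp [hA, sub_eq_zero]
      have e2 : finrank ℚ ((LinearMap.ker (ratRep μ (g ^ m) - 1)).prod (⊤ : Submodule ℚ ℚ)) =
          finrank ℚ (LinearMap.ker (ratRep μ (g ^ m) - 1)) + 1 := by
        let f := (LinearMap.ker (ratRep μ (g ^ m) - 1)).subtype.prodMap (LinearMap.id (R := ℚ) (M := ℚ))
        have hf : Function.Injective f := by
          rintro ⟨a, b⟩ ⟨a', b'⟩ h
          simp only [f, LinearMap.prodMap_apply, Submodule.subtype_apply, LinearMap.id_coe, id_eq,
            Prod.mk.injEq] at h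
          exact Prod.ext (Subtype.ext h.1) h.2
        have : LinearMap.range f = (LinearMap.ker (ratRep μ (g ^ m) - 1)).prod ⊤ := by
          simp [f, LinearMap.range_prodMap]
        rw [← this, LinearMap.finrank_range_of_inj hf, Module.finrank_prod, Module.finrank_self]
      have e3 : FiniteOrder.fixSub B m =
          LinearMap.ker (permTensor X (1 : Representation ℚ C ℚ) (g ^ m) - 1) := by
        simp [B]
      rw [e1, e2, e3, hfixL, finrank_fix_lattice, finrank_fix_perm]
      exact hrank _ inferInstance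
  have hid : (LinearMap.id : ℚ →ₗ[ℚ] ℚ).charpoly = Polynomial.X - Polynomial.C 1 := by
    rw [← Module.End.one_eq_id, LinearMap.charpoly_one, Module.finrank_self, pow_one, map_one]
  have hA' : A.charpoly = (μ g).charpoly.map (Int.castRingHom ℚ) *
      (Polynomial.X - Polynomial.C 1) := by
    rw [LinearMap.charpoly_prodMap, ratRep_charpoly, hid]
  have hB' : B.charpoly =
      (permMat (MulAction.toPerm g : Equiv.Perm X)).charpoly.map (Int.castRingHom ℚ) :=
    charpoly_permMap_id _
  apply Polynomial.map_injective (Int.castRingHom ℚ) Int.cast_injective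
  rw [Polynomial.map_mul, ← hB', ← key, hA']
  simp [μ]

/-- The Herbrand identity for an additive invariant. -/
theorem eq_add_of_rank (hC : ¬ p ∣ Nat.card C) (hφ : IsAdditive φ)
    (hrank : ∀ C₁ : Subgroup C, IsCyclic C₁ → finrank ℤ (FixedPoints.addSubgroup C₁ M) + 1 =
      Nat.card (MulAction.orbitRel.Quotient C₁ X))
    {A : Type} [AddCommGroup A] [Module (ZMod p) A] [FiniteDimensional (ZMod p) A]
    (ρA : Representation (ZMod p) C A) (π : M →+ A) (hQ : ModelQ ρA π)
    {B : Type} [AddCommGroup B] [Module (ZMod p) B]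
    (ρB : Representation (ZMod p) C B) (ι : B →+ M) (hT : ModelT ρB ι) :
    φ A ρA + φ (ZMod p) 1 =
      φ B ρB + φ (X → ZMod p) (permTensor X (1 : Representation (ZMod p) C (ZMod p))) := by
  classical
  have := Fintype.ofFinite X
  set T := Submodule.torsion ℤ M with hT0
  have : Finite T := Module.finite_of_fg_torsion T Submodule.torsion_isTorsion
  letI : DistribMulAction C T :=
    { smul := fun g m => ⟨intRep g m.1, torsion_invariant g m.1 m.2⟩
      one_smul := fun m => Subtype.ext (one_smul C (m : M))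
      mul_smul := fun g h m => Subtype.ext (mul_smul g h (m : M))
      smul_zero := fun g => Subtype.ext (smul_zero g)
      smul_add := fun g m m' => Subtype.ext (smul_add g (m : M) (m' : M)) }
  have hdiv : ∀ (z : M), p • z ∈ T → z ∈ T := by
    rintro z ⟨a, ha⟩
    refine ⟨a * ⟨(p : ℤ), mem_nonZeroDivisors_of_ne_zero (Int.natCast_ne_zero.2 hp.out.ne_zero)⟩, ?_⟩
    rw [Submonoid.smul_def] at ha ⊢
    rw [Submonoid.coe_mul, mul_smul, natCast_zsmul]
    exact ha
  let R : Submodule (ZMod p) A :=
    { carrier := {a | ∃ m ∈ T, π m = a}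
      add_mem' := by
        rintro _ _ ⟨m, hm, rfl⟩ ⟨m', hm', rfl⟩
        exact ⟨m + m', T.add_mem hm hm', map_add π m m'⟩
      zero_mem' := ⟨0, T.zero_mem, map_zero π⟩
      smul_mem' := by
        rintro c _ ⟨m, hm, rfl⟩
        obtain ⟨i, rfl⟩ := ZMod.natCast_zmod_surjective c
        exact ⟨i • m, nsmul_mem hm i, by rw [map_nsmul, Nat.cast_smul_eq_nsmul]⟩ }
  have hR : ∀ g, ∀ a ∈ R, ρA g a ∈ R := by
    rintro g _ ⟨m, hm, rfl⟩
    exact ⟨g • m, torsion_invariant g m hm, hQ.equi g m⟩
  let πT : T →+ R := AddMonoidHom.mk' (fun m => ⟨π m.1, m.1, m.2, rfl⟩)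
    fun a b => Subtype.ext (map_add π a.1 b.1)
  have hQT : ModelQ (subRep ρA R hR) πT := by
    refine ⟨?_, fun m => ?_, fun g m => Subtype.ext (hQ.equi g m.1)⟩
    · rintro ⟨a, m, hm, rfl⟩
      exact ⟨⟨m, hm⟩, rfl⟩
    · constructor
      · intro h
        obtain ⟨y, hy⟩ := (hQ.ker m.1).1 (congrArg Subtype.val h)
        exact ⟨⟨y, hdiv y (hy ▸ m.2)⟩, Subtype.ext hy⟩
      · rintro ⟨y, rfl⟩
        exact Subtype.ext ((hQ.ker _).2 ⟨y.1, rfl⟩)
  have hιT : ∀ b, ι b ∈ T := fun b => hdiv _ (by rw [(hT.range _).1 ⟨b, rfl⟩]; exact T.zero_mem)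
  let ιT : B →+ T := AddMonoidHom.mk' (fun b => ⟨ι b, hιT b⟩) fun a b => Subtype.ext (map_add ι a b)
  have hTT : ModelT ρB ιT := by
    refine ⟨fun a b h => hT.inj (congrArg Subtype.val h), fun m => ?_,
      fun g b => Subtype.ext (hT.equi g b)⟩
    constructor
    · rintro ⟨b, rfl⟩
      exact Subtype.ext ((hT.range _).1 ⟨b, rfl⟩)
    · intro hm
      obtain ⟨b, hb⟩ := (hT.range m.1).2 (congrArg Subtype.val hm)
      exact ⟨b, Subtype.ext hb⟩
  have : Finite B := Finite.of_injective ιT hTT.inj
  have : FiniteDimensional (ZMod p) B := Module.Finite.of_finite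
  have h1 : φ R (subRep ρA R hR) = φ B ρB := eq_of_finite hφ _ T R B _ πT _ ιT rfl hQT hTT
  rw [hφ _ _ _ _ _ _ (sesSub ρA R hR), h1, add_assoc, add_right_inj]
  let L₁ : List (RepObj (ZMod p) C) :=
    [⟨A ⧸ R, quotRep ρA R hR⟩, ⟨ZMod p, (1 : Representation (ZMod p) C (ZMod p))⟩]
  let L₂ : List (RepObj (ZMod p) C) :=
    [⟨X → ZMod p, permTensor X (1 : Representation (ZMod p) C (ZMod p))⟩]
  suffices h : (L₁.map fun Y => Y.app φ).sum = (L₂.map fun Y => Y.app φ).sum by
    simpa [L₁, L₂, RepObj.app] using h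
  refine sum_eq_of_prod_cp_eq hφ L₁ L₂ fun g => ?_
  let b := Module.Free.chooseBasis ℤ (M ⧸ T)
  choose m hm using fun i => T.mkQ_surjective (b i)
  let v : _ → A ⧸ R := fun i => Submodule.Quotient.mk (π (m i))
  let q : M →+ A ⧸ R := R.mkQ.toAddMonoidHom.comp π
  have hq0 : ∀ z ∈ T, q z = 0 := fun z hz =>
    (Submodule.Quotient.mk_eq_zero R).2 ⟨z, hz, rfl⟩
  have hqc : ∀ z, q z = ∑ i, ((b.repr (T.mkQ z) i : ℤ) : ZMod p) • v i := by
    intro z
    have : z - ∑ i, b.repr (T.mkQ z) i • m i ∈ T := by
      rw [← Submodule.Quotient.mk_eq_zero, ← Submodule.mkQ_apply, map_sub, map_sum]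
      simp only [map_smul, hm, b.sum_repr, sub_self]
    have h0 := hq0 _ this
    rw [map_sub, sub_eq_zero, map_sum] at h0
    rw [h0]
    exact Finset.sum_congr rfl fun i _ => by rw [map_zsmul, Int.cast_smul_eq_zsmul]; rfl
  have hspan : ⊤ ≤ Submodule.span (ZMod p) (Set.range v) := by
    rintro a -
    obtain ⟨a, rfl⟩ := R.mkQ_surjective a
    obtain ⟨z, rfl⟩ := hQ.surj a
    show q z ∈ _
    rw [hqc]
    exact Submodule.sum_mem _ fun i _ => Submodule.smul_mem _ _ (Submodule.subset_span ⟨i, rfl⟩)
  have hli : LinearIndependent (ZMod p) v := by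
    rw [Fintype.linearIndependent_iff]
    intro c hc i
    choose e he using fun i => ZMod.intCast_surjective (c i)
    have hz : q (∑ i, e i • m i) = 0 := by
      rw [map_sum, ← hc]
      exact Finset.sum_congr rfl fun i _ => by
        rw [map_zsmul, ← he i, Int.cast_smul_eq_zsmul]; rfl
    obtain ⟨u, hu, hu'⟩ := (Submodule.Quotient.mk_eq_zero R).1 hz
    obtain ⟨y, hy⟩ := (hQ.ker ((∑ i, e i • m i) - u)).1 (by rw [map_sub, hu', sub_self])
    have h2 := congrArg (fun z => b.repr (T.mkQ z) i) hy
    simp only [map_sub, map_nsmul, show T.mkQ u = 0 from (Submodule.Quotient.mk_eq_zero T).2 hu,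
      sub_zero, map_sum, map_smul, hm, Finsupp.coe_smul, Pi.smul_apply] at h2
    have h3 : e i = p • (b.repr (T.mkQ y)) i := by
      rw [h2]
      simp [Finsupp.single_apply]
    rw [← he i, h3]
    simp
  let bA := Basis.mk hli hspan
  have hmat : LinearMap.toMatrix bA bA (quotRep ρA R hR g) =
      (latticeMat b g).map (Int.castRingHom (ZMod p)) := by
    ext i j
    have e1 : quotRep ρA R hR g (bA j) = q (g • m j) := by
      rw [Basis.mk_apply]
      show Submodule.Quotient.mk (ρA g (π (m j))) = Submodule.Quotient.mk (π (g • m j))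
      rw [hQ.equi]
    have e2 : T.mkQ (g • m j) = latticeRep g (b j) := by
      rw [← hm j]
      rfl
    rw [LinearMap.toMatrix_apply, e1, hqc, e2, map_sum, Finset.sum_apply']
    simp only [map_smul, Finsupp.smul_apply, smul_eq_mul]
    rw [Finset.sum_eq_single i (fun l _ hl => by
      rw [← Basis.mk_apply hli hspan l, Basis.repr_self, Finsupp.single_eq_of_ne (Ne.symm hl),
        mul_zero])
      (fun h => absurd (Finset.mem_univ i) h),
      ← Basis.mk_apply hli hspan i, Basis.repr_self, Finsupp.single_eq_same, mul_one]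
    simp [latticeMat, LinearMap.toMatrixAlgEquiv_apply]
  have hid : (1 : Module.End (ZMod p) (ZMod p)).charpoly = Polynomial.X - Polynomial.C 1 := by
    rw [LinearMap.charpoly_one, Module.finrank_self, pow_one, map_one]
  have hperm : LinearMap.charpoly (permTensor X (1 : Representation (ZMod p) C (ZMod p)) g) =
      (permMat (MulAction.toPerm g : Equiv.Perm X)).charpoly.map (Int.castRingHom (ZMod p)) :=
    charpoly_permMap_id _
  simp only [L₁, L₂, List.map_cons, List.map_nil, List.prod_cons, List.prod_nil, mul_one]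
  show LinearMap.charpoly (quotRep ρA R hR g) *
    LinearMap.charpoly ((1 : Representation (ZMod p) C (ZMod p)) g) =
      LinearMap.charpoly (permTensor X (1 : Representation (ZMod p) C (ZMod p)) g)
  rw [hperm, ← charpoly_lattice b hrank g, Polynomial.map_mul, ← LinearMap.charpoly_toMatrix _ bA,
    hmat, Matrix.charpoly_map, MonoidHom.one_apply, hid]
  simp

/-- Herbrand: the structure of `M / p M` for a group of order prime to `p`. -/
theorem finrank_eqHom_eq (hC : ¬ p ∣ Nat.card C)
    (hrank : ∀ C₁ : Subgroup C, IsCyclic C₁ → finrank ℤ (FixedPoints.addSubgroup C₁ M) + 1 =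
      Nat.card (MulAction.orbitRel.Quotient C₁ X))
    {A : Type} [AddCommGroup A] [Module (ZMod p) A] [FiniteDimensional (ZMod p) A]
    (ρA : Representation (ZMod p) C A) (π : M →+ A) (hQ : ModelQ ρA π)
    {B : Type} [AddCommGroup B] [Module (ZMod p) B]
    (ρB : Representation (ZMod p) C B) (ι : B →+ M) (hT : ModelT ρB ι)
    {W : Type} [AddCommGroup W] [Module (ZMod p) W] [FiniteDimensional (ZMod p) W]
    (ρW : Representation (ZMod p) C W) :
    finrank (ZMod p) (eqHom ρW ρA) +
        finrank (ZMod p) (eqHom ρW (1 : Representation (ZMod p) C (ZMod p))) =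
      finrank (ZMod p) (eqHom ρW ρB) + finrank (ZMod p)
        (eqHom ρW (permTensor X (1 : Representation (ZMod p) C (ZMod p)))) := by
  have h := eq_add_of_rank hC (isAdditive_homDim hC ρW) hrank ρA π hQ ρB ι hT
  unfold homDim at h
  exact_mod_cast h

end Main

end FA.GalCoh.UnitsModP
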