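import Fermat.Agent.GalCoh.KummerUnits
import Fermat.Agent.TW.LocalQ
import Fermat.Agent.LocalDef.Unr

/-!
Inertia and Frobenius in the Galois group of `ℚ_q`, Frobenius exponents, and the vanishing of
unramified classes in degree two.
-/

set_option autoImplicit false
set_option linter.unusedSectionVars false

noncomputable section

namespace FA.GalCoh

open IntermediateField
open scoped Pointwise

variable (q : ℕ) [hq : Fact q.Prime]

/-- The inertia group of `ℚ_q`. -/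
def inertL : Subgroup (LG q) := ((padicPlace q).inertiaSubgroupIn ℚ).comap (loc q)

theorem inertiaSubgroupIn_le_decomposition (A : ValuationSubring (AlgebraicClosure ℚ)) :
    A.inertiaSubgroupIn ℚ ≤ A.decompositionSubgroup ℚ := fun σ hσ => by
  obtain ⟨x, -, rfl⟩ := hσ
  exact x.2

theorem mem_nonunits_padicPlace {x : AlgebraicClosure ℚ} :
    x ∈ (padicPlace q).nonunits ↔ ‖padicEmbedding q x‖ < 1 := by
  rw [ValuationSubring.mem_nonunits_iff_or]
  rcases eq_or_ne x 0 with rfl | hx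
  · simp
  · rw [or_iff_right hx, mem_padicPlace_iff, map_inv₀, nnnorm_inv, ← NNReal.coe_le_coe,
      NNReal.coe_inv, NNReal.coe_one, coe_nnnorm, not_le,
      one_lt_inv₀ (norm_pos_iff.2 ((_root_.map_ne_zero _).2 hx))]

theorem exists_loc_eq_frobenius : ∃ φ : LG q, (padicPlace q).IsFrobeniusAt (loc q φ) q := by
  obtain ⟨σ, hσ⟩ := Deform.exists_isFrobeniusAt hq.out (liesOverPrime_padicPlace q)
  obtain ⟨φ, rfl⟩ : σ ∈ (loc q).range := by rw [range_loc]; exact hσ.mem_decompositionSubgroup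
  exact ⟨φ, hσ⟩

/-- A Frobenius element of `ℚ_q`. -/
def frobL : LG q := (exists_loc_eq_frobenius q).choose

theorem frobL_spec : (padicPlace q).IsFrobeniusAt (loc q (frobL q)) q :=
  (exists_loc_eq_frobenius q).choose_spec

variable {q}

/-- Every element is a power of Frobenius times inertia, modulo any level. -/
theorem exists_frobL_decomp {M : Subgroup (LG q)} (hM : M ∈ (LL q).carrier) (g : LG q) :
    ∃ (i : ℕ), ∃ ι ∈ inertL q, ∃ m ∈ M, g = frobL q ^ i * ι * m := by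
  obtain ⟨N, hN, hle⟩ := exists_comap_loc_le hM
  obtain ⟨i, ι, hι, n, hn, e⟩ := TW.exists_frobenius_decomp hq.out (liesOverPrime_padicPlace q)
    (frobL_spec q) N (mem_LQ_iff_isOpen.1 hN)
    (σ := loc q g) (by rw [← range_loc]; exact ⟨g, rfl⟩)
  obtain ⟨t, ht⟩ : ι ∈ (loc q).range := by
    rw [range_loc]; exact inertiaSubgroupIn_le_decomposition _ hι
  refine ⟨i, t, by rw [inertL, Subgroup.mem_comap, ht]; exact hι,
    t⁻¹ * (frobL q ^ i)⁻¹ * g, hle ?_, by group⟩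
  rw [Subgroup.mem_comap, map_mul, map_mul, map_inv, map_inv, map_pow, ht, e]
  group
  exact hn

theorem exists_iota_root {m : ℕ} (hm : 0 < m) {x : PadicAlgCl q} (hx : x ^ m = 1) :
    ∃ y : AlgebraicClosure ℚ, y ^ m = 1 ∧ padicEmbedding q y = x := by
  have : NeZero (m : AlgebraicClosure ℚ) := ⟨Nat.cast_ne_zero.2 hm.ne'⟩
  obtain ⟨z, hz⟩ := HasEnoughRootsOfUnity.exists_primitiveRoot (AlgebraicClosure ℚ) m
  have : NeZero m := ⟨hm.ne'⟩
  obtain ⟨i, -, rfl⟩ :=
    (hz.map_of_injective (padicEmbedding q).injective).eq_pow_of_pow_eq_one hx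
  exact ⟨z ^ i, by rw [← pow_mul, mul_comm, pow_mul, hz.pow_eq_one, one_pow], map_pow _ _ _⟩

theorem sub_lt_of_mem_inertL {ι : LG q} (hι : ι ∈ inertL q) {y : AlgebraicClosure ℚ}
    (hy : ‖padicEmbedding q y‖ ≤ 1) :
    ‖ι (padicEmbedding q y) - padicEmbedding q y‖ < 1 := by
  rw [← iota_loc, ← map_sub, ← mem_nonunits_padicPlace, ValuationSubring.mem_nonunits_iff]
  refine (Local.inert_of_mem_inertiaSubgroupIn _ hι).sub_lt y
    (((padicPlace q).valuation_le_one_iff y).2 ?_)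
  rw [mem_padicPlace_iff, ← NNReal.coe_le_coe]
  exact hy

theorem inertL_apply_root {ι : LG q} (hι : ι ∈ inertL q) {m : ℕ} (hm : ¬ q ∣ m)
    {x : PadicAlgCl q} (hx : x ^ m = 1) : ι x = x := by
  have hm0 : 0 < m := Nat.pos_of_ne_zero fun h => hm (h ▸ dvd_zero q)
  obtain ⟨y, -, rfl⟩ := exists_iota_root hm0 hx
  refine root_eq_of_close hm (by rw [← map_pow, hx, map_one]) hx (sub_lt_of_mem_inertL hι ?_)
  rw [norm_root_of_unity hm0 hx]

theorem frobL_apply_root {m : ℕ} (hm : ¬ q ∣ m) {x : PadicAlgCl q} (hx : x ^ m = 1) :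
    frobL q x = x ^ q := by
  have hm0 : 0 < m := Nat.pos_of_ne_zero fun h => hm (h ▸ dvd_zero q)
  obtain ⟨y, -, rfl⟩ := exists_iota_root hm0 hx
  refine root_eq_of_close hm (by rw [← map_pow, hx, map_one])
    (by rw [← pow_mul, mul_comm, pow_mul, hx, one_pow]) ?_
  rw [← iota_loc, ← map_pow, ← map_sub, ← mem_nonunits_padicPlace]
  refine Density.sub_pow_mem_nonunits (frobL_spec q) ?_
  rw [mem_padicPlace_iff, ← NNReal.coe_le_coe]
  exact (norm_root_of_unity hm0 hx).le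

/-! ### Frobenius exponents -/

theorem expOrder_pos (N : ℕ) (hN : 0 < N) : 0 < q ^ N - 1 := by
  have := Nat.one_lt_pow hN.ne' hq.out.one_lt
  omega

theorem not_dvd_expOrder (N : ℕ) (hN : 0 < N) : ¬ q ∣ q ^ N - 1 := fun h => by
  have h2 : q ∣ q ^ N := dvd_pow_self q hN.ne'
  have h3 := Nat.one_lt_pow hN.ne' hq.out.one_lt
  have : q ∣ q ^ N - (q ^ N - 1) := Nat.dvd_sub h2 h
  rw [show q ^ N - (q ^ N - 1) = 1 by omega] at this
  exact hq.out.one_lt.ne' (Nat.dvd_one.1 this)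

theorem exponent_unique {N : ℕ} (hN : 0 < N) {ζ : PadicAlgCl q}
    (hζ : IsPrimitiveRoot ζ (q ^ N - 1)) {i j : ℕ} (h : ζ ^ q ^ i = ζ ^ q ^ j) :
    (i : ZMod N) = j := by
  have hord : orderOf (q : ZMod (q ^ N - 1)) = N := by
    refine (orderOf_eq_iff hN).2 ⟨?_, fun k hk hk0 h1 => ?_⟩
    · have := (ZMod.natCast_eq_natCast_iff (q ^ N) 1 (q ^ N - 1)).2
        ((Nat.modEq_iff_dvd' (Nat.one_le_pow _ _ hq.out.pos)).2 dvd_rfl).symm
      rwa [Nat.cast_pow, Nat.cast_one] at this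
    · replace h1 := (ZMod.natCast_eq_natCast_iff (q ^ k) 1 (q ^ N - 1)).1
        (by rwa [Nat.cast_pow, Nat.cast_one])
      have hdvd := (Nat.modEq_iff_dvd' (Nat.one_le_pow _ _ hq.out.pos)).1 h1.symm
      have hle := Nat.le_of_dvd (expOrder_pos k hk0) hdvd
      have := Nat.pow_lt_pow_right hq.out.one_lt hk
      have := Nat.one_lt_pow hk0.ne' hq.out.one_lt
      omega
  have hfin : IsOfFinOrder (q : ZMod (q ^ N - 1)) :=
    orderOf_pos_iff.1 (by rw [hord]; exact hN)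
  rwa [(hζ.isOfFinOrder (expOrder_pos N hN).ne').pow_eq_pow_iff_modEq, ← hζ.eq_orderOf,
    ← ZMod.natCast_eq_natCast_iff, Nat.cast_pow, Nat.cast_pow, hfin.pow_eq_pow_iff_modEq, hord,
    ← ZMod.natCast_eq_natCast_iff] at h

theorem exists_frobExp (N : ℕ) [NeZero N] (g : LG q) :
    ∃ i : ℕ, ∀ x : PadicAlgCl q, x ^ (q ^ N - 1) = 1 → g x = x ^ q ^ i := by
  obtain ⟨i, -, h⟩ := exists_frob_exponent g (Nat.pos_of_neZero N) (M := q ^ N - 1) dvd_rfl
  exact ⟨i, h⟩

/-- The exponent of Frobenius modulo `N`. -/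
def frobExp (N : ℕ) [NeZero N] (g : LG q) : ZMod N := ((exists_frobExp (q := q) N g).choose : ZMod N)

theorem frobExp_eq {N : ℕ} [NeZero N] {g : LG q} {i : ℕ}
    (h : ∀ x : PadicAlgCl q, x ^ (q ^ N - 1) = 1 → g x = x ^ q ^ i) : frobExp N g = (i : ZMod N) := by
  have hN := Nat.pos_of_neZero N
  have : NeZero ((q ^ N - 1 : ℕ) : PadicAlgCl q) := ⟨Nat.cast_ne_zero.2 (expOrder_pos N hN).ne'⟩
  obtain ⟨ζ, hζ⟩ := HasEnoughRootsOfUnity.exists_primitiveRoot (PadicAlgCl q) (q ^ N - 1)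
  exact exponent_unique hN hζ
    (((exists_frobExp N g).choose_spec ζ hζ.pow_eq_one).symm.trans (h ζ hζ.pow_eq_one))

theorem frobExp_mul {N : ℕ} [NeZero N] (g h : LG q) :
    frobExp N (g * h) = frobExp N g + frobExp N h := by
  obtain ⟨i, hi⟩ := exists_frobExp N g
  obtain ⟨j, hj⟩ := exists_frobExp N h
  rw [frobExp_eq hi, frobExp_eq hj, ← Nat.cast_add]
  refine frobExp_eq fun x hx => ?_
  rw [AlgEquiv.mul_apply, hj x hx, map_pow, hi x hx, ← pow_mul, ← pow_add]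

theorem frobExp_inertL {N : ℕ} [NeZero N] {ι : LG q} (hι : ι ∈ inertL q) :
    frobExp N ι = 0 := by
  rw [← Nat.cast_zero]
  refine frobExp_eq fun x hx => ?_
  rw [pow_zero, pow_one, inertL_apply_root hι (not_dvd_expOrder N (Nat.pos_of_neZero N)) hx]

theorem frobExp_frobL {N : ℕ} [NeZero N] : frobExp N (frobL q) = 1 := by
  rw [← Nat.cast_one]
  refine frobExp_eq fun x hx => ?_
  rw [pow_one, frobL_apply_root (not_dvd_expOrder N (Nat.pos_of_neZero N)) hx]

theorem frobExp_frobL_pow {N : ℕ} [NeZero N] (i : ℕ) : frobExp N (frobL q ^ i) = i := by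
  induction i with
  | zero =>
    rw [pow_zero, Nat.cast_zero, ← Nat.cast_zero]
    exact frobExp_eq fun x _ => by simp
  | succ i ih => rw [pow_succ, frobExp_mul, ih, frobExp_frobL, Nat.cast_succ]

theorem frobExp_lc (N : ℕ) [NeZero N] : LC₁ (LL q) (frobExp (q := q) N) := by
  have hN := Nat.pos_of_neZero N
  have : NeZero ((q ^ N - 1 : ℕ) : PadicAlgCl q) := ⟨Nat.cast_ne_zero.2 (expOrder_pos N hN).ne'⟩
  obtain ⟨ζ, hζ⟩ := HasEnoughRootsOfUnity.exists_primitiveRoot (PadicAlgCl q) (q ^ N - 1)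
  obtain ⟨M, hM, h⟩ := galAct_fieldLevels.smooth (L := fieldLevels ℚ_[q] (PadicAlgCl q)) ζ
  refine ⟨M, hM, fun g s hs => ?_⟩
  have : NeZero (q ^ N - 1) := ⟨(expOrder_pos N hN).ne'⟩
  rw [frobExp_mul, show frobExp N s = ((0 : ℕ) : ZMod N) from frobExp_eq fun x hx => by
    obtain ⟨i, -, rfl⟩ := hζ.eq_pow_of_pow_eq_one hx
    rw [pow_zero, pow_one, map_pow, show s ζ = ζ from h s hs], Nat.cast_zero, add_zero]

/-! ### Unramified representations -/

variable {k : Type} [Field k] {V : Type} [AddCommGroup V] [Module k V]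
variable {ρ : Representation k (LG q) V}

/-- Inertia acts trivially. -/
def UnrRep (ρ : Representation k (LG q) V) : Prop := ∀ ι ∈ inertL q, ρ ι = 1

/-- Some power of Frobenius lies in any level. -/
theorem exists_frobL_pow_mem {M : Subgroup (LG q)} (hM : M ∈ (LL q).carrier) :
    ∃ n : ℕ, 0 < n ∧ frobL q ^ n ∈ M := by
  have := (LL q).finiteIndex hM
  obtain ⟨n, hn, -, hmem⟩ := Subgroup.exists_pow_mem_of_index_ne_zero this.index_ne_zero (frobL q)
  exact ⟨n, hn, hmem⟩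

theorem UnrRep.apply_eq (hρ : UnrRep ρ) {N : ℕ} [NeZero N] (hpow : ρ (frobL q) ^ N = 1)
    (hs : Smooth (LL q) ρ) (g : LG q) : ρ g = ρ (frobL q) ^ (frobExp N g).val := by
  obtain ⟨M, hM, hM1⟩ := hs
  obtain ⟨M', hM', hM'1⟩ := frobExp_lc (q := q) N
  obtain ⟨i, ι, hι, m, hm, rfl⟩ := exists_frobL_decomp ((LL q).inf_mem hM hM') g
  rw [hM'1 _ m hm.2, frobExp_mul, frobExp_inertL hι, add_zero, frobExp_frobL_pow, map_mul, map_mul,
    hρ ι hι, hM1 m hm.1, mul_one, mul_one, map_pow, ZMod.val_natCast]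
  exact pow_eq_pow_mod i hpow

theorem mem_invariants_iff_frobL (hρ : UnrRep ρ) (hs : Smooth (LL q) ρ) {v : V} :
    v ∈ ρ.invariants ↔ ρ (frobL q) v = v := by
  refine ⟨fun h => h (frobL q), fun h g => ?_⟩
  obtain ⟨M, hM, hM1⟩ := hs
  obtain ⟨i, ι, hι, m, hm, rfl⟩ := exists_frobL_decomp hM g
  rw [map_mul, map_mul, hρ ι hι, hM1 m hm, mul_one, mul_one, map_pow]
  induction i with
  | zero => rfl
  | succ i ih => rw [pow_succ, Module.End.mul_apply, h, ih]

end FA.GalCoh
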